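/-
Item 86 (S36), slice LOC-D, part (G1) (helper21): the generic GAUSS BOUND.

`K` a field of characteristic `0`, `R` a valuation subring lying over the prime `p`
(`(p : K) ∈ R.nonunits`), `InG R` the Gauss ring of `R` in `K((𝐪))` (`H8PB.InG`).

* `H21DB.gauss_bound` : if `d₀ ∈ ℤ((𝐪))` has a coefficient not divisible by `p^(k+1)` and its image
  in `K((𝐪))` is `C c * u` with `InG R u`, then `c ∣ p^k` in `R` (`∃ r ∈ R, p^k = c * r`);
* `H21DB.gauss_bound_pow` : with `ϖ ∈ R` a non-unit and `p = ε ϖ^e`: `d = ϖ^m u`, `InG u` ⟹ `m ≤ e k`;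
* `H21DB.d1_bound`, `H21DB.d1_bound_pow` : the case `d₀ = D(x₀)`, `D = Res_Y(Φ, ∂Φ) ∈ ℤ[J]` the
  discriminant of the modular polynomial of level `p` (`H21DG.leadingCoeff_disc`: leading coefficient
  `± p^p`), `x₀` any base series (`x₀ = 𝐪⁻¹ + …`, e.g. `jqModC ℤ`): the Gauss valuation of the
  discriminant of `(1, j_p, …, j_p^p)` is at most `p` (`e = 1`).
Nothing here is proved by a placeholder.
-/
import Mathlib
import Fermat.Agent.S35.FWComp_helper10
import Fermat.Agent.S36.DiscGauss_helper21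

set_option autoImplicit false
set_option linter.unusedSectionVars false
set_option linter.unusedVariables false
set_option linter.style.haveILetI false

noncomputable section

namespace H21DB

open ModularCurve HahnSeries H8PB

section prim

/-- division of an integer series by `p` when all coefficients are divisible. -/
def divSeries (p : ℤ) (d : LaurentSeries ℤ) : LaurentSeries ℤ :=
  d.map (⟨fun a => a / p, by simp⟩ : ZeroHom ℤ ℤ)

theorem divSeries_coeff (p : ℤ) (d : LaurentSeries ℤ) (n : ℤ) :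
    (divSeries p d).coeff n = d.coeff n / p := rfl

theorem intCast_mul_coeff (c : ℤ) (x : LaurentSeries ℤ) (n : ℤ) :
    (((c : ℤ) : LaurentSeries ℤ) * x).coeff n = c * x.coeff n := by
  have h : ((c : ℤ) : LaurentSeries ℤ) = HahnSeries.C c := (map_intCast HahnSeries.C c).symm
  rw [h, HahnSeries.C_mul_eq_smul, HahnSeries.coeff_smul, smul_eq_mul]

theorem mul_divSeries (p : ℤ) (d : LaurentSeries ℤ) (h : ∀ n, p ∣ d.coeff n) :
    ((p : ℤ) : LaurentSeries ℤ) * divSeries p d = d := by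
  ext n
  rw [intCast_mul_coeff, divSeries_coeff, Int.mul_ediv_cancel' (h n)]

/-- **primitive part**: an integer series with a coefficient not divisible by `p^(k+1)` is
`p^κ · d'`, `κ ≤ k`, `d'` with a coefficient prime to `p`. -/
theorem exists_prim_part (p : ℕ) (hp : p.Prime) :
    ∀ (k : ℕ) (d : LaurentSeries ℤ) (n : ℤ), ¬ ((p : ℤ) ^ (k + 1) ∣ d.coeff n) →
      ∃ (κ : ℕ) (d' : LaurentSeries ℤ) (m : ℤ), κ ≤ k ∧
        d = (((p : ℤ) ^ κ : ℤ) : LaurentSeries ℤ) * d' ∧ ¬ ((p : ℤ) ∣ d'.coeff m) := by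
  intro k
  induction k with
  | zero =>
    intro d n hn
    refine ⟨0, d, n, le_refl _, by simp, ?_⟩
    simpa using hn
  | succ k ih =>
    intro d n hn
    by_cases hall : ∀ m, (p : ℤ) ∣ d.coeff m
    · have hp0 : (p : ℤ) ≠ 0 := by exact_mod_cast hp.ne_zero
      have h1 : ¬ ((p : ℤ) ^ (k + 1) ∣ (divSeries p d).coeff n) := by
        intro hdiv
        apply hn
        obtain ⟨c, hc⟩ := hdiv
        rw [divSeries_coeff] at hc
        refine ⟨c, ?_⟩
        rw [← Int.mul_ediv_cancel' (hall n), hc]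
        ring
      obtain ⟨κ, d', m, hκ, hd, hm⟩ := ih (divSeries p d) n h1
      refine ⟨κ + 1, d', m, Nat.succ_le_succ hκ, ?_, hm⟩
      rw [← mul_divSeries p d hall, hd, ← mul_assoc]
      congr 1
      push_cast
      ring
    · have hall' : ∃ m, ¬ (p : ℤ) ∣ d.coeff m := by
        by_contra hne
        apply hall
        intro m
        by_contra hm
        exact hne ⟨m, hm⟩
      obtain ⟨m, hm⟩ := hall'
      exact ⟨0, d, m, Nat.zero_le _, by simp, hm⟩

end prim

section gauss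

variable {K : Type} [Field K] (R : ValuationSubring K)

/-- constants of the Gauss ring lie in `R`. -/
theorem mem_of_inG_C {a : K} (h : InG R (HahnSeries.C a : LaurentSeries K)) : a ∈ R := by
  obtain ⟨f, g, ⟨n, hn⟩, e⟩ := h
  have e1 := congrArg (fun x : LaurentSeries K => x.coeff n) e
  simp only [HahnSeries.C_mul_eq_smul, HahnSeries.coeff_smul, smul_eq_mul, coeffMap_coeff] at e1
  obtain ⟨v, hv⟩ := hn
  have hg0 : ((g.coeff n : R) : K) ≠ 0 := by
    intro h0
    have : (g.coeff n : R) = 0 := Subtype.ext h0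
    rw [← hv] at this
    exact v.ne_zero this
  have e2 : a = ((f.coeff n * (v⁻¹ : Rˣ) : R) : K) := by
    have hvv : ((g.coeff n : R) : K) * (((v⁻¹ : Rˣ) : R) : K) = 1 := by
      rw [← hv]
      have : ((v : R) * ((v⁻¹ : Rˣ) : R) : R) = 1 := by simp
      exact_mod_cast congrArg (Subtype.val) this
    have e1' : a * ((g.coeff n : R) : K) = ((f.coeff n : R) : K) := e1
    push_cast
    rw [← e1', mul_assoc, hvv, mul_one]
  rw [e2]
  exact (f.coeff n * (v⁻¹ : Rˣ) : R).2

/-- a series over `R` with a unit coefficient is a unit of the Gauss ring. -/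
theorem inG_inv_of_isUnit_coeff (g : LaurentSeries R) (n : ℤ) (hn : IsUnit (g.coeff n)) :
    InG R (coeffMap R.subtype g)⁻¹ := by
  have hg0 : coeffMap R.subtype g ≠ 0 := by
    intro h0
    have := congrArg (fun x : LaurentSeries K => x.coeff n) h0
    simp only [coeffMap_coeff, HahnSeries.coeff_zero] at this
    have h1 : g.coeff n = 0 := Subtype.ext this
    rw [h1] at hn
    exact not_isUnit_zero hn
  refine ⟨1, g, ⟨n, hn⟩, ?_⟩
  rw [map_one, inv_mul_cancel₀ hg0]

end gauss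

section bound

variable {K : Type} [Field K] [CharZero K] (R : ValuationSubring K)

/-- integers prime to `p` are units of `R` (`R` over `p`). -/
theorem isUnit_intCast (p : ℕ) (hp : p.Prime) (hR : R.LiesOverPrime p) (n : ℤ)
    (hn : ¬ (p : ℤ) ∣ n) : IsUnit ((n : ℤ) : R) := by
  have hcop : IsCoprime n (p : ℤ) := by
    rw [Int.isCoprime_iff_gcd_eq_one]
    have h1 : ¬ p ∣ n.natAbs := fun h => hn (Int.natCast_dvd.2 h)
    have h2 : Nat.Coprime p n.natAbs := (Nat.Prime.coprime_iff_not_dvd hp).2 h1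
    simpa [Int.gcd] using h2.symm
  obtain ⟨a, b, hab⟩ := hcop
  have hpm : ((p : ℕ) : R) ∈ IsLocalRing.maximalIdeal R := by
    rw [IsLocalRing.mem_maximalIdeal, mem_nonunits_iff]
    intro hu
    have h3 : ((p : ℕ) : K) ∈ R.nonunits := hR
    rw [ValuationSubring.mem_nonunits_iff_exists_mem_maximalIdeal] at h3
    obtain ⟨hmem, hmax⟩ := h3
    rw [IsLocalRing.mem_maximalIdeal, mem_nonunits_iff] at hmax
    apply hmax
    have : (⟨((p : ℕ) : K), hmem⟩ : R) = ((p : ℕ) : R) := Subtype.ext (by simp)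
    rw [this]
    exact hu
  have hu : IsUnit (((a : ℤ) : R) * ((n : ℤ) : R)) := by
    have h4 : ((a : ℤ) : R) * ((n : ℤ) : R) = 1 - ((b : ℤ) : R) * ((p : ℕ) : R) := by
      have h5 := congrArg (Int.cast : ℤ → R) hab
      push_cast at h5
      linear_combination h5
    rw [h4]
    have h6 : ((b : ℤ) : R) * ((p : ℕ) : R) ∈ IsLocalRing.maximalIdeal R :=
      Ideal.mul_mem_left _ _ hpm
    by_contra hnu
    have h7 : 1 - ((b : ℤ) : R) * ((p : ℕ) : R) ∈ IsLocalRing.maximalIdeal R := by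
      rw [IsLocalRing.mem_maximalIdeal, mem_nonunits_iff]
      exact hnu
    have h8 : (1 : R) ∈ IsLocalRing.maximalIdeal R := by
      have h9 := Ideal.add_mem _ h7 h6
      rwa [sub_add_cancel] at h9
    exact (Ideal.ne_top_iff_one _).1 (IsLocalRing.maximalIdeal.isMaximal R).ne_top h8
  exact isUnit_of_mul_isUnit_right hu

theorem coeffMap_intCast {S T : Type} [CommRing S] [CommRing T] (f : S →+* T) (c : ℤ) :
    coeffMap f ((c : ℤ) : LaurentSeries S) = ((c : ℤ) : LaurentSeries T) := map_intCast _ c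

theorem intCast_eq_C (c : ℤ) : ((c : ℤ) : LaurentSeries K) = HahnSeries.C ((c : ℤ) : K) :=
  (map_intCast HahnSeries.C c).symm

/-- **(G1) the Gauss bound.** -/
theorem gauss_bound (p : ℕ) (hp : p.Prime) (hR : R.LiesOverPrime p) (k : ℕ)
    (d₀ : LaurentSeries ℤ) (n : ℤ) (hn : ¬ ((p : ℤ) ^ (k + 1) ∣ d₀.coeff n))
    (c : K) (u : LaurentSeries K) (hu : InG R u)
    (h : coeffMap (Int.castRingHom K) d₀ = HahnSeries.C c * u) :
    ∃ r : K, r ∈ R ∧ (p : K) ^ k = c * r := by
  obtain ⟨κ, d', m, hκ, hd, hm⟩ := exists_prim_part p hp k d₀ n hn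
  have hgu : IsUnit ((coeffMap (Int.castRingHom R) d').coeff m) := by
    rw [coeffMap_coeff]
    exact isUnit_intCast R p hp hR _ hm
  have hcomp : coeffMap R.subtype (coeffMap (Int.castRingHom R) d') =
      coeffMap (Int.castRingHom K) d' := by
    rw [coeffMap_coeffMap]
    exact coeffMap_congr (RingHom.ext_int _ _) d'
  have hinv := inG_inv_of_isUnit_coeff R _ m hgu
  rw [hcomp] at hinv
  have hx'0 : coeffMap (Int.castRingHom K) d' ≠ 0 := by
    intro h0
    have h1 := congrArg (fun x : LaurentSeries K => x.coeff m) h0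
    simp only [coeffMap_coeff, HahnSeries.coeff_zero, eq_intCast] at h1
    have h2 : d'.coeff m = 0 := by exact_mod_cast h1
    rw [h2] at hm
    exact hm (dvd_zero _)
  have hd0 : coeffMap (Int.castRingHom K) d₀ ≠ 0 := by
    intro h0
    have h1 := congrArg (fun x : LaurentSeries K => x.coeff n) h0
    simp only [coeffMap_coeff, HahnSeries.coeff_zero, eq_intCast] at h1
    have h2 : d₀.coeff n = 0 := by exact_mod_cast h1
    rw [h2] at hn
    exact hn (dvd_zero _)
  have hc0 : c ≠ 0 := by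
    rintro rfl
    apply hd0
    rw [h, map_zero, zero_mul]
  have e1 : coeffMap (Int.castRingHom K) d₀ =
      HahnSeries.C ((p : K) ^ κ) * coeffMap (Int.castRingHom K) d' := by
    rw [hd, map_mul, coeffMap_intCast, intCast_eq_C, Int.cast_pow, Int.cast_natCast]
  have hCc0 : (HahnSeries.C c : LaurentSeries K) ≠ 0 := by
    intro h0
    apply hc0
    have := congrArg (fun x : LaurentSeries K => x.coeff 0) h0
    simpa using this
  have e2 : u * (coeffMap (Int.castRingHom K) d')⁻¹ = HahnSeries.C ((p : K) ^ κ / c) := by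
    have e3 : HahnSeries.C c * u = HahnSeries.C ((p : K) ^ κ) * coeffMap (Int.castRingHom K) d' := by
      rw [← h, e1]
    have hu' : u = (HahnSeries.C c)⁻¹ *
        (HahnSeries.C ((p : K) ^ κ) * coeffMap (Int.castRingHom K) d') := by
      rw [← e3, ← mul_assoc, inv_mul_cancel₀ hCc0, one_mul]
    rw [hu', mul_assoc, mul_assoc, mul_inv_cancel₀ hx'0, mul_one, div_eq_mul_inv, map_mul,
      map_inv₀, mul_comm]
  have hmem : (p : K) ^ κ / c ∈ R :=
    mem_of_inG_C R (by rw [← e2]; exact H10FC.inG_mul' R hu hinv)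
  have hpR : (p : K) ∈ R := by
    have : ((p : ℕ) : K) = ((p : ℕ) : R) := by simp
    rw [this]
    exact ((p : ℕ) : R).2
  refine ⟨(p : K) ^ (k - κ) * ((p : K) ^ κ / c), R.mul_mem _ _ (pow_mem hpR _) hmem, ?_⟩
  rw [mul_comm c, mul_assoc, div_mul_cancel₀ _ hc0, ← _root_.pow_add]
  congr 1
  omega

/-- **(G1), DVR form**: `d = ϖ^m u`, `u` Gauss-integral ⟹ `m ≤ e k` (`p = ε ϖ^e`). -/
theorem gauss_bound_pow (p : ℕ) (hp : p.Prime) (hR : R.LiesOverPrime p) (k : ℕ)
    (d₀ : LaurentSeries ℤ) (n : ℤ) (hn : ¬ ((p : ℤ) ^ (k + 1) ∣ d₀.coeff n))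
    (ϖ : R) (hϖ : ¬ IsUnit ϖ) (e : ℕ) (ε : Rˣ) (hpe : ((p : ℕ) : R) = (ε : R) * ϖ ^ e)
    (m : ℕ) (u : LaurentSeries K) (hu : InG R u)
    (h : coeffMap (Int.castRingHom K) d₀ = HahnSeries.C ((ϖ : K) ^ m) * u) :
    m ≤ e * k := by
  obtain ⟨r, hr, hpk⟩ := gauss_bound R p hp hR k d₀ n hn _ u hu h
  have hϖ0 : ϖ ≠ 0 := by
    rintro rfl
    have hp0 : ((p : ℕ) : R) ≠ 0 := by
      intro h0
      have := congrArg (Subtype.val) h0
      simp at this
      exact hp.ne_zero this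
    by_cases he : e = 0
    · subst he
      rw [pow_zero, mul_one] at hpe
      have h3 : ((p : ℕ) : K) ∈ R.nonunits := hR
      rw [ValuationSubring.mem_nonunits_iff_exists_mem_maximalIdeal] at h3
      obtain ⟨hmem, hmax⟩ := h3
      rw [IsLocalRing.mem_maximalIdeal, mem_nonunits_iff] at hmax
      apply hmax
      have : (⟨((p : ℕ) : K), hmem⟩ : R) = ((p : ℕ) : R) := Subtype.ext (by simp)
      rw [this, hpe]
      exact ε.isUnit
    · rw [zero_pow he, mul_zero] at hpe
      exact hp0 hpe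
  by_contra hlt
  have hlt' : e * k < m := not_le.1 hlt
  have hR' : ((p : ℕ) : R) ^ k = ϖ ^ m * ⟨r, hr⟩ := by
    apply Subtype.ext
    push_cast
    simpa using hpk
  rw [hpe, mul_pow, ← pow_mul] at hR'
  have hm : m = e * k + (m - e * k) := by omega
  have h5 : ((ε : R) ^ k) * ϖ ^ (e * k) = ϖ ^ (e * k) * (ϖ ^ (m - e * k) * ⟨r, hr⟩) := by
    rw [hR', ← mul_assoc, ← _root_.pow_add, ← hm]
  have h6 : ((ε : R) ^ k) = ϖ ^ (m - e * k) * ⟨r, hr⟩ := by
    have h7 : ϖ ^ (e * k) ≠ 0 := pow_ne_zero _ hϖ0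
    apply mul_left_cancel₀ h7
    rw [← h5]
    ring
  have h8 : IsUnit (ϖ ^ (m - e * k) * (⟨r, hr⟩ : R)) := by
    rw [← h6]
    exact (ε ^ k).isUnit
  have h9 : IsUnit (ϖ ^ (m - e * k)) := isUnit_of_mul_isUnit_left h8
  have h10 : m - e * k ≠ 0 := by omega
  exact hϖ ((isUnit_pow_iff h10).1 h9)

end bound

section d1

open Polynomial H28S28

/-- `D(j) ∈ ℤ((𝐪))` for `D ∈ ℤ[J]`. -/
def evalJ (D : Polynomial ℤ) : LaurentSeries ℤ :=
  Polynomial.eval₂ (Int.castRingHom (LaurentSeries ℤ)) (jqModC ℤ) D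

theorem baseEval_one (D : Polynomial ℤ) : baseEval ℤ 1 D = evalJ D := by
  show Polynomial.eval₂ _ (qExpand ℤ 1 (jqModC ℤ)) D = _
  rw [qExpand_one_apply]
  rfl

/-- `baseEval ℤ p D = (D(j))(s^p)`. -/
theorem baseEval_eq_qExpand (p : ℕ) [NeZero p] (D : Polynomial ℤ) :
    baseEval ℤ p D = qExpand ℤ p (evalJ D) := by
  show Polynomial.eval₂ _ (qExpand ℤ p (jqModC ℤ)) D =
    qExpand ℤ p (Polynomial.eval₂ (Int.castRingHom (LaurentSeries ℤ)) (jqModC ℤ) D)
  rw [Polynomial.hom_eval₂]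
  congr 1
  exact RingHom.ext_int _ _

theorem exists_coeff_evalJ (D : Polynomial ℤ) (hD : D ≠ 0) :
    ∃ n, (evalJ D).coeff n = D.leadingCoeff := by
  have h0 : ((D.leadingCoeff : ℤ) : ℤ) ≠ 0 := by
    simpa using hD
  have h := H21DG.lc_baseEval ℤ 1 D h0
  rw [baseEval_one] at h
  refine ⟨(evalJ D).order, ?_⟩
  rw [← HahnSeries.leadingCoeff_eq, h]
  simp

theorem not_dvd_of_eq_or (p : ℕ) (hp : p.Prime) (k : ℕ) (a : ℤ)
    (h : a = (p : ℤ) ^ k ∨ a = -(p : ℤ) ^ k) : ¬ ((p : ℤ) ^ (k + 1) ∣ a) := by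
  have hp1 : ¬ ((p : ℤ) ^ (k + 1) ∣ (p : ℤ) ^ k) := by
    intro hd
    have h1 : (p ^ (k + 1) : ℕ) ∣ p ^ k := by exact_mod_cast hd
    have h2 := Nat.le_of_dvd (pow_pos hp.pos k) h1
    have h3 : p ^ k < p ^ (k + 1) := Nat.pow_lt_pow_right hp.one_lt (Nat.lt_succ_self k)
    omega
  rcases h with h | h
  · rw [h]; exact hp1
  · rw [h, dvd_neg]; exact hp1

variable {K : Type} [Field K] [CharZero K] (R : ValuationSubring K)

/-- **(D1), Gauss form**: the discriminant `D(j)` of the modular polynomial of level `p` has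
Gauss valuation `≤ p` (times the ramification index `e`). -/
theorem d1_bound_pow (p : ℕ) [NeZero p] (hp : p.Prime) (Φ : Polynomial (Polynomial ℤ))
    (hΦ : ∀ (A : Type) [CommRing A] (ζ : Aˣ), (Polynomial.cyclotomic p A).eval (ζ : A) = 0 →
      Φ.map (baseEval A p) = ∏ i : Option (Fin p), (X - Polynomial.C (xconj A p ζ i)))
    (hR : R.LiesOverPrime p)
    (ϖ : R) (hϖ : ¬ IsUnit ϖ) (e : ℕ) (ε : Rˣ) (hpe : ((p : ℕ) : R) = (ε : R) * ϖ ^ e)
    (m : ℕ) (u : LaurentSeries K) (hu : InG R u)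
    (h : coeffMap (Int.castRingHom K)
      (evalJ (Polynomial.resultant Φ (Polynomial.derivative Φ) (p + 1) p)) =
        HahnSeries.C ((ϖ : K) ^ m) * u) :
    m ≤ e * p := by
  have hlc := H21DG.leadingCoeff_disc p hp.two_le Φ hΦ
  have hD0 : Polynomial.resultant Φ (Polynomial.derivative Φ) (p + 1) p ≠ 0 := by
    intro h0
    rw [h0, Polynomial.leadingCoeff_zero] at hlc
    have hpp : ((p : ℤ) ^ p) ≠ 0 := pow_ne_zero _ (by exact_mod_cast hp.ne_zero)
    rcases hlc with h1 | h1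
    · exact hpp h1.symm
    · exact hpp (neg_eq_zero.1 h1.symm)
  obtain ⟨n, hn⟩ := exists_coeff_evalJ _ hD0
  exact gauss_bound_pow R p hp hR p _ n (by rw [hn]; exact not_dvd_of_eq_or p hp p _ hlc)
    ϖ hϖ e ε hpe m u hu h

end d1

end H21DB

end
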