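/-
Item 86 (S36), slice LOC-D, part (G2) (helper21): the discriminant of the powers of `y` from `n`
embeddings (Mathlib only).

`L / K` finite of degree `n`, characteristic `0`; `Ω` a field, `ρ₀ : K →+* Ω`, and `n` ring
homomorphisms `σ i : L →+* Ω` extending `ρ₀` with the `σ i y` pairwise distinct.  Then
`ρ₀ (discr_K (1, y, …, y^{n-1})) = ∏_{i < j} (σ j y - σ i y)²`   (`H21DF.discr_pow_eq_prod`),
and `= (-1)^{n(n-1)/2} ∏_{i ≠ j} (σ i y - σ j y)` (`H21DF.discr_pow_eq_prod_ne`).
Nothing here is proved by a placeholder.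
-/
import Mathlib

set_option autoImplicit false
set_option linter.unusedSectionVars false
set_option linter.unusedVariables false
set_option linter.style.haveILetI false

noncomputable section

namespace H21DF

open Finset Matrix

variable {K L Ω : Type*} [Field K] [Field L] [Field Ω] [Algebra K L] [FiniteDimensional K L]
  [CharZero K]

theorem discr_pow_eq_prod (n : ℕ) (hn : Module.finrank K L = n) (ρ₀ : K →+* Ω)
    (σ : Fin n → (L →+* Ω)) (hσ : ∀ i x, σ i (algebraMap K L x) = ρ₀ x) (y : L)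
    (hinj : Function.Injective (fun i => σ i y)) :
    ρ₀ (Algebra.discr K (fun i : Fin n => y ^ (i : ℕ))) =
      ∏ i : Fin n, ∏ j ∈ Finset.Ioi i, (σ j y - σ i y) ^ 2 := by
  classical
  letI : Algebra K Ω := ρ₀.toAlgebra
  let E := AlgebraicClosure Ω
  have hKE : ∀ x : K, algebraMap K E x = algebraMap Ω E (ρ₀ x) := fun x =>
    IsScalarTower.algebraMap_apply K Ω E x
  -- the embeddings into `E`
  let τ : Fin n → (L →ₐ[K] E) := fun i =>
    { ((algebraMap Ω E).comp (σ i)) with
      commutes' := fun x => by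
        show algebraMap Ω E (σ i (algebraMap K L x)) = algebraMap K E x
        rw [hσ, hKE] }
  have hτy : ∀ i, τ i y = algebraMap Ω E (σ i y) := fun i => rfl
  have hτinj : Function.Injective τ := by
    intro i j hij
    apply hinj
    have := congrArg (fun f : L →ₐ[K] E => f y) hij
    simp only [hτy] at this
    exact (algebraMap Ω E).injective this
  have hcard : Fintype.card (L →ₐ[K] E) = n := by
    rw [AlgHom.card K L E, hn]
  have hbij : Function.Bijective τ := by
    rw [Fintype.bijective_iff_injective_and_card]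
    exact ⟨hτinj, by rw [Fintype.card_fin, hcard]⟩
  let e : Fin n ≃ (L →ₐ[K] E) := Equiv.ofBijective τ hbij
  have h1 := Algebra.discr_eq_det_embeddingsMatrixReindex_pow_two K E
    (fun i : Fin n => y ^ (i : ℕ)) e
  have h2 : Algebra.embeddingsMatrixReindex K E (fun i : Fin n => y ^ (i : ℕ)) e =
      (Matrix.vandermonde (fun i : Fin n => algebraMap Ω E (σ i y)))ᵀ := by
    ext i j
    simp only [Algebra.embeddingsMatrixReindex, Algebra.embeddingsMatrix, Matrix.reindex_apply,
      Matrix.submatrix_apply, Matrix.of_apply, Matrix.transpose_apply, Matrix.vandermonde_apply,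
      Equiv.refl_symm, Equiv.coe_refl, id, Equiv.symm_symm]
    show (e j) (y ^ (i : ℕ)) = _
    rw [map_pow]
    rfl
  rw [h2, Matrix.det_transpose, Matrix.det_vandermonde] at h1
  apply (algebraMap Ω E).injective
  rw [← hKE, h1, map_prod, ← Finset.prod_pow]
  refine Finset.prod_congr rfl (fun i _ => ?_)
  rw [map_prod, ← Finset.prod_pow]
  refine Finset.prod_congr rfl (fun j _ => ?_)
  rw [map_pow, map_sub]

/-- the sign `∏_{i<j} (-1)` -/
def vsign (n : ℕ) : ℤ := ∏ i : Fin n, ∏ _j ∈ Finset.Ioi i, (-1 : ℤ)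

theorem vsign_eq (n : ℕ) : vsign n = 1 ∨ vsign n = -1 := by
  unfold vsign
  simp only [Finset.prod_const]
  rw [Finset.prod_pow_eq_pow_sum]
  exact neg_one_pow_eq_or ℤ _

/-- `∏_{i<j} (v j - v i)² = ± ∏_{i ≠ j} (v j - v i)`. -/
theorem prod_sq_eq {A : Type*} [CommRing A] (n : ℕ) (v : Fin n → A) :
    ∏ i : Fin n, ∏ j ∈ Finset.Ioi i, (v j - v i) ^ 2 =
      ((vsign n : ℤ) : A) * ∏ i : Fin n, ∏ j ∈ ({i}ᶜ : Finset (Fin n)), (v j - v i) := by
  rw [← Finset.prod_prod_Ioi_mul_eq_prod_prod_off_diag (fun j i => v j - v i)]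
  unfold vsign
  push_cast
  rw [← Finset.prod_mul_distrib]
  refine Finset.prod_congr rfl (fun i _ => ?_)
  rw [← Finset.prod_mul_distrib]
  refine Finset.prod_congr rfl (fun j _ => ?_)
  ring

/-- reindexing: for `e : Fin n ≃ ι`, `∏_{i ≠ j} (x (e j) - x (e i)) = ∏_{a} ∏_{b ≠ a} (x b - x a)`. -/
theorem prod_off_diag_reindex {A ι : Type*} [CommRing A] [Fintype ι] [DecidableEq ι] (n : ℕ)
    (e : Fin n ≃ ι) (x : ι → A) :
    ∏ i : Fin n, ∏ j ∈ ({i}ᶜ : Finset (Fin n)), (x (e j) - x (e i)) =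
      ∏ a : ι, ∏ b ∈ ({a}ᶜ : Finset ι), (x b - x a) := by
  refine Fintype.prod_equiv e _ _ (fun i => ?_)
  refine Finset.prod_bij (fun j _ => e j) ?_ ?_ ?_ ?_
  · intro j hj
    simp only [Finset.mem_compl, Finset.mem_singleton] at hj ⊢
    exact fun h => hj (e.injective h)
  · intro j _ j' _ h
    exact e.injective h
  · intro b hb
    refine ⟨e.symm b, ?_, by simp⟩
    simp only [Finset.mem_compl, Finset.mem_singleton] at hb ⊢
    intro h
    apply hb
    rw [← h, Equiv.apply_symm_apply]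
  · intro j _
    rfl

/-- **the discriminant of `(1, y, …, y^{n-1})` from `n` embeddings indexed by `ι`**:
`ρ₀ (discr) = ± ∏_{a} ∏_{b ≠ a} (σ b y - σ a y)`. -/
theorem discr_pow_eq_prod_ne {ι : Type*} [Fintype ι] [DecidableEq ι] (n : ℕ)
    (hn : Module.finrank K L = n) (e : Fin n ≃ ι) (ρ₀ : K →+* Ω)
    (σ : ι → (L →+* Ω)) (hσ : ∀ i x, σ i (algebraMap K L x) = ρ₀ x) (y : L)
    (hinj : Function.Injective (fun i => σ i y)) :
    ρ₀ (Algebra.discr K (fun i : Fin n => y ^ (i : ℕ))) =
      ((vsign n : ℤ) : Ω) * ∏ a : ι, ∏ b ∈ ({a}ᶜ : Finset ι), (σ b y - σ a y) := by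
  rw [discr_pow_eq_prod n hn ρ₀ (fun i => σ (e i)) (fun i x => hσ (e i) x) y
    (fun i j hij => e.injective (hinj hij)),
    prod_sq_eq n (fun i => σ (e i) y), prod_off_diag_reindex n e (fun a => σ a y)]

end H21DF

end
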