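/-
helper21, item 86 (S36), slice LOC-D, part (D1): the Gauss content of the discriminant of the
modular polynomial `Φ_q(J, Y)`.

All series are formal Laurent series in `s = q^{1/p}` (conventions of `H28S28`): the `p + 1`
conjugates of `j(q^p)` over `ℤ[j(q)]` are `x_∞ = j(s^{p²})` and `x_b = j(ζ^b s)`, `b < p`.

* `H21DG.lc_diff_some_some`, `lc_diff_none_some`, `lc_diff_some_none` : order and leading
  coefficient of the differences of two conjugates;
* `H21DG.cyc_prod` : `∏_{b' ≠ b} (η^b - η^{b'}) = p · (η^b)^{p-1}` for a primitive `p`-th root `η`;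
* `H21DG.lc_pairProd_sq` : the product `P` of all differences `x_i - x_{i'}` (`i ≠ i'`) is `≠ 0`
  and its leading coefficient `c` satisfies `c² = p^{2p}`;
* `H21DG.baseEval_resultant` : `P` is the image of `D = Res_Y(Φ, ∂Φ/∂Y) ∈ ℤ[J]`;
* `H21DG.leadingCoeff_disc` : the leading coefficient of `D` is `± p^p`.
Nothing here is proved by a placeholder.
-/
import Mathlib
import Fermat.Agent.S28.Interface

set_option autoImplicit false
set_option linter.unusedSectionVars false
set_option linter.unusedVariables false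
set_option linter.style.haveILetI false

noncomputable section

namespace H21DG

open HahnSeries Polynomial ModularCurve H28S28

section hahn

variable {A : Type} [CommRing A]

/-- order and leading coefficient from the first nonzero coefficient -/
theorem order_lc {x : LaurentSeries A} {n : ℤ} (h1 : x.coeff n ≠ 0)
    (h2 : ∀ m < n, x.coeff m = 0) : x ≠ 0 ∧ x.order = n ∧ x.leadingCoeff = x.coeff n := by
  have hx : x ≠ 0 := by
    rintro rfl
    exact h1 rfl
  have hle : x.order ≤ n := order_le_of_coeff_ne_zero h1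
  have hge : n ≤ x.order := by
    by_contra hlt
    have hlt' : x.order < n := not_le.1 hlt
    have h3 : x.leadingCoeff ≠ 0 := HahnSeries.leadingCoeff_ne_zero.2 hx
    rw [HahnSeries.leadingCoeff_eq] at h3
    exact h3 (h2 _ hlt')
  have he : x.order = n := le_antisymm hle hge
  exact ⟨hx, he, by rw [HahnSeries.leadingCoeff_eq, he]⟩

/-- the leading coefficient of a finite product, over a domain -/
theorem lc_prod [IsDomain A] {ι : Type*} (s : Finset ι) (f : ι → LaurentSeries A) :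
    (∏ i ∈ s, f i).leadingCoeff = ∏ i ∈ s, (f i).leadingCoeff := by
  classical
  induction s using Finset.induction_on with
  | empty => simp
  | insert a s ha ih => rw [Finset.prod_insert ha, Finset.prod_insert ha, HahnSeries.leadingCoeff_mul, ih]

end hahn

section diff

variable (A : Type) [CommRing A] [IsDomain A] (p : ℕ) [NeZero p] (ζ : Aˣ)

theorem coeff_xconj_some (b : Fin p) (n : ℤ) :
    (xconj A p ζ (some b)).coeff n = (((ζ ^ (b : ℕ)) ^ n : Aˣ) : A) * (jqModC A).coeff n :=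
  tw_coeff _ _ _

theorem coeff_xconj_some_of_lt (b : Fin p) {n : ℤ} (hn : n < -1) :
    (xconj A p ζ (some b)).coeff n = 0 := by
  rw [coeff_xconj_some, coeff_jqModC_of_lt A hn, mul_zero]

theorem coeff_xconj_none_top :
    (xconj A p ζ none).coeff (((p * p : ℕ) : ℤ) * (-1)) = 1 := by
  show (qExpand A (p * p) (jqModC A)).coeff (((p * p : ℕ) : ℤ) * (-1)) = 1
  rw [qExpand_coeff_mul, coeff_jqModC_neg_one]

theorem coeff_xconj_none_of_lt {m : ℤ} (hm : m < ((p * p : ℕ) : ℤ) * (-1)) :
    (xconj A p ζ none).coeff m = 0 := by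
  show (qExpand A (p * p) (jqModC A)).coeff m = 0
  by_cases hd : ((p * p : ℕ) : ℤ) ∣ m
  · obtain ⟨k, rfl⟩ := hd
    rw [qExpand_coeff_mul]
    apply coeff_jqModC_of_lt
    have hpos : (0 : ℤ) < ((p * p : ℕ) : ℤ) := by
      have := NeZero.ne p
      positivity
    by_contra hk
    have hk' : -1 ≤ k := not_lt.1 hk
    have : ((p * p : ℕ) : ℤ) * (-1) ≤ ((p * p : ℕ) : ℤ) * k :=
      mul_le_mul_of_nonneg_left hk' hpos.le
    omega
  · exact qExpand_coeff_of_not_dvd _ _ hd

/-- two twisted conjugates -/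
theorem lc_diff_some_some (b b' : Fin p)
    (h : (((ζ ^ (b : ℕ))⁻¹ : Aˣ) : A) ≠ (((ζ ^ (b' : ℕ))⁻¹ : Aˣ) : A)) :
    xconj A p ζ (some b) - xconj A p ζ (some b') ≠ 0 ∧
    (xconj A p ζ (some b) - xconj A p ζ (some b')).order = -1 ∧
    (xconj A p ζ (some b) - xconj A p ζ (some b')).leadingCoeff =
      (((ζ ^ (b : ℕ))⁻¹ : Aˣ) : A) - (((ζ ^ (b' : ℕ))⁻¹ : Aˣ) : A) := by
  have hc : (xconj A p ζ (some b) - xconj A p ζ (some b')).coeff (-1) =
      (((ζ ^ (b : ℕ))⁻¹ : Aˣ) : A) - (((ζ ^ (b' : ℕ))⁻¹ : Aˣ) : A) := by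
    rw [HahnSeries.coeff_sub, coeff_xconj_some, coeff_xconj_some, coeff_jqModC_neg_one, mul_one,
      mul_one, zpow_neg_one, zpow_neg_one]
  have h1 : (xconj A p ζ (some b) - xconj A p ζ (some b')).coeff (-1) ≠ 0 := by
    rw [hc]
    exact sub_ne_zero.2 h
  have h2 : ∀ m < (-1 : ℤ), (xconj A p ζ (some b) - xconj A p ζ (some b')).coeff m = 0 := by
    intro m hm
    rw [HahnSeries.coeff_sub, coeff_xconj_some_of_lt A p ζ b hm,
      coeff_xconj_some_of_lt A p ζ b' hm, sub_zero]
  obtain ⟨e1, e2, e3⟩ := order_lc h1 h2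
  exact ⟨e1, e2, by rw [e3, hc]⟩

theorem one_lt_mul_self (hp : 2 ≤ p) : ((p * p : ℕ) : ℤ) * (-1) < -1 := by
  have : 4 ≤ p * p := Nat.mul_le_mul hp hp
  have h4 : (4 : ℤ) ≤ ((p * p : ℕ) : ℤ) := by exact_mod_cast this
  omega

/-- `x_∞ - x_b` -/
theorem lc_diff_none_some (hp : 2 ≤ p) (b : Fin p) :
    xconj A p ζ none - xconj A p ζ (some b) ≠ 0 ∧
    (xconj A p ζ none - xconj A p ζ (some b)).order = ((p * p : ℕ) : ℤ) * (-1) ∧
    (xconj A p ζ none - xconj A p ζ (some b)).leadingCoeff = 1 := by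
  have hlt := one_lt_mul_self p hp
  have hc : (xconj A p ζ none - xconj A p ζ (some b)).coeff (((p * p : ℕ) : ℤ) * (-1)) = 1 := by
    rw [HahnSeries.coeff_sub, coeff_xconj_none_top, coeff_xconj_some_of_lt A p ζ b hlt, sub_zero]
  have h1 : (xconj A p ζ none - xconj A p ζ (some b)).coeff (((p * p : ℕ) : ℤ) * (-1)) ≠ 0 := by
    rw [hc]
    exact one_ne_zero
  have h2 : ∀ m < ((p * p : ℕ) : ℤ) * (-1),
      (xconj A p ζ none - xconj A p ζ (some b)).coeff m = 0 := by
    intro m hm
    rw [HahnSeries.coeff_sub, coeff_xconj_none_of_lt A p ζ hm,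
      coeff_xconj_some_of_lt A p ζ b (hm.trans hlt), sub_zero]
  obtain ⟨e1, e2, e3⟩ := order_lc h1 h2
  exact ⟨e1, e2, by rw [e3, hc]⟩

/-- `x_b - x_∞` -/
theorem lc_diff_some_none (hp : 2 ≤ p) (b : Fin p) :
    xconj A p ζ (some b) - xconj A p ζ none ≠ 0 ∧
    (xconj A p ζ (some b) - xconj A p ζ none).order = ((p * p : ℕ) : ℤ) * (-1) ∧
    (xconj A p ζ (some b) - xconj A p ζ none).leadingCoeff = -1 := by
  obtain ⟨e1, e2, e3⟩ := lc_diff_none_some A p ζ hp b
  have hneg : xconj A p ζ (some b) - xconj A p ζ none =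
      -(xconj A p ζ none - xconj A p ζ (some b)) := by ring
  refine ⟨?_, ?_, ?_⟩
  · rw [hneg]
    exact neg_ne_zero.2 e1
  · rw [hneg, HahnSeries.order_neg, e2]
  · rw [hneg, HahnSeries.leadingCoeff_neg, e3]

end diff

section cyc

variable {A : Type} [CommRing A] [IsDomain A]

/-- `∏_{k < p, k ≠ b} (η^b - η^k) = p (η^b)^(p-1)` for a primitive `p`-th root of unity `η` -/
theorem cyc_prod {p : ℕ} (hp : 0 < p) {η : A} (hη : IsPrimitiveRoot η p) (b : ℕ) (hb : b < p) :
    ∏ k ∈ (Finset.range p).erase b, (η ^ b - η ^ k) = (p : A) * (η ^ b) ^ (p - 1) := by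
  classical
  have hX : (X ^ p - Polynomial.C (1 : A)) =
      ∏ i ∈ Finset.range p, (X - Polynomial.C (η ^ i * 1)) :=
    X_pow_sub_C_eq_prod hη hp (one_pow p)
  have hL : eval (η ^ b) (derivative (X ^ p - Polynomial.C (1 : A))) =
      (p : A) * (η ^ b) ^ (p - 1) := by
    rw [derivative_sub, derivative_C, sub_zero, derivative_X_pow, eval_mul, eval_pow, eval_X,
      eval_C]
  have hR : eval (η ^ b) (derivative (∏ i ∈ Finset.range p, (X - Polynomial.C (η ^ i * 1)))) =
      ∏ k ∈ (Finset.range p).erase b, (η ^ b - η ^ k) := by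
    rw [derivative_prod_finset, eval_finsetSum]
    rw [Finset.sum_eq_single b]
    · rw [eval_mul, derivative_sub, derivative_X, derivative_C, sub_zero, eval_one, mul_one,
        eval_prod]
      refine Finset.prod_congr rfl (fun k _ => ?_)
      rw [eval_sub, eval_X, eval_C, mul_one]
    · intro a _ hab
      rw [eval_mul, eval_prod]
      have hbmem : b ∈ (Finset.range p).erase a :=
        Finset.mem_erase.2 ⟨fun h => hab h.symm, Finset.mem_range.2 hb⟩
      rw [Finset.prod_eq_zero hbmem, zero_mul]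
      rw [eval_sub, eval_X, eval_C, mul_one, sub_self]
    · intro h
      exact absurd (Finset.mem_range.2 hb) h
  rw [← hR, ← hX, hL]

/-- the same product over `Fin p`, with the diagonal factor replaced by `1` -/
theorem cyc_prod_fin {p : ℕ} (hp : 0 < p) {η : A} (hη : IsPrimitiveRoot η p) (b : Fin p) :
    ∏ b' : Fin p, (if b = b' then (1 : A) else η ^ (b : ℕ) - η ^ (b' : ℕ)) =
      (p : A) * (η ^ (b : ℕ)) ^ (p - 1) := by
  classical
  rw [← cyc_prod hp hη (b : ℕ) b.2]
  have h1 : ∏ b' : Fin p, (if b = b' then (1 : A) else η ^ (b : ℕ) - η ^ (b' : ℕ)) =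
      ∏ k ∈ Finset.range p, (if (b : ℕ) = k then (1 : A) else η ^ (b : ℕ) - η ^ k) := by
    rw [← Fin.prod_univ_eq_prod_range]
    refine Finset.prod_congr rfl (fun b' _ => ?_)
    by_cases h : b = b'
    · rw [if_pos h, if_pos (congrArg Fin.val h)]
    · rw [if_neg h, if_neg (fun h' => h (Fin.ext h'))]
  rw [h1, ← Finset.prod_erase (Finset.range p)
    (f := fun k => if (b : ℕ) = k then (1 : A) else η ^ (b : ℕ) - η ^ k) (a := (b : ℕ))
    (if_pos rfl)]
  refine Finset.prod_congr rfl (fun k hk => ?_)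
  rw [if_neg (fun h => (Finset.mem_erase.1 hk).1 h.symm)]

end cyc

section pair

variable (A : Type) [CommRing A] [IsDomain A] (p : ℕ) [NeZero p] (ζ : Aˣ)

/-- the difference of two conjugates, the diagonal replaced by `1` -/
def dconj (i i' : Option (Fin p)) : LaurentSeries A :=
  if i = i' then 1 else xconj A p ζ i - xconj A p ζ i'

/-- the product of all differences of two distinct conjugates of `j(q^p)` -/
def pairProd : LaurentSeries A := ∏ i : Option (Fin p), ∏ i' : Option (Fin p), dconj A p ζ i i'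

theorem units_inv_pow (b : ℕ) : (((ζ ^ b)⁻¹ : Aˣ) : A) = ((ζ⁻¹ : Aˣ) : A) ^ b := by
  rw [← inv_pow, Units.val_pow_eq_pow_val]

variable {A p ζ}

theorem lc_dconj_none_none : (dconj A p ζ none none).leadingCoeff = 1 := by
  rw [dconj, if_pos rfl, HahnSeries.leadingCoeff_one]

theorem lc_dconj_none_some (hp : 2 ≤ p) (b : Fin p) :
    (dconj A p ζ none (some b)).leadingCoeff = 1 := by
  rw [dconj, if_neg (by simp)]
  exact (lc_diff_none_some A p ζ hp b).2.2

theorem lc_dconj_some_none (hp : 2 ≤ p) (b : Fin p) :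
    (dconj A p ζ (some b) none).leadingCoeff = -1 := by
  rw [dconj, if_neg (by simp)]
  exact (lc_diff_some_none A p ζ hp b).2.2

theorem lc_dconj_some_some (hη : IsPrimitiveRoot ((ζ⁻¹ : Aˣ) : A) p) (b b' : Fin p) :
    (dconj A p ζ (some b) (some b')).leadingCoeff =
      if b = b' then (1 : A) else ((ζ⁻¹ : Aˣ) : A) ^ (b : ℕ) - ((ζ⁻¹ : Aˣ) : A) ^ (b' : ℕ) := by
  by_cases h : b = b'
  · rw [dconj, if_pos (congrArg some h), if_pos h, HahnSeries.leadingCoeff_one]
  · rw [dconj, if_neg (fun h' => h (Option.some.inj h')), if_neg h]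
    have hne : (((ζ ^ (b : ℕ))⁻¹ : Aˣ) : A) ≠ (((ζ ^ (b' : ℕ))⁻¹ : Aˣ) : A) := by
      rw [units_inv_pow, units_inv_pow]
      intro he
      exact h (Fin.ext (hη.pow_inj b.2 b'.2 he))
    rw [(lc_diff_some_some A p ζ b b' hne).2.2, units_inv_pow, units_inv_pow]

/-- the leading coefficient of the product of all differences -/
theorem lc_pairProd (hp : 2 ≤ p) (hη : IsPrimitiveRoot ((ζ⁻¹ : Aˣ) : A) p) :
    (pairProd A p ζ).leadingCoeff =
      ∏ b : Fin p, (-((p : A) * (((ζ⁻¹ : Aˣ) : A) ^ (b : ℕ)) ^ (p - 1))) := by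
  have hp0 : 0 < p := by omega
  rw [pairProd, lc_prod]
  simp only [lc_prod]
  rw [Fintype.prod_option, Fintype.prod_option]
  have h1 : ∏ b : Fin p, (dconj A p ζ none (some b)).leadingCoeff = 1 := by
    rw [Finset.prod_eq_one]
    intro b _
    exact lc_dconj_none_some hp b
  rw [lc_dconj_none_none, h1, one_mul, one_mul]
  refine Finset.prod_congr rfl (fun b _ => ?_)
  rw [Fintype.prod_option, lc_dconj_some_none hp b]
  simp only [lc_dconj_some_some hη]
  rw [cyc_prod_fin hp0 hη b]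
  ring

/-- **(D1), series form**: the product `P` of all differences of two distinct conjugates is
nonzero and its leading coefficient `c` satisfies `c² = p^(2p)`. -/
theorem lc_pairProd_sq (hp : 2 ≤ p) (hη : IsPrimitiveRoot ((ζ⁻¹ : Aˣ) : A) p) :
    (pairProd A p ζ).leadingCoeff ^ 2 = (p : A) ^ (2 * p) := by
  rw [lc_pairProd hp hη, ← Finset.prod_pow]
  have h1 : ∀ b : Fin p, (-((p : A) * (((ζ⁻¹ : Aˣ) : A) ^ (b : ℕ)) ^ (p - 1))) ^ 2 =
      (p : A) ^ 2 * ((ζ⁻¹ : Aˣ) : A) ^ ((b : ℕ) * (2 * (p - 1))) := by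
    intro b
    rw [neg_sq, mul_pow, ← pow_mul, ← pow_mul, mul_comm (p - 1) 2]
  simp only [h1]
  rw [Finset.prod_mul_distrib, Finset.prod_const, Finset.card_univ, Fintype.card_fin,
    Finset.prod_pow_eq_pow_sum, ← pow_mul]
  have hsum : ∑ b : Fin p, (b : ℕ) * (2 * (p - 1)) = p * ((p - 1) * (p - 1)) := by
    rw [← Finset.sum_mul, Fin.sum_univ_eq_sum_range (fun k => k) p, ← mul_assoc,
      Finset.sum_range_id_mul_two]
    ring
  rw [hsum, pow_mul ((ζ⁻¹ : Aˣ) : A) p, hη.pow_eq_one, one_pow, mul_one, mul_comm 2 p]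

end pair

section poly

variable (A : Type) [CommRing A] [IsDomain A] (p : ℕ) [NeZero p] (ζ : Aˣ)

/-- the derivative of `∏ (X - x_i)` at the root `x_i` -/
theorem eval_derivative_prod (i : Option (Fin p)) :
    eval (xconj A p ζ i)
        (derivative (∏ i' : Option (Fin p), (X - Polynomial.C (xconj A p ζ i')))) =
      ∏ i' : Option (Fin p), dconj A p ζ i i' := by
  classical
  rw [derivative_prod_finset, eval_finsetSum, Finset.sum_eq_single i]
  · rw [eval_mul, derivative_sub, derivative_X, derivative_C, sub_zero, eval_one, mul_one,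
      eval_prod, ← Finset.prod_erase Finset.univ (f := fun i' => dconj A p ζ i i') (a := i)
        (by rw [dconj, if_pos rfl])]
    refine Finset.prod_congr rfl (fun k hk => ?_)
    rw [eval_sub, eval_X, eval_C, dconj, if_neg (fun h => (Finset.mem_erase.1 hk).1 h.symm)]
  · intro a _ hai
    rw [eval_mul, eval_prod]
    have himem : i ∈ (Finset.univ : Finset (Option (Fin p))).erase a :=
      Finset.mem_erase.2 ⟨fun h => hai h.symm, Finset.mem_univ _⟩
    rw [Finset.prod_eq_zero himem, zero_mul]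
    rw [eval_sub, eval_X, eval_C, sub_self]
  · intro h
    exact absurd (Finset.mem_univ _) h

/-- **(D1), link**: the product of all differences of two distinct conjugates is the image of
the resultant `Res_Y(Φ, ∂Φ/∂Y) ∈ ℤ[J]`. -/
theorem baseEval_resultant (Φ : Polynomial (Polynomial ℤ))
    (hΦ : Φ.map (baseEval A p) =
      ∏ i : Option (Fin p), (X - Polynomial.C (xconj A p ζ i))) :
    baseEval A p (resultant Φ (derivative Φ) (p + 1) p) = pairProd A p ζ := by
  classical
  have hdeg : (∏ i : Option (Fin p), (X - Polynomial.C (xconj A p ζ i))).natDegree = p + 1 := by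
    rw [natDegree_finsetProd_X_sub_C_eq_card, Finset.card_univ, Fintype.card_option,
      Fintype.card_fin]
  have hdeg' : (derivative (∏ i : Option (Fin p),
      (X - Polynomial.C (xconj A p ζ i)))).natDegree ≤ p := by
    refine (natDegree_derivative_le _).trans ?_
    rw [hdeg]
    simp
  have hlc : ∏ i : Option (Fin p), (X - Polynomial.C (xconj A p ζ i)).leadingCoeff ≠ 0 := by
    simp
  rw [← resultant_map_map, ← derivative_map, hΦ]
  have h1 := resultant_prod_left (Finset.univ : Finset (Option (Fin p)))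
    (fun i => X - Polynomial.C (xconj A p ζ i))
    (derivative (∏ i : Option (Fin p), (X - Polynomial.C (xconj A p ζ i)))) p hlc hdeg'
  rw [hdeg] at h1
  rw [h1, pairProd]
  refine Finset.prod_congr rfl (fun i _ => ?_)
  rw [natDegree_X_sub_C, resultant_X_sub_C_left _ _ _ hdeg', eval_derivative_prod]

theorem coeff_intCast_mul (c : ℤ) (x : LaurentSeries A) (n : ℤ) :
    (((c : ℤ) : LaurentSeries A) * x).coeff n = (c : A) * x.coeff n := by
  have h : ((c : ℤ) : LaurentSeries A) = HahnSeries.C (c : A) := (map_intCast HahnSeries.C c).symm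
  rw [h, HahnSeries.C_mul_eq_smul, HahnSeries.coeff_smul, smul_eq_mul]

theorem coeff_base_pow_top (k : ℕ) :
    ((qExpand A p (jqModC A)) ^ k).coeff ((p : ℤ) * (-(k : ℤ))) = 1 := by
  rw [← map_pow, qExpand_coeff_mul, coeff_jqModC_pow_self]

theorem coeff_base_pow_of_lt (k : ℕ) {m : ℤ} (hm : m < (p : ℤ) * (-(k : ℤ))) :
    ((qExpand A p (jqModC A)) ^ k).coeff m = 0 := by
  rw [← map_pow]
  by_cases hd : (p : ℤ) ∣ m
  · obtain ⟨m', rfl⟩ := hd
    rw [qExpand_coeff_mul]
    apply coeff_jqModC_pow_of_lt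
    have hpos : (0 : ℤ) < (p : ℤ) := by
      have := NeZero.ne p
      positivity
    exact lt_of_mul_lt_mul_left hm hpos.le
  · exact qExpand_coeff_of_not_dvd _ _ hd

/-- for `D ∈ ℤ[J]` the series `D(j(s^p))` has leading coefficient `lc(D)` -/
theorem lc_baseEval (D : Polynomial ℤ) (hD : ((D.leadingCoeff : ℤ) : A) ≠ 0) :
    (baseEval A p D).leadingCoeff = ((D.leadingCoeff : ℤ) : A) := by
  have hpos : (0 : ℤ) < (p : ℤ) := by
    have := NeZero.ne p
    positivity
  have hE : baseEval A p D =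
      ∑ k ∈ Finset.range (D.natDegree + 1),
        ((D.coeff k : ℤ) : LaurentSeries A) * (qExpand A p (jqModC A)) ^ k := by
    show Polynomial.eval₂ (Int.castRingHom (LaurentSeries A)) (qExpand A p (jqModC A)) D = _
    rw [Polynomial.eval₂_eq_sum_range]
    rfl
  have hc : (baseEval A p D).coeff ((p : ℤ) * (-(D.natDegree : ℤ))) =
      ((D.leadingCoeff : ℤ) : A) := by
    rw [hE, HahnSeries.coeff_sum, Finset.sum_eq_single D.natDegree]
    · rw [coeff_intCast_mul, coeff_base_pow_top, mul_one]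
      rfl
    · intro k hk hkd
      have hk' : k < D.natDegree := lt_of_le_of_ne (Nat.lt_succ_iff.1 (Finset.mem_range.1 hk)) hkd
      rw [coeff_intCast_mul, coeff_base_pow_of_lt A p k, mul_zero]
      have : (-(D.natDegree : ℤ)) < -(k : ℤ) := by
        have : (k : ℤ) < (D.natDegree : ℤ) := by exact_mod_cast hk'
        omega
      exact mul_lt_mul_of_pos_left this hpos
    · intro h
      exact absurd (Finset.mem_range.2 (Nat.lt_succ_self _)) h
  have h1 : (baseEval A p D).coeff ((p : ℤ) * (-(D.natDegree : ℤ))) ≠ 0 := by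
    rw [hc]
    exact hD
  have h2 : ∀ m < (p : ℤ) * (-(D.natDegree : ℤ)), (baseEval A p D).coeff m = 0 := by
    intro m hm
    rw [hE, HahnSeries.coeff_sum]
    refine Finset.sum_eq_zero (fun k hk => ?_)
    have hk' : k ≤ D.natDegree := Nat.lt_succ_iff.1 (Finset.mem_range.1 hk)
    rw [coeff_intCast_mul, coeff_base_pow_of_lt A p k, mul_zero]
    have : (-(D.natDegree : ℤ)) ≤ -(k : ℤ) := by
      have : (k : ℤ) ≤ (D.natDegree : ℤ) := by exact_mod_cast hk'
      omega
    exact hm.trans_le (mul_le_mul_of_nonneg_left this hpos.le)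
  obtain ⟨_, _, e3⟩ := order_lc h1 h2
  rw [e3, hc]

variable {A p ζ}

/-- **(D1)**: the leading coefficient (in `J`) of `D = Res_Y(Φ, ∂Φ/∂Y) ∈ ℤ[J]` is `± p^p`,
for any `Φ ∈ ℤ[J][Y]` whose roots are the `p + 1` conjugates of `j(q^p)`. -/
theorem leadingCoeff_disc_of [CharZero A] (hp : 2 ≤ p)
    (hη : IsPrimitiveRoot ((ζ⁻¹ : Aˣ) : A) p) (Φ : Polynomial (Polynomial ℤ))
    (hΦ : Φ.map (baseEval A p) =
      ∏ i : Option (Fin p), (X - Polynomial.C (xconj A p ζ i))) :
    (resultant Φ (derivative Φ) (p + 1) p).leadingCoeff = (p : ℤ) ^ p ∨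
      (resultant Φ (derivative Φ) (p + 1) p).leadingCoeff = -(p : ℤ) ^ p := by
  set D := resultant Φ (derivative Φ) (p + 1) p with hDdef
  have hP := baseEval_resultant A p ζ Φ hΦ
  have hsq := lc_pairProd_sq hp hη
  have hp0 : (p : A) ≠ 0 := by
    have := NeZero.ne p
    exact_mod_cast this
  have hPne : pairProd A p ζ ≠ 0 := by
    intro h0
    rw [h0, HahnSeries.leadingCoeff_zero] at hsq
    exact pow_ne_zero _ hp0 (by rw [← hsq]; ring)
  have hD0 : D ≠ 0 := by
    intro h0
    apply hPne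
    rw [← hP, ← hDdef, h0, map_zero]
  have hlc0 : ((D.leadingCoeff : ℤ) : A) ≠ 0 := by
    have := Polynomial.leadingCoeff_ne_zero.2 hD0
    exact_mod_cast this
  have hlc := lc_baseEval A p D hlc0
  rw [hP] at hlc
  rw [hlc] at hsq
  have hZ : (D.leadingCoeff) ^ 2 = ((p : ℤ) ^ p) ^ 2 := by
    have h1 : (((D.leadingCoeff) ^ 2 : ℤ) : A) = ((((p : ℤ) ^ p) ^ 2 : ℤ) : A) := by
      push_cast
      rw [hsq, ← pow_mul, mul_comm]
    exact_mod_cast h1
  exact sq_eq_sq_iff_eq_or_eq_neg.1 hZ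

end poly

section final

/-- a primitive `p`-th root of unity in `ℂ`, as a unit -/
def zetaC (p : ℕ) [NeZero p] : ℂˣ :=
  Units.mk0 (Complex.exp (2 * Real.pi * Complex.I / p)) (Complex.exp_ne_zero _)

theorem zetaC_prim (p : ℕ) [NeZero p] : IsPrimitiveRoot ((zetaC p : ℂˣ) : ℂ) p :=
  Complex.isPrimitiveRoot_exp p (NeZero.ne p)

theorem zetaC_inv_prim (p : ℕ) [NeZero p] : IsPrimitiveRoot (((zetaC p)⁻¹ : ℂˣ) : ℂ) p := by
  have h := (zetaC_prim p).inv
  rwa [← Units.val_inv_eq_inv_val] at h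

theorem zetaC_cyclotomic (p : ℕ) [NeZero p] :
    (Polynomial.cyclotomic p ℂ).eval ((zetaC p : ℂˣ) : ℂ) = 0 := by
  have : (Polynomial.cyclotomic p ℂ).IsRoot ((zetaC p : ℂˣ) : ℂ) :=
    Polynomial.isRoot_cyclotomic_iff.2 (zetaC_prim p)
  exact this

/-- **(D1), final form**: for the modular polynomial `Φ` of the package `H28S28.HasModEq p`
(any `Φ ∈ ℤ[J][Y]` with the product formula over all `(A, ζ)`), the discriminant
`D = Res_Y(Φ, ∂Φ/∂Y) ∈ ℤ[J]` has leading coefficient `± p^p`; in particular its `p`-adic Gauss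
valuation is at most `p`. -/
theorem leadingCoeff_disc (p : ℕ) [NeZero p] (hp : 2 ≤ p) (Φ : Polynomial (Polynomial ℤ))
    (hΦ : ∀ (A : Type) [CommRing A] (ζ : Aˣ), (Polynomial.cyclotomic p A).eval (ζ : A) = 0 →
      Φ.map (baseEval A p) = ∏ i : Option (Fin p), (X - Polynomial.C (xconj A p ζ i))) :
    (resultant Φ (derivative Φ) (p + 1) p).leadingCoeff = (p : ℤ) ^ p ∨
      (resultant Φ (derivative Φ) (p + 1) p).leadingCoeff = -(p : ℤ) ^ p :=
  leadingCoeff_disc_of (A := ℂ) (ζ := zetaC p) hp (zetaC_inv_prim p) Φ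
    (hΦ ℂ (zetaC p) (zetaC_cyclotomic p))

end final

end H21DG
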