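import Fermat.Agent.S36.ALQK_helper12

/-!
# Item 86 (S36), slice (W2): `W_{q²}` at the level `M * q * q` (helper12)

`q` prime, `q ∤ M`, `K₁ : IntermediateField ℚ ℚ̄`.  The level is written `M * q * q`
(= the target level of the Prelude's `heckeAlphaBar Kbar (M * q) q`, `heckeBetaBar`).

* `H12WQ.wq2KHom K₁ M q hq hqM : FK K₁ (M * q * q) →+* FK K₁ (M * q * q)` (and `wq2K` as `≃+*`);
* `wq2KHom_invol`, `wq2KHom_const`, `wq2KHom_galois`;
* `coe_wq2KHom_of_level` : `W_{q²} x = (W_q x)(𝐪^q)` for `x` of level `M q`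
  (`W_q = H12AL.wqKHom K₁ M q hq hqM`);
* `coe_wq2KHom_qExpand`  : `W_{q²} (x(𝐪^q)) = W_q x` for `x` of level `M q`;
* `coe_wq2KHom_of_level_M` : `W_{q²} x = x(𝐪^{q²})` for `x` of level `M`;
* the same at the `ℚ̄`-level: `wq2BarHom`, `wq2BarHom_alpha`, `wq2BarHom_beta`.
-/

set_option autoImplicit false
set_option linter.style.longLine false
set_option linter.unusedSectionVars false
set_option linter.unusedVariables false
set_option linter.style.haveILetI false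

noncomputable section

open ModularCurve RH24 H29W H12AL

namespace H12WQ

variable (K₁ : IntermediateField ℚ Kbar) (M q : ℕ) [NeZero M] [NeZero q]

omit [NeZero M] [NeZero q] in
theorem coprime_sq (hq : q.Prime) (hqM : ¬ q ∣ M) : Nat.Coprime M (q * q) := by
  have h : Nat.Coprime M q := ((Nat.Prime.coprime_iff_not_dvd hq).mpr hqM).symm
  exact Nat.Coprime.mul_right h h

omit [NeZero M] [NeZero q] in
theorem coprime_one (hq : q.Prime) (hqM : ¬ q ∣ M) : Nat.Coprime M q :=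
  ((Nat.Prime.coprime_iff_not_dvd hq).mpr hqM).symm

/-! ### the `ℚ̄`-level -/

/-- `W_{q²}` of `F̄_{M q q}` -/
def wq2BarHom (hq : q.Prime) (hqM : ¬ q ∣ M) :
    modularFunctionFieldBar (M * q * q) →+* modularFunctionFieldBar (M * q * q) :=
  wLBarHom (M * q * q) M (q * q) (mul_assoc M q q) (coprime_sq M q hq hqM)

theorem wq2BarHom_invol (hq : q.Prime) (hqM : ¬ q ∣ M)
    (x : modularFunctionFieldBar (M * q * q)) :
    wq2BarHom M q hq hqM (wq2BarHom M q hq hqM x) = x :=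
  wLBarHom_invol _ _ _ _ _ x

theorem wq2BarHom_const (hq : q.Prime) (hqM : ¬ q ∣ M) (c : Kbar) :
    wq2BarHom M q hq hqM (algebraMap Kbar (modularFunctionFieldBar (M * q * q)) c) =
      algebraMap Kbar (modularFunctionFieldBar (M * q * q)) c :=
  wLBarHom_const _ _ _ _ _ c

theorem wq2BarHom_galois (hq : q.Prime) (hqM : ¬ q ∣ M) (σ : Kbar ≃ₐ[ℚ] Kbar)
    (x : modularFunctionFieldBar (M * q * q)) :
    wq2BarHom M q hq hqM (arithmeticRingAut (modularFunctionFieldFull (M * q * q)) σ x) =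
      arithmeticRingAut (modularFunctionFieldFull (M * q * q)) σ (wq2BarHom M q hq hqM x) :=
  wLBarHom_galois _ _ _ _ _ σ x

/-- `W_{q²} ∘ α = β ∘ W_q` -/
theorem wq2BarHom_alpha (hq : q.Prime) (hqM : ¬ q ∣ M) (x : modularFunctionFieldBar (M * q)) :
    wq2BarHom M q hq hqM (heckeAlphaBar Kbar (M * q) q x) =
      heckeBetaBar Kbar (M * q) q (wqBarHom M q hq hqM x) := by
  have h := wLBarHom_alpha (M * q) M q q rfl (mul_assoc M q q) (coprime_sq M q hq hqM)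
    (coprime_one M q hq hqM) x
  rw [wLBarHom_eq_wqBarHom M q hq hqM (coprime_one M q hq hqM)] at h
  exact h

/-- `W_{q²} ∘ β = α ∘ W_q` -/
theorem wq2BarHom_beta (hq : q.Prime) (hqM : ¬ q ∣ M) (x : modularFunctionFieldBar (M * q)) :
    wq2BarHom M q hq hqM (heckeBetaBar Kbar (M * q) q x) =
      heckeAlphaBar Kbar (M * q) q (wqBarHom M q hq hqM x) := by
  have h := wLBarHom_beta (M * q) M q q rfl (mul_assoc M q q) (coprime_sq M q hq hqM)
    (coprime_one M q hq hqM) x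
  rw [wLBarHom_eq_wqBarHom M q hq hqM (coprime_one M q hq hqM)] at h
  exact h

/-! ### the `K₁`-level -/

/-- **`W_{q²}`** of `F_{K₁}(M q q)` -/
def wq2KHom (hq : q.Prime) (hqM : ¬ q ∣ M) :
    ↥(laurentBaseChange ↥K₁ (modularFunctionFieldFull (M * q * q))) →+*
      ↥(laurentBaseChange ↥K₁ (modularFunctionFieldFull (M * q * q))) :=
  wLKHom K₁ (M * q * q) M (q * q) (mul_assoc M q q) (coprime_sq M q hq hqM)

/-- `W_{q²}` as a ring automorphism -/
def wq2K (hq : q.Prime) (hqM : ¬ q ∣ M) :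
    ↥(laurentBaseChange ↥K₁ (modularFunctionFieldFull (M * q * q))) ≃+*
      ↥(laurentBaseChange ↥K₁ (modularFunctionFieldFull (M * q * q))) :=
  wLK K₁ (M * q * q) M (q * q) (mul_assoc M q q) (coprime_sq M q hq hqM)

@[simp] theorem wq2K_apply (hq : q.Prime) (hqM : ¬ q ∣ M)
    (x : ↥(laurentBaseChange ↥K₁ (modularFunctionFieldFull (M * q * q)))) :
    wq2K K₁ M q hq hqM x = wq2KHom K₁ M q hq hqM x := rfl

@[simp] theorem wq2K_symm_apply (hq : q.Prime) (hqM : ¬ q ∣ M)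
    (x : ↥(laurentBaseChange ↥K₁ (modularFunctionFieldFull (M * q * q)))) :
    (wq2K K₁ M q hq hqM).symm x = wq2KHom K₁ M q hq hqM x := rfl

theorem phiK_wq2KHom (hq : q.Prime) (hqM : ¬ q ∣ M)
    (x : ↥(laurentBaseChange ↥K₁ (modularFunctionFieldFull (M * q * q)))) :
    phiK K₁ (M * q * q) (wq2KHom K₁ M q hq hqM x) =
      wq2BarHom M q hq hqM (phiK K₁ (M * q * q) x) :=
  phiK_wLKHom K₁ _ _ _ _ _ x

theorem wq2KHom_invol (hq : q.Prime) (hqM : ¬ q ∣ M)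
    (x : ↥(laurentBaseChange ↥K₁ (modularFunctionFieldFull (M * q * q)))) :
    wq2KHom K₁ M q hq hqM (wq2KHom K₁ M q hq hqM x) = x :=
  wLKHom_invol K₁ _ _ _ _ _ x

theorem wq2KHom_const (hq : q.Prime) (hqM : ¬ q ∣ M) (c : ↥K₁) :
    wq2KHom K₁ M q hq hqM (algebraMap ↥K₁ _ c) = algebraMap ↥K₁ _ c :=
  wLKHom_const K₁ _ _ _ _ _ c

theorem wq2KHom_galois (hq : q.Prime) (hqM : ¬ q ∣ M) (σ : Kbar ≃ₐ[ℚ] Kbar)
    (σ₁ : ↥K₁ →+* ↥K₁) (hσ : ∀ c : ↥K₁, ((σ₁ c : ↥K₁) : Kbar) = σ (c : Kbar))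
    (x y : ↥(laurentBaseChange ↥K₁ (modularFunctionFieldFull (M * q * q))))
    (hy : (y : LaurentSeries ↥K₁) = coeffMap σ₁ (x : LaurentSeries ↥K₁)) :
    ((wq2KHom K₁ M q hq hqM y : _) : LaurentSeries ↥K₁) =
      coeffMap σ₁ ((wq2KHom K₁ M q hq hqM x : _) : LaurentSeries ↥K₁) :=
  wLKHom_galois K₁ _ _ _ _ _ σ σ₁ hσ x y hy

/-- `W_{q²} x = (W_q x)(𝐪^q)` for `x` of level `M q` -/
theorem coe_wq2KHom_of_level (hq : q.Prime) (hqM : ¬ q ∣ M)
    (x : ↥(laurentBaseChange ↥K₁ (modularFunctionFieldFull (M * q * q))))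
    (x₁ : ↥(laurentBaseChange ↥K₁ (modularFunctionFieldFull (M * q))))
    (hx : (x : LaurentSeries ↥K₁) = (x₁ : LaurentSeries ↥K₁)) :
    ((wq2KHom K₁ M q hq hqM x : _) : LaurentSeries ↥K₁) =
      qExpand ↥K₁ q ((wqKHom K₁ M q hq hqM x₁ : _) : LaurentSeries ↥K₁) := by
  have h := coe_wLKHom_of_level K₁ (M * q) M q q rfl (mul_assoc M q q) (coprime_sq M q hq hqM)
    (coprime_one M q hq hqM) x x₁ hx
  rw [wLKHom_eq_wqKHom K₁ M q hq hqM (coprime_one M q hq hqM)] at h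
  exact h

/-- `W_{q²} (x(𝐪^q)) = W_q x` for `x` of level `M q` -/
theorem coe_wq2KHom_qExpand (hq : q.Prime) (hqM : ¬ q ∣ M)
    (y : ↥(laurentBaseChange ↥K₁ (modularFunctionFieldFull (M * q * q))))
    (x₁ : ↥(laurentBaseChange ↥K₁ (modularFunctionFieldFull (M * q))))
    (hy : (y : LaurentSeries ↥K₁) = qExpand ↥K₁ q (x₁ : LaurentSeries ↥K₁)) :
    ((wq2KHom K₁ M q hq hqM y : _) : LaurentSeries ↥K₁) =
      ((wqKHom K₁ M q hq hqM x₁ : _) : LaurentSeries ↥K₁) := by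
  have h := coe_wLKHom_qExpand K₁ (M * q) M q q rfl (mul_assoc M q q) (coprime_sq M q hq hqM)
    (coprime_one M q hq hqM) y x₁ hy
  rw [wLKHom_eq_wqKHom K₁ M q hq hqM (coprime_one M q hq hqM)] at h
  exact h

/-- `W_{q²} x = x(𝐪^{q²})` for `x` of level `M` -/
theorem coe_wq2KHom_of_level_M (hq : q.Prime) (hqM : ¬ q ∣ M)
    (x : ↥(laurentBaseChange ↥K₁ (modularFunctionFieldFull (M * q * q))))
    (x₁ : ↥(laurentBaseChange ↥K₁ (modularFunctionFieldFull (M * q))))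
    (hx : (x : LaurentSeries ↥K₁) = (x₁ : LaurentSeries ↥K₁))
    (hxM : (x₁ : LaurentSeries ↥K₁) ∈ laurentBaseChange ↥K₁ (modularFunctionFieldFull M)) :
    ((wq2KHom K₁ M q hq hqM x : _) : LaurentSeries ↥K₁) =
      qExpand ↥K₁ q (qExpand ↥K₁ q (x : LaurentSeries ↥K₁)) := by
  rw [coe_wq2KHom_of_level K₁ M q hq hqM x x₁ hx, coe_wqKHom_of_level K₁ M q hq hqM x₁ hxM, hx]

end H12WQ

end
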