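/-
Item 86 (S36), slice **V3** (helper3), part 1 (analytic): the THIRD embedding of
`F̄_M = modularFunctionFieldBar M`, `q² ∥ M`, into `ℂ((𝐪))` — the `𝐪`-expansion at the cusp
`1/(M/q)` — with

  `φ₃ (j(𝐪^d)) = j(𝐪^d)`                      (`q² ∤ d`),
  `φ₃ (j(𝐪^{d' q²})) = tw_u (j(𝐪^{d'}))`     (`d' ∣ M / q²`),   `tw_u : 𝐪 ↦ u 𝐪`,

`u = exp (2πi k / q)` any primitive `q`-th root of unity (`q ∤ k`).

Analytic input: the substitution `z ↦ γ z`, `γ = (1, 0; c, 1)`, `c = q N' a`,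
`N' a k ≡ 1 mod q` (`N' = M / q²`), the translation `z ↦ z + k/q`, and the `q`-expansion
principle (`RH24.qexp_principle`, `H23M.Lam_comp_T`).
-/
import Mathlib
import Fermat.Agent.S24.BJ3
import Fermat.Agent.S24.BA12
import Fermat.Agent.S24.BJ12
import Fermat.Agent.H23.DeltaN

set_option autoImplicit false
set_option linter.style.longLine false
set_option linter.unusedVariables false
set_option linter.unusedSectionVars false
set_option linter.style.haveILetI false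

noncomputable section

open UpperHalfPlane ModularForm MatrixGroups CongruenceSubgroup
open H23 H23.Rel H23M ModularCurve H28S28 RH24
open scoped Manifold Real

namespace H3V3

variable (M : ℕ) [NeZero M] (q : ℕ)

/-- `d / q²` as a divisor of `M` (for `q² ∣ d`). -/
def dvLow (d : Dv M) (h : q ^ 2 ∣ d.1) : Dv M :=
  ⟨d.1 / q ^ 2, (Nat.div_dvd_of_dvd h).trans d.2⟩

/-- the twisted formal generators over `ℂ` -/
def g3C (u : ℂˣ) (d : Dv M) : LaurentSeries ℂ :=
  if h : q ^ 2 ∣ d.1 then tw u (JC (dvLow M q d h)) else JC d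

/-- the twisted analytic generators -/
def jd3 (x : ℝ) (d : Dv M) (z : ℍ) : ℂ :=
  if q ^ 2 ∣ d.1 then jd (d.1 / q ^ 2) (h12_T x • z) else jd d.1 z

/-- `w ↦ F (w + x)` -/
def compT (x : ℝ) (F : niceAlg) : niceAlg :=
  ⟨fun w => (F : ℍ → ℂ) (h12_T x • w), nice_comp_T x F.2⟩

theorem Lam_compT (x : ℝ) (u : ℂˣ) (hu : (u : ℂ) = Complex.exp (2 * π * Complex.I * x))
    (F : niceAlg) : Lam (compT x F) = tw u (Lam F) :=
  Lam_comp_T x u hu F

/-- clearing denominators for the twisted tuple -/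
theorem clear3 (x : ℝ) (u : ℂˣ) (hu : (u : ℂ) = Complex.exp (2 * π * Complex.I * x))
    (P : MvPolynomial (Dv M) ℂ) :
    ∃ v Q : niceAlg, (∀ z : ℍ, (v : ℍ → ℂ) z ≠ 0) ∧
      (∀ z : ℍ, (Q : ℍ → ℂ) z
        = (v : ℍ → ℂ) z * MvPolynomial.eval (fun d : Dv M => jd3 M q x d z) P) ∧
      Lam Q = Lam v * MvPolynomial.aeval (fun d : Dv M => g3C M q u d) P := by
  induction P using MvPolynomial.induction_on with
  | C a =>
    refine ⟨1, algebraMap ℂ niceAlg a, fun z => one_ne_zero, fun z => ?_, ?_⟩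
    · simp only [MvPolynomial.eval_C]
      show a = 1 * a
      rw [one_mul]
    · rw [map_one, one_mul, Lam_algebraMap]
      simp only [MvPolynomial.aeval_C]
      rw [HahnSeries.algebraMap_apply', PowerSeries.algebraMap_apply,
        Algebra.algebraMap_self_apply, HahnSeries.ofPowerSeries_C]
  | add P₁ P₂ ih₁ ih₂ =>
    obtain ⟨u₁, Q₁, hu₁, hQ₁, hL₁⟩ := ih₁
    obtain ⟨u₂, Q₂, hu₂, hQ₂, hL₂⟩ := ih₂
    refine ⟨u₁ * u₂, u₂ * Q₁ + u₁ * Q₂, fun z => mul_ne_zero (hu₁ z) (hu₂ z), fun z => ?_, ?_⟩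
    · show (u₂ : ℍ → ℂ) z * (Q₁ : ℍ → ℂ) z + (u₁ : ℍ → ℂ) z * (Q₂ : ℍ → ℂ) z
        = (u₁ : ℍ → ℂ) z * (u₂ : ℍ → ℂ) z * _
      rw [hQ₁ z, hQ₂ z, map_add]
      ring
    · rw [map_add, map_mul, map_mul, map_mul, map_add, hL₁, hL₂]
      ring
  | mul_X P d ih =>
    obtain ⟨v, Q, hv, hQ, hL⟩ := ih
    haveI : NeZero d.1 := ⟨Dv_ne_zero d⟩
    by_cases hd : q ^ 2 ∣ d.1
    · haveI : NeZero (d.1 / q ^ 2) := ⟨Dv_ne_zero (dvLow M q d hd)⟩
      refine ⟨v * compT x (compDiag (d.1 / q ^ 2) Dn),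
        Q * compT x (compDiag (d.1 / q ^ 2) E4n) ^ 3,
        fun z => mul_ne_zero (hv z) (discriminant_ne_zero _), fun z => ?_, ?_⟩
      · show (Q : ℍ → ℂ) z * (E₄ (ModularForm.heckeDiagMatrix (d.1 / q ^ 2) • (h12_T x • z))) ^ 3
          = (v : ℍ → ℂ) z *
            ModularForm.discriminant (ModularForm.heckeDiagMatrix (d.1 / q ^ 2) • (h12_T x • z)) * _
        rw [hQ z, map_mul, MvPolynomial.eval_X, ← h16bj_jd_mul]
        have : jd3 M q x d z = jd (d.1 / q ^ 2) (h12_T x • z) := by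
          unfold jd3
          rw [if_pos hd]
        rw [this]
        ring
      · rw [map_mul, map_mul, map_pow, hL, Lam_compT x u hu, Lam_compT x u hu, ← map_pow,
          Lam_compDiag_E4n_pow (d.1 / q ^ 2) qExpansion_E4,
          Lam_compDiag_Dn (d.1 / q ^ 2) qExpansion_disc, map_mul, map_mul]
        have hX : MvPolynomial.aeval (R := ℂ) (fun d : Dv M => g3C M q u d)
            (MvPolynomial.X d) = tw u (Jp (d.1 / q ^ 2)) := by
          rw [MvPolynomial.aeval_X]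
          unfold g3C
          rw [dif_pos hd]
          rfl
        rw [hX]
        ring
    · refine ⟨v * compDiag d.1 Dn, Q * compDiag d.1 E4n ^ 3,
        fun z => mul_ne_zero (hv z) (discriminant_ne_zero _), fun z => ?_, ?_⟩
      · show (Q : ℍ → ℂ) z * (E₄ (ModularForm.heckeDiagMatrix d.1 • z)) ^ 3
          = (v : ℍ → ℂ) z * ModularForm.discriminant (ModularForm.heckeDiagMatrix d.1 • z) * _
        rw [hQ z, map_mul, MvPolynomial.eval_X, ← h16bj_jd_mul]
        have : jd3 M q x d z = jd d.1 z := by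
          unfold jd3
          rw [if_neg hd]
        rw [this]
        ring
      · rw [map_mul, map_mul, map_pow, hL, Lam_compDiag_E4n_pow d.1 qExpansion_E4,
          Lam_compDiag_Dn d.1 qExpansion_disc, map_mul]
        have hX : MvPolynomial.aeval (R := ℂ) (fun d : Dv M => g3C M q u d)
            (MvPolynomial.X d) = Jp d.1 := by
          rw [MvPolynomial.aeval_X]
          unfold g3C
          rw [dif_neg hd]
          rfl
        rw [hX]
        ring

/-- the `q`-expansion principle for the twisted tuple -/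
theorem qexp3 (x : ℝ) (u : ℂˣ) (hu : (u : ℂ) = Complex.exp (2 * π * Complex.I * x))
    (P : MvPolynomial (Dv M) ℂ) :
    MvPolynomial.aeval (fun d : Dv M => g3C M q u d) P = 0 ↔
      ∀ z : ℍ, MvPolynomial.eval (fun d : Dv M => jd3 M q x d z) P = 0 := by
  obtain ⟨v, Q, hv, hQ, hL⟩ := clear3 M q x u hu P
  have hv0 : Lam v ≠ 0 := by
    intro h
    have : v = 0 := h16bj_Lam_injective (by rw [h, map_zero])
    have hz := hv UpperHalfPlane.I
    rw [this] at hz
    exact hz rfl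
  constructor
  · intro h z
    have hQ0 : Q = 0 := h16bj_Lam_injective (by rw [hL, h, mul_zero, map_zero])
    have := hQ z
    rw [hQ0] at this
    have h0 : ((0 : niceAlg) : ℍ → ℂ) z = 0 := rfl
    rw [h0] at this
    exact (mul_eq_zero.1 this.symm).resolve_left (hv z)
  · intro h
    have hQ0 : Q = 0 := by
      apply Subtype.ext
      funext z
      rw [hQ z, h z, mul_zero]
      rfl
    rw [hQ0, map_zero] at hL
    exact (mul_eq_zero.1 hL.symm).resolve_left hv0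

/-! ### The substitution `z ↦ γ z`, `γ = (1, 0; c, 1)` -/

theorem lin_ne_zero (a b : ℝ) (h : a ≠ 0 ∨ b ≠ 0) (z : ℍ) : (a : ℂ) * (z : ℂ) + (b : ℂ) ≠ 0 := by
  intro h0
  have h1 := congrArg Complex.im h0
  have h2 := congrArg Complex.re h0
  simp only [Complex.add_im, Complex.mul_im, Complex.ofReal_re, Complex.ofReal_im,
    Complex.zero_im, zero_mul, add_zero, UpperHalfPlane.coe_im] at h1
  simp only [Complex.add_re, Complex.mul_re, Complex.ofReal_re, Complex.ofReal_im,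
    Complex.zero_re, zero_mul, sub_zero, UpperHalfPlane.coe_re] at h2
  have ha : a = 0 := by
    rcases mul_eq_zero.1 h1 with h3 | h3
    · exact h3
    · exact absurd h3 z.im_pos.ne'
  rw [ha, zero_mul, zero_add] at h2
  rcases h with h | h
  · exact h ha
  · exact h h2

/-- the key identity on `ℍ`:  `d' q² · γ z = g · (d' (z + k/q))` -/
theorem key_smul (d' : ℕ) (hd' : d' ≠ 0) (hq0 : q ≠ 0) (k m v c : ℤ)
    (hc : c = q * d' * m) (hrel : (q : ℤ) * v - (-(d' * k)) * m = 1) (z : ℍ) :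
    ModularForm.heckeDiagMatrix (d' * q ^ 2) • (h12_mkSL 1 0 c 1 (by ring) • z) =
      h12_mkSL q (-(d' * k)) m v hrel •
        (ModularForm.heckeDiagMatrix d' • (h12_T ((k : ℝ) / q) • z)) := by
  have hdq : d' * q ^ 2 ≠ 0 := Nat.mul_ne_zero hd' (pow_ne_zero _ hq0)
  have hqC : (q : ℂ) ≠ 0 := by exact_mod_cast hq0
  have hdC : (d' : ℂ) ≠ 0 := by exact_mod_cast hd'
  apply UpperHalfPlane.ext
  rw [ModularForm.coe_heckeDiagMatrix_smul hdq, UpperHalfPlane.coe_specialLinearGroup_apply,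
    UpperHalfPlane.coe_specialLinearGroup_apply, ModularForm.coe_heckeDiagMatrix_smul hd',
    h12_T_coe_smul]
  have hden1 : (c : ℂ) * (z : ℂ) + 1 ≠ 0 := by
    have := lin_ne_zero (c : ℝ) 1 (Or.inr one_ne_zero) z
    simpa using this
  have hrelC : (q : ℂ) * v + d' * k * m = 1 := by
    have : ((q : ℤ) * v - (-(d' * k)) * m : ℤ) = 1 := hrel
    have h2 := congrArg (fun t : ℤ => (t : ℂ)) this
    simp only [Int.cast_sub, Int.cast_mul, Int.cast_neg, Int.cast_natCast, Int.cast_one] at h2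
    linear_combination h2
  have hcC : (c : ℂ) = q * d' * m := by
    rw [hc]; push_cast; ring
  have hden2 : (m : ℂ) * ((d' : ℂ) * ((z : ℂ) + ((k : ℝ) / (q : ℝ) : ℝ))) + v ≠ 0 := by
    have h3 : (m : ℂ) * ((d' : ℂ) * ((z : ℂ) + ((k : ℝ) / (q : ℝ) : ℝ))) + v =
        ((c : ℂ) * (z : ℂ) + 1) / q := by
      rw [hcC]
      push_cast
      field_simp
      linear_combination hrelC
    rw [h3]
    exact div_ne_zero hden1 hqC
  simp only [h12_mkSL, algebraMap_int_eq, eq_intCast]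
  simp only [Matrix.of_apply, Matrix.cons_val', Matrix.cons_val_zero,
    Matrix.cons_val_one, Matrix.cons_val_fin_one]
  push_cast at hden2 ⊢
  have hnum : (q : ℂ) * ((d' : ℂ) * ((z : ℂ) + (k : ℂ) / (q : ℂ))) + -((d' : ℂ) * (k : ℂ)) =
      q * d' * z := by
    field_simp
    ring
  have hden : (m : ℂ) * ((d' : ℂ) * ((z : ℂ) + (k : ℂ) / (q : ℂ))) + (v : ℂ) =
      ((c : ℂ) * (z : ℂ) + 1) / q := by
    rw [hcC]
    field_simp
    linear_combination hrelC
  rw [hnum, hden, one_mul, add_zero]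
  field_simp

/-- divisors `d` of `M` with `q² ∤ d` divide `(M / q²) q` -/
theorem dvd_of_not_sq_dvd (hq : q.Prime) (hM2 : q ^ 2 ∣ M) (d : ℕ) (hd : d ∣ M)
    (h : ¬ q ^ 2 ∣ d) : d ∣ M / q ^ 2 * q := by
  obtain ⟨N', hN'⟩ := hM2
  have hq2 : 0 < q ^ 2 := pow_pos hq.pos 2
  have hdiv : M / q ^ 2 = N' := by rw [hN', Nat.mul_div_cancel_left _ hq2]
  rw [hdiv]
  by_cases hqd : q ∣ d
  · obtain ⟨d₁, rfl⟩ := hqd
    have hd₁ : ¬ q ∣ d₁ := by
      intro h1
      apply h
      obtain ⟨e, rfl⟩ := h1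
      exact ⟨e, by ring⟩
    have h2 : d₁ ∣ q * N' := by
      have h3 : q * d₁ ∣ q * (q * N') := by
        rw [hN'] at hd
        have : q ^ 2 * N' = q * (q * N') := by ring
        rwa [this] at hd
      exact (Nat.mul_dvd_mul_iff_left hq.pos).1 h3
    have hcop : Nat.Coprime d₁ q := ((Nat.Prime.coprime_iff_not_dvd hq).2 hd₁).symm
    have h4 : d₁ ∣ N' := hcop.dvd_of_dvd_mul_left h2
    rw [mul_comm N' q]
    exact Nat.mul_dvd_mul_left q h4
  · have hcop : Nat.Coprime d q := ((Nat.Prime.coprime_iff_not_dvd hq).2 hqd).symm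
    have hcop2 : Nat.Coprime d (q ^ 2) := hcop.pow_right 2
    rw [hN'] at hd
    exact (hcop2.dvd_of_dvd_mul_left hd).mul_right q

/-- **the substitution**: there is `γ ∈ SL₂(ℤ)` with `j(d · γ z) = jd3 d z` for all `d ∣ M`. -/
theorem exists_gamma (hq : q.Prime) (hM2 : q ^ 2 ∣ M) (hM3 : ¬ q ^ 3 ∣ M) (k : ℤ)
    (hk : ¬ (q : ℤ) ∣ k) :
    ∃ γ : SL(2, ℤ), ∀ (d : Dv M) (z : ℍ), jd d.1 (γ • z) = jd3 M q ((k : ℝ) / q) d z := by
  obtain ⟨N', hN'⟩ := hM2
  have hq2 : 0 < q ^ 2 := pow_pos hq.pos 2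
  have hdiv : M / q ^ 2 = N' := by rw [hN', Nat.mul_div_cancel_left _ hq2]
  have hN'0 : N' ≠ 0 := by
    rintro rfl
    exact NeZero.ne M (by rw [hN', mul_zero])
  have hqN' : ¬ q ∣ N' := by
    rintro ⟨e, rfl⟩
    exact hM3 ⟨e, by rw [hN']; ring⟩
  -- Bezout
  have hcop : IsCoprime ((N' : ℤ) * k) (q : ℤ) := by
    have hp : Prime (q : ℤ) := Nat.prime_iff_prime_int.1 hq
    have h1 : IsCoprime (q : ℤ) (N' : ℤ) := by
      rw [Prime.coprime_iff_not_dvd hp]
      intro h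
      exact hqN' (Int.natCast_dvd_natCast.1 h)
    have h2 : IsCoprime (q : ℤ) k := by
      rw [Prime.coprime_iff_not_dvd hp]
      exact hk
    exact (h1.mul_right h2).symm
  obtain ⟨a, v, hav⟩ := hcop
  -- hav : a * (N' * k) + v * q = 1
  haveI : NeZero (N' * q) := ⟨Nat.mul_ne_zero hN'0 hq.ne_zero⟩
  refine ⟨h12_mkSL 1 0 ((q : ℤ) * N' * a) 1 (by ring), fun d z => ?_⟩
  have hγ : h12_mkSL 1 0 ((q : ℤ) * N' * a) 1 (by ring) ∈ Gamma0 (N' * q) := by
    apply Gamma0_mem.mpr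
    apply (ZMod.intCast_zmod_eq_zero_iff_dvd _ _).mpr
    show ((N' * q : ℕ) : ℤ) ∣
      (!![(1 : ℤ), 0; (q : ℤ) * N' * a, 1] : Matrix (Fin 2) (Fin 2) ℤ) 1 0
    simp only [Matrix.of_apply, Matrix.cons_val', Matrix.cons_val_zero,
      Matrix.cons_val_one, Matrix.cons_val_fin_one]
    exact ⟨a, by push_cast; ring⟩
  unfold jd3
  by_cases hd : q ^ 2 ∣ d.1
  · rw [if_pos hd]
    obtain ⟨d', hd'⟩ := hd
    have hd'N : d' ∣ N' := by
      have h1 : q ^ 2 * d' ∣ q ^ 2 * N' := by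
        rw [← hd', ← hN']
        exact d.2
      exact (Nat.mul_dvd_mul_iff_left hq2).1 h1
    obtain ⟨e, he⟩ := hd'N
    have hd'0 : d' ≠ 0 := by
      rintro rfl
      rw [zero_mul] at he
      exact hN'0 he
    have hdd : d.1 / q ^ 2 = d' := by rw [hd', Nat.mul_div_cancel_left _ hq2]
    rw [hdd]
    have hrel : (q : ℤ) * v - (-(d' * k)) * ((e : ℤ) * a) = 1 := by
      have : (N' : ℤ) = d' * e := by exact_mod_cast he
      rw [this] at hav
      linear_combination hav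
    have hc : (q : ℤ) * N' * a = q * d' * ((e : ℤ) * a) := by
      have : (N' : ℤ) = d' * e := by exact_mod_cast he
      rw [this]
      ring
    have key := key_smul q d' hd'0 hq.ne_zero k ((e : ℤ) * a) v _ hc hrel z
    unfold jd
    have hd1 : d.1 = d' * q ^ 2 := by rw [hd', mul_comm]
    rw [hd1, key]
    exact RH24.jf_smul _ _
  · rw [if_neg hd]
    have hdd : d.1 ∣ N' * q := by
      have := dvd_of_not_sq_dvd M q hq ⟨N', hN'⟩ d.1 d.2 hd
      rwa [hdiv] at this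
    exact jd_smul_of_mem_Gamma0 (N' * q) ⟨d.1, hdd⟩ _ hγ z

/-- formal relations of the standard tuple = formal relations of the twisted tuple -/
theorem formal_iff (hq : q.Prime) (hM2 : q ^ 2 ∣ M) (hM3 : ¬ q ^ 3 ∣ M) (k : ℤ)
    (hk : ¬ (q : ℤ) ∣ k) (u : ℂˣ)
    (hu : (u : ℂ) = Complex.exp (2 * π * Complex.I * (((k : ℝ) / q : ℝ) : ℂ)))
    (P : MvPolynomial (Dv M) ℂ) :
    formalEval M P = 0 ↔
      MvPolynomial.eval₂ (algebraMap ℂ (LaurentSeries ℂ)) (fun d : Dv M => g3C M q u d) P = 0 := by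
  obtain ⟨γ, hγ⟩ := exists_gamma M q hq hM2 hM3 k hk
  have h3 := qexp3 M q ((k : ℝ) / q) u hu P
  rw [MvPolynomial.aeval_def] at h3
  rw [h3, qexp_principle]
  have hfun : ∀ z : ℍ, (fun d : Dv M => jd3 M q ((k : ℝ) / q) d z) =
      fun d : Dv M => jd d.1 (γ • z) := by
    intro z
    funext d
    exact (hγ d z).symm
  constructor
  · intro h z
    rw [hfun z]
    exact h _
  · intro h z
    have := h (γ⁻¹ • z)
    rw [hfun, ← mul_smul, mul_inv_cancel, one_smul] at this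
    exact this

/-- **the third embedding over `ℂ`** -/
theorem exists_phi3C (hq : q.Prime) (hM2 : q ^ 2 ∣ M) (hM3 : ¬ q ^ 3 ∣ M) (k : ℤ)
    (hk : ¬ (q : ℤ) ∣ k) (u : ℂˣ)
    (hu : (u : ℂ) = Complex.exp (2 * π * Complex.I * (((k : ℝ) / q : ℝ) : ℂ))) :
    ∃ φ : ModularCurve.modularFunctionFieldBar M →+* LaurentSeries ℂ,
      (∀ d, φ (Jgen d) = g3C M q u d) ∧
      ∀ c : Kbar, φ (algebraMap Kbar _ c) = algebraMap ℂ (LaurentSeries ℂ) (iota c) :=
  exists_real M (algebraMap ℂ (LaurentSeries ℂ)) (fun d => g3C M q u d)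
    (formal_iff M q hq hM2 hM3 k hk u hu)

end H3V3

end
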