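/-
Item 86 (S36), slice **V3** (helper3), part 2: the third embedding at the `K₁`-level.

`K₁ ≤ K₃` intermediate fields of `ℚ̄/ℚ`, `ζ ∈ K₃ˣ` a primitive `q`-th root of unity, `M` a level
with `q² ∥ M`.

* `JgenK K d : FK K N`                     the generators `j(𝐪^d)` of `F_K(N)`;
* `FK_induction`, `ringHom_ext_FK`         `F_K(N)` is generated by the constants and the `JgenK d`;
* `g3K K₃ M q ζ d`                         the twisted generators in `K₃((𝐪))`;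
* `iota3 K₁ K₃ h M q hq hM2 hM3 ζ hζ : FK K₁ M →+* LaurentSeries K₃`   (**the third embedding**)
  `iota3_const`, `iota3_JgenK`, `iota3_Jlow`, `iota3_Jhigh`, `iota3_of_level`.
-/
import Mathlib
import Fermat.Agent.S36.V3An_helper3
import Fermat.Agent.S34.ALqK_helper12

set_option autoImplicit false
set_option linter.style.longLine false
set_option linter.unusedVariables false
set_option linter.unusedSectionVars false
set_option linter.style.haveILetI false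

noncomputable section

open ModularCurve RH24 H28S28 H7S18

namespace H3V3

/-! ### Generators of `F_K(N)` -/

section Gen

variable (K : Type) [Field K] [Algebra ℚ K]

/-- the generators `j(𝐪^d)` of `F_K(N)` -/
def JgenK {N : ℕ} [NeZero N] (d : Dv N) : FK K N :=
  haveI : NeZero d.1 := ⟨Dv_ne_zero d⟩
  ⟨coeffEmb K (qExpand ℚ d.1 jq), coeffEmb_mem_laurentBaseChange _ (jqd_mem_full N d.2)⟩

theorem coe_JgenK {N : ℕ} [NeZero N] (d : Dv N) [NeZero d.1] :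
    ((JgenK K d : FK K N) : LaurentSeries K) = coeffEmb K (qExpand ℚ d.1 jq) := rfl

variable {K}

/-- `F_K(N)` is generated, as a field, by the constants and the `j(𝐪^d)`. -/
theorem FK_induction {N : ℕ} [NeZero N] (T : Subfield (FK K N))
    (hc : ∀ c : K, algebraMap K (FK K N) c ∈ T) (hJ : ∀ d : Dv N, JgenK K d ∈ T)
    (x : FK K N) : x ∈ T := by
  have hin : Subfield.closure (Set.range (algebraMap ℚ (LaurentSeries ℚ)) ∪ divisorExpansions N) ≤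
      (T.map (laurentBaseChange K (modularFunctionFieldFull N)).toSubfield.subtype).comap
        (coeffEmb K) := by
    rw [Subfield.closure_le]
    rintro y (⟨c, rfl⟩ | ⟨d, hd, hdN, rfl⟩)
    · refine ⟨algebraMap K (FK K N) (algebraMap ℚ K c), hc _, ?_⟩
      show algebraMap K (LaurentSeries K) (algebraMap ℚ K c) = coeffEmb K (algebraMap ℚ _ c)
      rw [coeffEmb, H1S18.coeffMap_algebraMap_hom]
    · exact ⟨JgenK K (⟨d, hdN⟩ : Dv N), hJ _, rfl⟩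
  have hout : Subfield.closure (Set.range (algebraMap K (LaurentSeries K)) ∪
      (⇑(coeffEmb K) '' (modularFunctionFieldFull N : Set (LaurentSeries ℚ)))) ≤
      T.map (laurentBaseChange K (modularFunctionFieldFull N)).toSubfield.subtype := by
    rw [Subfield.closure_le]
    rintro y (⟨c, rfl⟩ | ⟨z, hz, rfl⟩)
    · exact ⟨algebraMap K (FK K N) c, hc _, rfl⟩
    · exact hin hz
  have hx : (x : LaurentSeries K) ∈ Subfield.closure (Set.range (algebraMap K (LaurentSeries K)) ∪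
      (⇑(coeffEmb K) '' (modularFunctionFieldFull N : Set (LaurentSeries ℚ)))) :=
    mem_laurentBaseChange_iff.1 x.2
  obtain ⟨x', hx', hxx'⟩ := hout hx
  have : x' = x := Subtype.ext hxx'
  rwa [this] at hx'

/-- a ring homomorphism out of `F_K(N)` is determined on the constants and on the `j(𝐪^d)`. -/
theorem ringHom_ext_FK {N : ℕ} [NeZero N] {E : Type*} [Field E] (f g : FK K N →+* E)
    (hc : ∀ c : K, f (algebraMap K (FK K N) c) = g (algebraMap K (FK K N) c))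
    (hJ : ∀ d : Dv N, f (JgenK K d) = g (JgenK K d)) : f = g := by
  ext x
  exact FK_induction (RingHom.eqLocusField f g) hc hJ x

end Gen

/-! ### Twists and coefficient maps -/

theorem coeffMap_tw {A B : Type} [CommRing A] [CommRing B] (f : A →+* B) (ζ : Aˣ)
    (x : LaurentSeries A) :
    coeffMap f (tw ζ x) = tw (Units.map (f : A →* B) ζ) (coeffMap f x) := by
  ext n
  rw [coeffMap_coeff, tw_coeff, tw_coeff, coeffMap_coeff, map_mul, ← map_zpow]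
  rfl

variable (K₁ K₃ : IntermediateField ℚ Kbar)

/-- the coefficient embedding `K₃((𝐪)) → ℂ((𝐪))` -/
def psi3 : LaurentSeries ↥K₃ →+* LaurentSeries ℂ :=
  coeffMap (iota.comp (algebraMap ↥K₃ Kbar))

theorem psi3_injective : Function.Injective (psi3 K₃) := by
  intro x y h
  ext n
  have h1 := congrArg (fun z : LaurentSeries ℂ => z.coeff n) h
  simp only [psi3, coeffMap_coeff, RingHom.comp_apply] at h1
  exact iota.injective h1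

theorem psi3_coeffEmb (z : LaurentSeries ℚ) : psi3 K₃ (coeffEmb ↥K₃ z) = coeffEmb ℂ z := by
  rw [psi3, H1S18.coeffMap_coeffEmb_hom]

theorem psi3_algebraMap (c : ↥K₃) :
    psi3 K₃ (algebraMap ↥K₃ (LaurentSeries ↥K₃) c) =
      algebraMap ℂ (LaurentSeries ℂ) (iota (c : Kbar)) := by
  rw [psi3, H1S18.coeffMap_algebraMap_hom]
  rfl

theorem JC_eq_coeffEmb {N : ℕ} [NeZero N] (d : Dv N) [NeZero d.1] :
    JC d = coeffEmb ℂ (qExpand ℚ d.1 jq) := by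
  rw [← h22b_coeffMap_Jgen d]
  show coeffMap iota (coeffEmb Kbar (qExpand ℚ d.1 jq)) = _
  rw [H1S18.coeffMap_coeffEmb_hom]

variable (M : ℕ) [NeZero M] (q : ℕ)

/-- the twisted generators in `K₃((𝐪))` -/
def g3K (ζ : (↥K₃)ˣ) (d : Dv M) : LaurentSeries ↥K₃ :=
  if h : q ^ 2 ∣ d.1 then tw ζ ((JgenK ↥K₃ (dvLow M q d h) : FK ↥K₃ M) : LaurentSeries ↥K₃)
  else ((JgenK ↥K₃ d : FK ↥K₃ M) : LaurentSeries ↥K₃)

theorem psi3_JgenK (d : Dv M) :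
    psi3 K₃ ((JgenK ↥K₃ d : FK ↥K₃ M) : LaurentSeries ↥K₃) = JC d := by
  haveI : NeZero d.1 := ⟨Dv_ne_zero d⟩
  rw [JC_eq_coeffEmb]
  exact psi3_coeffEmb K₃ _

theorem psi3_g3K (ζ : (↥K₃)ˣ) (u : ℂˣ) (hu : (u : ℂ) = iota ((ζ : ↥K₃) : Kbar)) (d : Dv M) :
    psi3 K₃ (g3K K₃ M q ζ d) = g3C M q u d := by
  unfold g3K g3C
  by_cases h : q ^ 2 ∣ d.1
  · rw [dif_pos h, dif_pos h]
    have h1 : psi3 K₃ (tw ζ ((JgenK ↥K₃ (dvLow M q d h) : FK ↥K₃ M) : LaurentSeries ↥K₃)) =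
        tw (Units.map ((iota.comp (algebraMap ↥K₃ Kbar) : ↥K₃ →+* ℂ) : ↥K₃ →* ℂ) ζ)
          (psi3 K₃ ((JgenK ↥K₃ (dvLow M q d h) : FK ↥K₃ M) : LaurentSeries ↥K₃)) :=
      coeffMap_tw _ ζ _
    have hU : Units.map ((iota.comp (algebraMap ↥K₃ Kbar) : ↥K₃ →+* ℂ) : ↥K₃ →* ℂ) ζ = u := by
      apply Units.ext
      rw [hu]
      rfl
    rw [h1, psi3_JgenK, hU]
  · rw [dif_neg h, dif_neg h]
    exact psi3_JgenK K₃ M d

/-! ### The third embedding over `ℂ`, for a primitive root `ζ ∈ K₃` -/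

theorem exists_phi3 (hq : q.Prime) (hM2 : q ^ 2 ∣ M) (hM3 : ¬ q ^ 3 ∣ M)
    (ζ : (↥K₃)ˣ) (hζ : IsPrimitiveRoot ζ q) :
    ∃ φ : modularFunctionFieldBar M →+* LaurentSeries ℂ,
      (∀ d, φ (Jgen d) = psi3 K₃ (g3K K₃ M q ζ d)) ∧
      ∀ c : Kbar, φ (algebraMap Kbar _ c) = algebraMap ℂ (LaurentSeries ℂ) (iota c) := by
  have hζ' : IsPrimitiveRoot (iota (((ζ : ↥K₃) : Kbar))) q := by
    have h1 : IsPrimitiveRoot (ζ : ↥K₃) q := IsPrimitiveRoot.coe_units_iff.2 hζ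
    exact h1.map_of_injective (f := (iota.comp (algebraMap ↥K₃ Kbar)))
      ((iota.comp (algebraMap ↥K₃ Kbar)).injective)
  obtain ⟨k, hkq, hcop, hexp⟩ := (Complex.isPrimitiveRoot_iff _ q hq.ne_zero).1 hζ'
  have hk : ¬ (q : ℤ) ∣ (k : ℤ) := by
    intro h
    have h1 : q ∣ k := Int.natCast_dvd_natCast.1 h
    have h2 : q ∣ Nat.gcd k q := Nat.dvd_gcd h1 dvd_rfl
    rw [hcop] at h2
    exact hq.one_lt.ne' (Nat.dvd_one.1 h2)
  have hu0 : iota (((ζ : ↥K₃) : Kbar)) ≠ 0 := hζ'.ne_zero hq.ne_zero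
  have hu : ((Units.mk0 _ hu0 : ℂˣ) : ℂ) =
      Complex.exp (2 * Real.pi * Complex.I * ((((k : ℤ) : ℝ) / q : ℝ) : ℂ)) := by
    rw [Units.val_mk0, ← hexp]
    congr 1
    push_cast
    ring
  obtain ⟨φ, hφ1, hφ2⟩ := exists_phi3C M q hq hM2 hM3 (k : ℤ) hk (Units.mk0 _ hu0) hu
  refine ⟨φ, fun d => ?_, hφ2⟩
  rw [hφ1, psi3_g3K K₃ M q ζ (Units.mk0 _ hu0) (Units.val_mk0 _)]

/-- the third embedding over `ℂ` -/
def phi3 (hq : q.Prime) (hM2 : q ^ 2 ∣ M) (hM3 : ¬ q ^ 3 ∣ M)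
    (ζ : (↥K₃)ˣ) (hζ : IsPrimitiveRoot ζ q) :
    modularFunctionFieldBar M →+* LaurentSeries ℂ :=
  (exists_phi3 K₃ M q hq hM2 hM3 ζ hζ).choose

theorem phi3_Jgen (hq : q.Prime) (hM2 : q ^ 2 ∣ M) (hM3 : ¬ q ^ 3 ∣ M)
    (ζ : (↥K₃)ˣ) (hζ : IsPrimitiveRoot ζ q) (d : Dv M) :
    phi3 K₃ M q hq hM2 hM3 ζ hζ (Jgen d) = psi3 K₃ (g3K K₃ M q ζ d) :=
  (exists_phi3 K₃ M q hq hM2 hM3 ζ hζ).choose_spec.1 d

theorem phi3_const (hq : q.Prime) (hM2 : q ^ 2 ∣ M) (hM3 : ¬ q ^ 3 ∣ M)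
    (ζ : (↥K₃)ˣ) (hζ : IsPrimitiveRoot ζ q) (c : Kbar) :
    phi3 K₃ M q hq hM2 hM3 ζ hζ (algebraMap Kbar _ c) =
      algebraMap ℂ (LaurentSeries ℂ) (iota c) :=
  (exists_phi3 K₃ M q hq hM2 hM3 ζ hζ).choose_spec.2 c

/-! ### Descent to `K₁` -/

theorem phiK_JgenK (d : Dv M) : H12AL.phiK K₁ M (JgenK ↥K₁ d) = Jgen d := by
  apply Subtype.ext
  rw [H12AL.coe_phiK]
  haveI : NeZero d.1 := ⟨Dv_ne_zero d⟩
  show coeffMap (algebraMap ↥K₁ Kbar) (coeffEmb ↥K₁ (qExpand ℚ d.1 jq)) = _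
  rw [H1S18.coeffMap_coeffEmb_hom]
  rfl

theorem phiK_const (c : ↥K₁) :
    H12AL.phiK K₁ M (algebraMap ↥K₁ (FK ↥K₁ M) c) =
      algebraMap Kbar (modularFunctionFieldBar M) (c : Kbar) := by
  apply Subtype.ext
  rw [H12AL.coe_phiK]
  exact H1S18.coeffMap_algebraMap_hom (algebraMap ↥K₁ Kbar) c

variable {K₁ K₃}

theorem phi3_mem_range (h13 : K₁ ≤ K₃) (hq : q.Prime) (hM2 : q ^ 2 ∣ M) (hM3 : ¬ q ^ 3 ∣ M)
    (ζ : (↥K₃)ˣ) (hζ : IsPrimitiveRoot ζ q) (x : FK ↥K₁ M) :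
    phi3 K₃ M q hq hM2 hM3 ζ hζ (H12AL.phiK K₁ M x) ∈ (psi3 K₃).range := by
  have key := FK_induction
    (((psi3 K₃).fieldRange).comap ((phi3 K₃ M q hq hM2 hM3 ζ hζ).comp (H12AL.phiK K₁ M)))
    (fun c => ?_) (fun d => ?_) x
  · obtain ⟨y, hy⟩ := key
    exact ⟨y, hy⟩
  · show phi3 K₃ M q hq hM2 hM3 ζ hζ (H12AL.phiK K₁ M (algebraMap ↥K₁ (FK ↥K₁ M) c)) ∈
      (psi3 K₃).fieldRange
    rw [phiK_const, phi3_const]
    exact ⟨algebraMap ↥K₃ (LaurentSeries ↥K₃) ⟨(c : Kbar), h13 c.2⟩, psi3_algebraMap K₃ _⟩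
  · show phi3 K₃ M q hq hM2 hM3 ζ hζ (H12AL.phiK K₁ M (JgenK ↥K₁ d)) ∈ (psi3 K₃).fieldRange
    rw [phiK_JgenK, phi3_Jgen]
    exact ⟨_, rfl⟩

/-- `K₃((𝐪)) ≃ range ψ₃` -/
def psi3Equiv (K₃ : IntermediateField ℚ Kbar) : LaurentSeries ↥K₃ ≃+* (psi3 K₃).range :=
  RingEquiv.ofBijective (psi3 K₃).rangeRestrict
    ⟨fun x y h => psi3_injective K₃ (congrArg Subtype.val h),
      (psi3 K₃).rangeRestrict_surjective⟩

/-- **the third embedding** `ι₃ : F_{K₁}(M) → K₃((𝐪))` (the `𝐪`-expansion at the cusp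
`1/(M/q)`), `q² ∥ M`. -/
def iota3 (h13 : K₁ ≤ K₃) (hq : q.Prime) (hM2 : q ^ 2 ∣ M) (hM3 : ¬ q ^ 3 ∣ M)
    (ζ : (↥K₃)ˣ) (hζ : IsPrimitiveRoot ζ q) : FK ↥K₁ M →+* LaurentSeries ↥K₃ :=
  (psi3Equiv K₃).symm.toRingHom.comp
    (((phi3 K₃ M q hq hM2 hM3 ζ hζ).comp (H12AL.phiK K₁ M)).codRestrict (psi3 K₃).range
      (phi3_mem_range M q h13 hq hM2 hM3 ζ hζ))

/-- characterisation: `ψ₃ (ι₃ x) = φ₃ (x over ℚ̄)` -/
theorem psi3_iota3 (h13 : K₁ ≤ K₃) (hq : q.Prime) (hM2 : q ^ 2 ∣ M) (hM3 : ¬ q ^ 3 ∣ M)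
    (ζ : (↥K₃)ˣ) (hζ : IsPrimitiveRoot ζ q) (x : FK ↥K₁ M) :
    psi3 K₃ (iota3 M q h13 hq hM2 hM3 ζ hζ x) =
      phi3 K₃ M q hq hM2 hM3 ζ hζ (H12AL.phiK K₁ M x) := by
  have h := (psi3Equiv K₃).apply_symm_apply
    (((phi3 K₃ M q hq hM2 hM3 ζ hζ).comp (H12AL.phiK K₁ M)).codRestrict (psi3 K₃).range
      (phi3_mem_range M q h13 hq hM2 hM3 ζ hζ) x)
  exact congrArg Subtype.val h

theorem iota3_const (h13 : K₁ ≤ K₃) (hq : q.Prime) (hM2 : q ^ 2 ∣ M) (hM3 : ¬ q ^ 3 ∣ M)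
    (ζ : (↥K₃)ˣ) (hζ : IsPrimitiveRoot ζ q) (c : ↥K₁) :
    iota3 M q h13 hq hM2 hM3 ζ hζ (algebraMap ↥K₁ (FK ↥K₁ M) c) =
      algebraMap ↥K₃ (LaurentSeries ↥K₃) (IntermediateField.inclusion h13 c) := by
  apply psi3_injective
  rw [psi3_iota3, phiK_const, phi3_const, psi3_algebraMap]
  rfl

theorem iota3_JgenK (h13 : K₁ ≤ K₃) (hq : q.Prime) (hM2 : q ^ 2 ∣ M) (hM3 : ¬ q ^ 3 ∣ M)
    (ζ : (↥K₃)ˣ) (hζ : IsPrimitiveRoot ζ q) (d : Dv M) :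
    iota3 M q h13 hq hM2 hM3 ζ hζ (JgenK ↥K₁ d) = g3K K₃ M q ζ d := by
  apply psi3_injective
  rw [psi3_iota3, phiK_JgenK, phi3_Jgen]

/-- `ι₃ (j(𝐪^d)) = j(𝐪^d)` for `q² ∤ d` -/
theorem iota3_Jlow (h13 : K₁ ≤ K₃) (hq : q.Prime) (hM2 : q ^ 2 ∣ M) (hM3 : ¬ q ^ 3 ∣ M)
    (ζ : (↥K₃)ˣ) (hζ : IsPrimitiveRoot ζ q) (d : Dv M) (hd : ¬ q ^ 2 ∣ d.1) [NeZero d.1] :
    iota3 M q h13 hq hM2 hM3 ζ hζ (JgenK ↥K₁ d) = coeffEmb ↥K₃ (qExpand ℚ d.1 jq) := by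
  rw [iota3_JgenK]
  unfold g3K
  rw [dif_neg hd]
  rfl

/-- `ι₃ (j(𝐪^{d' q²})) = tw_ζ (j(𝐪^{d'}))` -/
theorem iota3_Jhigh (h13 : K₁ ≤ K₃) (hq : q.Prime) (hM2 : q ^ 2 ∣ M) (hM3 : ¬ q ^ 3 ∣ M)
    (ζ : (↥K₃)ˣ) (hζ : IsPrimitiveRoot ζ q) (d : Dv M) (d' : ℕ) [NeZero d']
    (hd : d.1 = d' * q ^ 2) :
    iota3 M q h13 hq hM2 hM3 ζ hζ (JgenK ↥K₁ d) = tw ζ (coeffEmb ↥K₃ (qExpand ℚ d' jq)) := by
  have hdvd : q ^ 2 ∣ d.1 := ⟨d', by rw [hd, mul_comm]⟩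
  rw [iota3_JgenK]
  unfold g3K
  rw [dif_pos hdvd]
  congr 1
  have h1 : (dvLow M q d hdvd).1 = d' := by
    show d.1 / q ^ 2 = d'
    rw [hd, Nat.mul_div_cancel _ (pow_pos hq.pos 2)]
  haveI : NeZero (dvLow M q d hdvd).1 := ⟨Dv_ne_zero _⟩
  show coeffEmb ↥K₃ (qExpand ℚ (dvLow M q d hdvd).1 jq) = _
  congr 1
  exact qExpand_congr h1 _

/-! ### `ι₃ ∘ α = id`: on functions of level `N₁ ∣ M`, `q² ∤ N₁`, `ι₃` is the coefficient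
extension `K₁((𝐪)) → K₃((𝐪))` -/

theorem lbc_le_of_dvd (K : Type) [Field K] [Algebra ℚ K] {N₁ N₂ : ℕ} [NeZero N₁] [NeZero N₂]
    (h : N₁ ∣ N₂) :
    laurentBaseChange K (modularFunctionFieldFull N₁) ≤
      laurentBaseChange K (modularFunctionFieldFull N₂) :=
  IntermediateField.adjoin.mono K _ _ (Set.image_mono (full_degeneracy_le h))

theorem iota3_of_level (h13 : K₁ ≤ K₃) (hq : q.Prime) (hM2 : q ^ 2 ∣ M) (hM3 : ¬ q ^ 3 ∣ M)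
    (ζ : (↥K₃)ˣ) (hζ : IsPrimitiveRoot ζ q) (N₁ : ℕ) [NeZero N₁] (hN₁ : N₁ ∣ M)
    (hqN₁ : ¬ q ^ 2 ∣ N₁) (x : FK ↥K₁ M)
    (hx : (x : LaurentSeries ↥K₁) ∈ laurentBaseChange ↥K₁ (modularFunctionFieldFull N₁)) :
    iota3 M q h13 hq hM2 hM3 ζ hζ x =
      coeffMap (IntermediateField.inclusion h13 : ↥K₁ →+* ↥K₃) (x : LaurentSeries ↥K₁) := by
  have hle := lbc_le_of_dvd ↥K₁ hN₁
  let incl : FK ↥K₁ N₁ →+* FK ↥K₁ M := (IntermediateField.inclusion hle : _ →+* _)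
  let f : FK ↥K₁ N₁ →+* LaurentSeries ↥K₃ := (iota3 M q h13 hq hM2 hM3 ζ hζ).comp incl
  let g : FK ↥K₁ N₁ →+* LaurentSeries ↥K₃ :=
    (coeffMap (IntermediateField.inclusion h13 : ↥K₁ →+* ↥K₃)).comp
      (laurentBaseChange ↥K₁ (modularFunctionFieldFull N₁)).toSubfield.subtype
  have hfg : f = g := by
    apply ringHom_ext_FK
    · intro c
      show iota3 M q h13 hq hM2 hM3 ζ hζ (incl (algebraMap ↥K₁ (FK ↥K₁ N₁) c)) =
        coeffMap (IntermediateField.inclusion h13 : ↥K₁ →+* ↥K₃)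
          (algebraMap ↥K₁ (LaurentSeries ↥K₁) c)
      have h1 : incl (algebraMap ↥K₁ (FK ↥K₁ N₁) c) = algebraMap ↥K₁ (FK ↥K₁ M) c :=
        Subtype.ext rfl
      rw [h1, iota3_const, H1S18.coeffMap_algebraMap_hom]
      rfl
    · intro d
      haveI : NeZero d.1 := ⟨Dv_ne_zero d⟩
      show iota3 M q h13 hq hM2 hM3 ζ hζ (incl (JgenK ↥K₁ d)) =
        coeffMap (IntermediateField.inclusion h13 : ↥K₁ →+* ↥K₃)
          (coeffEmb ↥K₁ (qExpand ℚ d.1 jq))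
      have h1 : incl (JgenK ↥K₁ d) = JgenK ↥K₁ (⟨d.1, d.2.trans hN₁⟩ : Dv M) :=
        Subtype.ext rfl
      have hd : ¬ q ^ 2 ∣ (⟨d.1, d.2.trans hN₁⟩ : Dv M).1 := fun h => hqN₁ (h.trans d.2)
      rw [h1, iota3_Jlow M q h13 hq hM2 hM3 ζ hζ _ hd, H1S18.coeffMap_coeffEmb_hom]
  have := RingHom.congr_fun hfg ⟨(x : LaurentSeries ↥K₁), hx⟩
  have h2 : incl ⟨(x : LaurentSeries ↥K₁), hx⟩ = x := Subtype.ext rfl
  show iota3 M q h13 hq hM2 hM3 ζ hζ x =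
    coeffMap (IntermediateField.inclusion h13 : ↥K₁ →+* ↥K₃) (x : LaurentSeries ↥K₁)
  rw [← h2]
  exact this

end H3V3

end
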