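import Fermat.Agent.S36.NormGen_helper13
import Fermat.Agent.S36.ALQ2_helper12
import Fermat.Agent.S36.V3Hom_helper3
import Fermat.Agent.S37.R2U4PairDeg_helper2
import Fermat.Agent.S18.GVBar_helper28

/-!
# Item 86 (S36), slice (NORM), part 3 (helper13): the two norm formulas at the `K₁`-level

`K₁ ≤ K₃` intermediate fields of `ℚ̄/ℚ`, `ζ ∈ K₃` a primitive `q`-th root of unity, `q` prime,
`q ∤ M`, `F₁ = FK K₁ (M q)`, `F₂ = FK K₁ (M q q)`, `α = heckeAlphaBar K₁ (M q) q` (inclusion),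
`β = heckeBetaBar K₁ (M q) q` (`𝐪 ↦ 𝐪^q`), `c = coeffMap (K₁ → K₃)`.

* `H13N3.finrank_alphaK` : `[FK K (N ℓ) : α FK K N] = ℓ` for a prime `ℓ ∣ N` (any field `K ⊇ ℚ`);
* `H13N3.finrank_betaK`  : `[F₂ : β F₁] = q`;
* `H13N3.normBK_wq2K`, `normAK_wq2K` : `N_β (W_{q²} x) = W_q (N_α x)`, `N_α (W_{q²} x) = W_q (N_β x)`;
* **[N1]** `H13N3.normK_beta_twist` : `c ((N_β x)(𝐪^q)) = ∏_{b<q} tw (ζ^b) (c x)`;
* **[N2]** `H13N3.normK_alpha_iota` : `c (N_α x) = c x · ∏_{0<b<q} ι₃^{(ζ^b)} x`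
  (`ι₃^{(ζ')}` = helper3's `H3V3.iota3` for the primitive root `ζ'`).
-/

set_option autoImplicit false
set_option linter.style.haveILetI false
set_option linter.unusedSectionVars false
set_option linter.unusedVariables false

noncomputable section

open AlgebraicCurve IntermediateField
open ModularCurve RH24 H28S28 HahnSeries H7S18

namespace H13N3

/-! ### degrees -/

section DegAlpha

variable (K : Type) [Field K] [Algebra ℚ K] [CharZero K] (N ℓ : ℕ) [NeZero N] [NeZero ℓ]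

set_option synthInstance.maxHeartbeats 400000 in
set_option maxHeartbeats 1600000 in
theorem finrank_alphaK_mul :
    letI := algebraAlong (heckeAlphaBar K N ℓ)
    Module.finrank (FK K N) (FK K (N * ℓ)) * dedekindPsi N = dedekindPsi (N * ℓ) := by
  letI := algebraAlong (heckeAlphaBar K N ℓ)
  exact H2PD.finrank_mul_psi (dvd_mul_right N ℓ)
    (fun r hr _ => by exact_mod_cast hr.ne_zero)
    (laurentBaseChange K (modularFunctionFieldFull N))
    (laurentBaseChange K (modularFunctionFieldFull (N * ℓ)))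
    (H28GV.gv_bar_eq K N) (H28GV.gv_bar_eq K (N * ℓ)) (fun x => coe_heckeAlphaBar N ℓ x)

set_option synthInstance.maxHeartbeats 400000 in
set_option maxHeartbeats 1600000 in
/-- `[FK K (N ℓ) : FK K N] = ℓ` along `α`, for a prime `ℓ ∣ N`. -/
theorem finrank_alphaK (hℓ : ℓ.Prime) (hℓN : ℓ ∣ N) :
    letI := algebraAlong (heckeAlphaBar K N ℓ)
    Module.finrank (FK K N) (FK K (N * ℓ)) = ℓ := by
  letI := algebraAlong (heckeAlphaBar K N ℓ)
  have h := finrank_alphaK_mul K N ℓ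
  have hpsi : dedekindPsi (N * ℓ) = ℓ * dedekindPsi N := by
    rw [mul_comm N ℓ]
    exact H28S28.h10_psi_mul_of_dvd hℓ (NeZero.ne N) hℓN
  rw [hpsi] at h
  exact Nat.eq_of_mul_eq_mul_right (H28UG.c7_dedekindPsi_pos N) h

end DegAlpha

section W

variable (K₁ : IntermediateField ℚ Kbar) (M q : ℕ) [NeZero M] [NeZero q]

set_option synthInstance.maxHeartbeats 400000 in
/-- the norm along `α` at the level `(M q q, M q)` over `K₁` -/
def normAK (z : FK ↥K₁ (M * q * q)) : FK ↥K₁ (M * q) :=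
  letI := algebraAlong (heckeAlphaBar ↥K₁ (M * q) q)
  Algebra.norm (FK ↥K₁ (M * q)) z

set_option synthInstance.maxHeartbeats 400000 in
/-- the norm along `β` at the level `(M q q, M q)` over `K₁` -/
def normBK (z : FK ↥K₁ (M * q * q)) : FK ↥K₁ (M * q) :=
  letI := algebraAlong (heckeBetaBar ↥K₁ (M * q) q)
  Algebra.norm (FK ↥K₁ (M * q)) z

/-- `W_{q²} ∘ α = β ∘ W_q` over `K₁` -/
theorem wq2KHom_alpha (hq : q.Prime) (hqM : ¬ q ∣ M) (y : FK ↥K₁ (M * q)) :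
    H12WQ.wq2KHom K₁ M q hq hqM (heckeAlphaBar ↥K₁ (M * q) q y) =
      heckeBetaBar ↥K₁ (M * q) q (H12AL.wqKHom K₁ M q hq hqM y) := by
  apply Subtype.ext
  rw [H12WQ.coe_wq2KHom_of_level K₁ M q hq hqM _ y (coe_heckeAlphaBar (M * q) q y),
    coe_heckeBetaBar]

/-- `W_{q²} ∘ β = α ∘ W_q` over `K₁` -/
theorem wq2KHom_beta (hq : q.Prime) (hqM : ¬ q ∣ M) (y : FK ↥K₁ (M * q)) :
    H12WQ.wq2KHom K₁ M q hq hqM (heckeBetaBar ↥K₁ (M * q) q y) =
      heckeAlphaBar ↥K₁ (M * q) q (H12AL.wqKHom K₁ M q hq hqM y) := by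
  apply Subtype.ext
  rw [H12WQ.coe_wq2KHom_qExpand K₁ M q hq hqM _ y (coe_heckeBetaBar (M * q) q y),
    coe_heckeAlphaBar]

set_option synthInstance.maxHeartbeats 400000 in
set_option maxHeartbeats 1600000 in
/-- `[FK K₁ (M q q) : β FK K₁ (M q)] = q`. -/
theorem finrank_betaK (hq : q.Prime) (hqM : ¬ q ∣ M) :
    letI := algebraAlong (heckeBetaBar ↥K₁ (M * q) q)
    Module.finrank (FK ↥K₁ (M * q)) (FK ↥K₁ (M * q * q)) = q := by
  have h := finrank_transfer (heckeAlphaBar ↥K₁ (M * q) q).toRingHom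
    (heckeBetaBar ↥K₁ (M * q) q).toRingHom (H12AL.wqK K₁ M q hq hqM)
    (H12WQ.wq2K K₁ M q hq hqM) (fun y => wq2KHom_alpha K₁ M q hq hqM y)
  have h2 := finrank_alphaK ↥K₁ (M * q) q hq (dvd_mul_left q M)
  exact h.trans h2

set_option synthInstance.maxHeartbeats 400000 in
set_option maxHeartbeats 1600000 in
/-- `N_β (W_{q²} x) = W_q (N_α x)` over `K₁`. -/
theorem normBK_wq2K (hq : q.Prime) (hqM : ¬ q ∣ M) (x : FK ↥K₁ (M * q * q)) :
    normBK K₁ M q (H12WQ.wq2KHom K₁ M q hq hqM x) =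
      H12AL.wqKHom K₁ M q hq hqM (normAK K₁ M q x) :=
  norm_transfer (heckeAlphaBar ↥K₁ (M * q) q).toRingHom
    (heckeBetaBar ↥K₁ (M * q) q).toRingHom (H12AL.wqK K₁ M q hq hqM)
    (H12WQ.wq2K K₁ M q hq hqM) (fun y => wq2KHom_alpha K₁ M q hq hqM y) x

set_option synthInstance.maxHeartbeats 400000 in
set_option maxHeartbeats 1600000 in
/-- `N_α (W_{q²} x) = W_q (N_β x)` over `K₁`. -/
theorem normAK_wq2K (hq : q.Prime) (hqM : ¬ q ∣ M) (x : FK ↥K₁ (M * q * q)) :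
    normAK K₁ M q (H12WQ.wq2KHom K₁ M q hq hqM x) =
      H12AL.wqKHom K₁ M q hq hqM (normBK K₁ M q x) :=
  norm_transfer (heckeBetaBar ↥K₁ (M * q) q).toRingHom
    (heckeAlphaBar ↥K₁ (M * q) q).toRingHom (H12AL.wqK K₁ M q hq hqM)
    (H12WQ.wq2K K₁ M q hq hqM) (fun y => wq2KHom_beta K₁ M q hq hqM y) x

end W

end H13N3

end
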