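/-
Item 86 (S36), slice LOC-D, part (R1-D) (helper21): the discriminant of `(1, Y, …, Y^q)`,
`Y = j(𝐪^q)`, for `F = FK K₁ (N q)` over `F₀ = FK K₁ N` (along `α`), `q ∤ N`.

The `q + 1` embeddings of `F` over `F₀` into `Ω = ℚ̄((s))` (`s = 𝐪^{1/q}`, `F₀ → Ω` by `x ↦ x(s^q)`):
  `σ none = (x ↦ x(s^q))`,   `σ (some b) = tw (ζ^b) ∘ w_q`   (`w_q = H12AL.wqKHom`),
send `Y` to the formal conjugates `H28S28.xconj ℚ̄ q ζ` of `j(𝐪^q)`.  Hence
(`H21DF.discr_pow_eq_prod_ne`, `H21DG.baseEval_resultant`)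

  `disc_{F/F₀}(1, Y, …, Y^q) = ± D(j)`,   `D = Res_Y(Φ, ∂Φ) ∈ ℤ[J]`   (`H21D1.discr_series`),

as `𝐪`-series, and its Gauss valuation is `≤ e · q` (`H21D1.discr_bound`); element form
`H21D1.discr_eq_aeval`, final data `H21D1.discr_data` (`disc = ± q^m D'(j)`, `m ≤ q`, `D'` primitive),
`H21D1.discr_not_inGm`, `H21D1.discr_hdval` (the hypothesis `hdval` of `H20R3.two_gen_of_disc'`).
Nothing here is proved by a placeholder.
-/
import Mathlib
import Fermat.Agent.S34.ALqK_helper12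
import Fermat.Agent.S36.NormK_helper13
import Fermat.Agent.S36.DiscGauss_helper21
import Fermat.Agent.S36.DiscBound_helper21
import Fermat.Agent.S36.DiscField_helper21
import Fermat.Agent.S28.ModEq.Final

set_option autoImplicit false
set_option linter.unusedSectionVars false
set_option linter.unusedVariables false
set_option linter.style.haveILetI false
set_option linter.style.longLine false
set_option synthInstance.maxHeartbeats 400000

noncomputable section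

open AlgebraicCurve IntermediateField ModularCurve RH24 H28S28 HahnSeries H7S18

namespace H21D1

section tw

variable {A : Type} [CommRing A]

/-- a twist by a `q`-th root of unity fixes the series in `s^q`. -/
theorem tw_qExpand (q : ℕ) [NeZero q] (ζ : Aˣ) (hζ : ζ ^ q = 1) (x : LaurentSeries A) :
    tw ζ (qExpand A q x) = qExpand A q x := by
  ext n
  rw [tw_coeff]
  by_cases hd : (q : ℤ) ∣ n
  · obtain ⟨m, rfl⟩ := hd
    have h1 : ζ ^ ((q : ℤ) * m) = 1 := by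
      rw [zpow_mul, zpow_natCast, hζ, one_zpow]
    rw [h1, Units.val_one, one_mul]
  · rw [qExpand_coeff_of_not_dvd _ _ hd, mul_zero]

end tw

section main

variable (K₁ : IntermediateField ℚ Kbar) (N q : ℕ) [NeZero N] [NeZero q]

/-- `Y = j(𝐪^q) ∈ F_{K₁}(N q)` -/
def Yq : FK ↥K₁ (N * q) := H3V3.JgenK ↥K₁ (⟨q, dvd_mul_left q N⟩ : Dv (N * q))

theorem coe_Yq :
    ((Yq K₁ N q : FK ↥K₁ (N * q)) : LaurentSeries ↥K₁) = qExpand ↥K₁ q (jqModC ↥K₁) := by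
  show coeffEmb ↥K₁ (qExpand ℚ q jq) = _
  rw [coeffEmb, coeffMap_qExpand, ← jqModC_rat, coeffMap_jqModC]

/-- `j ∈ F_{K₁}(N q)` -/
def Jq0 : FK ↥K₁ (N * q) := H9C6e.JK ↥K₁ (N * q)

theorem coe_Jq0 : ((Jq0 K₁ N q : FK ↥K₁ (N * q)) : LaurentSeries ↥K₁) = jqModC ↥K₁ :=
  H9C6e.coe_JK ↥K₁ (N * q)

/-- the base embedding `F₀ → ℚ̄((s))`, `x ↦ x(s^q)` -/
def rho0 : FK ↥K₁ N →+* LaurentSeries Kbar :=
  (qExpand Kbar q).comp ((coeffMap (algebraMap ↥K₁ Kbar)).comp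
    (algebraMap (FK ↥K₁ N) (LaurentSeries ↥K₁)))

theorem rho0_apply (x : FK ↥K₁ N) :
    rho0 K₁ N q x = qExpand Kbar q (coeffMap (algebraMap ↥K₁ Kbar) (x : LaurentSeries ↥K₁)) :=
  rfl

/-- the `q + 1` embeddings of `F` -/
def sig (hq : q.Prime) (hqN : ¬ q ∣ N) (ζ : Kbarˣ) :
    Option (Fin q) → (FK ↥K₁ (N * q) →+* LaurentSeries Kbar)
  | none => (qExpand Kbar q).comp ((coeffMap (algebraMap ↥K₁ Kbar)).comp
      (algebraMap (FK ↥K₁ (N * q)) (LaurentSeries ↥K₁)))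
  | some b => (tw (ζ ^ (b : ℕ))).comp ((coeffMap (algebraMap ↥K₁ Kbar)).comp
      ((algebraMap (FK ↥K₁ (N * q)) (LaurentSeries ↥K₁)).comp (H12AL.wqKHom K₁ N q hq hqN)))

theorem sig_none (hq : q.Prime) (hqN : ¬ q ∣ N) (ζ : Kbarˣ) (x : FK ↥K₁ (N * q)) :
    sig K₁ N q hq hqN ζ none x =
      qExpand Kbar q (coeffMap (algebraMap ↥K₁ Kbar) (x : LaurentSeries ↥K₁)) := rfl

theorem sig_some (hq : q.Prime) (hqN : ¬ q ∣ N) (ζ : Kbarˣ) (b : Fin q) (x : FK ↥K₁ (N * q)) :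
    sig K₁ N q hq hqN ζ (some b) x =
      tw (ζ ^ (b : ℕ)) (coeffMap (algebraMap ↥K₁ Kbar)
        ((H12AL.wqKHom K₁ N q hq hqN x : FK ↥K₁ (N * q)) : LaurentSeries ↥K₁)) := rfl

/-- the embeddings extend the base embedding -/
theorem sig_alpha (hq : q.Prime) (hqN : ¬ q ∣ N) (ζ : Kbarˣ) (hζ : ζ ^ q = 1)
    (i : Option (Fin q)) (x : FK ↥K₁ N) :
    sig K₁ N q hq hqN ζ i (heckeAlphaBar ↥K₁ N q x) = rho0 K₁ N q x := by
  cases i with
  | none => rw [sig_none, rho0_apply, coe_heckeAlphaBar]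
  | some b =>
    rw [sig_some, rho0_apply]
    have hx : ((heckeAlphaBar ↥K₁ N q x : FK ↥K₁ (N * q)) : LaurentSeries ↥K₁) ∈
        laurentBaseChange ↥K₁ (modularFunctionFieldFull N) := by
      rw [coe_heckeAlphaBar]
      exact x.2
    rw [H12AL.coe_wqKHom_of_level K₁ N q hq hqN _ hx, coe_heckeAlphaBar, coeffMap_qExpand]
    apply H21D1.tw_qExpand
    rw [← pow_mul, mul_comm, pow_mul, hζ, one_pow]

/-- the embeddings send `Y` to the formal conjugates of `j(𝐪^q)` -/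
theorem sig_Yq (hq : q.Prime) (hqN : ¬ q ∣ N) (ζ : Kbarˣ) (i : Option (Fin q)) :
    sig K₁ N q hq hqN ζ i (Yq K₁ N q) = xconj Kbar q ζ i := by
  cases i with
  | none =>
    rw [sig_none, coe_Yq, coeffMap_qExpand, coeffMap_jqModC, qExpand_qExpand]
    rfl
  | some b =>
    rw [sig_some]
    have hJ : ((Jq0 K₁ N q : FK ↥K₁ (N * q)) : LaurentSeries ↥K₁) ∈
        laurentBaseChange ↥K₁ (modularFunctionFieldFull N) := by
      rw [coe_Jq0, ← H9C6e.coe_JK ↥K₁ N]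
      exact (H9C6e.JK ↥K₁ N).2
    have hw : H12AL.wqKHom K₁ N q hq hqN (Yq K₁ N q) = Jq0 K₁ N q :=
      H12AL.wqKHom_qExpand K₁ N q hq hqN (Jq0 K₁ N q) (Yq K₁ N q) hJ
        (by rw [coe_Yq, coe_Jq0])
    rw [hw, coe_Jq0, coeffMap_jqModC]
    rfl

end main

section discr

variable (K₁ : IntermediateField ℚ Kbar) (N q : ℕ) [NeZero N] [NeZero q]

set_option maxHeartbeats 1600000 in
/-- `[FK K₁ (N q) : FK K₁ N] = q + 1` along `α`, `q ∤ N`. -/
theorem finrank_alpha_succ (hq : q.Prime) (hqN : ¬ q ∣ N) :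
    letI := algebraAlong (heckeAlphaBar ↥K₁ N q)
    Module.finrank (FK ↥K₁ N) (FK ↥K₁ (N * q)) = q + 1 := by
  letI := algebraAlong (heckeAlphaBar ↥K₁ N q)
  have h := H13N3.finrank_alphaK_mul ↥K₁ N q
  have hpsi : dedekindPsi (N * q) = (q + 1) * dedekindPsi N := by
    rw [mul_comm N q]
    exact H28S28.h10_psi_mul_of_not_dvd hq (NeZero.ne N) hqN
  rw [hpsi] at h
  exact Nat.eq_of_mul_eq_mul_right (H28UG.c7_dedekindPsi_pos N) h

/-- the formal conjugates are pairwise distinct -/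
theorem xconj_injective (hq2 : 2 ≤ q) (ζ : Kbarˣ)
    (hη : IsPrimitiveRoot ((ζ⁻¹ : Kbarˣ) : Kbar) q) :
    Function.Injective (xconj Kbar q ζ) := by
  intro i i' h
  by_contra hne
  have h0 : xconj Kbar q ζ i - xconj Kbar q ζ i' = 0 := sub_eq_zero.2 h
  cases i with
  | none =>
    cases i' with
    | none => exact hne rfl
    | some b => exact (H21DG.lc_diff_none_some Kbar q ζ hq2 b).1 h0
  | some b =>
    cases i' with
    | none => exact (H21DG.lc_diff_some_none Kbar q ζ hq2 b).1 h0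
    | some b' =>
      have hbb : b ≠ b' := fun e => hne (congrArg some e)
      have hne' : (((ζ ^ (b : ℕ))⁻¹ : Kbarˣ) : Kbar) ≠ (((ζ ^ (b' : ℕ))⁻¹ : Kbarˣ) : Kbar) := by
        rw [H21DG.units_inv_pow, H21DG.units_inv_pow]
        intro he
        exact hbb (Fin.ext (hη.pow_inj b.2 b'.2 he))
      exact (H21DG.lc_diff_some_some Kbar q ζ b b' hne').1 h0

theorem prod_compl_eq_pairProd (ζ : Kbarˣ) :
    ∏ a : Option (Fin q), ∏ b ∈ ({a}ᶜ : Finset (Option (Fin q))),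
      (xconj Kbar q ζ b - xconj Kbar q ζ a) = H21DG.pairProd Kbar q ζ := by
  classical
  unfold H21DG.pairProd
  rw [Finset.prod_comm]
  refine Finset.prod_congr rfl (fun a _ => ?_)
  rw [← Finset.prod_compl_mul_prod ({a} : Finset (Option (Fin q)))
    (fun b => H21DG.dconj Kbar q ζ b a), Finset.prod_singleton]
  have h1 : H21DG.dconj Kbar q ζ a a = 1 := by
    unfold H21DG.dconj
    rw [if_pos rfl]
  rw [h1, mul_one]
  refine Finset.prod_congr rfl (fun b hb => ?_)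
  have hba : b ≠ a := by
    simpa using hb
  unfold H21DG.dconj
  rw [if_neg hba]

set_option maxHeartbeats 1600000 in
/-- **the discriminant in `ℚ̄((s))`**: `(disc)(s^q) = ± ∏_{a ≠ b} (x_a - x_b)`. -/
theorem discr_rho0 (hq : q.Prime) (hqN : ¬ q ∣ N) (ζ : Kbarˣ) (hζ : ζ ^ q = 1)
    (hη : IsPrimitiveRoot ((ζ⁻¹ : Kbarˣ) : Kbar) q) :
    letI := algebraAlong (heckeAlphaBar ↥K₁ N q)
    rho0 K₁ N q (Algebra.discr (FK ↥K₁ N) (fun i : Fin (q + 1) => (Yq K₁ N q) ^ (i : ℕ))) =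
      ((H21DF.vsign (q + 1) : ℤ) : LaurentSeries Kbar) * H21DG.pairProd Kbar q ζ := by
  letI := algebraAlong (heckeAlphaBar ↥K₁ N q)
  have hfr := finrank_alpha_succ K₁ N q hq hqN
  haveI : FiniteDimensional (FK ↥K₁ N) (FK ↥K₁ (N * q)) :=
    Module.finite_of_finrank_pos (by rw [hfr]; omega)
  have hinj : Function.Injective (fun i => sig K₁ N q hq hqN ζ i (Yq K₁ N q)) := by
    intro i i' h
    simp only [sig_Yq] at h
    exact xconj_injective q hq.two_le ζ hη h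
  rw [H21DF.discr_pow_eq_prod_ne (q + 1) hfr (finSuccEquiv q) (rho0 K₁ N q)
    (sig K₁ N q hq hqN ζ) (fun i x => sig_alpha K₁ N q hq hqN ζ hζ i x) (Yq K₁ N q) hinj]
  congr 1
  simp only [sig_Yq]
  exact prod_compl_eq_pairProd q ζ

end discr

section series

open Polynomial

theorem coeffMap_baseEval {A B : Type} [CommRing A] [CommRing B] (f : A →+* B) (p : ℕ) [NeZero p]
    (D : Polynomial ℤ) : coeffMap f (baseEval A p D) = baseEval B p D := by
  show coeffMap f (Polynomial.eval₂ (Int.castRingHom _) (qExpand A p (jqModC A)) D) =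
    Polynomial.eval₂ (Int.castRingHom _) (qExpand B p (jqModC B)) D
  rw [Polynomial.hom_eval₂, coeffMap_qExpand, coeffMap_jqModC]
  congr 1
  exact RingHom.ext_int _ _

variable (K₁ : IntermediateField ℚ Kbar) (N q : ℕ) [NeZero N] [NeZero q]

set_option maxHeartbeats 1600000 in
/-- **(R1-D), series form**: `disc_{F/F₀}(1, Y, …, Y^q) = ± D(j)` as `𝐪`-series,
`D = Res_Y(Φ, ∂Φ) ∈ ℤ[J]`. -/
theorem discr_series (hq : q.Prime) (hqN : ¬ q ∣ N) (Φ : Polynomial (Polynomial ℤ))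
    (hΦ : ∀ (A : Type) [CommRing A] (ζ : Aˣ), (Polynomial.cyclotomic q A).eval (ζ : A) = 0 →
      Φ.map (baseEval A q) = ∏ i : Option (Fin q), (X - Polynomial.C (xconj A q ζ i))) :
    letI := algebraAlong (heckeAlphaBar ↥K₁ N q)
    ((Algebra.discr (FK ↥K₁ N) (fun i : Fin (q + 1) => (Yq K₁ N q) ^ (i : ℕ)) : FK ↥K₁ N) :
        LaurentSeries ↥K₁) =
      coeffMap (Int.castRingHom ↥K₁) (((H21DF.vsign (q + 1) : ℤ) : LaurentSeries ℤ) *
        H21DB.evalJ (Polynomial.resultant Φ (Polynomial.derivative Φ) (q + 1) q)) := by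
  letI := algebraAlong (heckeAlphaBar ↥K₁ N q)
  obtain ⟨ζ₀, hζ₀⟩ := HasEnoughRootsOfUnity.exists_primitiveRoot Kbar q
  have hζ0 : ζ₀ ≠ 0 := hζ₀.ne_zero (NeZero.ne q)
  have hζq : (Units.mk0 ζ₀ hζ0) ^ q = 1 := Units.ext (by simp [hζ₀.pow_eq_one])
  have hη : IsPrimitiveRoot (((Units.mk0 ζ₀ hζ0)⁻¹ : Kbarˣ) : Kbar) q := by
    have h3 : (((Units.mk0 ζ₀ hζ0)⁻¹ : Kbarˣ) : Kbar) = ζ₀⁻¹ := by simp
    rw [h3]
    exact hζ₀.inv
  have hcyc : (Polynomial.cyclotomic q Kbar).eval ((Units.mk0 ζ₀ hζ0 : Kbarˣ) : Kbar) = 0 :=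
    hζ₀.isRoot_cyclotomic (Nat.pos_of_ne_zero (NeZero.ne q))
  have h1 := discr_rho0 K₁ N q hq hqN (Units.mk0 ζ₀ hζ0) hζq hη
  have h2 := H21DG.baseEval_resultant Kbar q (Units.mk0 ζ₀ hζ0) Φ (hΦ Kbar _ hcyc)
  rw [← h2, ← coeffMap_baseEval (Int.castRingHom Kbar) q, H21DB.baseEval_eq_qExpand,
    coeffMap_qExpand, rho0_apply] at h1
  apply H12AL.coeffMap_algebraMap_injective K₁
  apply qExpand_injective (R := Kbar) q
  rw [h1, coeffMap_coeffMap, map_mul, map_mul, map_intCast, map_intCast]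
  congr 2

end series

section bound

open Polynomial H8PB

variable (K₁ : IntermediateField ℚ Kbar) (N q : ℕ) [NeZero N] [NeZero q]

theorem coeffMap_evalJ (D : Polynomial ℤ) :
    coeffMap (Int.castRingHom ↥K₁) (H21DB.evalJ D) =
      Polynomial.eval₂ (Int.castRingHom (LaurentSeries ↥K₁)) (jqModC ↥K₁) D := by
  show coeffMap (Int.castRingHom ↥K₁)
    (Polynomial.eval₂ (Int.castRingHom (LaurentSeries ℤ)) (jqModC ℤ) D) = _
  rw [Polynomial.hom_eval₂, coeffMap_jqModC]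
  congr 1
  exact RingHom.ext_int _ _

set_option maxHeartbeats 1600000 in
/-- **(R1-D), element form**: `disc_{F/F₀}(1, Y, …, Y^q) = ± D(j)` in `F₀ = FK K₁ N`. -/
theorem discr_eq_aeval (hq : q.Prime) (hqN : ¬ q ∣ N) (Φ : Polynomial (Polynomial ℤ))
    (hΦ : ∀ (A : Type) [CommRing A] (ζ : Aˣ), (Polynomial.cyclotomic q A).eval (ζ : A) = 0 →
      Φ.map (baseEval A q) = ∏ i : Option (Fin q), (X - Polynomial.C (xconj A q ζ i))) :
    letI := algebraAlong (heckeAlphaBar ↥K₁ N q)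
    Algebra.discr (FK ↥K₁ N) (fun i : Fin (q + 1) => (Yq K₁ N q) ^ (i : ℕ)) =
      ((H21DF.vsign (q + 1) : ℤ) : FK ↥K₁ N) *
        Polynomial.aeval (H9C6e.JK ↥K₁ N)
          (Polynomial.resultant Φ (Polynomial.derivative Φ) (q + 1) q) := by
  letI := algebraAlong (heckeAlphaBar ↥K₁ N q)
  apply Subtype.ext
  rw [discr_series K₁ N q hq hqN Φ hΦ, map_mul, map_intCast, coeffMap_evalJ]
  have hmul : ∀ a b : FK ↥K₁ N, ((a * b : FK ↥K₁ N) : LaurentSeries ↥K₁) =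
      (a : LaurentSeries ↥K₁) * (b : LaurentSeries ↥K₁) := fun _ _ => rfl
  have hint : ∀ z : ℤ, (((z : ℤ) : FK ↥K₁ N) : LaurentSeries ↥K₁) = ((z : ℤ) : LaurentSeries ↥K₁) :=
    fun z => map_intCast (algebraMap (FK ↥K₁ N) (LaurentSeries ↥K₁)) z
  have h1 : ((Polynomial.aeval (H9C6e.JK ↥K₁ N)
      (Polynomial.resultant Φ (Polynomial.derivative Φ) (q + 1) q) : FK ↥K₁ N) :
        LaurentSeries ↥K₁) =
      Polynomial.eval₂ (Int.castRingHom (LaurentSeries ↥K₁)) (jqModC ↥K₁)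
        (Polynomial.resultant Φ (Polynomial.derivative Φ) (q + 1) q) := by
    have h0 : ((Polynomial.aeval (H9C6e.JK ↥K₁ N)
        (Polynomial.resultant Φ (Polynomial.derivative Φ) (q + 1) q) : FK ↥K₁ N) :
          LaurentSeries ↥K₁) =
        algebraMap (FK ↥K₁ N) (LaurentSeries ↥K₁) (Polynomial.aeval (H9C6e.JK ↥K₁ N)
          (Polynomial.resultant Φ (Polynomial.derivative Φ) (q + 1) q)) := rfl
    rw [h0, Polynomial.aeval_def, Polynomial.hom_eval₂]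
    have h2 : algebraMap (FK ↥K₁ N) (LaurentSeries ↥K₁) (H9C6e.JK ↥K₁ N) = jqModC ↥K₁ :=
      H9C6e.coe_JK ↥K₁ N
    rw [h2]
    congr 1
  rw [hmul, hint, h1]

set_option maxHeartbeats 1600000 in
/-- **(R1-D), Gauss bound**: if `disc_{F/F₀}(1, Y, …, Y^q) = ϖ^m u` with `u` Gauss-integral then
`m ≤ e q` (`q = ε ϖ^e` in `R`; `e = 1` in the unramified case). -/
theorem discr_bound (hq : q.Prime) (hqN : ¬ q ∣ N) (R : ValuationSubring ↥K₁)
    (hR : R.LiesOverPrime q) (ϖ : R) (hϖ : ¬ IsUnit ϖ) (e : ℕ) (ε : Rˣ)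
    (hpe : ((q : ℕ) : R) = (ε : R) * ϖ ^ e) (m : ℕ) (u : LaurentSeries ↥K₁) (hu : InG R u)
    (h : letI := algebraAlong (heckeAlphaBar ↥K₁ N q)
      ((Algebra.discr (FK ↥K₁ N) (fun i : Fin (q + 1) => (Yq K₁ N q) ^ (i : ℕ)) : FK ↥K₁ N) :
        LaurentSeries ↥K₁) = HahnSeries.C (((ϖ : R) : ↥K₁) ^ m) * u) :
    m ≤ e * q := by
  haveI : Fact q.Prime := ⟨hq⟩
  obtain ⟨Φ, T, G, -, -, -, -, -, hall⟩ := H23M.h15g_hasModEq q
  have hΦ : ∀ (A : Type) [CommRing A] (ζ : Aˣ), (Polynomial.cyclotomic q A).eval (ζ : A) = 0 →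
      Φ.map (baseEval A q) = ∏ i : Option (Fin q), (X - Polynomial.C (xconj A q ζ i)) :=
    fun A _ ζ hζ => (hall A ζ hζ).1
  have h1 := discr_series K₁ N q hq hqN Φ hΦ
  rw [h1, map_mul, map_intCast] at h
  have hs := H21DF.vsign_eq (q + 1)
  have hu' : InG R (((H21DF.vsign (q + 1) : ℤ) : LaurentSeries ↥K₁) * u) := by
    rcases hs with hs | hs
    · rw [hs]; simpa using hu
    · rw [hs]
      have : (((-1 : ℤ) : ℤ) : LaurentSeries ↥K₁) * u = -u := by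
        push_cast
        ring
      rw [this]
      exact H10FC.inG_neg R hu
  have hss : ((H21DF.vsign (q + 1) : ℤ) : LaurentSeries ↥K₁) *
      ((H21DF.vsign (q + 1) : ℤ) : LaurentSeries ↥K₁) = 1 := by
    rw [← Int.cast_mul]
    rcases hs with hs | hs <;> rw [hs] <;> norm_num
  have h2 : coeffMap (Int.castRingHom ↥K₁)
      (H21DB.evalJ (Polynomial.resultant Φ (Polynomial.derivative Φ) (q + 1) q)) =
      HahnSeries.C (((ϖ : R) : ↥K₁) ^ m) *
        (((H21DF.vsign (q + 1) : ℤ) : LaurentSeries ↥K₁) * u) := by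
    calc coeffMap (Int.castRingHom ↥K₁)
          (H21DB.evalJ (Polynomial.resultant Φ (Polynomial.derivative Φ) (q + 1) q))
        = (((H21DF.vsign (q + 1) : ℤ) : LaurentSeries ↥K₁) *
            ((H21DF.vsign (q + 1) : ℤ) : LaurentSeries ↥K₁)) *
          coeffMap (Int.castRingHom ↥K₁)
            (H21DB.evalJ (Polynomial.resultant Φ (Polynomial.derivative Φ) (q + 1) q)) := by
          rw [hss, one_mul]
      _ = ((H21DF.vsign (q + 1) : ℤ) : LaurentSeries ↥K₁) *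
            (HahnSeries.C (((ϖ : R) : ↥K₁) ^ m) * u) := by
          rw [mul_assoc, h]
      _ = _ := by ring
  exact H21DB.d1_bound_pow R q hq Φ hΦ hR ϖ hϖ e ε hpe m _ hu' h2

end bound

section prim

open Polynomial

/-- **primitive part** of an integer polynomial whose leading coefficient is not divisible by
`p^(k+1)`: `D = p^m D'`, `m ≤ k`, `D'` with a coefficient prime to `p`. -/
theorem exists_prim_poly (p : ℕ) (hp : p.Prime) :
    ∀ (k : ℕ) (D : Polynomial ℤ), ¬ ((p : ℤ) ^ (k + 1) ∣ D.leadingCoeff) →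
      ∃ (m : ℕ) (D' : Polynomial ℤ), m ≤ k ∧ D = Polynomial.C ((p : ℤ) ^ m) * D' ∧
        ∃ n, ¬ ((p : ℤ) ∣ D'.coeff n) := by
  intro k
  induction k with
  | zero =>
    intro D hD
    refine ⟨0, D, le_refl _, by simp, D.natDegree, ?_⟩
    simpa using hD
  | succ k ih =>
    intro D hD
    by_cases hall : ∀ n, (p : ℤ) ∣ D.coeff n
    · obtain ⟨D₁, hD₁⟩ := (Polynomial.C_dvd_iff_dvd_coeff (p : ℤ) D).2 hall
      have hp0 : (p : ℤ) ≠ 0 := by exact_mod_cast hp.ne_zero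
      have hlc : D.leadingCoeff = (p : ℤ) * D₁.leadingCoeff := by
        rw [hD₁, Polynomial.leadingCoeff_mul, Polynomial.leadingCoeff_C]
      have h1 : ¬ ((p : ℤ) ^ (k + 1) ∣ D₁.leadingCoeff) := by
        intro hdiv
        apply hD
        rw [hlc, pow_succ (p : ℤ) (k + 1), mul_comm ((p : ℤ) ^ (k + 1))]
        exact mul_dvd_mul_left _ hdiv
      obtain ⟨m, D', hm, hd, hn⟩ := ih D₁ h1
      refine ⟨m + 1, D', Nat.succ_le_succ hm, ?_, hn⟩
      rw [hD₁, hd, ← mul_assoc, ← Polynomial.C_mul]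
      congr 2
      ring
    · have hall' : ∃ n, ¬ (p : ℤ) ∣ D.coeff n := by
        by_contra hne
        apply hall
        intro n
        by_contra hn
        exact hne ⟨n, hn⟩
      obtain ⟨n, hn⟩ := hall'
      exact ⟨0, D, Nat.zero_le _, by simp, n, hn⟩

variable (K₁ : IntermediateField ℚ Kbar) (N q : ℕ) [NeZero N] [NeZero q]

set_option maxHeartbeats 1600000 in
/-- **(R1-D), final data**: `disc_{F/F₀}(1, Y, …, Y^q) = ± q^m · D'(j)` with `m ≤ q` and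
`D' ∈ ℤ[J]` having a coefficient prime to `q` (feed `D'` to `H23GB.gauss_bridge_j`). -/
theorem discr_data (hq : q.Prime) (hqN : ¬ q ∣ N) :
    letI := algebraAlong (heckeAlphaBar ↥K₁ N q)
    ∃ (m : ℕ) (D' : Polynomial ℤ) (s : ℤ), m ≤ q ∧ (s = 1 ∨ s = -1) ∧
      (∃ n, ¬ ((q : ℤ) ∣ D'.coeff n)) ∧
      Algebra.discr (FK ↥K₁ N) (fun i : Fin (q + 1) => (Yq K₁ N q) ^ (i : ℕ)) =
        ((s : ℤ) : FK ↥K₁ N) * ((q : ℕ) : FK ↥K₁ N) ^ m *
          Polynomial.aeval (H9C6e.JK ↥K₁ N) D' := by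
  letI := algebraAlong (heckeAlphaBar ↥K₁ N q)
  haveI : Fact q.Prime := ⟨hq⟩
  obtain ⟨Φ, T, G, -, -, -, -, -, hall⟩ := H23M.h15g_hasModEq q
  have hΦ : ∀ (A : Type) [CommRing A] (ζ : Aˣ), (Polynomial.cyclotomic q A).eval (ζ : A) = 0 →
      Φ.map (baseEval A q) = ∏ i : Option (Fin q), (X - Polynomial.C (xconj A q ζ i)) :=
    fun A _ ζ hζ => (hall A ζ hζ).1
  have hlc := H21DG.leadingCoeff_disc q hq.two_le Φ hΦ
  obtain ⟨m, D', hm, hD, hn⟩ := exists_prim_poly q hq q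
    (Polynomial.resultant Φ (Polynomial.derivative Φ) (q + 1) q)
    (H21DB.not_dvd_of_eq_or q hq q _ hlc)
  refine ⟨m, D', H21DF.vsign (q + 1), hm, H21DF.vsign_eq (q + 1), hn, ?_⟩
  rw [discr_eq_aeval K₁ N q hq hqN Φ hΦ, hD, map_mul, Polynomial.aeval_C, mul_assoc]
  congr 2
  simp

end prim

section hdval

open H8PB

variable (K₁ : IntermediateField ℚ Kbar) (N q : ℕ) [NeZero N] [NeZero q]

set_option maxHeartbeats 1600000 in
/-- **(R1-D), `InGm` form**: in the unramified case (`q = ε ϖ`), `disc / ϖ^q` is not in the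
maximal ideal of the Gauss ring. -/
theorem discr_not_inGm (hq : q.Prime) (hqN : ¬ q ∣ N) (R : ValuationSubring ↥K₁)
    [IsDiscreteValuationRing R] (hR : R.LiesOverPrime q) (ϖ : R) (hϖ : Irreducible ϖ) (ε : Rˣ)
    (hpe : ((q : ℕ) : R) = (ε : R) * ϖ) :
    letI := algebraAlong (heckeAlphaBar ↥K₁ N q)
    ¬ InGm R (((Algebra.discr (FK ↥K₁ N) (fun i : Fin (q + 1) => (Yq K₁ N q) ^ (i : ℕ)) :
        FK ↥K₁ N) : LaurentSeries ↥K₁) * (HahnSeries.C (((ϖ : R) : ↥K₁) ^ q))⁻¹) := by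
  letI := algebraAlong (heckeAlphaBar ↥K₁ N q)
  intro hm
  obtain ⟨y, hy, hxy⟩ := H10FC.inGm_unif R hϖ hm
  have hϖ0 : ((ϖ : R) : ↥K₁) ≠ 0 := by
    intro h0
    exact hϖ.ne_zero (Subtype.ext h0)
  have hC0 : (HahnSeries.C (((ϖ : R) : ↥K₁) ^ q) : LaurentSeries ↥K₁) ≠ 0 := by
    intro h0
    have h00 : (((ϖ : R) : ↥K₁) ^ q) = 0 :=
      HahnSeries.C_injective (h0.trans (map_zero _).symm)
    exact pow_ne_zero _ hϖ0 h00
  have h1 : ((Algebra.discr (FK ↥K₁ N) (fun i : Fin (q + 1) => (Yq K₁ N q) ^ (i : ℕ)) :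
        FK ↥K₁ N) : LaurentSeries ↥K₁) =
      HahnSeries.C (((ϖ : R) : ↥K₁) ^ (q + 1)) * y := by
    have h2 : ((Algebra.discr (FK ↥K₁ N) (fun i : Fin (q + 1) => (Yq K₁ N q) ^ (i : ℕ)) :
        FK ↥K₁ N) : LaurentSeries ↥K₁) * (HahnSeries.C (((ϖ : R) : ↥K₁) ^ q))⁻¹ *
          (HahnSeries.C (((ϖ : R) : ↥K₁) ^ q) : LaurentSeries ↥K₁) =
        HahnSeries.C ((ϖ : R) : ↥K₁) * y *
          (HahnSeries.C (((ϖ : R) : ↥K₁) ^ q) : LaurentSeries ↥K₁) := by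
      rw [hxy]
    rw [mul_assoc, inv_mul_cancel₀ hC0, mul_one] at h2
    rw [h2, pow_succ, map_mul]
    ring
  have h3 := discr_bound K₁ N q hq hqN R hR ϖ hϖ.not_isUnit 1 ε (by rw [pow_one]; exact hpe)
    (q + 1) y hy h1
  omega

set_option maxHeartbeats 1600000 in
/-- **(R1-D), valuation form** (`hdval` of `H20R3.two_gen_of_disc'`, `m = q`, `V' = ` Gauss
valuation of level `N`): `¬ v(disc / π^q) < 1`, for `π ∈ F₀` with expansion the constant `ϖ`. -/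
theorem discr_hdval (hq : q.Prime) (hqN : ¬ q ∣ N) (R : ValuationSubring ↥K₁)
    [IsDiscreteValuationRing R] (hR : R.LiesOverPrime q) (ϖ : R) (hϖ : Irreducible ϖ) (ε : Rˣ)
    (hpe : ((q : ℕ) : R) = (ε : R) * ϖ) (π : FK ↥K₁ N)
    (hπ : (π : LaurentSeries ↥K₁) = HahnSeries.C ((ϖ : R) : ↥K₁)) :
    letI := algebraAlong (heckeAlphaBar ↥K₁ N q)
    ¬ (H10FC.gaussVal R N).valuation
      (Algebra.discr (FK ↥K₁ N) (fun i : Fin (q + 1) => (Yq K₁ N q) ^ (i : ℕ)) / π ^ q) < 1 := by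
  letI := algebraAlong (heckeAlphaBar ↥K₁ N q)
  rw [H10FC.gaussVal_lt_one]
  have h := discr_not_inGm K₁ N q hq hqN R hR ϖ hϖ ε hpe
  have hco : ((Algebra.discr (FK ↥K₁ N) (fun i : Fin (q + 1) => (Yq K₁ N q) ^ (i : ℕ)) / π ^ q :
      FK ↥K₁ N) : LaurentSeries ↥K₁) =
      ((Algebra.discr (FK ↥K₁ N) (fun i : Fin (q + 1) => (Yq K₁ N q) ^ (i : ℕ)) :
        FK ↥K₁ N) : LaurentSeries ↥K₁) * (HahnSeries.C (((ϖ : R) : ↥K₁) ^ q))⁻¹ := by
    have h1 : ∀ a b : FK ↥K₁ N, ((a / b : FK ↥K₁ N) : LaurentSeries ↥K₁) =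
        (a : LaurentSeries ↥K₁) / (b : LaurentSeries ↥K₁) :=
      fun a b => map_div₀ (algebraMap (FK ↥K₁ N) (LaurentSeries ↥K₁)) a b
    have h2 : ∀ (a : FK ↥K₁ N) (n : ℕ), ((a ^ n : FK ↥K₁ N) : LaurentSeries ↥K₁) =
        (a : LaurentSeries ↥K₁) ^ n :=
      fun a n => map_pow (algebraMap (FK ↥K₁ N) (LaurentSeries ↥K₁)) a n
    rw [h1, h2, hπ, div_eq_mul_inv, map_pow]
  rw [hco]
  exact h

end hdval

end H21D1

end
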