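import Mathlib
import Fermat.Agent.S34.LocBridge_helper22

/-!
# Item 86 (S36), LOC: the map between the charts of two levels  (helper6)

`F / F₀` an extension of fields over `R`, `t₀ ∈ F₀`, `t = algebraMap F₀ F t₀`.
* `H6CM.chartMap R t₀ : Chart R t₀ →+* Chart R t`, `x ↦ algebraMap F₀ F x`
  (`coe_chartMap`, `chartMap_injective`, `chartMap_isIntegral`);
(Usable for `φ` in `H26R2.l1At_R2_under`.)
-/

set_option autoImplicit false
set_option synthInstance.maxHeartbeats 400000
set_option linter.unusedSectionVars false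
set_option linter.unusedVariables false
set_option linter.style.haveILetI false

noncomputable section

open Polynomial IntermediateField

namespace H6CM

open H4S34

variable (R : Type) [CommRing R] {F₀ F : Type} [Field F₀] [Field F] [Algebra R F₀] [Algebra R F]
  [Algebra F₀ F] [IsScalarTower R F₀ F]

theorem map_mem_adjoin (t₀ : F₀) {x : F₀} (hx : x ∈ Algebra.adjoin R {t₀}) :
    algebraMap F₀ F x ∈ Algebra.adjoin R {algebraMap F₀ F t₀} := by
  have h : (Algebra.adjoin R {t₀}).map (IsScalarTower.toAlgHom R F₀ F) =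
      Algebra.adjoin R {algebraMap F₀ F t₀} := by
    rw [AlgHom.map_adjoin]
    simp
  rw [← h]
  exact ⟨x, hx, rfl⟩

/-- `R[t₀] → R[t]`. -/
def adjoinMap (t₀ : F₀) : Algebra.adjoin R {t₀} →+* Algebra.adjoin R {algebraMap F₀ F t₀} where
  toFun x := ⟨algebraMap F₀ F (x : F₀), map_mem_adjoin R t₀ x.2⟩
  map_one' := Subtype.ext (by simp)
  map_mul' x y := Subtype.ext (by simp)
  map_zero' := Subtype.ext (by simp)
  map_add' x y := Subtype.ext (by simp)

theorem coe_adjoinMap (t₀ : F₀) (x : Algebra.adjoin R {t₀}) :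
    ((adjoinMap R (F := F) t₀ x : Algebra.adjoin R {algebraMap F₀ F t₀}) : F) =
      algebraMap F₀ F (x : F₀) := rfl

theorem adjoinMap_surjective (t₀ : F₀) : Function.Surjective (adjoinMap R (F := F) t₀) := by
  rintro ⟨y, hy⟩
  have h : (Algebra.adjoin R {t₀}).map (IsScalarTower.toAlgHom R F₀ F) =
      Algebra.adjoin R {algebraMap F₀ F t₀} := by
    rw [AlgHom.map_adjoin]
    simp
  rw [← h] at hy
  obtain ⟨x, hx, rfl⟩ := hy
  exact ⟨⟨x, hx⟩, rfl⟩

theorem isIntegral_map (t₀ : F₀) {x : F₀} (hx : IsIntegral (Algebra.adjoin R {t₀}) x) :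
    IsIntegral (Algebra.adjoin R {algebraMap F₀ F t₀}) (algebraMap F₀ F x) := by
  obtain ⟨p, hp, hpx⟩ := hx
  refine ⟨p.map (adjoinMap R (F := F) t₀), hp.map _, ?_⟩
  rw [Polynomial.eval₂_map]
  have h : (algebraMap (Algebra.adjoin R {algebraMap F₀ F t₀}) F).comp (adjoinMap R (F := F) t₀) =
      (algebraMap F₀ F).comp (algebraMap (Algebra.adjoin R {t₀}) F₀) := by
    ext x
    rfl
  rw [h, ← Polynomial.hom_eval₂, hpx, map_zero]

/-- The map of charts `M₀(t₀) → M₀(t)`. -/
def chartMap (t₀ : F₀) : Chart R t₀ →+* Chart R (algebraMap F₀ F t₀) where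
  toFun x := ⟨algebraMap F₀ F (x : F₀), isIntegral_map R t₀ x.2⟩
  map_one' := Subtype.ext (by simp)
  map_mul' x y := Subtype.ext (by simp)
  map_zero' := Subtype.ext (by simp)
  map_add' x y := Subtype.ext (by simp)

@[simp]
theorem coe_chartMap (t₀ : F₀) (x : Chart R t₀) :
    ((chartMap R (F := F) t₀ x : Chart R (algebraMap F₀ F t₀)) : F) =
      algebraMap F₀ F (x : F₀) := rfl

theorem chartMap_injective (t₀ : F₀) : Function.Injective (chartMap R (F := F) t₀) := by
  intro x y h
  have h1 := congrArg (fun z : Chart R (algebraMap F₀ F t₀) => (z : F)) h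
  simp only [coe_chartMap] at h1
  exact Subtype.ext ((algebraMap F₀ F).injective h1)

theorem chartMap_isIntegral (t₀ : F₀) : (chartMap R (F := F) t₀).IsIntegral := by
  intro y
  have h1 : ((algebraMap (Algebra.adjoin R {algebraMap F₀ F t₀})
      (Chart R (algebraMap F₀ F t₀))).comp (adjoinMap R (F := F) t₀)).IsIntegral := by
    refine RingHom.IsIntegral.trans _ _ ?_ ?_
    · exact RingHom.isIntegral_of_surjective _ (adjoinMap_surjective R t₀)
    · exact (algebraMap_isIntegral_iff).2 inferInstance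
  have h2 : (algebraMap (Algebra.adjoin R {algebraMap F₀ F t₀})
      (Chart R (algebraMap F₀ F t₀))).comp (adjoinMap R (F := F) t₀) =
      (chartMap R (F := F) t₀).comp (algebraMap (Algebra.adjoin R {t₀}) (Chart R t₀)) := by
    ext x
    rfl
  rw [h2] at h1
  exact RingHom.IsIntegralElem.of_comp (h1 y)

end H6CM

end
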