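/-
Item 86 (S36), slice LOC-D, part (INT-Y) (helper21): integrality of the family `b` of (D).

Generic (`R`, `F / F₀`, lower chart `Chart R t₀`, upper chart `Chart R (algebraMap F₀ F t₀)`,
`𝔫₀` a prime of the lower chart):
* `H21DI.exists_common_den` : finitely many elements of `B_{𝔫₀}` have a common denominator;
* `H21DI.mem_chart_of_isIntegral` : an element of `F` integral over the lower chart lies in the
  upper chart;
* `H21DI.exists_mul_mem_chart` : if `y ∈ F` is a root of a monic polynomial over `F₀` with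
  coefficients in `B_{𝔫₀}`, then `s y` lies in the upper chart for some `s ∉ 𝔫₀`;
* `H21DI.exists_mul_pow_mem_chart` : the same for the powers `y^i` (= the hypothesis on `b` in
  `H6LD.DiscChartStatement`).
Nothing here is proved by a placeholder.
-/
import Mathlib
import Fermat.Agent.S34.WTransport_helper26
import Fermat.Agent.S36.ChartMap_helper6

set_option autoImplicit false
set_option linter.unusedSectionVars false
set_option linter.unusedVariables false
set_option linter.style.haveILetI false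
set_option linter.style.longLine false
set_option synthInstance.maxHeartbeats 400000

noncomputable section

open Polynomial IntermediateField

namespace H21DI

open H4S34

section lower

variable (R : Type) [CommRing R] {F₀ : Type} [Field F₀] [Algebra R F₀]

/-- finitely many elements of `B_{𝔫₀}` have a common denominator -/
theorem exists_common_den (t₀ : F₀) (𝔫₀ : Ideal (Chart R t₀)) (h𝔫 : 𝔫₀.IsPrime)
    {ι : Type*} (S : Finset ι) (f : ι → F₀) (hf : ∀ i ∈ S, InLoc R t₀ 𝔫₀ (f i)) :
    ∃ s : Chart R t₀, s ∉ 𝔫₀ ∧ ∀ i ∈ S, ∃ a : Chart R t₀, (s : F₀) * f i = (a : F₀) := by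
  classical
  induction S using Finset.induction_on with
  | empty =>
    exact ⟨1, 𝔫₀.ne_top_iff_one.mp h𝔫.ne_top, fun i hi => absurd hi (Finset.notMem_empty i)⟩
  | insert i₀ S hi₀ ih =>
    obtain ⟨s, hs, hS⟩ := ih (fun i hi => hf i (Finset.mem_insert_of_mem hi))
    obtain ⟨a, s', hs', e⟩ := hf i₀ (Finset.mem_insert_self i₀ S)
    refine ⟨s * s', fun h => (h𝔫.mem_or_mem h).elim hs hs', ?_⟩
    intro i hi
    rcases Finset.mem_insert.1 hi with rfl | hi
    · refine ⟨s * a, ?_⟩
      push_cast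
      rw [← e]
      ring
    · obtain ⟨b, hb⟩ := hS i hi
      refine ⟨s' * b, ?_⟩
      push_cast
      rw [← hb]
      ring

end lower

section upper

variable (R : Type) [CommRing R] {F₀ F : Type} [Field F₀] [Field F] [Algebra R F₀] [Algebra R F]
  [Algebra F₀ F] [IsScalarTower R F₀ F]

/-- an element of `F` which is a root of a monic polynomial over the lower chart lies in the
upper chart -/
theorem mem_chart_of_isIntegral (t₀ : F₀) (z : F) (p : Polynomial (Chart R t₀)) (hp : p.Monic)
    (hz : Polynomial.eval₂ ((algebraMap F₀ F).comp (algebraMap (Chart R t₀) F₀)) z p = 0) :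
    ∃ c : Chart R (algebraMap F₀ F t₀), (c : F) = z := by
  have h1 : IsIntegral (↥(Chart R (algebraMap F₀ F t₀))) z := by
    refine ⟨p.map (H6CM.chartMap R (F := F) t₀), hp.map _, ?_⟩
    rw [Polynomial.eval₂_map]
    have h : (algebraMap (↥(Chart R (algebraMap F₀ F t₀))) F).comp (H6CM.chartMap R (F := F) t₀) =
        (algebraMap F₀ F).comp (algebraMap (Chart R t₀) F₀) := by
      ext x
      rfl
    rw [h]
    exact hz
  have h2 : z ∈ integralClosure (↥(integralClosure (Algebra.adjoin R {algebraMap F₀ F t₀}) F)) F :=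
    h1
  rw [integralClosure_idem, Algebra.mem_bot] at h2
  obtain ⟨c, hc⟩ := h2
  exact ⟨c, hc⟩

/-- if `y ∈ F` is a root of a monic polynomial over `F₀` with coefficients in `B_{𝔫₀}`, then
`s y` lies in the upper chart for some `s ∉ 𝔫₀`. -/
theorem exists_mul_mem_chart (t₀ : F₀) (𝔫₀ : Ideal (Chart R t₀)) (h𝔫 : 𝔫₀.IsPrime)
    (p : Polynomial F₀) (hp : p.Monic) (hc : ∀ k, InLoc R t₀ 𝔫₀ (p.coeff k))
    (y : F) (hy : Polynomial.eval₂ (algebraMap F₀ F) y p = 0) :
    ∃ (s : Chart R t₀) (c : Chart R (algebraMap F₀ F t₀)), s ∉ 𝔫₀ ∧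
      algebraMap F₀ F (s : F₀) * y = (c : F) := by
  obtain ⟨s, hs, hS⟩ := exists_common_den R t₀ 𝔫₀ h𝔫 (Finset.range (p.natDegree + 1))
    (fun k => p.coeff k) (fun k _ => hc k)
  have hq_monic : (Polynomial.scaleRoots p (s : F₀)).Monic :=
    (Polynomial.monic_scaleRoots_iff _).2 hp
  have hq_lifts : Polynomial.scaleRoots p (s : F₀) ∈
      Polynomial.lifts (algebraMap (Chart R t₀) F₀) := by
    rw [Polynomial.lifts_iff_coeff_lifts]
    intro k
    rw [Polynomial.coeff_scaleRoots]
    by_cases hk : k < p.natDegree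
    · obtain ⟨a, ha⟩ := hS k (Finset.mem_range.2 (by omega))
      refine ⟨a * s ^ (p.natDegree - k - 1), ?_⟩
      have h1 : p.natDegree - k = (p.natDegree - k - 1) + 1 := by omega
      have h2 : algebraMap (Chart R t₀) F₀ (a * s ^ (p.natDegree - k - 1)) =
          (a : F₀) * (s : F₀) ^ (p.natDegree - k - 1) := by
        rw [map_mul, map_pow]
        rfl
      rw [h2, ← ha]
      conv_rhs => rw [h1, pow_succ]
      ring
    · by_cases hk' : k = p.natDegree
      · subst hk'
        rw [Nat.sub_self, pow_zero, mul_one]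
        refine ⟨1, ?_⟩
        rw [map_one]
        exact hp.coeff_natDegree.symm
      · have h0 : p.coeff k = 0 := Polynomial.coeff_eq_zero_of_natDegree_lt (by omega)
        rw [h0, zero_mul]
        exact ⟨0, map_zero _⟩
  obtain ⟨qA, hqA, -, hqAm⟩ := Polynomial.lifts_and_natDegree_eq_and_monic hq_lifts hq_monic
  have hroot := Polynomial.scaleRoots_eval₂_eq_zero (algebraMap F₀ F) (s := (s : F₀)) hy
  obtain ⟨c, hc⟩ := mem_chart_of_isIntegral R t₀ (algebraMap F₀ F (s : F₀) * y) qA hqAm
    (by rw [← Polynomial.eval₂_map, hqA]; exact hroot)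
  exact ⟨s, c, hs, hc.symm⟩

/-- the same for the powers of `y`: **the hypothesis on `b` of `H6LD.DiscChartStatement`**. -/
theorem exists_mul_pow_mem_chart (t₀ : F₀) (𝔫₀ : Ideal (Chart R t₀)) (h𝔫 : 𝔫₀.IsPrime)
    (p : Polynomial F₀) (hp : p.Monic) (hc : ∀ k, InLoc R t₀ 𝔫₀ (p.coeff k))
    (y : F) (hy : Polynomial.eval₂ (algebraMap F₀ F) y p = 0) (i : ℕ) :
    ∃ (s : Chart R t₀) (c : Chart R (algebraMap F₀ F t₀)), s ∉ 𝔫₀ ∧
      algebraMap F₀ F (s : F₀) * y ^ i = (c : F) := by
  obtain ⟨s, c, hs, e⟩ := exists_mul_mem_chart R t₀ 𝔫₀ h𝔫 p hp hc y hy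
  refine ⟨s ^ i, c ^ i, fun h => hs (h𝔫.mem_of_pow_mem i h), ?_⟩
  have h1 : ((s ^ i : Chart R t₀) : F₀) = (s : F₀) ^ i := SubmonoidClass.coe_pow s i
  have h2 : ((c ^ i : Chart R (algebraMap F₀ F t₀)) : F) = (c : F) ^ i :=
    SubmonoidClass.coe_pow c i
  rw [h1, h2, map_pow, ← mul_pow, e]

end upper

end H21DI

end
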