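/-
Item 86 (S36), slice LOC-D, part (INT-Y) for (R1) (helper21).

Levels `(N, N q)`, `q ∤ N`, `F₀ = FK K₁ N`, `F = FK K₁ (N q)` (along `α`), `Y = j(𝐪^q)`:
* `H21DI.modEq_Yq`  : `Φ(j, Y) = 0` (`Φ` the modular polynomial of the package `HasModEq`);
* `H21DI.hb_R1`     : for every lower chart `t₀`, prime `𝔫₀` with `j ∈ B_{𝔫₀}`, and every `i`:
  `∃ s ∉ 𝔫₀, c ∈ upper chart, s · Y^i = c`  (the hypothesis on `b` in `H6LD.DiscChartStatement`).
Nothing here is proved by a placeholder.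
-/
import Mathlib
import Fermat.Agent.S36.DiscInt_helper21
import Fermat.Agent.S36.DiscConc1_helper21

set_option autoImplicit false
set_option linter.unusedSectionVars false
set_option linter.unusedVariables false
set_option linter.style.haveILetI false
set_option linter.style.longLine false
set_option synthInstance.maxHeartbeats 400000

noncomputable section

open AlgebraicCurve IntermediateField ModularCurve RH24 H28S28 HahnSeries H7S18 Polynomial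

namespace H21DI

open H4S34 H21D1

section lowerZ

variable (R : Type) [CommRing R] {F₀ : Type} [Field F₀] [Algebra R F₀]

/-- `B_{𝔫₀}` is stable under polynomials with integer coefficients. -/
theorem inLoc_aevalZ (t₀ : F₀) (𝔫₀ : Ideal (Chart R t₀)) (h𝔫 : 𝔫₀.IsPrime) {x : F₀}
    (hx : InLoc R t₀ 𝔫₀ x) (D : Polynomial ℤ) : InLoc R t₀ 𝔫₀ (Polynomial.aeval x D) := by
  induction D using Polynomial.induction_on' with
  | add p q hp hq =>
    rw [map_add]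
    exact H26WT.inLoc_add h𝔫 hp hq
  | monomial n a =>
    rw [Polynomial.aeval_monomial]
    refine H26WT.inLoc_mul h𝔫 ?_ (H26WT.inLoc_pow h𝔫 hx n)
    have h : algebraMap ℤ F₀ a = algebraMap R F₀ (a : R) := by
      rw [eq_intCast, map_intCast]
    rw [h]
    exact H26WT.inLoc_algebraMap h𝔫 _

end lowerZ

section R1

variable (K₁ : IntermediateField ℚ Kbar) (N q : ℕ) [NeZero N] [NeZero q]

/-- the modular polynomial with coefficients evaluated at `j ∈ F₀` -/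
def PhiJ (Φ : Polynomial (Polynomial ℤ)) : Polynomial (FK ↥K₁ N) :=
  Φ.map ((Polynomial.aeval (H9C6e.JK ↥K₁ N) : Polynomial ℤ →ₐ[ℤ] FK ↥K₁ N) : Polynomial ℤ →+* FK ↥K₁ N)

theorem rho0_comp_aeval :
    (rho0 K₁ N q).comp
      ((Polynomial.aeval (H9C6e.JK ↥K₁ N) : Polynomial ℤ →ₐ[ℤ] FK ↥K₁ N) : Polynomial ℤ →+* FK ↥K₁ N) =
      baseEval Kbar q := by
  apply Polynomial.ringHom_ext
  · intro a
    simp
  · show rho0 K₁ N q (Polynomial.aeval (H9C6e.JK ↥K₁ N) Polynomial.X) = baseEval Kbar q Polynomial.X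
    rw [Polynomial.aeval_X, rho0_apply, H9C6e.coe_JK, coeffMap_jqModC]
    show _ = Polynomial.eval₂ _ _ Polynomial.X
    rw [Polynomial.eval₂_X]

set_option maxHeartbeats 1600000 in
/-- **the modular equation** `Φ(j, Y) = 0` in `F = FK K₁ (N q)`. -/
theorem modEq_Yq (hq : q.Prime) (hqN : ¬ q ∣ N) (Φ : Polynomial (Polynomial ℤ))
    (hΦ : ∀ (A : Type) [CommRing A] (ζ : Aˣ), (Polynomial.cyclotomic q A).eval (ζ : A) = 0 →
      Φ.map (baseEval A q) = ∏ i : Option (Fin q), (X - Polynomial.C (xconj A q ζ i))) :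
    letI := algebraAlong (heckeAlphaBar ↥K₁ N q)
    Polynomial.eval₂ (algebraMap (FK ↥K₁ N) (FK ↥K₁ (N * q))) (Yq K₁ N q) (PhiJ K₁ N Φ) = 0 := by
  letI := algebraAlong (heckeAlphaBar ↥K₁ N q)
  obtain ⟨ζ₀, hζ₀⟩ := HasEnoughRootsOfUnity.exists_primitiveRoot Kbar q
  have hζ0 : ζ₀ ≠ 0 := hζ₀.ne_zero (NeZero.ne q)
  have hζq : (Units.mk0 ζ₀ hζ0) ^ q = 1 := Units.ext (by simp [hζ₀.pow_eq_one])
  have hcyc : (Polynomial.cyclotomic q Kbar).eval ((Units.mk0 ζ₀ hζ0 : Kbarˣ) : Kbar) = 0 :=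
    hζ₀.isRoot_cyclotomic (Nat.pos_of_ne_zero (NeZero.ne q))
  apply (sig K₁ N q hq hqN (Units.mk0 ζ₀ hζ0) none).injective
  rw [map_zero, Polynomial.hom_eval₂, PhiJ, Polynomial.eval₂_map]
  have hcomp : ((sig K₁ N q hq hqN (Units.mk0 ζ₀ hζ0) none).comp
      (algebraMap (FK ↥K₁ N) (FK ↥K₁ (N * q)))).comp
      ((Polynomial.aeval (H9C6e.JK ↥K₁ N) : Polynomial ℤ →ₐ[ℤ] FK ↥K₁ N) :
        Polynomial ℤ →+* FK ↥K₁ N) = baseEval Kbar q := by
    rw [← rho0_comp_aeval K₁ N q]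
    have h1 : (sig K₁ N q hq hqN (Units.mk0 ζ₀ hζ0) none).comp
        (algebraMap (FK ↥K₁ N) (FK ↥K₁ (N * q))) = rho0 K₁ N q :=
      RingHom.ext (fun x => sig_alpha K₁ N q hq hqN (Units.mk0 ζ₀ hζ0) hζq none x)
    rw [h1]
  rw [hcomp, sig_Yq, ← Polynomial.eval_map, hΦ Kbar _ hcyc, Polynomial.eval_prod]
  apply Finset.prod_eq_zero (Finset.mem_univ (none : Option (Fin q)))
  simp

set_option maxHeartbeats 1600000 in
/-- **(INT-Y) for (R1)**: the powers of `Y = j(𝐪^q)` are integral at `𝔫₀` (hypothesis on `b` of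
`H6LD.DiscChartStatement`), for every lower chart `t₀` and prime `𝔫₀` with `j ∈ B_{𝔫₀}`. -/
theorem hb_R1 (hq : q.Prime) (hqN : ¬ q ∣ N) (R : Type) [CommRing R]
    [Algebra R (FK ↥K₁ N)] [Algebra R (FK ↥K₁ (N * q))] :
    letI := algebraAlong (heckeAlphaBar ↥K₁ N q)
    ∀ [IsScalarTower R (FK ↥K₁ N) (FK ↥K₁ (N * q))]
      (t₀ : FK ↥K₁ N) (𝔫₀ : Ideal (Chart R t₀)) (_ : 𝔫₀.IsPrime)
      (_ : InLoc R t₀ 𝔫₀ (H9C6e.JK ↥K₁ N)) (i : ℕ),
      ∃ (s : Chart R t₀) (c : Chart R (algebraMap (FK ↥K₁ N) (FK ↥K₁ (N * q)) t₀)), s ∉ 𝔫₀ ∧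
        algebraMap (FK ↥K₁ N) (FK ↥K₁ (N * q)) (s : FK ↥K₁ N) * (Yq K₁ N q) ^ i =
          (c : FK ↥K₁ (N * q)) := by
  letI := algebraAlong (heckeAlphaBar ↥K₁ N q)
  intro _ t₀ 𝔫₀ h𝔫 hj i
  haveI : Fact q.Prime := ⟨hq⟩
  obtain ⟨Φ, T, G, hΦm, -, -, -, -, hall⟩ := H23M.h15g_hasModEq q
  have hΦ : ∀ (A : Type) [CommRing A] (ζ : Aˣ), (Polynomial.cyclotomic q A).eval (ζ : A) = 0 →
      Φ.map (baseEval A q) = ∏ i : Option (Fin q), (X - Polynomial.C (xconj A q ζ i)) :=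
    fun A _ ζ hζ => (hall A ζ hζ).1
  refine exists_mul_pow_mem_chart R t₀ 𝔫₀ h𝔫 (PhiJ K₁ N Φ) (hΦm.map _) ?_ (Yq K₁ N q)
    (modEq_Yq K₁ N q hq hqN Φ hΦ) i
  intro k
  rw [PhiJ, Polynomial.coeff_map]
  exact inLoc_aevalZ R t₀ 𝔫₀ h𝔫 hj (Φ.coeff k)

end R1

end H21DI

end
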