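/-
Item 86 (S36), slice LOC-D for (R1) (helper21): the hypotheses `hr`, `hb`, `hdval` of
`H20R3.two_gen_of_disc'` in their EXACT shape, at the levels `(N, N q)`, `q ∤ N`, over
`R : ValuationSubring K₁` (a DVR over `q`, `q` associated to the uniformizer `ϖ`), for any
`R`-algebra structure on `FK K₁ N` compatible with `K₁`.

* `H21D1.hdval_R1` : `¬ v(disc_{F/F₀}(1, Y, …, Y^q) * (algebraMap R F₀ ϖ ^ q)⁻¹) < 1`,
  `v` the Gauss valuation `H10FC.gaussVal R N`.
Nothing here is proved by a placeholder.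
-/
import Mathlib
import Fermat.Agent.S36.DiscConc1_helper21

set_option autoImplicit false
set_option linter.unusedSectionVars false
set_option linter.unusedVariables false
set_option linter.style.haveILetI false
set_option linter.style.longLine false
set_option synthInstance.maxHeartbeats 400000

noncomputable section

open AlgebraicCurve IntermediateField ModularCurve RH24 H28S28 HahnSeries H7S18

namespace H21D1

variable (K₁ : IntermediateField ℚ Kbar) (N q : ℕ) [NeZero N] [NeZero q]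

/-- the expansion of a constant of `R` -/
theorem coe_algebraMap_R (R : ValuationSubring ↥K₁) [Algebra ↥R (FK ↥K₁ N)]
    [IsScalarTower ↥R ↥K₁ (FK ↥K₁ N)] (a : R) :
    ((algebraMap ↥R (FK ↥K₁ N) a : FK ↥K₁ N) : LaurentSeries ↥K₁) =
      HahnSeries.C ((a : R) : ↥K₁) := by
  rw [IsScalarTower.algebraMap_apply ↥R ↥K₁ (FK ↥K₁ N)]
  have h1 : ((algebraMap ↥K₁ (FK ↥K₁ N) (algebraMap ↥R ↥K₁ a) : FK ↥K₁ N) : LaurentSeries ↥K₁) =
      algebraMap ↥K₁ (LaurentSeries ↥K₁) (algebraMap ↥R ↥K₁ a) := rfl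
  rw [h1, algebraMap_laurentSeries_eq_single]
  rfl

set_option maxHeartbeats 1600000 in
/-- **`hdval` for (R1)**, exact shape of `H20R3.two_gen_of_disc'` (`m = q`, `r = q + 1`). -/
theorem hdval_R1 (hq : q.Prime) (hqN : ¬ q ∣ N) (R : ValuationSubring ↥K₁)
    [IsDiscreteValuationRing R] (hR : R.LiesOverPrime q)
    [Algebra ↥R (FK ↥K₁ N)] [IsScalarTower ↥R ↥K₁ (FK ↥K₁ N)]
    (ϖ : R) (hϖ : Irreducible ϖ) (hass : Associated ((q : ℕ) : R) ϖ) :
    letI := algebraAlong (heckeAlphaBar ↥K₁ N q)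
    ¬ (H10FC.gaussVal R N).valuation
      (Algebra.discr (FK ↥K₁ N) (fun i : Fin (q + 1) => (Yq K₁ N q) ^ (i : ℕ)) *
        (algebraMap ↥R (FK ↥K₁ N) ϖ ^ q)⁻¹) < 1 := by
  letI := algebraAlong (heckeAlphaBar ↥K₁ N q)
  obtain ⟨u, hu⟩ := hass
  have hpe : ((q : ℕ) : R) = ((u⁻¹ : Rˣ) : R) * ϖ := by
    rw [← hu, mul_comm, mul_assoc, Units.mul_inv, mul_one]
  have h := discr_hdval K₁ N q hq hqN R hR ϖ hϖ u⁻¹ hpe (algebraMap ↥R (FK ↥K₁ N) ϖ)
    (coe_algebraMap_R K₁ N R ϖ)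
  rw [div_eq_mul_inv] at h
  exact h

end H21D1

end
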