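import Mathlib
import Fermat.Agent.W3G.KUMDescRoot_helper1

/-!
# Item 86 (S36), slice (DESC), generic part (helper29)

* `H29DU.order_coeffMap`, `leadingCoeff_coeffMap` : coefficientwise injective maps preserve the
  order and commute with the leading coefficient;
* `H29DU.eq_one_of_pow_eq_one` : `yⁿ = 1`, `lc y = 1` ⟹ `y = 1` (characteristic `0`);
* `H29DU.coeff_mem_of_pow_lc` : if `gⁿ` has coefficients in a subfield `S` and `lc g ∈ S`, then `g`
  has coefficients in `S`;
* `H29DU.hilbert90` : Hilbert 90 for a finite group acting faithfully on a field by ring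
  homomorphisms (Poincaré series + Dedekind's lemma).
-/

set_option autoImplicit false
set_option linter.unusedSectionVars false
set_option linter.unusedVariables false
set_option linter.style.longLine false

noncomputable section

open ModularCurve

namespace H29DU

section Series

variable {k K : Type*} [Field k] [Field K]

theorem coeffMap_eq_zero_iff (ψ : k →+* K) (y : LaurentSeries k) :
    coeffMap ψ y = 0 ↔ y = 0 := by
  constructor
  · intro h
    ext m
    have h1 := congrArg (fun z : LaurentSeries K => z.coeff m) h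
    simp only [coeffMap_coeff, HahnSeries.coeff_zero] at h1
    rw [HahnSeries.coeff_zero]
    exact ψ.injective (by rw [h1, map_zero])
  · intro h
    rw [h, map_zero]

theorem order_coeffMap (ψ : k →+* K) (y : LaurentSeries k) :
    (coeffMap ψ y).order = y.order := by
  by_cases hy : y = 0
  · rw [hy, map_zero, HahnSeries.order_zero, HahnSeries.order_zero]
  have hy' : coeffMap ψ y ≠ 0 := fun h => hy ((coeffMap_eq_zero_iff ψ y).1 h)
  apply le_antisymm
  · apply HahnSeries.order_le_of_coeff_ne_zero
    rw [coeffMap_coeff]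
    intro h0
    have : y.coeff y.order = 0 := ψ.injective (by rw [h0, map_zero])
    exact hy (HahnSeries.coeff_order_eq_zero.1 this)
  · apply HahnSeries.order_le_of_coeff_ne_zero
    intro h0
    have h1 : (coeffMap ψ y).coeff (coeffMap ψ y).order = 0 := by
      rw [coeffMap_coeff, h0, map_zero]
    exact hy' (HahnSeries.coeff_order_eq_zero.1 h1)

theorem leadingCoeff_coeffMap (ψ : k →+* K) (y : LaurentSeries k) :
    (coeffMap ψ y).leadingCoeff = ψ y.leadingCoeff := by
  rw [HahnSeries.leadingCoeff_eq, HahnSeries.leadingCoeff_eq, order_coeffMap, coeffMap_coeff]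

/-- the leading coefficient of `C c · y` -/
theorem leadingCoeff_C_mul (c : K) (y : LaurentSeries K) :
    (HahnSeries.C c * y).leadingCoeff = c * y.leadingCoeff := by
  rw [HahnSeries.leadingCoeff_mul]
  congr 1
  exact HahnSeries.leadingCoeff_of_single

theorem leadingCoeff_inv' (y : LaurentSeries K) : (y⁻¹).leadingCoeff = (y.leadingCoeff)⁻¹ := by
  by_cases hy : y = 0
  · rw [hy, inv_zero, HahnSeries.leadingCoeff_zero, inv_zero]
  have h : (y * y⁻¹).leadingCoeff = 1 := by
    rw [mul_inv_cancel₀ hy, HahnSeries.leadingCoeff_one]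
  rw [HahnSeries.leadingCoeff_mul] at h
  exact eq_inv_of_mul_eq_one_right h

/-- `yⁿ = 1` and `lc y = 1` imply `y = 1`. -/
theorem eq_one_of_pow_eq_one [CharZero K] (y : LaurentSeries K) {n : ℕ} (hn : 0 < n)
    (h : y ^ n = 1) (hlc : y.leadingCoeff = 1) : y = 1 := by
  have hy0 : y ≠ 0 := by
    rintro rfl
    rw [zero_pow hn.ne'] at h
    exact zero_ne_one h
  have h1 := H1KD.wD_pow_mul y n
  rw [h, H1KD.wD_one, zero_mul, one_mul] at h1
  have h2 : H1KD.wD y = 0 := by
    have h3 : ((n : ℕ) : LaurentSeries K) * H1KD.wD y = 0 := by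
      rw [← nsmul_eq_mul]
      exact h1.symm
    rcases mul_eq_zero.1 h3 with h4 | h4
    · exfalso
      have h5 : ((n : ℕ) : LaurentSeries K) = HahnSeries.C ((n : ℕ) : K) := by
        rw [map_natCast]
      rw [h5] at h4
      have h6 := congrArg (fun z : LaurentSeries K => z.coeff 0) h4
      simp only [HahnSeries.C_apply, HahnSeries.coeff_single_same, HahnSeries.coeff_zero] at h6
      exact hn.ne' (Nat.cast_eq_zero.1 h6)
    · exact h4
  have hc : ∀ m : ℤ, m ≠ 0 → y.coeff m = 0 := by
    intro m hm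
    have h3 := congrArg (fun z : LaurentSeries K => z.coeff m) h2
    simp only [H1KD.wD_coeff, HahnSeries.coeff_zero] at h3
    rcases mul_eq_zero.1 h3 with h4 | h4
    · exact absurd (Int.cast_eq_zero.1 h4) hm
    · exact h4
  have hord : y.order = 0 := by
    by_contra hne
    exact hy0 (HahnSeries.coeff_order_eq_zero.1 (hc _ hne))
  have h0 : y.coeff 0 = 1 := by
    rw [← hlc, HahnSeries.leadingCoeff_eq, hord]
  ext m
  by_cases hm : m = 0
  · subst hm
    rw [h0]
    simp
  · rw [hc m hm, HahnSeries.coeff_one, if_neg hm]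

end Series


section Root

variable {K : Type*} [Field K] [CharZero K]

/-- if `gⁿ` has coefficients in the subfield `S` and the leading coefficient of `g` lies in `S`,
then `g` has coefficients in `S`.  (Variant of `H1KD.coeff_mem_of_pow`.) -/
theorem coeff_mem_of_pow_lc (S : Subfield K) {n : ℕ} (hn : 0 < n)
    (g F : LaurentSeries K) (h : g ^ n = F)
    (hF : ∀ i, F.coeff i ∈ S) (hlc : g.leadingCoeff ∈ S) (j : ℤ) : g.coeff j ∈ S := by
  rcases eq_or_ne g 0 with rfl | hg
  · rw [HahnSeries.coeff_zero]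
    exact zero_mem S
  have hF0 : F ≠ 0 := by
    rw [← h]
    exact pow_ne_zero n hg
  set m₀ : ℤ := g.order with hm₀
  set M : ℤ := F.order with hM
  have hMm : M = n * m₀ := by
    rw [hM, ← h, HahnSeries.order_pow, nsmul_eq_mul]
  have hgm : g.coeff m₀ ≠ 0 := by
    rw [hm₀, Ne, HahnSeries.coeff_order_eq_zero]
    exact hg
  have hFM : F.coeff M ≠ 0 := by
    rw [hM, Ne, HahnSeries.coeff_order_eq_zero]
    exact hF0
  -- strong induction
  have key : ∀ t : ℕ, g.coeff (m₀ + t) ∈ S := by
    intro t
    induction t using Nat.strong_induction_on with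
    | _ t ih =>
      rcases Nat.eq_zero_or_pos t with rfl | ht
      · rw [Nat.cast_zero, add_zero, hm₀, ← HahnSeries.leadingCoeff_eq]
        exact hlc
      by_cases hgt : g.coeff (m₀ + t) = 0
      · rw [hgt]
        exact zero_mem S
      have hsum := H1KD.sum_eq_zero_of_pow g F n h (M + (m₀ + t))
      have hmem : ((M, m₀ + (t : ℤ)) : ℤ × ℤ) ∈
          Finset.antidiagonal F.isPWO_support g.isPWO_support (M + (m₀ + t)) := by
        rw [Finset.mem_antidiagonal]
        exact ⟨hFM, hgt, rfl⟩
      rw [← Finset.add_sum_erase _ _ hmem] at hsum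
      have hrest : ∑ ij ∈ (Finset.antidiagonal F.isPWO_support g.isPWO_support
          (M + (m₀ + t))).erase (M, m₀ + (t : ℤ)),
          ((ij.1 : K) - n * ij.2) * (F.coeff ij.1 * g.coeff ij.2) ∈ S := by
        apply Subfield.sum_mem
        intro ij hij
        rw [Finset.mem_erase, Finset.mem_antidiagonal] at hij
        obtain ⟨hne, h1, h2, h3⟩ := hij
        have hi1 : M ≤ ij.1 := HahnSeries.order_le_of_coeff_ne_zero h1
        have hi2 : m₀ ≤ ij.2 := HahnSeries.order_le_of_coeff_ne_zero h2
        have hi3 : ij.2 < m₀ + t := by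
          by_contra hcon
          push Not at hcon
          have e2 : ij.2 = m₀ + t := by omega
          have e1 : ij.1 = M := by omega
          exact hne (Prod.ext e1 e2)
        obtain ⟨s, hs⟩ : ∃ s : ℕ, ij.2 = m₀ + s := ⟨(ij.2 - m₀).toNat, by omega⟩
        have hst : s < t := by omega
        have hgs : g.coeff ij.2 ∈ S := by
          rw [hs]
          exact ih s hst
        refine mul_mem (sub_mem (intCast_mem S _) (mul_mem (natCast_mem S _) (intCast_mem S _)))
          (mul_mem (hF _) hgs)
      have hterm : ((M : K) - n * ((m₀ + (t : ℤ) : ℤ) : K)) * (F.coeff M * g.coeff (m₀ + t)) ∈ S := by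
        have := neg_mem hrest
        rwa [← eq_neg_of_add_eq_zero_left hsum] at this
      have hscal : ((M : K) - n * ((m₀ + (t : ℤ) : ℤ) : K)) = -((n : K) * (t : K)) := by
        rw [hMm]
        push_cast
        ring
      have hscal0 : ((M : K) - n * ((m₀ + (t : ℤ) : ℤ) : K)) * F.coeff M ≠ 0 := by
        rw [hscal]
        refine mul_ne_zero (neg_ne_zero.2 (mul_ne_zero ?_ ?_)) hFM
        · exact Nat.cast_ne_zero.2 hn.ne'
        · exact Nat.cast_ne_zero.2 ht.ne'
      have hscalS : ((M : K) - n * ((m₀ + (t : ℤ) : ℤ) : K)) * F.coeff M ∈ S :=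
        mul_mem (sub_mem (intCast_mem S _) (mul_mem (natCast_mem S _) (intCast_mem S _))) (hF _)
      have e : g.coeff (m₀ + t) = (((M : K) - n * ((m₀ + (t : ℤ) : ℤ) : K)) * F.coeff M)⁻¹ *
          (((M : K) - n * ((m₀ + (t : ℤ) : ℤ) : K)) * (F.coeff M * g.coeff (m₀ + t))) := by
        rw [← mul_assoc ((M : K) - n * ((m₀ + (t : ℤ) : ℤ) : K)) (F.coeff M),
          inv_mul_cancel_left₀ hscal0]
      rw [e]
      exact mul_mem (inv_mem hscalS) hterm
  rcases lt_or_ge j m₀ with hlt | hge
  · rw [HahnSeries.coeff_eq_zero_of_lt_order hlt]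
    exact zero_mem S
  · obtain ⟨t, ht⟩ : ∃ t : ℕ, j = m₀ + t := ⟨(j - m₀).toNat, by omega⟩
    rw [ht]
    exact key t

end Root

section H90

variable {E : Type*} [Field E] {G : Type*} [Group G] [Finite G]

/-- **Hilbert 90** for a finite group acting faithfully on a field: a `1`-cocycle is a
coboundary.  (Poincaré series + Dedekind's lemma.) -/
theorem hilbert90 (ρ : G → (E →+* E)) (hmul : ∀ γ δ x, ρ (γ * δ) x = ρ γ (ρ δ x))
    (hinj : Function.Injective ρ) (g : G → E) (hg0 : ∀ γ, g γ ≠ 0)
    (hcoc : ∀ γ δ, g (γ * δ) = g γ * ρ γ (g δ)) :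
    ∃ h : E, h ≠ 0 ∧ ∀ γ, ρ γ h = (g γ)⁻¹ * h := by
  classical
  haveI : Fintype G := Fintype.ofFinite G
  -- Dedekind
  have hli : LinearIndependent E (fun γ : G => ((ρ γ : E →* E) : E → E)) := by
    have h1 := linearIndependent_monoidHom E E
    refine h1.comp (fun γ : G => ((ρ γ : E →+* E) : E →* E)) ?_
    intro γ δ hγδ
    apply hinj
    ext x
    exact congrArg (fun f : E →* E => f x) hγδ
  have hex : ∃ x : E, ∑ γ : G, g γ * ρ γ x ≠ 0 := by
    by_contra hcon
    push_neg at hcon
    have h2 : ∑ γ : G, g γ • ((ρ γ : E →* E) : E → E) = 0 := by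
      funext x
      rw [Finset.sum_apply]
      simp only [Pi.smul_apply, smul_eq_mul, Pi.zero_apply]
      exact hcon x
    have h3 := (Fintype.linearIndependent_iff.1 hli) g h2 1
    exact hg0 1 h3
  obtain ⟨x, hx⟩ := hex
  refine ⟨∑ γ : G, g γ * ρ γ x, hx, fun δ => ?_⟩
  rw [map_sum, Finset.mul_sum]
  have e1 : ∀ γ : G, ρ δ (g γ * ρ γ x) = (g δ)⁻¹ * (g (δ * γ) * ρ (δ * γ) x) := by
    intro γ
    rw [map_mul, hcoc, hmul, ← mul_assoc, ← mul_assoc, inv_mul_cancel₀ (hg0 δ), one_mul]
  rw [Finset.sum_congr rfl (fun γ _ => e1 γ)]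
  exact Fintype.sum_equiv (Equiv.mulLeft δ) _ _ (fun γ => rfl)

end H90

end H29DU

end
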