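import Mathlib
import Fermat.Agent.S36.DescH90_helper29
import Fermat.Agent.S34.Descent_helper29
import Fermat.Agent.S34.GUBook_helper29
import Fermat.Agent.S35.FWBook_helper29
import Fermat.Agent.W3G.KUMUnit_helper16
import Fermat.Agent.W3G.RIGLD_helper1
import Fermat.Agent.S34.ALqK_helper12
import Fermat.Agent.S37.R2Hgen_helper29

/-!
# Item 86 (S36), slice (DESC) (helper29): torsion classes fixed by a subgroup `H ≤ G_ℚ` are
represented by functions defined over a number field contained in the fixed field of `H`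

`H29DU.descUnr`: `x ∈ J₀(N)[n]`, `τ x = x` for all `τ ∈ H` ⟹ there are a number field
`L ⊆ ℚ̄^H`, `f₁ ∈ F_L(N)`, `f₁ ≠ 0`, and a divisor `D` of degree `0` with `x = [D]`,
`div (φ f₁) = n D`.  With `H` the inertia group of `A`: `A ∩ L` is unramified.

Proof.  `x = [D₀]`, `n D₀ = div f₀`, `f₀` with leading coefficient `1` (`q`-expansion at the
rational cusp `∞`), defined over a number field `L'`, normal over `ℚ`.  For `γ` in the image `H'`
of `H` in `Gal(L'/ℚ)`: `γ f₀ = f₀ g_γⁿ` with `g_γ ∈ F_{L'}`, `lc(g_γ) = 1`, unique; so `γ ↦ g_γ` is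
a `1`-cocycle and (Hilbert 90) `g_γ = h / γ h`.  Then `f := f₀ hⁿ` is `H'`-invariant: its
coefficients lie in `L := L' ∩ ℚ̄^H`, hence `f ∈ F_L(N)` (linear disjointness).
-/

set_option autoImplicit false
set_option synthInstance.maxHeartbeats 400000
set_option maxHeartbeats 1000000
set_option linter.unusedSectionVars false
set_option linter.unusedVariables false
set_option linter.style.haveILetI false
set_option linter.style.longLine false

noncomputable section

open H11W3G ModularCurve AlgebraicCurve H7S18 H28GV H29R2M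

namespace H29DU

local notation "Qb" => AlgebraicClosure ℚ


section LC

variable {L : Type} [Field L] [Algebra ℚ L] (F₀ : IntermediateField ℚ (LaurentSeries ℚ))

/-- the leading coefficient of the `q`-expansion -/
def lc (y : laurentBaseChange L F₀) : L := (y : LaurentSeries L).leadingCoeff

theorem lc_mul (y z : laurentBaseChange L F₀) : lc F₀ (y * z) = lc F₀ y * lc F₀ z :=
  HahnSeries.leadingCoeff_mul (y : LaurentSeries L) (z : LaurentSeries L)

theorem lc_one : lc F₀ (1 : laurentBaseChange L F₀) = 1 := HahnSeries.leadingCoeff_one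

theorem lc_pow (y : laurentBaseChange L F₀) (n : ℕ) : lc F₀ (y ^ n) = lc F₀ y ^ n :=
  H1KD.leadingCoeff_pow' _ n

theorem lc_algebraMap (c : L) : lc F₀ (algebraMap L (laurentBaseChange L F₀) c) = c := by
  show (algebraMap L (LaurentSeries L) c).leadingCoeff = c
  rw [algebraMap_laurentSeries_eq_single]
  exact HahnSeries.leadingCoeff_of_single

theorem lc_ne_zero {y : laurentBaseChange L F₀} (hy : y ≠ 0) : lc F₀ y ≠ 0 :=
  HahnSeries.leadingCoeff_ne_zero.2 (fun h => hy (Subtype.ext h))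

theorem lc_smul (γ : L ≃ₐ[ℚ] L) (y : laurentBaseChange L F₀) :
    lc F₀ (arithmeticGalois F₀ γ • y) = γ (lc F₀ y) := by
  show ((arithmeticGalois F₀ γ • y : laurentBaseChange L F₀) : LaurentSeries L).leadingCoeff = _
  rw [coe_arithmeticGalois_smul, leadingCoeff_coeffMap]
  rfl

/-- uniqueness of normalised `n`-th roots -/
theorem eq_of_pow_eq [CharZero L] {n : ℕ} (hn : 0 < n) (g g' : laurentBaseChange L F₀)
    (h : g ^ n = g' ^ n) (hg : lc F₀ g = 1) (hg' : lc F₀ g' = 1) : g = g' := by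
  have hg0 : g' ≠ 0 := by
    rintro rfl
    have : lc F₀ (0 : laurentBaseChange L F₀) = 0 := HahnSeries.leadingCoeff_zero
    rw [this] at hg'
    exact zero_ne_one hg'
  have h1 : ((g * g'⁻¹ : laurentBaseChange L F₀) : LaurentSeries L) = 1 := by
    apply eq_one_of_pow_eq_one _ hn
    · have h2 : (g * g'⁻¹) ^ n = 1 := by
        rw [mul_pow, inv_pow, h, mul_inv_cancel₀ (pow_ne_zero n hg0)]
      exact congrArg (fun z : laurentBaseChange L F₀ => (z : LaurentSeries L)) h2
    · show lc F₀ (g * g'⁻¹) = 1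
      rw [lc_mul, hg]
      show 1 * ((g' : LaurentSeries L)⁻¹).leadingCoeff = 1
      rw [leadingCoeff_inv']
      have : (g' : LaurentSeries L).leadingCoeff = 1 := hg'
      rw [this, inv_one, one_mul]
  have h3 : g * g'⁻¹ = 1 := Subtype.ext h1
  calc g = g * g'⁻¹ * g' := by rw [mul_assoc, inv_mul_cancel₀ hg0, mul_one]
    _ = g' := by rw [h3, one_mul]

end LC

section Abs

variable {L : Type} [Field L] [Algebra ℚ L] (F₀ : IntermediateField ℚ (LaurentSeries ℚ))
  (G : Subgroup (L ≃ₐ[ℚ] L))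

/-- the action of `γ ∈ G` on the function field, as a ring homomorphism -/
def rhoHom (γ : G) : laurentBaseChange L F₀ →+* laurentBaseChange L F₀ :=
  (arithmeticRingAut F₀ (γ : L ≃ₐ[ℚ] L)).toRingHom

theorem rhoHom_apply (γ : G) (y : laurentBaseChange L F₀) :
    rhoHom F₀ G γ y = arithmeticGalois F₀ (γ : L ≃ₐ[ℚ] L) • y := rfl

theorem rhoHom_coe (γ : G) (y : laurentBaseChange L F₀) :
    ((rhoHom F₀ G γ y : laurentBaseChange L F₀) : LaurentSeries L) =
      coeffMap ((γ : L ≃ₐ[ℚ] L) : L →+* L) (y : LaurentSeries L) := rfl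

theorem rhoHom_mul (γ δ : G) (y : laurentBaseChange L F₀) :
    rhoHom F₀ G (γ * δ) y = rhoHom F₀ G γ (rhoHom F₀ G δ y) := by
  apply Subtype.ext
  rw [rhoHom_coe, rhoHom_coe, rhoHom_coe, coeffMap_coeffMap]
  rfl

theorem rhoHom_algebraMap (γ : G) (c : L) :
    rhoHom F₀ G γ (algebraMap L (laurentBaseChange L F₀) c) =
      algebraMap L (laurentBaseChange L F₀) ((γ : L ≃ₐ[ℚ] L) c) :=
  arithmeticRingAut_algebraMap F₀ (γ : L ≃ₐ[ℚ] L) c

theorem rhoHom_injective : Function.Injective (rhoHom F₀ G) := by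
  intro γ δ h
  apply Subtype.ext
  apply AlgEquiv.ext
  intro c
  have h1 : rhoHom F₀ G γ (algebraMap L (laurentBaseChange L F₀) c) =
      rhoHom F₀ G δ (algebraMap L (laurentBaseChange L F₀) c) := by rw [h]
  rw [rhoHom_algebraMap, rhoHom_algebraMap] at h1
  exact (algebraMap L (laurentBaseChange L F₀)).injective h1

theorem lc_rhoHom (γ : G) (y : laurentBaseChange L F₀) :
    lc F₀ (rhoHom F₀ G γ y) = (γ : L ≃ₐ[ℚ] L) (lc F₀ y) := lc_smul F₀ _ y

theorem lc_zero : lc F₀ (0 : laurentBaseChange L F₀) = 0 := HahnSeries.leadingCoeff_zero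

/-- **abstract descent**: if `γ f = f g_γⁿ` with `lc g_γ = 1` for all `γ` in the finite group
`G`, then `f hⁿ` is `G`-invariant for some `h ≠ 0`. -/
theorem exists_invariant [CharZero L] [Finite G] {n : ℕ} (hn : 0 < n)
    (f : laurentBaseChange L F₀) (hf : f ≠ 0)
    (hG : ∀ γ : G, ∃ g₁ : laurentBaseChange L F₀, lc F₀ g₁ = 1 ∧
      rhoHom F₀ G γ f = f * g₁ ^ n) :
    ∃ h : laurentBaseChange L F₀, h ≠ 0 ∧ ∀ γ : G, rhoHom F₀ G γ (f * h ^ n) = f * h ^ n := by
  choose g hg1 hg using hG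
  have hg0 : ∀ γ, g γ ≠ 0 := by
    intro γ h0
    have := hg1 γ
    rw [h0, lc_zero] at this
    exact zero_ne_one this
  have hcoc : ∀ γ δ : G, g (γ * δ) = g γ * rhoHom F₀ G γ (g δ) := by
    intro γ δ
    apply eq_of_pow_eq F₀ hn _ _ _ (hg1 _)
    · rw [lc_mul, hg1, one_mul, lc_rhoHom, hg1, map_one]
    · apply mul_left_cancel₀ hf
      rw [← hg (γ * δ), rhoHom_mul, hg δ, map_mul, map_pow, hg γ, mul_pow]
      ring
  obtain ⟨h, hh0, hh⟩ := hilbert90 (rhoHom F₀ G) (rhoHom_mul F₀ G) (rhoHom_injective F₀ G)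
    g hg0 hcoc
  refine ⟨h, hh0, fun γ => ?_⟩
  rw [map_mul, map_pow, hh γ, hg γ, mul_pow, inv_pow]
  have := pow_ne_zero n (hg0 γ)
  field_simp

end Abs

section Bar

variable (N : ℕ) [NeZero N]

/-- **a fixed class gives a Kummer relation**: if `x = [D₀]`, `n D₀ = div f₀` and `τ x = x`, then
`τ f₀ = c · f₀ · gⁿ` with `c ∈ ℚ̄ˣ`. -/
theorem rel_of_fixed (n : ℕ)
    (D₀ : Divisor.degZero (K := Qb) (F := modularFunctionFieldBar N))
    (f₀ : modularFunctionFieldBar N) (hf₀ : f₀ ≠ 0)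
    (hD₀ : ∀ W : Place Qb (modularFunctionFieldBar N),
      W.ord f₀ = n * (D₀ : Divisor Qb (modularFunctionFieldBar N)) W)
    (τ : GQ) (hτ : τ • (Pic0.mk D₀ : JZero N) = Pic0.mk D₀) :
    ∃ (c : Qb) (g : modularFunctionFieldBar N), c ≠ 0 ∧ g ≠ 0 ∧
      arithmeticGalois (modularFunctionFieldFull N) τ • f₀ =
        algebraMap Qb (modularFunctionFieldBar N) c * f₀ * g ^ n := by
  set γ := arithmeticGalois (modularFunctionFieldFull N) τ with hγ
  have e1 : τ • (Pic0.mk D₀ : JZero N) = Pic0.mk (SemilinearAut.degZeroSMulHom γ D₀) := by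
    rw [galois_smul_pic0_def, SemilinearAut.pic0_smul_mk]
  rw [e1] at hτ
  have h2 : (Pic0.mk (SemilinearAut.degZeroSMulHom γ D₀ - D₀) : JZero N) = 0 := by
    have : (Pic0.mk (SemilinearAut.degZeroSMulHom γ D₀ - D₀) : JZero N) =
        Pic0.mk (SemilinearAut.degZeroSMulHom γ D₀) - Pic0.mk D₀ :=
      QuotientAddGroup.mk_sub _ _ _
    rw [this, hτ, sub_self]
  obtain ⟨E, hE⟩ : ∃ E : Divisor.degZero (K := Qb) (F := modularFunctionFieldBar N),
      E = SemilinearAut.degZeroSMulHom γ D₀ - D₀ := ⟨_, rfl⟩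
  rw [← hE] at h2
  have h3 : (E : Divisor Qb (modularFunctionFieldBar N)) ∈
      Divisor.principal (K := Qb) (F := modularFunctionFieldBar N) :=
    (QuotientAddGroup.eq_zero_iff E).mp h2
  obtain ⟨g, hg0, hg⟩ := h3
  rw [hE] at hg
  have hgo : ∀ W : Place Qb (modularFunctionFieldBar N),
      W.ord g = (γ • (D₀ : Divisor Qb (modularFunctionFieldBar N))) W -
        (D₀ : Divisor Qb (modularFunctionFieldBar N)) W := by
    intro W
    rw [← hg W]
    rfl
  have hγf : γ • f₀ ≠ 0 := H29GU.smul_ne_zero' γ hf₀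
  have hden : f₀ * g ^ n ≠ 0 := mul_ne_zero hf₀ (pow_ne_zero n hg0)
  obtain ⟨c, hc⟩ := H16KU.h16_const_of_ord_nonneg N (γ • f₀ * (f₀ * g ^ n)⁻¹) (by
    intro W
    rw [W.ord_mul hγf (inv_ne_zero hden), W.ord_inv, W.ord_mul hf₀ (pow_ne_zero n hg0)]
    have e2 : W.ord (g ^ n) = n * W.ord g := by
      have := W.ord_zpow g (n : ℤ)
      rwa [zpow_natCast] at this
    rw [e2, H29GU.ord_smul', hD₀, hD₀, hgo, SemilinearAut.divisor_smul_apply]
    apply le_of_eq
    ring)
  have hc0 : c ≠ 0 := by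
    rintro rfl
    rw [map_zero] at hc
    exact mul_ne_zero hγf (inv_ne_zero hden) hc
  refine ⟨c, g, hc0, hg0, ?_⟩
  rw [mul_assoc, ← hc, mul_assoc, inv_mul_cancel₀ hden, mul_one]

end Bar


section Norm

variable (N : ℕ) [NeZero N]

/-- `n x = 0 ⟹ x = [D₀]`, `n D₀ = div f₀`, with `f₀` normalised (`lc f₀ = 1`). -/
theorem exists_function_norm (n : ℕ) (x : JZero N) (hx : n • x = 0) :
    ∃ (D : Divisor.degZero (K := Qb) (F := modularFunctionFieldBar N))
      (f : modularFunctionFieldBar N), x = Pic0.mk D ∧ f ≠ 0 ∧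
      lc (modularFunctionFieldFull N) f = 1 ∧
      ∀ W : Place Qb (modularFunctionFieldBar N),
        W.ord f = n * (D : Divisor Qb (modularFunctionFieldBar N)) W := by
  obtain ⟨D, f, hxD, hf0, hfD⟩ := H29FW.exists_function N n x hx
  have hl0 : lc (modularFunctionFieldFull N) f ≠ 0 := lc_ne_zero _ hf0
  have hc0 : algebraMap Qb (modularFunctionFieldBar N) (lc (modularFunctionFieldFull N) f)⁻¹ ≠ 0 := by
    intro h0
    have := congrArg (lc (modularFunctionFieldFull N)) h0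
    rw [lc_algebraMap] at this
    have h00 : lc (modularFunctionFieldFull N) (0 : modularFunctionFieldBar N) = 0 :=
      HahnSeries.leadingCoeff_zero
    rw [h00] at this
    exact inv_ne_zero hl0 this
  refine ⟨D, f * algebraMap Qb (modularFunctionFieldBar N) (lc (modularFunctionFieldFull N) f)⁻¹,
    hxD, mul_ne_zero hf0 hc0, ?_, fun W => ?_⟩
  · rw [lc_mul, lc_algebraMap, mul_inv_cancel₀ hl0]
  · rw [W.ord_mul hf0 hc0, H29R2.h29r2_ord_const W _ (inv_ne_zero hl0), add_zero, hfD]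

/-- normalised Kummer relation for a fixed class -/
theorem rel_of_fixed_norm (n : ℕ) (hn : 0 < n)
    (D₀ : Divisor.degZero (K := Qb) (F := modularFunctionFieldBar N))
    (f₀ : modularFunctionFieldBar N) (hf₀ : f₀ ≠ 0)
    (hlc : lc (modularFunctionFieldFull N) f₀ = 1)
    (hD₀ : ∀ W : Place Qb (modularFunctionFieldBar N),
      W.ord f₀ = n * (D₀ : Divisor Qb (modularFunctionFieldBar N)) W)
    (τ : GQ) (hτ : τ • (Pic0.mk D₀ : JZero N) = Pic0.mk D₀) :
    ∃ g : modularFunctionFieldBar N, lc (modularFunctionFieldFull N) g = 1 ∧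
      arithmeticGalois (modularFunctionFieldFull N) τ • f₀ = f₀ * g ^ n := by
  obtain ⟨c, g, hc0, hg0, hrel⟩ := rel_of_fixed N n D₀ f₀ hf₀ hD₀ τ hτ
  have hl0 : lc (modularFunctionFieldFull N) g ≠ 0 := lc_ne_zero _ hg0
  have h1 := congrArg (lc (modularFunctionFieldFull N)) hrel
  rw [lc_smul, hlc, map_one, lc_mul, lc_mul, lc_algebraMap, hlc, mul_one, lc_pow] at h1
  -- `c * lc g ^ n = 1`
  refine ⟨g * algebraMap Qb (modularFunctionFieldBar N) (lc (modularFunctionFieldFull N) g)⁻¹,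
    ?_, ?_⟩
  · rw [lc_mul, lc_algebraMap, mul_inv_cancel₀ hl0]
  · rw [hrel, mul_pow, ← map_pow]
    have e : ((lc (modularFunctionFieldFull N) g)⁻¹) ^ n = c := by
      rw [inv_pow]
      exact (eq_inv_of_mul_eq_one_left h1.symm).symm
    rw [e]
    ring

end Norm

section Level

variable (N : ℕ) [NeZero N] (K₁ : IntermediateField ℚ Qb)

theorem smul_eq_ringAut {L : Type} [Field L] [Algebra ℚ L]
    (F₀ : IntermediateField ℚ (LaurentSeries ℚ)) (σ : L ≃ₐ[ℚ] L) (y : laurentBaseChange L F₀) :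
    arithmeticGalois F₀ σ • y = arithmeticRingAut F₀ σ y := rfl

/-- `lc` commutes with the base change map -/
theorem lc_phi (y : FK K₁ N) :
    lc (modularFunctionFieldFull N) (phi N K₁ y) =
      algebraMap K₁ Qb (lc (modularFunctionFieldFull N) y) := by
  show ((phi N K₁ y : modularFunctionFieldBar N) : LaurentSeries Qb).leadingCoeff = _
  rw [phi_coe, leadingCoeff_coeffMap]
  rfl

/-- a series of `F_N` over `ℚ̄` with coefficients in `K₁` comes from `F_{K₁}(N)` -/
theorem exists_phi_eq (g : modularFunctionFieldBar N)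
    (h : ∀ j, (g : LaurentSeries Qb).coeff j ∈ K₁) : ∃ g₁ : FK K₁ N, phi N K₁ g₁ = g := by
  obtain ⟨y, hy⟩ := H12AL.exists_coeffMap_eq K₁ (g : LaurentSeries Qb) h
  have hmem : y ∈ laurentBaseChange K₁ (modularFunctionFieldFull N) := by
    apply H1RIG.mem_lbc_of_coeffMap_mem (k := K₁) (K := Qb) (F₀ := modularFunctionFieldFull N)
    rw [hy]
    exact g.2
  refine ⟨⟨y, hmem⟩, ?_⟩
  apply Subtype.ext
  rw [phi_coe]
  exact hy

variable [Normal ℚ K₁]

/-- **the Kummer relation at finite level**. -/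
theorem rel_level (n : ℕ) (hn : 0 < n)
    (D₀ : Divisor.degZero (K := Qb) (F := modularFunctionFieldBar N))
    (f₁ : FK K₁ N) (hf₁ : f₁ ≠ 0) (hlc : lc (modularFunctionFieldFull N) f₁ = 1)
    (hD₀ : ∀ W : Place Qb (modularFunctionFieldBar N),
      W.ord (phi N K₁ f₁) = n * (D₀ : Divisor Qb (modularFunctionFieldBar N)) W)
    (τ : GQ) (hτ : τ • (Pic0.mk D₀ : JZero N) = Pic0.mk D₀) :
    ∃ g₁ : FK K₁ N, lc (modularFunctionFieldFull N) g₁ = 1 ∧
      arithmeticGalois (modularFunctionFieldFull N) (H29GU.res K₁ τ) • f₁ = f₁ * g₁ ^ n := by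
  have hf0 : phi N K₁ f₁ ≠ 0 := fun h => hf₁ ((phi N K₁).injective (by rw [h, map_zero]))
  have hlc' : lc (modularFunctionFieldFull N) (phi N K₁ f₁) = 1 := by
    rw [lc_phi, hlc, map_one]
  obtain ⟨g, hg1, hg⟩ := rel_of_fixed_norm N n hn D₀ (phi N K₁ f₁) hf0 hlc' hD₀ τ hτ
  -- `gⁿ` is defined over `K₁`
  have hpow : g ^ n = phi N K₁
      ((arithmeticGalois (modularFunctionFieldFull N) (H29GU.res K₁ τ) • f₁) * f₁⁻¹) := by
    rw [map_mul, H29GU.phi_smul, hg, map_inv₀]
    field_simp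
  have hcoef : ∀ j, (g : LaurentSeries Qb).coeff j ∈ K₁ := by
    intro j
    have := coeff_mem_of_pow_lc (K := Qb) K₁.toSubfield hn (g : LaurentSeries Qb)
      ((phi N K₁ ((arithmeticGalois (modularFunctionFieldFull N) (H29GU.res K₁ τ) • f₁) * f₁⁻¹) :
        modularFunctionFieldBar N) : LaurentSeries Qb)
      (by
        rw [← hpow]
        rfl)
      (fun i => by
        rw [phi_coe, coeffMap_coeff]
        exact (_ : K₁).2)
      (by
        have : (g : LaurentSeries Qb).leadingCoeff = 1 := hg1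
        rw [this]
        exact one_mem _) j
    exact this
  obtain ⟨g₁, hg₁⟩ := exists_phi_eq N K₁ g hcoef
  refine ⟨g₁, ?_, ?_⟩
  · apply (algebraMap K₁ Qb).injective
    rw [← lc_phi, hg₁, hg1, map_one]
  · apply (phi N K₁).injective
    rw [H29GU.phi_smul, hg, map_mul, map_pow, hg₁]

end Level

section Main

variable (N : ℕ) [NeZero N]

/-- **(DESC)**: a torsion class fixed by `H ≤ G_ℚ` is `[D]` with `n D = div f₁`, `f₁` defined over
a number field `L` fixed pointwise by `H`. -/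
theorem descUnr (n : ℕ) (hn : 0 < n) (H : Subgroup GQ) (x : JZero N) (hx : n • x = 0)
    (hfix : ∀ τ ∈ H, τ • x = x) :
    ∃ (L : IntermediateField ℚ Qb) (_ : FiniteDimensional ℚ L) (f₁ : FK L N)
      (D : Divisor.degZero (K := Qb) (F := modularFunctionFieldBar N)),
      (∀ τ ∈ H, ∀ c : L, τ (c : Qb) = c) ∧ x = Pic0.mk D ∧ f₁ ≠ 0 ∧
      ∀ W : Place Qb (modularFunctionFieldBar N),
        W.ord (phi N L f₁) = n * (D : Divisor Qb (modularFunctionFieldBar N)) W := by
  classical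
  obtain ⟨D₀, f₀, hxD, hf0, hlc0, hD₀⟩ := exists_function_norm N n x hx
  obtain ⟨K₁, hfd, hnor, -, -, hlev⟩ := H29DS.exists_level_finset N n hn ⊥ {f₀}
  haveI := hfd
  haveI := hnor
  obtain ⟨f₀₁, hf₀₁⟩ := hlev f₀ (Finset.mem_singleton_self _)
  have hf₀₁0 : f₀₁ ≠ 0 := by
    rintro rfl
    rw [map_zero] at hf₀₁
    exact hf0 hf₀₁.symm
  have hlc₁ : lc (modularFunctionFieldFull N) f₀₁ = 1 := by
    apply (algebraMap K₁ Qb).injective
    rw [← lc_phi, hf₀₁, hlc0, map_one]
  -- the group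
  obtain ⟨h, hh0, hinv⟩ := exists_invariant (modularFunctionFieldFull N)
    (H.map (AlgEquiv.restrictNormalHom K₁)) hn f₀₁ hf₀₁0 (by
      rintro ⟨γ, τ, hτ, rfl⟩
      exact rel_level N K₁ n hn D₀ f₀₁ hf₀₁0 hlc₁ (by rw [hf₀₁]; exact hD₀) τ
        (by rw [← hxD]; exact hfix τ hτ))
  have hphi0 : phi N K₁ h ≠ 0 := fun h0 => hh0 ((phi N K₁).injective (by rw [h0, map_zero]))
  -- the field
  let L : IntermediateField ℚ Qb := K₁ ⊓ IntermediateField.fixedField H
  have hLK : L ≤ K₁ := inf_le_left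
  haveI : FiniteDimensional ℚ L :=
    Module.Finite.of_injective (IntermediateField.inclusion hLK).toLinearMap
      (IntermediateField.inclusion_injective hLK)
  have hcoefL : ∀ j, ((phi N K₁ (f₀₁ * h ^ n) : modularFunctionFieldBar N) :
      LaurentSeries Qb).coeff j ∈ L := by
    intro j
    rw [phi_coe, coeffMap_coeff]
    refine IntermediateField.mem_inf.2 ⟨(_ : K₁).2, ?_⟩
    rw [IntermediateField.mem_fixedField_iff]
    intro τ hτ
    have h1 := hinv ⟨AlgEquiv.restrictNormalHom K₁ τ, τ, hτ, rfl⟩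
    have h2 := congrArg (fun y : FK K₁ N => (y : LaurentSeries K₁).coeff j) h1
    simp only [rhoHom_coe, coeffMap_coeff] at h2
    have h3 := H29GU.res_commutes K₁ τ (((f₀₁ * h ^ n : FK K₁ N) : LaurentSeries K₁).coeff j)
    rw [← h3]
    exact congrArg (algebraMap K₁ Qb) h2
  obtain ⟨f₁, hf₁⟩ := exists_phi_eq N L (phi N K₁ (f₀₁ * h ^ n)) hcoefL
  -- the divisor
  obtain ⟨Dh, hDh, hdeg⟩ := (H29DS.hasPrincipalDivisors_bar N).exists_divisor (phi N K₁ h) hphi0
  let Dh' : Divisor.degZero (K := Qb) (F := modularFunctionFieldBar N) :=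
    ⟨Dh, Divisor.mem_degZero.2 hdeg⟩
  have hDh0 : (Pic0.mk Dh' : JZero N) = 0 :=
    H29GU.mk_eq_zero' Dh' ⟨phi N K₁ h, hphi0, hDh⟩
  refine ⟨L, inferInstance, f₁, D₀ + Dh', ?_, ?_, ?_, ?_⟩
  · intro τ hτ c
    have hc : (c : Qb) ∈ IntermediateField.fixedField H := (IntermediateField.mem_inf.1 c.2).2
    rw [IntermediateField.mem_fixedField_iff] at hc
    exact hc τ hτ
  · rw [Pic0.mk_add, hDh0, add_zero]
    exact hxD
  · rintro rfl
    rw [map_zero] at hf₁
    have : phi N K₁ (f₀₁ * h ^ n) ≠ 0 := by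
      rw [map_mul, map_pow, hf₀₁]
      exact mul_ne_zero hf0 (pow_ne_zero n hphi0)
    exact this hf₁.symm
  · intro W
    rw [hf₁, map_mul, map_pow, hf₀₁, W.ord_mul hf0 (pow_ne_zero n hphi0)]
    have e2 : W.ord (phi N K₁ h ^ n) = n * W.ord (phi N K₁ h) := by
      have := W.ord_zpow (phi N K₁ h) (n : ℤ)
      rwa [zpow_natCast] at this
    rw [e2, hD₀ W, ← hDh W]
    show _ = (n : ℤ) * ((D₀ : Divisor Qb (modularFunctionFieldBar N)) W + Dh W)
    ring

/-- the statement of slice (DESC) of item 86 -/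
def DescUnrStatement : Prop :=
  ∀ (N : ℕ) [NeZero N] (n : ℕ), 0 < n → ∀ (H : Subgroup GQ) (x : JZero N), n • x = 0 →
    (∀ τ ∈ H, τ • x = x) →
    ∃ (L : IntermediateField ℚ Qb) (_ : FiniteDimensional ℚ L) (f₁ : FK L N)
      (D : Divisor.degZero (K := Qb) (F := modularFunctionFieldBar N)),
      (∀ τ ∈ H, ∀ c : L, τ (c : Qb) = c) ∧ x = Pic0.mk D ∧ f₁ ≠ 0 ∧
      ∀ W : Place Qb (modularFunctionFieldBar N),
        W.ord (phi N L f₁) = n * (D : Divisor Qb (modularFunctionFieldBar N)) W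

theorem descUnrStatement : DescUnrStatement :=
  fun N _ n hn H x hx hfix => descUnr N n hn H x hx hfix

end Main

end H29DU

end
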