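/-
helper27: item 86 (S36), generic slice (WA) + (WG): weak approximation for finitely many
distinct discrete valuation subrings of a field (Mathlib only).

`V : ι → ValuationSubring F` (`ι` finite), `π i` a uniformizer of `V i` in the sense
`H27WA.IsUnif (V i) (π i)`: `v(π) < 1`, `π ≠ 0`, and every `x ≠ 0` is `π ^ k · unit`
(`∃ k : ℤ, v (x * π ^ (-k)) = 1`, the `OrdAt` of the architect's `Triple`).  If the `V i` are
pairwise distinct then
* `H27WA.weak_approx`   : `∀ ψ N, ∃ Ψ, ∀ i, v_i (Ψ - ψ i) ≤ v_i (π i) ^ N`;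
* `H27WA.weak_approx_lt`: `∀ ψ, ∃ Ψ, ∀ i, v_i (Ψ - ψ i) < 1`                    (WG);
* `H27WA.exists_orders` : `∀ k : ι → ℤ, ∃ g ≠ 0, ∀ i, v_i (g * π i ^ (-k i)) = 1`  (WA);
* `H27WA.wg3`, `H27WA.wa3`: the same for three valuation subrings `V₁ V₂ V₃`.
Only `V i ≠ V j` is needed from TripleGauss (no explicit separating functions).
-/
import Mathlib

set_option autoImplicit false
set_option linter.unusedSectionVars false
set_option linter.unusedVariables false
set_option linter.style.haveILetI false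
set_option linter.unusedSimpArgs false

namespace H27WA

variable {F : Type*} [Field F]

/-- `π` is a uniformizer of the (discrete) valuation subring `V`. -/
def IsUnif (V : ValuationSubring F) (π : F) : Prop :=
  V.valuation π < 1 ∧ π ≠ 0 ∧ ∀ x : F, x ≠ 0 → ∃ k : ℤ, V.valuation (x * π ^ (-k)) = 1

section one

variable {V : ValuationSubring F} {π : F}

theorem IsUnif.val_ne_zero (h : IsUnif V π) : V.valuation π ≠ 0 :=
  (Valuation.ne_zero_iff _).mpr h.2.1

theorem IsUnif.val_pos (h : IsUnif V π) : 0 < V.valuation π :=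
  zero_lt_iff.mpr h.val_ne_zero

theorem IsUnif.val_eq_zpow (h : IsUnif V π) {x : F} (hx : x ≠ 0) :
    ∃ k : ℤ, V.valuation x = V.valuation π ^ k := by
  obtain ⟨k, hk⟩ := h.2.2 x hx
  refine ⟨k, ?_⟩
  rw [map_mul, map_zpow₀, zpow_neg] at hk
  exact (mul_inv_eq_one₀ (zpow_ne_zero _ h.val_ne_zero)).mp hk

/-- `v x < 1 → v x ≤ v π`. -/
theorem IsUnif.le_of_lt_one (h : IsUnif V π) {x : F} (hx : V.valuation x < 1) :
    V.valuation x ≤ V.valuation π := by
  by_cases hx0 : x = 0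
  · rw [hx0, map_zero]; exact zero_le
  obtain ⟨k, hk⟩ := h.val_eq_zpow hx0
  rw [hk] at hx ⊢
  have hk1 : 0 < k := (zpow_lt_one_iff_right_of_lt_one₀ h.val_pos h.1).mp hx
  have : V.valuation π ^ k ≤ V.valuation π ^ (1 : ℤ) :=
    (zpow_le_zpow_iff_right_of_lt_one₀ h.val_pos h.1).mpr hk1
  simpa using this

/-- `v x ≤ v π ^ (-K)` for some natural `K`. -/
theorem IsUnif.exists_bound (h : IsUnif V π) (x : F) :
    ∃ K : ℕ, V.valuation x ≤ V.valuation π ^ (-(K : ℤ)) := by
  by_cases hx0 : x = 0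
  · exact ⟨0, by rw [hx0, map_zero]; exact zero_le⟩
  obtain ⟨k, hk⟩ := h.val_eq_zpow hx0
  refine ⟨(-k).toNat, ?_⟩
  rw [hk]
  refine (zpow_le_zpow_iff_right_of_lt_one₀ h.val_pos h.1).mpr ?_
  have := Int.self_le_toNat (-k)
  omega

/-- for `v x < 1`: `v x ^ r * v y < 1` for all large `r`. -/
theorem IsUnif.exists_pow_mul_lt (h : IsUnif V π) {x : F} (hx : V.valuation x < 1) (y : F) :
    ∃ r₀ : ℕ, ∀ r : ℕ, r₀ ≤ r → V.valuation x ^ r * V.valuation y < 1 := by
  obtain ⟨K, hK⟩ := h.exists_bound y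
  refine ⟨K + 1, fun r hr => ?_⟩
  have hxπ := h.le_of_lt_one hx
  have h1 : V.valuation x ^ r ≤ V.valuation π ^ r := pow_le_pow_left₀ zero_le hxπ r
  have h2 : V.valuation x ^ r * V.valuation y ≤
      V.valuation π ^ r * V.valuation π ^ (-(K : ℤ)) := mul_le_mul' h1 hK
  refine lt_of_le_of_lt h2 ?_
  rw [← zpow_natCast, ← zpow_add₀ h.val_ne_zero]
  refine (zpow_lt_one_iff_right_of_lt_one₀ h.val_pos h.1).mpr ?_
  omega

theorem val_eq_one_of_le {V W : ValuationSubring F} (hle : V ≤ W) {u : F}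
    (hu : V.valuation u = 1) : W.valuation u = 1 := by
  have hu0 : u ≠ 0 := by
    rintro rfl
    rw [map_zero] at hu
    exact zero_ne_one hu
  have h1 : u ∈ V := (V.valuation_le_one_iff u).mp hu.le
  have h2 : u⁻¹ ∈ V := (V.valuation_le_one_iff _).mp (by rw [map_inv₀, hu, inv_one])
  have h3 : W.valuation u ≤ 1 := (W.valuation_le_one_iff u).mpr (hle h1)
  have h4 : W.valuation u⁻¹ ≤ 1 := (W.valuation_le_one_iff _).mpr (hle h2)
  rw [map_inv₀] at h4
  have hW0 : W.valuation u ≠ 0 := (Valuation.ne_zero_iff _).mpr hu0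
  have h5 : 1 ≤ W.valuation u := by
    have := (inv_le_one₀ (zero_lt_iff.mpr hW0)).mp h4
    exact this
  exact le_antisymm h3 h5

/-- discrete valuation subrings are not comparable. -/
theorem le_of_le {V W : ValuationSubring F} {π ρ : F} (hV : IsUnif V π) (hW : IsUnif W ρ)
    (hle : V ≤ W) : W ≤ V := by
  intro y hyW
  by_contra hyV
  have hy0 : y ≠ 0 := by
    rintro rfl
    exact hyV (zero_mem _)
  have hyV1 : 1 < V.valuation y := not_le.mp (fun h => hyV ((V.valuation_le_one_iff y).mp h))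
  -- `y` is a unit of `W`
  have hyinvV : y⁻¹ ∈ V := (V.valuation_le_one_iff _).mp (by
    rw [map_inv₀]
    exact (inv_le_one₀ (lt_trans zero_lt_one hyV1)).mpr hyV1.le)
  have hyW1 : W.valuation y = 1 := by
    have h3 : W.valuation y ≤ 1 := (W.valuation_le_one_iff y).mpr hyW
    have h4 : W.valuation y⁻¹ ≤ 1 := (W.valuation_le_one_iff _).mpr (hle hyinvV)
    rw [map_inv₀] at h4
    have hW0 : W.valuation y ≠ 0 := (Valuation.ne_zero_iff _).mpr hy0
    exact le_antisymm h3 ((inv_le_one₀ (zero_lt_iff.mpr hW0)).mp h4)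
  -- the order of `y` at `V`
  obtain ⟨k, hk⟩ := hV.2.2 y hy0
  have hkW := val_eq_one_of_le hle hk
  have hkval : V.valuation y = V.valuation π ^ k := by
    rw [map_mul, map_zpow₀, zpow_neg] at hk
    exact (mul_inv_eq_one₀ (zpow_ne_zero _ hV.val_ne_zero)).mp hk
  have hkneg : k < 0 := by
    rw [hkval] at hyV1
    exact (one_lt_zpow_iff_right_of_lt_one₀ hV.val_pos hV.1).mp hyV1
  -- `π` is a unit of `W`
  have hπW : W.valuation π ≤ 1 :=
    (W.valuation_le_one_iff π).mpr (hle ((V.valuation_le_one_iff π).mp hV.1.le))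
  have hπW0 : W.valuation π ≠ 0 := (Valuation.ne_zero_iff _).mpr hV.2.1
  have hπW1 : W.valuation π = 1 := by
    rcases hπW.lt_or_eq with hlt | heq
    · exfalso
      rw [map_mul, map_zpow₀, hyW1, one_mul] at hkW
      have : W.valuation π ^ (-k) < 1 :=
        (zpow_lt_one_iff_right_of_lt_one₀ (zero_lt_iff.mpr hπW0) hlt).mpr (by omega)
      rw [hkW] at this
      exact lt_irrefl _ this
    · exact heq
  -- then `ρ` is a unit of `W`: contradiction
  obtain ⟨m, hm⟩ := hV.2.2 ρ hW.2.1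
  have hmW := val_eq_one_of_le hle hm
  rw [map_mul, map_zpow₀, hπW1, one_zpow, mul_one] at hmW
  exact absurd hmW hW.1.ne

/-- two distinct discrete valuation subrings are separated by an element. -/
theorem exists_lt_gt {V W : ValuationSubring F} {π ρ : F} (hV : IsUnif V π) (hW : IsUnif W ρ)
    (hne : V ≠ W) : ∃ c : F, V.valuation c < 1 ∧ 1 < W.valuation c := by
  have h1 : ¬ V ≤ W := fun h => hne (le_antisymm h (le_of_le hV hW h))
  have h2 : ¬ W ≤ V := fun h => hne (le_antisymm (le_of_le hW hV h) h)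
  obtain ⟨a, haV, haW⟩ := SetLike.not_le_iff_exists.mp h1
  obtain ⟨b, hbW, hbV⟩ := SetLike.not_le_iff_exists.mp h2
  have haV1 : V.valuation a ≤ 1 := (V.valuation_le_one_iff a).mpr haV
  have haW1 : 1 < W.valuation a := not_le.mp (fun h => haW ((W.valuation_le_one_iff a).mp h))
  have hbW1 : W.valuation b ≤ 1 := (W.valuation_le_one_iff b).mpr hbW
  have hbV1 : 1 < V.valuation b := not_le.mp (fun h => hbV ((V.valuation_le_one_iff b).mp h))
  have hb0 : b ≠ 0 := by
    rintro rfl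
    exact hbV (zero_mem _)
  refine ⟨a * b⁻¹, ?_, ?_⟩
  · rw [map_mul, map_inv₀]
    have hinv : (V.valuation b)⁻¹ < 1 := inv_lt_one_of_one_lt₀ hbV1
    calc V.valuation a * (V.valuation b)⁻¹ ≤ 1 * (V.valuation b)⁻¹ :=
          mul_le_mul' haV1 le_rfl
      _ = (V.valuation b)⁻¹ := one_mul _
      _ < 1 := hinv
  · rw [map_mul, map_inv₀]
    have hWb0 : W.valuation b ≠ 0 := (Valuation.ne_zero_iff _).mpr hb0
    have hinv : 1 ≤ (W.valuation b)⁻¹ := (one_le_inv₀ (zero_lt_iff.mpr hWb0)).mpr hbW1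
    calc (1 : W.ValueGroup) < W.valuation a := haW1
      _ = W.valuation a * 1 := (mul_one _).symm
      _ ≤ W.valuation a * (W.valuation b)⁻¹ := mul_le_mul' le_rfl hinv

end one

section family

variable {ι : Type*} (V : ι → ValuationSubring F) (π : ι → F)
  (hU : ∀ i, IsUnif (V i) (π i)) (hinj : Function.Injective V)

include hU

/-- uniform "large `r`" over a finite set. -/
theorem exists_pow_mul_lt_finset (x y : F) (s : Finset ι)
    (hx : ∀ j ∈ s, (V j).valuation x < 1) :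
    ∃ r₀ : ℕ, ∀ r : ℕ, r₀ ≤ r → ∀ j ∈ s, (V j).valuation x ^ r * (V j).valuation y < 1 := by
  classical
  induction s using Finset.induction_on with
  | empty => exact ⟨0, fun r _ j hj => absurd hj (Finset.notMem_empty j)⟩
  | insert n s hn ih =>
    obtain ⟨r₁, h₁⟩ := ih (fun j hj => hx j (Finset.mem_insert_of_mem hj))
    obtain ⟨r₂, h₂⟩ := (hU n).exists_pow_mul_lt (hx n (Finset.mem_insert_self n s)) y
    refine ⟨max r₁ r₂, fun r hr j hj => ?_⟩
    rcases Finset.mem_insert.mp hj with rfl | hj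
    · exact h₂ r (le_trans (le_max_right _ _) hr)
    · exact h₁ r (le_trans (le_max_left _ _) hr) j hj

include hinj

/-- an element large at `V i` and small at the `V j`, `j ∈ s`. -/
theorem exists_big_small (i : ι) (s : Finset ι) (hi : i ∉ s) :
    ∃ z : F, 1 < (V i).valuation z ∧ ∀ j ∈ s, (V j).valuation z < 1 := by
  classical
  induction s using Finset.induction_on with
  | empty =>
    refine ⟨(π i)⁻¹, ?_, fun j hj => absurd hj (Finset.notMem_empty j)⟩
    rw [map_inv₀]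
    exact (one_lt_inv₀ (hU i).val_pos).mpr (hU i).1
  | insert n s hn ih =>
    have hin : i ≠ n := fun h => hi (h ▸ Finset.mem_insert_self _ _)
    have his : i ∉ s := fun h => hi (Finset.mem_insert_of_mem h)
    obtain ⟨x, hxi, hxs⟩ := ih his
    obtain ⟨y, hyn, hyi⟩ := exists_lt_gt (hU n) (hU i) (fun h => hin (hinj h).symm)
    have hx0 : x ≠ 0 := by
      rintro rfl
      rw [map_zero] at hxi
      exact not_lt.mpr zero_le hxi
    obtain ⟨r₀, hr₀⟩ := exists_pow_mul_lt_finset V π hU x y s hxs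
    rcases lt_trichotomy ((V n).valuation x) 1 with hlt | heq | hgt
    · refine ⟨x, hxi, fun j hj => ?_⟩
      rcases Finset.mem_insert.mp hj with rfl | hj
      · exact hlt
      · exact hxs j hj
    · refine ⟨x ^ r₀ * y, ?_, fun j hj => ?_⟩
      · rw [map_mul, map_pow]
        calc (1 : (V i).ValueGroup) < (V i).valuation y := hyi
          _ = 1 * (V i).valuation y := (one_mul _).symm
          _ ≤ (V i).valuation x ^ r₀ * (V i).valuation y :=
            mul_le_mul' (one_le_pow₀ hxi.le) le_rfl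
      · rw [map_mul, map_pow]
        rcases Finset.mem_insert.mp hj with rfl | hj
        · rw [heq, one_pow, one_mul]; exact hyn
        · exact hr₀ r₀ le_rfl j hj
    · -- `z = x ^ r * y / (1 + x ^ r)`, `r ≥ 1`
      set r := max r₀ 1 with hr
      have hr1 : 1 ≤ r := le_max_right _ _
      have hr0 : r ≠ 0 := by omega
      have key : ∀ (W : ValuationSubring F), 1 < W.valuation x →
          W.valuation (x ^ r * y * (1 + x ^ r)⁻¹) = W.valuation y := by
        intro W hW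
        have h1 : (1 : W.ValueGroup) < W.valuation (x ^ r) := by
          rw [map_pow]; exact one_lt_pow₀ hW hr0
        have h2 : W.valuation (1 + x ^ r) = W.valuation (x ^ r) :=
          Valuation.map_add_eq_of_lt_right _ (by rw [map_one]; exact h1)
        have h3 : W.valuation (x ^ r) ≠ 0 := (lt_trans zero_lt_one h1).ne'
        rw [map_mul, map_mul, map_inv₀, h2, mul_comm (W.valuation (x ^ r)), mul_assoc,
          mul_inv_cancel₀ h3, mul_one]
      refine ⟨x ^ r * y * (1 + x ^ r)⁻¹, ?_, fun j hj => ?_⟩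
      · rw [key _ hxi]; exact hyi
      · rcases Finset.mem_insert.mp hj with rfl | hj
        · rw [key _ hgt]; exact hyn
        · have h1 : (V j).valuation (x ^ r) < 1 := by
            rw [map_pow]; exact pow_lt_one₀ zero_le (hxs j hj) hr0
          have h2 : (V j).valuation (1 + x ^ r) = 1 := Valuation.map_one_add_of_lt _ h1
          rw [map_mul, map_mul, map_inv₀, h2, inv_one, mul_one, map_pow]
          exact hr₀ r (le_max_left _ _) j hj

/-- separating elements with precision `N`. -/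
theorem exists_sep (i : ι) (s : Finset ι) (hi : i ∉ s) (N : ℕ) :
    ∃ e : F, (V i).valuation (e - 1) ≤ (V i).valuation (π i) ^ N ∧
      ∀ j ∈ s, (V j).valuation e ≤ (V j).valuation (π j) ^ N := by
  obtain ⟨z, hzi, hzs⟩ := exists_big_small V π hU hinj i s hi
  have hr0 : N + 1 ≠ 0 := Nat.succ_ne_zero N
  have h1 : (1 : (V i).ValueGroup) < (V i).valuation (z ^ (N + 1)) := by
    rw [map_pow]; exact one_lt_pow₀ hzi hr0
  have h2 : (V i).valuation (1 + z ^ (N + 1)) = (V i).valuation (z ^ (N + 1)) :=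
    Valuation.map_add_eq_of_lt_right _ (by rw [map_one]; exact h1)
  have hne : (1 + z ^ (N + 1) : F) ≠ 0 := by
    intro h0
    rw [h0, map_zero] at h2
    rw [← h2] at h1
    exact not_lt.mpr zero_le h1
  refine ⟨z ^ (N + 1) * (1 + z ^ (N + 1))⁻¹, ?_, fun j hj => ?_⟩
  · have he : z ^ (N + 1) * (1 + z ^ (N + 1))⁻¹ - 1 = -(1 + z ^ (N + 1))⁻¹ := by
      field_simp
      ring
    rw [he, Valuation.map_neg, map_inv₀, h2, map_pow, ← inv_pow, ← map_inv₀]
    have hzinv : (V i).valuation z⁻¹ < 1 := by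
      rw [map_inv₀]; exact inv_lt_one_of_one_lt₀ hzi
    have := (hU i).le_of_lt_one hzinv
    calc (V i).valuation z⁻¹ ^ (N + 1) ≤ (V i).valuation (π i) ^ (N + 1) :=
          pow_le_pow_left₀ zero_le this _
      _ ≤ (V i).valuation (π i) ^ N :=
          pow_le_pow_of_le_one zero_le (hU i).1.le (Nat.le_succ N)
  · have h3 : (V j).valuation (z ^ (N + 1)) < 1 := by
      rw [map_pow]; exact pow_lt_one₀ zero_le (hzs j hj) hr0
    have h4 : (V j).valuation (1 + z ^ (N + 1)) = 1 := Valuation.map_one_add_of_lt _ h3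
    rw [map_mul, map_inv₀, h4, inv_one, mul_one, map_pow]
    have := (hU j).le_of_lt_one (hzs j hj)
    calc (V j).valuation z ^ (N + 1) ≤ (V j).valuation (π j) ^ (N + 1) :=
          pow_le_pow_left₀ zero_le this _
      _ ≤ (V j).valuation (π j) ^ N :=
          pow_le_pow_of_le_one zero_le (hU j).1.le (Nat.le_succ N)

end family

section approx

variable {ι : Type*} [Fintype ι] (V : ι → ValuationSubring F) (π : ι → F)
  (hU : ∀ i, IsUnif (V i) (π i)) (hinj : Function.Injective V)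

include hU hinj

/-- **weak approximation with precision `N`**. -/
theorem weak_approx (ψ : ι → F) (N : ℕ) :
    ∃ Ψ : F, ∀ i, (V i).valuation (Ψ - ψ i) ≤ (V i).valuation (π i) ^ N := by
  classical
  -- a uniform bound for the poles of the `ψ i`
  have hK : ∃ K : ℕ, ∀ i j, (V j).valuation (ψ i) ≤ (V j).valuation (π j) ^ (-(K : ℤ)) := by
    choose Kf hKf using fun p : ι × ι => (hU p.2).exists_bound (ψ p.1)
    refine ⟨Finset.univ.sup Kf, fun i j => le_trans (hKf (i, j)) ?_⟩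
    refine (zpow_le_zpow_iff_right_of_lt_one₀ (hU j).val_pos (hU j).1).mpr ?_
    have : Kf (i, j) ≤ Finset.univ.sup Kf := Finset.le_sup (Finset.mem_univ (i, j))
    show -((Finset.univ.sup Kf : ℕ) : ℤ) ≤ -((Kf (i, j) : ℕ) : ℤ)
    omega
  obtain ⟨K, hK⟩ := hK
  choose e he1 he2 using fun i =>
    exists_sep V π hU hinj i (Finset.univ.erase i) (Finset.notMem_erase i _) (N + K)
  refine ⟨∑ i, e i * ψ i, fun j => ?_⟩
  have hsum : ∑ i, e i * ψ i - ψ j =
      ∑ i, (if i = j then (e i - 1) * ψ i else e i * ψ i) := by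
    have h1 : ψ j = ∑ i, (if i = j then ψ i else 0) := by
      rw [Finset.sum_ite_eq' Finset.univ j ψ]
      simp
    conv_lhs => rw [h1]
    rw [← Finset.sum_sub_distrib]
    refine Finset.sum_congr rfl (fun i _ => ?_)
    split_ifs <;> ring
  rw [hsum]
  have hprod : (V j).valuation (π j) ^ (N + K) * (V j).valuation (π j) ^ (-(K : ℤ)) =
      (V j).valuation (π j) ^ N := by
    rw [← zpow_natCast, ← zpow_add₀ (hU j).val_ne_zero, ← zpow_natCast]
    congr 1
    push_cast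
    ring
  refine Valuation.map_sum_le _ (fun i _ => ?_)
  split_ifs with h
  · subst h
    rw [map_mul, ← hprod]
    exact mul_le_mul' (he1 i) (hK i i)
  · rw [map_mul, ← hprod]
    refine mul_le_mul' (he2 i j ?_) (hK i j)
    exact Finset.mem_erase.mpr ⟨fun hji => h hji.symm, Finset.mem_univ j⟩

/-- **(WG)**: simultaneous approximation modulo the maximal ideals. -/
theorem weak_approx_lt (ψ : ι → F) :
    ∃ Ψ : F, ∀ i, (V i).valuation (Ψ - ψ i) < 1 := by
  obtain ⟨Ψ, hΨ⟩ := weak_approx V π hU hinj ψ 1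
  refine ⟨Ψ, fun i => lt_of_le_of_lt (hΨ i) ?_⟩
  rw [pow_one]
  exact (hU i).1

/-- **(WA)**: an element with prescribed orders. -/
theorem exists_orders (k : ι → ℤ) :
    ∃ g : F, g ≠ 0 ∧ ∀ i, (V i).valuation (g * π i ^ (-k i)) = 1 := by
  classical
  by_cases hne : Nonempty ι
  swap
  · exact ⟨1, one_ne_zero, fun i => absurd ⟨i⟩ hne⟩
  set N : ℕ := (Finset.univ.sup fun i => (k i).toNat) + 1 with hN
  have hkN : ∀ i, k i < (N : ℤ) := by
    intro i
    have h1 : (k i).toNat ≤ Finset.univ.sup fun i => (k i).toNat :=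
      Finset.le_sup (f := fun i => (k i).toNat) (Finset.mem_univ i)
    have h2 := Int.self_le_toNat (k i)
    rw [hN]
    push_cast
    omega
  obtain ⟨g, hg⟩ := weak_approx V π hU hinj (fun i => π i ^ (k i)) N
  have hval : ∀ i, (V i).valuation g = (V i).valuation (π i) ^ (k i) := by
    intro i
    have h1 : (V i).valuation (g - π i ^ k i) < (V i).valuation (π i ^ k i) := by
      refine lt_of_le_of_lt (hg i) ?_
      rw [map_zpow₀, ← zpow_natCast]
      exact (zpow_lt_zpow_iff_right_of_lt_one₀ (hU i).val_pos (hU i).1).mpr (hkN i)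
    have h2 := Valuation.map_add_eq_of_lt_left (V i).valuation h1
    rw [add_sub_cancel, map_zpow₀] at h2
    exact h2
  refine ⟨g, ?_, fun i => ?_⟩
  · obtain ⟨i⟩ := hne
    intro h0
    have := hval i
    rw [h0, map_zero] at this
    exact zpow_ne_zero _ (hU i).val_ne_zero this.symm
  · rw [map_mul, map_zpow₀, hval i, ← zpow_add₀ (hU i).val_ne_zero, add_neg_cancel, zpow_zero]

end approx

section three

variable {V₁ V₂ V₃ : ValuationSubring F} {π₁ π₂ π₃ : F}

private theorem inj3 (h12 : V₁ ≠ V₂) (h13 : V₁ ≠ V₃) (h23 : V₂ ≠ V₃) :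
    Function.Injective ![V₁, V₂, V₃] := by
  intro i j h
  fin_cases i <;> fin_cases j <;> first
    | rfl
    | (exfalso; simp only [Matrix.cons_val_zero, Matrix.cons_val_one, Matrix.cons_val_two,
        Matrix.cons_val, Fin.zero_eta, Fin.mk_one, Fin.reduceFinMk] at h
       first
        | exact h12 h | exact h12 h.symm | exact h13 h | exact h13 h.symm
        | exact h23 h | exact h23 h.symm)

private theorem unif3 (h₁ : IsUnif V₁ π₁) (h₂ : IsUnif V₂ π₂) (h₃ : IsUnif V₃ π₃) :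
    ∀ i : Fin 3, IsUnif (![V₁, V₂, V₃] i) (![π₁, π₂, π₃] i) := by
  intro i
  fin_cases i
  · exact h₁
  · exact h₂
  · exact h₃

/-- **(WG)** for three valuation subrings. -/
theorem wg3 (h₁ : IsUnif V₁ π₁) (h₂ : IsUnif V₂ π₂) (h₃ : IsUnif V₃ π₃)
    (h12 : V₁ ≠ V₂) (h13 : V₁ ≠ V₃) (h23 : V₂ ≠ V₃) (ψ₁ ψ₂ ψ₃ : F) :
    ∃ Ψ : F, V₁.valuation (Ψ - ψ₁) < 1 ∧ V₂.valuation (Ψ - ψ₂) < 1 ∧
      V₃.valuation (Ψ - ψ₃) < 1 := by
  obtain ⟨Ψ, hΨ⟩ := weak_approx_lt ![V₁, V₂, V₃] ![π₁, π₂, π₃] (unif3 h₁ h₂ h₃)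
    (inj3 h12 h13 h23) ![ψ₁, ψ₂, ψ₃]
  exact ⟨Ψ, hΨ 0, hΨ 1, hΨ 2⟩

/-- **(WG)** for three valuation subrings, with precision `N`. -/
theorem wg3_pow (h₁ : IsUnif V₁ π₁) (h₂ : IsUnif V₂ π₂) (h₃ : IsUnif V₃ π₃)
    (h12 : V₁ ≠ V₂) (h13 : V₁ ≠ V₃) (h23 : V₂ ≠ V₃) (ψ₁ ψ₂ ψ₃ : F) (N : ℕ) :
    ∃ Ψ : F, V₁.valuation (Ψ - ψ₁) ≤ V₁.valuation π₁ ^ N ∧
      V₂.valuation (Ψ - ψ₂) ≤ V₂.valuation π₂ ^ N ∧
      V₃.valuation (Ψ - ψ₃) ≤ V₃.valuation π₃ ^ N := by
  obtain ⟨Ψ, hΨ⟩ := weak_approx ![V₁, V₂, V₃] ![π₁, π₂, π₃] (unif3 h₁ h₂ h₃)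
    (inj3 h12 h13 h23) ![ψ₁, ψ₂, ψ₃] N
  exact ⟨Ψ, hΨ 0, hΨ 1, hΨ 2⟩

/-- **(WA)** for three valuation subrings. -/
theorem wa3 (h₁ : IsUnif V₁ π₁) (h₂ : IsUnif V₂ π₂) (h₃ : IsUnif V₃ π₃)
    (h12 : V₁ ≠ V₂) (h13 : V₁ ≠ V₃) (h23 : V₂ ≠ V₃) (k₁ k₂ k₃ : ℤ) :
    ∃ g : F, g ≠ 0 ∧ V₁.valuation (g * π₁ ^ (-k₁)) = 1 ∧ V₂.valuation (g * π₂ ^ (-k₂)) = 1 ∧
      V₃.valuation (g * π₃ ^ (-k₃)) = 1 := by
  obtain ⟨g, hg0, hg⟩ := exists_orders ![V₁, V₂, V₃] ![π₁, π₂, π₃] (unif3 h₁ h₂ h₃)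
    (inj3 h12 h13 h23) ![k₁, k₂, k₃]
  exact ⟨g, hg0, hg 0, hg 1, hg 2⟩

/-- two valuation subrings: `(WG)`. -/
theorem wg2 (h₁ : IsUnif V₁ π₁) (h₂ : IsUnif V₂ π₂) (h12 : V₁ ≠ V₂) (ψ₁ ψ₂ : F) :
    ∃ Ψ : F, V₁.valuation (Ψ - ψ₁) < 1 ∧ V₂.valuation (Ψ - ψ₂) < 1 := by
  have hinj : Function.Injective ![V₁, V₂] := by
    intro i j h
    fin_cases i <;> fin_cases j <;> first
      | rfl
      | (exfalso; simp only [Matrix.cons_val_zero, Matrix.cons_val_one, Matrix.cons_val,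
          Fin.zero_eta, Fin.mk_one] at h
         first | exact h12 h | exact h12 h.symm)
  have hU : ∀ i : Fin 2, IsUnif (![V₁, V₂] i) (![π₁, π₂] i) := by
    intro i
    fin_cases i
    · exact h₁
    · exact h₂
  obtain ⟨Ψ, hΨ⟩ := weak_approx_lt ![V₁, V₂] ![π₁, π₂] hU hinj ![ψ₁, ψ₂]
  exact ⟨Ψ, hΨ 0, hΨ 1⟩

end three

end H27WA
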