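import Mathlib
import Fermat.Agent.S36.WeakApprox_helper27
import Fermat.Agent.S36.DescUnr_helper29

/-!
# Item 86 (S36), slice (DESC3), part 1 (helper29): constant field extensions are unramified

`H29CU.exists_place_over`: for a number field `L ⊆ ℚ̄` and a place `V` of `F_L(N) / L` there is a
place `W` of `F_{ℚ̄}(N) / ℚ̄` with `ord_W (φ x) = ord_V x` for all `x ∈ F_L(N)`  (index `ε = 1`).

Proof.  `W`, `ε` from `H1S18.placeDescent`; `π` a uniformizer of `W`, defined over a number
field `K₂ ⊇ L`, normal over `ℚ`; `G = Gal(K₂ / L)` acts on `E = F_{K₂}(N)`, faithfully on the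
constants `K₂ ⊆ O = W ∩ E`.  By weak approximation (`H27WA.exists_orders`) there is `z ∈ E` with
`ord z = 1` at all the conjugates of `O`; by Dedekind independence of the characters
`σ|K₂` there are `a_c ∈ K₂` with `z = ∑_c a_c Tr(c z)`; the traces `Tr(c z)` are `G`-invariant
non-units, hence in `F_L(N)`, hence divisible by a uniformizer `u` of `V`: so `u ∣ z`, `ε ≤ 1`.
-/

set_option autoImplicit false
set_option synthInstance.maxHeartbeats 400000
set_option maxHeartbeats 1000000
set_option linter.style.haveILetI false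
set_option linter.style.longLine false
set_option linter.unusedSectionVars false
set_option linter.unusedVariables false

namespace H29CU

section Dedekind

variable {C : Type*} [Field C] {G : Type*} [Group G] [Finite G]

open Classical in
/-- for pairwise distinct ring endomorphisms `χ σ` of a field `C` there are `a_c`, `c ∈ s`,
with `∑ a_c χ_σ(c) = [σ = σ₀]`. -/
theorem exists_dual_family (χ : G → (C →+* C)) (hχ : Function.Injective χ) (σ₀ : G) :
    ∃ (s : Finset C) (a : C → C), ∀ σ : G,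
      ∑ c ∈ s, a c * χ σ c = if σ = σ₀ then 1 else 0 := by
  classical
  haveI : Fintype G := Fintype.ofFinite G
  have hli : LinearIndependent C (fun σ : G => ((χ σ : C →* C) : C → C)) := by
    have h1 := linearIndependent_monoidHom C C
    refine h1.comp (fun σ : G => ((χ σ : C →+* C) : C →* C)) ?_
    intro σ τ h
    apply hχ
    ext x
    exact congrArg (fun f : C →* C => f x) h
  let p : Submodule C (G → C) := Submodule.span C (Set.range (fun c : C => fun σ : G => χ σ c))
  have hp : p = ⊤ := by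
    by_contra hne
    obtain ⟨f, hf0, hf⟩ := Submodule.exists_dual_map_eq_bot_of_lt_top (lt_top_iff_ne_top.2 hne)
      inferInstance
    apply hf0
    have hfc : ∀ c : C, f (fun σ : G => χ σ c) = 0 := by
      intro c
      have h1 : f (fun σ : G => χ σ c) ∈ p.map f :=
        Submodule.mem_map_of_mem (Submodule.subset_span ⟨c, rfl⟩)
      rw [hf] at h1
      exact (Submodule.mem_bot C).1 h1
    have hl : ∀ σ : G, f (fun j => if σ = j then 1 else 0) = 0 := by
      have h2 : ∑ σ : G, (f (fun j => if σ = j then 1 else 0)) •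
          ((χ σ : C →* C) : C → C) = 0 := by
        funext c
        have h := hfc c
        rw [LinearMap.pi_apply_eq_sum_univ f] at h
        rw [Finset.sum_apply, Pi.zero_apply]
        refine Eq.trans ?_ h
        refine Finset.sum_congr rfl fun σ _ => ?_
        rw [Pi.smul_apply, smul_eq_mul, smul_eq_mul, mul_comm]
        rfl
      intro σ
      exact (Fintype.linearIndependent_iff.1 hli) _ h2 σ
    apply LinearMap.ext
    intro v
    rw [LinearMap.pi_apply_eq_sum_univ f v, LinearMap.zero_apply]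
    exact Finset.sum_eq_zero fun σ _ => by rw [hl σ, smul_zero]
  have hmem : (fun σ : G => if σ = σ₀ then (1 : C) else 0) ∈ p := by
    rw [hp]
    trivial
  obtain ⟨l, hl⟩ := (Finsupp.mem_span_range_iff_exists_finsupp).1 hmem
  refine ⟨l.support, fun c => l c, fun σ => ?_⟩
  have := congrFun hl σ
  rw [Finsupp.sum, Finset.sum_apply] at this
  rw [← this]
  refine Finset.sum_congr rfl fun c _ => ?_
  rw [Pi.smul_apply, smul_eq_mul]

end Dedekind

end H29CU

namespace H29CU

section Comap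

variable {E E' : Type*} [Field E] [Field E'] (O : ValuationSubring E')

theorem val_le_one_comap (f : E →+* E') (x : E) :
    (O.comap f).valuation x ≤ 1 ↔ O.valuation (f x) ≤ 1 := by
  rw [ValuationSubring.valuation_le_one_iff, ValuationSubring.valuation_le_one_iff,
    ValuationSubring.mem_comap]

theorem val_eq_one_iff (O : ValuationSubring E) (x : E) (hx : x ≠ 0) :
    O.valuation x = 1 ↔ x ∈ O ∧ x⁻¹ ∈ O := by
  constructor
  · intro h
    refine ⟨(O.valuation_le_one_iff x).1 h.le, (O.valuation_le_one_iff _).1 ?_⟩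
    rw [map_inv₀, h, inv_one]
  · rintro ⟨h1, h2⟩
    have h1' := (O.valuation_le_one_iff x).2 h1
    have h2' := (O.valuation_le_one_iff _).2 h2
    rw [map_inv₀] at h2'
    have hv0 : O.valuation x ≠ 0 := (Valuation.ne_zero_iff _).mpr hx
    exact le_antisymm h1' ((inv_le_one₀ (zero_lt_iff.mpr hv0)).mp h2')

theorem val_eq_one_comap (f : E →+* E') (x : E) :
    (O.comap f).valuation x = 1 ↔ O.valuation (f x) = 1 := by
  rcases eq_or_ne x 0 with rfl | hx
  · rw [map_zero, map_zero, map_zero]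
    exact ⟨fun h => absurd h zero_ne_one, fun h => absurd h zero_ne_one⟩
  have hfx : f x ≠ 0 := fun h0 => hx (f.injective (by rw [h0, map_zero]))
  rw [val_eq_one_iff _ _ hx, val_eq_one_iff _ _ hfx, ValuationSubring.mem_comap,
    ValuationSubring.mem_comap, map_inv₀]

theorem val_lt_one_comap (f : E →+* E') (x : E) :
    (O.comap f).valuation x < 1 ↔ O.valuation (f x) < 1 := by
  rw [lt_iff_le_and_ne, lt_iff_le_and_ne, val_le_one_comap, Ne, Ne, val_eq_one_comap]

end Comap

section Comap2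

variable {E : Type*} [Field E] (O : ValuationSubring E)

theorem isUnif_comap {G : Type*} [Group G] (ρ : G → (E →+* E)) (hone : ∀ x, ρ 1 x = x)
    (hmul : ∀ σ τ x, ρ (σ * τ) x = ρ σ (ρ τ x)) {π : E} (hπ : H27WA.IsUnif O π) (σ : G) :
    H27WA.IsUnif (O.comap (ρ σ)) (ρ σ⁻¹ π) := by
  have e : ρ σ (ρ σ⁻¹ π) = π := by rw [← hmul, mul_inv_cancel, hone]
  refine ⟨?_, ?_, fun x hx => ?_⟩
  · rw [val_lt_one_comap, e]
    exact hπ.1
  · intro h0
    rw [h0, map_zero] at e
    exact hπ.2.1 e.symm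
  · have hx' : ρ σ x ≠ 0 := fun h0 => hx ((ρ σ).injective (by rw [h0, map_zero]))
    obtain ⟨k, hk⟩ := hπ.2.2 (ρ σ x) hx'
    refine ⟨k, ?_⟩
    rw [val_eq_one_comap, map_mul, map_zpow₀, e]
    exact hk

end Comap2

section Main

variable {E : Type*} [Field E] {G : Type*} [Group G] [Finite G]

open Classical in
/-- **abstract form of "constant field extensions are unramified"**: `G` acts on `E`, faithfully
on the subfield `C ⊆ O` of constants; if every `G`-invariant non-unit of the discrete valuation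
ring `O` is divisible by `u`, then the uniformizer `π` of `O` is divisible by `u`. -/
theorem unif_of_invariants
    (ρ : G → (E →+* E)) (hone : ∀ x, ρ 1 x = x) (hmul : ∀ σ τ x, ρ (σ * τ) x = ρ σ (ρ τ x))
    (C : Subfield E) (hC : ∀ σ, ∀ c ∈ C, ρ σ c ∈ C)
    (hfaith : ∀ σ τ : G, (∀ c ∈ C, ρ σ c = ρ τ c) → σ = τ)
    (O : ValuationSubring E) (hCO : ∀ c ∈ C, c ∈ O)
    (π : E) (hπ : H27WA.IsUnif O π)
    (u : E) (hu0 : u ≠ 0)
    (hinv : ∀ y : E, (∀ σ, ρ σ y = y) → O.valuation y < 1 → y * u⁻¹ ∈ O) :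
    π * u⁻¹ ∈ O := by
  haveI : Fintype G := Fintype.ofFinite G
  -- the conjugate valuation subrings
  let Vσ : G → ValuationSubring E := fun σ => O.comap (ρ σ)
  let S : Finset (ValuationSubring E) := Finset.univ.image Vσ
  have hS : ∀ i : S, ∃ σ, Vσ σ = i.1 := fun i => by
    obtain ⟨σ, -, h⟩ := Finset.mem_image.1 i.2
    exact ⟨σ, h⟩
  choose sel hsel using hS
  let πi : S → E := fun i => ρ (sel i)⁻¹ π
  have hU : ∀ i : S, H27WA.IsUnif (i : ValuationSubring E) (πi i) := by
    intro i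
    have := isUnif_comap O ρ hone hmul hπ (sel i)
    rw [show O.comap (ρ (sel i)) = (i : ValuationSubring E) from hsel i] at this
    exact this
  obtain ⟨z, hz0, hz⟩ := H27WA.exists_orders (fun i : S => (i : ValuationSubring E)) πi hU
    Subtype.val_injective (fun _ => 1)
  have hzval : ∀ i : S, (i : ValuationSubring E).valuation z =
      (i : ValuationSubring E).valuation (πi i) := by
    intro i
    have h := hz i
    rw [map_mul, zpow_neg, zpow_one, map_inv₀] at h
    exact (mul_inv_eq_one₀ (hU i).val_ne_zero).mp h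
  -- `σ z` is a non-unit for all `σ`
  have hzσ : ∀ σ : G, O.valuation (ρ σ z) < 1 := by
    intro σ
    have hi : Vσ σ ∈ S := Finset.mem_image_of_mem _ (Finset.mem_univ σ)
    have h1 := hzval ⟨Vσ σ, hi⟩
    have h2 := (hU ⟨Vσ σ, hi⟩).1
    rw [← h1] at h2
    exact (val_lt_one_comap O (ρ σ) z).1 h2
  -- `v z = v π`
  have hV1 : Vσ 1 = O := by
    ext x
    show ρ 1 x ∈ O ↔ x ∈ O
    rw [hone]
  have hzπ : O.valuation z = O.valuation π := by
    have hi : Vσ 1 ∈ S := Finset.mem_image_of_mem _ (Finset.mem_univ 1)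
    have key : ∀ (O' : ValuationSubring E), O' = O → ∀ p : E, H27WA.IsUnif O' p →
        O'.valuation z = O'.valuation p → O.valuation z = O.valuation π := by
      intro O' hO' p hp hzp
      subst hO'
      rw [hzp]
      exact le_antisymm (hπ.le_of_lt_one hp.1) (hp.le_of_lt_one hπ.1)
    exact key _ hV1 _ (hU ⟨Vσ 1, hi⟩) (hzval ⟨Vσ 1, hi⟩)
  -- Dedekind
  let χ : G → (C →+* C) := fun σ => (ρ σ).restrict C C (hC σ)
  have hχ : Function.Injective χ := by
    intro σ τ h
    apply hfaith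
    intro c hc
    have := congrArg (fun f : C →+* C => ((f ⟨c, hc⟩ : C) : E)) h
    exact this
  obtain ⟨s, a, hsa⟩ := exists_dual_family χ hχ 1
  -- the traces
  let T : C → E := fun c => ∑ σ : G, ρ σ (z * (c : E))
  have hTinv : ∀ c τ, ρ τ (T c) = T c := by
    intro c τ
    show ρ τ (∑ σ : G, ρ σ (z * (c : E))) = ∑ σ : G, ρ σ (z * (c : E))
    rw [map_sum]
    refine Fintype.sum_equiv (Equiv.mulLeft τ) _ _ fun σ => ?_
    rw [Equiv.coe_mulLeft, hmul]
  have hTlt : ∀ c, O.valuation (T c) < 1 := by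
    intro c
    apply Valuation.map_sum_lt _ one_ne_zero
    intro σ _
    rw [map_mul, map_mul]
    have h1 : O.valuation (ρ σ (c : E)) ≤ 1 :=
      (O.valuation_le_one_iff _).2 (hCO _ (hC σ _ c.2))
    calc O.valuation (ρ σ z) * O.valuation (ρ σ (c : E))
        ≤ O.valuation (ρ σ z) * 1 := mul_le_mul' le_rfl h1
      _ = O.valuation (ρ σ z) := mul_one _
      _ < 1 := hzσ σ
  have hTu : ∀ c, T c * u⁻¹ ∈ O := fun c => hinv (T c) (fun σ => hTinv c σ) (hTlt c)
  -- the identity
  have hid : z = ∑ c ∈ s, (a c : E) * T c := by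
    have h1 : ∀ σ : G, ∑ c ∈ s, (a c : E) * ρ σ (c : E) = if σ = 1 then 1 else 0 := by
      intro σ
      have h0 : ((∑ c ∈ s, a c * χ σ c : C) : E) = ((if σ = 1 then 1 else 0 : C) : E) :=
        congrArg (fun x : C => (x : E)) (hsa σ)
      have h0' : ((∑ c ∈ s, a c * χ σ c : C) : E) = ∑ c ∈ s, (a c : E) * ρ σ (c : E) := by
        rw [← C.subtype_apply, map_sum]
        rfl
      rw [← h0', h0]
      split_ifs <;> simp
    calc z = ∑ σ : G, ρ σ z * (if σ = 1 then 1 else 0) := by
          rw [Finset.sum_eq_single (1 : G)]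
          · rw [if_pos rfl, mul_one, hone]
          · intro σ _ hσ
            rw [if_neg hσ, mul_zero]
          · intro h
            exact absurd (Finset.mem_univ _) h
      _ = ∑ σ : G, ρ σ z * ∑ c ∈ s, (a c : E) * ρ σ (c : E) := by
          refine Finset.sum_congr rfl fun σ _ => ?_
          rw [h1]
      _ = ∑ c ∈ s, (a c : E) * T c := by
          simp only [Finset.mul_sum, T]
          rw [Finset.sum_comm]
          refine Finset.sum_congr rfl fun c _ => Finset.sum_congr rfl fun σ _ => ?_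
          rw [map_mul]
          ring
  have hzu : z * u⁻¹ ∈ O := by
    rw [hid, Finset.sum_mul]
    refine O.toSubring.sum_mem fun c _ => ?_
    rw [mul_assoc]
    exact O.mul_mem _ _ (hCO _ (a c).2) (hTu c)
  rw [← ValuationSubring.valuation_le_one_iff] at hzu ⊢
  rw [map_mul] at hzu ⊢
  rw [← hzπ]
  exact hzu

end Main

end H29CU

noncomputable section

open H11W3G ModularCurve AlgebraicCurve H7S18 H28GV H29R2M

namespace H29CU

local notation "Qb" => AlgebraicClosure ℚ

section PlaceVal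

variable {K F : Type*} [Field K] [Field F] [Algebra K F] (W : Place K F)

theorem place_val_le_one_iff {x : F} (hx : x ≠ 0) :
    W.toValuationSubring.valuation x ≤ 1 ↔ 0 ≤ W.ord x := by
  rw [ValuationSubring.valuation_le_one_iff, RH24.h20_mem_iff_ord_nonneg W hx]

theorem place_val_lt_one_iff {x : F} (hx : x ≠ 0) :
    W.toValuationSubring.valuation x < 1 ↔ 0 < W.ord x := by
  have hx' : x⁻¹ ≠ 0 := inv_ne_zero hx
  have h := place_val_le_one_iff W hx'
  rw [map_inv₀, W.ord_inv] at h
  have hv0 : W.toValuationSubring.valuation x ≠ 0 := (Valuation.ne_zero_iff _).mpr hx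
  have h2 : 1 ≤ W.toValuationSubring.valuation x ↔ W.ord x ≤ 0 := by
    rw [← inv_le_one₀ (zero_lt_iff.mpr hv0), h]
    omega
  rw [← not_le, h2, not_le]

theorem place_val_eq_one_iff {x : F} (hx : x ≠ 0) :
    W.toValuationSubring.valuation x = 1 ↔ W.ord x = 0 := by
  have h1 := place_val_le_one_iff W hx
  have h2 := place_val_lt_one_iff W hx
  constructor
  · intro h
    have h3 := h1.1 h.le
    have h4 : ¬ (0 < W.ord x) := fun h5 => (h2.2 h5).ne h
    omega
  · intro h
    have h3 : W.toValuationSubring.valuation x ≤ 1 := h1.2 h.ge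
    have h4 : ¬ (W.toValuationSubring.valuation x < 1) := fun h5 => by
      have := h2.1 h5
      omega
    exact le_antisymm h3 (not_lt.1 h4)

theorem isUnif_comap_place {E : Type*} [Field E] (φ : E →+* F) (π₂ : E)
    (h : W.ord (φ π₂) = 1) : H27WA.IsUnif (W.toValuationSubring.comap φ) π₂ := by
  have hπ0 : φ π₂ ≠ 0 := by
    intro h0
    rw [h0, W.ord_zero] at h
    exact zero_ne_one h
  refine ⟨?_, fun h0 => hπ0 (by rw [h0, map_zero]), fun x hx => ?_⟩
  · rw [val_lt_one_comap, place_val_lt_one_iff W hπ0, h]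
    exact one_pos
  · have hx' : φ x ≠ 0 := fun h0 => hx (φ.injective (by rw [h0, map_zero]))
    refine ⟨W.ord (φ x), ?_⟩
    rw [val_eq_one_comap, map_mul, map_zpow₀,
      place_val_eq_one_iff W (mul_ne_zero hx' (zpow_ne_zero _ hπ0)),
      W.ord_mul hx' (zpow_ne_zero _ hπ0), W.ord_zpow, h]
    ring

end PlaceVal

section Main

variable (N : ℕ) [NeZero N]

attribute [local instance] algFF towKF algFFalg algKL

/-- the subgroup of `Gal(K₂ / ℚ)` fixing `L` -/
def fixL (L K₂ : IntermediateField ℚ Qb) : Subgroup (K₂ ≃ₐ[ℚ] K₂) where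
  carrier := {γ | ∀ x : K₂, (x : Qb) ∈ L → γ x = x}
  mul_mem' := by
    intro a b ha hb x hx
    rw [AlgEquiv.mul_apply, hb x hx, ha x hx]
  one_mem' := fun x _ => rfl
  inv_mem' := by
    intro a ha x hx
    have h := ha x hx
    conv_lhs => rw [← h]
    exact a.symm_apply_apply x

theorem mem_of_fixL (L K₂ : IntermediateField ℚ Qb) [Normal ℚ K₂] (y : K₂)
    (h : ∀ γ ∈ fixL L K₂, γ y = y) : (y : Qb) ∈ L := by
  apply H29DS.mem_of_fixed L
  intro σ hσ
  have hmem : H29GU.res K₂ σ ∈ fixL L K₂ := by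
    intro x hx
    apply (algebraMap K₂ Qb).injective
    rw [H29GU.res_commutes]
    exact hσ _ hx
  have := congrArg (algebraMap K₂ Qb) (h _ hmem)
  rw [H29GU.res_commutes] at this
  exact this

/-- **constant field extensions are unramified**: over every place of `F_L(N)` there is a place
of `F_{ℚ̄}(N)` of index `1`. -/
theorem exists_place_over (L : IntermediateField ℚ Qb) [FiniteDimensional ℚ L]
    (V : Place L (FK L N)) :
    ∃ W : Place Qb (modularFunctionFieldBar N),
      ∀ x : FK L N, W.ord (phi N L x) = V.ord x := by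
  classical
  obtain ⟨t₁, ht₁coe, ht₁tr, ht₁fin, -⟩ :=
    H9C6e.fieldBasics N 1 (Or.inl rfl) jq (Or.inl ⟨rfl, rfl⟩) L
  obtain ⟨tL, htLcoe, -, htLfin, -⟩ :=
    H9C6e.fieldBasics N 1 (Or.inl rfl) jq (Or.inl ⟨rfl, rfl⟩) Qb
  have htL : algebraMap (FK L N) (FK Qb N) t₁ = tL := by
    apply Subtype.ext
    rw [algebraMap_FF, phi_coe, ht₁coe, htLcoe]
    show coeffMap (algebraMap L Qb) (coeffMap (algebraMap ℚ L) jq) =
      coeffMap (algebraMap ℚ Qb) jq
    rw [coeffMap_coeffMap]
    exact coeffMap_congr (Subsingleton.elim _ _) jq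
  rw [← htL] at htLfin
  obtain ⟨W, ε, hε, hW⟩ := H1S18.placeDescent L Qb (FK L N) (FK Qb N) t₁ ht₁tr ht₁fin
    htLfin V
  -- uniformizers
  obtain ⟨u₁', hu₁'⟩ := IsDiscreteValuationRing.exists_irreducible V.toValuationSubring
  have hu₁ : V.ord (u₁' : FK L N) = 1 := V.ord_coe_irreducible hu₁'
  obtain ⟨π', hπ'⟩ := IsDiscreteValuationRing.exists_irreducible W.toValuationSubring
  have hπ : W.ord (π' : FK Qb N) = 1 := W.ord_coe_irreducible hπ'
  obtain ⟨K₂, hK₂fin, hK₂nor, hLK₂, -, hT⟩ :=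
    H29DS.exists_level_finset N 1 one_pos L {(π' : FK Qb N)}
  haveI := hK₂fin
  haveI := hK₂nor
  obtain ⟨π₂, hπ₂⟩ := hT (π' : FK Qb N) (Finset.mem_singleton_self _)
  -- `u` in `FK K₂ N`
  have hcoefu : ∀ j, ((phi N L (u₁' : FK L N) : modularFunctionFieldBar N) :
      LaurentSeries Qb).coeff j ∈ K₂ := by
    intro j
    rw [phi_coe, coeffMap_coeff]
    exact hLK₂ (_ : L).2
  obtain ⟨u, hu⟩ := H29DU.exists_phi_eq N K₂ (phi N L (u₁' : FK L N)) hcoefu
  have hWu : W.ord (phi N K₂ u) = ε := by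
    rw [hu, ← algebraMap_FF, hW, hu₁, mul_one]
  have hu0 : u ≠ 0 := by
    intro h0
    rw [h0, map_zero, W.ord_zero] at hWu
    exact hε.ne' (by exact_mod_cast hWu.symm)
  have hφu0 : phi N K₂ u ≠ 0 := fun h0 => hu0 ((phi N K₂).injective (by rw [h0, map_zero]))
  -- apply the abstract lemma
  have hone : ∀ x : FK K₂ N, H29DU.rhoHom (modularFunctionFieldFull N) (fixL L K₂) 1 x = x := by
    intro x
    apply Subtype.ext
    rw [H29DU.rhoHom_coe]
    exact coeffMap_id _
  have hC : ∀ σ : fixL L K₂, ∀ c ∈ (algebraMap K₂ (FK K₂ N)).fieldRange,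
      H29DU.rhoHom (modularFunctionFieldFull N) (fixL L K₂) σ c ∈
        (algebraMap K₂ (FK K₂ N)).fieldRange := by
    rintro σ _ ⟨c, rfl⟩
    rw [H29DU.rhoHom_algebraMap]
    exact ⟨_, rfl⟩
  have hfaith : ∀ σ τ : fixL L K₂, (∀ c ∈ (algebraMap K₂ (FK K₂ N)).fieldRange,
      H29DU.rhoHom (modularFunctionFieldFull N) (fixL L K₂) σ c =
        H29DU.rhoHom (modularFunctionFieldFull N) (fixL L K₂) τ c) → σ = τ := by
    intro σ τ h
    apply Subtype.ext
    apply AlgEquiv.ext
    intro c
    have h1 := h _ ⟨c, rfl⟩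
    rw [H29DU.rhoHom_algebraMap, H29DU.rhoHom_algebraMap] at h1
    exact (algebraMap K₂ (FK K₂ N)).injective h1
  have hCO : ∀ c ∈ (algebraMap K₂ (FK K₂ N)).fieldRange,
      c ∈ W.toValuationSubring.comap (phi N K₂) := by
    rintro _ ⟨c, rfl⟩
    rw [ValuationSubring.mem_comap]
    have e : phi N K₂ (algebraMap K₂ (FK K₂ N) c) =
        algebraMap Qb (FK Qb N) (algebraMap K₂ Qb c) := by
      rw [← algebraMap_FF, ← IsScalarTower.algebraMap_apply K₂ (FK K₂ N) (FK Qb N),
        IsScalarTower.algebraMap_apply K₂ Qb (FK Qb N)]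
    rw [e]
    exact W.algebraMap_mem' _
  have hinv : ∀ y : FK K₂ N,
      (∀ σ : fixL L K₂, H29DU.rhoHom (modularFunctionFieldFull N) (fixL L K₂) σ y = y) →
      (W.toValuationSubring.comap (phi N K₂)).valuation y < 1 →
      y * u⁻¹ ∈ W.toValuationSubring.comap (phi N K₂) := by
    intro y hy hlt
    rcases eq_or_ne y 0 with rfl | hy0
    · rw [zero_mul]
      exact zero_mem _
    have hφy0 : phi N K₂ y ≠ 0 := fun h0 => hy0 ((phi N K₂).injective (by rw [h0, map_zero]))
    have hcoef : ∀ j, ((phi N K₂ y : modularFunctionFieldBar N) :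
        LaurentSeries Qb).coeff j ∈ L := by
      intro j
      rw [phi_coe, coeffMap_coeff]
      apply mem_of_fixL L K₂
      intro γ hγ
      have h1 := congrArg (fun z : FK K₂ N => (z : LaurentSeries K₂).coeff j) (hy ⟨γ, hγ⟩)
      simp only [H29DU.rhoHom_coe, coeffMap_coeff] at h1
      exact h1
    obtain ⟨y₁, hy₁⟩ := H29DU.exists_phi_eq N L (phi N K₂ y) hcoef
    rw [val_lt_one_comap, place_val_lt_one_iff W hφy0, ← hy₁, ← algebraMap_FF, hW] at hlt
    have hVy : 1 ≤ V.ord y₁ := by
      by_contra hneg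
      have h1 : V.ord y₁ ≤ 0 := by omega
      have h2 : (ε : ℤ) * V.ord y₁ ≤ 0 :=
        mul_nonpos_of_nonneg_of_nonpos (Int.natCast_nonneg ε) h1
      omega
    rw [ValuationSubring.mem_comap, map_mul, map_inv₀,
      RH24.h20_mem_iff_ord_nonneg W (mul_ne_zero hφy0 (inv_ne_zero hφu0)),
      W.ord_mul hφy0 (inv_ne_zero hφu0), W.ord_inv, hWu, ← hy₁, ← algebraMap_FF, hW]
    have h3 : (ε : ℤ) * 1 ≤ (ε : ℤ) * V.ord y₁ :=
      mul_le_mul_of_nonneg_left hVy (Int.natCast_nonneg ε)
    omega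
  have hπ₂1 : W.ord (phi N K₂ π₂) = 1 := by
    rw [hπ₂]
    exact hπ
  have hφπ0 : phi N K₂ π₂ ≠ 0 := by
    intro h0
    rw [h0, W.ord_zero] at hπ₂1
    exact zero_ne_one hπ₂1
  have key := unif_of_invariants (G := ↥(fixL L K₂))
    (fun γ => H29DU.rhoHom (modularFunctionFieldFull N) (fixL L K₂) γ)
    hone (fun σ τ x => H29DU.rhoHom_mul (modularFunctionFieldFull N) (fixL L K₂) σ τ x)
    ((algebraMap K₂ (FK K₂ N)).fieldRange) hC hfaith
    (W.toValuationSubring.comap (phi N K₂)) hCO π₂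
    (isUnif_comap_place W (phi N K₂) π₂ hπ₂1) u hu0 hinv
  rw [ValuationSubring.mem_comap, map_mul, map_inv₀,
    RH24.h20_mem_iff_ord_nonneg W (mul_ne_zero hφπ0 (inv_ne_zero hφu0)),
    W.ord_mul hφπ0 (inv_ne_zero hφu0), W.ord_inv, hWu, hπ₂1] at key
  have hε1 : (ε : ℤ) = 1 := by
    have : (1 : ℤ) ≤ ε := by exact_mod_cast hε
    omega
  refine ⟨W, fun x => ?_⟩
  rw [← algebraMap_FF, hW, hε1, one_mul]

end Main

end H29CU

end
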