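/-
helper14: item 86 (S36), slice LOC-E (horizontal unramifiedness at a RIGID level), over `ℚ̄`.

`Rigid N` : `Γ₀(N)` has no elliptic points (`nuTwo N = 0 = nuThree N`), e.g. when a prime
`r ≡ 11 mod 12` divides `N` (`rigid_of_prime_dvd`); rigidity passes to multiples (`rigid_mono`).

* `H14LE.ord_zero_eq_three`, `H14LE.ord_1728_eq_two` : at a rigid level EVERY place of `F_N` over
  `j = 0` (resp. `j = 1728`) has ramification index exactly `3` (resp. `2`) over `ℚ̄(j)`
  (count of the places = number of orbits of `ST` resp. `S` + the fundamental identity).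
* `H14LE.locE_bar` : for `N ∣ M`, `N` rigid, every place `V` of `F_M` at which `j` is finite is
  unramified over `F_N`: some `u ∈ F_N` has `V.ord u = 1`.
-/
import Mathlib
import Fermat.Agent.S18.C8Branch_helper4
import Fermat.Agent.S18.C11b_helper12

set_option autoImplicit false
set_option linter.unusedSectionVars false
set_option linter.unusedVariables false
set_option linter.style.haveILetI false
set_option synthInstance.maxHeartbeats 400000
set_option maxHeartbeats 1000000

noncomputable section

open Polynomial IntermediateField AlgebraicCurve ModularCurve MatrixGroups CongruenceSubgroup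

namespace H14LE

open RH24

/-! ## Rigid levels -/

/-- `N` is a rigid level: `Γ₀(N)` has no elliptic points. -/
def Rigid (N : ℕ) : Prop := nuTwo N = 0 ∧ nuThree N = 0

theorem isEmpty_of_card_zero {N : ℕ} [NeZero N] (P : ZMod N → Prop)
    (h : Nat.card {x : ZMod N // P x} = 0) : IsEmpty {x : ZMod N // P x} := by
  haveI : Finite (ZMod N) := inferInstance
  haveI : Finite {x : ZMod N // P x} := Subtype.finite
  exact (Nat.card_eq_zero.mp h).resolve_right (fun hinf => hinf.not_finite ‹_›)

/-- rigidity passes to multiples -/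
theorem rigid_mono {N M : ℕ} [NeZero N] [NeZero M] (h : N ∣ M) (hN : Rigid N) : Rigid M := by
  obtain ⟨h2, h3⟩ := hN
  have e2 := isEmpty_of_card_zero (N := N) (fun x => x ^ 2 + 1 = 0) h2
  have e3 := isEmpty_of_card_zero (N := N) (fun x => x ^ 2 + x + 1 = 0) h3
  refine ⟨?_, ?_⟩
  · rw [nuTwo, Nat.card_eq_zero]
    left
    refine ⟨fun x => e2.false ⟨ZMod.castHom h (ZMod N) x.1, ?_⟩⟩
    have := congrArg (ZMod.castHom h (ZMod N)) x.2
    rw [map_add, map_pow, map_one, map_zero] at this
    exact this
  · rw [nuThree, Nat.card_eq_zero]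
    left
    refine ⟨fun x => e3.false ⟨ZMod.castHom h (ZMod N) x.1, ?_⟩⟩
    have := congrArg (ZMod.castHom h (ZMod N)) x.2
    rw [map_add, map_add, map_pow, map_one, map_zero] at this
    exact this

/-- a prime `r ≡ 11 mod 12` is a rigid level -/
theorem rigid_prime {r : ℕ} (hr : r.Prime) (h11 : r % 12 = 11) : Rigid r := by
  haveI : Fact r.Prime := ⟨hr⟩
  haveI : NeZero r := ⟨hr.ne_zero⟩
  refine ⟨?_, ?_⟩
  · rw [nuTwo, Nat.card_eq_zero]
    left
    refine ⟨fun x => ?_⟩
    have hx : x.1 ^ 2 = -1 := eq_neg_of_add_eq_zero_left x.2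
    have h1 : IsSquare (-1 : ZMod r) := ⟨x.1, by rw [← hx, sq]⟩
    have h2 := ZMod.exists_sq_eq_neg_one_iff.mp h1
    omega
  · rw [nuThree, Nat.card_eq_zero]
    left
    refine ⟨fun x => ?_⟩
    have hx := x.2
    have hx3 : x.1 ^ 3 = 1 := by linear_combination (x.1 - 1) * hx
    have hx0 : x.1 ≠ 0 := by
      intro h0
      rw [h0] at hx3
      simp at hx3
    have hfl := ZMod.pow_card_sub_one_eq_one hx0
    obtain ⟨k, hk⟩ : ∃ k, r - 1 = 3 * k + 1 := ⟨(r - 2) / 3, by omega⟩
    rw [hk, pow_add, pow_mul, hx3, one_pow, one_mul, pow_one] at hfl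
    rw [hfl] at hx
    have h3 : ((3 : ℕ) : ZMod r) = 0 := by
      push_cast
      linear_combination hx
    have := (ZMod.natCast_eq_zero_iff 3 r).mp h3
    have := Nat.le_of_dvd (by norm_num) this
    omega

theorem rigid_of_prime_dvd {N r : ℕ} [NeZero N] (hr : r.Prime) (h11 : r % 12 = 11)
    (hrN : r ∣ N) : Rigid N := by
  haveI : NeZero r := ⟨hr.ne_zero⟩
  exact rigid_mono hrN (rigid_prime hr h11)

/-! ## Exact ramification indices at a rigid level -/

section Abstract

variable {K F : Type*} [Field K] [IsAlgClosed K] [CharZero K] [Field F] [Algebra K F]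

/-- if every place over `z = 0` has `ord z ∣ p` and there are exactly `[F : K(z)] / p` of them,
then every such place has `ord z = p`. -/
theorem ord_eq_of_card (z : F) (hz : Transcendental K z) [FiniteDimensional K⟮z⟯ F] (p : ℕ)
    (hp : 0 < p) (hdvd : ∀ v : Place K F, 0 < v.ord z → v.ord z ∣ (p : ℤ))
    (hcard : p * Nat.card {v : Place K F // 0 < v.ord z} = Module.finrank K⟮z⟯ F)
    (v : Place K F) (hv : 0 < v.ord z) : v.ord z = p := by
  classical
  haveI := finite_places_over z hz
  letI : Fintype {v : Place K F // 0 < v.ord z} := Fintype.ofFinite _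
  have hsum := sum_ord_eq_finrank z hz
  rw [finsum_eq_sum_of_fintype, ← hcard, Nat.card_eq_fintype_card] at hsum
  have hle : ∀ w : {v : Place K F // 0 < v.ord z}, w.1.ord z ≤ (p : ℤ) := fun w =>
    Int.le_of_dvd (by exact_mod_cast hp) (hdvd w.1 w.2)
  have hz0 : ∑ w : {v : Place K F // 0 < v.ord z}, ((p : ℤ) - w.1.ord z) = 0 := by
    rw [Finset.sum_sub_distrib, hsum, Finset.sum_const, Finset.card_univ]
    simp only [nsmul_eq_mul]
    push_cast
    ring
  have h0 := (Finset.sum_eq_zero_iff_of_nonneg
    (fun w _ => sub_nonneg.mpr (hle w))).mp hz0 ⟨v, hv⟩ (Finset.mem_univ _)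
  simp only at h0
  omega

end Abstract

section Level

variable (N : ℕ) [NeZero N]

local notation "FN" => modularFunctionFieldBar N

/-- at a rigid level every place over `j = 0` has ramification index `3` -/
theorem ord_zero_eq_three (hN : Rigid N) (V : Place Kbar FN) (hV : 0 < V.ord (Jbar N)) :
    V.ord (Jbar N) = 3 := by
  haveI := (B_degree N).1
  have hz := h5a_transcendental_sub_const (Jbar N) (B_transcendental N) (0 : Kbar)
  haveI hfd : FiniteDimensional Kbar⟮Jbar N - algebraMap Kbar FN 0⟯ FN := by
    rw [h5a_adjoin_sub_const]; infer_instance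
  have hn : Module.finrank Kbar⟮Jbar N - algebraMap Kbar FN 0⟯ FN =
      Module.finrank Kbar⟮Jbar N⟯ FN := by
    rw [h5a_adjoin_sub_const]
  have hcard := card_places_over (Jbar N - algebraMap Kbar FN 0) hz
    (by rw [hn]; exact (B_degree N).2) _ (B_local_zero N)
  have h3 := three_mul_card_orbits_ST N
  rw [hN.2, Nat.mul_zero, Nat.add_zero, ← H12C11b.finrank_bar N, ← hn] at h3
  have key := ord_eq_of_card (Jbar N - algebraMap Kbar FN 0) hz 3 (by norm_num)
    (fun v hv => by
      have h1 : 0 < v.ord (Jbar N) := by rwa [map_zero, sub_zero] at hv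
      have := H2C8.ord_zero_dvd N v h1
      rw [map_zero, sub_zero]
      exact_mod_cast this)
    (by rw [hcard]; exact h3) V (by rwa [map_zero, sub_zero])
  rw [map_zero, sub_zero] at key
  exact_mod_cast key

/-- at a rigid level every place over `j = 1728` has ramification index `2` -/
theorem ord_1728_eq_two (hN : Rigid N) (V : Place Kbar FN)
    (hV : 0 < V.ord (Jbar N - algebraMap Kbar FN 1728)) :
    V.ord (Jbar N - algebraMap Kbar FN 1728) = 2 := by
  haveI := (B_degree N).1
  have hz := h5a_transcendental_sub_const (Jbar N) (B_transcendental N) (1728 : Kbar)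
  haveI hfd : FiniteDimensional Kbar⟮Jbar N - algebraMap Kbar FN 1728⟯ FN := by
    rw [h5a_adjoin_sub_const]; infer_instance
  have hn : Module.finrank Kbar⟮Jbar N - algebraMap Kbar FN 1728⟯ FN =
      Module.finrank Kbar⟮Jbar N⟯ FN := by
    rw [h5a_adjoin_sub_const]
  have hcard := card_places_over (Jbar N - algebraMap Kbar FN 1728) hz
    (by rw [hn]; exact (B_degree N).2) _ (B_local_1728 N)
  have h2 := two_mul_card_orbits_S N
  rw [hN.1, Nat.add_zero, ← H12C11b.finrank_bar N, ← hn] at h2
  have key := ord_eq_of_card (Jbar N - algebraMap Kbar FN 1728) hz 2 (by norm_num)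
    (fun v hv => by
      have := H2C8.ord_1728_dvd N v hv
      exact_mod_cast this)
    (by rw [hcard]; exact h2) V hV
  exact_mod_cast key

end Level

/-! ## LOC-E over `ℚ̄` -/

section Tower

variable {N M : ℕ} [NeZero N] [NeZero M]

/-- the inclusion `F_N → F_M` maps `j` to `j` -/
theorem inclusion_Jbar (hle : modularFunctionFieldBar N ≤ modularFunctionFieldBar M) :
    IntermediateField.inclusion hle (Jbar N) = Jbar M :=
  Subtype.ext rfl

/-- a place of `F_M` whose index over `F_N` is forced to be `1` by the values of `ord j`. -/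
theorem exists_unif_of_ord (hle : modularFunctionFieldBar N ≤ modularFunctionFieldBar M)
    (V : Place Kbar (modularFunctionFieldBar M)) (x : modularFunctionFieldBar N) (e : ℤ)
    (he : 0 < e) (hx : V.ord (IntermediateField.inclusion hle x) = e)
    (hN : ∀ V₀ : Place Kbar (modularFunctionFieldBar N), 0 < V₀.ord x → V₀.ord x = e) :
    ∃ u : modularFunctionFieldBar N, V.ord (IntermediateField.inclusion hle u) = 1 := by
  letI : Algebra (modularFunctionFieldBar N) (modularFunctionFieldBar M) :=
    (IntermediateField.inclusion hle).toRingHom.toAlgebra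
  haveI : IsScalarTower Kbar (modularFunctionFieldBar N) (modularFunctionFieldBar M) :=
    IsScalarTower.of_algebraMap_eq (fun x => rfl)
  haveI : Algebra.IsIntegral (modularFunctionFieldBar N) (modularFunctionFieldBar M) :=
    ⟨fun x => H12C11b.isIntegral_bar hle x⟩
  have e1 := V.ord_restrict (F := modularFunctionFieldBar N) x
  have e1' : V.ord (IntermediateField.inclusion hle x) =
      V.ord (algebraMap (modularFunctionFieldBar N) (modularFunctionFieldBar M) x) := rfl
  rw [← e1', hx] at e1
  have hr := V.ramificationIndex_pos (F := modularFunctionFieldBar N)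
  have hrZ : (0 : ℤ) < (V.ramificationIndex (modularFunctionFieldBar N) : ℤ) := by
    exact_mod_cast hr
  have hpos : 0 < (V.restrict (modularFunctionFieldBar N)).ord x := by
    by_contra hneg
    have hle0 : (V.restrict (modularFunctionFieldBar N)).ord x ≤ 0 := not_lt.mp hneg
    have := mul_nonpos_of_nonneg_of_nonpos hrZ.le hle0
    omega
  rw [hN _ hpos] at e1
  have hone : (V.ramificationIndex (modularFunctionFieldBar N) : ℤ) = 1 := by
    have h2 : ((V.ramificationIndex (modularFunctionFieldBar N) : ℤ) - 1) * e = 0 := by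
      linear_combination -e1
    rcases mul_eq_zero.mp h2 with h3 | h3
    · omega
    · omega
  obtain ⟨f, hf0, hf⟩ := V.exists_ord_eq_ramificationIndex (F := modularFunctionFieldBar N)
  refine ⟨f, ?_⟩
  have e2 : V.ord (IntermediateField.inclusion hle f) =
      V.ord (algebraMap (modularFunctionFieldBar N) (modularFunctionFieldBar M) f) := rfl
  rw [e2, hf, hone]

/-- **LOC-E over `ℚ̄`**: for `N ∣ M` with `N` rigid, every place of `F_M` at which `j` is finite
is unramified over `F_N`. -/
theorem locE_bar (h : N ∣ M) (hN : Rigid N) (V : Place Kbar (modularFunctionFieldBar M))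
    (hV : 0 ≤ V.ord (Jbar M)) :
    ∃ u : modularFunctionFieldBar N,
      V.ord (IntermediateField.inclusion (H12C11b.bar_le h) u) = 1 := by
  have hle := H12C11b.bar_le h
  have hM : Rigid M := rigid_mono h hN
  obtain ⟨a, ha⟩ := (H4BR.jBranch M).center V hV
  by_cases h0 : a = 0
  · subst h0
    rw [map_zero, sub_zero] at ha
    have h3 := ord_zero_eq_three M hM V ha
    exact exists_unif_of_ord hle V (Jbar N) 3 (by norm_num)
      (by rw [inclusion_Jbar hle]; exact h3) (fun V₀ hV₀ => ord_zero_eq_three N hN V₀ hV₀)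
  by_cases h1 : a = 1728
  · subst h1
    have h2 := ord_1728_eq_two M hM V ha
    refine exists_unif_of_ord hle V (Jbar N - algebraMap Kbar _ 1728) 2 (by norm_num) ?_
      (fun V₀ hV₀ => ord_1728_eq_two N hN V₀ hV₀)
    rw [map_sub, inclusion_Jbar hle]
    exact h2
  · refine ⟨Jbar N - algebraMap Kbar _ a, ?_⟩
    rw [map_sub, inclusion_Jbar hle]
    exact (H4BR.jBranch M).gen a h0 h1 V ha

end Tower

end H14LE

end
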