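import Mathlib
import Fermat.Agent.S34.PairSpan_helper8
import Fermat.Agent.S28.DegreeBounds

/-!
# Item 86 (S36), slice (TG): `F(M q²) = ⊕_{k<q} F(M q) · J₂^k` (helper8)

`J = j(𝐪)`, `J₁ = j(𝐪^q)`, `J₂ = j(𝐪^{q²})`, `F₁ = F_K(M q)`, `F₂ = F_K(M q²)` (inside `K((𝐪))`).

* `h8tg_exists_psi` : `J₂` is a root of a monic polynomial `Ψ` of degree `q` over `F₁`
  (`Ψ = Φ_q(J₁, Y) / (Y - J)`);
* `h8tg_mem_adjoin` : every element of `F₁(J₂)` is `Σ_{k<q} c_k J₂^k` with `c_k ∈ F₁`;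
* `h8tg_V_mem`      : `x ∈ F₁ → x(𝐪^q) ∈ F₁(J₂)` (from the pair basis, `H8PB.h8pb_span`);
* `h8tg_span`       : every `x ∈ F₂` is `Σ_{k<q} c_k J₂^k` with `c_k ∈ F₁`
  (level `L` generic, `hL : L = M * q * q`).
-/

set_option autoImplicit false
set_option linter.unusedSectionVars false
set_option linter.style.longLine false
set_option linter.unusedVariables false
set_option linter.style.haveILetI false
set_option synthInstance.maxHeartbeats 400000

open ModularCurve HahnSeries Polynomial H28GV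

noncomputable section

namespace H8TG

section Alg

variable (K : Type) [Field K] (M q : ℕ) [NeZero M] [NeZero q]

/-- `j(𝐪) ≠ j(𝐪^{q²})` -/
theorem h8tg_J_ne_J2 (hq : 1 < q) : jqModC K ≠ qExpand K (q * q) (jqModC K) := by
  intro h
  have h1 := H8PB.h8pb_dvd_order_qExpand K (q * q) (jqModC K)
  rw [← h, H8PB.h8pb_order_jq] at h1
  have h2 : ((q * q : ℕ) : ℤ) ∣ 1 := (dvd_neg (a := ((q * q : ℕ) : ℤ)) (b := 1)).mp h1
  have h3 : (q * q : ℕ) ∣ 1 := Int.natCast_dvd_natCast.mp (by simpa using h2)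
  have h4 : q * q = 1 := Nat.dvd_one.mp h3
  nlinarith

/-- `J₂` is a root of a monic polynomial of degree `q` over `F₁ = F_K(M q)`. -/
theorem h8tg_exists_psi (hq : q.Prime) :
    ∃ Ψ : Polynomial ↥(modularFunctionFieldFullC K (M * q)), Ψ.Monic ∧ Ψ.natDegree = q ∧
      Polynomial.aeval (qExpand K (q * q) (jqModC K)) Ψ = 0 := by
  obtain ⟨Φ, hΦ⟩ := H28S28.h10_exists_modPoly q (H28S28.h10_hasModEq_all q hq)
  have hJ : jqModC K ∈ modularFunctionFieldFullC K (M * q) := jqModC_mem_full K (M * q)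
  have hJ1 : qExpand K q (jqModC K) ∈ modularFunctionFieldFullC K (M * q) :=
    jqModCd_mem_full K (M * q) (Dvd.intro_left M rfl)
  set Jf : ↥(modularFunctionFieldFullC K (M * q)) := ⟨_, hJ⟩ with hJf
  set J1f : ↥(modularFunctionFieldFullC K (M * q)) := ⟨_, hJ1⟩ with hJ1f
  set ψ : Polynomial ℤ →+* ↥(modularFunctionFieldFullC K (M * q)) :=
    Polynomial.eval₂RingHom (Int.castRingHom _) J1f with hψ
  set P : Polynomial ↥(modularFunctionFieldFullC K (M * q)) := Φ.map ψ with hP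
  have hPm : P.Monic := hΦ.1.map ψ
  have hPd : P.natDegree = q + 1 := by rw [hP, hΦ.1.natDegree_map ψ, hΦ.2.1]
  set ι : ↥(modularFunctionFieldFullC K (M * q)) →+* LaurentSeries K :=
    algebraMap ↥(modularFunctionFieldFullC K (M * q)) (LaurentSeries K) with hι
  have hιinj : Function.Injective ι := Subtype.val_injective
  have hcomp : ι.comp ψ = H28S28.h10ev (qExpand K q (jqModC K)) := by
    refine Polynomial.ringHom_ext' (Subsingleton.elim _ _) ?_
    simp [hψ, hι, hJ1f, H28S28.h10ev]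
  -- evaluation of `P` at a series
  have hev : ∀ x : LaurentSeries K, Polynomial.aeval x P =
      H28S28.h10ev2 Φ (qExpand K q (jqModC K)) x := by
    intro x
    rw [Polynomial.aeval_def, hP, Polynomial.eval₂_map]
    show Polynomial.eval₂ (ι.comp ψ) x Φ = _
    rw [hcomp]
    rfl
  -- `J` is a root of `P`
  have hroot : P.IsRoot Jf := by
    show P.eval Jf = 0
    apply hιinj
    rw [map_zero]
    have h0 : ι (P.eval Jf) = Polynomial.aeval (jqModC K) P := by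
      rw [Polynomial.aeval_def, ← Polynomial.eval₂_at_apply]
      rfl
    rw [h0, hev]
    haveI : NeZero (1 * q) := ⟨by simpa using hq.ne_zero⟩
    have h := H28S28.h10_root' q Φ hΦ K 1
    rw [qExpand_one_apply, qExpand_congr (one_mul q)] at h
    exact h
  -- `J₂` is a root of `P`
  have hroot2 : Polynomial.aeval (qExpand K (q * q) (jqModC K)) P = 0 := by
    rw [hev]
    exact H28S28.h10_root q Φ hΦ K q
  have hfac : (Polynomial.X - Polynomial.C Jf) * (P /ₘ (Polynomial.X - Polynomial.C Jf)) = P := Polynomial.mul_divByMonic_eq_iff_isRoot.mpr hroot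
  refine ⟨P /ₘ (Polynomial.X - Polynomial.C Jf), ?_, ?_, ?_⟩
  · exact (Polynomial.monic_X_sub_C Jf).of_mul_monic_left (by rw [hfac]; exact hPm)
  · rw [Polynomial.natDegree_divByMonic _ (Polynomial.monic_X_sub_C Jf), hPd,
      Polynomial.natDegree_X_sub_C]
    omega
  · have h1 := hroot2
    rw [← hfac, map_mul] at h1
    rcases mul_eq_zero.mp h1 with h2 | h2
    · exfalso
      rw [map_sub, Polynomial.aeval_X, Polynomial.aeval_C] at h2
      exact h8tg_J_ne_J2 K q hq.one_lt (sub_eq_zero.mp h2).symm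
    · exact h2

/-- Every element of `F₁(J₂)` is `Σ_{k<q} c_k J₂^k` with `c_k ∈ F₁`. -/
theorem h8tg_mem_adjoin (hq : q.Prime) (x : LaurentSeries K)
    (hx : x ∈ IntermediateField.adjoin ↥(modularFunctionFieldFullC K (M * q))
      {qExpand K (q * q) (jqModC K)}) :
    ∃ c : ℕ → LaurentSeries K, (∀ k, c k ∈ modularFunctionFieldFullC K (M * q)) ∧
      x = ∑ k ∈ Finset.range q, c k * qExpand K (q * q) (jqModC K) ^ k := by
  obtain ⟨Ψ, hΨm, hΨd, hΨ0⟩ := h8tg_exists_psi K M q hq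
  have halg : IsAlgebraic ↥(modularFunctionFieldFullC K (M * q))
      (qExpand K (q * q) (jqModC K)) := ⟨Ψ, hΨm.ne_zero, hΨ0⟩
  have hx' : x ∈ (IntermediateField.adjoin ↥(modularFunctionFieldFullC K (M * q))
      {qExpand K (q * q) (jqModC K)}).toSubalgebra := hx
  rw [IntermediateField.adjoin_simple_toSubalgebra_of_isAlgebraic halg,
    Algebra.adjoin_singleton_eq_range_aeval] at hx'
  obtain ⟨p, rfl⟩ := hx'
  have hΨ1 : Ψ ≠ 1 := by
    intro h
    rw [h, Polynomial.natDegree_one] at hΨd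
    exact hq.ne_zero hΨd.symm
  have hdeg : (p %ₘ Ψ).natDegree < q := by
    have := Polynomial.natDegree_modByMonic_lt p hΨm hΨ1
    rwa [hΨd] at this
  refine ⟨fun k => (((p %ₘ Ψ).coeff k : ↥(modularFunctionFieldFullC K (M * q))) :
    LaurentSeries K), fun k => ((p %ₘ Ψ).coeff k).2, ?_⟩
  show (Polynomial.aeval (qExpand K (q * q) (jqModC K))) p = _
  rw [← Polynomial.aeval_modByMonic_eq_self_of_root hΨ0, Polynomial.aeval_eq_sum_range' hdeg]
  refine Finset.sum_congr rfl (fun k _ => ?_)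
  rfl

end Alg

section Span

open H12AL RH24

variable (K₁ : IntermediateField ℚ Kbar) (R : ValuationSubring ↥K₁)
variable (M q : ℕ) [NeZero M] [NeZero q]

/-- a divisor of `L = M q²` divides `M q` or is `q d₁` with `d₁ ∣ M q` -/
theorem h8tg_dvd_cases (hq : q.Prime) (hqM : ¬ q ∣ M) {L : ℕ} (hL : L = M * q * q) {d : ℕ}
    (hd : d ∣ L) :
    d ∣ M * q ∨ ∃ d₁, d₁ ∣ M * q ∧ d = q * d₁ := by
  subst hL
  by_cases hqd : q ∣ d
  · obtain ⟨e, rfl⟩ := hqd
    right
    refine ⟨e, ?_, rfl⟩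
    have h1 : q * e ∣ q * (M * q) := by
      have : M * q * q = q * (M * q) := by ring
      rwa [this] at hd
    exact (Nat.mul_dvd_mul_iff_left hq.pos).mp h1
  · left
    have hcop : Nat.Coprime d q := ((Nat.Prime.coprime_iff_not_dvd hq).mpr hqd).symm
    exact hcop.dvd_of_dvd_mul_right hd

variable [CharP (IsLocalRing.ResidueField R) q]

/-- `x ∈ F₁ → x(𝐪^q) ∈ F₁(J₂)` -/
theorem h8tg_V_mem (hq : q.Prime) (hqM : ¬ q ∣ M) (B : GVBasis R (IsLocalRing.residue R) M)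
    (x : LaurentSeries ↥K₁) (hx : x ∈ modularFunctionFieldFullC ↥K₁ (M * q)) :
    qExpand ↥K₁ q x ∈ IntermediateField.adjoin ↥(modularFunctionFieldFullC ↥K₁ (M * q))
      {qExpand ↥K₁ (q * q) (jqModC ↥K₁)} := by
  classical
  obtain ⟨c, hc, hxc, -⟩ := H8PB.h8pb_span K₁ R M q hq hqM B ⟨x, gv_mem_base_of_full (M * q) hx⟩
  have hxc' : x = ∑ p, c p * gvEps R (H8PB.y1 R q B.y p) := hxc
  have hy1 : ∀ p : Fin (dedekindPsi M) × Fin (q + 1), gvEps R (H8PB.y1 R q B.y p) =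
      gvEps R (B.y p.1) * qExpand ↥K₁ q (jqModC ↥K₁) ^ (p.2 : ℕ) := by
    intro p
    show gvEps R (B.y p.1 * (qExpand R q (jqModC R)) ^ (p.2 : ℕ)) = _
    rw [map_mul, map_pow, H8PB.coeffMap_qExpand_eps K₁ R q, H8PB.h8pb_eps_jq]
  have hmapM : ∀ y : LaurentSeries ↥K₁, y ∈ modularFunctionFieldFullC ↥K₁ M →
      qExpand ↥K₁ q y ∈ modularFunctionFieldFullC ↥K₁ (M * q) := by
    intro y hy
    apply full_degeneracyC_map_le ↥K₁ M q
    exact ⟨y, hy, rfl⟩
  have hF1 : ∀ y : LaurentSeries ↥K₁, y ∈ modularFunctionFieldFullC ↥K₁ (M * q) →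
      y ∈ IntermediateField.adjoin ↥(modularFunctionFieldFullC ↥K₁ (M * q))
        {qExpand ↥K₁ (q * q) (jqModC ↥K₁)} := by
    intro y hy
    exact IntermediateField.algebraMap_mem _
      (⟨y, hy⟩ : ↥(modularFunctionFieldFullC ↥K₁ (M * q)))
  rw [hxc', map_sum]
  refine sum_mem (fun p _ => ?_)
  rw [map_mul, hy1, map_mul, map_pow, qExpand_qExpand]
  refine mul_mem (hF1 _ (hmapM _ (H8PB.h8pb_adjoin_le K₁ M (hc p)))) (mul_mem ?_ (pow_mem ?_ _))
  · exact hF1 _ (hmapM _ (B.eps_mem p.1))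
  · exact IntermediateField.mem_adjoin_simple_self _ _

/-- `F₂ = F_K(L) ⊆ F₁(J₂)`, `L = M q²` -/
theorem h8tg_full_le (hq : q.Prime) (hqM : ¬ q ∣ M) (B : GVBasis R (IsLocalRing.residue R) M)
    {L : ℕ} (hL : L = M * q * q)
    (x : LaurentSeries ↥K₁) (hx : x ∈ modularFunctionFieldFullC ↥K₁ L) :
    x ∈ IntermediateField.adjoin ↥(modularFunctionFieldFullC ↥K₁ (M * q))
      {qExpand ↥K₁ (q * q) (jqModC ↥K₁)} := by
  have hle : modularFunctionFieldFullC ↥K₁ L ≤
      (IntermediateField.adjoin ↥(modularFunctionFieldFullC ↥K₁ (M * q))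
        {qExpand ↥K₁ (q * q) (jqModC ↥K₁)}).restrictScalars ↥K₁ := by
    rw [modularFunctionFieldFullC, IntermediateField.adjoin_le_iff]
    rintro y ⟨d, hne, hdvd, rfl⟩
    haveI := hne
    show qExpand ↥K₁ d (jqModC ↥K₁) ∈ IntermediateField.adjoin
      ↥(modularFunctionFieldFullC ↥K₁ (M * q)) {qExpand ↥K₁ (q * q) (jqModC ↥K₁)}
    rcases h8tg_dvd_cases M q hq hqM hL hdvd with h1 | ⟨d₁, hd₁, rfl⟩
    · exact IntermediateField.algebraMap_mem _
        (⟨_, jqModCd_mem_full ↥K₁ (M * q) h1⟩ : ↥(modularFunctionFieldFullC ↥K₁ (M * q)))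
    · haveI : NeZero d₁ := ⟨fun h0 => by
        rw [h0, mul_zero] at hne
        exact hne.out rfl⟩
      have h := h8tg_V_mem K₁ R M q hq hqM B _ (jqModCd_mem_full ↥K₁ (M * q) hd₁)
      rwa [qExpand_qExpand] at h
  exact hle hx

/-- **(TG-SPAN)**: every `x ∈ F_K(L)`, `L = M q²`, is `Σ_{k<q} c_k J₂^k` with `c_k ∈ F_K(M q)`. -/
theorem h8tg_span (hq : q.Prime) (hqM : ¬ q ∣ M) (B : GVBasis R (IsLocalRing.residue R) M)
    {L : ℕ} (hL : L = M * q * q)
    (x : LaurentSeries ↥K₁) (hx : x ∈ modularFunctionFieldFullC ↥K₁ L) :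
    ∃ c : ℕ → LaurentSeries ↥K₁, (∀ k, c k ∈ modularFunctionFieldFullC ↥K₁ (M * q)) ∧
      x = ∑ k ∈ Finset.range q, c k * qExpand ↥K₁ (q * q) (jqModC ↥K₁) ^ k :=
  h8tg_mem_adjoin ↥K₁ M q hq x (h8tg_full_le K₁ R M q hq hqM B hL x hx)

end Span

end H8TG

end
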