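import Mathlib
import Fermat.Agent.S36.TGSpan_helper8
import Fermat.Agent.S34.PairDefs_helper8

/-!
# Item 86 (S36), slice (TG): the tower `F₁ = FK K N ⊆ F₂ = FK K L`, `N ∣ L` (helper8)

All levels are GENERIC (`N ∣ L`; for S36: `N = M * q`, `L = M * q * q` or any `L` with
`hL : L = M * q * q`), so that no cast between level literals is ever needed.

* `H8TG.incl K N L h : FK K N →+* FK K L` (`h : N ∣ L`), the inclusion inside `K((𝐪))`, `coe_incl`;
* `H8TG.J2 K L q h : FK K L` (`h : q * q ∣ L`), `J₂ = j(𝐪^{q²})`, `coe_J2`;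
  `H8TG.J1 K L q h` (`h : q ∣ L`), `H8TG.J0 K L`;
* `H8TG.h8tg_spanFK` : `L = M q²`: every `x : FK K₁ L` is `Σ_{k<q} incl (c k) · J₂^k`,
  `c k : FK K₁ (M q)`.

To use helper24's `H24RG.rel_inert / rel_split`: `letI := (H8TG.incl K N L h).toAlgebra`.
-/

set_option autoImplicit false
set_option linter.unusedSectionVars false
set_option linter.style.longLine false
set_option linter.unusedVariables false
set_option linter.style.haveILetI false
set_option synthInstance.maxHeartbeats 400000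

open ModularCurve HahnSeries H28GV H7S18

noncomputable section

namespace H8TG

section Incl

variable (K : Type) [Field K] [Algebra ℚ K]

theorem h8tg_le (N L : ℕ) [NeZero N] [NeZero L] (h : N ∣ L) :
    laurentBaseChange K (modularFunctionFieldFull N) ≤
      laurentBaseChange K (modularFunctionFieldFull L) := by
  rw [gv_bar_eq, gv_bar_eq]
  exact full_degeneracyC_le K h

/-- the inclusion `F_K(N) ⊆ F_K(L)`, `N ∣ L` -/
def incl (N L : ℕ) [NeZero N] [NeZero L] (h : N ∣ L) : FK K N →+* FK K L :=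
  (IntermediateField.inclusion (h8tg_le K N L h)).toRingHom

@[simp]
theorem coe_incl (N L : ℕ) [NeZero N] [NeZero L] (h : N ∣ L) (x : FK K N) :
    ((incl K N L h x : FK K L) : LaurentSeries K) = (x : LaurentSeries K) :=
  IntermediateField.coe_inclusion (h8tg_le K N L h) x

theorem incl_injective (N L : ℕ) [NeZero N] [NeZero L] (h : N ∣ L) :
    Function.Injective (incl K N L h) := (incl K N L h).injective

theorem incl_algebraMap (N L : ℕ) [NeZero N] [NeZero L] (h : N ∣ L) (c : K) :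
    incl K N L h (algebraMap K (FK K N) c) = algebraMap K (FK K L) c :=
  (IntermediateField.inclusion (h8tg_le K N L h)).commutes c

/-- `J₂ = j(𝐪^{q²})` as an element of `F_K(L)`, `q² ∣ L` -/
def J2 (L q : ℕ) [NeZero L] [NeZero q] (h : q * q ∣ L) : FK K L :=
  ⟨qExpand K (q * q) (jqModC K), gv_mem_base_of_full L (jqModCd_mem_full K L h)⟩

@[simp]
theorem coe_J2 (L q : ℕ) [NeZero L] [NeZero q] (h : q * q ∣ L) :
    ((J2 K L q h : FK K L) : LaurentSeries K) = qExpand K (q * q) (jqModC K) := rfl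

/-- `J = j(𝐪)` as an element of `F_K(N)` -/
def J0 (N : ℕ) [NeZero N] : FK K N :=
  ⟨jqModC K, gv_mem_base_of_full N (jqModC_mem_full K N)⟩

@[simp]
theorem coe_J0 (N : ℕ) [NeZero N] : ((J0 K N : FK K N) : LaurentSeries K) = jqModC K := rfl

/-- `J₁ = j(𝐪^q)` as an element of `F_K(L)`, `q ∣ L` -/
def J1 (L q : ℕ) [NeZero L] [NeZero q] (h : q ∣ L) : FK K L :=
  ⟨qExpand K q (jqModC K), gv_mem_base_of_full L (jqModCd_mem_full K L h)⟩

@[simp]
theorem coe_J1 (L q : ℕ) [NeZero L] [NeZero q] (h : q ∣ L) :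
    ((J1 K L q h : FK K L) : LaurentSeries K) = qExpand K q (jqModC K) := rfl

theorem coe_sum {N : ℕ} [NeZero N] {ι : Type} (s : Finset ι) (f : ι → FK K N) :
    ((∑ k ∈ s, f k : FK K N) : LaurentSeries K) = ∑ k ∈ s, (f k : LaurentSeries K) :=
  map_sum (laurentBaseChange K (modularFunctionFieldFull N)).val f s

end Incl

section SpanFK

variable (K₁ : IntermediateField ℚ RH24.Kbar) (R : ValuationSubring ↥K₁)
variable (M q : ℕ) [NeZero M] [NeZero q]
variable [CharP (IsLocalRing.ResidueField R) q]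

/-- **(TG-SPAN)**, `FK` form, level `L = M q²` generic. -/
theorem h8tg_spanFK (hq : q.Prime) (hqM : ¬ q ∣ M) (B : GVBasis R (IsLocalRing.residue R) M)
    (L : ℕ) [NeZero L] (hL : L = M * q * q) (h1 : M * q ∣ L) (h2 : q * q ∣ L)
    (x : FK ↥K₁ L) :
    ∃ c : Fin q → FK ↥K₁ (M * q),
      x = ∑ k : Fin q, incl ↥K₁ (M * q) L h1 (c k) * J2 ↥K₁ L q h2 ^ (k : ℕ) := by
  obtain ⟨c, hc, hx⟩ := h8tg_span K₁ R M q hq hqM B hL (x : LaurentSeries ↥K₁)
    (gv_coe_mem_full L x)
  refine ⟨fun k => ⟨c k, gv_mem_base_of_full (M * q) (hc k)⟩, ?_⟩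
  apply Subtype.ext
  rw [hx, ← Fin.sum_univ_eq_sum_range (fun k => c k * qExpand ↥K₁ (q * q) (jqModC ↥K₁) ^ k) q,
    coe_sum]
  refine Finset.sum_congr rfl (fun k _ => ?_)
  rw [MulMemClass.coe_mul, SubmonoidClass.coe_pow, coe_incl, coe_J2]

end SpanFK

end H8TG

end
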