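import Mathlib
import Fermat.Agent.S36.ConstUnr_helper29
import Fermat.Agent.S36.LocE_helper14
import Fermat.Agent.S36.TGIncl_helper8

/-!
# Item 86 (S36), LOC, slice LOC-E over a number field  (helper5, twin of helper14)

`H5EL.locE_L`: `N ∣ M`, `N` rigid, `L ⊆ ℚ̄` a number field.  Every place `V` of `F_L(M) / L` at
which `j` is finite is unramified over `F_L(N)`: some `u ∈ F_L(N)` has `V.ord u = 1`.
This is hypothesis **(E)** of `H6LD.DiscChartStatement` for `F₀ = F_L(N) ⊆ F = F_L(M)`.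

Proof.  `W` a place of `F_{ℚ̄}(M)` over `V` of index one (`H29CU.exists_place_over`); `ū ∈ F_{ℚ̄}(N)`
with `ord_W ū = 1` (`H14LE.locE_bar`); `ū` is defined over a number field `K₂ ⊇ L`, normal over
`ℚ`.  Apply `H29CU.unif_of_invariants` to `O = W ∩ F_{K₂}(N)`, `G = Gal(K₂ / L)` and `u₀ ∈ F_L(N)`
of minimal positive order at `V`: then `u₀ ∣ ū` in `O`, so `ord_V u₀ ≤ 1`.
-/

set_option autoImplicit false
set_option synthInstance.maxHeartbeats 400000
set_option maxHeartbeats 1000000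
set_option linter.style.haveILetI false
set_option linter.style.longLine false
set_option linter.unusedSectionVars false
set_option linter.unusedVariables false

noncomputable section

open H11W3G ModularCurve AlgebraicCurve H7S18 H28GV H29R2M

namespace H5EL

local notation "Qb" => AlgebraicClosure ℚ

section Main

variable (N M : ℕ) [NeZero N] [NeZero M]

attribute [local instance] algFF towKF algFFalg algKL

/-- the inclusion `F_{ℚ̄}(N) ⊆ F_{ℚ̄}(M)` -/
def inclBar (h : N ∣ M) : modularFunctionFieldBar N →+* modularFunctionFieldBar M :=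
  (IntermediateField.inclusion (H12C11b.bar_le h)).toRingHom

theorem coe_inclBar (h : N ∣ M) (x : modularFunctionFieldBar N) :
    ((inclBar N M h x : modularFunctionFieldBar M) : LaurentSeries Qb) =
      (x : LaurentSeries Qb) :=
  IntermediateField.coe_inclusion (H12C11b.bar_le h) x

/-- base change commutes with the inclusions of levels -/
theorem inclBar_phi (h : N ∣ M) (L : IntermediateField ℚ Qb)
    (ι : FK L N →+* FK L M)
    (hι : ∀ x : FK L N, ((ι x : FK L M) : LaurentSeries L) = (x : LaurentSeries L))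
    (x : FK L N) : inclBar N M h (phi N L x) = phi M L (ι x) := by
  apply Subtype.ext
  rw [coe_inclBar, phi_coe, phi_coe, hι]

/-- **core**: the descent of a uniformizer from `F_{ℚ̄}(N)` to `F_L(N)`. -/
theorem locE_core (h : N ∣ M) (L : IntermediateField ℚ Qb) [FiniteDimensional ℚ L]
    (ι : FK L N →+* FK L M)
    (hι : ∀ x : FK L N, ((ι x : FK L M) : LaurentSeries L) = (x : LaurentSeries L))
    (V : Place L (FK L M)) (W : Place Qb (modularFunctionFieldBar M))
    (hW : ∀ x : FK L M, W.ord (phi M L x) = V.ord x)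
    (ub : modularFunctionFieldBar N) (hub : W.ord (inclBar N M h ub) = 1) :
    ∃ u : FK L N, V.ord (ι u) = 1 := by
  classical
  -- the order at `W` of the elements of `F_L(N)`
  have hWL : ∀ x : FK L N, W.ord (inclBar N M h (phi N L x)) = V.ord (ι x) := by
    intro x
    rw [inclBar_phi N M h L ι hι, hW]
  obtain ⟨K₂, hK₂fin, hK₂nor, hLK₂, -, hT⟩ :=
    H29DS.exists_level_finset N 1 one_pos L {ub}
  haveI := hK₂fin
  haveI := hK₂nor
  obtain ⟨π₂, hπ₂⟩ := hT ub (Finset.mem_singleton_self _)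
  let φ : FK K₂ N →+* modularFunctionFieldBar M := (inclBar N M h).comp (phi N K₂)
  have hφ : ∀ x, φ x = inclBar N M h (phi N K₂ x) := fun _ => rfl
  have hπ₂1 : W.ord (φ π₂) = 1 := by
    rw [hφ, hπ₂]
    exact hub
  have hφπ0 : φ π₂ ≠ 0 := by
    intro h0
    rw [h0, W.ord_zero] at hπ₂1
    exact zero_ne_one hπ₂1
  have hπ₂0 : π₂ ≠ 0 := fun h0 => hφπ0 (by rw [h0, map_zero])
  -- the group action
  have hone : ∀ x : FK K₂ N,
      H29DU.rhoHom (modularFunctionFieldFull N) (H29CU.fixL L K₂) 1 x = x := by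
    intro x
    apply Subtype.ext
    rw [H29DU.rhoHom_coe]
    exact coeffMap_id _
  have hC : ∀ σ : H29CU.fixL L K₂, ∀ c ∈ (algebraMap K₂ (FK K₂ N)).fieldRange,
      H29DU.rhoHom (modularFunctionFieldFull N) (H29CU.fixL L K₂) σ c ∈
        (algebraMap K₂ (FK K₂ N)).fieldRange := by
    rintro σ _ ⟨c, rfl⟩
    rw [H29DU.rhoHom_algebraMap]
    exact ⟨_, rfl⟩
  have hfaith : ∀ σ τ : H29CU.fixL L K₂, (∀ c ∈ (algebraMap K₂ (FK K₂ N)).fieldRange,
      H29DU.rhoHom (modularFunctionFieldFull N) (H29CU.fixL L K₂) σ c =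
        H29DU.rhoHom (modularFunctionFieldFull N) (H29CU.fixL L K₂) τ c) → σ = τ := by
    intro σ τ h
    apply Subtype.ext
    apply AlgEquiv.ext
    intro c
    have h1 := h _ ⟨c, rfl⟩
    rw [H29DU.rhoHom_algebraMap, H29DU.rhoHom_algebraMap] at h1
    exact (algebraMap K₂ (FK K₂ N)).injective h1
  have hCO : ∀ c ∈ (algebraMap K₂ (FK K₂ N)).fieldRange,
      c ∈ W.toValuationSubring.comap φ := by
    rintro _ ⟨c, rfl⟩
    rw [ValuationSubring.mem_comap]
    have e : φ (algebraMap K₂ (FK K₂ N) c) =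
        algebraMap Qb (modularFunctionFieldBar M) (algebraMap K₂ Qb c) := by
      rw [hφ]
      apply Subtype.ext
      rw [coe_inclBar, phi_coe]
      show coeffMap (algebraMap K₂ Qb) (algebraMap K₂ (LaurentSeries K₂) c) =
        algebraMap Qb (LaurentSeries Qb) (algebraMap K₂ Qb c)
      rw [algebraMap_laurentSeries_eq_single, algebraMap_laurentSeries_eq_single,
        coeffMap_single]
    rw [e]
    exact W.algebraMap_mem' _
  -- invariant elements come from `F_L(N)`
  have hdesc : ∀ y : FK K₂ N,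
      (∀ σ : H29CU.fixL L K₂,
        H29DU.rhoHom (modularFunctionFieldFull N) (H29CU.fixL L K₂) σ y = y) →
      ∃ y₁ : FK L N, phi N L y₁ = phi N K₂ y := by
    intro y hy
    have hcoef : ∀ j, ((phi N K₂ y : modularFunctionFieldBar N) :
        LaurentSeries Qb).coeff j ∈ L := by
      intro j
      rw [phi_coe, coeffMap_coeff]
      apply H29CU.mem_of_fixL L K₂
      intro γ hγ
      have h1 := congrArg (fun z : FK K₂ N => (z : LaurentSeries K₂).coeff j) (hy ⟨γ, hγ⟩)
      simp only [H29DU.rhoHom_coe, coeffMap_coeff] at h1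
      exact h1
    exact H29DU.exists_phi_eq N L (phi N K₂ y) hcoef
  -- every invariant non-unit has positive order at `V`
  have hpos : ∀ y : FK K₂ N, y ≠ 0 →
      (∀ σ : H29CU.fixL L K₂,
        H29DU.rhoHom (modularFunctionFieldFull N) (H29CU.fixL L K₂) σ y = y) →
      (W.toValuationSubring.comap φ).valuation y < 1 →
      ∃ y₁ : FK L N, 0 < V.ord (ι y₁) ∧ W.ord (φ y) = V.ord (ι y₁) := by
    intro y hy0 hy hlt
    obtain ⟨y₁, hy₁⟩ := hdesc y hy
    have hφy0 : φ y ≠ 0 := fun h0 => hy0 (φ.injective (by rw [h0, map_zero]))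
    have e : W.ord (φ y) = V.ord (ι y₁) := by
      rw [hφ, ← hy₁, hWL]
    rw [H29CU.val_lt_one_comap, H29CU.place_val_lt_one_iff W hφy0, e] at hlt
    exact ⟨y₁, hlt, e⟩
  -- the divisibility criterion
  have hcrit : ∀ (u : FK K₂ N) (n : ℤ), u ≠ 0 → W.ord (φ u) = n →
      (∀ y₁ : FK L N, 0 < V.ord (ι y₁) → n ≤ V.ord (ι y₁)) → n ≤ 1 := by
    intro u n hu0 hun hmin
    have hφu0 : φ u ≠ 0 := fun h0 => hu0 (φ.injective (by rw [h0, map_zero]))
    have hinv : ∀ y : FK K₂ N,
        (∀ σ : H29CU.fixL L K₂,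
          H29DU.rhoHom (modularFunctionFieldFull N) (H29CU.fixL L K₂) σ y = y) →
        (W.toValuationSubring.comap φ).valuation y < 1 →
        y * u⁻¹ ∈ W.toValuationSubring.comap φ := by
      intro y hy hlt
      rcases eq_or_ne y 0 with rfl | hy0
      · rw [zero_mul]
        exact zero_mem _
      obtain ⟨y₁, hy₁pos, hy₁⟩ := hpos y hy0 hy hlt
      have hφy0 : φ y ≠ 0 := fun h0 => hy0 (φ.injective (by rw [h0, map_zero]))
      rw [ValuationSubring.mem_comap, map_mul, map_inv₀,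
        RH24.h20_mem_iff_ord_nonneg W (mul_ne_zero hφy0 (inv_ne_zero hφu0)),
        W.ord_mul hφy0 (inv_ne_zero hφu0), W.ord_inv, hun, hy₁]
      have := hmin y₁ hy₁pos
      omega
    have key := H29CU.unif_of_invariants (G := ↥(H29CU.fixL L K₂))
      (fun γ => H29DU.rhoHom (modularFunctionFieldFull N) (H29CU.fixL L K₂) γ)
      hone (fun σ τ x => H29DU.rhoHom_mul (modularFunctionFieldFull N) (H29CU.fixL L K₂) σ τ x)
      ((algebraMap K₂ (FK K₂ N)).fieldRange) hC hfaith
      (W.toValuationSubring.comap φ) hCO π₂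
      (H29CU.isUnif_comap_place W φ π₂ hπ₂1) u hu0 hinv
    rw [ValuationSubring.mem_comap, map_mul, map_inv₀,
      RH24.h20_mem_iff_ord_nonneg W (mul_ne_zero hφπ0 (inv_ne_zero hφu0)),
      W.ord_mul hφπ0 (inv_ne_zero hφu0), W.ord_inv, hun, hπ₂1] at key
    omega
  by_cases hex : ∃ n : ℕ, ∃ y₁ : FK L N, 0 < V.ord (ι y₁) ∧ V.ord (ι y₁) = (n : ℤ)
  · -- a minimal positive order
    have hmin : ∀ m : ℕ, (∃ y₁ : FK L N, 0 < V.ord (ι y₁) ∧ V.ord (ι y₁) = (m : ℤ)) →
        Nat.find hex ≤ m := fun m hm => Nat.find_min' hex hm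
    obtain ⟨u₀, hu₀pos, hu₀⟩ := Nat.find_spec hex
    set n₀ := Nat.find hex with hn₀
    have hcoefu : ∀ j, ((phi N L u₀ : modularFunctionFieldBar N) :
        LaurentSeries Qb).coeff j ∈ K₂ := by
      intro j
      rw [phi_coe, coeffMap_coeff]
      exact hLK₂ (_ : L).2
    obtain ⟨u, hu⟩ := H29DU.exists_phi_eq N K₂ (phi N L u₀) hcoefu
    have hWu : W.ord (φ u) = (n₀ : ℤ) := by
      rw [hφ, hu, hWL, hu₀]
    have hu0 : u ≠ 0 := by
      intro h0
      rw [h0, map_zero, W.ord_zero] at hWu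
      omega
    have h1 : (n₀ : ℤ) ≤ 1 := by
      refine hcrit u n₀ hu0 hWu (fun y₁ hy₁ => ?_)
      have h2 : V.ord (ι y₁) = ((V.ord (ι y₁)).toNat : ℤ) := by
        rw [Int.toNat_of_nonneg hy₁.le]
      have h3 := hmin _ ⟨y₁, hy₁, h2⟩
      omega
    refine ⟨u₀, ?_⟩
    omega
  · -- no element of positive order: impossible
    exfalso
    have hu0 : π₂ * π₂ ≠ 0 := mul_ne_zero hπ₂0 hπ₂0
    have hWu : W.ord (φ (π₂ * π₂)) = 2 := by
      rw [map_mul, W.ord_mul hφπ0 hφπ0, hπ₂1]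
      rfl
    have h1 : (2 : ℤ) ≤ 1 := by
      refine hcrit (π₂ * π₂) 2 hu0 hWu (fun y₁ hy₁ => ?_)
      exfalso
      exact hex ⟨(V.ord (ι y₁)).toNat, y₁, hy₁, (Int.toNat_of_nonneg hy₁.le).symm⟩
    omega

/-- **LOC-E over a number field**, generic inclusion and generic `j`. -/
theorem locE_L' (h : N ∣ M) (hN : H14LE.Rigid N) (L : IntermediateField ℚ Qb)
    [FiniteDimensional ℚ L]
    (ι : FK L N →+* FK L M)
    (hι : ∀ x : FK L N, ((ι x : FK L M) : LaurentSeries L) = (x : LaurentSeries L))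
    (j : FK L M) (hj : (j : LaurentSeries L) = jqModC L)
    (V : Place L (FK L M)) (hV : 0 ≤ V.ord j) :
    ∃ u : FK L N, V.ord (ι u) = 1 := by
  obtain ⟨W, hW⟩ := H29CU.exists_place_over M L V
  have hJ : phi M L j = RH24.Jbar M := by
    apply Subtype.ext
    rw [phi_coe, hj, RH24.coe_Jbar]
    exact (map_jqModC (algebraMap L Qb)).trans (map_jqModC (algebraMap ℚ Qb)).symm
  have hWJ : 0 ≤ W.ord (RH24.Jbar M) := by
    rw [← hJ, hW]
    exact hV
  obtain ⟨ub, hub⟩ := H14LE.locE_bar h hN W hWJ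
  exact locE_core N M h L ι hι V W hW ub hub

/-- **LOC-E over a number field** for `H8TG.incl` and `H8TG.J0`: hypothesis (E) of
`H6LD.DiscChartStatement` with `j₀ = J0 L N`. -/
theorem locE_L (h : N ∣ M) (hN : H14LE.Rigid N) (L : IntermediateField ℚ Qb)
    [FiniteDimensional ℚ L] (V : Place L (FK L M))
    (hV : 0 ≤ V.ord (H8TG.incl L N M h (H8TG.J0 L N))) :
    ∃ u : FK L N, V.ord (H8TG.incl L N M h u) = 1 :=
  locE_L' N M h hN L (H8TG.incl L N M h) (fun x => H8TG.coe_incl L N M h x)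
    (H8TG.incl L N M h (H8TG.J0 L N)) (by rw [H8TG.coe_incl, H8TG.coe_J0]) V hV

/-- the same for an arbitrary algebra structure which is the inclusion on series. -/
theorem locE_L_alg (h : N ∣ M) (hN : H14LE.Rigid N) (L : IntermediateField ℚ Qb)
    [FiniteDimensional ℚ L] [Algebra (FK L N) (FK L M)]
    (hc : ∀ x : FK L N, ((algebraMap (FK L N) (FK L M) x : FK L M) : LaurentSeries L) =
      (x : LaurentSeries L))
    (j₀ : FK L N) (hj₀ : (j₀ : LaurentSeries L) = jqModC L)
    (V : Place L (FK L M)) (hV : 0 ≤ V.ord (algebraMap (FK L N) (FK L M) j₀)) :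
    ∃ u : FK L N, V.ord (algebraMap (FK L N) (FK L M) u) = 1 :=
  locE_L' N M h hN L (algebraMap (FK L N) (FK L M)) hc
    (algebraMap (FK L N) (FK L M) j₀) (by rw [hc, hj₀]) V hV

/-- **(E)** for `F₀ = F_L(M) ⊆ F = F_L(M ℓ)` with the algebra structure
`algebraAlong (heckeAlphaBar L M ℓ)` (`M` rigid). -/
theorem locE_alpha (ℓ : ℕ) [NeZero ℓ] (hN : H14LE.Rigid N) (L : IntermediateField ℚ Qb)
    [FiniteDimensional ℚ L] (j₀ : FK L N) (hj₀ : (j₀ : LaurentSeries L) = jqModC L) :
    letI := algebraAlong (heckeAlphaBar L N ℓ)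
    ∀ V : Place L (FK L (N * ℓ)), 0 ≤ V.ord (algebraMap (FK L N) (FK L (N * ℓ)) j₀) →
      ∃ u : FK L N, V.ord (algebraMap (FK L N) (FK L (N * ℓ)) u) = 1 := by
  letI := algebraAlong (heckeAlphaBar L N ℓ)
  intro V hV
  exact locE_L_alg N (N * ℓ) (dvd_mul_right N ℓ) hN L
    (fun x => coe_heckeAlphaBar (L := L) N ℓ x) j₀ hj₀ V hV

end Main

end H5EL

end
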