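/-
helper22: item 86 (S36), LOC (DISC line), leaf **(G0-N')**, main theorem.

`H22G0.regular_level`: every closed point `𝔫` of the chart `t` of the level `M` (`q ∤ M`, tame
level) over `R = descVal A K₁`, `K₁ ∋ ζ_{e₀}` any number field, is regular:
  `∃ x₀ ∈ 𝔫`,  `𝔫 = (ϖ, x₀)` locally,  `(ϖ)` prime locally,  `x₀ / ϖ ∉ B_𝔫`
(= hypothesis (G0) of `H6LD.DiscChartStatement`; the first two clauses are `H4S34.RegAt`).
-/
import Mathlib
import Fermat.Agent.S36.G0_helper22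

set_option autoImplicit false
set_option synthInstance.maxHeartbeats 400000
set_option maxHeartbeats 4000000
set_option linter.unusedSectionVars false
set_option linter.unusedVariables false
set_option linter.style.haveILetI false
set_option linter.style.longLine false

noncomputable section

open Polynomial IntermediateField ModularCurve H7S18 H4S34 H26DI H28GV

namespace H22G0

section Generic

variable (R : Type) [CommRing R] {E : Type} [Field E] [Algebra R E]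

/-- regularity from a uniformizer of `M₀ / P₁` and `P₁ = ϖ M₀` (generic). -/
theorem regular_of_unif (ϖ : R) (hϖ0 : algebraMap R E ϖ ≠ 0) (t : E)
    (𝔫 P₁ : Ideal (Chart R t)) (h𝔫 : 𝔫.IsMaximal) (hP₁ : P₁.IsPrime) (hle : P₁ ≤ 𝔫)
    (ϖc : Chart R t) (hϖc : (ϖc : E) = algebraMap R E ϖ) (hϖP : ϖc ∈ P₁)
    (hspan : ∀ y : Chart R t, y ∈ P₁ → ∃ z : Chart R t, (y : E) = algebraMap R E ϖ * (z : E))
    (x : Chart R t) (hx : UnifAt P₁ 𝔫 x) :
    x ∈ 𝔫 ∧
      (∀ y ∈ 𝔫, ∃ s a b : Chart R t, s ∉ 𝔫 ∧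
        (s : E) * y = a * algebraMap R E ϖ + b * x) ∧
      (∀ a b : Chart R t,
        InLoc R t 𝔫 ((a : E) * b * (algebraMap R E ϖ)⁻¹) →
        InLoc R t 𝔫 ((a : E) * (algebraMap R E ϖ)⁻¹) ∨
          InLoc R t 𝔫 ((b : E) * (algebraMap R E ϖ)⁻¹)) ∧
      ¬ InLoc R t 𝔫 ((x : E) * (algebraMap R E ϖ)⁻¹) := by
  obtain ⟨hx𝔫, hxP, hxgen⟩ := hx
  have h1𝔫 : (1 : Chart R t) ∉ 𝔫 := fun h1 => h𝔫.ne_top ((Ideal.eq_top_iff_one _).mpr h1)
  have key : ∀ d : Chart R t, d ∈ P₁ → InLoc R t 𝔫 ((d : E) * (algebraMap R E ϖ)⁻¹) := by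
    intro d hd
    obtain ⟨z, hz⟩ := hspan d hd
    refine ⟨z, 1, h1𝔫, ?_⟩
    rw [hz, OneMemClass.coe_one, one_mul, mul_comm (algebraMap R E ϖ), mul_assoc,
      mul_inv_cancel₀ hϖ0, mul_one]
  have hmul : ∀ (s d a' : Chart R t),
      (s : E) * ((d : E) * (algebraMap R E ϖ)⁻¹) = (a' : E) → s * d ∈ P₁ := by
    intro s d a' h
    have e : ((s * d : Chart R t) : E) = ((ϖc * a' : Chart R t) : E) := by
      show (s : E) * d = (ϖc : E) * a'
      rw [hϖc, ← h]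
      field_simp
    have e2 : s * d = ϖc * a' := Subtype.ext e
    rw [e2]
    exact P₁.mul_mem_right _ hϖP
  refine ⟨hx𝔫, ?_, ?_, ?_⟩
  · intro y hy
    obtain ⟨u, hu, c, hc⟩ := hxgen y hy
    obtain ⟨z, hz⟩ := hspan _ hc
    refine ⟨u, z, c, hu, ?_⟩
    have h1 : ((u * y - c * x : Chart R t) : E) = (u : E) * y - c * x := rfl
    rw [h1] at hz
    linear_combination hz
  · intro a b hab
    obtain ⟨a', s, hs, hsab⟩ := hab
    have hmemP : s * (a * b) ∈ P₁ := by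
      refine hmul s (a * b) a' ?_
      rw [← hsab]
      rfl
    have hsP : s ∉ P₁ := fun h => hs (hle h)
    rcases hP₁.mem_or_mem hmemP with h | h
    · exact absurd h hsP
    · rcases hP₁.mem_or_mem h with h' | h'
      · exact Or.inl (key a h')
      · exact Or.inr (key b h')
  · rintro ⟨a', s, hs, hsx⟩
    have hmemP : s * x ∈ P₁ := hmul s x a' hsx
    rcases hP₁.mem_or_mem hmemP with h | h
    · exact hs (hle h)
    · exact hxP h

end Generic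

section GenericPA

variable {K : Type} [Field K] [CharZero K] (R : ValuationSubring K)
  (E : IntermediateField K (LaurentSeries K))
  [Algebra ↥R ↥E] [IsScalarTower ↥R K ↥E]
  (c : ↥E)

/-- generic transport of the hypothesis `hPA` of `H9UF.unif_gen` (avoids unfolding the concrete
`algebraMap (adjoin) (Chart)`). -/
theorem hPA_gen (ϖ : ↥R) (P₁ : Ideal (Chart ↥R c))
    (hP₁ : ∀ y : Chart ↥R c, y ∈ P₁ ↔ H8PB.InGm R (((y : ↥E)) : LaurentSeries K))
    (h : ∀ s : Algebra.adjoin ↥R {c}, H8PB.InGm R (((s : ↥E)) : LaurentSeries K) →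
      algebraMap ↥R (Algebra.adjoin ↥R {c}) ϖ ∣ s) :
    ∀ s : Algebra.adjoin ↥R {c},
      algebraMap (Algebra.adjoin ↥R {c}) (Chart ↥R c) s ∈ P₁ →
      algebraMap ↥R (Algebra.adjoin ↥R {c}) ϖ ∣ s :=
  fun s hs => h s ((hP₁ _).mp hs)

end GenericPA

section Concrete

variable (M : ℕ) [NeZero M] (q : ℕ) [NeZero q] (hq : q.Prime) (hqM : ¬ q ∣ M) (hT : TameLevel q M)
  (A : ValuationSubring (AlgebraicClosure ℚ)) (hA : A.LiesOverPrime q)
  (K₁ : IntermediateField ℚ (AlgebraicClosure ℚ)) (hfin : FiniteDimensional ℚ K₁)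
  (hζ : ∃ ζ : K₁, IsPrimitiveRoot ζ (branchIndex (baseKind q) M))
  [Algebra ↥(descVal A K₁) (FK K₁ M)]
  [IsScalarTower ↥(descVal A K₁) K₁ (FK K₁ M)]
  (ϖ : ↥(descVal A K₁)) (hϖ : Irreducible ϖ)
  (t₀ : LaurentSeries ℚ) (ht₀ : IsBase (baseKind q) t₀)
  (t : FK K₁ M) (ht : (t : LaurentSeries K₁) = coeffEmb K₁ t₀)

include hq hqM hT hA hfin hζ hϖ ht₀ ht in
/-- a uniformizer of `M₀ / P₁` at every closed point, level `M`. -/
theorem unif_level (P₁ : Ideal (Chart ↥(descVal A K₁) t))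
    (hP₁ : ∀ y : Chart ↥(descVal A K₁) t,
      y ∈ P₁ ↔ H8PB.InGm (descVal A K₁) (((y : FK K₁ M)) : LaurentSeries K₁))
    (𝔫 : Ideal (Chart ↥(descVal A K₁) t)) (h𝔫 : 𝔫.IsMaximal) (hle : P₁ ≤ 𝔫) :
    ∃ x, UnifAt P₁ 𝔫 x := by
  haveI : Fact q.Prime := ⟨hq⟩
  obtain ⟨hdvr, -, -⟩ := H4DVR.dvrStatement q A hA K₁ hfin
  haveI := hdvr
  obtain ⟨hcK, hcfin⟩ := base_basics M q hT K₁ t₀ ht₀ t ht
  have hmem : ∀ y : Chart ↥(descVal A K₁) t, H8PB.InG (descVal A K₁)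
      (((RingHom.id (FK K₁ M)) (y : FK K₁ M) : FK K₁ M) : LaurentSeries K₁) :=
    fun y => chart_inG M q hq hqM hT A hA K₁ hfin ϖ hϖ t₀ ht₀ t ht y
  have hRD : ∀ y : Chart ↥(descVal A K₁) t, ∃ z : LaurentSeries K₁,
      z ∈ laurentBaseChange K₁ (modularFunctionFieldFull M) ∧ H8PB.InG (descVal A K₁) z ∧
      H8PB.InGm (descVal A K₁) ((((y : FK K₁ M)) : LaurentSeries K₁) - z) := by
    intro y
    refine ⟨((y : FK K₁ M) : LaurentSeries K₁), (y : FK K₁ M).2, hmem y, ?_⟩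
    rw [sub_self]
    exact (H22DC.inGm_iff (descVal A K₁) _).mpr
      ⟨(gvO (descVal A K₁) (H22DC.resR (descVal A K₁))).zero_mem, map_zero _⟩
  have hLN : ∀ (y : FK K₁ M) (n : ℕ) (cf : ℕ → FK K₁ M),
      (∀ i, cf i ∈ Algebra.adjoin ↥(descVal A K₁)
        {(⟨(t : LaurentSeries K₁), t.2⟩ : FK K₁ M)}) →
      H8PB.InG (descVal A K₁) (y : LaurentSeries K₁) →
      H8PB.InGm (descVal A K₁)
        (((y ^ n + ∑ i ∈ Finset.range n, cf i * y ^ i : FK K₁ M)) : LaurentSeries K₁) →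
      ∃ d : FK K₁ M, IsInt ↥(descVal A K₁) (⟨(t : LaurentSeries K₁), t.2⟩ : FK K₁ M) d ∧
        H8PB.InGm (descVal A K₁) (((y - d : FK K₁ M)) : LaurentSeries K₁) :=
    fun y n cf hcf hy hrel =>
      level_normal M q hq hqM hT A hA K₁ hfin hζ ϖ hϖ t₀ ht₀ t ht y n cf hcf hy hrel
  have hCI : ∀ s : Algebra.adjoin ↥(descVal A K₁) {t},
      H8PB.InGm (descVal A K₁) (((s : FK K₁ M)) : LaurentSeries K₁) →
      algebraMap ↥(descVal A K₁) (Algebra.adjoin ↥(descVal A K₁) {t}) ϖ ∣ s :=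
    fun s hs => comp_inter M q hq hqM hT A hA K₁ hfin ϖ hϖ t₀ ht₀ t ht s hs
  exact H9UF.unif_gen (descVal A K₁) (laurentBaseChange K₁ (modularFunctionFieldFull M))
    (laurentBaseChange K₁ (modularFunctionFieldFull M)) le_rfl t t.2 hmem hRD hLN
    hcK hcfin ϖ hϖ P₁ hP₁
    (hPA_gen (descVal A K₁) (laurentBaseChange K₁ (modularFunctionFieldFull M)) t ϖ P₁ hP₁ hCI)
    𝔫 h𝔫 hle

end Concrete

end H22G0

end
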