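/-
helper16: item 86 (S36), LOC, leaf (G0-Nq): INTERFACE.

Level `M q` (`q ∤ M`, `TameLevel q M`), base ANY number field `K₁ ⊆ ℚ̄` containing `ζ_{e₀}`
(`e₀ = branchIndex (baseKind q) M`; NO normality, NO lower bound `K₀ ≤ K₁`; in the application
`K₁ = L` is unramified at `q`), `R = descVal A K₁`, chart `c = t` or `c = t⁻¹`, `𝔫` ANY closed
point of the chart `c` (ordinary, supersingular or cuspidal).

* `H16G0.RegData R ϖ c 𝔫 x₀` : the group **(G0)** of hypotheses of `H6LD.DiscChartStatement`: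
  `x₀ ∈ 𝔫`, `𝔫 B_𝔫 = (ϖ, x₀)`, `(ϖ)` prime in `B_𝔫`, `x₀ / ϖ ∉ B_𝔫`
  (`RegData.regAt` : it implies `H4S34.RegAt`);
* `H16G0.G0NqStatement`  : at a closed point which does NOT lie on the second component `C₂'`
  (some `g ∉ 𝔫` with `InGm (w g)`): `RegData` with `x₀ ∉ P₁`, and the first component is
  locally principal, generated by `ϖ` (`P₁ B_𝔫 = ϖ B_𝔫`: "single branch");
* `H16G0.G0Nq2Statement` : the same at the closed points which do not lie on the first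
  component `C₁'` (at the points of the chart `t⁻¹`: over `t = ∞` only, as in S34).
Proofs: `S36/G0Nq_helper16.lean` (`H16G0.g0Nq`, `H16G0.g0Nq2`).
-/
import Mathlib
import Fermat.Agent.S34.DichDefs_helper26

set_option autoImplicit false
set_option synthInstance.maxHeartbeats 400000
set_option linter.unusedVariables false

noncomputable section

open ModularCurve H7S18 H4S34 H26DI

namespace H16G0

/-- the group **(G0)** of hypotheses of `H6LD.DiscChartStatement` at the closed point `𝔫`, with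
second generator `x₀`. -/
def RegData (R : Type) [CommRing R] {E : Type} [Field E] [Algebra R E] (ϖ : R) (t : E)
    (𝔫 : Ideal (Chart R t)) (x₀ : Chart R t) : Prop :=
  x₀ ∈ 𝔫 ∧
  (∀ y ∈ 𝔫, ∃ s a b : Chart R t, s ∉ 𝔫 ∧
      (s : E) * y = a * algebraMap R E ϖ + b * x₀) ∧
  (∀ a b : Chart R t, InLoc R t 𝔫 ((a : E) * b * (algebraMap R E ϖ)⁻¹) →
      InLoc R t 𝔫 ((a : E) * (algebraMap R E ϖ)⁻¹) ∨
        InLoc R t 𝔫 ((b : E) * (algebraMap R E ϖ)⁻¹)) ∧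
  ¬ InLoc R t 𝔫 ((x₀ : E) * (algebraMap R E ϖ)⁻¹)

theorem RegData.regAt {R : Type} [CommRing R] {E : Type} [Field E] [Algebra R E] {ϖ : R}
    {t : E} {𝔫 : Ideal (Chart R t)} {x₀ : Chart R t} (h : RegData R ϖ t 𝔫 x₀) :
    RegAt R ϖ t 𝔫 :=
  ⟨⟨x₀, h.1, h.2.1⟩, h.2.2.1⟩

/-- **(G0-Nq)**, first component: at a closed point of the chart `c ∈ {t, t⁻¹}` of level `M q`
which does not lie on `C₂'`, the local ring is regular with `(ϖ)` prime (`RegData`), and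
`P₁ B_𝔫 = ϖ B_𝔫`. -/
def G0NqStatement : Prop :=
  ∀ (M : ℕ) [NeZero M] (q : ℕ) [NeZero q] (hq : q.Prime) (hqM : ¬ q ∣ M) (_ : TameLevel q M)
    (A : ValuationSubring (AlgebraicClosure ℚ)) (_ : A.LiesOverPrime q)
    (K₁ : IntermediateField ℚ (AlgebraicClosure ℚ)) (_ : FiniteDimensional ℚ K₁)
    (_ : ∃ ζ : K₁, IsPrimitiveRoot ζ (branchIndex (baseKind q) M))
    [Algebra ↥(descVal A K₁) (FK K₁ (M * q))]
    [IsScalarTower ↥(descVal A K₁) K₁ (FK K₁ (M * q))]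
    (ϖ : ↥(descVal A K₁)) (_ : Irreducible ϖ)
    (t₀ : LaurentSeries ℚ) (_ : IsBase (baseKind q) t₀)
    (t : FK K₁ (M * q)) (_ : (t : LaurentSeries K₁) = coeffEmb K₁ t₀)
    (c : FK K₁ (M * q)) (_ : c = t ∨ c = t⁻¹)
    (𝔫 : Ideal (Chart ↥(descVal A K₁) c)) (_ : IsClosedPt ↥(descVal A K₁) ϖ c 𝔫)
    (g : Chart ↥(descVal A K₁) c) (_ : g ∉ 𝔫)
    (_ : H8PB.InGm (descVal A K₁)
      ((H12AL.wqKHom K₁ M q hq hqM (g : FK K₁ (M * q)) : FK K₁ (M * q)) : LaurentSeries K₁)),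
    ∃ x₀ : Chart ↥(descVal A K₁) c, RegData ↥(descVal A K₁) ϖ c 𝔫 x₀ ∧
      ¬ H8PB.InGm (descVal A K₁) (((x₀ : FK K₁ (M * q))) : LaurentSeries K₁) ∧
      ∀ y : Chart ↥(descVal A K₁) c,
        H8PB.InGm (descVal A K₁) (((y : FK K₁ (M * q))) : LaurentSeries K₁) →
        InLoc ↥(descVal A K₁) c 𝔫
          ((y : FK K₁ (M * q)) * (algebraMap ↥(descVal A K₁) (FK K₁ (M * q)) ϖ)⁻¹)

/-- **(G0-Nq)**, second component: the same at the closed points which do not lie on `C₁'`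
(chart `t`: all of them; chart `t⁻¹`: those over `t = ∞`). -/
def G0Nq2Statement : Prop :=
  ∀ (M : ℕ) [NeZero M] (q : ℕ) [NeZero q] (hq : q.Prime) (hqM : ¬ q ∣ M) (_ : TameLevel q M)
    (A : ValuationSubring (AlgebraicClosure ℚ)) (_ : A.LiesOverPrime q)
    (K₁ : IntermediateField ℚ (AlgebraicClosure ℚ)) (_ : FiniteDimensional ℚ K₁)
    (_ : ∃ ζ : K₁, IsPrimitiveRoot ζ (branchIndex (baseKind q) M))
    [Algebra ↥(descVal A K₁) (FK K₁ (M * q))]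
    [IsScalarTower ↥(descVal A K₁) K₁ (FK K₁ (M * q))]
    (ϖ : ↥(descVal A K₁)) (_ : Irreducible ϖ)
    (t₀ : LaurentSeries ℚ) (_ : IsBase (baseKind q) t₀)
    (t : FK K₁ (M * q)) (_ : (t : LaurentSeries K₁) = coeffEmb K₁ t₀)
    (c : FK K₁ (M * q))
    (𝔫 : Ideal (Chart ↥(descVal A K₁) c)) (_ : IsClosedPt ↥(descVal A K₁) ϖ c 𝔫)
    (_ : IsDichPt t c 𝔫)
    (g : Chart ↥(descVal A K₁) c) (_ : g ∉ 𝔫)
    (_ : H8PB.InGm (descVal A K₁) (((g : FK K₁ (M * q))) : LaurentSeries K₁)),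
    ∃ x₀ : Chart ↥(descVal A K₁) c, RegData ↥(descVal A K₁) ϖ c 𝔫 x₀ ∧
      ¬ H8PB.InGm (descVal A K₁)
        ((H12AL.wqKHom K₁ M q hq hqM (x₀ : FK K₁ (M * q)) : FK K₁ (M * q)) : LaurentSeries K₁) ∧
      ∀ y : Chart ↥(descVal A K₁) c,
        H8PB.InGm (descVal A K₁)
          ((H12AL.wqKHom K₁ M q hq hqM (y : FK K₁ (M * q)) : FK K₁ (M * q)) :
            LaurentSeries K₁) →
        InLoc ↥(descVal A K₁) c 𝔫
          ((y : FK K₁ (M * q)) * (algebraMap ↥(descVal A K₁) (FK K₁ (M * q)) ϖ)⁻¹)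

end H16G0

end
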