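/-
helper22: item 86 (S36), LOC (DISC line), leaf **(G0-N')**, final form.

`H22G0.regular_level`: every closed point `𝔫` of the chart `t` of the level `M` (`q ∤ M`, tame
level) over `R = descVal A K₁`, for ANY number field `K₁ ⊆ ℚ̄` containing a primitive `e₀`-th
root of unity (`e₀ = branchIndex (baseKind q) M`, prime to `q`; no normality of `K₁ / ℚ`, no
condition on the ramification of `K₁` at `A`), is regular:
  `∃ x₀ ∈ 𝔫`,  `𝔫 = (ϖ, x₀)` locally,  `(ϖ)` prime locally,  `x₀ / ϖ ∉ B_𝔫`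
(= hypothesis (G0) of `H6LD.DiscChartStatement`).  `H22G0.regAt_level` is the `H4S34.RegAt` form.
-/
import Mathlib
import Fermat.Agent.S36.G0Main_helper22
import Fermat.Agent.S36.G0NqDefs_helper16

set_option autoImplicit false
set_option synthInstance.maxHeartbeats 400000
set_option maxHeartbeats 4000000
set_option linter.unusedSectionVars false
set_option linter.unusedVariables false
set_option linter.style.haveILetI false
set_option linter.style.longLine false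

noncomputable section

open Polynomial IntermediateField ModularCurve H7S18 H4S34 H26DI H28GV

namespace H22G0

section Concrete

variable (M : ℕ) [NeZero M] (q : ℕ) [NeZero q] (hq : q.Prime) (hqM : ¬ q ∣ M) (hT : TameLevel q M)
  (A : ValuationSubring (AlgebraicClosure ℚ)) (hA : A.LiesOverPrime q)
  (K₁ : IntermediateField ℚ (AlgebraicClosure ℚ)) (hfin : FiniteDimensional ℚ K₁)
  (hζ : ∃ ζ : K₁, IsPrimitiveRoot ζ (branchIndex (baseKind q) M))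
  [Algebra ↥(descVal A K₁) (FK K₁ M)]
  [IsScalarTower ↥(descVal A K₁) K₁ (FK K₁ M)]
  (ϖ : ↥(descVal A K₁)) (hϖ : Irreducible ϖ)
  (t₀ : LaurentSeries ℚ) (ht₀ : IsBase (baseKind q) t₀)
  (t : FK K₁ M) (ht : (t : LaurentSeries K₁) = coeffEmb K₁ t₀)

include hq hqM hT hA hfin hζ hϖ ht₀ ht in
/-- **(G0-N')**: every closed point of the chart `t` of the level `M` is regular. -/
theorem regular_level (𝔫 : Ideal (Chart ↥(descVal A K₁) t))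
    (h𝔫 : IsClosedPt ↥(descVal A K₁) ϖ t 𝔫) :
    ∃ x₀ : Chart ↥(descVal A K₁) t, x₀ ∈ 𝔫 ∧
      (∀ y ∈ 𝔫, ∃ s a b : Chart ↥(descVal A K₁) t, s ∉ 𝔫 ∧
        (s : FK K₁ M) * y = a * algebraMap ↥(descVal A K₁) (FK K₁ M) ϖ + b * x₀) ∧
      (∀ a b : Chart ↥(descVal A K₁) t,
        InLoc ↥(descVal A K₁) t 𝔫
          ((a : FK K₁ M) * b * (algebraMap ↥(descVal A K₁) (FK K₁ M) ϖ)⁻¹) →
        InLoc ↥(descVal A K₁) t 𝔫 ((a : FK K₁ M) * (algebraMap ↥(descVal A K₁) (FK K₁ M) ϖ)⁻¹) ∨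
          InLoc ↥(descVal A K₁) t 𝔫
            ((b : FK K₁ M) * (algebraMap ↥(descVal A K₁) (FK K₁ M) ϖ)⁻¹)) ∧
      ¬ InLoc ↥(descVal A K₁) t 𝔫
        ((x₀ : FK K₁ M) * (algebraMap ↥(descVal A K₁) (FK K₁ M) ϖ)⁻¹) := by
  haveI : Fact q.Prime := ⟨hq⟩
  obtain ⟨hdvr, -, -⟩ := H4DVR.dvrStatement q A hA K₁ hfin
  haveI := hdvr
  have hϖ0 : algebraMap ↥(descVal A K₁) (FK K₁ M) ϖ ≠ 0 := by
    intro h0
    rw [IsScalarTower.algebraMap_apply ↥(descVal A K₁) K₁ (FK K₁ M)] at h0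
    have h2 : algebraMap ↥(descVal A K₁) K₁ ϖ = 0 :=
      (algebraMap K₁ (FK K₁ M)).injective (by rw [h0, map_zero])
    have h3 : ϖ = 0 := Subtype.ext (by simpa using h2)
    exact hϖ.ne_zero h3
  have hmem : ∀ y : Chart ↥(descVal A K₁) t, H8PB.InG (descVal A K₁)
      (((RingHom.id (FK K₁ M)) (y : FK K₁ M) : FK K₁ M) : LaurentSeries K₁) :=
    fun y => chart_inG M q hq hqM hT A hA K₁ hfin ϖ hϖ t₀ ht₀ t ht y
  obtain ⟨P₁, hP₁prime, hP₁⟩ : ∃ P₁ : Ideal (Chart ↥(descVal A K₁) t), P₁.IsPrime ∧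
      ∀ y : Chart ↥(descVal A K₁) t,
        y ∈ P₁ ↔ H8PB.InGm (descVal A K₁) (((y : FK K₁ M)) : LaurentSeries K₁) := by
    refine ⟨H22DC.compIdeal (descVal A K₁) t (RingHom.id _) hmem,
      H22DC.compIdeal_isPrime (descVal A K₁) t _ hmem, ?_⟩
    intro y
    rw [H22DC.mem_compIdeal]
    rfl
  have hspan : ∀ y : Chart ↥(descVal A K₁) t, y ∈ P₁ → ∃ z : Chart ↥(descVal A K₁) t,
      (y : FK K₁ M) = algebraMap ↥(descVal A K₁) (FK K₁ M) ϖ * (z : FK K₁ M) :=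
    fun y hy => comp_le_span M q hq hqM hT A hA K₁ hfin ϖ hϖ t₀ ht₀ t ht y ((hP₁ y).mp hy)
  -- `ϖ` as an element of the chart
  obtain ⟨ϖc, hϖc⟩ : ∃ ϖc : Chart ↥(descVal A K₁) t,
      (ϖc : FK K₁ M) = algebraMap ↥(descVal A K₁) (FK K₁ M) ϖ := by
    refine ⟨⟨algebraMap ↥(descVal A K₁) (FK K₁ M) ϖ, ?_⟩, rfl⟩
    have h1 : algebraMap ↥(descVal A K₁) (FK K₁ M) ϖ =
        algebraMap (Algebra.adjoin ↥(descVal A K₁) {t}) (FK K₁ M)
          (algebraMap ↥(descVal A K₁) (Algebra.adjoin ↥(descVal A K₁) {t}) ϖ) := rfl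
    rw [h1]
    exact isIntegral_algebraMap
  have hϖP : ϖc ∈ P₁ := by
    rw [hP₁, hϖc]
    exact H22DC.inGm_algebraMap (descVal A K₁) hϖ.not_isUnit
  have hϖ𝔫 : ϖc ∈ 𝔫 := h𝔫.2 ϖc hϖc
  have hle : P₁ ≤ 𝔫 := by
    intro y hy
    obtain ⟨z, hz⟩ := hspan y hy
    have e : y = ϖc * z := Subtype.ext (by
      show (y : FK K₁ M) = (ϖc : FK K₁ M) * z
      rw [hz, hϖc])
    rw [e]
    exact 𝔫.mul_mem_right _ hϖ𝔫
  obtain ⟨x, hx⟩ := unif_level M q hq hqM hT A hA K₁ hfin hζ ϖ hϖ t₀ ht₀ t ht P₁ hP₁ 𝔫 h𝔫.1 hle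
  obtain ⟨h1, h2, h3, h4⟩ := regular_of_unif ↥(descVal A K₁) ϖ hϖ0 t 𝔫 P₁ h𝔫.1 hP₁prime hle
    ϖc hϖc hϖP hspan x hx
  exact ⟨x, h1, h2, h3, h4⟩

include hq hqM hT hA hfin hζ hϖ ht₀ ht in
/-- **(G0-N')**, `H16G0.RegData` form (= the group (G0) of `H6LD.DiscChartStatement`). -/
theorem regData_level (𝔫 : Ideal (Chart ↥(descVal A K₁) t))
    (h𝔫 : IsClosedPt ↥(descVal A K₁) ϖ t 𝔫) :
    ∃ x₀ : Chart ↥(descVal A K₁) t, H16G0.RegData ↥(descVal A K₁) ϖ t 𝔫 x₀ :=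
  regular_level M q hq hqM hT A hA K₁ hfin hζ ϖ hϖ t₀ ht₀ t ht 𝔫 h𝔫

include hq hqM hT hA hfin hζ hϖ ht₀ ht in
/-- **(G0-N')**, `H4S34.RegAt` form. -/
theorem regAt_level (𝔫 : Ideal (Chart ↥(descVal A K₁) t))
    (h𝔫 : IsClosedPt ↥(descVal A K₁) ϖ t 𝔫) : RegAt ↥(descVal A K₁) ϖ t 𝔫 := by
  obtain ⟨x, h1, h2, h3, -⟩ :=
    regular_level M q hq hqM hT A hA K₁ hfin hζ ϖ hϖ t₀ ht₀ t ht 𝔫 h𝔫
  exact ⟨⟨x, h1, h2⟩, h3⟩

end Concrete

end H22G0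

end
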