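/-
helper22: item 86 (S36), LOC (DISC line), leaf **(G0-M-VAL)**: the level-`M` regularity
`H22G0.regData_level` in the VALUATION language, `V' := H10FC.gaussVal R M` (`R = descVal A K₁`).

`H22G0.g0M_val`: at every closed point `𝔫` of the chart `t` of the level `M`
(`q ∤ M`, tame level, `K₁ ∋ ζ_{e₀}` ANY number field), there is `x₀` with
* `H16G0.RegData R ϖ t 𝔫 x₀`  (hence `H4S34.RegAt R ϖ t 𝔫`),
* `¬ V'.valuation x₀ < 1`  (so `hhor`),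
* `V'.valuation y < 1 → y / ϖ ∈ B_𝔫`  (`P₁ B_𝔫 = ϖ B_𝔫`),
* `hV'A : ∀ y : Chart, y ∈ V'`, `hV'𝔫 : V'.valuation y < 1 → y ∈ 𝔫`, `hV'ϖ : V'.valuation ϖ < 1`
(= the inputs `hreg V' hV'A hV'𝔫 hV'ϖ hhor` of `H20R3.two_gen_of_disc'` for (R1)).
`H22G0.g0M_disc` is the exact tuple of these inputs.
-/
import Mathlib
import Fermat.Agent.S36.G0Final_helper22
import Fermat.Agent.S35.FWComp_helper10

set_option autoImplicit false
set_option synthInstance.maxHeartbeats 400000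
set_option maxHeartbeats 4000000
set_option linter.unusedSectionVars false
set_option linter.unusedVariables false
set_option linter.style.haveILetI false
set_option linter.style.longLine false

noncomputable section

open Polynomial IntermediateField ModularCurve H7S18 H4S34 H26DI H28GV

namespace H22G0

section Concrete

variable (M : ℕ) [NeZero M] (q : ℕ) [NeZero q] (hq : q.Prime) (hqM : ¬ q ∣ M) (hT : TameLevel q M)
  (A : ValuationSubring (AlgebraicClosure ℚ)) (hA : A.LiesOverPrime q)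
  (K₁ : IntermediateField ℚ (AlgebraicClosure ℚ)) (hfin : FiniteDimensional ℚ K₁)
  (hζ : ∃ ζ : K₁, IsPrimitiveRoot ζ (branchIndex (baseKind q) M))
  [IsDiscreteValuationRing ↥(descVal A K₁)]
  [Algebra ↥(descVal A K₁) (FK K₁ M)]
  [IsScalarTower ↥(descVal A K₁) K₁ (FK K₁ M)]
  (ϖ : ↥(descVal A K₁)) (hϖ : Irreducible ϖ)
  (t₀ : LaurentSeries ℚ) (ht₀ : IsBase (baseKind q) t₀)
  (t : FK K₁ M) (ht : (t : LaurentSeries K₁) = coeffEmb K₁ t₀)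

include hq hqM hT hA hfin hζ hϖ ht₀ ht in
/-- **(G0-M)**, component form: regular with `x₀ ∉ P₁`, `P₁ = {InGm}`, `P₁ ⊆ ϖ M₀`,
`P₁ ≤ 𝔫`. -/
theorem g0M_comp (𝔫 : Ideal (Chart ↥(descVal A K₁) t))
    (h𝔫 : IsClosedPt ↥(descVal A K₁) ϖ t 𝔫) :
    ∃ x₀ : Chart ↥(descVal A K₁) t, H16G0.RegData ↥(descVal A K₁) ϖ t 𝔫 x₀ ∧
      ¬ H8PB.InGm (descVal A K₁) (((x₀ : FK K₁ M)) : LaurentSeries K₁) ∧
      (∀ y : Chart ↥(descVal A K₁) t,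
        H8PB.InGm (descVal A K₁) (((y : FK K₁ M)) : LaurentSeries K₁) →
        InLoc ↥(descVal A K₁) t 𝔫
          ((y : FK K₁ M) * (algebraMap ↥(descVal A K₁) (FK K₁ M) ϖ)⁻¹)) ∧
      (∀ y : Chart ↥(descVal A K₁) t,
        H8PB.InGm (descVal A K₁) (((y : FK K₁ M)) : LaurentSeries K₁) → y ∈ 𝔫) := by
  have hϖ0 : algebraMap ↥(descVal A K₁) (FK K₁ M) ϖ ≠ 0 := by
    intro h0
    rw [IsScalarTower.algebraMap_apply ↥(descVal A K₁) K₁ (FK K₁ M)] at h0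
    have h2 : algebraMap ↥(descVal A K₁) K₁ ϖ = 0 :=
      (algebraMap K₁ (FK K₁ M)).injective (by rw [h0, map_zero])
    have h3 : ϖ = 0 := Subtype.ext (by simpa using h2)
    exact hϖ.ne_zero h3
  have hmem : ∀ y : Chart ↥(descVal A K₁) t, H8PB.InG (descVal A K₁)
      (((RingHom.id (FK K₁ M)) (y : FK K₁ M) : FK K₁ M) : LaurentSeries K₁) :=
    fun y => chart_inG M q hq hqM hT A hA K₁ hfin ϖ hϖ t₀ ht₀ t ht y
  obtain ⟨P₁, hP₁prime, hP₁⟩ : ∃ P₁ : Ideal (Chart ↥(descVal A K₁) t), P₁.IsPrime ∧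
      ∀ y : Chart ↥(descVal A K₁) t,
        y ∈ P₁ ↔ H8PB.InGm (descVal A K₁) (((y : FK K₁ M)) : LaurentSeries K₁) := by
    refine ⟨H22DC.compIdeal (descVal A K₁) t (RingHom.id _) hmem,
      H22DC.compIdeal_isPrime (descVal A K₁) t _ hmem, ?_⟩
    intro y
    rw [H22DC.mem_compIdeal]
    rfl
  have hspan : ∀ y : Chart ↥(descVal A K₁) t, y ∈ P₁ → ∃ z : Chart ↥(descVal A K₁) t,
      (y : FK K₁ M) = algebraMap ↥(descVal A K₁) (FK K₁ M) ϖ * (z : FK K₁ M) :=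
    fun y hy => comp_le_span M q hq hqM hT A hA K₁ hfin ϖ hϖ t₀ ht₀ t ht y ((hP₁ y).mp hy)
  obtain ⟨ϖc, hϖc⟩ : ∃ ϖc : Chart ↥(descVal A K₁) t,
      (ϖc : FK K₁ M) = algebraMap ↥(descVal A K₁) (FK K₁ M) ϖ := by
    refine ⟨⟨algebraMap ↥(descVal A K₁) (FK K₁ M) ϖ, ?_⟩, rfl⟩
    have h1 : algebraMap ↥(descVal A K₁) (FK K₁ M) ϖ =
        algebraMap (Algebra.adjoin ↥(descVal A K₁) {t}) (FK K₁ M)
          (algebraMap ↥(descVal A K₁) (Algebra.adjoin ↥(descVal A K₁) {t}) ϖ) := rfl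
    rw [h1]
    exact isIntegral_algebraMap
  have hϖP : ϖc ∈ P₁ := by
    rw [hP₁, hϖc]
    exact H22DC.inGm_algebraMap (descVal A K₁) hϖ.not_isUnit
  have hϖ𝔫 : ϖc ∈ 𝔫 := h𝔫.2 ϖc hϖc
  have hle : P₁ ≤ 𝔫 := by
    intro y hy
    obtain ⟨z, hz⟩ := hspan y hy
    have e : y = ϖc * z := Subtype.ext (by
      show (y : FK K₁ M) = (ϖc : FK K₁ M) * z
      rw [hz, hϖc])
    rw [e]
    exact 𝔫.mul_mem_right _ hϖ𝔫
  have h1𝔫 : (1 : Chart ↥(descVal A K₁) t) ∉ 𝔫 :=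
    fun h1 => h𝔫.1.ne_top ((Ideal.eq_top_iff_one _).mpr h1)
  obtain ⟨x, hx⟩ := unif_level M q hq hqM hT A hA K₁ hfin hζ ϖ hϖ t₀ ht₀ t ht P₁ hP₁ 𝔫 h𝔫.1 hle
  have hxP : x ∉ P₁ := hx.2.1
  obtain ⟨h1, h2, h3, h4⟩ := regular_of_unif ↥(descVal A K₁) ϖ hϖ0 t 𝔫 P₁ h𝔫.1 hP₁prime hle
    ϖc hϖc hϖP hspan x hx
  refine ⟨x, ⟨h1, h2, h3, h4⟩, fun h => hxP ((hP₁ x).mpr h), ?_, fun y hy => hle ((hP₁ y).mpr hy)⟩
  intro y hy
  obtain ⟨z, hz⟩ := hspan y ((hP₁ y).mpr hy)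
  refine ⟨z, 1, h1𝔫, ?_⟩
  rw [hz, OneMemClass.coe_one, one_mul, mul_comm (algebraMap ↥(descVal A K₁) (FK K₁ M) ϖ),
    mul_assoc, mul_inv_cancel₀ hϖ0, mul_one]

include hq hqM hT hA hfin hζ hϖ ht₀ ht in
/-- **(G0-M-VAL)**: valuation form, `V' = H10FC.gaussVal R M`. -/
theorem g0M_val (𝔫 : Ideal (Chart ↥(descVal A K₁) t))
    (h𝔫 : IsClosedPt ↥(descVal A K₁) ϖ t 𝔫) :
    ∃ x₀ : Chart ↥(descVal A K₁) t, H16G0.RegData ↥(descVal A K₁) ϖ t 𝔫 x₀ ∧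
      ¬ (H10FC.gaussVal (descVal A K₁) M).valuation (x₀ : FK K₁ M) < 1 ∧
      (∀ y : Chart ↥(descVal A K₁) t,
        (H10FC.gaussVal (descVal A K₁) M).valuation (y : FK K₁ M) < 1 →
        InLoc ↥(descVal A K₁) t 𝔫
          ((y : FK K₁ M) * (algebraMap ↥(descVal A K₁) (FK K₁ M) ϖ)⁻¹)) ∧
      (∀ y : Chart ↥(descVal A K₁) t, (y : FK K₁ M) ∈ H10FC.gaussVal (descVal A K₁) M) ∧
      (∀ y : Chart ↥(descVal A K₁) t,
        (H10FC.gaussVal (descVal A K₁) M).valuation (y : FK K₁ M) < 1 → y ∈ 𝔫) ∧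
      (H10FC.gaussVal (descVal A K₁) M).valuation
        (algebraMap ↥(descVal A K₁) (FK K₁ M) ϖ) < 1 := by
  obtain ⟨x₀, h1, h2, h3, h4⟩ :=
    g0M_comp M q hq hqM hT A hA K₁ hfin hζ ϖ hϖ t₀ ht₀ t ht 𝔫 h𝔫
  refine ⟨x₀, h1, fun h => h2 ?_, fun y hy => h3 y ?_, ?_, fun y hy => h4 y ?_, ?_⟩
  · exact (H10FC.gaussVal_lt_one (descVal A K₁) M _).mp h
  · exact (H10FC.gaussVal_lt_one (descVal A K₁) M _).mp hy
  · intro y
    exact (H10FC.mem_gaussVal (descVal A K₁) M _).mpr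
      (chart_inG M q hq hqM hT A hA K₁ hfin ϖ hϖ t₀ ht₀ t ht y)
  · exact (H10FC.gaussVal_lt_one (descVal A K₁) M _).mp hy
  · exact (H10FC.gaussVal_lt_one (descVal A K₁) M _).mpr
      (H22DC.inGm_algebraMap (descVal A K₁) hϖ.not_isUnit)

include hq hqM hT hA hfin hζ hϖ ht₀ ht in
/-- **(G0-M-VAL)**: exactly the inputs `hreg V' hV'A hV'𝔫 hV'ϖ hhor` of
`H20R3.two_gen_of_disc'` with `V' = H10FC.gaussVal R M`. -/
theorem g0M_disc (𝔫 : Ideal (Chart ↥(descVal A K₁) t))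
    (h𝔫 : IsClosedPt ↥(descVal A K₁) ϖ t 𝔫) :
    RegAt ↥(descVal A K₁) ϖ t 𝔫 ∧
      (∀ y : Chart ↥(descVal A K₁) t, (y : FK K₁ M) ∈ H10FC.gaussVal (descVal A K₁) M) ∧
      (∀ y : Chart ↥(descVal A K₁) t,
        (H10FC.gaussVal (descVal A K₁) M).valuation (y : FK K₁ M) < 1 → y ∈ 𝔫) ∧
      (H10FC.gaussVal (descVal A K₁) M).valuation
        (algebraMap ↥(descVal A K₁) (FK K₁ M) ϖ) < 1 ∧
      (∃ y ∈ 𝔫, ¬ (H10FC.gaussVal (descVal A K₁) M).valuation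
        ((y : Chart ↥(descVal A K₁) t) : FK K₁ M) < 1) := by
  obtain ⟨x₀, h1, h2, -, h4, h5, h6⟩ :=
    g0M_val M q hq hqM hT A hA K₁ hfin hζ ϖ hϖ t₀ ht₀ t ht 𝔫 h𝔫
  exact ⟨h1.regAt, h4, h5, h6, x₀, h1.1, h2⟩

end Concrete

end H22G0

end
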