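import Mathlib

/-!
# helper19 — S36 (Carayol), item 86, slice LOC-A: the DISC lemma (Mathlib only)

`R` a local domain with `maximalIdeal R = (ϖ)`, `ϖ ≠ 0` (e.g. a DVR), `S` a commutative
`R`-algebra, finite and free as a module.  `J` = Jacobson radical of `S`.

* `h19disc_trace_mem` : `x ∈ J → Tr x ∈ (ϖ)`;
* `h19disc_socle` : for a maximal ideal `𝔪` of `S` there is `s ∉ ϖ S` with `𝔪 s ⊆ ϖ S`;
* `h19disc_main` (**DISC, adapted-basis form**): let `b` be a basis of `S` and `E` a set of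
  indices such that `b i ∈ J` for `i ∉ E`.  If `discr b ∣ ϖ ^ (rank - #E)`, then for EVERY maximal
  ideal `𝔪` of `S` there are `t ∈ 𝔪`, `v ∉ 𝔪` with `v * y ∈ (t)` for all `y ∈ 𝔪`
  (i.e. `𝔪 S_𝔪 = t S_𝔪`).

Proof of `h19disc_main`.  `c i := ϖ b i` (`i ∈ E`), `b i` (`i ∉ E`) lies in `J`, so
`Tr (c i * b j) = ϖ Γ i j`; `ϖ ^ r det Γ = ϖ ^ #E discr b`, hence `det Γ` is a unit.  For the socle
lift `s` (coordinates `σ ≢ 0 mod ϖ`) some `(Γ σ) i` is a unit; `x := c i`, `x s = ϖ v`,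
`Tr v = (Γ σ) i` is a unit, so `v ∉ J`.  For a maximal ideal `𝔪' ≠ 𝔪` and `y ∈ 𝔪 ∖ 𝔪'`,
`y s = ϖ z` gives `y v = x z ∈ 𝔪'`, so `v ∈ 𝔪'`; hence `v ∉ 𝔪`.  Finally `y s = ϖ z` gives
`v y = x z` for `y ∈ 𝔪`.
-/

set_option autoImplicit false
set_option linter.style.haveILetI false
set_option linter.unusedSectionVars false

open IsLocalRing

namespace H19DISC

section Trace

variable {R : Type*} [CommRing R] [IsLocalRing R]
variable {S : Type*} [CommRing S] [Algebra R S] [Module.Free R S] [Module.Finite R S]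

attribute [local instance] Ideal.Quotient.field

/-- every maximal ideal of `S` contains the image of the maximal ideal of `R` -/
theorem h19disc_map_le_jacobson :
    (maximalIdeal R).map (algebraMap R S) ≤ Ideal.jacobson (⊥ : Ideal S) := by
  rw [Ideal.map_le_iff_le_comap]
  intro a ha
  rw [Ideal.mem_comap, Ideal.jacobson, Submodule.mem_sInf]
  rintro 𝔪' ⟨-, h𝔪'⟩
  haveI := h𝔪'
  haveI : Algebra.IsIntegral R S := Algebra.IsIntegral.of_finite R S
  have h1 : (Ideal.comap (algebraMap R S) 𝔪').IsMaximal :=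
    Ideal.isMaximal_comap_of_isIntegral_of_isMaximal 𝔪'
  have h2 := IsLocalRing.eq_maximalIdeal h1
  have h3 : a ∈ Ideal.comap (algebraMap R S) 𝔪' := h2 ▸ ha
  exact h3

/-- elements of the Jacobson radical are nilpotent modulo the maximal ideal of `R` -/
theorem h19disc_nilpotent {x : S} (hx : x ∈ Ideal.jacobson (⊥ : Ideal S)) :
    IsNilpotent (Ideal.Quotient.mk ((maximalIdeal R).map (algebraMap R S)) x) := by
  haveI : Module.Finite (R ⧸ maximalIdeal R) (S ⧸ (maximalIdeal R).map (algebraMap R S)) :=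
    Module.Finite.of_basis (IsLocalRing.basisQuotient (Module.Free.chooseBasis R S))
  haveI : IsArtinianRing (S ⧸ (maximalIdeal R).map (algebraMap R S)) :=
    IsArtinianRing.of_finite (R ⧸ maximalIdeal R) _
  have h1 : IsNilpotent (Ideal.jacobson
      (⊥ : Ideal (S ⧸ (maximalIdeal R).map (algebraMap R S)))) :=
    IsArtinianRing.isNilpotent_jacobson_bot
  obtain ⟨n, hn⟩ := h1
  refine ⟨n, ?_⟩
  have h2 : Ideal.Quotient.mk ((maximalIdeal R).map (algebraMap R S)) x ∈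
      Ideal.jacobson (⊥ : Ideal (S ⧸ (maximalIdeal R).map (algebraMap R S))) := by
    rw [Ideal.jacobson, Submodule.mem_sInf]
    rintro 𝔫 ⟨-, h𝔫⟩
    haveI := h𝔫
    have h3 : (Ideal.comap (Ideal.Quotient.mk ((maximalIdeal R).map (algebraMap R S))) 𝔫).IsMaximal :=
      Ideal.comap_isMaximal_of_surjective _ Ideal.Quotient.mk_surjective
    have h4 : x ∈ Ideal.comap (Ideal.Quotient.mk ((maximalIdeal R).map (algebraMap R S))) 𝔫 := by
      rw [Ideal.jacobson, Submodule.mem_sInf] at hx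
      exact hx _ ⟨bot_le, h3⟩
    exact h4
  have h5 := Ideal.pow_mem_pow h2 n
  rw [hn] at h5
  exact h5

/-- the trace of an element of the Jacobson radical lies in the maximal ideal of `R` -/
theorem h19disc_trace_mem {x : S} (hx : x ∈ Ideal.jacobson (⊥ : Ideal S)) :
    Algebra.trace R S x ∈ maximalIdeal R := by
  have h1 := Algebra.isNilpotent_trace_of_isNilpotent (R := R ⧸ maximalIdeal R)
    (h19disc_nilpotent (R := R) hx)
  rw [Algebra.trace_quotient_mk] at h1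
  have h2 : Ideal.Quotient.mk (maximalIdeal R) (Algebra.trace R S x) = 0 := h1.eq_zero
  exact Ideal.Quotient.eq_zero_iff_mem.mp h2

end Trace

section Socle

variable {R : Type*} [CommRing R] [IsLocalRing R]
variable {S : Type*} [CommRing S] [Algebra R S] [Module.Finite R S] [IsNoetherianRing S]

/-- **socle lift**: for a maximal ideal `𝔪` of `S` there is `s ∉ ϖ S` with `𝔪 s ⊆ ϖ S`. -/
theorem h19disc_socle (ϖ : R) (hϖ : maximalIdeal R = Ideal.span {ϖ})
    (𝔪 : Ideal S) [h𝔪 : 𝔪.IsMaximal] :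
    ∃ s : S, (∀ y ∈ 𝔪, ∃ z : S, y * s = ϖ • z) ∧ ¬ ∃ z : S, s = ϖ • z := by
  haveI : Algebra.IsIntegral R S := Algebra.IsIntegral.of_finite R S
  set I : Ideal S := Ideal.span {algebraMap R S ϖ} with hI
  have hϖm : ∀ 𝔫 : Ideal S, 𝔫.IsPrime → I ≤ 𝔫 → 𝔫.IsMaximal := by
    intro 𝔫 h𝔫 hI𝔫
    haveI := h𝔫
    have h1 : (Ideal.comap (algebraMap R S) 𝔫).IsPrime := Ideal.comap_isPrime _ _
    have h2 : maximalIdeal R ≤ Ideal.comap (algebraMap R S) 𝔫 := by
      rw [hϖ, Ideal.span_le, Set.singleton_subset_iff]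
      exact hI𝔫 (Ideal.mem_span_singleton_self _)
    have h3 : Ideal.comap (algebraMap R S) 𝔫 = maximalIdeal R :=
      ((maximalIdeal.isMaximal R).eq_of_le h1.ne_top h2).symm
    exact Ideal.isMaximal_of_isIntegral_of_isMaximal_comap 𝔫
      (h3 ▸ maximalIdeal.isMaximal R)
  have hI𝔪 : I ≤ 𝔪 := by
    rw [hI, Ideal.span_le, Set.singleton_subset_iff]
    have h1 : (Ideal.comap (algebraMap R S) 𝔪).IsMaximal :=
      Ideal.isMaximal_comap_of_isIntegral_of_isMaximal 𝔪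
    have h2 := IsLocalRing.eq_maximalIdeal h1
    have h3 : ϖ ∈ Ideal.comap (algebraMap R S) 𝔪 := by
      rw [h2, hϖ]
      exact Ideal.mem_span_singleton_self ϖ
    exact h3
  have hmin : 𝔪 ∈ I.minimalPrimes := by
    refine ⟨⟨h𝔪.isPrime, hI𝔪⟩, ?_⟩
    rintro 𝔫 ⟨h𝔫, hI𝔫⟩ h𝔫𝔪
    have h1 := hϖm 𝔫 h𝔫 hI𝔫
    exact (h1.eq_of_le h𝔪.ne_top h𝔫𝔪).ge
  have hcol : (I : Submodule S S).colon {(1 : S)} = I := by
    ext y
    rw [Submodule.mem_colon_singleton, smul_eq_mul, mul_one]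
  obtain ⟨s, hs⟩ := Submodule.exists_eq_colon_of_mem_minimalPrimes
    (N := (I : Submodule S S)) (x := (1 : S)) (I := 𝔪) (by rw [hcol]; exact hmin)
  refine ⟨s, ?_, ?_⟩
  · intro y hy
    rw [hs, Submodule.mem_colon_singleton, smul_eq_mul] at hy
    obtain ⟨z, hz⟩ := Ideal.mem_span_singleton'.mp hy
    exact ⟨z, by rw [Algebra.smul_def, ← hz, mul_comm]⟩
  · rintro ⟨z, hz⟩
    have h1 : (1 : S) ∈ 𝔪 := by
      rw [hs, Submodule.mem_colon_singleton, one_smul, hz, Algebra.smul_def]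
      exact Ideal.mul_mem_right _ _ (Ideal.mem_span_singleton_self _)
    exact h𝔪.ne_top ((Ideal.eq_top_iff_one _).mpr h1)

end Socle

section Main

variable {R : Type*} [CommRing R] [IsDomain R] [IsLocalRing R]
variable {S : Type*} [CommRing S] [Algebra R S] [Module.Free R S] [Module.Finite R S]
  [IsNoetherianRing S]
variable {ι : Type*} [Fintype ι] [DecidableEq ι]

/-- **DISC, adapted-basis form.** -/
theorem h19disc_main (ϖ : R) (hϖ : maximalIdeal R = Ideal.span {ϖ}) (hϖ0 : ϖ ≠ 0)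
    (b : Module.Basis ι R S) (E : Finset ι)
    (hb : ∀ i, i ∉ E → b i ∈ Ideal.jacobson (⊥ : Ideal S))
    (hd : Algebra.discr R b ∣ ϖ ^ (Fintype.card ι - E.card))
    (𝔪 : Ideal S) [h𝔪 : 𝔪.IsMaximal] :
    ∃ t ∈ 𝔪, ∃ v, v ∉ 𝔪 ∧ ∀ y ∈ 𝔪, ∃ z, v * y = t * z := by
  classical
  set J := Ideal.jacobson (⊥ : Ideal S) with hJ
  have hJm : ∀ 𝔫 : Ideal S, 𝔫.IsMaximal → J ≤ 𝔫 := fun 𝔫 h𝔫 => sInf_le ⟨bot_le, h𝔫⟩
  have hϖJ : algebraMap R S ϖ ∈ J :=
    h19disc_map_le_jacobson (R := R)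
      (Ideal.mem_map_of_mem _ (hϖ ▸ Ideal.mem_span_singleton_self ϖ))
  -- the family `c` in `J`
  set c : ι → S := fun i => if i ∈ E then ϖ • b i else b i with hc
  have hcJ : ∀ i, c i ∈ J := by
    intro i
    by_cases hi : i ∈ E
    · simp only [hc, if_pos hi]
      rw [Algebra.smul_def]
      exact Ideal.mul_mem_right _ _ hϖJ
    · simp only [hc, if_neg hi]
      exact hb i hi
  -- the traces are divisible by `ϖ`
  have htr : ∀ i j, ∃ g : R, Algebra.trace R S (c i * b j) = ϖ * g := by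
    intro i j
    have h1 := h19disc_trace_mem (R := R) (Ideal.mul_mem_right (b j) J (hcJ i))
    rw [hϖ, Ideal.mem_span_singleton'] at h1
    obtain ⟨g, hg⟩ := h1
    exact ⟨g, by rw [← hg, mul_comm]⟩
  choose Γf hΓ using htr
  set Γ : Matrix ι ι R := Matrix.of Γf with hΓdef
  set D : Matrix ι ι R := Matrix.diagonal (fun i => if i ∈ E then ϖ else 1) with hD
  have hM : ϖ • Γ = D * Algebra.traceMatrix R b := by
    ext i j
    rw [Matrix.smul_apply, hD, Matrix.diagonal_mul, Algebra.traceMatrix_apply,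
      Algebra.traceForm_apply, smul_eq_mul, hΓdef, Matrix.of_apply, ← hΓ i j]
    by_cases hi : i ∈ E
    · simp only [hc, if_pos hi]
      rw [smul_mul_assoc, map_smul, smul_eq_mul]
    · simp only [hc, if_neg hi, one_mul]
  have hprod : (∏ i, (if i ∈ E then ϖ else 1 : R)) = ϖ ^ E.card := by
    rw [Finset.prod_ite_mem, Finset.univ_inter, Finset.prod_const]
  have hdet : ϖ ^ Fintype.card ι * Γ.det = ϖ ^ E.card * Algebra.discr R b := by
    have h1 := congrArg Matrix.det hM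
    rw [Matrix.det_smul, Matrix.det_mul, hD, Matrix.det_diagonal, hprod] at h1
    rw [h1, Algebra.discr_def]
  -- `det Γ` is a unit
  obtain ⟨u, hu⟩ := hd
  have hle : E.card ≤ Fintype.card ι := Finset.card_le_univ E
  have hunit : Γ.det * u = 1 := by
    have h1 : ϖ ^ Fintype.card ι * (Γ.det * u) = ϖ ^ Fintype.card ι * 1 := by
      rw [← mul_assoc, hdet, mul_assoc, ← hu, ← pow_add, Nat.add_sub_cancel' hle, mul_one]
    exact mul_left_cancel₀ (pow_ne_zero _ hϖ0) h1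
  have hΓunit : IsUnit Γ.det := IsUnit.of_mul_eq_one _ hunit
  -- the socle lift
  obtain ⟨s, hs1, hs2⟩ := h19disc_socle ϖ hϖ 𝔪
  set σ : ι → R := fun j => b.repr s j with hσ
  have hsσ : s = ∑ j, σ j • b j := (b.sum_repr s).symm
  have htrs : ∀ i, Algebra.trace R S (c i * s) = ϖ * (Γ.mulVec σ) i := by
    intro i
    conv_lhs => rw [hsσ]
    rw [Finset.mul_sum, map_sum, Matrix.mulVec, dotProduct, Finset.mul_sum]
    refine Finset.sum_congr rfl fun j _ => ?_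
    rw [mul_smul_comm, map_smul, smul_eq_mul, hΓ i j, hΓdef, Matrix.of_apply]
    ring
  -- some `(Γ σ) i` is a unit
  have hex : ∃ i, IsUnit ((Γ.mulVec σ) i) := by
    by_contra hcon
    push Not at hcon
    have h1 : ∀ i, ∃ a, (Γ.mulVec σ) i = ϖ * a := by
      intro i
      have h2 : (Γ.mulVec σ) i ∈ maximalIdeal R := (mem_maximalIdeal _).mpr (hcon i)
      rw [hϖ, Ideal.mem_span_singleton'] at h2
      obtain ⟨a, ha⟩ := h2
      exact ⟨a, by rw [← ha, mul_comm]⟩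
    choose a ha using h1
    have h2 : Γ.mulVec σ = ϖ • a := funext fun i => by rw [ha i, Pi.smul_apply, smul_eq_mul]
    have h3 : σ = ϖ • (Γ⁻¹.mulVec a) := by
      have h4 : Γ⁻¹.mulVec (Γ.mulVec σ) = σ := by
        rw [Matrix.mulVec_mulVec, Matrix.nonsing_inv_mul _ hΓunit, Matrix.one_mulVec]
      rw [← h4, h2, Matrix.mulVec_smul]
    apply hs2
    refine ⟨∑ j, (Γ⁻¹.mulVec a) j • b j, ?_⟩
    rw [hsσ, Finset.smul_sum]
    refine Finset.sum_congr rfl fun j _ => ?_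
    rw [h3, Pi.smul_apply, smul_eq_mul, mul_smul]
  obtain ⟨i, hi⟩ := hex
  have hxJ := hcJ i
  have hx𝔪 : c i ∈ 𝔪 := hJm 𝔪 h𝔪 hxJ
  obtain ⟨v, hv⟩ := hs1 (c i) hx𝔪
  have htv : Algebra.trace R S v = (Γ.mulVec σ) i := by
    have h1 := htrs i
    rw [hv, map_smul, smul_eq_mul] at h1
    exact mul_left_cancel₀ hϖ0 h1
  have hvJ : v ∉ J := by
    intro h
    have h1 := h19disc_trace_mem (R := R) h
    rw [htv] at h1
    exact (mem_maximalIdeal _).mp h1 hi
  have htf : ∀ w w' : S, ϖ • w = ϖ • w' → w = w' := by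
    intro w w' h
    exact smul_right_injective S hϖ0 h
  have hv𝔪 : v ∉ 𝔪 := by
    intro hvm
    have h1 : ∃ 𝔪' : Ideal S, 𝔪'.IsMaximal ∧ v ∉ 𝔪' := by
      by_contra hcon
      push Not at hcon
      apply hvJ
      rw [hJ, Ideal.jacobson, Submodule.mem_sInf]
      rintro 𝔫 ⟨-, h𝔫⟩
      exact hcon 𝔫 h𝔫
    obtain ⟨𝔪', h𝔪', hv𝔪'⟩ := h1
    have hne : 𝔪' ≠ 𝔪 := fun h => hv𝔪' (h ▸ hvm)
    obtain ⟨y, hy𝔪, hy𝔪'⟩ : ∃ y ∈ 𝔪, y ∉ 𝔪' := by
      by_contra hcon
      push Not at hcon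
      exact hne (h𝔪.eq_of_le h𝔪'.ne_top hcon).symm
    obtain ⟨z, hz⟩ := hs1 y hy𝔪
    have h2 : y * v = c i * z := by
      apply htf
      rw [← mul_smul_comm, ← hv, ← mul_smul_comm, ← hz]
      ring
    have h3 : y * v ∈ 𝔪' := by
      rw [h2]
      exact Ideal.mul_mem_right _ _ (hJm 𝔪' h𝔪' hxJ)
    rcases h𝔪'.isPrime.mem_or_mem h3 with h | h
    · exact hy𝔪' h
    · exact hv𝔪' h
  refine ⟨c i, hx𝔪, v, hv𝔪, fun y hy => ?_⟩
  obtain ⟨z, hz⟩ := hs1 y hy
  refine ⟨z, ?_⟩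
  apply htf
  calc ϖ • (v * y) = (ϖ • v) * y := (smul_mul_assoc ϖ v y).symm
    _ = c i * s * y := by rw [hv]
    _ = c i * (y * s) := by ring
    _ = c i * (ϖ • z) := by rw [hz]
    _ = ϖ • (c i * z) := mul_smul_comm ϖ (c i) z

end Main

section Noeth

variable {R : Type*} [CommRing R] [IsDomain R] [IsLocalRing R] [IsNoetherianRing R]
variable {S : Type*} [CommRing S] [Algebra R S] [Module.Free R S] [Module.Finite R S]
variable {ι : Type*} [Fintype ι] [DecidableEq ι]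

/-- **DISC, adapted-basis form**, with `R` noetherian (e.g. a DVR) instead of `S`. -/
theorem h19disc_main' (ϖ : R) (hϖ : maximalIdeal R = Ideal.span {ϖ}) (hϖ0 : ϖ ≠ 0)
    (b : Module.Basis ι R S) (E : Finset ι)
    (hb : ∀ i, i ∉ E → b i ∈ Ideal.jacobson (⊥ : Ideal S))
    (hd : Algebra.discr R b ∣ ϖ ^ (Fintype.card ι - E.card))
    (𝔪 : Ideal S) [h𝔪 : 𝔪.IsMaximal] :
    ∃ t ∈ 𝔪, ∃ v, v ∉ 𝔪 ∧ ∀ y ∈ 𝔪, ∃ z, v * y = t * z := by
  haveI : IsNoetherian R S := isNoetherian_of_isNoetherianRing_of_finite R S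
  haveI : IsNoetherianRing S := isNoetherian_of_tower R inferInstance
  exact h19disc_main ϖ hϖ hϖ0 b E hb hd 𝔪

/-- **DISC** over a discrete valuation ring. -/
theorem h19disc_dvr {R : Type*} [CommRing R] [IsDomain R] [IsDiscreteValuationRing R]
    {S : Type*} [CommRing S] [Algebra R S] [Module.Free R S] [Module.Finite R S]
    {ι : Type*} [Fintype ι] [DecidableEq ι]
    (ϖ : R) (hϖ : Irreducible ϖ)
    (b : Module.Basis ι R S) (E : Finset ι)
    (hb : ∀ i, i ∉ E → b i ∈ Ideal.jacobson (⊥ : Ideal S))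
    (hd : Algebra.discr R b ∣ ϖ ^ (Fintype.card ι - E.card))
    (𝔪 : Ideal S) [h𝔪 : 𝔪.IsMaximal] :
    ∃ t ∈ 𝔪, ∃ v, v ∉ 𝔪 ∧ ∀ y ∈ 𝔪, ∃ z, v * y = t * z :=
  h19disc_main' ϖ hϖ.maximalIdeal_eq hϖ.ne_zero b E hb hd 𝔪

end Noeth

end H19DISC
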