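import Mathlib
import Fermat.Agent.S36.Disc_helper19

/-!
# helper19 — S36 (Carayol), item 86, slice LOC-A, part (ADAPT): DISC for an ARBITRARY basis

`R` a DVR with uniformizer `ϖ`, `S` a commutative `R`-algebra, finite free of rank `r`, with ANY
basis `e`.  `J` = Jacobson radical of `S`.

* `h19disc_discr_basis` : discriminants of two bases differ by the square of a unit;
* `h19disc_adapt` : if `S = R g₁ + ⋯ + R g_l + J` then there is a basis of `S` indexed by
  `Fin m ⊕ Fin m'`, `m' ≤ l`, whose `Fin m`-part lies in `J`;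
* `h19disc_crt` : if all maximal ideals of `S` lie in a finite set `F` and have residue field
  `R / 𝔪_R`, then `S = R ε₁ + ⋯ + R ε_l + J` with `l ≤ #F`;
* `h19disc_gen` (**DISC, spanning form**): `S = R g₁ + ⋯ + R g_l + J` and `discr e ∣ ϖ ^ (r - l)`
  imply: for every maximal ideal `𝔪` of `S` there are `t ∈ 𝔪`, `v ∉ 𝔪` with `v * y ∈ (t)` for all
  `y ∈ 𝔪`;
* `h19disc_points` (**DISC, points form**): the same when all maximal ideals of `S` lie in a finite
  set `F` of ideals with `#F ≤ l`, each `𝔫 ∈ F` having residue field `R / ϖ`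
  (`∀ s, ∃ c : R, s - c ∈ 𝔫`);
* `h19disc_local` : the case `l = 1` (`S` local with residue field `R / ϖ`).
-/

set_option autoImplicit false
set_option linter.style.haveILetI false
set_option linter.unusedSectionVars false

open IsLocalRing

namespace H19DISC

section Transport

variable {R : Type*} [CommRing R] [Nontrivial R]
variable {S : Type*} [CommRing S] [Algebra R S]
variable {ι ι' : Type*} [Fintype ι] [Fintype ι'] [DecidableEq ι] [DecidableEq ι']

/-- the discriminants of two bases differ by the square of a unit -/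
theorem h19disc_discr_basis (e : Module.Basis ι R S) (b : Module.Basis ι' R S) :
    ∃ u : Rˣ, Algebra.discr R b = (u : R) ^ 2 * Algebra.discr R e := by
  let f : ι ≃ ι' := e.indexEquiv b
  let e' : Module.Basis ι' R S := e.reindex f
  have h1 : Algebra.discr R e' = Algebra.discr R e := by
    have := Algebra.discr_reindex R e f
    rwa [← Module.Basis.coe_reindex] at this
  have h2 : Algebra.discr R b = (e'.toMatrix b).det ^ 2 * Algebra.discr R e' := by
    rw [← Algebra.discr_of_matrix_vecMul, Module.Basis.toMatrix_map_vecMul]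
  have h3 : IsUnit (e'.toMatrix b).det := by
    have := e'.isUnit_det b
    rwa [Module.Basis.det_apply] at this
  exact ⟨h3.unit, by rw [h2, h1]; rfl⟩

end Transport

section Adapt

variable {R : Type*} [CommRing R] [IsLocalRing R]
variable {S : Type*} [CommRing S] [Algebra R S] [Module.Free R S] [Module.Finite R S]

attribute [local instance] Ideal.Quotient.field

/-- **adapted basis**: if `S = R g₁ + ⋯ + R g_l + J` (`J` the Jacobson radical) then `S` has a
basis indexed by `Fin m ⊕ Fin m'` with `m' ≤ l` whose `Fin m`-part lies in `J`. -/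
theorem h19disc_adapt {κ : Type*} [Fintype κ] (g : κ → S)
    (hg : ∀ s : S, ∃ c : κ → R, s - ∑ i, c i • g i ∈ Ideal.jacobson (⊥ : Ideal S)) :
    ∃ (m m' : ℕ) (b : Module.Basis (Fin m ⊕ Fin m') R S), m' ≤ Fintype.card κ ∧
      ∀ i : Fin m, b (Sum.inl i) ∈ Ideal.jacobson (⊥ : Ideal S) := by
  classical
  set J : Ideal S := Ideal.jacobson (⊥ : Ideal S) with hJ
  have hpJ : (maximalIdeal R).map (algebraMap R S) ≤ J := h19disc_map_le_jacobson
  haveI : Module.Finite (R ⧸ maximalIdeal R) (S ⧸ (maximalIdeal R).map (algebraMap R S)) :=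
    Module.Finite.of_restrictScalars_finite R _ _
  let mk := Ideal.Quotient.mk ((maximalIdeal R).map (algebraMap R S))
  let W : Submodule (R ⧸ maximalIdeal R) (S ⧸ (maximalIdeal R).map (algebraMap R S)) :=
    (J.map mk).restrictScalars (R ⧸ maximalIdeal R)
  have hW : ∀ v, v ∈ W ↔ ∃ x ∈ J, mk x = v := by
    intro v
    rw [Submodule.restrictScalars_mem,
      Ideal.mem_map_iff_of_surjective _ Ideal.Quotient.mk_surjective]
  obtain ⟨W', hWW'⟩ := Submodule.exists_isCompl W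
  let bW := Module.finBasis (R ⧸ maximalIdeal R) W
  let bW' := Module.finBasis (R ⧸ maximalIdeal R) W'
  let B := (bW.prod bW').map (Submodule.prodEquivOfIsCompl W W' hWW')
  -- values of `B`
  have hBl : ∀ i, B (Sum.inl i) ∈ W := by
    intro i
    have : B (Sum.inl i) = (bW i : S ⧸ (maximalIdeal R).map (algebraMap R S)) := by
      simp [B]
    rw [this]
    exact (bW i).2
  -- the bound `m' ≤ l`
  have hm' : Module.finrank (R ⧸ maximalIdeal R) W' ≤ Fintype.card κ := by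
    rw [← (Submodule.quotientEquivOfIsCompl W W' hWW').finrank_eq]
    have hsp : Submodule.span (R ⧸ maximalIdeal R)
        (Set.range (fun i : κ => W.mkQ (mk (g i)))) = ⊤ := by
      rw [eq_top_iff]
      rintro v -
      obtain ⟨v', rfl⟩ := W.mkQ_surjective v
      obtain ⟨s, rfl⟩ := Ideal.Quotient.mk_surjective v'
      obtain ⟨c, hc⟩ := hg s
      have h1 : W.mkQ (mk s) = W.mkQ (mk (∑ i, c i • g i)) := by
        rw [← sub_eq_zero, ← map_sub, ← map_sub]
        exact (Submodule.Quotient.mk_eq_zero W).2 ((hW _).2 ⟨_, hc, rfl⟩)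
      rw [h1, map_sum, map_sum]
      refine Submodule.sum_mem _ fun i _ => ?_
      have h2 : W.mkQ (mk (c i • g i)) =
          (Ideal.Quotient.mk (maximalIdeal R) (c i)) • W.mkQ (mk (g i)) := by
        rw [← map_smul]
        congr 1
      rw [h2]
      exact Submodule.smul_mem _ _ (Submodule.subset_span ⟨i, rfl⟩)
    simpa using finrank_le_of_span_eq_top hsp
  -- lifts
  have hlift : ∀ a : Fin (Module.finrank (R ⧸ maximalIdeal R) W) ⊕
      Fin (Module.finrank (R ⧸ maximalIdeal R) W'),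
      ∃ x : S, mk x = B a ∧ (a.isLeft → x ∈ J) := by
    rintro (i | j)
    · obtain ⟨x, hx, hx'⟩ := (hW _).1 (hBl i)
      exact ⟨x, hx', fun _ => hx⟩
    · obtain ⟨x, hx⟩ := Ideal.Quotient.mk_surjective (B (Sum.inr j))
      exact ⟨x, hx, fun h => by simp at h⟩
  choose b hb hbJ using hlift
  have hspan : Submodule.span R (Set.range b) = ⊤ := by
    rw [← IsLocalRing.quotient_span_eq_top_iff_span_eq_top, ← Set.range_comp]
    have : (⇑mk ∘ b) = ⇑B := funext hb
    rw [this]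
    exact B.span_eq
  have hcard : Fintype.card (Fin (Module.finrank (R ⧸ maximalIdeal R) W) ⊕
      Fin (Module.finrank (R ⧸ maximalIdeal R) W')) = Module.finrank R S := by
    rw [← IsLocalRing.finrank_quotient_map (R := R) (S := S), Module.finrank_eq_card_basis B]
  refine ⟨_, _, basisOfTopLeSpanOfCardEqFinrank b hspan.ge hcard, hm', fun i => ?_⟩
  rw [coe_basisOfTopLeSpanOfCardEqFinrank]
  exact hbJ (Sum.inl i) rfl

/-- **CRT**: if every maximal ideal of `S` lies in the finite set `F` and each `𝔫 ∈ F` has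
residue field `R / 𝔪_R`, then `S` is spanned modulo `J` by at most `#F` elements. -/
theorem h19disc_crt (F : Finset (Ideal S)) (hF : ∀ 𝔫 : Ideal S, 𝔫.IsMaximal → 𝔫 ∈ F)
    (hres : ∀ 𝔫 ∈ F, 𝔫.IsMaximal → ∀ s : S, ∃ c : R, s - algebraMap R S c ∈ 𝔫) :
    ∃ (n : ℕ) (g : Fin n → S), n ≤ F.card ∧
      ∀ s : S, ∃ c : Fin n → R, s - ∑ i, c i • g i ∈ Ideal.jacobson (⊥ : Ideal S) := by
  classical
  let F' : Finset (Ideal S) := F.filter (fun 𝔫 => 𝔫.IsMaximal)
  have hF' : ∀ 𝔫 : Ideal S, 𝔫.IsMaximal → 𝔫 ∈ F' := fun 𝔫 h =>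
    Finset.mem_filter.2 ⟨hF 𝔫 h, h⟩
  have hmax : ∀ i : ↥F', (i : Ideal S).IsMaximal := fun i => (Finset.mem_filter.1 i.2).2
  have hcop : Pairwise (Function.onFun IsCoprime (fun i : ↥F' => (i : Ideal S))) := by
    intro i j hij
    haveI := hmax i
    haveI := hmax j
    exact Ideal.isCoprime_of_isMaximal (fun h => hij (Subtype.ext h))
  have hε : ∀ i : ↥F', ∃ ε : S, ∀ j : ↥F', ε - (if j = i then 1 else 0) ∈ (j : Ideal S) :=
    fun i => Ideal.exists_forall_sub_mem_ideal hcop (fun j => if j = i then 1 else 0)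
  choose ε hε using hε
  refine ⟨Fintype.card ↥F', ε ∘ (Fintype.equivFin ↥F').symm, ?_, fun s => ?_⟩
  · rw [Fintype.card_coe]
    exact Finset.card_filter_le _ _
  · have hc : ∀ i : ↥F', ∃ c : R, s - algebraMap R S c ∈ (i : Ideal S) := fun i =>
      hres i (Finset.mem_filter.1 i.2).1 (hmax i) s
    choose c hc using hc
    refine ⟨c ∘ (Fintype.equivFin ↥F').symm, ?_⟩
    have hsum : ∑ i : Fin (Fintype.card ↥F'), (c ∘ (Fintype.equivFin ↥F').symm) i •
        (ε ∘ (Fintype.equivFin ↥F').symm) i = ∑ j : ↥F', c j • ε j :=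
      Equiv.sum_comp (Fintype.equivFin ↥F').symm (fun j => c j • ε j)
    rw [hsum, Ideal.jacobson, Ideal.mem_sInf]
    rintro 𝔫 ⟨-, h𝔫⟩
    let j : ↥F' := ⟨𝔫, hF' 𝔫 h𝔫⟩
    rw [← Ideal.Quotient.eq_zero_iff_mem, map_sub, map_sum]
    have h1 : ∀ i : ↥F', Ideal.Quotient.mk 𝔫 (c i • ε i) =
        if i = j then Ideal.Quotient.mk 𝔫 (algebraMap R S (c j)) else 0 := by
      intro i
      have h2 : Ideal.Quotient.mk 𝔫 (ε i) = if j = i then 1 else 0 := by
        have := hε i j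
        rw [← Ideal.Quotient.eq_zero_iff_mem, map_sub, sub_eq_zero] at this
        rw [this]
        split_ifs <;> simp
      rw [Algebra.smul_def, map_mul, h2]
      by_cases hij : i = j
      · subst hij
        simp
      · have hji : ¬ j = i := fun h => hij h.symm
        simp [hij, hji]
    rw [Finset.sum_congr rfl (fun i _ => h1 i), Finset.sum_ite_eq' Finset.univ j, if_pos (Finset.mem_univ j),
      ← map_sub, Ideal.Quotient.eq_zero_iff_mem]
    exact hc j

end Adapt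

section Gen

variable {R : Type*} [CommRing R] [IsDomain R] [IsDiscreteValuationRing R]
variable {S : Type*} [CommRing S] [Algebra R S] [Module.Free R S] [Module.Finite R S]
variable {ι : Type*} [Fintype ι] [DecidableEq ι]

/-- **DISC, spanning form**: `e` ANY basis of `S`; `S = ∑ R g i + J` with at most `l` elements
`g i`; `discr e ∣ ϖ ^ (rank - l)`.  Then every maximal ideal of `S` is locally principal. -/
theorem h19disc_gen (ϖ : R) (hϖ : Irreducible ϖ) (e : Module.Basis ι R S)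
    {κ : Type*} [Fintype κ] (g : κ → S)
    (hg : ∀ s : S, ∃ c : κ → R, s - ∑ i, c i • g i ∈ Ideal.jacobson (⊥ : Ideal S))
    (l : ℕ) (hl : Fintype.card κ ≤ l)
    (hd : Algebra.discr R e ∣ ϖ ^ (Fintype.card ι - l))
    (𝔪 : Ideal S) [h𝔪 : 𝔪.IsMaximal] :
    ∃ t ∈ 𝔪, ∃ v, v ∉ 𝔪 ∧ ∀ y ∈ 𝔪, ∃ z, v * y = t * z := by
  classical
  obtain ⟨m, m', b, hm', hb⟩ := h19disc_adapt (R := R) g hg
  obtain ⟨u, hu⟩ := h19disc_discr_basis e b
  have hcard : Fintype.card ι = m + m' := by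
    rw [← Module.finrank_eq_card_basis e, Module.finrank_eq_card_basis b]
    simp
  let E : Finset (Fin m ⊕ Fin m') := Finset.univ.map ⟨Sum.inr, Sum.inr_injective⟩
  have hE : E.card = m' := by simp [E]
  refine h19disc_dvr ϖ hϖ b E (fun a ha => ?_) ?_ 𝔪
  · rcases a with i | j
    · exact hb i
    · exact absurd (Finset.mem_map.2 ⟨j, Finset.mem_univ _, rfl⟩) ha
  · have h1 : Fintype.card (Fin m ⊕ Fin m') - E.card = m := by
      rw [hE]; simp
    rw [h1, hu]
    have h2 : Fintype.card ι - l ≤ m := by omega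
    have h3 : Algebra.discr R e ∣ ϖ ^ m := hd.trans (pow_dvd_pow ϖ h2)
    exact ((u.isUnit.pow 2).mul_left_dvd).2 h3

/-- **DISC, points form**: `e` ANY basis of `S`; all maximal ideals of `S` lie in the finite set
`F`, `#F ≤ l`, and every maximal `𝔫 ∈ F` has residue field `R / ϖ`; `discr e ∣ ϖ ^ (rank - l)`.
Then every maximal ideal of `S` is locally principal. -/
theorem h19disc_points (ϖ : R) (hϖ : Irreducible ϖ) (e : Module.Basis ι R S)
    (F : Finset (Ideal S)) (hF : ∀ 𝔫 : Ideal S, 𝔫.IsMaximal → 𝔫 ∈ F)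
    (hres : ∀ 𝔫 ∈ F, 𝔫.IsMaximal → ∀ s : S, ∃ c : R, s - algebraMap R S c ∈ 𝔫)
    (l : ℕ) (hl : F.card ≤ l)
    (hd : Algebra.discr R e ∣ ϖ ^ (Fintype.card ι - l))
    (𝔪 : Ideal S) [h𝔪 : 𝔪.IsMaximal] :
    ∃ t ∈ 𝔪, ∃ v, v ∉ 𝔪 ∧ ∀ y ∈ 𝔪, ∃ z, v * y = t * z := by
  obtain ⟨n, g, hcard, hg⟩ := h19disc_crt (R := R) F hF hres
  exact h19disc_gen ϖ hϖ e g hg l (by simpa using hcard.trans hl) hd 𝔪

/-- **DISC, local form** (`l = 1`): `S` has a unique maximal ideal `𝔪`, with residue field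
`R / ϖ`, and `discr e ∣ ϖ ^ (rank - 1)`.  Then `𝔪` is locally principal. -/
theorem h19disc_local (ϖ : R) (hϖ : Irreducible ϖ) (e : Module.Basis ι R S)
    (𝔪 : Ideal S) [h𝔪 : 𝔪.IsMaximal] (huniq : ∀ 𝔫 : Ideal S, 𝔫.IsMaximal → 𝔫 = 𝔪)
    (hres : ∀ s : S, ∃ c : R, s - algebraMap R S c ∈ 𝔪)
    (hd : Algebra.discr R e ∣ ϖ ^ (Fintype.card ι - 1)) :
    ∃ t ∈ 𝔪, ∃ v, v ∉ 𝔪 ∧ ∀ y ∈ 𝔪, ∃ z, v * y = t * z := by
  classical
  refine h19disc_points ϖ hϖ e {𝔪} (fun 𝔫 h => Finset.mem_singleton.2 (huniq 𝔫 h))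
    (fun 𝔫 h𝔫 _ s => ?_) 1 (by simp) hd 𝔪
  rw [Finset.mem_singleton.1 h𝔫]
  exact hres s

/-- **DISC, two-point form** (`l = 2`): the maximal ideals of `S` are among `𝔪₁, 𝔪₂`
(possibly equal), both with residue field `R / ϖ`, and `discr e ∣ ϖ ^ (rank - 2)`. -/
theorem h19disc_two (ϖ : R) (hϖ : Irreducible ϖ) (e : Module.Basis ι R S)
    (𝔪₁ 𝔪₂ : Ideal S) (huniq : ∀ 𝔫 : Ideal S, 𝔫.IsMaximal → 𝔫 = 𝔪₁ ∨ 𝔫 = 𝔪₂)
    (hres₁ : ∀ s : S, ∃ c : R, s - algebraMap R S c ∈ 𝔪₁)
    (hres₂ : ∀ s : S, ∃ c : R, s - algebraMap R S c ∈ 𝔪₂)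
    (hd : Algebra.discr R e ∣ ϖ ^ (Fintype.card ι - 2))
    (𝔪 : Ideal S) [h𝔪 : 𝔪.IsMaximal] :
    ∃ t ∈ 𝔪, ∃ v, v ∉ 𝔪 ∧ ∀ y ∈ 𝔪, ∃ z, v * y = t * z := by
  classical
  refine h19disc_points ϖ hϖ e {𝔪₁, 𝔪₂} (fun 𝔫 h => ?_) (fun 𝔫 h𝔫 _ s => ?_) 2
    Finset.card_le_two hd 𝔪
  · rcases huniq 𝔫 h with h | h
    · simp [h]
    · simp [h]
  · rcases Finset.mem_insert.1 h𝔫 with h | h
    · rw [h]; exact hres₁ s
    · rw [Finset.mem_singleton.1 h]; exact hres₂ s

end Gen

end H19DISC
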