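import Mathlib
import Fermat.Agent.S36.DiscGen_helper19

/-!
# helper19 — S36 (Carayol), item 86, slice LOC-A: DISC, call forms for LOC-C (helper5)

Same as `S36/DiscGen_helper19.lean`, but `R` is only assumed to be a noetherian local DOMAIN with
`maximalIdeal R = (ϖ)`, `ϖ ≠ 0` (no `IsDiscreteValuationRing` instance needed), and the
discriminant hypothesis is split as `discr e ∣ ϖ ^ m`, `m + l ≤ rank`.

* `h19disc_gen'`    : spanning form;
* `h19disc_points'` : points form (`F` a finite set of ideals containing all maximal ideals,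
  `#F ≤ l`, all maximal ideals with residue field `R / ϖ`).
-/

set_option autoImplicit false
set_option linter.style.haveILetI false
set_option linter.unusedSectionVars false

open IsLocalRing

namespace H19DISC

section Gen2

variable {R : Type*} [CommRing R] [IsDomain R] [IsLocalRing R] [IsNoetherianRing R]
variable {S : Type*} [CommRing S] [Algebra R S] [Module.Free R S] [Module.Finite R S]
variable {ι : Type*} [Fintype ι] [DecidableEq ι]

/-- **DISC, spanning form**, `R` a noetherian local domain with principal maximal ideal. -/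
theorem h19disc_gen' (ϖ : R) (hϖ : maximalIdeal R = Ideal.span {ϖ}) (hϖ0 : ϖ ≠ 0)
    (e : Module.Basis ι R S)
    {κ : Type*} [Fintype κ] (g : κ → S)
    (hg : ∀ s : S, ∃ c : κ → R, s - ∑ i, c i • g i ∈ Ideal.jacobson (⊥ : Ideal S))
    (m l : ℕ) (hl : Fintype.card κ ≤ l)
    (hd : Algebra.discr R e ∣ ϖ ^ m) (hml : m + l ≤ Fintype.card ι)
    (𝔪 : Ideal S) [h𝔪 : 𝔪.IsMaximal] :
    ∃ t ∈ 𝔪, ∃ v, v ∉ 𝔪 ∧ ∀ y ∈ 𝔪, ∃ z, v * y = t * z := by
  classical
  obtain ⟨n, n', b, hn', hb⟩ := h19disc_adapt (R := R) g hg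
  obtain ⟨u, hu⟩ := h19disc_discr_basis e b
  have hcard : Fintype.card ι = n + n' := by
    rw [← Module.finrank_eq_card_basis e, Module.finrank_eq_card_basis b]
    simp
  let E : Finset (Fin n ⊕ Fin n') := Finset.univ.map ⟨Sum.inr, Sum.inr_injective⟩
  have hE : E.card = n' := by simp [E]
  refine h19disc_main' ϖ hϖ hϖ0 b E (fun a ha => ?_) ?_ 𝔪
  · rcases a with i | j
    · exact hb i
    · exact absurd (Finset.mem_map.2 ⟨j, Finset.mem_univ _, rfl⟩) ha
  · have h1 : Fintype.card (Fin n ⊕ Fin n') - E.card = n := by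
      rw [hE]; simp
    rw [h1, hu]
    have h2 : m ≤ n := by omega
    have h3 : Algebra.discr R e ∣ ϖ ^ n := hd.trans (pow_dvd_pow ϖ h2)
    exact ((u.isUnit.pow 2).mul_left_dvd).2 h3

/-- **DISC, points form**, `R` a noetherian local domain with principal maximal ideal `(ϖ)`:
`e` ANY basis of `S`, `discr e ∣ ϖ ^ m`, `m + l ≤ rank`; all maximal ideals of `S` lie in the
finite set `F`, `#F ≤ l`, and have residue field `R / ϖ`.  Then every maximal ideal of `S` is
locally principal. -/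
theorem h19disc_points' (ϖ : R) (hϖ : maximalIdeal R = Ideal.span {ϖ}) (hϖ0 : ϖ ≠ 0)
    (e : Module.Basis ι R S) (m l : ℕ)
    (hd : Algebra.discr R e ∣ ϖ ^ m) (hml : m + l ≤ Fintype.card ι)
    (F : Finset (Ideal S)) (hF : ∀ 𝔫 : Ideal S, 𝔫.IsMaximal → 𝔫 ∈ F) (hl : F.card ≤ l)
    (hres : ∀ 𝔫 : Ideal S, 𝔫.IsMaximal → ∀ s : S, ∃ c : R, s - algebraMap R S c ∈ 𝔫)
    (𝔪 : Ideal S) [h𝔪 : 𝔪.IsMaximal] :
    ∃ t ∈ 𝔪, ∃ v, v ∉ 𝔪 ∧ ∀ y ∈ 𝔪, ∃ z, v * y = t * z := by
  obtain ⟨n, g, hcard, hg⟩ := h19disc_crt (R := R) F hF (fun 𝔫 _ h𝔫 => hres 𝔫 h𝔫)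
  exact h19disc_gen' ϖ hϖ hϖ0 e g hg m l (by simpa using hcard.trans hl) hd hml 𝔪

end Gen2

end H19DISC
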