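/-
helper22: item 86 (S36), slice LOC-C part (L7) (for helper5's `S36/LocC_helper5.lean`).

**Unramified ⇒ the discriminant is a unit at `𝔭₀`.**

`A` a domain, free of finite rank over the domain `A₀` with basis `e`; `𝔭₀` a prime of `A₀` with
residue characteristic `0`; every prime `𝔓` of `A` over `𝔭₀` is unramified in the element form
`𝔓 A_𝔓 = 𝔭₀ A_𝔓`.  Then `discr A₀ e ∉ 𝔭₀`.

* `H22L7.isNilpotent_of_trace_pow_eq_zero` : over a field of characteristic `0`, a square matrix
  all of whose positive powers have trace `0` is nilpotent (Cayley–Hamilton + Bezout + an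
  idempotent of trace `0` is `0`);
* `H22L7.repr_mem_of_mem_map` : the coordinates of an element of `𝔭₀ A` lie in `𝔭₀`;
* `H22L7.discr_notMem_of_unramified` : the statement.

Mathlib only.
-/
import Mathlib

set_option autoImplicit false
set_option linter.unusedSectionVars false
set_option linter.unusedVariables false
set_option linter.style.longLine false

noncomputable section

namespace H22L7

open Polynomial Matrix

/-- Over a field of characteristic zero, a square matrix all of whose positive powers have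
trace zero is nilpotent. -/
theorem isNilpotent_of_trace_pow_eq_zero {κ : Type*} [Field κ] [CharZero κ]
    {n : Type*} [Fintype n] [DecidableEq n]
    (N : Matrix n n κ) (h : ∀ k : ℕ, 1 ≤ k → (N ^ k).trace = 0) : IsNilpotent N := by
  classical
  have hχ0 : N.charpoly ≠ 0 := N.charpoly_monic.ne_zero
  obtain ⟨g, hg, hXg⟩ :=
    Polynomial.exists_eq_pow_rootMultiplicity_mul_and_not_dvd N.charpoly hχ0 0
  rw [map_zero, sub_zero] at hg hXg
  generalize N.charpoly.rootMultiplicity 0 = a at hg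
  have hcop : IsCoprime ((X : κ[X]) ^ (a + 1)) g := by
    refine IsCoprime.pow_left ?_
    exact (Polynomial.irreducible_X.coprime_iff_not_dvd).mpr hXg
  obtain ⟨u, v, huv⟩ := hcop
  -- the two complementary "idempotents"
  set Q : Matrix n n κ := aeval N (u * X ^ (a + 1)) with hQ
  set P : Matrix n n κ := aeval N (v * g) with hP
  have hQP : Q + P = 1 := by
    rw [hQ, hP, ← map_add, huv, map_one]
  have hQP0 : Q * P = 0 := by
    rw [hQ, hP, ← map_mul]
    have e1 : u * X ^ (a + 1) * (v * g) = u * v * X * N.charpoly := by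
      rw [hg]; ring
    rw [e1, map_mul, Matrix.aeval_self_charpoly, mul_zero]
  have hQidem : IsIdempotentElem Q := by
    show Q * Q = Q
    have : Q * (Q + P) = Q := by rw [hQP, mul_one]
    rw [mul_add, hQP0, add_zero] at this
    exact this
  have hQtr : Q.trace = 0 := by
    rw [hQ, map_mul, map_pow, aeval_X, aeval_eq_sum_range, Finset.sum_mul, Matrix.trace_sum]
    refine Finset.sum_eq_zero (fun i _ => ?_)
    rw [smul_mul_assoc, Matrix.trace_smul, ← pow_add, h _ (by omega), smul_zero]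
  have hQ0 : Q = 0 := by
    have hidem' : IsIdempotentElem (Matrix.toLin' Q) := by
      show Matrix.toLin' Q * Matrix.toLin' Q = Matrix.toLin' Q
      rw [Module.End.mul_eq_comp, ← Matrix.toLin'_mul, hQidem.eq]
    have htr' : LinearMap.trace κ (n → κ) (Matrix.toLin' Q) = 0 := by
      rw [LinearMap.trace_eq_matrix_trace κ (Pi.basisFun κ n), ← Matrix.toLin_eq_toLin',
        LinearMap.toMatrix_toLin, hQtr]
    have := (LinearMap.IsIdempotentElem.trace_eq_zero_iff hidem').mp htr'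
    exact Matrix.toLin'.injective (by rw [this, map_zero])
  have hP1 : P = 1 := by rw [← hQP, hQ0, zero_add]
  refine ⟨a + 1, ?_⟩
  calc N ^ (a + 1) = N ^ (a + 1) * P := by rw [hP1, mul_one]
    _ = aeval N (X ^ (a + 1) * (v * g)) := by
        rw [hP]; simp only [map_mul, map_pow, aeval_X]
    _ = aeval N (v * X * N.charpoly) := by
        have e2 : (X : κ[X]) ^ (a + 1) * (v * g) = v * X * N.charpoly := by
          rw [hg]; ring
        rw [e2]
    _ = 0 := by rw [map_mul, Matrix.aeval_self_charpoly, mul_zero]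

/-- The coordinates of an element of `𝔭₀ A` lie in `𝔭₀`. -/
theorem repr_mem_of_mem_map {A₀ A : Type*} [CommRing A₀] [CommRing A] [Algebra A₀ A]
    {ι : Type*} (e : Module.Basis ι A₀ A) (𝔭₀ : Ideal A₀) {y : A}
    (hy : y ∈ 𝔭₀.map (algebraMap A₀ A)) (j : ι) : e.repr y j ∈ 𝔭₀ := by
  have h1 : y ∈ (𝔭₀ • (⊤ : Submodule A₀ A)) := by
    rw [Ideal.smul_top_eq_map]; exact hy
  rw [← e.span_eq] at h1
  obtain ⟨a, ha, rfl⟩ := (Submodule.mem_ideal_smul_span_iff_exists_sum 𝔭₀ e y).mp h1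
  have h2 : (a.sum fun i c => c • e i) = Finsupp.linearCombination A₀ e a := by
    rw [Finsupp.linearCombination_apply]
  rw [h2, Module.Basis.repr_linearCombination]
  exact ha j

/-- `t • z ∈ 𝔭₀ A` for `t ∈ 𝔭₀`. -/
theorem smul_mem_map {A₀ A : Type*} [CommRing A₀] [CommRing A] [Algebra A₀ A]
    (𝔭₀ : Ideal A₀) {t : A₀} (ht : t ∈ 𝔭₀) (z : A) :
    t • z ∈ 𝔭₀.map (algebraMap A₀ A) := by
  rw [Algebra.smul_def]
  exact Ideal.mul_mem_right _ _ (Ideal.mem_map_of_mem _ ht)

/-- **(L7)** unramified ⇒ the discriminant is not in `𝔭₀`. -/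
theorem discr_notMem_of_unramified
    {A₀ A : Type*} [CommRing A₀] [IsDomain A₀] [CommRing A] [IsDomain A] [Algebra A₀ A]
    {r : ℕ} (e : Module.Basis (Fin r) A₀ A)
    (𝔭₀ : Ideal A₀) [𝔭₀.IsPrime] (hchar : CharZero (A₀ ⧸ 𝔭₀))
    (hunr : ∀ 𝔓 : Ideal A, 𝔓.IsPrime → 𝔓.comap (algebraMap A₀ A) = 𝔭₀ →
      ∀ y ∈ 𝔓, ∃ s : A, s ∉ 𝔓 ∧ s * y ∈ 𝔭₀.map (algebraMap A₀ A)) :
    Algebra.discr A₀ e ∉ 𝔭₀ := by
  classical
  intro hd
  -- Step 1: a nonzero vector in the kernel of the Gram matrix modulo `𝔭₀`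
  have hdet : ((Algebra.traceMatrix A₀ e).map (Ideal.Quotient.mk 𝔭₀)).det = 0 := by
    rw [← RingHom.mapMatrix_apply, ← RingHom.map_det]
    exact Ideal.Quotient.eq_zero_iff_mem.mpr hd
  obtain ⟨v, hv0, hv⟩ := Matrix.exists_mulVec_eq_zero_iff.mpr hdet
  choose c hc using fun j => Ideal.Quotient.mk_surjective (v j)
  obtain ⟨j0, hj0⟩ : ∃ j, c j ∉ 𝔭₀ := by
    by_contra hcon
    push Not at hcon
    apply hv0
    funext j
    rw [← hc j]
    exact Ideal.Quotient.eq_zero_iff_mem.mpr (hcon j)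
  set x : A := ∑ j, c j • e j with hx
  have hreprx : ∀ j, e.repr x j = c j := by
    intro j
    rw [hx, map_sum, Finset.sum_apply']
    simp [Finsupp.single_apply]
  have htr_e : ∀ i, Algebra.trace A₀ A (e i * x) ∈ 𝔭₀ := by
    intro i
    have h1 := congrFun hv i
    rw [Matrix.mulVec, dotProduct] at h1
    simp only [Matrix.map_apply, Pi.zero_apply] at h1
    have h2 : Algebra.trace A₀ A (e i * x) = ∑ j, Algebra.traceMatrix A₀ e i j * c j := by
      rw [hx, Finset.mul_sum, map_sum]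
      refine Finset.sum_congr rfl (fun j _ => ?_)
      rw [mul_smul_comm, map_smul, smul_eq_mul, mul_comm, Algebra.traceMatrix_apply,
        Algebra.traceForm_apply]
    rw [h2, ← Ideal.Quotient.eq_zero_iff_mem, map_sum, ← h1]
    refine Finset.sum_congr rfl (fun j _ => ?_)
    rw [map_mul, hc j]
  have htr : ∀ a : A, Algebra.trace A₀ A (a * x) ∈ 𝔭₀ := by
    intro a
    rw [← e.sum_repr a, Finset.sum_mul, map_sum]
    refine 𝔭₀.sum_mem (fun i _ => ?_)
    rw [smul_mul_assoc, map_smul, smul_eq_mul]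
    exact 𝔭₀.mul_mem_left _ (htr_e i)
  -- Step 2: `x` is nilpotent modulo `𝔭₀ A`
  have hchar' : CharZero (FractionRing (A₀ ⧸ 𝔭₀)) :=
    charZero_of_injective_algebraMap (IsFractionRing.injective (A₀ ⧸ 𝔭₀) _)
  set φ : A₀ →+* FractionRing (A₀ ⧸ 𝔭₀) :=
    (algebraMap (A₀ ⧸ 𝔭₀) (FractionRing (A₀ ⧸ 𝔭₀))).comp (Ideal.Quotient.mk 𝔭₀) with hφ
  have hφker : ∀ t : A₀, φ t = 0 ↔ t ∈ 𝔭₀ := by
    intro t
    rw [hφ, RingHom.comp_apply,
      (injective_iff_map_eq_zero' _).mp (IsFractionRing.injective (A₀ ⧸ 𝔭₀) _),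
      Ideal.Quotient.eq_zero_iff_mem]
  have hpow : ∀ k : ℕ, (Algebra.leftMulMatrix e x) ^ k = Algebra.leftMulMatrix e (x ^ k) :=
    fun k => (map_pow (Algebra.leftMulMatrix e) x k).symm
  have hmap_pow : ∀ k : ℕ, (φ.mapMatrix (Algebra.leftMulMatrix e x)) ^ k =
      φ.mapMatrix (Algebra.leftMulMatrix e (x ^ k)) := by
    intro k
    rw [← map_pow, hpow]
  have hN : IsNilpotent (φ.mapMatrix (Algebra.leftMulMatrix e x)) := by
    apply isNilpotent_of_trace_pow_eq_zero
    intro k hk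
    rw [hmap_pow, RingHom.mapMatrix_apply]
    have htrmap : ((Algebra.leftMulMatrix e (x ^ k)).map ⇑φ).trace =
        φ (Matrix.trace (Algebra.leftMulMatrix e (x ^ k))) := by
      simp only [Matrix.trace, Matrix.diag_apply, Matrix.map_apply, map_sum]
    rw [htrmap, ← Algebra.trace_eq_matrix_trace e, hφker]
    obtain ⟨k', rfl⟩ : ∃ k', k = k' + 1 := ⟨k - 1, by omega⟩
    rw [pow_succ]
    exact htr _
  obtain ⟨m, hm⟩ := hN
  have hentry : ∀ i j, Algebra.leftMulMatrix e (x ^ m) i j ∈ 𝔭₀ := by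
    intro i j
    rw [hmap_pow] at hm
    have := congrFun (congrFun hm i) j
    rw [RingHom.mapMatrix_apply, Matrix.map_apply, Matrix.zero_apply] at this
    exact (hφker _).mp this
  have hxm_e : ∀ j, x ^ m * e j ∈ 𝔭₀.map (algebraMap A₀ A) := by
    intro j
    rw [← e.sum_repr (x ^ m * e j)]
    refine Ideal.sum_mem _ (fun i _ => ?_)
    refine smul_mem_map 𝔭₀ ?_ _
    rw [← Algebra.leftMulMatrix_eq_repr_mul]
    exact hentry i j
  have hxm : x ^ m ∈ 𝔭₀.map (algebraMap A₀ A) := by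
    have h1 : x ^ m = ∑ j, e.repr 1 j • (x ^ m * e j) := by
      conv_lhs => rw [← mul_one (x ^ m), ← e.sum_repr 1, Finset.mul_sum]
      refine Finset.sum_congr rfl (fun j _ => ?_)
      rw [mul_smul_comm]
    rw [h1]
    refine Ideal.sum_mem _ (fun j _ => ?_)
    rw [Algebra.smul_def]
    exact Ideal.mul_mem_left _ _ (hxm_e j)
  -- Step 3: the colon ideal meets `A₀ ∖ 𝔭₀`
  let I : Ideal A :=
    { carrier := {s | s * x ∈ 𝔭₀.map (algebraMap A₀ A)}
      add_mem' := fun {a b} ha hb => by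
        simp only [Set.mem_ofPred_eq] at ha hb ⊢
        rw [add_mul]; exact Ideal.add_mem _ ha hb
      zero_mem' := by
        simp only [Set.mem_ofPred_eq]
        rw [zero_mul]; exact Ideal.zero_mem _
      smul_mem' := fun a b hb => by
        simp only [Set.mem_ofPred_eq] at hb ⊢
        rw [smul_eq_mul, mul_assoc]; exact Ideal.mul_mem_left _ _ hb }
  have hIle : 𝔭₀.map (algebraMap A₀ A) ≤ I := fun s hs => Ideal.mul_mem_right _ _ hs
  obtain ⟨s₀, hs₀, hs₀I⟩ : ∃ s₀ : A₀, s₀ ∉ 𝔭₀ ∧ algebraMap A₀ A s₀ ∈ I := by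
    by_contra hcon
    push Not at hcon
    have hdis : Disjoint (I : Set A)
        ((Algebra.algebraMapSubmonoid A 𝔭₀.primeCompl : Submonoid A) : Set A) := by
      rw [Set.disjoint_left]
      rintro s hsI ⟨t, ht, rfl⟩
      exact hcon t ht hsI
    obtain ⟨𝔔, h𝔔prime, hI𝔔, h𝔔S⟩ := Ideal.exists_le_prime_disjoint I _ hdis
    have hcomap : 𝔔.comap (algebraMap A₀ A) = 𝔭₀ := by
      apply le_antisymm
      · intro t ht
        by_contra htp
        exact Set.disjoint_left.mp h𝔔S ht ⟨t, htp, rfl⟩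
      · intro t ht
        exact hI𝔔 (hIle (Ideal.mem_map_of_mem _ ht))
    have hx𝔔 : x ∈ 𝔔 := h𝔔prime.mem_of_pow_mem m (hI𝔔 (hIle hxm))
    obtain ⟨s, hs𝔔, hsx⟩ := hunr 𝔔 h𝔔prime hcomap x hx𝔔
    exact hs𝔔 (hI𝔔 hsx)
  -- conclusion
  have h1 : algebraMap A₀ A s₀ * x ∈ 𝔭₀.map (algebraMap A₀ A) := hs₀I
  have h2 := repr_mem_of_mem_map e 𝔭₀ h1 j0
  rw [← Algebra.smul_def, map_smul, Finsupp.smul_apply, hreprx, smul_eq_mul] at h2
  rcases (Ideal.IsPrime.mem_or_mem ‹𝔭₀.IsPrime› h2) with h3 | h3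
  · exact hs₀ h3
  · exact hj0 h3

end H22L7

end
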