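import Mathlib
import Fermat.Prelude.Def_AlgebraicCurve_DivisorClassGroup
import Fermat.Agent.S34.Defs_helper4

/-!
# Item 86 (S36), LOC, DISC route: exact interface of the (R1) + (R3) assembly  (helper6)

Plan: `NOTES/W5-S36-LOC-lead.md`.  Everything is over `R = A ∩ L`, `L` unramified (`ϖ = q`).

## Abstract local theorem  `H6LD.DiscLocalStatement`  (= LOC-C + LOC-A, Mathlib only)
`A₀` regular local of dimension 2, `𝔪₀ = (ϖ, x₀)`, `ϖ` prime; `A` the normalisation of `A₀` in a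
finite extension `F / F₀` of degree `r` (characteristic 0).  Inputs:
* **(F)** `A` has at most `l` maximal ideals, all of residue degree one over `𝔪₀`;
* **(E)** every height-one prime of `A₀` not containing `ϖ` is unramified in `A` (`e = 1`),
  **(C)** and has residue characteristic zero;
* **(D)** an `r`-family `b` in `A` with `disc_{F/F₀}(b) = ϖ^m · P`, `ϖ ∤ P`, `m + l ≤ r`.
Output: every maximal ideal `𝔫` of `A` is generated, locally at `𝔫`, by `x₀` and one more element.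

## Global form  `H6LD.DiscGlobalStatement`
The same for `C₀ ⊆ C` noetherian normal domains and a maximal ideal `𝔫₀` of `C₀` (element form,
no localisation in the statement); (E) is a statement on the primes `Q` of `C` over the
horizontal height-one primes through `𝔫₀`.

## Chart form  `H6LD.DiscChartStatement`
The same statement for two charts `Chart R t₀ ⊆ F₀`, `Chart R t ⊆ F` (`t` the image of `t₀`) at a
closed point `𝔫₀` of the lower chart with `H4S34.RegAt`; the hypothesis (E) is in the language of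
places (`e(V | V ∩ F₀) = 1`: some `u ∈ F₀` has `V.ord u = 1`).  The output is the two-generator
hypothesis of `H26LU.l1At_of_two_gen`.
`H6LD.discChart_of_local : DiscLocalStatement → DiscChartStatement` is in
`S36/LocDiscAsm_helper6.lean`.
-/

set_option autoImplicit false
set_option synthInstance.maxHeartbeats 400000

noncomputable section

open Polynomial IntermediateField AlgebraicCurve

namespace H6LD

/-- **(DISC-LOC)**, the abstract local theorem of the DISC route (LOC-C + LOC-A). -/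
def DiscLocalStatement : Prop :=
  ∀ (A₀ A F₀ F : Type) [CommRing A₀] [IsDomain A₀] [IsNoetherianRing A₀] [IsLocalRing A₀]
    [IsIntegrallyClosed A₀] [CommRing A] [IsDomain A] [IsIntegrallyClosed A]
    [Field F₀] [CharZero F₀] [Field F] [Algebra A₀ F₀] [IsFractionRing A₀ F₀]
    [Algebra A F] [IsFractionRing A F] [Algebra A₀ A] [Algebra F₀ F] [Algebra A₀ F]
    [IsScalarTower A₀ F₀ F] [IsScalarTower A₀ A F] [FiniteDimensional F₀ F]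
    [Algebra.IsIntegral A₀ A] [Module.Finite A₀ A] [IsNoetherianRing A] [FaithfulSMul A₀ A]
    (ϖ x₀ : A₀) (_ : Prime ϖ) (_ : IsLocalRing.maximalIdeal A₀ = Ideal.span {ϖ, x₀})
    (_ : ¬ ϖ ∣ x₀)
    (r l m : ℕ) (_ : Module.finrank F₀ F = r) (_ : m + l ≤ r)
    -- (F) at most `l` maximal ideals, all of residue degree one
    (ms : Finset (Ideal A)) (_ : ms.card ≤ l) (_ : ∀ 𝔫 : Ideal A, 𝔫.IsMaximal → 𝔫 ∈ ms)
    (_ : ∀ 𝔫 : Ideal A, 𝔫.IsMaximal → ∀ y : A, ∃ a : A₀, y - algebraMap A₀ A a ∈ 𝔫)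
    -- (E) the horizontal height-one primes are unramified
    (_ : ∀ 𝔭₀ : Ideal A₀, 𝔭₀.IsPrime → 𝔭₀ ≠ ⊥ → ϖ ∉ 𝔭₀ →
      ∀ 𝔓 : Ideal A, 𝔓.IsPrime → 𝔓.comap (algebraMap A₀ A) = 𝔭₀ →
        ∀ y ∈ 𝔓, ∃ s : A, s ∉ 𝔓 ∧ s * y ∈ 𝔭₀.map (algebraMap A₀ A))
    -- (C) the horizontal primes have residue characteristic zero
    (_ : ∀ 𝔭₀ : Ideal A₀, 𝔭₀.IsPrime → ϖ ∉ 𝔭₀ → CharZero (A₀ ⧸ 𝔭₀))
    -- (D) a family of integral elements with small discriminant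
    (b : Fin r → A) (P : A₀) (_ : ¬ ϖ ∣ P)
    (_ : Algebra.discr F₀ (fun i => algebraMap A F (b i)) = algebraMap A₀ F₀ (ϖ ^ m * P)),
    ∀ 𝔫 : Ideal A, 𝔫.IsMaximal → ∃ t ∈ 𝔫, ∀ y ∈ 𝔫, ∃ s a c : A, s ∉ 𝔫 ∧
      s * y = a * algebraMap A₀ A x₀ + c * t

/-- **(DISC-GLOBAL)**: the globalised form of `DiscLocalStatement` (generic, Mathlib only).
`C₀ ⊆ C` noetherian integrally closed domains, `C` integral over `C₀`, fraction fields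
`F₀ ⊆ F`; `𝔫₀` a maximal ideal of `C₀` which is regular, `𝔫₀ = (ϖ, x₀)` locally, `(ϖ)` prime
locally.  All hypotheses and the conclusion are in element form ("`∃ s ∉ 𝔫`").
(Proof: `A₀ := (C₀)_{𝔫₀}`, `A := C[(C₀ ∖ 𝔫₀)⁻¹]` in `DiscLocalStatement`.) -/
def DiscGlobalStatement : Prop :=
  ∀ (C₀ C F₀ F : Type) [CommRing C₀] [IsDomain C₀] [IsNoetherianRing C₀] [IsIntegrallyClosed C₀]
    [CommRing C] [IsDomain C] [IsNoetherianRing C] [IsIntegrallyClosed C]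
    [Field F₀] [CharZero F₀] [Field F] [Algebra C₀ F₀] [IsFractionRing C₀ F₀]
    [Algebra C F] [IsFractionRing C F] [Algebra C₀ C] [Algebra F₀ F] [Algebra C₀ F]
    [IsScalarTower C₀ F₀ F] [IsScalarTower C₀ C F] [FiniteDimensional F₀ F]
    [Algebra.IsIntegral C₀ C]
    (𝔫₀ : Ideal C₀) (_ : 𝔫₀.IsMaximal) (ϖ x₀ : C₀) (_ : ϖ ≠ 0) (_ : ϖ ∈ 𝔫₀) (_ : x₀ ∈ 𝔫₀)
    -- (G0) `𝔫₀ = (ϖ, x₀)` locally, `(ϖ)` prime locally, `x₀ ∉ (ϖ)` locally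
    (_ : ∀ y ∈ 𝔫₀, ∃ s a b : C₀, s ∉ 𝔫₀ ∧ s * y = a * ϖ + b * x₀)
    (_ : ∀ a b : C₀, (∃ c s : C₀, s ∉ 𝔫₀ ∧ s * (a * b) = c * ϖ) →
      (∃ c s : C₀, s ∉ 𝔫₀ ∧ s * a = c * ϖ) ∨ (∃ c s : C₀, s ∉ 𝔫₀ ∧ s * b = c * ϖ))
    (_ : ¬ ∃ c s : C₀, s ∉ 𝔫₀ ∧ s * x₀ = c * ϖ)
    -- (C) every positive integer divides a power of `ϖ`
    (_ : ∀ n : ℕ, n ≠ 0 → ∃ (k : ℕ) (c : C₀), c * (n : C₀) = ϖ ^ k)
    (r l m : ℕ) (_ : Module.finrank F₀ F = r) (_ : m + l ≤ r)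
    -- (F) at most `l` maximal ideals over `𝔫₀`, all of residue degree one
    (ms : Finset (Ideal C)) (_ : ms.card ≤ l)
    (_ : ∀ 𝔫 : Ideal C, 𝔫.IsMaximal → 𝔫.comap (algebraMap C₀ C) = 𝔫₀ → 𝔫 ∈ ms)
    (_ : ∀ 𝔫 : Ideal C, 𝔫.IsMaximal → 𝔫.comap (algebraMap C₀ C) = 𝔫₀ →
      ∀ y : C, ∃ a : C₀, y - algebraMap C₀ C a ∈ 𝔫)
    -- (E) the horizontal height-one primes through `𝔫₀` are unramified
    (_ : ∀ Q : Ideal C, Q.IsPrime → (Q.comap (algebraMap C₀ C)).height = 1 →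
      ϖ ∉ Q.comap (algebraMap C₀ C) → Q.comap (algebraMap C₀ C) ≤ 𝔫₀ →
        ∀ y ∈ Q, ∃ s : C, s ∉ Q ∧ s * y ∈ (Q.comap (algebraMap C₀ C)).map (algebraMap C₀ C))
    -- (D) a family, integral at `𝔫₀`, with small discriminant
    (b : Fin r → F)
    (_ : ∀ i, ∃ (s : C₀) (c : C), s ∉ 𝔫₀ ∧ algebraMap C₀ F s * b i = algebraMap C F c)
    (P : F₀) (_ : ∃ a s : C₀, s ∉ 𝔫₀ ∧ algebraMap C₀ F₀ s * P = algebraMap C₀ F₀ a)
    (_ : ¬ ∃ a s : C₀, s ∉ 𝔫₀ ∧ algebraMap C₀ F₀ s * P = algebraMap C₀ F₀ (a * ϖ))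
    (_ : Algebra.discr F₀ b = algebraMap C₀ F₀ ϖ ^ m * P),
    ∀ 𝔫 : Ideal C, 𝔫.IsMaximal → 𝔫.comap (algebraMap C₀ C) = 𝔫₀ →
      ∃ t ∈ 𝔫, ∀ y ∈ 𝔫, ∃ s a c : C, s ∉ 𝔫 ∧ s * y = a * algebraMap C₀ C x₀ + c * t

section chart

open H4S34

/-- **(DISC-CHART)**: the chart form of the DISC route.  `F / F₀` finite of degree `r`,
`t = algebraMap F₀ F t₀`; `𝔫₀` a regular closed point of the lower chart, `𝔫₀ = (ϖ, x₀)`;
`j₀ ∈ (M₀)_{𝔫₀}` ("`𝔫₀` is not a cusp").  Then every maximal ideal `𝔫` of the upper chart over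
`𝔫₀` is generated, locally at `𝔫`, by `x₀` and one more element. -/
def DiscChartStatement : Prop :=
  ∀ (R : Type) [CommRing R] [IsDomain R] [IsDiscreteValuationRing R]
    (K : Type) [Field K] [CharZero K] [Algebra R K] [IsFractionRing R K]
    (F₀ F : Type) [Field F₀] [Algebra K F₀] [Algebra R F₀] [IsScalarTower R K F₀]
    [Field F] [Algebra K F] [Algebra R F] [IsScalarTower R K F]
    [Algebra F₀ F] [IsScalarTower K F₀ F] [IsScalarTower R F₀ F] [FiniteDimensional F₀ F]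
    (ϖ : R) (_ : Irreducible ϖ) (t₀ : F₀) (_ : Transcendental K t₀)
    (_ : FiniteDimensional K⟮t₀⟯ F₀) (_ : FiniteDimensional K⟮algebraMap F₀ F t₀⟯ F)
    (𝔫₀ : Ideal (Chart R t₀)) (_ : IsClosedPt R ϖ t₀ 𝔫₀)
    -- (G0) the lower point is regular, `𝔫₀ = (ϖ, x₀)`, `(ϖ)` prime
    (x₀ : Chart R t₀) (_ : x₀ ∈ 𝔫₀)
    (_ : ∀ y ∈ 𝔫₀, ∃ s a b : Chart R t₀, s ∉ 𝔫₀ ∧
      (s : F₀) * y = a * algebraMap R F₀ ϖ + b * x₀)
    (_ : ∀ a b : Chart R t₀, InLoc R t₀ 𝔫₀ ((a : F₀) * b * (algebraMap R F₀ ϖ)⁻¹) →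
      InLoc R t₀ 𝔫₀ ((a : F₀) * (algebraMap R F₀ ϖ)⁻¹) ∨
        InLoc R t₀ 𝔫₀ ((b : F₀) * (algebraMap R F₀ ϖ)⁻¹))
    (_ : ¬ InLoc R t₀ 𝔫₀ ((x₀ : F₀) * (algebraMap R F₀ ϖ)⁻¹))
    (r l m : ℕ) (_ : Module.finrank F₀ F = r) (_ : m + l ≤ r)
    -- (F) at most `l` points above `𝔫₀`, all of residue degree one
    (ms : Finset (Ideal (Chart R (algebraMap F₀ F t₀)))) (_ : ms.card ≤ l)
    (_ : ∀ 𝔫 : Ideal (Chart R (algebraMap F₀ F t₀)), 𝔫.IsMaximal →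
      (∀ y : Chart R t₀, y ∈ 𝔫₀ → ∀ y' : Chart R (algebraMap F₀ F t₀),
        (y' : F) = algebraMap F₀ F y → y' ∈ 𝔫) → 𝔫 ∈ ms)
    (_ : ∀ 𝔫 : Ideal (Chart R (algebraMap F₀ F t₀)), 𝔫.IsMaximal →
      (∀ y : Chart R t₀, y ∈ 𝔫₀ → ∀ y' : Chart R (algebraMap F₀ F t₀),
        (y' : F) = algebraMap F₀ F y → y' ∈ 𝔫) →
      ∀ y : Chart R (algebraMap F₀ F t₀), ∃ (a : Chart R t₀)
        (y' : Chart R (algebraMap F₀ F t₀)), (y' : F) = algebraMap F₀ F a ∧ y - y' ∈ 𝔫)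
    -- (E) the places through `𝔫₀` are unramified over `F₀`
    (j₀ : F₀) (_ : InLoc R t₀ 𝔫₀ j₀)
    (_ : ∀ V : Place K F, 0 ≤ V.ord (algebraMap F₀ F j₀) →
      ∃ u : F₀, V.ord (algebraMap F₀ F u) = 1)
    -- (D) a family, integral at `𝔫₀`, with small discriminant
    (b : Fin r → F)
    (_ : ∀ i, ∃ (s : Chart R t₀) (c : Chart R (algebraMap F₀ F t₀)), s ∉ 𝔫₀ ∧
      algebraMap F₀ F s * b i = c)
    (P : F₀) (_ : InLoc R t₀ 𝔫₀ P) (_ : ¬ InLoc R t₀ 𝔫₀ (P * (algebraMap R F₀ ϖ)⁻¹))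
    (_ : Algebra.discr F₀ b = algebraMap R F₀ ϖ ^ m * P),
    ∀ 𝔫 : Ideal (Chart R (algebraMap F₀ F t₀)), 𝔫.IsMaximal →
      (∀ y : Chart R t₀, y ∈ 𝔫₀ → ∀ y' : Chart R (algebraMap F₀ F t₀),
        (y' : F) = algebraMap F₀ F y → y' ∈ 𝔫) →
      ∃ (x₀' t' : Chart R (algebraMap F₀ F t₀)), (x₀' : F) = algebraMap F₀ F x₀ ∧ x₀' ∈ 𝔫 ∧
        t' ∈ 𝔫 ∧ ∀ y ∈ 𝔫, ∃ s a c : Chart R (algebraMap F₀ F t₀), s ∉ 𝔫 ∧
          (s : F) * y = a * (x₀' : F) + c * t'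

end chart

end H6LD

end
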