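/-
helper26: item 86 (S36), slice (LOC3a) = RegMultAt: (LOC) at a FACTORIAL point, generic form.

`B` a noetherian local domain with fraction field `F`, factorial (e.g. `𝔪 = (g, x)` with `(g)`
prime, `g` ANY element: `H5CA.h5ca_reg_ufd`), `ϖ ≠ 0` in `B`, `K ⊆ B[1/ϖ]` a field.
If `f ∈ Fˣ` has `n ∣ V.ord f` at every place `V` of `F / K`, then
  `f · w = zⁿ · u · v`,  `u ∈ Bˣ`,  `v, w ∣ ϖ^k`   (`locUFD_unit`),
in particular `ϖ^m (f / zⁿ)^{±1} ∈ B` (`locUFD_core`): this is (L1) at the point.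

Difference with helper21's `H21LR.locReg_unit` (S34, regular point of a REDUCED fibre): there the
generator `π` of the prime is the uniformizer `ϖ` of the base; here the special fibre may be
non-reduced / have several branches (`ϖ = unit · a · b^(q-1) · c`), only factoriality is used.

* `locUFD_elem`       : element form over a chart ring `A` and a prime `𝔫`
                        (`𝔫 A_𝔫 = (g, x)`, `g` prime in `A_𝔫`);
* `H26LU.RegAtG`      : the hypothesis in the language of `H4S34` (`RegAt` with `g` instead of `ϖ`);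
* `H26LU.locRegG`     : `RegAtG` + `n ∣ div f` ⟹ `H4S34.L1At`;
* unit forms `locUFD_unit0`, `locUFD_unit0_elem` (for the Frobenius-weight type arguments).
-/
import Mathlib
import Fermat.Prelude.Def_AlgebraicCurve_DivisorClassGroup
import Fermat.Agent.S34.Defs_helper4
import Fermat.Agent.S34.LocRegCore_helper21
import Fermat.Agent.S34.LocRegLoc_helper21
import Fermat.Agent.S34.LocReg_helper21

set_option autoImplicit false
set_option linter.unusedSectionVars false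
set_option linter.unusedVariables false
set_option linter.style.haveILetI false
set_option synthInstance.maxHeartbeats 400000

noncomputable section

namespace H26LU

open AlgebraicCurve H25KR IsLocalRing

section decomp

variable {B : Type*} [CommRing B] [IsDomain B] [UniqueFactorizationMonoid B]

/-- in a UFD every nonzero `c` is `v · c'` with `v ∣ ϖ^k` and `c'` prime to `ϖ`. -/
theorem exists_vert_decomp (ϖ : B) (c : B) (hc : c ≠ 0) :
    ∃ (v c' : B) (k : ℕ), c = v * c' ∧ v ∣ ϖ ^ k ∧ ∀ p : B, Prime p → p ∣ ϖ → ¬ p ∣ c' := by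
  classical
  revert hc
  refine UniqueFactorizationMonoid.induction_on_prime c (fun h => absurd rfl h) ?_ ?_
  · intro x hx _
    refine ⟨1, x, 0, (one_mul x).symm, by simp, ?_⟩
    intro p hp _ hpx
    exact hp.not_isUnit (isUnit_of_dvd_unit hpx hx)
  · intro a p ha0 hp ih _
    obtain ⟨v, c', k, e, hv, hc'⟩ := ih ha0
    by_cases hpϖ : p ∣ ϖ
    · refine ⟨p * v, c', k + 1, by rw [e]; ring, ?_, hc'⟩
      rw [pow_succ, mul_comm (ϖ ^ k) ϖ]
      exact mul_dvd_mul hpϖ hv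
    · refine ⟨v, p * c', k, by rw [e]; ring, hv, ?_⟩
      intro r hr hrϖ hrd
      rcases hr.dvd_or_dvd hrd with h | h
      · exact hpϖ ((hr.irreducible.dvd_symm hp.irreducible h).trans hrϖ)
      · exact hc' r hr hrϖ h

end decomp

section core

variable {B : Type*} [CommRing B] [IsDomain B] [IsNoetherianRing B] [IsLocalRing B]
  [UniqueFactorizationMonoid B]
variable {F : Type*} [Field F] [Algebra B F] [IsFractionRing B F]
variable {K : Type*} [Field K] [Algebra K F]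

/-- **(LOC) at a factorial point, abstract core, unit form**: `f · w = gⁿ · u · v` with
`v, w ∣ ϖ^k`. -/
theorem locUFD_unit (ϖ : B) (hϖ0 : ϖ ≠ 0)
    (hK : ∀ c : K, ∃ (k : ℕ) (b : B),
      algebraMap K F c * algebraMap B F ϖ ^ k = algebraMap B F b)
    (n : ℕ) (hn : 0 < n) (f : F) (hf : f ≠ 0)
    (hdiv : ∀ V : Place K F, (n : ℤ) ∣ V.ord f) :
    ∃ (g : F) (u : Bˣ) (v w : B) (k : ℕ), g ≠ 0 ∧ v ∣ ϖ ^ k ∧ w ∣ ϖ ^ k ∧
      (∀ p : B, Prime p → p ∣ ϖ → ∃ c s : B, ¬ p ∣ c ∧ ¬ p ∣ s ∧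
        f * algebraMap B F (w * s) = algebraMap B F (v * c)) ∧
      f * algebraMap B F w = g ^ n * algebraMap B F u * algebraMap B F v := by
  classical
  have hinj : Function.Injective (algebraMap B F) := IsFractionRing.injective B F
  obtain ⟨c, s, hs0, rfl⟩ := IsFractionRing.div_surjective (A := B) f
  have hs : s ≠ 0 := nonZeroDivisors.ne_zero hs0
  have hc : c ≠ 0 := by
    rintro rfl
    apply hf
    simp
  obtain ⟨v, c', k₁, ec, hv, hc'⟩ := exists_vert_decomp ϖ c hc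
  obtain ⟨w, s', k₂, es, hw, hs'⟩ := exists_vert_decomp ϖ s hs
  have hv0 : v ≠ 0 := fun h => hc (by rw [ec, h, zero_mul])
  have hw0 : w ≠ 0 := fun h => hs (by rw [es, h, zero_mul])
  have hc'0 : c' ≠ 0 := fun h => hc (by rw [ec, h, mul_zero])
  have hs'0 : s' ≠ 0 := fun h => hs (by rw [es, h, mul_zero])
  have hvF : algebraMap B F v ≠ 0 := H21PB.map_ne_zero' hv0
  have hwF : algebraMap B F w ≠ 0 := H21PB.map_ne_zero' hw0
  have hc'F : algebraMap B F c' ≠ 0 := H21PB.map_ne_zero' hc'0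
  have hs'F : algebraMap B F s' ≠ 0 := H21PB.map_ne_zero' hs'0
  have hsF : algebraMap B F s ≠ 0 := H21PB.map_ne_zero' hs
  -- the `ϖ`-primitive part
  set f' : F := algebraMap B F c' / algebraMap B F s' with hf'
  have hf'0 : f' ≠ 0 := div_ne_zero hc'F hs'F
  have hff' : algebraMap B F c / algebraMap B F s * algebraMap B F w = f' * algebraMap B F v := by
    rw [hf', ec, es, map_mul, map_mul]
    field_simp
  have hvk : v ∣ ϖ ^ (k₁ + k₂) := hv.trans (pow_dvd_pow ϖ (Nat.le_add_right _ _))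
  have hwk : w ∣ ϖ ^ (k₁ + k₂) := hw.trans (pow_dvd_pow ϖ (Nat.le_add_left _ _))
  have hloc : ∀ p : B, Prime p → ∃ (z : F) (a s : B), ¬ p ∣ a ∧ ¬ p ∣ s ∧
      f' * algebraMap B F s = z ^ n * algebraMap B F a := by
    intro p hp
    by_cases hpϖ : p ∣ ϖ
    · refine ⟨1, c', s', hc' p hp hpϖ, hs' p hp hpϖ, ?_⟩
      rw [hf', one_pow, one_mul]
      field_simp
    · -- `p` is a horizontal prime: use the place of `B_(p)`
      haveI hPp : (Ideal.span {p}).IsPrime := H21LR.span_isPrime hp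
      have hϖP : ϖ ∉ Ideal.span {p} := fun hmem => hpϖ (Ideal.mem_span_singleton.1 hmem)
      have hϖkP : ∀ j : ℕ, ϖ ^ j ∉ Ideal.span {p} := fun j hmem =>
        hϖP (hPp.mem_of_pow_mem j hmem)
      have hnd : ∀ d : B, d ∣ ϖ ^ (k₁ + k₂) → d ∉ Ideal.span {p} := by
        rintro d ⟨e, he⟩ hmem
        apply hϖkP (k₁ + k₂)
        rw [he]
        exact Ideal.mul_mem_right _ _ hmem
      have hKV : ∀ c : K, algebraMap K F c ∈
          valSub F (Ideal.span {p}) (H21LR.isLocPrincipal_span hp) := by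
        intro c
        obtain ⟨j, b, hb⟩ := hK c
        exact ⟨b, ϖ ^ j, hϖkP j, by rw [map_pow]; exact hb⟩
      obtain ⟨z, c₁, s₁, hz, hc₁, hs₁, e₁⟩ :=
        H21PB.exists_pow_of_dvd (H21LR.isLocPrincipal_span hp) hp.ne_zero hKV hf
          (hdiv (H21PB.placeOf (H21LR.isLocPrincipal_span hp) K hp.ne_zero hKV))
      refine ⟨z, c₁ * w, s₁ * v, ?_, ?_, ?_⟩
      · intro hd
        exact H25KR.mul_nmem hc₁ (hnd w hwk) (Ideal.mem_span_singleton.2 hd)
      · intro hd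
        exact H25KR.mul_nmem hs₁ (hnd v hvk) (Ideal.mem_span_singleton.2 hd)
      · rw [map_mul, map_mul]
        linear_combination (algebraMap B F w) * e₁ - (algebraMap B F s₁) * hff'
  obtain ⟨g, u, hgu⟩ := H5CA.h5ca_ufd_kummer n hn f' hf'0 hloc
  have hg0 : g ≠ 0 := by
    rintro rfl
    rw [zero_pow hn.ne', zero_mul] at hgu
    exact hf'0 hgu
  refine ⟨g, u, v, w, k₁ + k₂, hg0, hvk, hwk, ?_, by rw [hff', hgu]⟩
  intro p hp hpϖ
  refine ⟨c', s', hc' p hp hpϖ, hs' p hp hpϖ, ?_⟩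
  rw [map_mul, map_mul, ← mul_assoc, hff', hf']
  field_simp

/-- **(LOC) at a factorial point, abstract core**: `ϖ^m (f / zⁿ)^{±1} ∈ B`. -/
theorem locUFD_core (ϖ : B) (hϖ0 : ϖ ≠ 0)
    (hK : ∀ c : K, ∃ (k : ℕ) (b : B),
      algebraMap K F c * algebraMap B F ϖ ^ k = algebraMap B F b)
    (n : ℕ) (hn : 0 < n) (f : F) (hf : f ≠ 0)
    (hdiv : ∀ V : Place K F, (n : ℤ) ∣ V.ord f) :
    ∃ z : F, z ≠ 0 ∧ ∃ (m : ℕ) (b₁ b₂ : B),
      algebraMap B F ϖ ^ m * (f * (z ^ n)⁻¹) = algebraMap B F b₁ ∧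
      algebraMap B F ϖ ^ m * (f * (z ^ n)⁻¹)⁻¹ = algebraMap B F b₂ := by
  obtain ⟨g, u, v, w, k, hg0, ⟨v', hv'⟩, ⟨w', hw'⟩, -, e⟩ :=
    locUFD_unit ϖ hϖ0 hK n hn f hf hdiv
  have hϖF : algebraMap B F ϖ ≠ 0 := H21PB.map_ne_zero' hϖ0
  have huF : algebraMap B F (u : B) ≠ 0 := H21PB.map_ne_zero' u.ne_zero
  have hgn : g ^ n ≠ 0 := pow_ne_zero n hg0
  have hk0 : ϖ ^ k ≠ 0 := pow_ne_zero k hϖ0
  have hv0 : v ≠ 0 := fun h => hk0 (by rw [hv', h, zero_mul])
  have hw0 : w ≠ 0 := fun h => hk0 (by rw [hw', h, zero_mul])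
  have hv'0 : v' ≠ 0 := fun h => hk0 (by rw [hv', h, mul_zero])
  have hw'0 : w' ≠ 0 := fun h => hk0 (by rw [hw', h, mul_zero])
  have hvF : algebraMap B F v ≠ 0 := H21PB.map_ne_zero' hv0
  have hwF : algebraMap B F w ≠ 0 := H21PB.map_ne_zero' hw0
  have hv'F : algebraMap B F v' ≠ 0 := H21PB.map_ne_zero' hv'0
  have hw'F : algebraMap B F w' ≠ 0 := H21PB.map_ne_zero' hw'0
  have Ev : algebraMap B F ϖ ^ k = algebraMap B F v * algebraMap B F v' := by
    rw [← map_pow, hv', map_mul]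
  have Ew : algebraMap B F ϖ ^ k = algebraMap B F w * algebraMap B F w' := by
    rw [← map_pow, hw', map_mul]
  have hfe : f * (g ^ n)⁻¹ = algebraMap B F u * algebraMap B F v / algebraMap B F w := by
    field_simp
    linear_combination e
  have huinv : algebraMap B F ((u⁻¹ : Bˣ) : B) = (algebraMap B F (u : B))⁻¹ := by
    apply eq_inv_of_mul_eq_one_left
    rw [← map_mul, Units.inv_mul, map_one]
  refine ⟨g, hg0, k, u * v * w', ((u⁻¹ : Bˣ) : B) * w * v', ?_, ?_⟩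
  · rw [hfe, map_mul, map_mul, Ew]
    field_simp
  · rw [hfe, map_mul, map_mul, huinv, Ev]
    field_simp

/-- **(LOC) at a factorial point, unit form**: if moreover `f` is a unit at every vertical prime
(`f · s = c` with `p ∤ s, c` for the primes `p ∣ ϖ`), then `f = zⁿ · u`, `u ∈ Bˣ`. -/
theorem locUFD_unit0 (ϖ : B) (hϖ0 : ϖ ≠ 0)
    (hK : ∀ c : K, ∃ (k : ℕ) (b : B),
      algebraMap K F c * algebraMap B F ϖ ^ k = algebraMap B F b)
    (n : ℕ) (hn : 0 < n) (f : F) (hf : f ≠ 0)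
    (hdiv : ∀ V : Place K F, (n : ℤ) ∣ V.ord f)
    (hunit : ∀ p : B, Prime p → p ∣ ϖ → ∃ s c : B, ¬ p ∣ s ∧ ¬ p ∣ c ∧
      f * algebraMap B F s = algebraMap B F c) :
    ∃ (z : F) (u : Bˣ), z ≠ 0 ∧ f = z ^ n * algebraMap B F u := by
  classical
  have hloc : ∀ p : B, Prime p → ∃ (z : F) (a s : B), ¬ p ∣ a ∧ ¬ p ∣ s ∧
      f * algebraMap B F s = z ^ n * algebraMap B F a := by
    intro p hp
    by_cases hpϖ : p ∣ ϖ
    · obtain ⟨s, c, hs, hc, e⟩ := hunit p hp hpϖ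
      exact ⟨1, c, s, hc, hs, by rw [one_pow, one_mul]; exact e⟩
    · haveI hPp : (Ideal.span {p}).IsPrime := H21LR.span_isPrime hp
      have hϖP : ϖ ∉ Ideal.span {p} := fun hmem => hpϖ (Ideal.mem_span_singleton.1 hmem)
      have hϖkP : ∀ j : ℕ, ϖ ^ j ∉ Ideal.span {p} := fun j hmem =>
        hϖP (hPp.mem_of_pow_mem j hmem)
      have hKV : ∀ c : K, algebraMap K F c ∈
          valSub F (Ideal.span {p}) (H21LR.isLocPrincipal_span hp) := by
        intro c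
        obtain ⟨j, b, hb⟩ := hK c
        exact ⟨b, ϖ ^ j, hϖkP j, by rw [map_pow]; exact hb⟩
      obtain ⟨z, c₁, s₁, hz, hc₁, hs₁, e₁⟩ :=
        H21PB.exists_pow_of_dvd (H21LR.isLocPrincipal_span hp) hp.ne_zero hKV hf
          (hdiv (H21PB.placeOf (H21LR.isLocPrincipal_span hp) K hp.ne_zero hKV))
      exact ⟨z, c₁, s₁, fun hd => hc₁ (Ideal.mem_span_singleton.2 hd),
        fun hd => hs₁ (Ideal.mem_span_singleton.2 hd), e₁⟩
  obtain ⟨g, u, hgu⟩ := H5CA.h5ca_ufd_kummer n hn f hf hloc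
  have hg0 : g ≠ 0 := by
    rintro rfl
    rw [zero_pow hn.ne', zero_mul] at hgu
    exact hf hgu
  exact ⟨g, u, hg0, hgu⟩

end core

section elem

variable {A : Type*} [CommRing A] [IsDomain A] [IsNoetherianRing A]
variable {F : Type*} [Field F] [Algebra A F] [IsFractionRing A F]
variable {K : Type*} [Field K] [Algebra K F]

/-- **(LOC) at a factorial point, element form**: `𝔫 A_𝔫 = (g, x)` with `g` prime in `A_𝔫`
(`g` any element of `𝔫`), `K ⊆ A[1/ϖ]`. -/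
theorem locUFD_elem (𝔫 : Ideal A) [h𝔫 : 𝔫.IsPrime] (g : A) (hg0 : g ≠ 0) (hg𝔫 : g ∈ 𝔫)
    (hgen : ∃ x ∈ 𝔫, ∀ y ∈ 𝔫, ∃ s a b : A, s ∉ 𝔫 ∧ s * y = a * g + b * x)
    (hprime : ∀ a b : A, (∃ c s : A, s ∉ 𝔫 ∧ s * (a * b) = c * g) →
      (∃ c s : A, s ∉ 𝔫 ∧ s * a = c * g) ∨ (∃ c s : A, s ∉ 𝔫 ∧ s * b = c * g))
    (ϖ : A) (hϖ0 : ϖ ≠ 0)
    (hK : ∀ c : K, ∃ (k : ℕ) (b : A),
      algebraMap K F c * algebraMap A F ϖ ^ k = algebraMap A F b)
    (n : ℕ) (hn : 0 < n) (f : F) (hf : f ≠ 0)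
    (hdiv : ∀ V : Place K F, (n : ℤ) ∣ V.ord f) :
    ∃ z : F, z ≠ 0 ∧ ∃ (m : ℕ) (a₁ s₁ a₂ s₂ : A), s₁ ∉ 𝔫 ∧ s₂ ∉ 𝔫 ∧
      algebraMap A F s₁ * (algebraMap A F ϖ ^ m * (f * (z ^ n)⁻¹)) = algebraMap A F a₁ ∧
      algebraMap A F s₂ * (algebraMap A F ϖ ^ m * (f * (z ^ n)⁻¹)⁻¹) = algebraMap A F a₂ := by
  -- the local ring as a subalgebra of `F`
  let B := Localization.subalgebra.ofField F 𝔫.primeCompl (H21LR.primeCompl_le 𝔫)
  haveI hBloc : IsLocalization.AtPrime B 𝔫 :=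
    Localization.subalgebra.isLocalization_ofField F 𝔫.primeCompl (H21LR.primeCompl_le 𝔫)
  haveI : IsFractionRing B F := inferInstance
  haveI : IsScalarTower A B F := inferInstance
  haveI : IsLocalRing B := IsLocalization.AtPrime.isLocalRing B 𝔫
  haveI : IsNoetherianRing B := IsLocalization.isNoetherianRing 𝔫.primeCompl B inferInstance
  haveI : IsDomain B := inferInstance
  obtain ⟨x, hx𝔫, hgen'⟩ := hgen
  have hπp : Prime (algebraMap A B g) := H21LR.prime_map (F := F) B 𝔫 g hg0 hg𝔫 hprime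
  have hπ : (Ideal.span {algebraMap A B g}).IsPrime :=
    (Ideal.span_singleton_prime hπp.ne_zero).2 hπp
  have hm : maximalIdeal B = Ideal.span {algebraMap A B g, algebraMap A B x} :=
    H21LR.maximalIdeal_eq (F := F) B 𝔫 g x hg𝔫 hx𝔫 hgen'
  haveI : UniqueFactorizationMonoid B :=
    H5CA.h5ca_reg_ufd (algebraMap A B g) (algebraMap A B x) hπp.ne_zero hπ hm
  have hinj : Function.Injective (algebraMap A B) :=
    IsLocalization.injective B (H21LR.primeCompl_le 𝔫)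
  have hϖB : algebraMap A B ϖ ≠ 0 := fun h0 => hϖ0 (hinj (by rw [h0, map_zero]))
  have hK' : ∀ c : K, ∃ (k : ℕ) (b : B),
      algebraMap K F c * algebraMap B F (algebraMap A B ϖ) ^ k = algebraMap B F b := by
    intro c
    obtain ⟨k, b, hb⟩ := hK c
    exact ⟨k, algebraMap A B b, by rw [H21LR.algMap_algMap, H21LR.algMap_algMap]; exact hb⟩
  obtain ⟨z, hz, m, b₁, b₂, e₁, e₂⟩ :=
    locUFD_core (algebraMap A B ϖ) hϖB hK' n hn f hf hdiv
  rw [H21LR.algMap_algMap] at e₁ e₂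
  obtain ⟨a₁, s₁, hs₁, E₁⟩ := (H21LR.mem_range_iff (F := F) B 𝔫 _).1 ⟨b₁, e₁.symm⟩
  obtain ⟨a₂, s₂, hs₂, E₂⟩ := (H21LR.mem_range_iff (F := F) B 𝔫 _).1 ⟨b₂, e₂.symm⟩
  exact ⟨z, hz, m, a₁, s₁, a₂, s₂, hs₁, hs₂, E₁, E₂⟩

end elem

/-! ### chart form -/

section chart

open Polynomial IntermediateField H7S18 H4S34

/-- **factorial point** (`H4S34.RegAt` with an arbitrary element `g` of the chart ring in the
role of `ϖ`): in `B_𝔫`, `(g)` is prime and `𝔫 B_𝔫 = (g, x)`.  E.g. a point of a component of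
multiplicity `q - 1` (`ϖ = unit · g^(q-1)`), or a point where several branches meet on a regular
model (`ϖ = unit · g · g'^(q-1) · g''`). -/
def RegAtG (R : Type) [CommRing R] {E : Type} [Field E] [Algebra R E] (t : E)
    (𝔫 : Ideal (Chart R t)) : Prop :=
  ∃ g : Chart R t, g ∈ 𝔫 ∧ g ≠ 0 ∧
    (∃ x ∈ 𝔫, ∀ y ∈ 𝔫, ∃ s a b : Chart R t, s ∉ 𝔫 ∧
      (s : E) * y = a * (g : E) + b * x) ∧
    (∀ a b : Chart R t, InLoc R t 𝔫 ((a : E) * b * (g : E)⁻¹) →
      InLoc R t 𝔫 ((a : E) * (g : E)⁻¹) ∨ InLoc R t 𝔫 ((b : E) * (g : E)⁻¹))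

/-- a regular point of a reduced fibre is a factorial point. -/
theorem regAtG_of_regAt (R : Type) [CommRing R] {E : Type} [Field E] [Algebra R E] (ϖ : R)
    (hϖ : algebraMap R E ϖ ≠ 0) (t : E) (𝔫 : Ideal (Chart R t)) (h𝔫 : IsClosedPt R ϖ t 𝔫)
    (h : RegAt R ϖ t 𝔫) : RegAtG R t 𝔫 := by
  refine ⟨algebraMap R (Chart R t) ϖ, h𝔫.2 _ rfl, ?_, h.1, h.2⟩
  intro h0
  apply hϖ
  have := congrArg (fun z : Chart R t => (z : E)) h0
  simpa using this

/-- **(LOC) at factorial points**: `RegAtG` and `n ∣ div f` give (L1). -/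
def LocRegGStatement : Prop :=
  ∀ (R : Type) [CommRing R] [IsDomain R] [IsDiscreteValuationRing R]
    (K : Type) [Field K] [CharZero K] [Algebra R K] [IsFractionRing R K]
    (F : Type) [Field F] [Algebra K F] [Algebra R F] [IsScalarTower R K F]
    (ϖ : R) (_ : Irreducible ϖ) (t : F) (_ : Transcendental K t)
    (_ : FiniteDimensional K⟮t⟯ F)
    (n : ℕ) (_ : 0 < n) (f : F) (_ : f ≠ 0)
    (_ : ∀ V : Place K F, (n : ℤ) ∣ V.ord f)
    (𝔫 : Ideal (Chart R t)) (_ : 𝔫.IsPrime) (_ : RegAtG R t 𝔫),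
    L1At R ϖ t 𝔫 n f

/-- **(LOC) at factorial points**, proved. -/
theorem locRegG : LocRegGStatement := by
  intro R _ _ _ K _ _ _ _ F _ _ _ _ ϖ hϖ t ht hfin n hn f hf hdiv 𝔫 h𝔫 hreg
  haveI := hfin
  haveI : IsNoetherianRing (Chart R t) := H21LR.chart_noeth R K ht
  haveI : IsFractionRing (Chart R t) F := H21LR.chart_isFractionRing R K ht
  haveI : 𝔫.IsPrime := h𝔫
  have hinjR : Function.Injective (algebraMap R F) := H19S18.h19_algebraMap_injective R K
  have hϖF : algebraMap R F ϖ ≠ 0 := fun h0 => hϖ.ne_zero (hinjR (by rw [h0, map_zero]))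
  -- `ϖ` as an element of the chart ring
  let ϖM : Chart R t :=
    algebraMap (Algebra.adjoin R {t}) (Chart R t) (algebraMap R (Algebra.adjoin R {t}) ϖ)
  have hϖMcoe : (ϖM : F) = algebraMap R F ϖ := rfl
  have hcoe : ∀ a : Chart R t, algebraMap (Chart R t) F a = (a : F) := fun _ => rfl
  have hϖM0 : ϖM ≠ 0 := by
    intro h0
    apply hϖF
    rw [← hϖMcoe, h0]
    rfl
  obtain ⟨g, hg𝔫, hg0, hgen0, hprime0⟩ := hreg
  have hgF : (g : F) ≠ 0 := by
    intro h0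
    exact hg0 (Subtype.ext (by push_cast; exact h0))
  have hgen : ∃ x ∈ 𝔫, ∀ y ∈ 𝔫, ∃ s a b : Chart R t, s ∉ 𝔫 ∧ s * y = a * g + b * x := by
    obtain ⟨x, hx, hx'⟩ := hgen0
    refine ⟨x, hx, fun y hy => ?_⟩
    obtain ⟨s, a, b, hs, e⟩ := hx' y hy
    refine ⟨s, a, b, hs, Subtype.ext ?_⟩
    push_cast
    rw [e]
  have hprime : ∀ a b : Chart R t, (∃ c s : Chart R t, s ∉ 𝔫 ∧ s * (a * b) = c * g) →
      (∃ c s : Chart R t, s ∉ 𝔫 ∧ s * a = c * g) ∨
        (∃ c s : Chart R t, s ∉ 𝔫 ∧ s * b = c * g) := by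
    rintro a b ⟨c, s, hs, e⟩
    have e' : (s : F) * ((a : F) * b) = c * (g : F) := by
      have := congrArg (fun z : Chart R t => (z : F)) e
      simpa using this
    have h1 : InLoc R t 𝔫 ((a : F) * b * (g : F)⁻¹) := by
      refine ⟨c, s, hs, ?_⟩
      field_simp
      linear_combination e'
    have conv : ∀ d : Chart R t, InLoc R t 𝔫 ((d : F) * (g : F)⁻¹) →
        ∃ c s : Chart R t, s ∉ 𝔫 ∧ s * d = c * g := by
      rintro d ⟨c', s', hs', e''⟩
      refine ⟨c', s', hs', Subtype.ext ?_⟩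
      push_cast
      rw [← e'']
      field_simp
    rcases hprime0 a b h1 with h2 | h2
    · exact Or.inl (conv a h2)
    · exact Or.inr (conv b h2)
  have hK : ∀ c : K, ∃ (k : ℕ) (b : Chart R t),
      algebraMap K F c * algebraMap (Chart R t) F ϖM ^ k = algebraMap (Chart R t) F b := by
    intro c
    obtain ⟨r₁, r₂, hr₂, rfl⟩ := IsFractionRing.div_surjective (A := R) c
    have hr₂0 : r₂ ≠ 0 := nonZeroDivisors.ne_zero hr₂
    obtain ⟨k, u, hu⟩ := IsDiscreteValuationRing.associated_pow_irreducible hr₂0 hϖ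
    refine ⟨k, algebraMap (Algebra.adjoin R {t}) (Chart R t)
      (algebraMap R (Algebra.adjoin R {t}) (r₁ * u)), ?_⟩
    have hb : algebraMap (Chart R t) F (algebraMap (Algebra.adjoin R {t}) (Chart R t)
      (algebraMap R (Algebra.adjoin R {t}) (r₁ * u))) = algebraMap R F (r₁ * u) := rfl
    rw [hb, hcoe, hϖMcoe, map_div₀, ← IsScalarTower.algebraMap_apply R K F,
      ← IsScalarTower.algebraMap_apply R K F, ← map_pow, ← hu, map_mul, map_mul]
    have hr₂F : algebraMap R F r₂ ≠ 0 := fun h0 => hr₂0 (hinjR (by rw [h0, map_zero]))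
    field_simp
  obtain ⟨z, hz, m, a₁, s₁, a₂, s₂, hs₁, hs₂, E₁, E₂⟩ :=
    locUFD_elem (A := Chart R t) (F := F) (K := K) 𝔫 g hg0 hg𝔫 hgen hprime ϖM hϖM0 hK
      n hn f hf hdiv
  exact ⟨z, hz, m, ⟨a₁, s₁, hs₁, E₁⟩, ⟨a₂, s₂, hs₂, E₂⟩⟩

end chart

end H26LU
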