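/-
helper26: item 86 (S36), slice (LOC3a), part 2: REGULARITY FROM TWO GENERATORS.

`B` a noetherian local domain of dimension `≥ 2` (there is a prime `0 ≠ Q ≠ 𝔪`) whose maximal
ideal is generated by two elements `𝔪 = (g, x)`.  Then `g` is a prime element
(`prime_of_two_gen`), hence `B` is factorial (`H5CA.h5ca_reg_ufd`) and (L1) holds
(`H26LU.locUFD_core`).  So at a closed point `𝔫` of a chart the hypothesis `H26LU.RegAtG`
(and `H4S34.L1At` for every `f` with `n ∣ div f`) follows from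
  * two local generators of `𝔫` (`s y = a g + b x`), and
  * a prime `0 ≠ P ⊊ 𝔫` (e.g. a component of the special fibre):
`regAtG_of_two_gen`, `l1At_of_two_gen`.  No primality has to be checked.
-/
import Mathlib
import Fermat.Agent.S36.LocUFD_helper26
import Fermat.Agent.S34.LocRegUnit_helper21

set_option autoImplicit false
set_option linter.unusedSectionVars false
set_option linter.unusedVariables false
set_option linter.style.haveILetI false
set_option synthInstance.maxHeartbeats 400000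

noncomputable section

namespace H26LU

open AlgebraicCurve IsLocalRing

section abstract

/-- a noetherian local ring whose maximal ideal is generated by a non-nilpotent element has no
zero divisors. -/
theorem noZeroDivisors_of_principal_max {C : Type*} [CommRing C] [IsNoetherianRing C]
    [IsLocalRing C] (x : C) (hm : maximalIdeal C = Ideal.span {x}) (hx : ¬ IsNilpotent x) :
    NoZeroDivisors C := by
  classical
  have hrep : ∀ a : C, a ≠ 0 → ∃ (k : ℕ) (u : C), IsUnit u ∧ a = u * x ^ k := by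
    intro a ha
    have hbot : ⨅ i : ℕ, (maximalIdeal C) ^ i = ⊥ :=
      Ideal.iInf_pow_eq_bot_of_isLocalRing _ (maximalIdeal.isMaximal C).ne_top
    have hex : ∃ k : ℕ, a ∉ (maximalIdeal C) ^ (k + 1) := by
      by_contra hcon
      rw [not_exists] at hcon
      apply ha
      have : a ∈ ⨅ i : ℕ, (maximalIdeal C) ^ i := by
        rw [Ideal.mem_iInf]
        intro i
        rcases Nat.eq_zero_or_pos i with rfl | hi
        · rw [pow_zero, Ideal.one_eq_top]; exact Submodule.mem_top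
        · obtain ⟨j, rfl⟩ := Nat.exists_eq_succ_of_ne_zero hi.ne'
          exact not_not.mp (hcon j)
      rw [hbot] at this
      exact this
    obtain ⟨k, hk, hmin⟩ : ∃ k : ℕ, a ∉ (maximalIdeal C) ^ (k + 1) ∧
        a ∈ (maximalIdeal C) ^ k := by
      refine ⟨Nat.find hex, Nat.find_spec hex, ?_⟩
      rcases Nat.eq_zero_or_pos (Nat.find hex) with h0 | hpos
      · rw [h0, pow_zero, Ideal.one_eq_top]; exact Submodule.mem_top
      · obtain ⟨j, hj⟩ := Nat.exists_eq_succ_of_ne_zero hpos.ne'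
        have := Nat.find_min hex (m := j) (by omega)
        rw [hj]
        exact not_not.mp this
    rw [hm, Ideal.span_singleton_pow, Ideal.mem_span_singleton] at hmin
    obtain ⟨u, hu⟩ := hmin
    refine ⟨k, u, ?_, by rw [hu, mul_comm]⟩
    by_contra hnu
    have hum : u ∈ maximalIdeal C := (mem_maximalIdeal u).2 hnu
    rw [hm, Ideal.mem_span_singleton] at hum
    obtain ⟨v, rfl⟩ := hum
    apply hk
    rw [hm, Ideal.span_singleton_pow, Ideal.mem_span_singleton]
    exact ⟨v, by rw [hu, pow_succ]; ring⟩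
  refine ⟨fun {a b} hab => ?_⟩
  by_contra hcon
  rw [not_or] at hcon
  obtain ⟨k, u, hu, rfl⟩ := hrep a hcon.1
  obtain ⟨l, v, hv, rfl⟩ := hrep b hcon.2
  have h1 : (u * v) * x ^ (k + l) = 0 := by
    rw [← hab, pow_add]; ring
  have h2 : x ^ (k + l) = 0 := by
    have huv : IsUnit (u * v) := hu.mul hv
    exact (huv.mul_right_eq_zero).mp h1
  exact hx ⟨k + l, h2⟩

variable {B : Type*} [CommRing B] [IsDomain B] [IsNoetherianRing B] [IsLocalRing B]

/-- in a local domain of dimension `≥ 2`, a principal ideal is not `𝔪`-primary. -/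
theorem exists_prime_ne_max (hdim : ∃ Q : Ideal B, Q.IsPrime ∧ Q ≠ ⊥ ∧ Q ≠ maximalIdeal B)
    (y : B) (hy : y ∈ maximalIdeal B) :
    ∃ P : Ideal B, P.IsPrime ∧ y ∈ P ∧ P ≠ maximalIdeal B := by
  classical
  obtain ⟨Q, hQ, hQ0, hQm⟩ := hdim
  have hQlt : Q < maximalIdeal B := lt_of_le_of_ne (le_maximalIdeal hQ.ne_top) hQm
  by_contra hcon
  have hall : ∀ P : Ideal B, P.IsPrime → y ∈ P → P = maximalIdeal B := by
    intro P hP hyP
    by_contra hne
    exact hcon ⟨P, hP, hyP, hne⟩
  have hmin : maximalIdeal B ∈ (Ideal.span {y}).minimalPrimes := by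
    refine ⟨⟨inferInstance, (Ideal.span_singleton_le_iff_mem _).2 hy⟩, ?_⟩
    rintro P ⟨hP, hyP⟩ _
    exact (hall P hP (hyP (Ideal.mem_span_singleton_self y))).ge
  haveI : (Ideal.span {y}).IsPrincipal := ⟨⟨y, rfl⟩⟩
  have h := Ideal.height_le_one_of_isPrincipal_of_mem_minimalPrimes (Ideal.span {y}) _ hmin
  have h1 := (Ideal.height_le_iff (p := maximalIdeal B) (n := 1)).mp (by exact_mod_cast h)
    Q hQ hQlt
  have h2 : Q.height = 0 := by
    have : Q.height < 1 := by exact_mod_cast h1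
    exact Order.lt_one_iff.mp this
  exact hQ0 (Ideal.height_eq_zero_iff_eq_bot.mp h2)

/-- **regularity from two generators**: in a noetherian local domain of dimension `≥ 2` with
`𝔪 = (g, x)`, the element `g` is prime. -/
theorem prime_of_two_gen (g x : B) (hm : maximalIdeal B = Ideal.span {g, x})
    (hdim : ∃ Q : Ideal B, Q.IsPrime ∧ Q ≠ ⊥ ∧ Q ≠ maximalIdeal B) : Prime g := by
  classical
  have hgm : g ∈ maximalIdeal B := by rw [hm]; exact Ideal.subset_span (by simp)
  have hxm : x ∈ maximalIdeal B := by rw [hm]; exact Ideal.subset_span (by simp)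
  -- `g ≠ 0`
  have hg0 : g ≠ 0 := by
    rintro rfl
    obtain ⟨P, hP, hxP, hne⟩ := exists_prime_ne_max hdim x hxm
    apply hne
    refine le_antisymm (le_maximalIdeal hP.ne_top) ?_
    rw [hm, Ideal.span_le]
    rintro z (rfl | rfl)
    · exact P.zero_mem
    · exact hxP
  have hgtop : Ideal.span {g} ≠ ⊤ := by
    intro h
    rw [Ideal.span_singleton_eq_top] at h
    exact (mem_maximalIdeal g).1 hgm h
  haveI : Nontrivial (B ⧸ Ideal.span {g}) := Ideal.Quotient.nontrivial_iff.mpr hgtop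
  haveI : IsLocalRing (B ⧸ Ideal.span {g}) :=
    IsLocalRing.of_surjective' (Ideal.Quotient.mk (Ideal.span {g})) Ideal.Quotient.mk_surjective
  have hmax : maximalIdeal (B ⧸ Ideal.span {g})
      = Ideal.span {Ideal.Quotient.mk (Ideal.span {g}) x} := by
    apply le_antisymm
    · intro z hz
      obtain ⟨b, rfl⟩ := Ideal.Quotient.mk_surjective z
      have hb : b ∈ maximalIdeal B := by
        rw [mem_maximalIdeal, mem_nonunits_iff] at hz ⊢
        intro hu
        exact hz (hu.map _)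
      rw [hm, Ideal.mem_span_pair] at hb
      obtain ⟨a, c, rfl⟩ := hb
      rw [map_add, map_mul, map_mul]
      have : Ideal.Quotient.mk (Ideal.span {g}) g = 0 :=
        Ideal.Quotient.eq_zero_iff_mem.2 (Ideal.mem_span_singleton_self g)
      rw [this, mul_zero, zero_add]
      exact Ideal.mul_mem_left _ _ (Ideal.mem_span_singleton_self _)
    · rw [Ideal.span_singleton_le_iff_mem, mem_maximalIdeal, mem_nonunits_iff]
      intro hu
      have : IsUnit x := by
        obtain ⟨v, hv⟩ := hu.exists_right_inv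
        obtain ⟨v, rfl⟩ := Ideal.Quotient.mk_surjective v
        rw [← map_mul, ← map_one (Ideal.Quotient.mk (Ideal.span {g})), Ideal.Quotient.eq,
          Ideal.mem_span_singleton] at hv
        obtain ⟨c, hc⟩ := hv
        have h1 : x * v = 1 + g * c := by rw [← hc]; ring
        have h2 : IsUnit (1 + g * c) := by
          by_contra hnu
          have h3 : (1 + g * c) ∈ maximalIdeal B := (mem_maximalIdeal _).2 hnu
          have h4 : (1 : B) ∈ maximalIdeal B := by
            have := (maximalIdeal B).sub_mem h3 ((maximalIdeal B).mul_mem_right c hgm)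
            simp at this
          exact (maximalIdeal.isMaximal B).ne_top ((Ideal.eq_top_iff_one _).2 h4)
        rw [← h1] at h2
        exact isUnit_of_mul_isUnit_left h2
      exact (mem_maximalIdeal x).1 hxm this
  -- `x` is not nilpotent modulo `g`
  have hnil : ¬ IsNilpotent (Ideal.Quotient.mk (Ideal.span {g}) x) := by
    rintro ⟨k, hk⟩
    rw [← map_pow, Ideal.Quotient.eq_zero_iff_mem] at hk
    obtain ⟨P, hP, hgP, hne⟩ := exists_prime_ne_max hdim g hgm
    apply hne
    refine le_antisymm (le_maximalIdeal hP.ne_top) ?_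
    rw [hm, Ideal.span_le]
    rintro z (rfl | rfl)
    · exact hgP
    · have : z ^ k ∈ P := (Ideal.span_singleton_le_iff_mem _).2 hgP hk
      exact hP.mem_of_pow_mem k this
  haveI : NoZeroDivisors (B ⧸ Ideal.span {g}) :=
    noZeroDivisors_of_principal_max _ hmax hnil
  haveI : IsDomain (B ⧸ Ideal.span {g}) := NoZeroDivisors.to_isDomain _
  have hprime : (Ideal.span {g}).IsPrime := (Ideal.Quotient.isDomain_iff_prime _).mp inferInstance
  exact (Ideal.span_singleton_prime hg0).1 hprime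

end abstract

section elem

variable {A : Type*} [CommRing A] [IsDomain A] [IsNoetherianRing A]
variable {F : Type*} [Field F] [Algebra A F] [IsFractionRing A F]

/-- **regularity from two generators, element form**: if `𝔫 A_𝔫 = (g, x)` and there is a prime
`0 ≠ P ⊊ 𝔫`, then `g ≠ 0` is prime in `A_𝔫`. -/
theorem prime_elem_of_two_gen (F : Type*) [Field F] [Algebra A F] [IsFractionRing A F]
    (𝔫 : Ideal A) [h𝔫 : 𝔫.IsPrime] (P : Ideal A) (hP : P.IsPrime)
    (hP0 : P ≠ ⊥) (hPle : P ≤ 𝔫) (hPne : P ≠ 𝔫) (g x : A) (hg𝔫 : g ∈ 𝔫) (hx𝔫 : x ∈ 𝔫)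
    (hgen : ∀ y ∈ 𝔫, ∃ s a b : A, s ∉ 𝔫 ∧ s * y = a * g + b * x) :
    g ≠ 0 ∧ ∀ a b : A, (∃ c s : A, s ∉ 𝔫 ∧ s * (a * b) = c * g) →
      (∃ c s : A, s ∉ 𝔫 ∧ s * a = c * g) ∨ (∃ c s : A, s ∉ 𝔫 ∧ s * b = c * g) := by
  let B := Localization.subalgebra.ofField F 𝔫.primeCompl (H21LR.primeCompl_le 𝔫)
  haveI hBloc : IsLocalization.AtPrime B 𝔫 :=
    Localization.subalgebra.isLocalization_ofField F 𝔫.primeCompl (H21LR.primeCompl_le 𝔫)
  haveI : IsFractionRing B F := inferInstance
  haveI : IsScalarTower A B F := inferInstance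
  haveI : IsLocalRing B := IsLocalization.AtPrime.isLocalRing B 𝔫
  haveI : IsNoetherianRing B := IsLocalization.isNoetherianRing 𝔫.primeCompl B inferInstance
  haveI : IsDomain B := inferInstance
  have hinj : Function.Injective (algebraMap A B) :=
    IsLocalization.injective B (H21LR.primeCompl_le 𝔫)
  have hm : maximalIdeal B = Ideal.span {algebraMap A B g, algebraMap A B x} :=
    H21LR.maximalIdeal_eq (F := F) B 𝔫 g x hg𝔫 hx𝔫 hgen
  haveI := hP
  have hd : Disjoint (𝔫.primeCompl : Set A) (P : Set A) := by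
    rw [Set.disjoint_left]
    intro y hy hyP
    exact hy (hPle hyP)
  have hunder := IsLocalization.under_map_of_isPrime_disjoint 𝔫.primeCompl B hP hd
  have hdim : ∃ Q : Ideal B, Q.IsPrime ∧ Q ≠ ⊥ ∧ Q ≠ maximalIdeal B := by
    refine ⟨P.map (algebraMap A B),
      IsLocalization.isPrime_of_isPrime_disjoint 𝔫.primeCompl B P hP hd, ?_, ?_⟩
    · intro h0
      apply hP0
      rw [eq_bot_iff]
      intro y hy
      have : algebraMap A B y ∈ P.map (algebraMap A B) := Ideal.mem_map_of_mem _ hy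
      rw [h0, Ideal.mem_bot] at this
      rw [Ideal.mem_bot]
      exact hinj (by rw [this, map_zero])
    · intro hQ
      apply hPne
      refine le_antisymm hPle ?_
      intro y hy
      have h1 : algebraMap A B y ∈ maximalIdeal B :=
        (IsLocalization.AtPrime.to_map_mem_maximal_iff B 𝔫 y).2 hy
      rw [← hQ] at h1
      have h2 : y ∈ (P.map (algebraMap A B)).under A := h1
      rw [hunder] at h2
      exact h2
  have hp : Prime (algebraMap A B g) := prime_of_two_gen _ _ hm hdim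
  have hg0 : g ≠ 0 := by
    rintro rfl
    exact hp.ne_zero (map_zero _)
  refine ⟨hg0, ?_⟩
  rintro a b ⟨c, s, hs, e⟩
  have hdvd : algebraMap A B g ∣ algebraMap A B (a * b) :=
    (H21LR.dvd_map_iff (F := F) B 𝔫 g (a * b) hg0).2 ⟨c, s, hs, e⟩
  rw [map_mul] at hdvd
  rcases hp.dvd_or_dvd hdvd with h | h
  · exact Or.inl ((H21LR.dvd_map_iff (F := F) B 𝔫 g a hg0).1 h)
  · exact Or.inr ((H21LR.dvd_map_iff (F := F) B 𝔫 g b hg0).1 h)

end elem

/-! ### chart form -/

section chart

open Polynomial IntermediateField H7S18 H4S34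

variable (R : Type) [CommRing R] [IsDomain R] [IsDiscreteValuationRing R]
  (K : Type) [Field K] [CharZero K] [Algebra R K] [IsFractionRing R K]
  {F : Type} [Field F] [Algebra K F] [Algebra R F] [IsScalarTower R K F]

/-- **two generators give a factorial point**: at a prime `𝔫` of the chart ring with
`𝔫 B_𝔫 = (g, x)` and a prime `0 ≠ P ⊊ 𝔫`, the hypothesis `RegAtG` holds. -/
theorem regAtG_of_two_gen {t : F} (ht : Transcendental K t) [FiniteDimensional K⟮t⟯ F]
    (𝔫 : Ideal (Chart R t)) (h𝔫 : 𝔫.IsPrime) (P : Ideal (Chart R t)) (hP : P.IsPrime)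
    (hP0 : P ≠ ⊥) (hPle : P ≤ 𝔫) (hPne : P ≠ 𝔫) (g x : Chart R t) (hg𝔫 : g ∈ 𝔫) (hx𝔫 : x ∈ 𝔫)
    (hgen : ∀ y ∈ 𝔫, ∃ s a b : Chart R t, s ∉ 𝔫 ∧ (s : F) * y = a * (g : F) + b * x) :
    RegAtG R t 𝔫 := by
  haveI : IsNoetherianRing (Chart R t) := H21LR.chart_noeth R K ht
  haveI : IsFractionRing (Chart R t) F := H21LR.chart_isFractionRing R K ht
  haveI := h𝔫
  have hgen' : ∀ y ∈ 𝔫, ∃ s a b : Chart R t, s ∉ 𝔫 ∧ s * y = a * g + b * x := by
    intro y hy
    obtain ⟨s, a, b, hs, e⟩ := hgen y hy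
    refine ⟨s, a, b, hs, Subtype.ext ?_⟩
    push_cast
    rw [e]
  obtain ⟨hg0, hprime⟩ := prime_elem_of_two_gen (A := Chart R t) F 𝔫 P hP hP0 hPle hPne g x
    hg𝔫 hx𝔫 hgen'
  have hgF : (g : F) ≠ 0 := by
    intro h0
    exact hg0 (Subtype.ext (by push_cast; exact h0))
  refine ⟨g, hg𝔫, hg0, ⟨x, hx𝔫, hgen⟩, ?_⟩
  rintro a b ⟨c, s, hs, e⟩
  have e' : s * (a * b) = c * g := by
    apply Subtype.ext
    push_cast
    rw [← e]
    field_simp
  have conv : ∀ d : Chart R t, (∃ c s : Chart R t, s ∉ 𝔫 ∧ s * d = c * g) →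
      InLoc R t 𝔫 ((d : F) * (g : F)⁻¹) := by
    rintro d ⟨c', s', hs', e''⟩
    refine ⟨c', s', hs', ?_⟩
    have := congrArg (fun z : Chart R t => (z : F)) e''
    simp only [MulMemClass.coe_mul] at this
    field_simp
    linear_combination this
  rcases hprime a b ⟨c, s, hs, e'⟩ with h | h
  · exact Or.inl (conv a h)
  · exact Or.inr (conv b h)

/-- **(L1) from two generators**: at a prime `𝔫` of the chart ring with `𝔫 B_𝔫 = (g, x)` and a
prime `0 ≠ P ⊊ 𝔫`, every `f` with `n ∣ div f` satisfies (L1). -/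
theorem l1At_of_two_gen (ϖ : R) (hϖ : Irreducible ϖ) {t : F} (ht : Transcendental K t)
    [hfin : FiniteDimensional K⟮t⟯ F] (n : ℕ) (hn : 0 < n) (f : F) (hf : f ≠ 0)
    (hdiv : ∀ V : Place K F, (n : ℤ) ∣ V.ord f)
    (𝔫 : Ideal (Chart R t)) (h𝔫 : 𝔫.IsPrime) (P : Ideal (Chart R t)) (hP : P.IsPrime)
    (hP0 : P ≠ ⊥) (hPle : P ≤ 𝔫) (hPne : P ≠ 𝔫) (g x : Chart R t) (hg𝔫 : g ∈ 𝔫) (hx𝔫 : x ∈ 𝔫)
    (hgen : ∀ y ∈ 𝔫, ∃ s a b : Chart R t, s ∉ 𝔫 ∧ (s : F) * y = a * (g : F) + b * x) :
    L1At R ϖ t 𝔫 n f :=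
  locRegG R K F ϖ hϖ t ht hfin n hn f hf hdiv 𝔫 h𝔫
    (regAtG_of_two_gen R K ht 𝔫 h𝔫 P hP hP0 hPle hPne g x hg𝔫 hx𝔫 hgen)

end chart

end H26LU
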