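/-
helper5, item 86 (S36), LOC DISC route: the abstract local theorem
`H5LC.discLocal : H6LD.DiscLocalStatement`  (= LOC-C + LOC-A + (L7)).

Ingredients: `H5LC` (LocC_helper5, LocCMain_helper5: regular sequence, freeness, reduction of the
discriminant, `discr = unit · ϖ ^ m`, lifting of local generators), `H22L7` (unramified ⇒ the
discriminant is a unit at `𝔭₀`), `H19DISC.h19disc_points'` (DISC), `H26LU.prime_of_two_gen`.
-/
import Mathlib
import Fermat.Agent.S36.LocCMain_helper5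
import Fermat.Agent.S36.LocC7_helper22
import Fermat.Agent.S36.DiscGen2_helper19
import Fermat.Agent.S36.LocReg2_helper26
import Fermat.Agent.S36.LocDiscDefs_helper6

set_option linter.style.haveILetI false
set_option linter.unusedSectionVars false
set_option linter.unusedVariables false

namespace H5LC

open Ideal IsLocalRing

/-- the abstract local theorem of the DISC route, universe-polymorphic form. -/
theorem discLocal_core
    {A₀ A F₀ F : Type*} [CommRing A₀] [IsDomain A₀] [IsNoetherianRing A₀] [IsLocalRing A₀]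
    [IsIntegrallyClosed A₀] [CommRing A] [IsDomain A] [IsIntegrallyClosed A]
    [Field F₀] [Field F] [Algebra A₀ F₀] [IsFractionRing A₀ F₀]
    [Algebra A F] [IsFractionRing A F] [Algebra A₀ A] [Algebra F₀ F] [Algebra A₀ F]
    [IsScalarTower A₀ F₀ F] [IsScalarTower A₀ A F] [FiniteDimensional F₀ F]
    [Module.Finite A₀ A] [IsNoetherianRing A] [FaithfulSMul A₀ A]
    (ϖ x₀ : A₀) (hϖ : Prime ϖ) (hm : IsLocalRing.maximalIdeal A₀ = Ideal.span {ϖ, x₀})
    (hx₀ : ¬ ϖ ∣ x₀)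
    (r l m : ℕ) (hr : Module.finrank F₀ F = r) (hml : m + l ≤ r)
    (ms : Finset (Ideal A)) (hms : ms.card ≤ l) (hall : ∀ 𝔫 : Ideal A, 𝔫.IsMaximal → 𝔫 ∈ ms)
    (hres : ∀ 𝔫 : Ideal A, 𝔫.IsMaximal → ∀ y : A, ∃ a : A₀, y - algebraMap A₀ A a ∈ 𝔫)
    (hE : ∀ 𝔭₀ : Ideal A₀, 𝔭₀.IsPrime → 𝔭₀ ≠ ⊥ → ϖ ∉ 𝔭₀ →
      ∀ 𝔓 : Ideal A, 𝔓.IsPrime → 𝔓.comap (algebraMap A₀ A) = 𝔭₀ →
        ∀ y ∈ 𝔓, ∃ s : A, s ∉ 𝔓 ∧ s * y ∈ 𝔭₀.map (algebraMap A₀ A))
    (hC : ∀ 𝔭₀ : Ideal A₀, 𝔭₀.IsPrime → ϖ ∉ 𝔭₀ → CharZero (A₀ ⧸ 𝔭₀))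
    (b : Fin r → A) (P : A₀) (hP : ¬ ϖ ∣ P)
    (hD : Algebra.discr F₀ (fun i => algebraMap A F (b i)) = algebraMap A₀ F₀ (ϖ ^ m * P)) :
    ∀ 𝔫 : Ideal A, 𝔫.IsMaximal → ∃ t ∈ 𝔫, ∀ y ∈ 𝔫, ∃ s a c : A, s ∉ 𝔫 ∧
      s * y = a * algebraMap A₀ A x₀ + c * t := by
  classical
  -- basic facts on `ϖ`, `x₀`
  have hm' : maximalIdeal A₀ = Ideal.span {x₀, ϖ} := by rw [hm, Set.pair_comm]
  have hx₀m : x₀ ∈ maximalIdeal A₀ := by rw [hm]; exact Ideal.subset_span (by simp)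
  have hϖm : ϖ ∈ maximalIdeal A₀ := by rw [hm]; exact Ideal.subset_span (by simp)
  have hϖprime : (Ideal.span {ϖ}).IsPrime := (Ideal.span_singleton_prime hϖ.ne_zero).2 hϖ
  have hdim : ∃ Q : Ideal A₀, Q.IsPrime ∧ Q ≠ ⊥ ∧ Q ≠ maximalIdeal A₀ := by
    refine ⟨Ideal.span {ϖ}, hϖprime, ?_, ?_⟩
    · rw [Ne, Ideal.span_singleton_eq_bot]
      exact hϖ.ne_zero
    · intro h
      rw [← h, Ideal.mem_span_singleton] at hx₀m
      exact hx₀ hx₀m
  have hx₀prime : Prime x₀ := H26LU.prime_of_two_gen x₀ ϖ hm' hdim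
  have hx₀0 : x₀ ≠ 0 := hx₀prime.ne_zero
  have hap : (Ideal.span {x₀}).IsPrime := (Ideal.span_singleton_prime hx₀0).2 hx₀prime
  have hϖa : ϖ ∉ Ideal.span {x₀} := by
    rw [Ideal.mem_span_singleton]
    rintro ⟨c, hc⟩
    rcases hϖ.irreducible.isUnit_or_isUnit hc with h | h
    · exact (mem_nonunits_iff.1 ((mem_maximalIdeal x₀).1 hx₀m)) h
    · obtain ⟨u, rfl⟩ := h
      apply hx₀
      refine ⟨(↑u⁻¹ : A₀), ?_⟩
      rw [hc, mul_assoc, Units.mul_inv, mul_one]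
  -- the quotients
  let I₀ : Ideal A₀ := Ideal.span {x₀}
  let R₀ := A₀ ⧸ I₀
  let T := A ⧸ I₀.map (algebraMap A₀ A)
  have hR₀s : Function.Surjective (algebraMap A₀ R₀) := Ideal.Quotient.mk_surjective
  have hR₀k : RingHom.ker (algebraMap A₀ R₀) = Ideal.span {x₀} := Ideal.mk_ker
  have hTs : Function.Surjective (algebraMap A T) := Ideal.Quotient.mk_surjective
  have hTk : RingHom.ker (algebraMap A T) = Ideal.span {algebraMap A₀ A x₀} := by
    have : RingHom.ker (algebraMap A T) = I₀.map (algebraMap A₀ A) := Ideal.mk_ker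
    rw [this, Ideal.map_span, Set.image_singleton]
  -- horizontal unramifiedness ⇒ the discriminant of a basis is a unit at `𝔭₀`
  have hunr : ∀ (r' : ℕ) (e : Module.Basis (Fin r') A₀ A) (𝔭₀ : Ideal A₀), 𝔭₀.IsPrime →
      𝔭₀.height = 1 → ϖ ∉ 𝔭₀ → Algebra.discr A₀ e ∉ 𝔭₀ := by
    intro r' e 𝔭₀ hp hh hϖp
    haveI := hp
    have hne : 𝔭₀ ≠ ⊥ := by
      rintro rfl
      rw [Ideal.height_bot] at hh
      exact zero_ne_one hh
    exact H22L7.discr_notMem_of_unramified e 𝔭₀ (hC 𝔭₀ hp hϖp) (hE 𝔭₀ hp hne hϖp)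
  -- the field discriminant descends to `A₀`
  have hloc : IsLocalization (Algebra.algebraMapSubmonoid A (nonZeroDivisors A₀)) F :=
    IsIntegralClosure.isLocalization A₀ F₀ F A
  have hDfam : ∀ (r' : ℕ) (e : Module.Basis (Fin r') A₀ A), ∃ (bD : Fin r' → A) (D' : A₀),
      Algebra.discr A₀ bD = ϖ ^ m * D' ∧ ¬ ϖ ∣ D' := by
    intro r' e
    haveI : Module.Free A₀ A := Module.Free.of_basis e
    have hrr : r = r' := by
      rw [← hr]
      exact finrank_frac (nonZeroDivisors A₀) e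
    subst hrr
    refine ⟨b, P, ?_, hP⟩
    have h1 := discr_frac (F₀ := F₀) (F := F) (nonZeroDivisors A₀) b
    rw [hD] at h1
    exact (IsFractionRing.injective A₀ F₀ h1).symm
  obtain ⟨r', e, ē, he, hdvd⟩ :=
    locC_bound (R₀ := R₀) (T := T) x₀ ϖ hm' hx₀0 hap hϖa hϖ hR₀s hR₀k hTs hTk hunr m hDfam
  have hrr : r = r' := by
    rw [← hr]
    haveI : Module.Free A₀ A := Module.Free.of_basis e
    exact finrank_frac (nonZeroDivisors A₀) e
  subst hrr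
  -- the discrete valuation ring `R₀`
  haveI : IsDomain R₀ := isDomain_quot x₀ hap hR₀s hR₀k
  haveI : IsLocalRing R₀ := IsLocalRing.of_surjective' (algebraMap A₀ R₀) hR₀s
  have hmax : maximalIdeal R₀ = Ideal.span {algebraMap A₀ R₀ ϖ} := by
    apply le_antisymm
    · intro x hx
      obtain ⟨y, rfl⟩ := hR₀s x
      have hy : y ∈ maximalIdeal A₀ := by
        rw [mem_maximalIdeal, mem_nonunits_iff] at hx ⊢
        exact fun hu => hx (hu.map _)
      rw [hm, Ideal.mem_span_pair] at hy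
      obtain ⟨c, d, rfl⟩ := hy
      have h0 : algebraMap A₀ R₀ x₀ = 0 := by
        rw [← RingHom.mem_ker, hR₀k]
        exact Ideal.mem_span_singleton_self x₀
      rw [map_add, map_mul, map_mul, h0, mul_zero, add_zero]
      exact Ideal.mul_mem_left _ _ (Ideal.mem_span_singleton_self _)
    · rw [Ideal.span_singleton_le_iff_mem, mem_maximalIdeal, mem_nonunits_iff]
      intro hu
      obtain ⟨v, hv⟩ := hu.exists_right_inv
      obtain ⟨v', rfl⟩ := hR₀s v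
      have h1 : ϖ * v' - 1 ∈ RingHom.ker (algebraMap A₀ R₀) := by
        rw [RingHom.mem_ker, map_sub, map_mul, hv, map_one, sub_self]
      rw [hR₀k] at h1
      have h2 : ϖ * v' - 1 ∈ maximalIdeal A₀ := by
        rw [hm]
        exact Ideal.span_mono (by simp) h1
      have h3 : (1 : A₀) ∈ maximalIdeal A₀ := by
        have := Ideal.sub_mem _ (Ideal.mul_mem_right v' _ hϖm) h2
        rwa [sub_sub_cancel] at this
      exact (maximalIdeal.isMaximal A₀).ne_top ((Ideal.eq_top_iff_one _).2 h3)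
  have hϖb0 : algebraMap A₀ R₀ ϖ ≠ 0 := by
    intro h0
    apply hϖa
    rw [← hR₀k, RingHom.mem_ker]
    exact h0
  haveI : Module.Free R₀ T := Module.Free.of_basis ē
  haveI : Module.Finite R₀ T := Module.Finite.of_basis ē
  -- the maximal ideals of `T`
  let ms' : Finset (Ideal T) := ms.image (Ideal.map (algebraMap A T))
  have hms' : ms'.card ≤ l := Finset.card_image_le.trans hms
  have hcomap : ∀ 𝔪 : Ideal T, 𝔪.IsMaximal → (𝔪.comap (algebraMap A T)).IsMaximal :=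
    fun 𝔪 h𝔪 => Ideal.comap_isMaximal_of_surjective (algebraMap A T) hTs
  have hall' : ∀ 𝔪 : Ideal T, 𝔪.IsMaximal → 𝔪 ∈ ms' := by
    intro 𝔪 h𝔪
    refine Finset.mem_image.2 ⟨𝔪.comap (algebraMap A T), hall _ (hcomap 𝔪 h𝔪), ?_⟩
    exact Ideal.map_comap_of_surjective (algebraMap A T) hTs 𝔪
  have hres' : ∀ 𝔪 : Ideal T, 𝔪.IsMaximal → ∀ s : T, ∃ c : R₀, s - algebraMap R₀ T c ∈ 𝔪 := by
    intro 𝔪 h𝔪 s
    obtain ⟨y, rfl⟩ := hTs s
    obtain ⟨a, ha⟩ := hres _ (hcomap 𝔪 h𝔪) y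
    refine ⟨algebraMap A₀ R₀ a, ?_⟩
    rw [← IsScalarTower.algebraMap_apply A₀ R₀ T, IsScalarTower.algebraMap_apply A₀ A T,
      ← map_sub]
    exact ha
  -- conclusion
  intro 𝔫 h𝔫
  haveI := h𝔫
  haveI : (𝔫.map (algebraMap A T)).IsMaximal := map_isMaximal x₀ hx₀m hTs hTk 𝔫
  have hcard : m + l ≤ Fintype.card (Fin r) := by
    rw [Fintype.card_fin]
    exact hml
  have hdisc := H19DISC.h19disc_points' (algebraMap A₀ R₀ ϖ) hmax hϖb0 ē m l hdvd hcard ms'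
    hall' hms' hres' (𝔫.map (algebraMap A T))
  obtain ⟨t', ht', v', hv', hgen⟩ := lift_two_gen x₀ hTs hTk 𝔫 hdisc
  refine ⟨t', ht', fun y hy => ?_⟩
  obtain ⟨z, w, hzw⟩ := hgen y hy
  exact ⟨v', w, z, hv', by rw [hzw]; ring⟩

/-- **(DISC-LOC)**: the abstract local theorem of the DISC route. -/
theorem discLocal : H6LD.DiscLocalStatement := by
  intro A₀ A F₀ F _ _ _ _ _ _ _ _ _ _ _ _ _ _ _ _ _ _ _ _ _ _ _ _ _ ϖ x₀ hϖ hm hx₀ r l m hr hml
    ms hms hall hres hE hC b P hP hD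
  exact discLocal_core ϖ x₀ hϖ hm hx₀ r l m hr hml ms hms hall hres hE hC b P hP hD

end H5LC
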