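/-
helper5, item 86 (S36), LOC DISC route: the globalised abstract theorem
`H5LC.discGlobal : H6LD.DiscGlobalStatement`  (DiscLocal ⟹ DiscGlobal, generic).

`A₀ := (C₀)_{𝔫₀}`, `A := C[(C₀ ∖ 𝔫₀)⁻¹]`; the hypotheses in element form are transported to
`A₀`, `A`, then `H5LC.discLocal_core` is applied and the conclusion is pulled back to `C`.
-/
import Mathlib
import Fermat.Agent.S36.DiscLocal_helper5
import Fermat.Agent.S36.SemiLoc_helper19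
import Fermat.Agent.S34.LocRegUnit_helper21

set_option autoImplicit false
set_option linter.style.haveILetI false
set_option linter.unusedSectionVars false
set_option linter.unusedVariables false
set_option synthInstance.maxHeartbeats 400000
set_option maxHeartbeats 1600000

noncomputable section

namespace H5LC

open Ideal IsLocalRing

/-- the globalised theorem, with explicit models `A₀`, `A` of the localizations. -/
theorem discGlobal_core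
    (C₀ C A₀ A F₀ F : Type) [CommRing C₀] [IsDomain C₀] [IsNoetherianRing C₀]
    [IsIntegrallyClosed C₀] [CommRing C] [IsDomain C] [IsNoetherianRing C] [IsIntegrallyClosed C]
    [Field F₀] [CharZero F₀] [Field F] [Algebra C₀ F₀] [IsFractionRing C₀ F₀]
    [Algebra C F] [IsFractionRing C F] [Algebra C₀ C] [Algebra F₀ F] [Algebra C₀ F]
    [IsScalarTower C₀ F₀ F] [IsScalarTower C₀ C F] [FiniteDimensional F₀ F]
    [Algebra.IsIntegral C₀ C]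
    [CommRing A₀] [CommRing A] [Algebra C₀ A₀] [Algebra C A] [Algebra A₀ A] [Algebra C₀ A]
    [IsScalarTower C₀ C A] [IsScalarTower C₀ A₀ A]
    [Algebra A₀ F₀] [IsScalarTower C₀ A₀ F₀] [Algebra A F] [IsScalarTower C A F]
    [Algebra A₀ F] [IsScalarTower A₀ F₀ F] [IsScalarTower A₀ A F]
    (𝔫₀ : Ideal C₀) [h𝔫₀ : 𝔫₀.IsMaximal] [IsLocalization.AtPrime A₀ 𝔫₀]
    [IsLocalization (Algebra.algebraMapSubmonoid C 𝔫₀.primeCompl) A]
    (ϖ x₀ : C₀) (hϖ0 : ϖ ≠ 0) (hϖ𝔫 : ϖ ∈ 𝔫₀) (hx₀𝔫 : x₀ ∈ 𝔫₀)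
    (hgen : ∀ y ∈ 𝔫₀, ∃ s a b : C₀, s ∉ 𝔫₀ ∧ s * y = a * ϖ + b * x₀)
    (hprime : ∀ a b : C₀, (∃ c s : C₀, s ∉ 𝔫₀ ∧ s * (a * b) = c * ϖ) →
      (∃ c s : C₀, s ∉ 𝔫₀ ∧ s * a = c * ϖ) ∨ (∃ c s : C₀, s ∉ 𝔫₀ ∧ s * b = c * ϖ))
    (hx₀ϖ : ¬ ∃ c s : C₀, s ∉ 𝔫₀ ∧ s * x₀ = c * ϖ)
    (hchar : ∀ n : ℕ, n ≠ 0 → ∃ (k : ℕ) (c : C₀), c * (n : C₀) = ϖ ^ k)
    (r l m : ℕ) (hr : Module.finrank F₀ F = r) (hml : m + l ≤ r)
    (ms : Finset (Ideal C)) (hms : ms.card ≤ l)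
    (hall : ∀ 𝔫 : Ideal C, 𝔫.IsMaximal → 𝔫.comap (algebraMap C₀ C) = 𝔫₀ → 𝔫 ∈ ms)
    (hres : ∀ 𝔫 : Ideal C, 𝔫.IsMaximal → 𝔫.comap (algebraMap C₀ C) = 𝔫₀ →
      ∀ y : C, ∃ a : C₀, y - algebraMap C₀ C a ∈ 𝔫)
    (hE : ∀ Q : Ideal C, Q.IsPrime → (Q.comap (algebraMap C₀ C)).height = 1 →
      ϖ ∉ Q.comap (algebraMap C₀ C) → Q.comap (algebraMap C₀ C) ≤ 𝔫₀ →
        ∀ y ∈ Q, ∃ s : C, s ∉ Q ∧ s * y ∈ (Q.comap (algebraMap C₀ C)).map (algebraMap C₀ C))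
    (b : Fin r → F)
    (hb : ∀ i, ∃ (s : C₀) (c : C), s ∉ 𝔫₀ ∧ algebraMap C₀ F s * b i = algebraMap C F c)
    (P : F₀) (hP : ∃ a s : C₀, s ∉ 𝔫₀ ∧ algebraMap C₀ F₀ s * P = algebraMap C₀ F₀ a)
    (hPϖ : ¬ ∃ a s : C₀, s ∉ 𝔫₀ ∧ algebraMap C₀ F₀ s * P = algebraMap C₀ F₀ (a * ϖ))
    (hD : Algebra.discr F₀ b = algebraMap C₀ F₀ ϖ ^ m * P) :
    ∀ 𝔫 : Ideal C, 𝔫.IsMaximal → 𝔫.comap (algebraMap C₀ C) = 𝔫₀ →
      ∃ t ∈ 𝔫, ∀ y ∈ 𝔫, ∃ s a c : C, s ∉ 𝔫 ∧ s * y = a * algebraMap C₀ C x₀ + c * t := by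
  classical
  -- injectivity of the structure maps
  have hC₀F₀ : Function.Injective (algebraMap C₀ F₀) := IsFractionRing.injective C₀ F₀
  have hCF : Function.Injective (algebraMap C F) := IsFractionRing.injective C F
  have hC₀C : Function.Injective (algebraMap C₀ C) := by
    intro x y hxy
    apply hC₀F₀
    apply (algebraMap F₀ F).injective
    rw [← IsScalarTower.algebraMap_apply C₀ F₀ F, ← IsScalarTower.algebraMap_apply C₀ F₀ F,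
      IsScalarTower.algebraMap_apply C₀ C F, IsScalarTower.algebraMap_apply C₀ C F, hxy]
  have hS₀ : 𝔫₀.primeCompl ≤ nonZeroDivisors C₀ := H21LR.primeCompl_le 𝔫₀
  have hS : Algebra.algebraMapSubmonoid C 𝔫₀.primeCompl ≤ nonZeroDivisors C := by
    rintro _ ⟨s₀, hs₀, rfl⟩
    apply mem_nonZeroDivisors_of_ne_zero
    intro h0
    have : s₀ = 0 := hC₀C (by rw [h0, map_zero])
    exact hs₀ (this ▸ 𝔫₀.zero_mem)
  -- ring-theoretic properties of `A₀`, `A`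
  haveI : IsDomain A₀ := IsLocalization.isDomain_of_le_nonZeroDivisors A₀ hS₀
  haveI : IsDomain A := IsLocalization.isDomain_of_le_nonZeroDivisors A hS
  haveI : IsNoetherianRing A₀ := IsLocalization.isNoetherianRing 𝔫₀.primeCompl A₀ inferInstance
  haveI : IsNoetherianRing A :=
    IsLocalization.isNoetherianRing (Algebra.algebraMapSubmonoid C 𝔫₀.primeCompl) A inferInstance
  haveI : IsLocalRing A₀ := IsLocalization.AtPrime.isLocalRing A₀ 𝔫₀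
  haveI : IsIntegrallyClosed A₀ := isIntegrallyClosed_of_isLocalization A₀ 𝔫₀.primeCompl hS₀
  haveI : IsIntegrallyClosed A :=
    isIntegrallyClosed_of_isLocalization A (Algebra.algebraMapSubmonoid C 𝔫₀.primeCompl) hS
  haveI : IsFractionRing A₀ F₀ :=
    IsFractionRing.isFractionRing_of_isDomain_of_isLocalization 𝔫₀.primeCompl A₀ F₀
  haveI : IsFractionRing A F :=
    IsFractionRing.isFractionRing_of_isDomain_of_isLocalization
      (Algebra.algebraMapSubmonoid C 𝔫₀.primeCompl) A F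
  haveI : Algebra.IsIntegral A₀ A := H19SL.sl_isIntegral C 𝔫₀
  haveI : Module.Finite A₀ A := IsIntegralClosure.finite A₀ F₀ F A
  have hA₀F₀ : Function.Injective (algebraMap A₀ F₀) := IsFractionRing.injective A₀ F₀
  have hAF : Function.Injective (algebraMap A F) := IsFractionRing.injective A F
  have hA₀A : Function.Injective (algebraMap A₀ A) := by
    intro x y hxy
    apply hA₀F₀
    apply (algebraMap F₀ F).injective
    rw [← IsScalarTower.algebraMap_apply A₀ F₀ F, ← IsScalarTower.algebraMap_apply A₀ F₀ F,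
      IsScalarTower.algebraMap_apply A₀ A F, IsScalarTower.algebraMap_apply A₀ A F, hxy]
  haveI : FaithfulSMul A₀ A := (faithfulSMul_iff_algebraMap_injective A₀ A).2 hA₀A
  have hCA : Function.Injective (algebraMap C A) := IsLocalization.injective A hS
  -- towers
  have tw₁ : ∀ x : C₀, algebraMap A₀ A (algebraMap C₀ A₀ x) = algebraMap C₀ A x :=
    fun x => (IsScalarTower.algebraMap_apply C₀ A₀ A x).symm
  have tw₂ : ∀ x : C₀, algebraMap C A (algebraMap C₀ C x) = algebraMap C₀ A x :=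
    fun x => (IsScalarTower.algebraMap_apply C₀ C A x).symm
  -- units, numerators and denominators
  have hunit : ∀ s₀ : C₀, s₀ ∉ 𝔫₀ → IsUnit (algebraMap C₀ A s₀) := by
    intro s₀ hs₀
    rw [← tw₂]
    exact IsLocalization.map_units A
      (⟨algebraMap C₀ C s₀, ⟨s₀, hs₀, rfl⟩⟩ : Algebra.algebraMapSubmonoid C 𝔫₀.primeCompl)
  have hnd : ∀ z : A, ∃ (c : C) (s₀ : C₀), s₀ ∉ 𝔫₀ ∧
      z * algebraMap C₀ A s₀ = algebraMap C A c := by
    intro z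
    obtain ⟨⟨c, ⟨s, hs⟩⟩, h⟩ :=
      IsLocalization.surj (Algebra.algebraMapSubmonoid C 𝔫₀.primeCompl) z
    obtain ⟨s₀, hs₀, rfl⟩ := hs
    exact ⟨c, s₀, hs₀, by rw [← tw₂]; exact h⟩
  have hnd₀ : ∀ z : A₀, ∃ (a : C₀) (s₀ : C₀), s₀ ∉ 𝔫₀ ∧
      z * algebraMap C₀ A₀ s₀ = algebraMap C₀ A₀ a := by
    intro z
    obtain ⟨⟨a, ⟨s, hs⟩⟩, h⟩ := IsLocalization.surj 𝔫₀.primeCompl z
    exact ⟨a, s, hs, h⟩
  have hnotmem : ∀ (𝔑 : Ideal A), 𝔑 ≠ ⊤ → ∀ s₀ : C₀, s₀ ∉ 𝔫₀ → algebraMap C₀ A s₀ ∉ 𝔑 :=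
    fun 𝔑 h𝔑 s₀ hs₀ h => h𝔑 (Ideal.eq_top_of_isUnit_mem _ h (hunit s₀ hs₀))
  have hcancel : ∀ (𝔑 : Ideal A) (s₀ : C₀), s₀ ∉ 𝔫₀ → ∀ z : A,
      z * algebraMap C₀ A s₀ ∈ 𝔑 → z ∈ 𝔑 := by
    intro 𝔑 s₀ hs₀ z hz
    obtain ⟨u, hu⟩ := hunit s₀ hs₀
    have : z = z * algebraMap C₀ A s₀ * (↑u⁻¹ : A) := by
      rw [← hu, mul_assoc, Units.mul_inv, mul_one]
    rw [this]
    exact Ideal.mul_mem_right _ _ hz
  -- (G0) for `A₀`
  have hϖ' : Prime (algebraMap C₀ A₀ ϖ) :=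
    H21LR.prime_map (F := F₀) A₀ 𝔫₀ ϖ hϖ0 hϖ𝔫 hprime
  have hm : maximalIdeal A₀ = Ideal.span {algebraMap C₀ A₀ ϖ, algebraMap C₀ A₀ x₀} :=
    H21LR.maximalIdeal_eq (F := F₀) A₀ 𝔫₀ ϖ x₀ hϖ𝔫 hx₀𝔫 hgen
  have hx₀' : ¬ algebraMap C₀ A₀ ϖ ∣ algebraMap C₀ A₀ x₀ :=
    fun h => hx₀ϖ ((H21LR.dvd_map_iff (F := F₀) A₀ 𝔫₀ ϖ x₀ hϖ0).1 h)
  -- (F) for `A`
  let msA : Finset (Ideal A) := ms.image (Ideal.map (algebraMap C A))
  have hmsA : msA.card ≤ l := Finset.card_image_le.trans hms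
  have hover : ∀ 𝔑 : Ideal A, 𝔑.IsMaximal → (𝔑.comap (algebraMap C A)).IsMaximal ∧
      (𝔑.comap (algebraMap C A)).comap (algebraMap C₀ C) = 𝔫₀ := by
    intro 𝔑 h𝔑
    haveI := h𝔑
    exact H19SL.sl_comap_isMaximal 𝔫₀ 𝔑
  have hallA : ∀ 𝔑 : Ideal A, 𝔑.IsMaximal → 𝔑 ∈ msA := by
    intro 𝔑 h𝔑
    obtain ⟨h1, h2⟩ := hover 𝔑 h𝔑
    exact Finset.mem_image.2 ⟨𝔑.comap (algebraMap C A), hall _ h1 h2,
      H19SL.sl_map_comap 𝔫₀ 𝔑⟩
  have hresA : ∀ 𝔑 : Ideal A, 𝔑.IsMaximal → ∀ y : A, ∃ a : A₀, y - algebraMap A₀ A a ∈ 𝔑 := by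
    intro 𝔑 h𝔑 y
    obtain ⟨h1, h2⟩ := hover 𝔑 h𝔑
    obtain ⟨c, s₀, hs₀, hc⟩ := hnd y
    obtain ⟨a₁, ha₁⟩ := hres _ h1 h2 c
    have ha₁' : algebraMap C A c - algebraMap C₀ A a₁ ∈ 𝔑 := by
      rw [← tw₂, ← map_sub]
      exact ha₁
    refine ⟨IsLocalization.mk' A₀ a₁ (⟨s₀, hs₀⟩ : 𝔫₀.primeCompl), ?_⟩
    apply hcancel 𝔑 s₀ hs₀
    have e : algebraMap A₀ A (IsLocalization.mk' A₀ a₁ (⟨s₀, hs₀⟩ : 𝔫₀.primeCompl)) *
        algebraMap C₀ A s₀ = algebraMap C₀ A a₁ := by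
      rw [← tw₁ s₀, ← map_mul]
      have := IsLocalization.mk'_spec A₀ a₁ (⟨s₀, hs₀⟩ : 𝔫₀.primeCompl)
      simp only at this
      rw [this]
      exact tw₁ a₁
    rw [sub_mul, hc, e]
    exact ha₁'
  -- (C) for `A₀`
  have hCA₀ : ∀ 𝔭₀ : Ideal A₀, 𝔭₀.IsPrime → algebraMap C₀ A₀ ϖ ∉ 𝔭₀ → CharZero (A₀ ⧸ 𝔭₀) := by
    intro 𝔭₀ hp hϖp
    apply charZero_of_inj_zero
    intro n hn
    by_contra hn0
    obtain ⟨k, c, hc⟩ := hchar n hn0
    have h1 : ((n : ℕ) : A₀) ∈ 𝔭₀ := by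
      rw [← Ideal.Quotient.eq_zero_iff_mem, map_natCast]
      exact hn
    have h2 : algebraMap C₀ A₀ ϖ ^ k ∈ 𝔭₀ := by
      rw [← map_pow, ← hc, map_mul, map_natCast]
      exact Ideal.mul_mem_left _ _ h1
    exact hϖp (hp.mem_of_pow_mem k h2)
  -- (E) for `A₀ ⊆ A`
  have hEA : ∀ 𝔭₀ : Ideal A₀, 𝔭₀.IsPrime → 𝔭₀ ≠ ⊥ → algebraMap C₀ A₀ ϖ ∉ 𝔭₀ →
      ∀ 𝔓 : Ideal A, 𝔓.IsPrime → 𝔓.comap (algebraMap A₀ A) = 𝔭₀ →
        ∀ y ∈ 𝔓, ∃ s : A, s ∉ 𝔓 ∧ s * y ∈ 𝔭₀.map (algebraMap A₀ A) := by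
    intro 𝔭₀ hp hp0 hϖp 𝔓 h𝔓 hcomap y hy
    haveI := hp
    haveI := h𝔓
    have hQ : (𝔓.comap (algebraMap C A)).IsPrime := Ideal.comap_isPrime _ _
    have hmemQ₀ : ∀ x : C₀, x ∈ (𝔓.comap (algebraMap C A)).comap (algebraMap C₀ C) ↔
        algebraMap C₀ A₀ x ∈ 𝔭₀ := by
      intro x
      rw [Ideal.mem_comap, Ideal.mem_comap, tw₂, ← hcomap, Ideal.mem_comap, tw₁]
    have hQ₀ : (𝔓.comap (algebraMap C A)).comap (algebraMap C₀ C) =
        𝔭₀.comap (algebraMap C₀ A₀) := by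
      ext x
      rw [hmemQ₀, Ideal.mem_comap]
    have hht : ((𝔓.comap (algebraMap C A)).comap (algebraMap C₀ C)).height = 1 := by
      rw [hQ₀, H19SL.ht_comap 𝔫₀ 𝔭₀]
      exact H19SL.ht_one _ _ hm 𝔭₀ hp0 hϖp
    have hϖQ : ϖ ∉ (𝔓.comap (algebraMap C A)).comap (algebraMap C₀ C) := by
      rw [hmemQ₀]
      exact hϖp
    have hle : (𝔓.comap (algebraMap C A)).comap (algebraMap C₀ C) ≤ 𝔫₀ := by
      intro x hx
      rw [hmemQ₀] at hx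
      have h1 : algebraMap C₀ A₀ x ∈ maximalIdeal A₀ := le_maximalIdeal hp.ne_top hx
      exact (IsLocalization.AtPrime.to_map_mem_maximal_iff A₀ 𝔫₀ x).1 h1
    obtain ⟨c, s₀, hs₀, hc⟩ := hnd y
    have hcQ : c ∈ 𝔓.comap (algebraMap C A) := by
      rw [Ideal.mem_comap, ← hc]
      exact Ideal.mul_mem_right _ _ hy
    obtain ⟨s, hsQ, hsc⟩ := hE _ hQ hht hϖQ hle c hcQ
    refine ⟨algebraMap C A s * algebraMap C₀ A s₀, ?_, ?_⟩
    · intro h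
      rcases h𝔓.mem_or_mem h with h' | h'
      · exact hsQ h'
      · exact hnotmem 𝔓 h𝔓.ne_top s₀ hs₀ h'
    · have h1 : algebraMap C A s * algebraMap C₀ A s₀ * y = algebraMap C A (s * c) := by
        rw [map_mul, ← hc]
        ring
      rw [h1]
      have h2 : ((𝔓.comap (algebraMap C A)).comap (algebraMap C₀ C)).map (algebraMap C₀ C) ≤
          (𝔭₀.map (algebraMap A₀ A)).comap (algebraMap C A) := by
        rw [Ideal.map_le_iff_le_comap]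
        intro x hx
        rw [hmemQ₀] at hx
        rw [Ideal.mem_comap, Ideal.mem_comap, tw₂, ← tw₁]
        exact Ideal.mem_map_of_mem _ hx
      exact h2 hsc
  -- (D) for `A₀ ⊆ A`
  have hbA : ∀ i, ∃ z : A, algebraMap A F z = b i := by
    intro i
    obtain ⟨s, c, hs, e⟩ := hb i
    obtain ⟨u, hu⟩ := hunit s hs
    refine ⟨algebraMap C A c * (↑u⁻¹ : A), ?_⟩
    have hsF : algebraMap C₀ F s ≠ 0 := by
      intro h0
      rw [IsScalarTower.algebraMap_apply C₀ C F] at h0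
      have : algebraMap C₀ C s = 0 := hCF (by rw [h0, map_zero])
      have : s = 0 := hC₀C (by rw [this, map_zero])
      exact hs (this ▸ 𝔫₀.zero_mem)
    have h1 : algebraMap A F (algebraMap C A c * (↑u⁻¹ : A)) * algebraMap C₀ F s =
        algebraMap C F c := by
      have h2 : algebraMap C₀ F s = algebraMap A F (algebraMap C₀ A s) := by
        rw [← tw₂, ← IsScalarTower.algebraMap_apply C A F,
          ← IsScalarTower.algebraMap_apply C₀ C F]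
      rw [h2, ← map_mul, ← hu, mul_assoc, Units.inv_mul, mul_one,
        ← IsScalarTower.algebraMap_apply C A F]
    have h3 : algebraMap A F (algebraMap C A c * (↑u⁻¹ : A)) * algebraMap C₀ F s =
        b i * algebraMap C₀ F s := by
      rw [h1, ← e, mul_comm]
    exact mul_right_cancel₀ hsF h3
  choose b' hb' using hbA
  obtain ⟨aP, sP, hsP, eP⟩ := hP
  have hsPF : algebraMap C₀ F₀ sP ≠ 0 := by
    intro h0
    have : sP = 0 := hC₀F₀ (by rw [h0, map_zero])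
    exact hsP (this ▸ 𝔫₀.zero_mem)
  have twF₀ : ∀ x : C₀, algebraMap A₀ F₀ (algebraMap C₀ A₀ x) = algebraMap C₀ F₀ x :=
    fun x => (IsScalarTower.algebraMap_apply C₀ A₀ F₀ x).symm
  have hP' : algebraMap A₀ F₀ (IsLocalization.mk' A₀ aP (⟨sP, hsP⟩ : 𝔫₀.primeCompl)) = P := by
    have h1 := IsLocalization.mk'_spec A₀ aP (⟨sP, hsP⟩ : 𝔫₀.primeCompl)
    simp only at h1
    have h2 := congrArg (algebraMap A₀ F₀) h1
    rw [map_mul, twF₀, twF₀, ← eP, mul_comm] at h2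
    exact mul_left_cancel₀ hsPF h2
  have hP'ϖ : ¬ algebraMap C₀ A₀ ϖ ∣ IsLocalization.mk' A₀ aP (⟨sP, hsP⟩ : 𝔫₀.primeCompl) := by
    rintro ⟨d, hd⟩
    obtain ⟨a₁, s₁, hs₁, e₁⟩ := hnd₀ d
    apply hPϖ
    refine ⟨a₁, s₁, hs₁, ?_⟩
    have hdF := congrArg (algebraMap A₀ F₀) e₁
    rw [map_mul, twF₀, twF₀] at hdF
    have hPd : P = algebraMap C₀ F₀ ϖ * algebraMap A₀ F₀ d := by
      rw [← hP', hd, map_mul, twF₀]
    rw [hPd, map_mul]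
    linear_combination (algebraMap C₀ F₀ ϖ) * hdF
  have hD' : Algebra.discr F₀ (fun i => algebraMap A F (b' i)) =
      algebraMap A₀ F₀ (algebraMap C₀ A₀ ϖ ^ m *
        IsLocalization.mk' A₀ aP (⟨sP, hsP⟩ : 𝔫₀.primeCompl)) := by
    have : (fun i => algebraMap A F (b' i)) = b := funext hb'
    rw [this, hD, map_mul, map_pow, twF₀, hP']
  -- the local theorem
  have hloc := discLocal_core (algebraMap C₀ A₀ ϖ) (algebraMap C₀ A₀ x₀) hϖ' hm hx₀' r l m hr hml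
    msA hmsA hallA hresA hEA hCA₀ b' _ hP'ϖ hD'
  -- pull back to `C`
  intro 𝔫 h𝔫 hover𝔫
  haveI := h𝔫
  obtain ⟨hmaxN, hcomapN⟩ := H19SL.sl_map_isMaximal (A := A) 𝔫₀ 𝔫 hover𝔫
  obtain ⟨tA, htA, hgenA⟩ := hloc _ hmaxN
  obtain ⟨t₁, s₄, hs₄, ht₁⟩ := hnd tA
  have ht₁𝔫 : t₁ ∈ 𝔫 := by
    rw [← hcomapN, Ideal.mem_comap, ← ht₁]
    exact Ideal.mul_mem_right _ _ htA
  have hden : ∀ s₀ : C₀, s₀ ∉ 𝔫₀ → algebraMap C₀ C s₀ ∉ 𝔫 := by
    intro s₀ hs₀ h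
    apply hs₀
    rw [← hover𝔫]
    exact h
  refine ⟨t₁, ht₁𝔫, fun y hy => ?_⟩
  obtain ⟨sA, aA, cA, hsA, e0⟩ := hgenA (algebraMap C A y) (Ideal.mem_map_of_mem _ hy)
  rw [tw₁] at e0
  obtain ⟨s₁, σ₁, hσ₁, e1⟩ := hnd sA
  obtain ⟨a₁, σ₂, hσ₂, e2⟩ := hnd aA
  obtain ⟨c₁, σ₃, hσ₃, e3⟩ := hnd cA
  have hs₁ : s₁ ∉ 𝔫 := by
    intro h
    apply hsA
    apply hcancel _ σ₁ hσ₁
    rw [e1]
    exact Ideal.mem_map_of_mem _ h
  refine ⟨s₁ * (algebraMap C₀ C σ₂ * algebraMap C₀ C σ₃ * algebraMap C₀ C s₄),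
    a₁ * (algebraMap C₀ C σ₁ * algebraMap C₀ C σ₃ * algebraMap C₀ C s₄),
    c₁ * (algebraMap C₀ C σ₁ * algebraMap C₀ C σ₂), ?_, ?_⟩
  · intro h
    have hp : 𝔫.IsPrime := h𝔫.isPrime
    rcases hp.mem_or_mem h with h' | h'
    · exact hs₁ h'
    · rcases hp.mem_or_mem h' with h'' | h''
      · rcases hp.mem_or_mem h'' with h3 | h3
        · exact hden σ₂ hσ₂ h3
        · exact hden σ₃ hσ₃ h3
      · exact hden s₄ hs₄ h''
  · apply hCA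
    simp only [map_mul, map_add, tw₂]
    linear_combination (algebraMap C₀ A σ₁ * algebraMap C₀ A σ₂ * algebraMap C₀ A σ₃ *
        algebraMap C₀ A s₄) * e0
      - (algebraMap C₀ A σ₂ * algebraMap C₀ A σ₃ * algebraMap C₀ A s₄ * algebraMap C A y) * e1
      + (algebraMap C₀ A σ₁ * algebraMap C₀ A σ₃ * algebraMap C₀ A s₄ * algebraMap C₀ A x₀) * e2
      + (algebraMap C₀ A σ₁ * algebraMap C₀ A σ₂ * tA * algebraMap C₀ A s₄) * e3
      + (algebraMap C A c₁ * algebraMap C₀ A σ₁ * algebraMap C₀ A σ₂) * ht₁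

/-- **(DISC-GLOBAL)**: the globalised abstract theorem of the DISC route. -/
theorem discGlobal : H6LD.DiscGlobalStatement := by
  intro C₀ C F₀ F _ _ _ _ _ _ _ _ _ _ _ _ _ _ _ _ _ _ _ _ _ _ 𝔫₀ h𝔫₀ ϖ x₀ hϖ0 hϖ𝔫 hx₀𝔫 hgen
    hprime hx₀ϖ hchar r l m hr hml ms hms hall hres hE b hb P hP hPϖ hD
  haveI := h𝔫₀
  have hS₀ : 𝔫₀.primeCompl ≤ nonZeroDivisors C₀ := H21LR.primeCompl_le 𝔫₀
  have hC₀C : Function.Injective (algebraMap C₀ C) := by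
    intro x y hxy
    apply IsFractionRing.injective C₀ F₀
    apply (algebraMap F₀ F).injective
    rw [← IsScalarTower.algebraMap_apply C₀ F₀ F, ← IsScalarTower.algebraMap_apply C₀ F₀ F,
      IsScalarTower.algebraMap_apply C₀ C F, IsScalarTower.algebraMap_apply C₀ C F, hxy]
  have hS : Algebra.algebraMapSubmonoid C 𝔫₀.primeCompl ≤ nonZeroDivisors C := by
    rintro _ ⟨s₀, hs₀, rfl⟩
    apply mem_nonZeroDivisors_of_ne_zero
    intro h0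
    have : s₀ = 0 := hC₀C (by rw [h0, map_zero])
    exact hs₀ (this ▸ 𝔫₀.zero_mem)
  -- the models
  let A₀ := Localization.AtPrime 𝔫₀
  let A := Localization (Algebra.algebraMapSubmonoid C 𝔫₀.primeCompl)
  -- `A₀ → F₀`
  have hu₀ : ∀ y : 𝔫₀.primeCompl, IsUnit (algebraMap C₀ F₀ (y : C₀)) := by
    intro y
    apply IsUnit.mk0
    intro h0
    have : (y : C₀) = 0 := IsFractionRing.injective C₀ F₀ (by rw [h0, map_zero])
    exact y.2 (this ▸ 𝔫₀.zero_mem)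
  letI algA₀F₀ : Algebra A₀ F₀ := (IsLocalization.lift (S := A₀) hu₀).toAlgebra
  haveI : IsScalarTower C₀ A₀ F₀ := IsScalarTower.of_algebraMap_eq fun x => by
    rw [RingHom.algebraMap_toAlgebra, IsLocalization.lift_eq]
  -- `A → F`
  have hu : ∀ y : Algebra.algebraMapSubmonoid C 𝔫₀.primeCompl,
      IsUnit (algebraMap C F (y : C)) := by
    intro y
    apply IsUnit.mk0
    intro h0
    have h1 : (y : C) = 0 := IsFractionRing.injective C F (by rw [h0, map_zero])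
    have h2 := hS y.2
    rw [h1] at h2
    exact zero_notMem_nonZeroDivisors h2
  letI algAF : Algebra A F := (IsLocalization.lift (S := A) hu).toAlgebra
  haveI : IsScalarTower C A F := IsScalarTower.of_algebraMap_eq fun x => by
    rw [RingHom.algebraMap_toAlgebra, IsLocalization.lift_eq]
  -- `A₀ → F`
  letI algA₀F : Algebra A₀ F := ((algebraMap F₀ F).comp (algebraMap A₀ F₀)).toAlgebra
  haveI : IsScalarTower A₀ F₀ F := IsScalarTower.of_algebraMap_eq fun x => rfl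
  haveI : IsScalarTower A₀ A F := by
    refine IsScalarTower.of_algebraMap_eq' ?_
    apply IsLocalization.ringHom_ext 𝔫₀.primeCompl
    ext x
    simp only [RingHom.comp_apply]
    rw [← IsScalarTower.algebraMap_apply C₀ A₀ A, IsScalarTower.algebraMap_apply C₀ C A,
      ← IsScalarTower.algebraMap_apply C A F, ← IsScalarTower.algebraMap_apply C₀ C F]
    show algebraMap F₀ F (algebraMap A₀ F₀ (algebraMap C₀ A₀ x)) = algebraMap C₀ F x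
    rw [← IsScalarTower.algebraMap_apply C₀ A₀ F₀, ← IsScalarTower.algebraMap_apply C₀ F₀ F]
  exact discGlobal_core C₀ C A₀ A F₀ F 𝔫₀ ϖ x₀ hϖ0 hϖ𝔫 hx₀𝔫 hgen hprime hx₀ϖ hchar r l m hr hml
    ms hms hall hres hE b hb P hP hPϖ hD

end H5LC

end
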