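import Mathlib
import Fermat.Prelude.Def_AlgebraicCurve_DivisorClassGroup
import Fermat.Agent.S34.Krull_helper27
import Fermat.Agent.S34.PlaceBridge_helper21
import Fermat.Agent.S24.PlaceBasic

/-!
# Item 86 (S36), LOC, DISC route: the bridge (EB) "places ⇒ primes unramified"  (helper6)

`C₀ ⊆ C` noetherian integrally closed domains, `C` integral over `C₀` (`φ`), fraction fields
`F₀ ⊆ F`, `K ⊆ F` a field.  `Q` a prime of `C` over a height-one prime `q₀ = Q ∩ C₀`, with
`K ⊆ C_Q`.  If the place `V` of `F / K` with valuation ring `C_Q` has `e(V | V ∩ F₀) = 1` (some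
`u ∈ F₀` with `V.ord u = 1`), then `Q C_Q = q₀ C_Q`, in element form:
`∀ y ∈ Q, ∃ s ∉ Q, s * y ∈ q₀ C`.

* `H6EB.isLocPrincipal_of_height_one` : uniform denominators for a height-one prime;
* `H6EB.height_eq_one_of_comap` : `Q` has height one as soon as `Q ∩ C₀` has;
* `H6EB.unr_of_place` : (EB).
-/

set_option autoImplicit false
set_option synthInstance.maxHeartbeats 400000
set_option linter.unusedSectionVars false
set_option linter.unusedVariables false
set_option linter.style.haveILetI false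

noncomputable section

open AlgebraicCurve

namespace H6EB

section gen

variable {M : Type*} [CommRing M] [IsDomain M] [IsNoetherianRing M] [IsIntegrallyClosed M]

/-- a height-one prime of a noetherian integrally closed domain is locally principal with a
uniform denominator. -/
theorem isLocPrincipal_of_height_one (P : Ideal M) [hP : P.IsPrime] (hh : P.height = 1) :
    ∃ a u : M, a ≠ 0 ∧ H25KR.IsLocPrincipal P a u := by
  classical
  obtain ⟨t, ht, hgen⟩ := H27KR.exists_local_generator P hh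
  have hP0 : P ≠ ⊥ := by
    intro h0
    rw [h0] at hh
    have : (⊥ : Ideal M).height = 0 := by
      rw [Ideal.height_eq_zero_iff]
      exact ⟨⟨Ideal.isPrime_bot, bot_le⟩, fun q _ _ => bot_le⟩
    rw [this] at hh
    exact zero_ne_one hh
  have ht0 : t ≠ 0 := by
    rintro rfl
    apply hP0
    rw [eq_bot_iff]
    intro d hd
    obtain ⟨s, hs, y, e⟩ := hgen d hd
    rw [mul_zero] at e
    rcases mul_eq_zero.1 e with h | h
    · exact absurd (h ▸ P.zero_mem) hs
    · rw [h]; exact Ideal.zero_mem _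
  obtain ⟨S, hS⟩ := (isNoetherianRing_iff_ideal_fg M).1 inferInstance P
  have hSP : ∀ d ∈ S, d ∈ P := fun d hd => hS ▸ Ideal.subset_span hd
  choose! s hs y hy using fun d (hd : d ∈ P) => hgen d hd
  refine ⟨t, ∏ d ∈ S, s d, ht0, ht, ?_, ?_⟩
  · intro hmem
    obtain ⟨d, hd, hd'⟩ := (Ideal.IsPrime.prod_mem_iff (hp := hP)).1 hmem
    exact hs d (hSP d hd) hd'
  · intro b hb
    rw [← hS] at hb
    refine Submodule.span_induction (p := fun b _ => ∃ c : M, (∏ d ∈ S, s d) * b = c * t)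
      ?_ ?_ ?_ ?_ hb
    · intro d hd
      refine ⟨(∏ e ∈ S.erase d, s e) * y d, ?_⟩
      rw [← Finset.mul_prod_erase S s hd]
      have := hy d (hSP d hd)
      calc (s d * ∏ e ∈ S.erase d, s e) * d = (∏ e ∈ S.erase d, s e) * (s d * d) := by ring
        _ = (∏ e ∈ S.erase d, s e) * (y d * t) := by rw [this]
        _ = (∏ e ∈ S.erase d, s e) * y d * t := by ring
    · exact ⟨0, by simp⟩
    · rintro b₁ b₂ _ _ ⟨c₁, h₁⟩ ⟨c₂, h₂⟩
      exact ⟨c₁ + c₂, by rw [mul_add, h₁, h₂, add_mul]⟩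
    · rintro r b _ ⟨c, h⟩
      refine ⟨r * c, ?_⟩
      rw [smul_eq_mul, mul_left_comm, h, mul_assoc]

end gen

section height

variable {C₀ C : Type*} [CommRing C₀] [IsDomain C₀] [IsNoetherianRing C₀] [IsIntegrallyClosed C₀]
  [CommRing C] [IsDomain C]

/-- a prime over a height-one prime has height one (integral extension of domains). -/
theorem height_eq_one_of_comap (φ : C₀ →+* C) (hφ : Function.Injective φ) (hint : φ.IsIntegral)
    (Q : Ideal C) [hQ : Q.IsPrime] (hh : (Q.comap φ).height = 1) : Q.height = 1 := by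
  letI : Algebra C₀ C := φ.toAlgebra
  haveI : Algebra.IsIntegral C₀ C := ⟨hint⟩
  haveI hq₀ : (Q.comap φ).IsPrime := Ideal.comap_isPrime φ Q
  obtain ⟨a₀, u₀, ha₀, hloc⟩ := isLocPrincipal_of_height_one (Q.comap φ) hh
  have hQ0 : Q ≠ ⊥ := by
    intro h0
    have : a₀ ∈ Q.comap φ := hloc.mem
    rw [h0, Ideal.mem_comap, Ideal.mem_bot] at this
    exact ha₀ (hφ (by rw [this, map_zero]))
  have hle : Q.height ≤ 1 := by
    have := (Ideal.height_le_iff (p := Q) (n := 1)).2
    rw [Nat.cast_one] at this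
    apply this
    intro Q' hQ' hlt
    haveI := hQ'
    have hQ'0 : Q' = ⊥ := by
      by_contra hne
      obtain ⟨x, hxQ', hx0⟩ := Submodule.exists_mem_ne_zero_of_ne_bot hne
      have h1 : Q'.comap (algebraMap C₀ C) ≠ ⊥ :=
        Ideal.comap_ne_bot_of_integral_mem hx0 hxQ' (Algebra.IsIntegral.isIntegral x)
      have h2 : Q'.comap (algebraMap C₀ C) ≤ Q.comap φ := Ideal.comap_mono hlt.le
      have h3 : Q'.comap (algebraMap C₀ C) = Q.comap φ :=
        H25KR.height_one hloc (Ideal.comap_isPrime _ Q') h2 h1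
      obtain ⟨z, hzQ, hzQ'⟩ := Set.exists_of_ssubset hlt
      have h4 := Ideal.comap_lt_comap_of_integral_mem_sdiff (R := C₀) hlt.le ⟨hzQ, hzQ'⟩
        (Algebra.IsIntegral.isIntegral z)
      rw [h3] at h4
      exact lt_irrefl _ h4
    rw [hQ'0]
    have : (⊥ : Ideal C).height = 0 := by
      rw [Ideal.height_eq_zero_iff]
      exact ⟨⟨Ideal.isPrime_bot, bot_le⟩, fun q _ _ => bot_le⟩
    rw [this]
    exact zero_lt_one
  have hge : 1 ≤ Q.height := by
    by_contra hlt
    have h0 : Q.height = 0 := by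
      have : Q.height < 1 := not_le.1 hlt
      exact Order.lt_one_iff.mp this
    rw [Ideal.height_eq_zero_iff] at h0
    apply hQ0
    have := h0.2 (y := ⊥) ⟨Ideal.isPrime_bot, bot_le⟩ bot_le
    exact le_antisymm this bot_le
  exact le_antisymm hle hge

end height

section bridge

variable {C₀ C : Type} [CommRing C₀] [IsDomain C₀] [IsNoetherianRing C₀] [IsIntegrallyClosed C₀]
  [CommRing C] [IsDomain C] [IsNoetherianRing C] [IsIntegrallyClosed C]
  {F₀ F : Type} [Field F₀] [Field F] [Algebra C₀ F₀] [IsFractionRing C₀ F₀]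
  [Algebra C F] [IsFractionRing C F] [Algebra F₀ F] (K : Type) [Field K] [Algebra K F]

/-- **(EB)**: places ⇒ primes unramified. -/
theorem unr_of_place (φ : C₀ →+* C)
    (hφ : ∀ x, algebraMap C F (φ x) = algebraMap F₀ F (algebraMap C₀ F₀ x))
    (hint : φ.IsIntegral)
    (Q : Ideal C) [hQ : Q.IsPrime] (hh : (Q.comap φ).height = 1)
    (hK : ∀ c : K, ∃ s b : C, s ∉ Q ∧ algebraMap K F c * algebraMap C F s = algebraMap C F b)
    (hE : ∀ V : Place K F,
      (∀ z : F, (∃ s c : C, s ∉ Q ∧ z * algebraMap C F s = algebraMap C F c) → 0 ≤ V.ord z) →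
      ∃ u : F₀, V.ord (algebraMap F₀ F u) = 1) :
    ∀ y ∈ Q, ∃ s : C, s ∉ Q ∧ s * y ∈ (Q.comap φ).map φ := by
  classical
  have hinjC : Function.Injective (algebraMap C F) := IsFractionRing.injective C F
  have hinjC₀ : Function.Injective (algebraMap C₀ F₀) := IsFractionRing.injective C₀ F₀
  have hφinj : Function.Injective φ := by
    intro x y hxy
    apply hinjC₀
    apply (algebraMap F₀ F).injective
    rw [← hφ, ← hφ, hxy]
  haveI hq₀ : (Q.comap φ).IsPrime := Ideal.comap_isPrime φ Q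
  have hQh : Q.height = 1 := height_eq_one_of_comap φ hφinj hint Q hh
  obtain ⟨a, u, ha0, hloc⟩ := isLocPrincipal_of_height_one Q hQh
  obtain ⟨a₀, u₀, ha₀0, hloc₀⟩ := isLocPrincipal_of_height_one (Q.comap φ) hh
  -- the place of `Q`
  have hKV : ∀ c : K, algebraMap K F c ∈ H25KR.valSub F Q hloc := by
    intro c
    obtain ⟨s, b, hs, e⟩ := hK c
    exact ⟨b, s, hs, e⟩
  set V : Place K F := H21PB.placeOf hloc K ha0 hKV with hV
  have hmemV : ∀ z : F, z ∈ V.toValuationSubring ↔
      ∃ m s : C, s ∉ Q ∧ z * algebraMap C F s = algebraMap C F m := fun z => Iff.rfl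
  have hordC : ∀ c : C, 0 ≤ V.ord (algebraMap C F c) := fun c =>
    RH24.h20_ord_nonneg_of_mem V ((hmemV _).2 ⟨c, 1, H25KR.one_nmem, by simp⟩)
  have hord0 : ∀ s : C, s ∉ Q → V.ord (algebraMap C F s) = 0 := fun s hs =>
    H21PB.ord_of_nmem hloc ha0 hKV hs
  have horda : V.ord (algebraMap C F a) = 1 := H21PB.ord_unif hloc ha0 hKV
  have hne : ∀ c : C, c ≠ 0 → algebraMap C F c ≠ 0 := fun c hc h0 =>
    hc (hinjC (by rw [h0, map_zero]))
  have hnQ : ∀ s : C, s ∉ Q → s ≠ 0 := fun s hs h0 => hs (h0 ▸ Q.zero_mem)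
  -- elements of `Q` have positive order
  have hordQ : ∀ y : C, y ∈ Q → y ≠ 0 → 1 ≤ V.ord (algebraMap C F y) := by
    intro y hy hy0
    obtain ⟨c, hc⟩ := hloc.gen y hy
    have hc0 : c ≠ 0 := by
      rintro rfl
      rw [zero_mul] at hc
      rcases mul_eq_zero.1 hc with h | h
      · exact hnQ u hloc.nmem h
      · exact hy0 h
    have e := congrArg (fun z => V.ord (algebraMap C F z)) hc
    simp only [map_mul] at e
    rw [Place.ord_mul _ (hne u (hnQ u hloc.nmem)) (hne y hy0),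
      Place.ord_mul _ (hne c hc0) (hne a ha0), hord0 u hloc.nmem, horda] at e
    have := hordC c
    omega
  -- the element of `F₀` of order one
  obtain ⟨w, hw⟩ := hE V (by
    intro z hz
    obtain ⟨s, c, hs, e⟩ := hz
    exact RH24.h20_ord_nonneg_of_mem V ((hmemV z).2 ⟨c, s, hs, e⟩))
  have hw0 : w ≠ 0 := by
    rintro rfl
    rw [map_zero, Place.ord_zero] at hw
    exact zero_ne_one hw
  obtain ⟨s, c, k, l, hs, hc, e⟩ := H21PB.exists_repr (F := F₀) hloc₀ hw0
  have hφQ : ∀ x : C₀, x ∉ Q.comap φ → φ x ∉ Q := fun x hx h => hx (Ideal.mem_comap.2 h)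
  have hφa₀ : φ a₀ ∈ Q := Ideal.mem_comap.1 hloc₀.mem
  have hφa₀0 : φ a₀ ≠ 0 := fun h0 => ha₀0 (hφinj (by rw [h0, map_zero]))
  have e' := congrArg (algebraMap F₀ F) e
  simp only [map_mul, map_pow, ← hφ] at e'
  have hwF : algebraMap F₀ F w ≠ 0 := fun h0 =>
    hw0 ((algebraMap F₀ F).injective (by rw [h0, map_zero]))
  have hsF : algebraMap C F (φ s) ≠ 0 := hne _ (hnQ _ (hφQ s hs))
  have hcF : algebraMap C F (φ c) ≠ 0 := hne _ (hnQ _ (hφQ c hc))
  have haF : algebraMap C F (φ a₀) ≠ 0 := hne _ hφa₀0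
  have e'' := congrArg V.ord e'
  rw [Place.ord_mul _ (mul_ne_zero hwF hsF) (pow_ne_zero l haF), Place.ord_mul _ hwF hsF,
    Place.ord_mul _ hcF (pow_ne_zero k haF), H21PB.ord_pow' hloc ha0 hKV,
    H21PB.ord_pow' hloc ha0 hKV, hw, hord0 _ (hφQ s hs), hord0 _ (hφQ c hc)] at e''
  have h1 := hordQ (φ a₀) hφa₀ hφa₀0
  have horda₀ : V.ord (algebraMap C F (φ a₀)) = 1 := by
    set E := V.ord (algebraMap C F (φ a₀)) with hE'
    have h2 : E * ((k : ℤ) - l) = 1 := by linarith
    have h3 : E ∣ 1 := Dvd.intro _ h2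
    have h4 := Int.le_of_dvd one_pos h3
    omega
  -- the conclusion
  intro y hy
  rcases eq_or_ne y 0 with rfl | hy0
  · exact ⟨1, H25KR.one_nmem, by simp⟩
  have hy1 := hordQ y hy hy0
  have hz : algebraMap C F y / algebraMap C F (φ a₀) ∈ V.toValuationSubring := by
    have hz0 : algebraMap C F y / algebraMap C F (φ a₀) ≠ 0 := div_ne_zero (hne y hy0) haF
    rw [RH24.h20_mem_iff_ord_nonneg V hz0, div_eq_mul_inv,
      Place.ord_mul _ (hne y hy0) (inv_ne_zero haF), Place.ord_inv, horda₀]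
    omega
  obtain ⟨m, s', hs', em⟩ := (hmemV _).1 hz
  refine ⟨s', hs', ?_⟩
  have : s' * y = m * φ a₀ := by
    apply hinjC
    rw [map_mul, map_mul, ← em]
    field_simp
  rw [this]
  exact Ideal.mul_mem_left _ _ (Ideal.mem_map_of_mem φ hloc₀.mem)

end bridge

end H6EB

end
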