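import Mathlib
import Fermat.Agent.S34.LocBridge_helper22
import Fermat.Agent.S36.ChartMap_helper6
import Fermat.Agent.S36.LocDiscDefs_helper6

/-!
# Item 86 (S36), LOC, DISC route: the chart glue  (helper6)

`H6LA.discChart_of_global : H6LD.DiscGlobalStatement → H6LA.EBStatement → H6LD.DiscChartStatement`

* `DiscGlobalStatement` (generic globalised DISC theorem; proof = helper5, from
  `H5LC.discLocal` + `H19SL`),
* `EBStatement` (E-bridge "places ⇒ primes unramified", helper18's `h18eb_unr_of_place`),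
give the chart form consumed by the concrete instances (R1) (levels `N'`, `N' q`) and (R3)
(levels `N' q`, `N' q²`).  The algebra structure of the upper chart over the lower one is
`H6CM.chartMap`.
-/

set_option autoImplicit false
set_option synthInstance.maxHeartbeats 400000
set_option linter.unusedSectionVars false
set_option linter.unusedVariables false
set_option linter.style.haveILetI false

noncomputable section

open Polynomial IntermediateField AlgebraicCurve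

namespace H6LA

open H4S34 H6CM H6LD

/-- the (EB) bridge of helper18, as a hypothesis -/
def EBStatement : Prop :=
  ∀ (C₀ C : Type) [CommRing C₀] [IsDomain C₀] [IsNoetherianRing C₀] [IsIntegrallyClosed C₀]
    [CommRing C] [IsDomain C] [IsNoetherianRing C] [IsIntegrallyClosed C]
    (F₀ F : Type) [Field F₀] [Field F] [Algebra C₀ F₀] [IsFractionRing C₀ F₀]
    [Algebra C F] [IsFractionRing C F] [Algebra F₀ F] (K : Type) [Field K] [Algebra K F]
    (φ : C₀ →+* C)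
    (_ : ∀ x, algebraMap C F (φ x) = algebraMap F₀ F (algebraMap C₀ F₀ x))
    (_ : φ.IsIntegral)
    (Q : Ideal C) [Q.IsPrime] (_ : (Q.comap φ).height = 1)
    (_ : ∀ c : K, ∃ s b : C, s ∉ Q ∧ algebraMap K F c * algebraMap C F s = algebraMap C F b)
    (_ : ∀ V : Place K F,
      (∀ z : F, (∃ s c : C, s ∉ Q ∧ z * algebraMap C F s = algebraMap C F c) → 0 ≤ V.ord z) →
      ∃ u : F₀, V.ord (algebraMap F₀ F u) = 1),
    ∀ y ∈ Q, ∃ s : C, s ∉ Q ∧ s * y ∈ (Q.comap φ).map φ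

theorem discChart_of_global (hG : DiscGlobalStatement) (hEB : EBStatement) :
    DiscChartStatement := by
  intro R _ _ _ K _ _ _ _ F₀ F _ _ _ _ _ _ _ _ _ _ _ _ ϖ hϖ t₀ ht₀ hfin₀ hfin 𝔫₀ h𝔫₀ x₀ hx₀
    hgen hprime hx₀ϖ r l m hr hml ms hms hall hdeg j₀ hj₀ hE b hb P hP hPϖ hD 𝔫 h𝔫 hover
  classical
  haveI := hfin₀
  haveI := hfin
  have ht : Transcendental K (algebraMap F₀ F t₀) := by
    intro halg
    apply ht₀
    exact (isAlgebraic_algebraMap_iff (algebraMap F₀ F).injective).1 halg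
  haveI : IsNoetherianRing (Chart R t₀) := H22BR.chart_noeth R K ht₀
  haveI : IsNoetherianRing (Chart R (algebraMap F₀ F t₀)) := H22BR.chart_noeth R K ht
  haveI : IsIntegrallyClosed (Chart R t₀) := H22BR.chart_intClosed R K t₀
  haveI : IsIntegrallyClosed (Chart R (algebraMap F₀ F t₀)) := H22BR.chart_intClosed R K _
  haveI : IsFractionRing (Chart R t₀) F₀ := H22BR.chart_isFractionRing R K t₀
  haveI : IsFractionRing (Chart R (algebraMap F₀ F t₀)) F := H22BR.chart_isFractionRing R K _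
  haveI h𝔫₀m : 𝔫₀.IsMaximal := h𝔫₀.1
  haveI h𝔫₀p : 𝔫₀.IsPrime := h𝔫₀.1.isPrime
  letI algC : Algebra (Chart R t₀) (Chart R (algebraMap F₀ F t₀)) :=
    (chartMap R (F := F) t₀).toAlgebra
  haveI : IsScalarTower (Chart R t₀) F₀ F := inferInstance
  haveI : IsScalarTower (Chart R t₀) (Chart R (algebraMap F₀ F t₀)) F :=
    IsScalarTower.of_algebraMap_eq (fun _ => rfl)
  haveI : Algebra.IsIntegral (Chart R t₀) (Chart R (algebraMap F₀ F t₀)) :=
    (algebraMap_isIntegral_iff).1 (chartMap_isIntegral R t₀)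
  haveI : CharZero F₀ := charZero_of_injective_algebraMap (algebraMap K F₀).injective
  have hinjR : Function.Injective (algebraMap R F₀) := H19S18.h19_algebraMap_injective R K
  have hϖF : algebraMap R F₀ ϖ ≠ 0 := fun h0 => hϖ.ne_zero (hinjR (by rw [h0, map_zero]))
  -- `ϖ` as an element of the lower chart
  let ϖM : Chart R t₀ :=
    algebraMap (Algebra.adjoin R {t₀}) (Chart R t₀) (algebraMap R (Algebra.adjoin R {t₀}) ϖ)
  have hϖMcoe : (ϖM : F₀) = algebraMap R F₀ ϖ := rfl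
  have hϖM0 : ϖM ≠ 0 := by
    intro h0
    apply hϖF
    rw [← hϖMcoe, h0]
    rfl
  have hϖM𝔫 : ϖM ∈ 𝔫₀ := h𝔫₀.2 ϖM hϖMcoe
  have hmapC : ∀ x : Chart R t₀,
      algebraMap (Chart R t₀) (Chart R (algebraMap F₀ F t₀)) x = chartMap R (F := F) t₀ x :=
    fun _ => rfl
  have hcoeC : ∀ x : Chart R t₀,
      ((algebraMap (Chart R t₀) (Chart R (algebraMap F₀ F t₀)) x :
        Chart R (algebraMap F₀ F t₀)) : F) = algebraMap F₀ F (x : F₀) := fun _ => rfl
  have hmapF : ∀ x : Chart R t₀, algebraMap (Chart R t₀) F x = algebraMap F₀ F (x : F₀) :=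
    fun _ => rfl
  have hmapF₀ : ∀ x : Chart R t₀, algebraMap (Chart R t₀) F₀ x = (x : F₀) := fun _ => rfl
  have hmapCF : ∀ x : Chart R (algebraMap F₀ F t₀),
      algebraMap (Chart R (algebraMap F₀ F t₀)) F x = (x : F) := fun _ => rfl
  -- uniqueness of the lift of an element of the lower chart
  have hlift : ∀ (y : Chart R t₀) (y' : Chart R (algebraMap F₀ F t₀)),
      (y' : F) = algebraMap F₀ F y → y' = chartMap R (F := F) t₀ y := by
    intro y y' h
    exact Subtype.ext h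
  -- "over" in the two forms
  have hover_iff : ∀ 𝔪 : Ideal (Chart R (algebraMap F₀ F t₀)), 𝔪.IsMaximal →
      ((∀ y : Chart R t₀, y ∈ 𝔫₀ → ∀ y' : Chart R (algebraMap F₀ F t₀),
        (y' : F) = algebraMap F₀ F y → y' ∈ 𝔪) ↔
      𝔪.comap (algebraMap (Chart R t₀) (Chart R (algebraMap F₀ F t₀))) = 𝔫₀) := by
    intro 𝔪 h𝔪
    constructor
    · intro h
      have hle : 𝔫₀ ≤ 𝔪.comap (algebraMap (Chart R t₀) (Chart R (algebraMap F₀ F t₀))) := by
        intro y hy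
        rw [Ideal.mem_comap]
        exact h y hy _ rfl
      have hne : 𝔪.comap (algebraMap (Chart R t₀) (Chart R (algebraMap F₀ F t₀))) ≠ ⊤ :=
        (Ideal.comap_isPrime _ 𝔪).ne_top
      exact (h𝔫₀m.eq_of_le hne hle).symm
    · intro h y hy y' hy'
      rw [hlift y y' hy']
      have : y ∈ 𝔪.comap (algebraMap (Chart R t₀) (Chart R (algebraMap F₀ F t₀))) := by
        rw [h]; exact hy
      exact this
  -- (G0)
  have hgen' : ∀ y ∈ 𝔫₀, ∃ s a b : Chart R t₀, s ∉ 𝔫₀ ∧ s * y = a * ϖM + b * x₀ := by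
    intro y hy
    obtain ⟨s, a, b, hs, e⟩ := hgen y hy
    refine ⟨s, a, b, hs, Subtype.ext ?_⟩
    push_cast
    rw [e, hϖMcoe]
  have conv : ∀ d : Chart R t₀, InLoc R t₀ 𝔫₀ ((d : F₀) * (algebraMap R F₀ ϖ)⁻¹) ↔
      ∃ c s : Chart R t₀, s ∉ 𝔫₀ ∧ s * d = c * ϖM := by
    intro d
    constructor
    · rintro ⟨c', s', hs', e''⟩
      refine ⟨c', s', hs', Subtype.ext ?_⟩
      push_cast
      rw [hϖMcoe, ← e'']
      field_simp
    · rintro ⟨c, s, hs, e⟩
      refine ⟨c, s, hs, ?_⟩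
      have e' : (s : F₀) * (d : F₀) = c * algebraMap R F₀ ϖ := by
        have := congrArg (fun z : Chart R t₀ => (z : F₀)) e
        simpa [hϖMcoe] using this
      field_simp
      linear_combination e'
  have hprime' : ∀ a b : Chart R t₀, (∃ c s : Chart R t₀, s ∉ 𝔫₀ ∧ s * (a * b) = c * ϖM) →
      (∃ c s : Chart R t₀, s ∉ 𝔫₀ ∧ s * a = c * ϖM) ∨
        (∃ c s : Chart R t₀, s ∉ 𝔫₀ ∧ s * b = c * ϖM) := by
    intro a b hab
    have h1 : InLoc R t₀ 𝔫₀ ((a : F₀) * b * (algebraMap R F₀ ϖ)⁻¹) := by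
      have := (conv (a * b)).2 hab
      simpa using this
    rcases hprime a b h1 with h2 | h2
    · exact Or.inl ((conv a).1 h2)
    · exact Or.inr ((conv b).1 h2)
  have hx₀ϖ' : ¬ ∃ c s : Chart R t₀, s ∉ 𝔫₀ ∧ s * x₀ = c * ϖM := fun h =>
    hx₀ϖ ((conv x₀).2 h)
  -- (C)
  haveI : CharZero R := (algebraMap R K).charZero
  have hC : ∀ n : ℕ, n ≠ 0 → ∃ (k : ℕ) (c : Chart R t₀), c * (n : Chart R t₀) = ϖM ^ k := by
    intro n hn
    have hn0 : (n : R) ≠ 0 := Nat.cast_ne_zero.2 hn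
    obtain ⟨k, u, hu⟩ := IsDiscreteValuationRing.associated_pow_irreducible hn0 hϖ
    refine ⟨k, algebraMap (Algebra.adjoin R {t₀}) (Chart R t₀)
      (algebraMap R (Algebra.adjoin R {t₀}) (u : R)), Subtype.ext ?_⟩
    have h1 : ((algebraMap (Algebra.adjoin R {t₀}) (Chart R t₀)
      (algebraMap R (Algebra.adjoin R {t₀}) (u : R)) : Chart R t₀) : F₀) =
        algebraMap R F₀ (u : R) := rfl
    have h2 : (((n : Chart R t₀)) : F₀) = (n : F₀) := by push_cast; rfl
    have h3 : ((ϖM ^ k : Chart R t₀) : F₀) = (algebraMap R F₀ ϖ) ^ k := by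
      push_cast; rw [hϖMcoe]
    rw [MulMemClass.coe_mul, h1, h2, h3, ← map_pow, ← hu, map_mul, map_natCast]
    ring
  -- (F)
  have hall' : ∀ 𝔪 : Ideal (Chart R (algebraMap F₀ F t₀)), 𝔪.IsMaximal →
      𝔪.comap (algebraMap (Chart R t₀) (Chart R (algebraMap F₀ F t₀))) = 𝔫₀ → 𝔪 ∈ ms :=
    fun 𝔪 h𝔪 h => hall 𝔪 h𝔪 ((hover_iff 𝔪 h𝔪).2 h)
  have hdeg' : ∀ 𝔪 : Ideal (Chart R (algebraMap F₀ F t₀)), 𝔪.IsMaximal →
      𝔪.comap (algebraMap (Chart R t₀) (Chart R (algebraMap F₀ F t₀))) = 𝔫₀ →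
      ∀ y : Chart R (algebraMap F₀ F t₀), ∃ a : Chart R t₀,
        y - algebraMap (Chart R t₀) (Chart R (algebraMap F₀ F t₀)) a ∈ 𝔪 := by
    intro 𝔪 h𝔪 h y
    obtain ⟨a, y', hy', hmem⟩ := hdeg 𝔪 h𝔪 ((hover_iff 𝔪 h𝔪).2 h) y
    refine ⟨a, ?_⟩
    rw [hmapC, ← hlift a y' hy']
    exact hmem
  -- (E)
  have hE' : ∀ Q : Ideal (Chart R (algebraMap F₀ F t₀)), Q.IsPrime →
      (Q.comap (algebraMap (Chart R t₀) (Chart R (algebraMap F₀ F t₀)))).height = 1 →
      ϖM ∉ Q.comap (algebraMap (Chart R t₀) (Chart R (algebraMap F₀ F t₀))) →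
      Q.comap (algebraMap (Chart R t₀) (Chart R (algebraMap F₀ F t₀))) ≤ 𝔫₀ →
      ∀ y ∈ Q, ∃ s : Chart R (algebraMap F₀ F t₀), s ∉ Q ∧
        s * y ∈ (Q.comap (algebraMap (Chart R t₀) (Chart R (algebraMap F₀ F t₀)))).map
          (algebraMap (Chart R t₀) (Chart R (algebraMap F₀ F t₀))) := by
    intro Q hQ hh hϖQ hQ𝔫
    haveI := hQ
    refine hEB (Chart R t₀) (Chart R (algebraMap F₀ F t₀)) F₀ F K
      (algebraMap (Chart R t₀) (Chart R (algebraMap F₀ F t₀))) (fun x => rfl)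
      (chartMap_isIntegral R t₀) Q hh ?_ ?_
    · intro c
      obtain ⟨r₁, r₂, hr₂, rfl⟩ := IsFractionRing.div_surjective (A := R) c
      have hr₂0 : r₂ ≠ 0 := nonZeroDivisors.ne_zero hr₂
      obtain ⟨k, u, hu⟩ := IsDiscreteValuationRing.associated_pow_irreducible hr₂0 hϖ
      have hinjRF : Function.Injective (algebraMap R F) := H19S18.h19_algebraMap_injective R K
      have hr₂F : algebraMap R F r₂ ≠ 0 := fun h0 => hr₂0 (hinjRF (by rw [h0, map_zero]))
      refine ⟨(chartMap R (F := F) t₀ ϖM) ^ k,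
        algebraMap (Algebra.adjoin R {algebraMap F₀ F t₀}) (Chart R (algebraMap F₀ F t₀))
          (algebraMap R (Algebra.adjoin R {algebraMap F₀ F t₀}) (r₁ * u)), ?_, ?_⟩
      · intro hmem
        exact hϖQ (Ideal.mem_comap.2 (hQ.mem_of_pow_mem k hmem))
      · have h1 : algebraMap (Chart R (algebraMap F₀ F t₀)) F
            (algebraMap (Algebra.adjoin R {algebraMap F₀ F t₀}) (Chart R (algebraMap F₀ F t₀))
              (algebraMap R (Algebra.adjoin R {algebraMap F₀ F t₀}) (r₁ * u))) =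
            algebraMap R F (r₁ * u) := rfl
        have h2 : algebraMap (Chart R (algebraMap F₀ F t₀)) F
            ((chartMap R (F := F) t₀ ϖM) ^ k) = algebraMap R F ϖ ^ k := by
          rw [map_pow, hmapCF, coe_chartMap, hϖMcoe, ← IsScalarTower.algebraMap_apply R F₀ F]
        rw [h1, h2, map_div₀, ← IsScalarTower.algebraMap_apply R K F,
          ← IsScalarTower.algebraMap_apply R K F, ← map_pow, ← hu, map_mul, map_mul]
        field_simp
    · intro V hV
      apply hE V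
      apply hV
      obtain ⟨a, s, hs, e⟩ := hj₀
      refine ⟨chartMap R (F := F) t₀ s, chartMap R (F := F) t₀ a,
        fun hmem => hs (hQ𝔫 (Ideal.mem_comap.2 hmem)), ?_⟩
      rw [hmapCF, hmapCF, coe_chartMap, coe_chartMap, ← map_mul, mul_comm, e]
  -- (D)
  have hb' : ∀ i, ∃ (s : Chart R t₀) (c : Chart R (algebraMap F₀ F t₀)), s ∉ 𝔫₀ ∧
      algebraMap (Chart R t₀) F s * b i = algebraMap (Chart R (algebraMap F₀ F t₀)) F c := by
    intro i
    obtain ⟨s, c, hs, e⟩ := hb i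
    exact ⟨s, c, hs, e⟩
  have hP' : ∃ a s : Chart R t₀, s ∉ 𝔫₀ ∧
      algebraMap (Chart R t₀) F₀ s * P = algebraMap (Chart R t₀) F₀ a := by
    obtain ⟨a, s, hs, e⟩ := hP
    exact ⟨a, s, hs, e⟩
  have hPϖ' : ¬ ∃ a s : Chart R t₀, s ∉ 𝔫₀ ∧
      algebraMap (Chart R t₀) F₀ s * P = algebraMap (Chart R t₀) F₀ (a * ϖM) := by
    rintro ⟨a, s, hs, e⟩
    apply hPϖ
    refine ⟨a, s, hs, ?_⟩
    rw [hmapF₀, hmapF₀] at e
    push_cast at e
    rw [hϖMcoe] at e
    field_simp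
    linear_combination e
  have hD' : Algebra.discr F₀ b = algebraMap (Chart R t₀) F₀ ϖM ^ m * P := hD
  have hcomap : 𝔫.comap (algebraMap (Chart R t₀) (Chart R (algebraMap F₀ F t₀))) = 𝔫₀ :=
    (hover_iff 𝔫 h𝔫).1 hover
  obtain ⟨t', ht', hgen''⟩ := hG (Chart R t₀) (Chart R (algebraMap F₀ F t₀)) F₀ F 𝔫₀ h𝔫₀m ϖM x₀
    hϖM0 hϖM𝔫 hx₀ hgen' hprime' hx₀ϖ' hC r l m hr hml ms hms hall' hdeg' hE' b hb' P hP' hPϖ' hD'
    𝔫 h𝔫 hcomap
  refine ⟨chartMap R (F := F) t₀ x₀, t', rfl, ?_, ht', ?_⟩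
  · have : x₀ ∈ 𝔫.comap (algebraMap (Chart R t₀) (Chart R (algebraMap F₀ F t₀))) := by
      rw [hcomap]; exact hx₀
    exact this
  · intro y hy
    obtain ⟨s, a, c, hs, e⟩ := hgen'' y hy
    refine ⟨s, a, c, hs, ?_⟩
    have := congrArg (fun z : Chart R (algebraMap F₀ F t₀) => (z : F)) e
    simp only [MulMemClass.coe_mul, AddMemClass.coe_add, hcoeC] at this
    exact this

end H6LA

end
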