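import Mathlib
import Fermat.Agent.S36.LocDiscAsm_helper6
import Fermat.Agent.S36.EBridge_helper6
import Fermat.Agent.S36.DiscGlobal_helper5

/-!
# Item 86 (S36), LOC, DISC route: the chart form of the DISC theorem, UNCONDITIONAL  (helper6)

* `H6LD.ebStatement : H6LA.EBStatement` (from `H6EB.unr_of_place`);
* `H6LD.discChart : H6LD.DiscChartStatement`
  (= `H6LA.discChart_of_global` applied to helper5's `H5LC.discGlobal`).

`discChart` is the input `hdisc` of helper20's `H20R3.two_gen_of_disc'` ((R3), levels
`N' q ⊂ N' q²`) and of the (R1) instance (levels `N' ⊂ N' q`).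
-/

set_option autoImplicit false
set_option synthInstance.maxHeartbeats 400000

noncomputable section

namespace H6LD

theorem ebStatement : H6LA.EBStatement := by
  intro C₀ C _ _ _ _ _ _ _ _ F₀ F _ _ _ _ _ _ _ K _ _ φ hφ hint Q _ hh hK hE
  exact H6EB.unr_of_place K φ hφ hint Q hh hK hE

/-- **(DISC-CHART)**, unconditional. -/
theorem discChart : DiscChartStatement :=
  H6LA.discChart_of_global H5LC.discGlobal ebStatement

end H6LD

end
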