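import Fermat.Agent.S36.LocF3_helper12
import Fermat.Agent.S36.ChartMap_helper6

/-!
# Item 86 (S36), slice (LOC-F), part 5 (helper12): the inputs `hpi1`, `hcomp` of
`H20R3.two_gen_of_disc'` for the instance (R1) (levels `M ⊂ M q`, `ι = Unit`, `P = P₁`)

`F₀ = FK K₁ M`, `F = FK K₁ (M q)`, ANY `Algebra F₀ F` instance whose `algebraMap` is the
inclusion `heckeAlphaBar K₁ M q` (`halg`); upper chart `Chart R (algebraMap F₀ F tM)`.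

* `H12LF.hpi1_R1`  : `∀ b, ∃ s a, s ∉ 𝔫₀ ∧ chartMap s * b − chartMap a ∈ P₁` (with `s = 1`);
* `H12LF.hcomp_R1` : if a common point `𝔫` of `C₁'`, `C₂'` lies above `𝔫₀`, then every maximal
  ideal above `𝔫₀` contains `P₁` (it is `𝔫`);
* `H12LF.hover_unique_R1` : it is equal to `𝔫`.
-/

set_option autoImplicit false
set_option linter.style.longLine false
set_option linter.unusedSectionVars false
set_option linter.unusedVariables false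
set_option linter.style.haveILetI false
set_option synthInstance.maxHeartbeats 400000
set_option maxHeartbeats 1000000

noncomputable section

open ModularCurve H7S18 H4S34 H26DI H28GV H18R2

namespace H12LF

section Shape

local notation "Kbar" => AlgebraicClosure ℚ

variable (M : ℕ) [NeZero M] (q : ℕ) [NeZero q] (hq : q.Prime) (hqM : ¬ q ∣ M)
  (hT : TameLevel q M)
  (A : ValuationSubring Kbar) (hA : A.LiesOverPrime q)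
  (K₁ : IntermediateField ℚ Kbar) (hfin : FiniteDimensional ℚ K₁)
  (hζ : ∃ ζ : K₁, IsPrimitiveRoot ζ (branchIndex (baseKind q) M))
  [Algebra ↥(descVal A K₁) (FK K₁ M)] [IsScalarTower ↥(descVal A K₁) K₁ (FK K₁ M)]
  [Algebra ↥(descVal A K₁) (FK K₁ (M * q))]
  [IsScalarTower ↥(descVal A K₁) K₁ (FK K₁ (M * q))]
  [Algebra (FK K₁ M) (FK K₁ (M * q))]
  [IsScalarTower ↥(descVal A K₁) (FK K₁ M) (FK K₁ (M * q))]
  (halg : ∀ x : FK K₁ M, algebraMap (FK K₁ M) (FK K₁ (M * q)) x = heckeAlphaBar K₁ M q x)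
  (ϖ : ↥(descVal A K₁)) (hϖ : Irreducible ϖ)
  (t₀ : LaurentSeries ℚ) (ht₀ : IsBase (baseKind q) t₀)
  (tM : FK K₁ M) (htM : (tM : LaurentSeries K₁) = coeffEmb K₁ t₀)

include halg htM in
theorem coe_algebraMap_tM :
    ((algebraMap (FK K₁ M) (FK K₁ (M * q)) tM : FK K₁ (M * q)) : LaurentSeries K₁) =
      coeffEmb K₁ t₀ := by
  rw [halg, coe_heckeAlphaBar, htM]

include hq hqM hT hA hfin hζ halg hϖ ht₀ htM in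
/-- **`hpi1` for (R1)**: residue degree one of `C₁'` over the lower chart (`s = 1`). -/
theorem hpi1_R1
    (P₁ : Ideal (Chart ↥(descVal A K₁) (algebraMap (FK K₁ M) (FK K₁ (M * q)) tM)))
    (h1 : IsComp1 A K₁ (algebraMap (FK K₁ M) (FK K₁ (M * q)) tM) P₁)
    (𝔫₀ : Ideal (Chart ↥(descVal A K₁) tM)) (h𝔫₀ : 𝔫₀ ≠ ⊤)
    (b : Chart ↥(descVal A K₁) (algebraMap (FK K₁ M) (FK K₁ (M * q)) tM)) :
    ∃ s a : Chart ↥(descVal A K₁) tM, s ∉ 𝔫₀ ∧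
      H6CM.chartMap ↥(descVal A K₁) tM s * b - H6CM.chartMap ↥(descVal A K₁) tM a ∈ P₁ := by
  obtain ⟨a, y', hy', hyy'⟩ := resdeg_C1 M q hq hqM hT A hA K₁ hfin hζ ϖ hϖ t₀ ht₀ tM htM
    (algebraMap (FK K₁ M) (FK K₁ (M * q)) tM) (coe_algebraMap_tM M q K₁ halg t₀ tM htM)
    P₁ h1 P₁ le_rfl b
  have e : y' = H6CM.chartMap ↥(descVal A K₁) tM a := by
    apply Subtype.ext
    rw [hy', H6CM.coe_chartMap, halg]
  refine ⟨1, a, (Ideal.ne_top_iff_one 𝔫₀).mp h𝔫₀, ?_⟩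
  rw [map_one, one_mul, ← e]
  exact hyy'

include hq hqM hT hA hfin hζ halg hϖ ht₀ htM in
/-- **one point above** for (R1), in `chartMap` form. -/
theorem hover_unique_R1 (γ : K₁ ≃ₐ[ℚ] K₁)
    (hγ : ∀ a : K₁, a ∈ descVal A K₁ → γ a ∈ descVal A K₁)
    (hγ' : ∀ a : K₁, a ∈ descVal A K₁ → γ.symm a ∈ descVal A K₁)
    (hfrob : ∀ a : K₁, a ∈ descVal A K₁ → γ a - a ^ q ∈ (descVal A K₁).nonunits)
    (P₁ P₂ : Ideal (Chart ↥(descVal A K₁) (algebraMap (FK K₁ M) (FK K₁ (M * q)) tM)))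
    (h1 : IsComp1 A K₁ (algebraMap (FK K₁ M) (FK K₁ (M * q)) tM) P₁)
    (h2 : IsComp2 hq hqM A K₁ (algebraMap (FK K₁ M) (FK K₁ (M * q)) tM) P₂)
    (𝔫₀ : Ideal (Chart ↥(descVal A K₁) tM)) (h𝔫₀ : 𝔫₀.IsMaximal)
    (𝔫 : Ideal (Chart ↥(descVal A K₁) (algebraMap (FK K₁ M) (FK K₁ (M * q)) tM)))
    (h𝔫 : 𝔫.IsMaximal)
    (hover : ∀ y ∈ 𝔫₀, H6CM.chartMap ↥(descVal A K₁) tM y ∈ 𝔫)
    (hP1 : P₁ ≤ 𝔫) (hP2 : P₂ ≤ 𝔫)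
    (𝔫' : Ideal (Chart ↥(descVal A K₁) (algebraMap (FK K₁ M) (FK K₁ (M * q)) tM)))
    (h𝔫' : 𝔫'.IsMaximal)
    (hover' : ∀ y ∈ 𝔫₀, H6CM.chartMap ↥(descVal A K₁) tM y ∈ 𝔫') : 𝔫' = 𝔫 := by
  have hconv : ∀ 𝔪 : Ideal (Chart ↥(descVal A K₁) (algebraMap (FK K₁ M) (FK K₁ (M * q)) tM)),
      (∀ y ∈ 𝔫₀, H6CM.chartMap ↥(descVal A K₁) tM y ∈ 𝔪) →
      ∀ y ∈ 𝔫₀, ∀ y' : Chart ↥(descVal A K₁) (algebraMap (FK K₁ M) (FK K₁ (M * q)) tM),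
        (y' : FK K₁ (M * q)) = heckeAlphaBar K₁ M q (y : FK K₁ M) → y' ∈ 𝔪 := by
    intro 𝔪 h y hy y' hy'
    have e : y' = H6CM.chartMap ↥(descVal A K₁) tM y := by
      apply Subtype.ext
      rw [hy', H6CM.coe_chartMap, halg]
    rw [e]
    exact h y hy
  exact fibre_R1 M q hq hqM hT A hA K₁ hfin hζ ϖ hϖ t₀ ht₀ tM htM
    (algebraMap (FK K₁ M) (FK K₁ (M * q)) tM) (coe_algebraMap_tM M q K₁ halg t₀ tM htM)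
    γ hγ hγ' hfrob P₁ P₂ h1 h2 𝔫₀ h𝔫₀ 𝔫 h𝔫 (hconv 𝔫 hover) hP1 hP2 𝔫' h𝔫' (hconv 𝔫' hover')

include hq hqM hT hA hfin hζ halg hϖ ht₀ htM in
/-- **`hcomp` for (R1)** (`ι = Unit`, `P = P₁`): every maximal ideal above `𝔫₀` contains `P₁`. -/
theorem hcomp_R1 (γ : K₁ ≃ₐ[ℚ] K₁)
    (hγ : ∀ a : K₁, a ∈ descVal A K₁ → γ a ∈ descVal A K₁)
    (hγ' : ∀ a : K₁, a ∈ descVal A K₁ → γ.symm a ∈ descVal A K₁)
    (hfrob : ∀ a : K₁, a ∈ descVal A K₁ → γ a - a ^ q ∈ (descVal A K₁).nonunits)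
    (P₁ P₂ : Ideal (Chart ↥(descVal A K₁) (algebraMap (FK K₁ M) (FK K₁ (M * q)) tM)))
    (h1 : IsComp1 A K₁ (algebraMap (FK K₁ M) (FK K₁ (M * q)) tM) P₁)
    (h2 : IsComp2 hq hqM A K₁ (algebraMap (FK K₁ M) (FK K₁ (M * q)) tM) P₂)
    (𝔫₀ : Ideal (Chart ↥(descVal A K₁) tM)) (h𝔫₀ : 𝔫₀.IsMaximal)
    (𝔫 : Ideal (Chart ↥(descVal A K₁) (algebraMap (FK K₁ M) (FK K₁ (M * q)) tM)))
    (h𝔫 : 𝔫.IsMaximal)
    (hover : ∀ y ∈ 𝔫₀, H6CM.chartMap ↥(descVal A K₁) tM y ∈ 𝔫)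
    (hP1 : P₁ ≤ 𝔫) (hP2 : P₂ ≤ 𝔫)
    (𝔫' : Ideal (Chart ↥(descVal A K₁) (algebraMap (FK K₁ M) (FK K₁ (M * q)) tM)))
    (h𝔫' : 𝔫'.IsMaximal)
    (hover' : ∀ y ∈ 𝔫₀, H6CM.chartMap ↥(descVal A K₁) tM y ∈ 𝔫') :
    ∃ _ : Unit, P₁ ≤ 𝔫' := by
  have e := hover_unique_R1 M q hq hqM hT A hA K₁ hfin hζ halg ϖ hϖ t₀ ht₀ tM htM γ hγ hγ' hfrob
    P₁ P₂ h1 h2 𝔫₀ h𝔫₀ 𝔫 h𝔫 hover hP1 hP2 𝔫' h𝔫' hover'
  exact ⟨(), e ▸ hP1⟩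

end Shape

end H12LF

end
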