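import Mathlib

/-!
# S36 (item 86), slice LOC-G = (TRI) and the generic core of LOC-F, helper18

Generic commutative algebra (Mathlib only), in the element style of `H26R2` (helper26):
`φ : A →+* B` injective and integral, `A` an integrally closed domain, `B` a domain
(`A` = chart ring of the lower level, `B` = chart ring of the upper level, `φ = α^*`).

`P'` a prime of `A` (a vertical component of the lower level), `𝔫' ≥ P'` a prime of `A`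
(a closed point), `P` a prime of `B` over `P'`.

* `H18TR.le_of_pi`     : the uniqueness core: if `B / P` is "radicial over `A / P'` locally at
  `𝔫'`" (`hpi`: for every `b` some power `b ^ m` is `≡ φ a / φ s` mod `P` with `s ∉ 𝔫'`), then
  two primes of `B` over `𝔫'` which contain `P` are equal.  (`m = 1`: residue degree one.)
* `H18TR.comp_le_of_over` : going-down: if `P` is the only prime of `B` over `P'`, every prime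
  of `B` over `𝔫'` contains `P`.
* `H18TR.tri`          : **(TRI)**: exactly one prime of `B` lies over `𝔫'`, and it contains `P`.
  No length count and no regularity of the lower level is needed.
* `H18TR.tri_max`      : the same with maximal ideals.
* `H18TR.hpi_of_frob`  : `hpi` from a Frobenius-type congruence `b ^ m ≡ φ (N b)` mod `P`
  (`N` = norm; purely inseparable component, e.g. `C₂` over `C₂'` via `α`).
* `H18TR.unique_on_comp` : LOC-F form: on ONE component, at most one point above `𝔫'`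
  (no hypothesis on the other components).
-/

set_option autoImplicit false
set_option linter.style.haveILetI false
set_option linter.unusedSectionVars false

namespace H18TR

section core

variable {A B : Type*} [CommRing A] [CommRing B]

/-- **uniqueness core.**  `hpi` says that `B / P` is radicial over `A / (P ∩ A)` locally at
`𝔫'`. Then a prime over `𝔫'` containing `P` is contained in every other such prime. -/
theorem le_of_pi (φ : A →+* B) (𝔫' : Ideal A) (P : Ideal B)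
    (hpi : ∀ b : B, ∃ m : ℕ, 0 < m ∧ ∃ s a : A, s ∉ 𝔫' ∧ φ s * b ^ m - φ a ∈ P)
    (𝔫₁ 𝔫₂ : Ideal B) (h2 : 𝔫₂.IsPrime)
    (hc1 : 𝔫₁.comap φ = 𝔫') (hc2 : 𝔫₂.comap φ = 𝔫') (hP1 : P ≤ 𝔫₁) (hP2 : P ≤ 𝔫₂) :
    𝔫₁ ≤ 𝔫₂ := by
  intro b hb
  obtain ⟨m, hm, s, a, hs, hsa⟩ := hpi b
  have hbm : φ s * b ^ m ∈ 𝔫₁ := 𝔫₁.mul_mem_left _ (Ideal.pow_mem_of_mem 𝔫₁ hb m hm)
  have ha1 : φ a ∈ 𝔫₁ := by
    have h := 𝔫₁.sub_mem hbm (hP1 hsa)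
    have e : φ s * b ^ m - (φ s * b ^ m - φ a) = φ a := by ring
    rwa [e] at h
  have ha' : a ∈ 𝔫' := by
    rw [← hc1]
    exact ha1
  have ha2 : φ a ∈ 𝔫₂ := by
    have h : a ∈ 𝔫₂.comap φ := by
      rw [hc2]
      exact ha'
    exact h
  have hsb : φ s * b ^ m ∈ 𝔫₂ := by
    have h := 𝔫₂.add_mem (hP2 hsa) ha2
    have e : φ s * b ^ m - φ a + φ a = φ s * b ^ m := by ring
    rwa [e] at h
  rcases h2.mem_or_mem hsb with h | h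
  · exfalso
    apply hs
    rw [← hc2]
    exact h
  · exact h2.mem_of_pow_mem m h

/-- two primes over `𝔫'` containing `P` are equal. -/
theorem eq_of_pi (φ : A →+* B) (𝔫' : Ideal A) (P : Ideal B)
    (hpi : ∀ b : B, ∃ m : ℕ, 0 < m ∧ ∃ s a : A, s ∉ 𝔫' ∧ φ s * b ^ m - φ a ∈ P)
    (𝔫₁ 𝔫₂ : Ideal B) (h1 : 𝔫₁.IsPrime) (h2 : 𝔫₂.IsPrime)
    (hc1 : 𝔫₁.comap φ = 𝔫') (hc2 : 𝔫₂.comap φ = 𝔫') (hP1 : P ≤ 𝔫₁) (hP2 : P ≤ 𝔫₂) :
    𝔫₁ = 𝔫₂ :=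
  le_antisymm (le_of_pi φ 𝔫' P hpi 𝔫₁ 𝔫₂ h2 hc1 hc2 hP1 hP2)
    (le_of_pi φ 𝔫' P hpi 𝔫₂ 𝔫₁ h1 hc2 hc1 hP2 hP1)

/-- `hpi` from a Frobenius-type congruence: `b ^ m ≡ φ (N b)` modulo `P` for all `b`
(e.g. `N` the norm of a purely inseparable residue extension of degree `m = q`). -/
theorem hpi_of_frob (φ : A →+* B) (𝔫' : Ideal A) (h𝔫' : 𝔫' ≠ ⊤) (P : Ideal B) (m : ℕ)
    (hm : 0 < m) (N : B → A) (hN : ∀ b : B, b ^ m - φ (N b) ∈ P) :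
    ∀ b : B, ∃ m : ℕ, 0 < m ∧ ∃ s a : A, s ∉ 𝔫' ∧ φ s * b ^ m - φ a ∈ P := by
  intro b
  refine ⟨m, hm, 1, N b, ?_, ?_⟩
  · exact fun h => h𝔫' ((Ideal.eq_top_iff_one 𝔫').2 h)
  · rw [map_one, one_mul]
    exact hN b

/-- `hpi` from a Frobenius-type congruence which is only known outside `P`. -/
theorem hpi_of_frob' (φ : A →+* B) (𝔫' : Ideal A) (h𝔫' : 𝔫' ≠ ⊤) (P : Ideal B) (m : ℕ)
    (hm : 0 < m) (hN : ∀ b : B, b ∉ P → ∃ a : A, b ^ m - φ a ∈ P) :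
    ∀ b : B, ∃ m : ℕ, 0 < m ∧ ∃ s a : A, s ∉ 𝔫' ∧ φ s * b ^ m - φ a ∈ P := by
  intro b
  have h1 : (1 : A) ∉ 𝔫' := fun h => h𝔫' ((Ideal.eq_top_iff_one 𝔫').2 h)
  by_cases hb : b ∈ P
  · refine ⟨1, one_pos, 1, 0, h1, ?_⟩
    rw [map_one, one_mul, pow_one, map_zero, sub_zero]
    exact hb
  · obtain ⟨a, ha⟩ := hN b hb
    refine ⟨m, hm, 1, a, h1, ?_⟩
    rw [map_one, one_mul]
    exact ha

end core

section goingdown

variable {A : Type*} [CommRing A] [IsDomain A] [IsIntegrallyClosed A]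
variable {B : Type*} [CommRing B] [IsDomain B]

/-- **going-down**: if `P` is the only prime of `B` below `𝔫` over `P' ≤ 𝔫 ∩ A`, then
`P ≤ 𝔫`. -/
theorem comp_le_of_over (φ : A →+* B) (hφ : Function.Injective φ) (hint : φ.IsIntegral)
    (P' : Ideal A) [hP' : P'.IsPrime] (P : Ideal B)
    (𝔫 : Ideal B) [h𝔫 : 𝔫.IsPrime] (hle : P' ≤ 𝔫.comap φ)
    (huniq : ∀ p : Ideal B, p.IsPrime → p ≤ 𝔫 → p.comap φ = P' → p = P) :
    P ≤ 𝔫 := by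
  letI : Algebra A B := φ.toAlgebra
  haveI : FaithfulSMul A B := (faithfulSMul_iff_algebraMap_injective A B).2 hφ
  haveI : Algebra.IsIntegral A B := ⟨hint⟩
  haveI : (𝔫.comap φ).IsPrime := Ideal.comap_isPrime φ 𝔫
  haveI : 𝔫.LiesOver (𝔫.comap φ) := ⟨rfl⟩
  obtain ⟨p, hp𝔫, hp, hpo⟩ :=
    Ideal.exists_ideal_le_liesOver_of_le (p := P') (q := 𝔫.comap φ) 𝔫 hle
  have hpc : p.comap φ = P' := hpo.over.symm
  have := huniq p hp hp𝔫 hpc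
  rw [← this]
  exact hp𝔫

/-- **(TRI), uniqueness.**  `P` the only prime of `B` over `P'`, `B / P` radicial over `A / P'`
locally at `𝔫' ≥ P'`: at most one prime of `B` lies over `𝔫'`. -/
theorem tri_unique (φ : A →+* B) (hφ : Function.Injective φ) (hint : φ.IsIntegral)
    (𝔫' P' : Ideal A) [hP' : P'.IsPrime] (hle : P' ≤ 𝔫') (P : Ideal B)
    (huniq : ∀ p : Ideal B, p.IsPrime → p.comap φ = P' → p = P)
    (hpi : ∀ b : B, ∃ m : ℕ, 0 < m ∧ ∃ s a : A, s ∉ 𝔫' ∧ φ s * b ^ m - φ a ∈ P)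
    (𝔫₁ 𝔫₂ : Ideal B) (h1 : 𝔫₁.IsPrime) (h2 : 𝔫₂.IsPrime)
    (hc1 : 𝔫₁.comap φ = 𝔫') (hc2 : 𝔫₂.comap φ = 𝔫') : 𝔫₁ = 𝔫₂ ∧ P ≤ 𝔫₁ := by
  have hP1 : P ≤ 𝔫₁ :=
    comp_le_of_over φ hφ hint P' P 𝔫₁ (by rw [hc1]; exact hle) (fun p hp _ hpc => huniq p hp hpc)
  have hP2 : P ≤ 𝔫₂ :=
    comp_le_of_over φ hφ hint P' P 𝔫₂ (by rw [hc2]; exact hle) (fun p hp _ hpc => huniq p hp hpc)
  exact ⟨eq_of_pi φ 𝔫' P hpi 𝔫₁ 𝔫₂ h1 h2 hc1 hc2 hP1 hP2, hP1⟩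

/-- **(TRI).**  Exactly one prime of `B` lies over `𝔫'`, and it contains `P`. -/
theorem tri (φ : A →+* B) (hφ : Function.Injective φ) (hint : φ.IsIntegral)
    (𝔫' P' : Ideal A) [h𝔫' : 𝔫'.IsPrime] [hP' : P'.IsPrime] (hle : P' ≤ 𝔫') (P : Ideal B)
    (huniq : ∀ p : Ideal B, p.IsPrime → p.comap φ = P' → p = P)
    (hpi : ∀ b : B, ∃ m : ℕ, 0 < m ∧ ∃ s a : A, s ∉ 𝔫' ∧ φ s * b ^ m - φ a ∈ P) :
    ∃ 𝔫 : Ideal B, 𝔫.IsPrime ∧ 𝔫.comap φ = 𝔫' ∧ P ≤ 𝔫 ∧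
      ∀ 𝔫₁ : Ideal B, 𝔫₁.IsPrime → 𝔫₁.comap φ = 𝔫' → 𝔫₁ = 𝔫 := by
  letI : Algebra A B := φ.toAlgebra
  haveI : Algebra.IsIntegral A B := ⟨hint⟩
  obtain ⟨𝔫, -, h𝔫, hc⟩ := Ideal.exists_ideal_over_prime_of_isIntegral 𝔫' (⊥ : Ideal B)
    (by
      intro x hx
      have hx0 : φ x = 0 := hx
      have : x = 0 := hφ (by rw [hx0, map_zero])
      rw [this]
      exact 𝔫'.zero_mem)
  have hc' : 𝔫.comap φ = 𝔫' := hc
  refine ⟨𝔫, h𝔫, hc', ?_, ?_⟩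
  · exact (tri_unique φ hφ hint 𝔫' P' hle P huniq hpi 𝔫 𝔫 h𝔫 h𝔫 hc' hc').2
  · intro 𝔫₁ h1 hc1
    exact (tri_unique φ hφ hint 𝔫' P' hle P huniq hpi 𝔫₁ 𝔫 h1 h𝔫 hc1 hc').1

/-- **(TRI)** for maximal ideals: if `𝔫'` is maximal, exactly one maximal ideal of `B`
contains `φ 𝔫'`, and it contains `P`. -/
theorem tri_max (φ : A →+* B) (hφ : Function.Injective φ) (hint : φ.IsIntegral)
    (𝔫' P' : Ideal A) [h𝔫' : 𝔫'.IsMaximal] [hP' : P'.IsPrime] (hle : P' ≤ 𝔫') (P : Ideal B)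
    (huniq : ∀ p : Ideal B, p.IsPrime → p.comap φ = P' → p = P)
    (hpi : ∀ b : B, ∃ m : ℕ, 0 < m ∧ ∃ s a : A, s ∉ 𝔫' ∧ φ s * b ^ m - φ a ∈ P) :
    ∃ 𝔫 : Ideal B, 𝔫.IsMaximal ∧ 𝔫.comap φ = 𝔫' ∧ P ≤ 𝔫 ∧
      ∀ 𝔫₁ : Ideal B, 𝔫₁.IsPrime → 𝔫'.map φ ≤ 𝔫₁ → 𝔫₁ = 𝔫 := by
  haveI : 𝔫'.IsPrime := h𝔫'.isPrime
  obtain ⟨𝔫, h𝔫, hc, hP, hu⟩ := tri φ hφ hint 𝔫' P' hle P huniq hpi
  letI : Algebra A B := φ.toAlgebra
  haveI : Algebra.IsIntegral A B := ⟨hint⟩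
  have hmax : 𝔫.IsMaximal := by
    haveI := h𝔫
    have hc2 : 𝔫.comap (algebraMap A B) = 𝔫' := hc
    exact Ideal.isMaximal_of_isIntegral_of_isMaximal_comap (R := A) 𝔫 (by rw [hc2]; exact h𝔫')
  refine ⟨𝔫, hmax, hc, hP, ?_⟩
  intro 𝔫₁ h1 hle1
  apply hu 𝔫₁ h1
  have h2 : 𝔫' ≤ 𝔫₁.comap φ := Ideal.map_le_iff_le_comap.1 hle1
  have hne : 𝔫₁.comap φ ≠ ⊤ := (Ideal.comap_isPrime φ 𝔫₁).ne_top
  exact (h𝔫'.eq_of_le hne h2).symm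

end goingdown

section onecomp

variable {A B : Type*} [CommRing A] [CommRing B]

/-- **LOC-F form**: on one component `P` (no hypothesis on the other components), at most one
prime of `B` containing `P` lies over `𝔫'`, as soon as `B / P` is radicial over `A` locally at
`𝔫'` (`m = 1`: residue degree one, `m = q`: purely inseparable). -/
theorem unique_on_comp (φ : A →+* B) (𝔫' : Ideal A) (P : Ideal B)
    (hpi : ∀ b : B, ∃ m : ℕ, 0 < m ∧ ∃ s a : A, s ∉ 𝔫' ∧ φ s * b ^ m - φ a ∈ P)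
    (𝔫₁ 𝔫₂ : Ideal B) (h1 : 𝔫₁.IsPrime) (h2 : 𝔫₂.IsPrime)
    (hc1 : 𝔫₁.comap φ = 𝔫') (hc2 : 𝔫₂.comap φ = 𝔫') (hP1 : P ≤ 𝔫₁) (hP2 : P ≤ 𝔫₂) :
    𝔫₁ = 𝔫₂ :=
  eq_of_pi φ 𝔫' P hpi 𝔫₁ 𝔫₂ h1 h2 hc1 hc2 hP1 hP2

/-- **LOC-F, residue field**: with `m = 1` in `hpi` (residue degree one), the residue field of
a point `𝔫 ⊇ P` over `𝔫'` is that of `𝔫'`: every `b : B` is `≡ φ a / φ s` modulo `𝔫`. -/
theorem residue_on_comp (φ : A →+* B) (𝔫' : Ideal A) (P : Ideal B)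
    (hpi1 : ∀ b : B, ∃ s a : A, s ∉ 𝔫' ∧ φ s * b - φ a ∈ P)
    (𝔫 : Ideal B) (hP : P ≤ 𝔫) (b : B) :
    ∃ s a : A, s ∉ 𝔫' ∧ φ s * b - φ a ∈ 𝔫 := by
  obtain ⟨s, a, hs, h⟩ := hpi1 b
  exact ⟨s, a, hs, hP h⟩

end onecomp

end H18TR
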