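/-
helper20: item 86 (S36), LOC, DISC route, slice (R3-INST), GENERIC layer.

Generic setting of `H6LD.DiscChartStatement` (helper6): `R` a DVR, `K = Frac R`, `F / F₀` finite,
lower chart `A = Chart R t₀ ⊆ F₀`, upper chart `B = Chart R t ⊆ F` (`t` the image of `t₀`),
`𝔫₀` a closed point of the lower chart.

* `H20R3.exact_content`   : **(EXACT)** `d ∈ A_{𝔫₀}`, `V ⊇ A_{𝔫₀}` a valuation ring with
                            `v(ϖ) < 1` and `v(d / ϖ^k) = 1`  ⟹  `d = ϖ^m P`, `m ≤ k`,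
                            `P ∈ A_{𝔫₀}`, `P / ϖ ∉ A_{𝔫₀}`.
* `H20R3.not_inLoc_div`   : `𝔫₀ = (ϖ, x₀)` locally and `𝔫₀` is not the component `P_V`
                            ⟹ `x₀ / ϖ ∉ A_{𝔫₀}`.
* `H20R3.fibre_finset`    : **(F)** from the components: if every point above `𝔫₀` lies on one of
                            the components `P i` (`i : ι`) and every `B / P i` has residue degree
                            one over `A` locally at `𝔫₀`, then there are at most `#ι` points above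
                            `𝔫₀`, all of residue degree one.
* `H20R3.two_gen_of_disc` : **(R1)/(R3), generic assembly**: `DiscChartStatement` + `RegAt` at
                            `𝔫₀` + a component `V'` through `𝔫₀` + (F) from the components above
                            + (E) + a family `b` with `v'(disc b / ϖ^m) = 1`, `m + #ι ≤ r`
                            ⟹ two local generators at every point above `𝔫₀`.
-/
import Mathlib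
import Fermat.Agent.S36.LocDiscDefs_helper6
import Fermat.Agent.S36.ChartMap_helper6
import Fermat.Agent.S36.Tri_helper18
import Fermat.Agent.S34.WTransport_helper26

set_option autoImplicit false
set_option linter.unusedSectionVars false
set_option linter.unusedVariables false
set_option linter.style.haveILetI false
set_option synthInstance.maxHeartbeats 400000

noncomputable section

namespace H20R3

open Polynomial IntermediateField AlgebraicCurve H7S18 H4S34 H26WT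

section exact

variable {R : Type} [CommRing R] {E : Type} [Field E] [Algebra R E]
variable {c : E} {𝔫 : Ideal (Chart R c)}

/-- a valuation ring containing the chart whose centre is contained in `𝔫` contains `B_𝔫`. -/
theorem mem_val_of_inLoc (V : ValuationSubring E) (hVA : ∀ y : Chart R c, (y : E) ∈ V)
    (hV𝔫 : ∀ y : Chart R c, V.valuation (y : E) < 1 → y ∈ 𝔫) {x : E} (hx : InLoc R c 𝔫 x) :
    x ∈ V := by
  obtain ⟨a, s, hs, e⟩ := hx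
  have hs1 : V.valuation (s : E) = 1 := by
    have h1 : V.valuation (s : E) ≤ 1 := (V.valuation_le_one_iff _).2 (hVA s)
    rcases lt_or_eq_of_le h1 with h | h
    · exact absurd (hV𝔫 s h) hs
    · exact h
  have ha : V.valuation (a : E) ≤ 1 := (V.valuation_le_one_iff _).2 (hVA a)
  rw [← V.valuation_le_one_iff]
  have h2 : V.valuation ((s : E) * x) = V.valuation x := by
    rw [map_mul, hs1, one_mul]
  rw [← h2, e]
  exact ha

/-- **(EXACT)**: the exact `ϖ`-content of `d` in `B_𝔫`, bounded by a valuation. -/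
theorem exact_content (ϖ : R) (hϖ0 : algebraMap R E ϖ ≠ 0) (V : ValuationSubring E)
    (hVloc : ∀ x : E, InLoc R c 𝔫 x → x ∈ V)
    (hVϖ : V.valuation (algebraMap R E ϖ) < 1)
    (d : E) (hd : InLoc R c 𝔫 d) (k : ℕ)
    (hdk : ¬ V.valuation (d * (algebraMap R E ϖ ^ k)⁻¹) < 1) :
    ∃ (m : ℕ) (P : E), m ≤ k ∧ InLoc R c 𝔫 P ∧ ¬ InLoc R c 𝔫 (P * (algebraMap R E ϖ)⁻¹) ∧
      d = algebraMap R E ϖ ^ m * P := by
  classical
  set π : E := algebraMap R E ϖ with hπ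
  let Q : ℕ → Prop := fun m => InLoc R c 𝔫 (d * (π ^ m)⁻¹)
  have hQ0 : Q 0 := by
    change InLoc R c 𝔫 (d * (π ^ 0)⁻¹)
    rw [pow_zero, inv_one, mul_one]
    exact hd
  set m₀ := Nat.findGreatest Q k with hm₀
  have hm₀k : m₀ ≤ k := Nat.findGreatest_le k
  have hQm : Q m₀ := Nat.findGreatest_spec (Nat.zero_le k) hQ0
  refine ⟨m₀, d * (π ^ m₀)⁻¹, hm₀k, hQm, ?_, ?_⟩
  · intro h
    have e : d * (π ^ m₀)⁻¹ * π⁻¹ = d * (π ^ (m₀ + 1))⁻¹ := by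
      rw [pow_succ, mul_inv, mul_assoc]
    rw [e] at h
    rcases Nat.lt_or_ge m₀ k with hlt | hge
    · exact Nat.findGreatest_is_greatest (Nat.lt_succ_self m₀) hlt h
    · have hk : m₀ = k := le_antisymm hm₀k hge
      rw [hk] at h
      apply hdk
      have e2 : d * (π ^ k)⁻¹ = π * (d * (π ^ (k + 1))⁻¹) := by
        rw [pow_succ, mul_inv]
        field_simp
      rw [e2, map_mul]
      have h1 : V.valuation (d * (π ^ (k + 1))⁻¹) ≤ 1 :=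
        (V.valuation_le_one_iff _).2 (hVloc _ h)
      calc V.valuation π * V.valuation (d * (π ^ (k + 1))⁻¹)
          ≤ V.valuation π * 1 := by gcongr
        _ = V.valuation π := mul_one _
        _ < 1 := hVϖ
  · have hp : π ^ m₀ ≠ 0 := pow_ne_zero _ hϖ0
    field_simp

/-- if `𝔫 = (ϖ, x₀)` locally and `𝔫` contains an element which is a unit at `V`, then
`x₀ / ϖ ∉ B_𝔫`. -/
theorem not_inLoc_div (ϖ : R) (hϖ0 : algebraMap R E ϖ ≠ 0) (V : ValuationSubring E)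
    (hVA : ∀ y : Chart R c, (y : E) ∈ V)
    (hV𝔫 : ∀ y : Chart R c, V.valuation (y : E) < 1 → y ∈ 𝔫)
    (hVϖ : V.valuation (algebraMap R E ϖ) < 1)
    (x₀ : Chart R c)
    (hgen : ∀ y ∈ 𝔫, ∃ s a b : Chart R c, s ∉ 𝔫 ∧
      (s : E) * y = a * algebraMap R E ϖ + b * x₀)
    (hhor : ∃ y ∈ 𝔫, ¬ V.valuation ((y : Chart R c) : E) < 1) :
    ¬ InLoc R c 𝔫 ((x₀ : E) * (algebraMap R E ϖ)⁻¹) := by
  intro h
  obtain ⟨y, hy, hyV⟩ := hhor
  obtain ⟨s, a, b, hs, e⟩ := hgen y hy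
  have hx : (x₀ : E) * (algebraMap R E ϖ)⁻¹ ∈ V := mem_val_of_inLoc V hVA hV𝔫 h
  have e2 : (s : E) * y = algebraMap R E ϖ * ((a : E) + b * ((x₀ : E) * (algebraMap R E ϖ)⁻¹)) := by
    rw [e]
    field_simp
  have h1 : V.valuation ((s : E) * y) < 1 := by
    rw [e2, map_mul]
    have h2 : V.valuation ((a : E) + b * ((x₀ : E) * (algebraMap R E ϖ)⁻¹)) ≤ 1 :=
      (V.valuation_le_one_iff _).2 (V.add_mem _ _ (hVA a) (V.mul_mem _ _ (hVA b) hx))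
    calc V.valuation (algebraMap R E ϖ) *
          V.valuation ((a : E) + b * ((x₀ : E) * (algebraMap R E ϖ)⁻¹))
        ≤ V.valuation (algebraMap R E ϖ) * 1 := by gcongr
      _ = V.valuation (algebraMap R E ϖ) := mul_one _
      _ < 1 := hVϖ
  have hsy : V.valuation (((s * y : Chart R c)) : E) < 1 := by
    push_cast
    exact h1
  have hmem : s * y ∈ 𝔫 := hV𝔫 _ hsy
  -- but `s y` is a unit at `V`
  have hs1 : V.valuation (s : E) = 1 := by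
    have h1 : V.valuation (s : E) ≤ 1 := (V.valuation_le_one_iff _).2 (hVA s)
    rcases lt_or_eq_of_le h1 with h | h
    · exact absurd (hV𝔫 s h) hs
    · exact h
  have hy1 : V.valuation (y : E) = 1 := by
    have h1 : V.valuation (y : E) ≤ 1 := (V.valuation_le_one_iff _).2 (hVA y)
    rcases lt_or_eq_of_le h1 with h | h
    · exact absurd h hyV
    · exact h
  rw [map_mul, hs1, hy1, one_mul] at h1
  exact lt_irrefl _ h1

end exact

section fibre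

variable {A B : Type*} [CommRing A] [CommRing B]

/-- residue degree one at a point on a component of residue degree one. -/
theorem residue_of_hpi1 (φ : A →+* B) (𝔫₀ : Ideal A) (h𝔫₀ : 𝔫₀.IsMaximal) (P : Ideal B)
    (hpi1 : ∀ b : B, ∃ s a : A, s ∉ 𝔫₀ ∧ φ s * b - φ a ∈ P)
    (𝔫 : Ideal B) (hover : ∀ y ∈ 𝔫₀, φ y ∈ 𝔫) (hP : P ≤ 𝔫) (y : B) :
    ∃ a : A, y - φ a ∈ 𝔫 := by
  obtain ⟨s, a, hs, h⟩ := hpi1 y
  obtain ⟨s', i, hi, e⟩ := Ideal.IsMaximal.exists_inv h𝔫₀ hs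
  refine ⟨s' * a, ?_⟩
  have hi' : φ i ∈ 𝔫 := hover i hi
  have e1 : φ s' * φ s + φ i = 1 := by
    rw [← map_mul, ← map_add, e, map_one]
  have e2 : y - φ (s' * a) = φ i * y + φ s' * (φ s * y - φ a) := by
    rw [map_mul]
    linear_combination (-y) * e1
  rw [e2]
  exact 𝔫.add_mem (𝔫.mul_mem_right _ hi') (𝔫.mul_mem_left _ (hP h))

/-- the comap of a proper ideal containing the image of a maximal ideal. -/
theorem comap_eq_of_over (φ : A →+* B) (𝔫₀ : Ideal A) (h𝔫₀ : 𝔫₀.IsMaximal)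
    (𝔫 : Ideal B) (h𝔫 : 𝔫 ≠ ⊤) (hover : ∀ y ∈ 𝔫₀, φ y ∈ 𝔫) : 𝔫.comap φ = 𝔫₀ := by
  have hle : 𝔫₀ ≤ 𝔫.comap φ := fun y hy => hover y hy
  have hne : 𝔫.comap φ ≠ ⊤ := by
    intro h
    apply h𝔫
    rw [Ideal.eq_top_iff_one]
    have : (1 : A) ∈ 𝔫.comap φ := by rw [h]; trivial
    simpa using this
  exact (h𝔫₀.eq_of_le hne hle).symm

/-- **(F) from the components**: at most `#ι` points above `𝔫₀`, all of residue degree one. -/
theorem fibre_finset (φ : A →+* B) (𝔫₀ : Ideal A) (h𝔫₀ : 𝔫₀.IsMaximal)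
    {ι : Type} [Fintype ι] (P : ι → Ideal B)
    (hpi1 : ∀ i, ∀ b : B, ∃ s a : A, s ∉ 𝔫₀ ∧ φ s * b - φ a ∈ P i)
    (hcomp : ∀ 𝔫 : Ideal B, 𝔫.IsMaximal → (∀ y ∈ 𝔫₀, φ y ∈ 𝔫) → ∃ i, P i ≤ 𝔫) :
    ∃ ms : Finset (Ideal B), ms.card ≤ Fintype.card ι ∧
      (∀ 𝔫 : Ideal B, 𝔫.IsMaximal → (∀ y ∈ 𝔫₀, φ y ∈ 𝔫) → 𝔫 ∈ ms) ∧
      (∀ 𝔫 : Ideal B, 𝔫.IsMaximal → (∀ y ∈ 𝔫₀, φ y ∈ 𝔫) → ∀ y : B, ∃ a : A, y - φ a ∈ 𝔫) := by
  classical
  let Ov : ι → Ideal B → Prop := fun i 𝔫 => 𝔫.IsMaximal ∧ (∀ y ∈ 𝔫₀, φ y ∈ 𝔫) ∧ P i ≤ 𝔫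
  let pt : ι → Ideal B := fun i => if h : ∃ 𝔫, Ov i 𝔫 then Classical.choose h else ⊤
  refine ⟨Finset.univ.image pt, ?_, ?_, ?_⟩
  · exact le_trans Finset.card_image_le (le_of_eq (Finset.card_univ))
  · intro 𝔫 h𝔫 hover
    obtain ⟨i, hi⟩ := hcomp 𝔫 h𝔫 hover
    have hex : ∃ 𝔫', Ov i 𝔫' := ⟨𝔫, h𝔫, hover, hi⟩
    have hpt : pt i = Classical.choose hex := dif_pos hex
    obtain ⟨hm, hov, hle⟩ := Classical.choose_spec hex
    have heq : Classical.choose hex = 𝔫 := by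
      refine H18TR.unique_on_comp φ 𝔫₀ (P i) ?_ _ _ hm.isPrime h𝔫.isPrime
        (comap_eq_of_over φ 𝔫₀ h𝔫₀ _ hm.ne_top hov)
        (comap_eq_of_over φ 𝔫₀ h𝔫₀ _ h𝔫.ne_top hover) hle hi
      intro b
      obtain ⟨s, a, hs, h⟩ := hpi1 i b
      exact ⟨1, one_pos, s, a, hs, by rwa [pow_one]⟩
    rw [Finset.mem_image]
    exact ⟨i, Finset.mem_univ _, by rw [hpt, heq]⟩
  · intro 𝔫 h𝔫 hover y
    obtain ⟨i, hi⟩ := hcomp 𝔫 h𝔫 hover
    exact residue_of_hpi1 φ 𝔫₀ h𝔫₀ (P i) (hpi1 i) 𝔫 hover hi y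

end fibre

section main

variable (R : Type) [CommRing R] [IsDomain R] [IsDiscreteValuationRing R]
  (K : Type) [Field K] [CharZero K] [Algebra R K] [IsFractionRing R K]
  (F₀ F : Type) [Field F₀] [Algebra K F₀] [Algebra R F₀] [IsScalarTower R K F₀]
  [Field F] [Algebra K F] [Algebra R F] [IsScalarTower R K F]
  [Algebra F₀ F] [IsScalarTower K F₀ F] [IsScalarTower R F₀ F] [FiniteDimensional F₀ F]

/-- the discriminant of a family which is integral locally at `𝔫₀` lies in `A_{𝔫₀}`. -/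
theorem inLoc_discr {t₀ : F₀} (𝔫₀ : Ideal (Chart R t₀)) (h𝔫₀ : 𝔫₀.IsPrime) {r : ℕ}
    (b : Fin r → F)
    (hb : ∀ i, ∃ (s : Chart R t₀) (c : Chart R (algebraMap F₀ F t₀)), s ∉ 𝔫₀ ∧
      algebraMap F₀ F s * b i = c) :
    InLoc R t₀ 𝔫₀ (Algebra.discr F₀ b) := by
  refine inLoc_of_forall_isIntegral h𝔫₀ _ ?_
  intro T _ _ hT
  letI : Algebra T F := ((algebraMap F₀ F).comp (algebraMap T F₀)).toAlgebra
  haveI : IsScalarTower T F₀ F := IsScalarTower.of_algebraMap_eq (fun _ => rfl)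
  refine Algebra.discr_isIntegral F₀ ?_
  intro i
  obtain ⟨s, c, hs, e⟩ := hb i
  have hs0 : (s : F₀) ≠ 0 := by
    intro h
    apply hs
    have : s = 0 := Subtype.ext h
    rw [this]
    exact 𝔫₀.zero_mem
  have hsinv : InLoc R t₀ 𝔫₀ ((s : F₀))⁻¹ := by
    refine inLoc_inv (inLoc_coe h𝔫₀ s) ?_
    intro h
    exact hs ((inMax_coe_iff h𝔫₀ s).1 h)
  have h1 : IsIntegral T (algebraMap F₀ F ((s : F₀))⁻¹) :=
    (hT _ hsinv).map (IsScalarTower.toAlgHom T F₀ F)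
  -- chart elements of the upper level are integral over `T`
  have h2 : IsIntegral T ((c : Chart R (algebraMap F₀ F t₀)) : F) := by
    have hc := c.2
    have h3 : ∀ a : ↥(Algebra.adjoin R {algebraMap F₀ F t₀}),
        IsIntegral T ((RingHom.id F) (algebraMap ↥(Algebra.adjoin R {algebraMap F₀ F t₀}) F a)) := by
      intro a
      obtain ⟨a₀, rfl⟩ := H6CM.adjoinMap_surjective R (F := F) t₀ a
      have h4 : InLoc R t₀ 𝔫₀ ((a₀ : ↥(Algebra.adjoin R {t₀})) : F₀) := by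
        have : ((algebraMap ↥(Algebra.adjoin R {t₀}) ↥(Chart R t₀) a₀ : Chart R t₀) : F₀) =
            (a₀ : F₀) := rfl
        rw [← this]
        exact inLoc_coe h𝔫₀ _
      exact (hT _ h4).map (IsScalarTower.toAlgHom T F₀ F)
    exact isIntegral_map_of_forall' (RingHom.id F) h3 hc
  have e2 : b i = algebraMap F₀ F ((s : F₀))⁻¹ * (c : F) := by
    rw [← e, ← mul_assoc, ← map_mul, inv_mul_cancel₀ hs0, map_one, one_mul]
  rw [e2]
  exact h1.mul h2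

/-- **(R1)/(R3), generic assembly.**  Two local generators at every point of the upper chart
above a regular closed point `𝔫₀` of the lower chart, from `H6LD.DiscChartStatement`:
* `hreg`  : `H4S34.RegAt` at `𝔫₀`;
* `V'`    : a component through `𝔫₀` (valuation ring of `F₀` containing the chart, centre
            contained in `𝔫₀`, `v'(ϖ) < 1`), `𝔫₀` not equal to its centre (`hhor`);
* `P i`   : the components above, of residue degree one over the lower chart locally at `𝔫₀`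
            (`hpi1`), every point above `𝔫₀` lies on one of them (`hcomp`);
* `hE`    : the places of `F` at which `j₀` is finite are unramified over `F₀`;
* `b`     : a family integral at `𝔫₀` with `v'(disc b / ϖ^m) = 1`, `m + #ι ≤ r = [F : F₀]`. -/
theorem two_gen_of_disc (hdisc : H6LD.DiscChartStatement)
    (ϖ : R) (hϖ : Irreducible ϖ) (t₀ : F₀) (ht₀ : Transcendental K t₀)
    (hfin₀ : FiniteDimensional K⟮t₀⟯ F₀) (hfin : FiniteDimensional K⟮algebraMap F₀ F t₀⟯ F)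
    (𝔫₀ : Ideal (Chart R t₀)) (h𝔫₀ : IsClosedPt R ϖ t₀ 𝔫₀)
    (hreg : RegAt R ϖ t₀ 𝔫₀)
    (V' : ValuationSubring F₀) (hV'A : ∀ y : Chart R t₀, (y : F₀) ∈ V')
    (hV'𝔫 : ∀ y : Chart R t₀, V'.valuation (y : F₀) < 1 → y ∈ 𝔫₀)
    (hV'ϖ : V'.valuation (algebraMap R F₀ ϖ) < 1)
    (hhor : ∃ y ∈ 𝔫₀, ¬ V'.valuation ((y : Chart R t₀) : F₀) < 1)
    {ι : Type} [Fintype ι] (P : ι → Ideal (Chart R (algebraMap F₀ F t₀)))
    (hpi1 : ∀ i, ∀ b : Chart R (algebraMap F₀ F t₀), ∃ s a : Chart R t₀, s ∉ 𝔫₀ ∧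
      H6CM.chartMap R t₀ s * b - H6CM.chartMap R t₀ a ∈ P i)
    (hcomp : ∀ 𝔫 : Ideal (Chart R (algebraMap F₀ F t₀)), 𝔫.IsMaximal →
      (∀ y ∈ 𝔫₀, H6CM.chartMap R t₀ y ∈ 𝔫) → ∃ i, P i ≤ 𝔫)
    (r m : ℕ) (hr : Module.finrank F₀ F = r) (hml : m + Fintype.card ι ≤ r)
    (j₀ : F₀) (hj₀ : InLoc R t₀ 𝔫₀ j₀)
    (hE : ∀ V : Place K F, 0 ≤ V.ord (algebraMap F₀ F j₀) →
      ∃ u : F₀, V.ord (algebraMap F₀ F u) = 1)
    (b : Fin r → F)
    (hb : ∀ i, ∃ (s : Chart R t₀) (c : Chart R (algebraMap F₀ F t₀)), s ∉ 𝔫₀ ∧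
      algebraMap F₀ F s * b i = c)
    (hdloc : InLoc R t₀ 𝔫₀ (Algebra.discr F₀ b))
    (hdval : ¬ V'.valuation (Algebra.discr F₀ b * (algebraMap R F₀ ϖ ^ m)⁻¹) < 1)
    (𝔫 : Ideal (Chart R (algebraMap F₀ F t₀))) (h𝔫 : 𝔫.IsMaximal)
    (hover : ∀ y ∈ 𝔫₀, H6CM.chartMap R t₀ y ∈ 𝔫) :
    ∃ g x : Chart R (algebraMap F₀ F t₀), g ∈ 𝔫 ∧ x ∈ 𝔫 ∧
      ∀ y ∈ 𝔫, ∃ s a c : Chart R (algebraMap F₀ F t₀), s ∉ 𝔫 ∧
        (s : F) * y = a * (g : F) + c * x := by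
  have hϖ0 : algebraMap R F₀ ϖ ≠ 0 := by
    rw [IsScalarTower.algebraMap_apply R K F₀]
    intro h
    have h1 := (algebraMap K F₀).injective (h.trans (map_zero _).symm)
    exact hϖ.ne_zero ((IsFractionRing.injective R K) (h1.trans (map_zero _).symm))
  have hprime : 𝔫₀.IsPrime := h𝔫₀.1.isPrime
  have hVloc : ∀ x : F₀, InLoc R t₀ 𝔫₀ x → x ∈ V' :=
    fun x hx => mem_val_of_inLoc V' hV'A hV'𝔫 hx
  obtain ⟨⟨x₀, hx₀, hgen⟩, hpr⟩ := hreg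
  have hx₀ϖ := not_inLoc_div ϖ hϖ0 V' hV'A hV'𝔫 hV'ϖ x₀ hgen hhor
  obtain ⟨m', Pd, hm', hPd, hPd', hde⟩ :=
    exact_content ϖ hϖ0 V' hVloc hV'ϖ (Algebra.discr F₀ b) hdloc m hdval
  obtain ⟨ms, hcard, hms, hres⟩ :=
    fibre_finset (H6CM.chartMap R (F := F) t₀) 𝔫₀ h𝔫₀.1 P hpi1 hcomp
  -- translation of "over `𝔫₀`"
  have hov : ∀ 𝔫' : Ideal (Chart R (algebraMap F₀ F t₀)),
      (∀ y : Chart R t₀, y ∈ 𝔫₀ → ∀ y' : Chart R (algebraMap F₀ F t₀),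
        (y' : F) = algebraMap F₀ F y → y' ∈ 𝔫') →
      ∀ y ∈ 𝔫₀, H6CM.chartMap R t₀ y ∈ 𝔫' :=
    fun 𝔫' h y hy => h y hy _ rfl
  have hov' : ∀ 𝔫' : Ideal (Chart R (algebraMap F₀ F t₀)),
      (∀ y ∈ 𝔫₀, H6CM.chartMap R t₀ y ∈ 𝔫') →
      (∀ y : Chart R t₀, y ∈ 𝔫₀ → ∀ y' : Chart R (algebraMap F₀ F t₀),
        (y' : F) = algebraMap F₀ F y → y' ∈ 𝔫') := by
    intro 𝔫' h y hy y' e
    have : y' = H6CM.chartMap R t₀ y := Subtype.ext e
    rw [this]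
    exact h y hy
  obtain ⟨x₀', t', hx₀', hx₀'𝔫, ht'𝔫, hgen'⟩ :=
    hdisc R K F₀ F ϖ hϖ t₀ ht₀ hfin₀ hfin 𝔫₀ h𝔫₀ x₀ hx₀ hgen hpr hx₀ϖ r (Fintype.card ι) m' hr
      (le_trans (Nat.add_le_add_right hm' _) hml) ms hcard
      (fun 𝔫' h𝔫' ho => hms 𝔫' h𝔫' (hov 𝔫' ho))
      (fun 𝔫' h𝔫' ho y => by
        obtain ⟨a, ha⟩ := hres 𝔫' h𝔫' (hov 𝔫' ho) y
        exact ⟨a, H6CM.chartMap R t₀ a, rfl, ha⟩)
      j₀ hj₀ hE b hb Pd hPd hPd' hde 𝔫 h𝔫 (hov' 𝔫 hover)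
  exact ⟨x₀', t', hx₀'𝔫, ht'𝔫, hgen'⟩

/-- `two_gen_of_disc` without the hypothesis `hdloc` (it follows from `hb`). -/
theorem two_gen_of_disc' (hdisc : H6LD.DiscChartStatement)
    (ϖ : R) (hϖ : Irreducible ϖ) (t₀ : F₀) (ht₀ : Transcendental K t₀)
    (hfin₀ : FiniteDimensional K⟮t₀⟯ F₀) (hfin : FiniteDimensional K⟮algebraMap F₀ F t₀⟯ F)
    (𝔫₀ : Ideal (Chart R t₀)) (h𝔫₀ : IsClosedPt R ϖ t₀ 𝔫₀)
    (hreg : RegAt R ϖ t₀ 𝔫₀)
    (V' : ValuationSubring F₀) (hV'A : ∀ y : Chart R t₀, (y : F₀) ∈ V')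
    (hV'𝔫 : ∀ y : Chart R t₀, V'.valuation (y : F₀) < 1 → y ∈ 𝔫₀)
    (hV'ϖ : V'.valuation (algebraMap R F₀ ϖ) < 1)
    (hhor : ∃ y ∈ 𝔫₀, ¬ V'.valuation ((y : Chart R t₀) : F₀) < 1)
    {ι : Type} [Fintype ι] (P : ι → Ideal (Chart R (algebraMap F₀ F t₀)))
    (hpi1 : ∀ i, ∀ b : Chart R (algebraMap F₀ F t₀), ∃ s a : Chart R t₀, s ∉ 𝔫₀ ∧
      H6CM.chartMap R t₀ s * b - H6CM.chartMap R t₀ a ∈ P i)
    (hcomp : ∀ 𝔫 : Ideal (Chart R (algebraMap F₀ F t₀)), 𝔫.IsMaximal →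
      (∀ y ∈ 𝔫₀, H6CM.chartMap R t₀ y ∈ 𝔫) → ∃ i, P i ≤ 𝔫)
    (r m : ℕ) (hr : Module.finrank F₀ F = r) (hml : m + Fintype.card ι ≤ r)
    (j₀ : F₀) (hj₀ : InLoc R t₀ 𝔫₀ j₀)
    (hE : ∀ V : Place K F, 0 ≤ V.ord (algebraMap F₀ F j₀) →
      ∃ u : F₀, V.ord (algebraMap F₀ F u) = 1)
    (b : Fin r → F)
    (hb : ∀ i, ∃ (s : Chart R t₀) (c : Chart R (algebraMap F₀ F t₀)), s ∉ 𝔫₀ ∧
      algebraMap F₀ F s * b i = c)
    (hdval : ¬ V'.valuation (Algebra.discr F₀ b * (algebraMap R F₀ ϖ ^ m)⁻¹) < 1)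
    (𝔫 : Ideal (Chart R (algebraMap F₀ F t₀))) (h𝔫 : 𝔫.IsMaximal)
    (hover : ∀ y ∈ 𝔫₀, H6CM.chartMap R t₀ y ∈ 𝔫) :
    ∃ g x : Chart R (algebraMap F₀ F t₀), g ∈ 𝔫 ∧ x ∈ 𝔫 ∧
      ∀ y ∈ 𝔫, ∃ s a c : Chart R (algebraMap F₀ F t₀), s ∉ 𝔫 ∧
        (s : F) * y = a * (g : F) + c * x :=
  two_gen_of_disc R K F₀ F hdisc ϖ hϖ t₀ ht₀ hfin₀ hfin 𝔫₀ h𝔫₀ hreg V' hV'A hV'𝔫 hV'ϖ hhor P hpi1
    hcomp r m hr hml j₀ hj₀ hE b hb (inLoc_discr R F₀ F 𝔫₀ h𝔫₀.1.isPrime b hb) hdval 𝔫 h𝔫 hover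

end main

end H20R3

end
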