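import Mathlib
import Fermat.Agent.S36.R3Gen_helper20
import Fermat.Agent.S36.ChartMap_helper6

/-!
# Item 86 (S36), LOC, leaf (R1-INST), third assembly (helper26): the ABSTRACT core

`H26R1.two_gen_above` : the engine `H20R3.two_gen_of_disc'` with `ι = Unit`, `P = P₁`, at the
point `𝔫₀ = 𝔫 ∩ (lower chart)` below a closed point `𝔫` of the upper chart; all inputs are
hypotheses in the shapes delivered by their owners (for every lower point).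
-/

set_option autoImplicit false
set_option linter.unusedSectionVars false
set_option linter.unusedVariables false
set_option linter.style.haveILetI false
set_option linter.style.longLine false
set_option synthInstance.maxHeartbeats 400000

noncomputable section

open Polynomial IntermediateField AlgebraicCurve H7S18 H4S34

namespace H26R1

section abs

variable (R : Type) [CommRing R] [IsDomain R] [IsDiscreteValuationRing R]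
  (K : Type) [Field K] [CharZero K] [Algebra R K] [IsFractionRing R K]
  (F₀ F : Type) [Field F₀] [Algebra K F₀] [Algebra R F₀] [IsScalarTower R K F₀]
  [Field F] [Algebra K F] [Algebra R F] [IsScalarTower R K F]
  [Algebra F₀ F] [IsScalarTower K F₀ F] [IsScalarTower R F₀ F] [FiniteDimensional F₀ F]

/-- the point below a closed point is a closed point. -/
theorem closedPt_below (ϖ : R) (t₀ : F₀)
    (𝔫 : Ideal (Chart R (algebraMap F₀ F t₀)))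
    (h𝔫 : IsClosedPt R ϖ (algebraMap F₀ F t₀) 𝔫) :
    IsClosedPt R ϖ t₀ (𝔫.comap (H6CM.chartMap R (F := F) t₀)) := by
  haveI h𝔫max : 𝔫.IsMaximal := h𝔫.1
  refine ⟨Ideal.isMaximal_comap_of_isIntegral_of_isMaximal' _
    (H6CM.chartMap_isIntegral R (F := F) t₀) 𝔫, fun y hy => ?_⟩
  rw [Ideal.mem_comap]
  apply h𝔫.2
  rw [H6CM.coe_chartMap, hy, ← IsScalarTower.algebraMap_apply R F₀ F]

/-- **the abstract core of (R1)**: two generators (field form) at a closed point `𝔫` of the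
upper chart. -/
theorem two_gen_above (hdisc : H6LD.DiscChartStatement)
    (ϖ : R) (hϖ : Irreducible ϖ) (t₀ : F₀) (ht₀ : Transcendental K t₀)
    (hfin₀ : FiniteDimensional K⟮t₀⟯ F₀) (hfin : FiniteDimensional K⟮algebraMap F₀ F t₀⟯ F)
    (V' : ValuationSubring F₀)
    (hG0 : ∀ 𝔫₀ : Ideal (Chart R t₀), IsClosedPt R ϖ t₀ 𝔫₀ →
      RegAt R ϖ t₀ 𝔫₀ ∧ (∀ y : Chart R t₀, (y : F₀) ∈ V') ∧
      (∀ y : Chart R t₀, V'.valuation (y : F₀) < 1 → y ∈ 𝔫₀) ∧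
      V'.valuation (algebraMap R F₀ ϖ) < 1 ∧
      (∃ y ∈ 𝔫₀, ¬ V'.valuation ((y : Chart R t₀) : F₀) < 1))
    (P₁ : Ideal (Chart R (algebraMap F₀ F t₀)))
    (hpi1 : ∀ 𝔫₀ : Ideal (Chart R t₀), 𝔫₀ ≠ ⊤ →
      ∀ b : Chart R (algebraMap F₀ F t₀), ∃ s a : Chart R t₀, s ∉ 𝔫₀ ∧
        H6CM.chartMap R t₀ s * b - H6CM.chartMap R t₀ a ∈ P₁)
    (𝔫 : Ideal (Chart R (algebraMap F₀ F t₀)))
    (h𝔫 : IsClosedPt R ϖ (algebraMap F₀ F t₀) 𝔫)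
    (hcomp : ∀ 𝔫₀ : Ideal (Chart R t₀), 𝔫₀.IsMaximal →
      (∀ y ∈ 𝔫₀, H6CM.chartMap R t₀ y ∈ 𝔫) →
      ∀ 𝔫' : Ideal (Chart R (algebraMap F₀ F t₀)), 𝔫'.IsMaximal →
        (∀ y ∈ 𝔫₀, H6CM.chartMap R t₀ y ∈ 𝔫') → ∃ _ : Unit, P₁ ≤ 𝔫')
    (r m : ℕ) (hr : Module.finrank F₀ F = r) (hml : m + 1 ≤ r)
    (j₀ : F₀)
    (hNC : ∀ 𝔫₀ : Ideal (Chart R t₀), IsClosedPt R ϖ t₀ 𝔫₀ →
      (∀ y ∈ 𝔫₀, H6CM.chartMap R t₀ y ∈ 𝔫) → InLoc R t₀ 𝔫₀ j₀)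
    (hE : ∀ V : Place K F, 0 ≤ V.ord (algebraMap F₀ F j₀) →
      ∃ u : F₀, V.ord (algebraMap F₀ F u) = 1)
    (b : Fin r → F)
    (hb : ∀ 𝔫₀ : Ideal (Chart R t₀), 𝔫₀.IsPrime → InLoc R t₀ 𝔫₀ j₀ →
      ∀ i, ∃ (s : Chart R t₀) (c : Chart R (algebraMap F₀ F t₀)), s ∉ 𝔫₀ ∧
        algebraMap F₀ F s * b i = c)
    (hdval : ¬ V'.valuation (Algebra.discr F₀ b * (algebraMap R F₀ ϖ ^ m)⁻¹) < 1) :
    ∃ g x : Chart R (algebraMap F₀ F t₀), g ∈ 𝔫 ∧ x ∈ 𝔫 ∧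
      ∀ y ∈ 𝔫, ∃ s a c : Chart R (algebraMap F₀ F t₀), s ∉ 𝔫 ∧
        (s : F) * y = a * (g : F) + c * x := by
  have h𝔫₀ : IsClosedPt R ϖ t₀ (𝔫.comap (H6CM.chartMap R (F := F) t₀)) :=
    closedPt_below R F₀ F ϖ t₀ 𝔫 h𝔫
  have hover : ∀ y ∈ 𝔫.comap (H6CM.chartMap R (F := F) t₀), H6CM.chartMap R t₀ y ∈ 𝔫 :=
    fun y hy => Ideal.mem_comap.1 hy
  obtain ⟨hreg, hV'A, hV'𝔫, hV'ϖ, hhor⟩ := hG0 _ h𝔫₀
  have hj₀ := hNC _ h𝔫₀ hover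
  exact H20R3.two_gen_of_disc' R K F₀ F hdisc ϖ hϖ t₀ ht₀ hfin₀ hfin
    (𝔫.comap (H6CM.chartMap R (F := F) t₀)) h𝔫₀ hreg V' hV'A hV'𝔫 hV'ϖ hhor
    (fun _ : Unit => P₁) (fun _ => hpi1 _ h𝔫₀.1.ne_top)
    (fun 𝔫' h𝔫' ho => hcomp _ h𝔫₀.1 hover 𝔫' h𝔫' ho)
    r m hr (by simpa using hml) j₀ hj₀ hE b (hb _ h𝔫₀.1.isPrime hj₀) hdval 𝔫 h𝔫.1 hover

end abs

end H26R1

end
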