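import Mathlib
import Fermat.Agent.S34.DichDefs_helper26
import Fermat.Agent.S36.LocE_helper14

/-!
# Item 86 (S36), LOC, leaf (R1-INST) (helper1): INTERFACE

Level `M q` (`q ∤ M`, `TameLevel q M`, `M` RIGID), base a number field `K₁ ⊆ ℚ̄` UNRAMIFIED at
`A` (`q` is associated to the uniformizer `ϖ` of `R = descVal A K₁`), containing `ζ_{e₀}` and
carrying a Frobenius automorphism `γ`; chart `c = t` or `c = t⁻¹`.

* `H1R1.PrinAt 𝔫 P` : the prime `P` is principal at `𝔫` : there is `x ∈ P`, `x ≠ 0`, with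
  `∀ y ∈ P, ∃ s ∉ 𝔫, s y ∈ (x)`  (= `hx0`, `hxV`, `hprin` of `H26R2.l1At_R2_val`, and the output
  of `H5R1.principal_of_two_gen`).
* `H1R1.R1NodeStatement` : **(R1)** at a closed point `𝔫` of the chart `c` of level `M q` lying
  on BOTH components (`P₁ ≤ 𝔫`, `P₂ ≤ 𝔫` : a supersingular point), `𝔫` has two local generators
  and `P₁`, `P₂` are principal at `𝔫` (thickness one).
  (At the closed points lying on one component only `P_i B_𝔫 = ϖ B_𝔫` : `H16G0.G0NqStatement`.)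

Proof (file `S36/R1_helper1.lean`): `H6LD.DiscChartStatement` for `F(M) ⊂ F(M q)` with
`r = q + 1`, `l = 1`, `m ≤ q`, then `H5R1.principal_of_two_gen`.
-/

set_option autoImplicit false
set_option synthInstance.maxHeartbeats 400000
set_option linter.unusedVariables false

noncomputable section

open ModularCurve H7S18 H4S34 H26DI

namespace H1R1

/-- the prime `P` is principal at `𝔫`. -/
def PrinAt {B : Type*} [CommRing B] (𝔫 P : Ideal B) : Prop :=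
  ∃ x : B, x ≠ 0 ∧ x ∈ P ∧ ∀ y ∈ P, ∃ s c : B, s ∉ 𝔫 ∧ s * y = c * x

/-- `𝔫` has two local generators. -/
def TwoGenAt {B : Type*} [CommRing B] (𝔫 : Ideal B) : Prop :=
  ∃ g x : B, g ∈ 𝔫 ∧ x ∈ 𝔫 ∧ ∀ y ∈ 𝔫, ∃ s a b : B, s ∉ 𝔫 ∧ s * y = a * g + b * x

/-- **(R1)**: at a closed point of level `M q` (`M` rigid, unramified base) lying on both
components, the local ring is regular and both components are locally principal. -/
def R1NodeStatement : Prop :=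
  ∀ (M : ℕ) [NeZero M] (q : ℕ) [NeZero q] (hq : q.Prime) (hqM : ¬ q ∣ M) (_ : TameLevel q M)
    (_ : H14LE.Rigid M)
    (A : ValuationSubring (AlgebraicClosure ℚ)) (_ : A.LiesOverPrime q)
    (K₁ : IntermediateField ℚ (AlgebraicClosure ℚ)) (_ : FiniteDimensional ℚ K₁)
    (_ : ∃ ζ : K₁, IsPrimitiveRoot ζ (branchIndex (baseKind q) M))
    (γ : K₁ ≃ₐ[ℚ] K₁)
    (_ : ∀ a : K₁, a ∈ descVal A K₁ → γ a ∈ descVal A K₁)
    (_ : ∀ a : K₁, a ∈ descVal A K₁ → γ.symm a ∈ descVal A K₁)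
    (_ : ∀ a : K₁, a ∈ descVal A K₁ → γ a - a ^ q ∈ (descVal A K₁).nonunits)
    [Algebra ↥(descVal A K₁) (FK K₁ (M * q))]
    [IsScalarTower ↥(descVal A K₁) K₁ (FK K₁ (M * q))]
    (ϖ : ↥(descVal A K₁)) (_ : Irreducible ϖ)
    (_ : Associated ((q : ℕ) : ↥(descVal A K₁)) ϖ)
    (t₀ : LaurentSeries ℚ) (_ : IsBase (baseKind q) t₀)
    (t : FK K₁ (M * q)) (_ : (t : LaurentSeries K₁) = coeffEmb K₁ t₀)
    (c : FK K₁ (M * q)) (_ : c = t ∨ c = t⁻¹)
    (P₁ P₂ : Ideal (Chart ↥(descVal A K₁) c))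
    (_ : IsComp1 A K₁ c P₁) (_ : IsComp2 hq hqM A K₁ c P₂)
    (𝔫 : Ideal (Chart ↥(descVal A K₁) c)) (_ : IsClosedPt ↥(descVal A K₁) ϖ c 𝔫)
    (_ : P₁ ≤ 𝔫) (_ : P₂ ≤ 𝔫),
    TwoGenAt 𝔫 ∧ PrinAt 𝔫 P₁ ∧ PrinAt 𝔫 P₂

end H1R1

end
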