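import Mathlib
import Fermat.Agent.S36.R1Defs_helper1

/-!
# Item 86 (S36), LOC, leaf (R1-INST) (helper1): the chart `t` form of (R1)

* `H1R1.R1TStatement` : `H1R1.R1NodeStatement` for the chart `c = t` only (proved by the
  DISC engine, file `S36/R1Asm_helper1.lean`);
  the chart `c = t⁻¹` follows by cusp separation at `∞` + chart change
  (`r1_inv : R1TStatement → R1NodeStatement`, helper5, file `S36/R1Inv_helper5.lean`).
-/

set_option autoImplicit false
set_option synthInstance.maxHeartbeats 400000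
set_option linter.unusedVariables false

noncomputable section

open ModularCurve H7S18 H4S34 H26DI

namespace H1R1

/-- **(R1), chart `t`**: at a closed point of the chart `t` of level `M q` (`M` rigid,
unramified base) lying on both components, the local ring is regular and both components are
locally principal. -/
def R1TStatement : Prop :=
  ∀ (M : ℕ) [NeZero M] (q : ℕ) [NeZero q] (hq : q.Prime) (hqM : ¬ q ∣ M) (_ : TameLevel q M)
    (_ : H14LE.Rigid M)
    (A : ValuationSubring (AlgebraicClosure ℚ)) (_ : A.LiesOverPrime q)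
    (K₁ : IntermediateField ℚ (AlgebraicClosure ℚ)) (_ : FiniteDimensional ℚ K₁)
    (_ : ∃ ζ : K₁, IsPrimitiveRoot ζ (branchIndex (baseKind q) M))
    (γ : K₁ ≃ₐ[ℚ] K₁)
    (_ : ∀ a : K₁, a ∈ descVal A K₁ → γ a ∈ descVal A K₁)
    (_ : ∀ a : K₁, a ∈ descVal A K₁ → γ.symm a ∈ descVal A K₁)
    (_ : ∀ a : K₁, a ∈ descVal A K₁ → γ a - a ^ q ∈ (descVal A K₁).nonunits)
    [Algebra ↥(descVal A K₁) (FK K₁ (M * q))]
    [IsScalarTower ↥(descVal A K₁) K₁ (FK K₁ (M * q))]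
    (ϖ : ↥(descVal A K₁)) (_ : Irreducible ϖ)
    (_ : Associated ((q : ℕ) : ↥(descVal A K₁)) ϖ)
    (t₀ : LaurentSeries ℚ) (_ : IsBase (baseKind q) t₀)
    (t : FK K₁ (M * q)) (_ : (t : LaurentSeries K₁) = coeffEmb K₁ t₀)
    (P₁ P₂ : Ideal (Chart ↥(descVal A K₁) t))
    (_ : IsComp1 A K₁ t P₁) (_ : IsComp2 hq hqM A K₁ t P₂)
    (𝔫 : Ideal (Chart ↥(descVal A K₁) t)) (_ : IsClosedPt ↥(descVal A K₁) ϖ t 𝔫)
    (_ : P₁ ≤ 𝔫) (_ : P₂ ≤ 𝔫),
    TwoGenAt 𝔫 ∧ PrinAt 𝔫 P₁ ∧ PrinAt 𝔫 P₂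

end H1R1

end
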