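import Mathlib
import Fermat.Agent.S36.R1Leaves_helper1
import Fermat.Agent.S18.C6e_helper9

/-!
# Item 86 (S36), LOC, leaf (R1-INST) (helper1): the two remaining leaves of (R1) in the chart `t`

* `H1R1.NCLeaf`  : **(R1-NC)** `j` is finite at the image `𝔫₀` (level `M`) of a common point `𝔫`
  of the two components of the chart `t` of level `M q` (helper25);
* `H1R1.EndLeaf` : **(R1-END)** two generators (field form) at a common point ⟹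
  `TwoGenAt ∧ PrinAt P₁ ∧ PrinAt P₂` (helper22).
`H1R1.r1T_of_leaves : NCLeaf → EndLeaf → R1TStatement` is in `S36/R1Final_helper1.lean`.
-/

set_option autoImplicit false
set_option linter.style.longLine false
set_option linter.unusedVariables false
set_option synthInstance.maxHeartbeats 400000

noncomputable section

open ModularCurve H7S18 H4S34 H26DI

namespace H1R1

/-- **(R1-NC)**: the image of a common point is not a cusp. -/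
def NCLeaf : Prop :=
  ∀ (M : ℕ) [NeZero M] (q : ℕ) [NeZero q] (hq : q.Prime) (hqM : ¬ q ∣ M) (_ : TameLevel q M)
    (A : ValuationSubring (AlgebraicClosure ℚ)) (_ : A.LiesOverPrime q)
    (K₁ : IntermediateField ℚ (AlgebraicClosure ℚ)) (_ : FiniteDimensional ℚ K₁)
    [Algebra ↥(descVal A K₁) (FK K₁ M)] [IsScalarTower ↥(descVal A K₁) K₁ (FK K₁ M)]
    [Algebra ↥(descVal A K₁) (FK K₁ (M * q))]
    [IsScalarTower ↥(descVal A K₁) K₁ (FK K₁ (M * q))]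
    (ϖ : ↥(descVal A K₁)) (_ : Irreducible ϖ)
    (t₀ : LaurentSeries ℚ) (_ : IsBase (baseKind q) t₀)
    (tM : FK K₁ M) (_ : (tM : LaurentSeries K₁) = coeffEmb K₁ t₀)
    (t : FK K₁ (M * q)) (_ : (t : LaurentSeries K₁) = coeffEmb K₁ t₀)
    (P₁ P₂ : Ideal (Chart ↥(descVal A K₁) t))
    (_ : IsComp1 A K₁ t P₁) (_ : IsComp2 hq hqM A K₁ t P₂)
    (𝔫₀ : Ideal (Chart ↥(descVal A K₁) tM)) (_ : IsClosedPt ↥(descVal A K₁) ϖ tM 𝔫₀)
    (𝔫 : Ideal (Chart ↥(descVal A K₁) t)) (_ : IsClosedPt ↥(descVal A K₁) ϖ t 𝔫)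
    (_ : ∀ y ∈ 𝔫₀, ∀ y' : Chart ↥(descVal A K₁) t,
      (y' : FK K₁ (M * q)) = heckeAlphaBar ↥K₁ M q (y : FK K₁ M) → y' ∈ 𝔫)
    (_ : P₁ ≤ 𝔫) (_ : P₂ ≤ 𝔫),
    InLoc ↥(descVal A K₁) tM 𝔫₀ (H9C6e.JK ↥K₁ M)

/-- **(R1-END)**: two generators (field form) at a common point give (R1). -/
def EndLeaf : Prop :=
  ∀ (M : ℕ) [NeZero M] (q : ℕ) [NeZero q] (hq : q.Prime) (hqM : ¬ q ∣ M) (_ : TameLevel q M)
    (A : ValuationSubring (AlgebraicClosure ℚ)) (_ : A.LiesOverPrime q)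
    (K₁ : IntermediateField ℚ (AlgebraicClosure ℚ)) (_ : FiniteDimensional ℚ K₁)
    [Algebra ↥(descVal A K₁) (FK K₁ (M * q))]
    [IsScalarTower ↥(descVal A K₁) K₁ (FK K₁ (M * q))]
    (ϖ : ↥(descVal A K₁)) (_ : Irreducible ϖ)
    (t₀ : LaurentSeries ℚ) (_ : IsBase (baseKind q) t₀)
    (t : FK K₁ (M * q)) (_ : (t : LaurentSeries K₁) = coeffEmb K₁ t₀)
    (P₁ P₂ : Ideal (Chart ↥(descVal A K₁) t))
    (_ : IsComp1 A K₁ t P₁) (_ : IsComp2 hq hqM A K₁ t P₂)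
    (𝔫 : Ideal (Chart ↥(descVal A K₁) t)) (_ : IsClosedPt ↥(descVal A K₁) ϖ t 𝔫)
    (_ : P₁ ≤ 𝔫) (_ : P₂ ≤ 𝔫)
    (_ : ∃ g x : Chart ↥(descVal A K₁) t, g ∈ 𝔫 ∧ x ∈ 𝔫 ∧
      ∀ y ∈ 𝔫, ∃ s a c : Chart ↥(descVal A K₁) t, s ∉ 𝔫 ∧
        (s : FK K₁ (M * q)) * y = a * (g : FK K₁ (M * q)) + c * x),
    TwoGenAt 𝔫 ∧ PrinAt 𝔫 P₁ ∧ PrinAt 𝔫 P₂

end H1R1

end
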