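import Mathlib
import Fermat.Agent.S36.R1Abs_helper26
import Fermat.Agent.S36.LocF5_helper12
import Fermat.Agent.S36.G0Val_helper22
import Fermat.Agent.S36.LocDisc_helper6
import Fermat.Agent.S36.R1LeafDefs_helper1

/-!
# Item 86 (S36), LOC, leaf (R1-INST), third assembly (helper26): the core in SHAPE form

`H26R1.two_gen_R1_shape` : two generators (field form) at a common closed point `𝔫` of the two
components of the chart `algebraMap F₀ F tM` of level `M q`, for ANY `Algebra F₀ F` instance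
whose `algebraMap` is `heckeAlphaBar K₁ M q`; the inputs (D), (E), `hr` (which are stated by
their owners for the instance `algebraAlong (heckeAlphaBar K₁ M q)`) are hypotheses here.
-/

set_option autoImplicit false
set_option linter.unusedSectionVars false
set_option linter.unusedVariables false
set_option linter.style.haveILetI false
set_option linter.style.longLine false
set_option synthInstance.maxHeartbeats 400000
set_option maxHeartbeats 8000000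

noncomputable section

open Polynomial IntermediateField AlgebraicCurve ModularCurve H7S18 H4S34 H26DI

namespace H26R1

local notation "Qb" => AlgebraicClosure ℚ

section shape

variable (M : ℕ) [NeZero M] (q : ℕ) [NeZero q] (hq : q.Prime) (hqM : ¬ q ∣ M)
  (hT : TameLevel q M)
  (A : ValuationSubring Qb) (hA : A.LiesOverPrime q)
  (K₁ : IntermediateField ℚ Qb) (hfin : FiniteDimensional ℚ K₁)
  (hζ : ∃ ζ : K₁, IsPrimitiveRoot ζ (branchIndex (baseKind q) M))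
  (γ : K₁ ≃ₐ[ℚ] K₁)
  (hγ : ∀ a : K₁, a ∈ descVal A K₁ → γ a ∈ descVal A K₁)
  (hγ' : ∀ a : K₁, a ∈ descVal A K₁ → γ.symm a ∈ descVal A K₁)
  (hfrob : ∀ a : K₁, a ∈ descVal A K₁ → γ a - a ^ q ∈ (descVal A K₁).nonunits)
  [IsDiscreteValuationRing ↥(descVal A K₁)]
  [Algebra ↥(descVal A K₁) (FK K₁ M)] [IsScalarTower ↥(descVal A K₁) K₁ (FK K₁ M)]
  [Algebra ↥(descVal A K₁) (FK K₁ (M * q))]
  [IsScalarTower ↥(descVal A K₁) K₁ (FK K₁ (M * q))]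
  [Algebra (FK K₁ M) (FK K₁ (M * q))]
  [IsScalarTower K₁ (FK K₁ M) (FK K₁ (M * q))]
  [IsScalarTower ↥(descVal A K₁) (FK K₁ M) (FK K₁ (M * q))]
  [FiniteDimensional (FK K₁ M) (FK K₁ (M * q))]
  (halg : ∀ x : FK K₁ M, algebraMap (FK K₁ M) (FK K₁ (M * q)) x = heckeAlphaBar K₁ M q x)
  (ϖ : ↥(descVal A K₁)) (hϖ : Irreducible ϖ)
  (t₀ : LaurentSeries ℚ) (ht₀ : IsBase (baseKind q) t₀)
  (tM : FK K₁ M) (htM : (tM : LaurentSeries K₁) = coeffEmb K₁ t₀)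

include hT ht₀ htM in
/-- the base function of level `M`. -/
theorem base_lower_basics :
    Transcendental K₁ tM ∧ FiniteDimensional K₁⟮tM⟯ (FK K₁ M) := by
  obtain ⟨t₁, ht₁coe, ht₁tr, ht₁fin, -⟩ :=
    H9C6e.fieldBasics M (baseKind q) (h7_baseKind_ok hT) t₀ ht₀ K₁
  have htt : t₁ = tM := Subtype.ext (ht₁coe.trans htM.symm)
  rw [htt] at ht₁tr ht₁fin
  exact ⟨ht₁tr, ht₁fin⟩

include hT ht₀ in
/-- the base function of level `M q`. -/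
theorem base_upper_basics (t : FK K₁ (M * q)) (ht : (t : LaurentSeries K₁) = coeffEmb K₁ t₀) :
    Transcendental K₁ t ∧ FiniteDimensional K₁⟮t⟯ (FK K₁ (M * q)) := by
  have hi : baseKind q = 1 ∨ (baseKind q = 2 ∧ 2 ∣ M * q) ∨ (baseKind q = 3 ∧ 3 ∣ M * q) := by
    rcases h7_baseKind_ok hT with h | h | h
    · exact Or.inl h
    · exact Or.inr (Or.inl ⟨h.1, Dvd.dvd.mul_right h.2 q⟩)
    · exact Or.inr (Or.inr ⟨h.1, Dvd.dvd.mul_right h.2 q⟩)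
  obtain ⟨t₁, ht₁coe, ht₁tr, ht₁fin, -⟩ := H9C6e.fieldBasics (M * q) (baseKind q) hi t₀ ht₀ K₁
  have htt : t₁ = t := Subtype.ext (ht₁coe.trans ht.symm)
  rw [htt] at ht₁tr ht₁fin
  exact ⟨ht₁tr, ht₁fin⟩

include hq hqM hT hA hfin hζ hγ hγ' hfrob halg hϖ ht₀ htM in
/-- **(R1), chart `t`, shape form**: two generators (field form) at a common closed point. -/
theorem two_gen_R1_shape (hNC : H1R1.NCLeaf)
    (hr : Module.finrank (FK K₁ M) (FK K₁ (M * q)) = q + 1)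
    (hE : ∀ V : Place K₁ (FK K₁ (M * q)),
      0 ≤ V.ord (algebraMap (FK K₁ M) (FK K₁ (M * q)) (H9C6e.JK ↥K₁ M)) →
      ∃ u : FK K₁ M, V.ord (algebraMap (FK K₁ M) (FK K₁ (M * q)) u) = 1)
    (b : Fin (q + 1) → FK K₁ (M * q))
    (hb : ∀ 𝔫₀ : Ideal (Chart ↥(descVal A K₁) tM), 𝔫₀.IsPrime →
      InLoc ↥(descVal A K₁) tM 𝔫₀ (H9C6e.JK ↥K₁ M) →
      ∀ i, ∃ (s : Chart ↥(descVal A K₁) tM)
        (c : Chart ↥(descVal A K₁) (algebraMap (FK K₁ M) (FK K₁ (M * q)) tM)), s ∉ 𝔫₀ ∧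
        algebraMap (FK K₁ M) (FK K₁ (M * q)) s * b i = c)
    (hdval : ¬ (H10FC.gaussVal (descVal A K₁) M).valuation
      (Algebra.discr (FK K₁ M) b * (algebraMap ↥(descVal A K₁) (FK K₁ M) ϖ ^ q)⁻¹) < 1)
    (P₁ P₂ : Ideal (Chart ↥(descVal A K₁) (algebraMap (FK K₁ M) (FK K₁ (M * q)) tM)))
    (h1 : IsComp1 A K₁ (algebraMap (FK K₁ M) (FK K₁ (M * q)) tM) P₁)
    (h2 : IsComp2 hq hqM A K₁ (algebraMap (FK K₁ M) (FK K₁ (M * q)) tM) P₂)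
    (𝔫 : Ideal (Chart ↥(descVal A K₁) (algebraMap (FK K₁ M) (FK K₁ (M * q)) tM)))
    (h𝔫 : IsClosedPt ↥(descVal A K₁) ϖ (algebraMap (FK K₁ M) (FK K₁ (M * q)) tM) 𝔫)
    (hP1 : P₁ ≤ 𝔫) (hP2 : P₂ ≤ 𝔫) :
    ∃ g x : Chart ↥(descVal A K₁) (algebraMap (FK K₁ M) (FK K₁ (M * q)) tM), g ∈ 𝔫 ∧ x ∈ 𝔫 ∧
      ∀ y ∈ 𝔫, ∃ s a c : Chart ↥(descVal A K₁) (algebraMap (FK K₁ M) (FK K₁ (M * q)) tM),
        s ∉ 𝔫 ∧ (s : FK K₁ (M * q)) * y = a * (g : FK K₁ (M * q)) + c * x := by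
  obtain ⟨htr, hfin₀⟩ := base_lower_basics M q hT K₁ t₀ ht₀ tM htM
  have hcoe : ((algebraMap (FK K₁ M) (FK K₁ (M * q)) tM : FK K₁ (M * q)) : LaurentSeries K₁) =
      coeffEmb K₁ t₀ := H12LF.coe_algebraMap_tM M q K₁ halg t₀ tM htM
  obtain ⟨-, hfinUp⟩ := base_upper_basics M q hT K₁ t₀ ht₀ _ hcoe
  have hconv : ∀ 𝔫₀ : Ideal (Chart ↥(descVal A K₁) tM),
      (∀ y ∈ 𝔫₀, H6CM.chartMap ↥(descVal A K₁) tM y ∈ 𝔫) →
      ∀ y ∈ 𝔫₀, ∀ y' : Chart ↥(descVal A K₁) (algebraMap (FK K₁ M) (FK K₁ (M * q)) tM),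
        (y' : FK K₁ (M * q)) = heckeAlphaBar K₁ M q (y : FK K₁ M) → y' ∈ 𝔫 := by
    intro 𝔫₀ h y hy y' hy'
    have e : y' = H6CM.chartMap ↥(descVal A K₁) tM y := by
      apply Subtype.ext
      rw [hy', H6CM.coe_chartMap, halg]
    rw [e]
    exact h y hy
  exact two_gen_above ↥(descVal A K₁) K₁ (FK K₁ M) (FK K₁ (M * q)) H6LD.discChart ϖ hϖ tM htr
    hfin₀ hfinUp (H10FC.gaussVal (descVal A K₁) M)
    (fun 𝔫₀ h𝔫₀ => H22G0.g0M_disc M q hq hqM hT A hA K₁ hfin hζ ϖ hϖ t₀ ht₀ tM htM 𝔫₀ h𝔫₀)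
    P₁
    (fun 𝔫₀ hne b => H12LF.hpi1_R1 M q hq hqM hT A hA K₁ hfin hζ halg ϖ hϖ t₀ ht₀ tM htM
      P₁ h1 𝔫₀ hne b)
    𝔫 h𝔫
    (fun 𝔫₀ h𝔫₀ hover 𝔫' h𝔫' hover' =>
      H12LF.hcomp_R1 M q hq hqM hT A hA K₁ hfin hζ halg ϖ hϖ t₀ ht₀ tM htM γ hγ hγ' hfrob
        P₁ P₂ h1 h2 𝔫₀ h𝔫₀ 𝔫 h𝔫.1 hover hP1 hP2 𝔫' h𝔫' hover')
    (q + 1) q hr le_rfl (H9C6e.JK ↥K₁ M)
    (fun 𝔫₀ h𝔫₀ hover => hNC M q hq hqM hT A hA K₁ hfin ϖ hϖ t₀ ht₀ tM htM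
      (algebraMap (FK K₁ M) (FK K₁ (M * q)) tM) hcoe P₁ P₂ h1 h2 𝔫₀ h𝔫₀ 𝔫 h𝔫
      (hconv 𝔫₀ hover) hP1 hP2)
    hE b hb hdval

end shape

end H26R1

end
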