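/-
helper5, item 86 (S36), (R1-INST), generic part (R1a).

**Two local generators ⟹ every prime `0 ≠ P ⊊ 𝔫` is locally principal at `𝔫`.**
`A` a noetherian domain, `𝔫` a prime with `𝔫 A_𝔫 = (g, x)`, `P` a prime with `0 ≠ P ⊊ 𝔫`.
Then `A_𝔫` is a regular local ring of dimension two (both `g` and `x` are prime elements), and
`P A_𝔫` is principal: there is `x'' ∈ P`, `x'' ≠ 0`, with `∀ y ∈ P, ∃ s ∉ 𝔫, s y ∈ (x'')`.
This is the shape of the hypothesis `hprin` of `H26R2.l1At_R2_under` / `l1At_R2_val`.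
-/
import Mathlib
import Fermat.Agent.S34.Reg_helper5
import Fermat.Agent.S34.LocRegUnit_helper21
import Fermat.Agent.S36.LocReg2_helper26

set_option autoImplicit false
set_option linter.unusedSectionVars false
set_option linter.unusedVariables false
set_option linter.style.haveILetI false
set_option synthInstance.maxHeartbeats 400000

noncomputable section

namespace H5R1

open IsLocalRing

section localform

variable {B : Type*} [CommRing B] [IsDomain B] [IsNoetherianRing B] [IsLocalRing B]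

/-- in a noetherian local domain with `𝔪 = (g, x)` and a prime `0 ≠ Q₀ ≠ 𝔪`, every prime
`Q ≠ 𝔪` is principal. -/
theorem isPrincipal_of_two_gen (g x : B) (hm : maximalIdeal B = Ideal.span {g, x})
    (hdim : ∃ Q : Ideal B, Q.IsPrime ∧ Q ≠ ⊥ ∧ Q ≠ maximalIdeal B)
    (Q : Ideal B) (hQ : Q.IsPrime) (hQm : Q ≠ maximalIdeal B) : Q.IsPrincipal := by
  have hm' : maximalIdeal B = Ideal.span {x, g} := by rw [hm, Set.pair_comm]
  have hg : Prime g := H26LU.prime_of_two_gen g x hm hdim
  have hx : Prime x := H26LU.prime_of_two_gen x g hm' hdim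
  have hgp : (Ideal.span {g}).IsPrime := (Ideal.span_singleton_prime hg.ne_zero).2 hg
  have hxp : (Ideal.span {x}).IsPrime := (Ideal.span_singleton_prime hx.ne_zero).2 hx
  by_cases hgQ : g ∈ Q
  · have hxQ : x ∉ Q := by
      intro hxQ
      apply hQm
      refine le_antisymm (le_maximalIdeal hQ.ne_top) ?_
      rw [hm, Ideal.span_le]
      rintro z (rfl | rfl)
      · exact hgQ
      · exact hxQ
    exact H5CA.h5ca_reg_isPrincipal_of_not_mem x g hxp hm' Q hQ hxQ
  · exact H5CA.h5ca_reg_isPrincipal_of_not_mem g x hgp hm Q hQ hgQ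

end localform

section elem

variable {A : Type*} [CommRing A] [IsDomain A] [IsNoetherianRing A]

/-- **(R1a)** two local generators at `𝔫` ⟹ a prime `0 ≠ P ⊊ 𝔫` is locally principal at `𝔫`. -/
theorem principal_of_two_gen (F : Type*) [Field F] [Algebra A F] [IsFractionRing A F]
    (𝔫 : Ideal A) [h𝔫 : 𝔫.IsPrime] (P : Ideal A) (hP : P.IsPrime)
    (hP0 : P ≠ ⊥) (hPle : P ≤ 𝔫) (hPne : P ≠ 𝔫) (g x : A) (hg𝔫 : g ∈ 𝔫) (hx𝔫 : x ∈ 𝔫)
    (hgen : ∀ y ∈ 𝔫, ∃ s a b : A, s ∉ 𝔫 ∧ s * y = a * g + b * x) :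
    ∃ x'' : A, x'' ≠ 0 ∧ x'' ∈ P ∧ ∀ y ∈ P, ∃ s c : A, s ∉ 𝔫 ∧ s * y = c * x'' := by
  let B := Localization.subalgebra.ofField F 𝔫.primeCompl (H21LR.primeCompl_le 𝔫)
  haveI hBloc : IsLocalization.AtPrime B 𝔫 :=
    Localization.subalgebra.isLocalization_ofField F 𝔫.primeCompl (H21LR.primeCompl_le 𝔫)
  haveI : IsFractionRing B F := inferInstance
  haveI : IsScalarTower A B F := inferInstance
  haveI : IsLocalRing B := IsLocalization.AtPrime.isLocalRing B 𝔫
  haveI : IsNoetherianRing B := IsLocalization.isNoetherianRing 𝔫.primeCompl B inferInstance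
  haveI : IsDomain B := inferInstance
  have hinj : Function.Injective (algebraMap A B) :=
    IsLocalization.injective B (H21LR.primeCompl_le 𝔫)
  have hm : maximalIdeal B = Ideal.span {algebraMap A B g, algebraMap A B x} :=
    H21LR.maximalIdeal_eq (F := F) B 𝔫 g x hg𝔫 hx𝔫 hgen
  haveI := hP
  have hd : Disjoint (𝔫.primeCompl : Set A) (P : Set A) := by
    rw [Set.disjoint_left]
    intro y hy hyP
    exact hy (hPle hyP)
  have hunder := IsLocalization.under_map_of_isPrime_disjoint 𝔫.primeCompl B hP hd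
  have hQprime : (P.map (algebraMap A B)).IsPrime :=
    IsLocalization.isPrime_of_isPrime_disjoint 𝔫.primeCompl B P hP hd
  have hQ0 : P.map (algebraMap A B) ≠ ⊥ := by
    intro h0
    apply hP0
    rw [eq_bot_iff]
    intro y hy
    have : algebraMap A B y ∈ P.map (algebraMap A B) := Ideal.mem_map_of_mem _ hy
    rw [h0, Ideal.mem_bot] at this
    rw [Ideal.mem_bot]
    exact hinj (by rw [this, map_zero])
  have hQm : P.map (algebraMap A B) ≠ maximalIdeal B := by
    intro hQ
    apply hPne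
    refine le_antisymm hPle ?_
    intro y hy
    have h1 : algebraMap A B y ∈ maximalIdeal B :=
      (IsLocalization.AtPrime.to_map_mem_maximal_iff B 𝔫 y).2 hy
    rw [← hQ] at h1
    have h2 : y ∈ (P.map (algebraMap A B)).under A := h1
    rw [hunder] at h2
    exact h2
  have hdim : ∃ Q : Ideal B, Q.IsPrime ∧ Q ≠ ⊥ ∧ Q ≠ maximalIdeal B :=
    ⟨_, hQprime, hQ0, hQm⟩
  obtain ⟨q, hq⟩ := (isPrincipal_of_two_gen _ _ hm hdim _ hQprime hQm).principal
  have hq' : P.map (algebraMap A B) = Ideal.span {q} := hq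
  have hqmem : q ∈ P.map (algebraMap A B) := by
    rw [hq']
    exact Ideal.mem_span_singleton_self q
  obtain ⟨⟨a, s⟩, has⟩ := (IsLocalization.mem_map_algebraMap_iff 𝔫.primeCompl B).1 hqmem
  simp only at has
  have hsu : IsUnit (algebraMap A B (s : A)) := IsLocalization.map_units B s
  have haQ : Ideal.span {algebraMap A B (a : A)} = P.map (algebraMap A B) := by
    rw [hq', ← has]
    exact Ideal.span_singleton_mul_right_unit hsu q
  have ha0 : (a : A) ≠ 0 := by
    intro h0
    apply hQ0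
    rw [← haQ, h0, map_zero, Ideal.span_singleton_eq_bot]
  refine ⟨a, ha0, a.2, ?_⟩
  intro y hy
  have hy' : algebraMap A B y ∈ Ideal.span {algebraMap A B (a : A)} := by
    rw [haQ]
    exact Ideal.mem_map_of_mem _ hy
  rw [Ideal.mem_span_singleton] at hy'
  obtain ⟨c, s', hs', e⟩ := (H21LR.dvd_map_iff (F := F) B 𝔫 (a : A) y ha0).1 hy'
  exact ⟨s', c, hs', e⟩

end elem

end H5R1
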