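/-
helper22: item 86 (S36), LOC, leaf (R1-INST), slice **(R1-END)** (for helper1).

Level `M q` (`q ∤ M`, tame level), chart `t`, `R = descVal A K₁` (ANY number field `K₁`, any
uniformizer `ϖ`).  At a closed point `𝔫` lying on BOTH components `P₁`, `P₂`:
two local generators of `𝔫` (field form, the output of `H20R3.two_gen_of_disc'`)
⟹ `H1R1.TwoGenAt 𝔫 ∧ H1R1.PrinAt 𝔫 P₁ ∧ H1R1.PrinAt 𝔫 P₂`.

* `H22RE.comp_incomp` : the two components are incomparable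
  (`∃ y ∈ P₁, y ∉ P₂` and `∃ y ∈ P₂, y ∉ P₁`), from `H10FC.gauss_comax` and the pair Gauss
  statement (`H8PB.h8pg_pairGauss`);
* `H22RE.r1_end` : the statement above, via `H5R1.principal_of_two_gen`.
-/
import Mathlib
import Fermat.Agent.S34.DichAsm_helper22
import Fermat.Agent.S34.PairGaussFinal_helper8
import Fermat.Agent.S35.FWComp_helper10
import Fermat.Agent.S36.R1Gen_helper5
import Fermat.Agent.S36.R1Defs_helper1

set_option autoImplicit false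
set_option synthInstance.maxHeartbeats 400000
set_option maxHeartbeats 4000000
set_option linter.unusedSectionVars false
set_option linter.unusedVariables false
set_option linter.style.haveILetI false
set_option linter.style.longLine false

noncomputable section

open Polynomial IntermediateField ModularCurve H7S18 H4S34 H26DI H28GV

namespace H22RE

section Generic

variable (R : Type) [CommRing R] [IsDomain R] [IsDiscreteValuationRing R]
  {E : Type} [Field E] [Algebra R E]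

/-- a Gauss unit of the chart `c` is a unit of every valuation ring containing `O_E`. -/
theorem gaussUnit_val_eq_one {ϖ : R} (hϖ : Irreducible ϖ) {c : E} (hc : Transcendental R c)
    (V : ValuationSubring E) (hV : ∀ x : E, GInt R ϖ c x → x ∈ V)
    {s : E} (hs : IsGaussUnit R ϖ c s) : V.valuation s = 1 := by
  have hs0 : s ≠ 0 := by
    intro h0
    exact hs.2 0 (Subalgebra.zero_mem _) (by rw [h0, mul_zero])
  have h1 : s ∈ V := hV s (H19S18.h19_gint_of_isInt R hc hϖ (H19S18.h19_mem_T_isInt R c hs.1))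
  have h2 : s⁻¹ ∈ V := by
    refine hV s⁻¹ ⟨s, hs, ?_⟩
    rw [mul_inv_cancel₀ hs0]
    have := H19S18.h19_isInt_algebraMap R c 1
    rwa [map_one] at this
  have h1' : V.valuation s ≤ 1 := (V.valuation_le_one_iff _).2 h1
  have h2' : V.valuation s⁻¹ ≤ 1 := (V.valuation_le_one_iff _).2 h2
  rw [map_inv₀] at h2'
  have hv0 : V.valuation s ≠ 0 := (V.valuation.ne_zero_iff).2 hs0
  exact le_antisymm h1' ((inv_le_one₀ (zero_lt_iff.2 hv0)).1 h2')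

/-- separation, directed form: if `e ∈ O_E` is in the maximal ideal of `V₁` and a unit of
`V₂`, then some element of the chart is in `𝔪(V₁)` and not in `𝔪(V₂)`. -/
theorem sep_chart_dir {ϖ : R} (hϖ : Irreducible ϖ) {c : E} (hc : Transcendental R c)
    (V₁ V₂ : ValuationSubring E) (hV₁ : ∀ x : E, GInt R ϖ c x → x ∈ V₁)
    (hV₂ : ∀ x : E, GInt R ϖ c x → x ∈ V₂)
    (e : E) (he : GInt R ϖ c e) (he1 : V₁.valuation e < 1) (he2 : V₂.valuation e = 1) :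
    ∃ y : Chart R c, V₁.valuation (y : E) < 1 ∧ ¬ V₂.valuation (y : E) < 1 := by
  obtain ⟨s, hs, hint⟩ := he
  refine ⟨⟨s * e, hint⟩, ?_, ?_⟩
  · show V₁.valuation (s * e) < 1
    rw [map_mul, gaussUnit_val_eq_one R hϖ hc V₁ hV₁ hs, one_mul]
    exact he1
  · show ¬ V₂.valuation (s * e) < 1
    rw [map_mul, gaussUnit_val_eq_one R hϖ hc V₂ hV₂ hs, one_mul, he2]
    exact lt_irrefl _

/-- field form of two generators ⟹ ring form. -/
theorem twoGen_ring (t : E) (𝔫 : Ideal (Chart R t)) (g x : Chart R t)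
    (hgen : ∀ y ∈ 𝔫, ∃ s a c : Chart R t, s ∉ 𝔫 ∧
      (s : E) * y = a * (g : E) + c * x) :
    ∀ y ∈ 𝔫, ∃ s a b : Chart R t, s ∉ 𝔫 ∧ s * y = a * g + b * x := by
  intro y hy
  obtain ⟨s, a, c, hs, e⟩ := hgen y hy
  exact ⟨s, a, c, hs, Subtype.ext e⟩

end Generic

section Concrete

variable (M : ℕ) [NeZero M] (q : ℕ) [NeZero q] (hq : q.Prime) (hqM : ¬ q ∣ M) (hT : TameLevel q M)
  (A : ValuationSubring (AlgebraicClosure ℚ)) (hA : A.LiesOverPrime q)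
  (K₁ : IntermediateField ℚ (AlgebraicClosure ℚ)) (hfin : FiniteDimensional ℚ K₁)
  [Algebra ↥(descVal A K₁) (FK K₁ (M * q))]
  [IsScalarTower ↥(descVal A K₁) K₁ (FK K₁ (M * q))]
  (ϖ : ↥(descVal A K₁)) (hϖ : Irreducible ϖ)
  (t₀ : LaurentSeries ℚ) (ht₀ : IsBase (baseKind q) t₀)
  (t : FK K₁ (M * q)) (ht : (t : LaurentSeries K₁) = coeffEmb K₁ t₀)

include hq hqM hT hA hfin hϖ ht₀ ht in
/-- the two components of the chart `t` of level `M q` are incomparable. -/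
theorem comp_incomp (P₁ P₂ : Ideal (Chart ↥(descVal A K₁) t))
    (h1 : IsComp1 A K₁ t P₁) (h2 : IsComp2 hq hqM A K₁ t P₂) :
    (∃ y ∈ P₁, y ∉ P₂) ∧ (∃ y ∈ P₂, y ∉ P₁) := by
  haveI hqF : Fact q.Prime := ⟨hq⟩
  obtain ⟨hdvr, -, -⟩ := H4DVR.dvrStatement q A hA K₁ hfin
  haveI := hdvr
  obtain ⟨hperf, hcharp⟩ := H1S18.c7Perfect q A hA K₁
  haveI := hcharp
  have htr : Transcendental K₁ t := H22DA.base_transcendental M q hT K₁ t₀ ht₀ t ht
  have htrR : Transcendental ↥(descVal A K₁) t := H19S18.h19_transc ↥(descVal A K₁) K₁ htr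
  have hPG : ∀ x : FK K₁ (M * q), GInt ↥(descVal A K₁) ϖ t x ↔
      x ∈ H10FC.gaussVal (descVal A K₁) (M * q) ∧
        x ∈ H10FC.gaussVal2 M q hq hqM K₁ (descVal A K₁) :=
    fun x => (H8PB.h8pg_pairGauss M q hq hqM hT A hA K₁ hfin ϖ hϖ t₀ ht₀ t ht x).1
  have hm1 : ∀ y : Chart ↥(descVal A K₁) t, y ∈ P₁ ↔
      (H10FC.gaussVal (descVal A K₁) (M * q)).valuation (y : FK K₁ (M * q)) < 1 :=
    fun y => (h1 y).trans (H10FC.gaussVal_lt_one (descVal A K₁) (M * q) _).symm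
  have hm2 : ∀ y : Chart ↥(descVal A K₁) t, y ∈ P₂ ↔
      (H10FC.gaussVal2 M q hq hqM K₁ (descVal A K₁)).valuation (y : FK K₁ (M * q)) < 1 :=
    fun y => (h2 y).trans (H10FC.gaussVal2_lt_one M q hq hqM K₁ (descVal A K₁) _).symm
  obtain ⟨e, he1, he2, he3, he4⟩ := H10FC.gauss_comax M q hq hqM K₁ (descVal A K₁)
  have he5 : (H10FC.gaussVal2 M q hq hqM K₁ (descVal A K₁)).valuation e = 1 := by
    have h := Valuation.map_one_sub_of_lt
      (v := (H10FC.gaussVal2 M q hq hqM K₁ (descVal A K₁)).valuation) (x := 1 - e) he4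
    rw [sub_sub_cancel] at h
    exact h
  have he6 : (H10FC.gaussVal (descVal A K₁) (M * q)).valuation (1 - e) = 1 :=
    Valuation.map_one_sub_of_lt
      (v := (H10FC.gaussVal (descVal A K₁) (M * q)).valuation) he3
  have hV1 : ∀ x : FK K₁ (M * q), GInt ↥(descVal A K₁) ϖ t x →
      x ∈ H10FC.gaussVal (descVal A K₁) (M * q) := fun x hx => ((hPG x).mp hx).1
  have hV2 : ∀ x : FK K₁ (M * q), GInt ↥(descVal A K₁) ϖ t x →
      x ∈ H10FC.gaussVal2 M q hq hqM K₁ (descVal A K₁) := fun x hx => ((hPG x).mp hx).2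
  have hGe : GInt ↥(descVal A K₁) ϖ t e := (hPG e).mpr ⟨he1, he2⟩
  have hGe' : GInt ↥(descVal A K₁) ϖ t (1 - e) :=
    (hPG (1 - e)).mpr ⟨sub_mem (one_mem _) he1, sub_mem (one_mem _) he2⟩
  constructor
  · obtain ⟨y, hy1, hy2⟩ := sep_chart_dir ↥(descVal A K₁) hϖ htrR
      (H10FC.gaussVal (descVal A K₁) (M * q)) (H10FC.gaussVal2 M q hq hqM K₁ (descVal A K₁))
      hV1 hV2 e hGe he3 he5
    exact ⟨y, (hm1 y).mpr hy1, fun h => hy2 ((hm2 y).mp h)⟩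
  · obtain ⟨y, hy1, hy2⟩ := sep_chart_dir ↥(descVal A K₁) hϖ htrR
      (H10FC.gaussVal2 M q hq hqM K₁ (descVal A K₁)) (H10FC.gaussVal (descVal A K₁) (M * q))
      hV2 hV1 (1 - e) hGe' he4 he6
    exact ⟨y, (hm2 y).mpr hy1, fun h => hy2 ((hm1 y).mp h)⟩

include hq hqM hT hA hfin hϖ ht₀ ht in
/-- **(R1-END)**: two local generators (field form) at a closed point on both components
⟹ `TwoGenAt`, and both components are principal at `𝔫`. -/
theorem r1_end (P₁ P₂ : Ideal (Chart ↥(descVal A K₁) t))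
    (h1 : IsComp1 A K₁ t P₁) (h2 : IsComp2 hq hqM A K₁ t P₂)
    (𝔫 : Ideal (Chart ↥(descVal A K₁) t)) (h𝔫 : IsClosedPt ↥(descVal A K₁) ϖ t 𝔫)
    (hP1 : P₁ ≤ 𝔫) (hP2 : P₂ ≤ 𝔫)
    (hgen : ∃ g x : Chart ↥(descVal A K₁) t, g ∈ 𝔫 ∧ x ∈ 𝔫 ∧
      ∀ y ∈ 𝔫, ∃ s a c : Chart ↥(descVal A K₁) t, s ∉ 𝔫 ∧
        (s : FK K₁ (M * q)) * y = a * (g : FK K₁ (M * q)) + c * x) :
    H1R1.TwoGenAt (B := ↥(Chart ↥(descVal A K₁) t)) 𝔫 ∧
      H1R1.PrinAt (B := ↥(Chart ↥(descVal A K₁) t)) 𝔫 P₁ ∧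
      H1R1.PrinAt (B := ↥(Chart ↥(descVal A K₁) t)) 𝔫 P₂ := by
  haveI hqF : Fact q.Prime := ⟨hq⟩
  obtain ⟨hdvr, -, -⟩ := H4DVR.dvrStatement q A hA K₁ hfin
  haveI := hdvr
  have hi : baseKind q = 1 ∨ (baseKind q = 2 ∧ 2 ∣ M * q) ∨ (baseKind q = 3 ∧ 3 ∣ M * q) := by
    rcases h7_baseKind_ok hT with h | h | h
    · exact Or.inl h
    · exact Or.inr (Or.inl ⟨h.1, Dvd.dvd.mul_right h.2 q⟩)
    · exact Or.inr (Or.inr ⟨h.1, Dvd.dvd.mul_right h.2 q⟩)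
  obtain ⟨t₁, ht₁coe, ht₁tr, ht₁fin, -⟩ := H9C6e.fieldBasics (M * q) (baseKind q) hi t₀ ht₀ K₁
  have htt : t₁ = t := Subtype.ext (ht₁coe.trans ht.symm)
  rw [htt] at ht₁tr ht₁fin
  haveI := ht₁fin
  haveI hnoeth : IsNoetherianRing (Chart ↥(descVal A K₁) t) :=
    H21LR.chart_noeth ↥(descVal A K₁) K₁ ht₁tr
  haveI hfrac : IsFractionRing (Chart ↥(descVal A K₁) t) (FK K₁ (M * q)) :=
    H21LR.chart_isFractionRing ↥(descVal A K₁) K₁ ht₁tr
  have hTC := H22DA.twoComp H8PB.h8pg_pairGauss M q hq hqM hT A hA K₁ hfin ϖ hϖ t₀ ht₀ t ht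
    t (Or.inl rfl) P₁ P₂ h1 h2
  obtain ⟨⟨y₁, hy₁P, hy₁n⟩, ⟨y₂, hy₂P, hy₂n⟩⟩ :=
    comp_incomp M q hq hqM hT A hA K₁ hfin ϖ hϖ t₀ ht₀ t ht P₁ P₂ h1 h2
  obtain ⟨ϖc, hϖc⟩ := exists_chart_coe ↥(descVal A K₁) t ϖ
  have hϖ0 : algebraMap ↥(descVal A K₁) (FK K₁ (M * q)) ϖ ≠ 0 := by
    intro h0
    rw [IsScalarTower.algebraMap_apply ↥(descVal A K₁) K₁ (FK K₁ (M * q))] at h0
    have h2 : algebraMap ↥(descVal A K₁) K₁ ϖ = 0 :=
      (algebraMap K₁ (FK K₁ (M * q))).injective (by rw [h0, map_zero])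
    have h3 : ϖ = 0 := Subtype.ext (by simpa using h2)
    exact hϖ.ne_zero h3
  have hϖc0 : ϖc ≠ 0 := by
    intro h0
    apply hϖ0
    rw [← hϖc, h0]
    rfl
  have hPbot : ∀ P : Ideal (Chart ↥(descVal A K₁) t), ϖc ∈ P → P ≠ ⊥ := by
    intro P hP hbot
    rw [hbot, Ideal.mem_bot] at hP
    exact hϖc0 hP
  have hP1ne : P₁ ≠ 𝔫 := by
    intro h
    apply hy₂n
    rw [h]
    exact hP2 hy₂P
  have hP2ne : P₂ ≠ 𝔫 := by
    intro h
    apply hy₁n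
    rw [h]
    exact hP1 hy₁P
  obtain ⟨g, x, hg, hx, hgen'⟩ := hgen
  have hgenR := twoGen_ring ↥(descVal A K₁) t 𝔫 g x hgen'
  haveI h𝔫p : 𝔫.IsPrime := h𝔫.1.isPrime
  refine ⟨⟨g, x, hg, hx, hgenR⟩, ?_, ?_⟩
  · exact H5R1.principal_of_two_gen (FK K₁ (M * q)) 𝔫 P₁ hTC.prime1
      (hPbot P₁ (hTC.pi_mem ϖc hϖc).1) hP1 hP1ne g x hg hx hgenR
  · exact H5R1.principal_of_two_gen (FK K₁ (M * q)) 𝔫 P₂ hTC.prime2
      (hPbot P₂ (hTC.pi_mem ϖc hϖc).2) hP2 hP2ne g x hg hx hgenR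

end Concrete

end H22RE

end
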