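/-
helper22: item 86 (S36), LOC, leaf (R1-INST): `H22RE.endLeaf : H1R1.EndLeaf`
(the packaged form of `H22RE.r1_end`, for `H1R1.r1T_of_leaves`).
-/
import Mathlib
import Fermat.Agent.S36.R1End_helper22
import Fermat.Agent.S36.R1LeafDefs_helper1

set_option autoImplicit false
set_option synthInstance.maxHeartbeats 400000
set_option maxHeartbeats 4000000
set_option linter.unusedVariables false

noncomputable section

open ModularCurve H7S18 H4S34 H26DI

namespace H22RE

/-- **(R1-END)**, packaged. -/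
theorem endLeaf : H1R1.EndLeaf := by
  intro M _ q _ hq hqM hT A hA K₁ hfin _ _ ϖ hϖ t₀ ht₀ t ht P₁ P₂ h1 h2 𝔫 h𝔫 hP1 hP2 hgen
  exact r1_end M q hq hqM hT A hA K₁ hfin ϖ hϖ t₀ ht₀ t ht P₁ P₂ h1 h2 𝔫 h𝔫 hP1 hP2 hgen

end H22RE

end
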