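import Mathlib
import Fermat.Agent.S36.R1Defs_helper1
import Fermat.Agent.S34.WTransport_helper26

/-!
# Item 86 (S36), LOC, leaf (R1-INST), part (T3), generic half  (helper5)

`H1R1.TwoGenAt 𝔫`, `H1R1.PrinAt 𝔫 P` and `P ≤ 𝔫` (for `P = {y | v y < 1}` the centre of a
valuation ring `V ⊇ M₀`) only depend on the local ring `B_𝔫` (`H4S34.InLoc R c 𝔫`):

* `H5RI.inMax_congr`, `H5RI.twoGenAt_congr`, `H5RI.prinAt_congr`, `H5RI.comp_le_congr`.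
-/

set_option autoImplicit false
set_option synthInstance.maxHeartbeats 400000
set_option maxHeartbeats 1000000
set_option linter.unusedSectionVars false
set_option linter.unusedVariables false
set_option linter.style.haveILetI false
set_option linter.style.longLine false

noncomputable section

open H7S18 H4S34 H26WT

namespace H5RI

section Generic

variable {R : Type} [CommRing R] {E : Type} [Field E] [Algebra R E]
variable {c : E} (𝔫 : Ideal (Chart R c))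

theorem coe_ne_zero_of_notMem {s : Chart R c} (hs : s ∉ 𝔫) : (s : E) ≠ 0 := by
  intro h0
  apply hs
  have : s = 0 := Subtype.ext (by rw [h0]; rfl)
  rw [this]
  exact 𝔫.zero_mem

theorem inLoc_inv_coe {s : Chart R c} (hs : s ∉ 𝔫) : InLoc R c 𝔫 ((s : E)⁻¹) :=
  ⟨1, s, hs, by rw [mul_inv_cancel₀ (coe_ne_zero_of_notMem 𝔫 hs)]; rfl⟩

/-- the maximal ideal of `B_𝔫` in terms of `B_𝔫` -/
theorem inMax_iff (h𝔫 : 𝔫.IsPrime) (x : E) :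
    InMax c 𝔫 x ↔ InLoc R c 𝔫 x ∧ (x = 0 ∨ ¬ InLoc R c 𝔫 x⁻¹) := by
  constructor
  · intro h
    refine ⟨h.inLoc, ?_⟩
    by_cases hx0 : x = 0
    · exact Or.inl hx0
    · exact Or.inr (fun hinv => inMax_inv_absurd h𝔫 hx0 h hinv)
  · rintro ⟨hx, h0 | hninv⟩
    · rw [h0]
      exact inMax_zero h𝔫
    · by_contra hm
      exact hninv (inLoc_inv hx hm)

/-- `TwoGenAt` in terms of `B_𝔫` -/
theorem twoGenAt_field_iff (h𝔫 : 𝔫.IsPrime) :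
    H1R1.TwoGenAt 𝔫 ↔ ∃ g x : E, InMax c 𝔫 g ∧ InMax c 𝔫 x ∧
      ∀ y : E, InMax c 𝔫 y → ∃ a b : E, InLoc R c 𝔫 a ∧ InLoc R c 𝔫 b ∧ y = a * g + b * x := by
  constructor
  · rintro ⟨g, x, hg, hx, H⟩
    refine ⟨(g : E), (x : E), (inMax_coe_iff h𝔫 g).mpr hg, (inMax_coe_iff h𝔫 x).mpr hx, ?_⟩
    rintro y ⟨a₀, s₀, ha₀, hs₀, e⟩
    obtain ⟨s, a, b, hs, eq⟩ := H a₀ ha₀
    have hs0 : (s : E) ≠ 0 := coe_ne_zero_of_notMem 𝔫 hs
    have hs₀0 : (s₀ : E) ≠ 0 := coe_ne_zero_of_notMem 𝔫 hs₀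
    have hss : s * s₀ ∉ 𝔫 := fun h => (h𝔫.mem_or_mem h).elim hs hs₀
    have eqE : (s : E) * (a₀ : E) = (a : E) * (g : E) + (b : E) * (x : E) := by
      have := congrArg (fun z : Chart R c => (z : E)) eq
      simpa using this
    refine ⟨(a : E) * ((s : E) * (s₀ : E))⁻¹, (b : E) * ((s : E) * (s₀ : E))⁻¹,
      inLoc_mul h𝔫 (inLoc_coe h𝔫 a) (by simpa using inLoc_inv_coe 𝔫 hss),
      inLoc_mul h𝔫 (inLoc_coe h𝔫 b) (by simpa using inLoc_inv_coe 𝔫 hss), ?_⟩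
    have hy : y = (a₀ : E) * (s₀ : E)⁻¹ := by
      rw [← e, mul_comm (s₀ : E) y, mul_assoc, mul_inv_cancel₀ hs₀0, mul_one]
    have h1 : (a : E) * ((s : E) * (s₀ : E))⁻¹ * (g : E) +
        (b : E) * ((s : E) * (s₀ : E))⁻¹ * (x : E) =
        ((a : E) * (g : E) + (b : E) * (x : E)) * ((s : E) * (s₀ : E))⁻¹ := by ring
    rw [h1, ← eqE, hy, mul_inv, ← mul_assoc, mul_comm (s : E) (a₀ : E), mul_assoc (a₀ : E),
      mul_inv_cancel₀ hs0, mul_one]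
  · rintro ⟨g, x, ⟨g₁, s₁, hg₁, hs₁, e₁⟩, ⟨x₁, s₂, hx₁, hs₂, e₂⟩, H⟩
    have hs₁0 : (s₁ : E) ≠ 0 := coe_ne_zero_of_notMem 𝔫 hs₁
    have hs₂0 : (s₂ : E) ≠ 0 := coe_ne_zero_of_notMem 𝔫 hs₂
    refine ⟨g₁, x₁, hg₁, hx₁, ?_⟩
    intro y hy
    obtain ⟨a, b, ha, hb, eq⟩ := H (y : E) ((inMax_coe_iff h𝔫 y).mpr hy)
    obtain ⟨a', σ, hσ, eσ⟩ := inLoc_mul h𝔫 ha (inLoc_inv_coe 𝔫 hs₁)
    obtain ⟨b', τ, hτ, eτ⟩ := inLoc_mul h𝔫 hb (inLoc_inv_coe 𝔫 hs₂)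
    refine ⟨σ * τ, τ * a', σ * b', fun h => (h𝔫.mem_or_mem h).elim hσ hτ, ?_⟩
    apply Subtype.ext
    push_cast
    rw [← eσ, ← eτ, ← e₁, ← e₂, eq]
    field_simp

variable (V : ValuationSubring E)

theorem val_mul_lt_one {s x : E} (hs : s ∈ V) (hx : V.valuation x < 1) :
    V.valuation (s * x) < 1 := by
  rw [map_mul]
  have h1 : V.valuation s ≤ 1 := (V.valuation_le_one_iff s).2 hs
  calc V.valuation s * V.valuation x ≤ 1 * V.valuation x := mul_le_mul' h1 le_rfl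
    _ = V.valuation x := one_mul _
    _ < 1 := hx

/-- `PrinAt` in terms of `B_𝔫` and `V` -/
theorem prinAt_field_iff (h𝔫 : 𝔫.IsPrime) (hV : ∀ y : Chart R c, (y : E) ∈ V)
    (P : Ideal (Chart R c)) (hP : ∀ y : Chart R c, y ∈ P ↔ V.valuation (y : E) < 1) :
    H1R1.PrinAt 𝔫 P ↔ ∃ x : E, x ≠ 0 ∧ InLoc R c 𝔫 x ∧ V.valuation x < 1 ∧
      ∀ y : E, InLoc R c 𝔫 y → V.valuation y < 1 → ∃ a : E, InLoc R c 𝔫 a ∧ y = a * x := by
  constructor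
  · rintro ⟨x, hx0, hxP, H⟩
    have hxE : (x : E) ≠ 0 := fun h0 => hx0 (Subtype.ext (by rw [h0]; rfl))
    refine ⟨(x : E), hxE, inLoc_coe h𝔫 x, (hP x).1 hxP, ?_⟩
    rintro y ⟨a, s, hs, e⟩ hvy
    have haP : a ∈ P := by
      rw [hP, ← e]
      exact val_mul_lt_one V (hV s) hvy
    obtain ⟨s', c', hs', eq⟩ := H a haP
    have hs0 : (s : E) ≠ 0 := coe_ne_zero_of_notMem 𝔫 hs
    have hs'0 : (s' : E) ≠ 0 := coe_ne_zero_of_notMem 𝔫 hs'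
    have hss : s' * s ∉ 𝔫 := fun h => (h𝔫.mem_or_mem h).elim hs' hs
    have eqE : (s' : E) * (a : E) = (c' : E) * (x : E) := by
      have := congrArg (fun z : Chart R c => (z : E)) eq
      simpa using this
    refine ⟨(c' : E) * ((s' : E) * (s : E))⁻¹,
      inLoc_mul h𝔫 (inLoc_coe h𝔫 c') (by simpa using inLoc_inv_coe 𝔫 hss), ?_⟩
    have hy : y = (a : E) * (s : E)⁻¹ := by
      rw [← e, mul_comm (s : E) y, mul_assoc, mul_inv_cancel₀ hs0, mul_one]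
    have h1 : (c' : E) * ((s' : E) * (s : E))⁻¹ * (x : E) =
        ((c' : E) * (x : E)) * ((s' : E) * (s : E))⁻¹ := by ring
    rw [h1, ← eqE, hy, mul_inv, ← mul_assoc, mul_comm (s' : E) (a : E), mul_assoc (a : E),
      mul_inv_cancel₀ hs'0, mul_one]
  · rintro ⟨x, hx0, ⟨a, s, hs, e⟩, hvx, H⟩
    have hs0 : (s : E) ≠ 0 := coe_ne_zero_of_notMem 𝔫 hs
    have haP : a ∈ P := by
      rw [hP, ← e]
      exact val_mul_lt_one V (hV s) hvx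
    have ha0 : a ≠ 0 := by
      intro h0
      rw [h0] at e
      have : (s : E) * x = 0 := by rw [e]; rfl
      rcases mul_eq_zero.1 this with h | h
      · exact hs0 h
      · exact hx0 h
    refine ⟨a, ha0, haP, ?_⟩
    intro y hy
    obtain ⟨c₁, hc₁, ey⟩ := H (y : E) (inLoc_coe h𝔫 y) ((hP y).1 hy)
    obtain ⟨c', σ, hσ, eσ⟩ := inLoc_mul h𝔫 hc₁ (inLoc_inv_coe 𝔫 hs)
    refine ⟨σ, c', hσ, ?_⟩
    apply Subtype.ext
    push_cast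
    rw [← eσ, ← e, ey]
    field_simp

/-- `P ≤ 𝔫` in terms of `B_𝔫` and `V` -/
theorem comp_le_field_iff (h𝔫 : 𝔫.IsPrime) (hV : ∀ y : Chart R c, (y : E) ∈ V)
    (P : Ideal (Chart R c)) (hP : ∀ y : Chart R c, y ∈ P ↔ V.valuation (y : E) < 1) :
    P ≤ 𝔫 ↔ ∀ x : E, InLoc R c 𝔫 x → V.valuation x < 1 → InMax c 𝔫 x := by
  constructor
  · rintro hle x ⟨a, s, hs, e⟩ hvx
    have haP : a ∈ P := by
      rw [hP, ← e]
      exact val_mul_lt_one V (hV s) hvx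
    exact ⟨a, s, hle haP, hs, e⟩
  · intro H y hy
    exact (inMax_coe_iff h𝔫 y).mp (H (y : E) (inLoc_coe h𝔫 y) ((hP y).1 hy))

end Generic

section Congr

variable {R : Type} [CommRing R] {E : Type} [Field E] [Algebra R E]
variable {c c' : E} (𝔫 : Ideal (Chart R c)) (𝔫' : Ideal (Chart R c'))

theorem inMax_congr (h𝔫 : 𝔫.IsPrime) (h𝔫' : 𝔫'.IsPrime)
    (hiff : ∀ x : E, InLoc R c 𝔫 x ↔ InLoc R c' 𝔫' x) (x : E) :
    InMax c 𝔫 x ↔ InMax c' 𝔫' x := by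
  rw [inMax_iff 𝔫 h𝔫, inMax_iff 𝔫' h𝔫', hiff x, hiff x⁻¹]

/-- `TwoGenAt` only depends on the local ring. -/
theorem twoGenAt_congr (h𝔫 : 𝔫.IsPrime) (h𝔫' : 𝔫'.IsPrime)
    (hiff : ∀ x : E, InLoc R c 𝔫 x ↔ InLoc R c' 𝔫' x) :
    H1R1.TwoGenAt 𝔫 ↔ H1R1.TwoGenAt 𝔫' := by
  rw [twoGenAt_field_iff 𝔫 h𝔫, twoGenAt_field_iff 𝔫' h𝔫']
  simp only [inMax_congr 𝔫 𝔫' h𝔫 h𝔫' hiff, hiff]

/-- `PrinAt` for the centre of a valuation ring only depends on the local ring. -/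
theorem prinAt_congr (h𝔫 : 𝔫.IsPrime) (h𝔫' : 𝔫'.IsPrime)
    (hiff : ∀ x : E, InLoc R c 𝔫 x ↔ InLoc R c' 𝔫' x)
    (V : ValuationSubring E) (hV : ∀ y : Chart R c, (y : E) ∈ V)
    (hV' : ∀ y : Chart R c', (y : E) ∈ V)
    (P : Ideal (Chart R c)) (hP : ∀ y : Chart R c, y ∈ P ↔ V.valuation (y : E) < 1)
    (P' : Ideal (Chart R c')) (hP' : ∀ y : Chart R c', y ∈ P' ↔ V.valuation (y : E) < 1) :
    H1R1.PrinAt 𝔫 P ↔ H1R1.PrinAt 𝔫' P' := by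
  rw [prinAt_field_iff 𝔫 V h𝔫 hV P hP, prinAt_field_iff 𝔫' V h𝔫' hV' P' hP']
  simp only [hiff]

/-- `P ≤ 𝔫` for the centre of a valuation ring only depends on the local ring. -/
theorem comp_le_congr (h𝔫 : 𝔫.IsPrime) (h𝔫' : 𝔫'.IsPrime)
    (hiff : ∀ x : E, InLoc R c 𝔫 x ↔ InLoc R c' 𝔫' x)
    (V : ValuationSubring E) (hV : ∀ y : Chart R c, (y : E) ∈ V)
    (hV' : ∀ y : Chart R c', (y : E) ∈ V)
    (P : Ideal (Chart R c)) (hP : ∀ y : Chart R c, y ∈ P ↔ V.valuation (y : E) < 1)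
    (P' : Ideal (Chart R c')) (hP' : ∀ y : Chart R c', y ∈ P' ↔ V.valuation (y : E) < 1) :
    P ≤ 𝔫 ↔ P' ≤ 𝔫' := by
  rw [comp_le_field_iff 𝔫 V h𝔫 hV P hP, comp_le_field_iff 𝔫' V h𝔫' hV' P' hP']
  simp only [inMax_congr 𝔫 𝔫' h𝔫 h𝔫' hiff, hiff]

end Congr

end H5RI

end
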