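import Mathlib
import Fermat.Agent.S36.R1InvGen_helper5
import Fermat.Agent.S36.R1Leaves_helper1
import Fermat.Agent.S34.CuspInf_helper7
import Fermat.Agent.S34.ChartChange_helper20
import Fermat.Agent.S35.FWComp_helper10

/-!
# Item 86 (S36), LOC, leaf (R1-INST), part (T3)  (helper5)

`H5RI.r1_inv : H1R1.R1TStatement → H1R1.R1NodeStatement`: the chart `c = t⁻¹` of (R1).

* a closed point `𝔫` of the chart `t⁻¹` with `t⁻¹ ∈ 𝔫` does not lie on both components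
  (`H5RI.cusp_inf`, = `H7C0.compCusp_of` for ANY number field `K₁`, no normality);
* a closed point `𝔫` of the chart `t⁻¹` with `t⁻¹ ∉ 𝔫` is a closed point `𝔫₀` of the chart `t`
  with the same local ring (`H20CC.h20cc_chartChange`); `TwoGenAt`, `PrinAt`, `P_i ≤ 𝔫` only
  depend on the local ring (`S36/R1InvGen_helper5.lean`).
-/

set_option autoImplicit false
set_option synthInstance.maxHeartbeats 400000
set_option maxHeartbeats 1000000
set_option linter.unusedSectionVars false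
set_option linter.unusedVariables false
set_option linter.style.haveILetI false
set_option linter.style.longLine false

noncomputable section

open Polynomial IntermediateField ModularCurve H7S18 H4S34 H26DI H28GV

namespace H5RI

section Concrete

variable (M : ℕ) [NeZero M] (q : ℕ) [NeZero q] (hq : q.Prime) (hqM : ¬ q ∣ M)
  (hT : TameLevel q M)
  (A : ValuationSubring (AlgebraicClosure ℚ)) (hA : A.LiesOverPrime q)
  (K₁ : IntermediateField ℚ (AlgebraicClosure ℚ)) (hfin : FiniteDimensional ℚ K₁)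
  [Algebra ↥(descVal A K₁) (FK K₁ (M * q))]
  [IsScalarTower ↥(descVal A K₁) K₁ (FK K₁ (M * q))]
  (ϖ : ↥(descVal A K₁)) (hϖ : Irreducible ϖ)
  (t₀ : LaurentSeries ℚ) (ht₀ : IsBase (baseKind q) t₀)
  (t : FK K₁ (M * q)) (ht : (t : LaurentSeries K₁) = coeffEmb K₁ t₀)

include hq hqM hT hA hfin hϖ ht₀ ht in
/-- **cusp separation at `∞`**, for any number field `K₁`. -/
theorem cusp_inf (P₁ P₂ : Ideal (Chart ↥(descVal A K₁) t⁻¹)) (h1 : IsComp1 A K₁ t⁻¹ P₁)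
    (h2 : IsComp2 hq hqM A K₁ t⁻¹ P₂)
    (𝔫 : Ideal (Chart ↥(descVal A K₁) t⁻¹)) (hprime : 𝔫.IsPrime)
    (hu : H7C0.uC M q A K₁ t ∈ 𝔫) : ¬ (P₁ ≤ 𝔫 ∧ P₂ ≤ 𝔫) := by
  have hPG := H8PB.h8pg_pairGauss
  have hne : 𝔫 ≠ ⊤ := hprime.ne_top
  have htr : Transcendental K₁ t := H22DA.base_transcendental M q hT K₁ t₀ ht₀ t ht
  have ht0 : t ≠ 0 := by
    rintro rfl
    exact htr (isAlgebraic_zero)
  refine H7C0.cusp_core hPG M q hq hqM hT A hA K₁ hfin ϖ hϖ t₀ ht₀ t ht t⁻¹ (Or.inr rfl) P₁ P₂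
    h1 h2 𝔫 hprime ?_
  by_cases hq2 : q = 2
  · -- kind `3`
    have hk : baseKind q = 3 := by rw [hq2]; rfl
    rw [hk] at ht₀
    have key : H10FC.jF M q K₁ * t ^ 3 = (t + 27) * (t + 243) ^ 3 := by
      apply Subtype.ext
      show jqModC K₁ * (t : LaurentSeries K₁) ^ 3 =
        ((t : LaurentSeries K₁) + ((27 : FK K₁ (M * q)) : LaurentSeries K₁)) *
          ((t : LaurentSeries K₁) + ((243 : FK K₁ (M * q)) : LaurentSeries K₁)) ^ 3
      rw [ht]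
      exact H7C0.j_mul_cube K₁ t₀ ht₀
    refine ⟨H7C0.uC M q A K₁ t,
      (1 + ((27 : ℕ) : Chart ↥(descVal A K₁) t⁻¹) * H7C0.uC M q A K₁ t) *
        (1 + ((243 : ℕ) : Chart ↥(descVal A K₁) t⁻¹) * H7C0.uC M q A K₁ t) ^ 3, ?_, hu, ?_⟩
    · intro hs
      rcases hprime.mem_or_mem hs with h | h
      · exact H7C0.one_add_notMem M q A K₁ t 𝔫 hne hu 27 h
      · exact H7C0.one_add_notMem M q A K₁ t 𝔫 hne hu 243 (hprime.mem_of_pow_mem 3 h)
    · show H10FC.jF M q K₁ * t⁻¹ = (1 + ((27 : ℕ) : FK K₁ (M * q)) * t⁻¹) *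
        (1 + ((243 : ℕ) : FK K₁ (M * q)) * t⁻¹) ^ 3
      have h3 : H10FC.jF M q K₁ = (t + 27) * (t + 243) ^ 3 / t ^ 3 := by
        rw [eq_div_iff (pow_ne_zero 3 ht0)]
        exact key
      rw [h3]
      push_cast
      field_simp
  · by_cases hq3 : q = 3
    · -- kind `2`
      have hk : baseKind q = 2 := by rw [hq3]; rfl
      rw [hk] at ht₀
      have key : H10FC.jF M q K₁ * t ^ 2 = (t + 256) ^ 3 := by
        apply Subtype.ext
        show jqModC K₁ * (t : LaurentSeries K₁) ^ 2 =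
          ((t : LaurentSeries K₁) + ((256 : FK K₁ (M * q)) : LaurentSeries K₁)) ^ 3
        rw [ht]
        exact H7C0.j_mul_sq K₁ t₀ ht₀
      refine ⟨H7C0.uC M q A K₁ t,
        (1 + ((256 : ℕ) : Chart ↥(descVal A K₁) t⁻¹) * H7C0.uC M q A K₁ t) ^ 3, ?_, hu, ?_⟩
      · intro hs
        exact H7C0.one_add_notMem M q A K₁ t 𝔫 hne hu 256 (hprime.mem_of_pow_mem 3 hs)
      · show H10FC.jF M q K₁ * t⁻¹ = (1 + ((256 : ℕ) : FK K₁ (M * q)) * t⁻¹) ^ 3
        have h3 : H10FC.jF M q K₁ = (t + 256) ^ 3 / t ^ 2 := by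
          rw [eq_div_iff (pow_ne_zero 2 ht0)]
          exact key
        rw [h3]
        push_cast
        field_simp
    · -- kind `1`
      have hk : baseKind q = 1 := by
        unfold baseKind
        rw [if_neg hq2, if_neg hq3]
      rw [hk] at ht₀
      have htj : t = H10FC.jF M q K₁ := by
        apply Subtype.ext
        rw [ht, H4BR.eq_jq_of_isBase ht₀, gv_coeffEmb_jq]
        rfl
      refine ⟨H7C0.uC M q A K₁ t, 1, ?_, hu, ?_⟩
      · intro h1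
        exact hne ((Ideal.eq_top_iff_one 𝔫).mpr h1)
      · show H10FC.jF M q K₁ * t⁻¹ = 1
        rw [← htj]
        exact mul_inv_cancel₀ ht0

include hq hqM hT hA hfin hϖ ht₀ ht in
/-- both charts lie in both Gauss valuation rings -/
theorem chart_mem_gauss [IsDiscreteValuationRing ↥(descVal A K₁)]
    (c : FK K₁ (M * q)) (hc : c = t ∨ c = t⁻¹)
    (y : Chart ↥(descVal A K₁) c) :
    (y : FK K₁ (M * q)) ∈ H10FC.gaussVal (descVal A K₁) (M * q) ∧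
      (y : FK K₁ (M * q)) ∈ H10FC.gaussVal2 M q hq hqM K₁ (descVal A K₁) := by
  have hPG := H8PB.h8pg_pairGauss
  have htr : Transcendental K₁ t := H22DA.base_transcendental M q hT K₁ t₀ ht₀ t ht
  have htrR : Transcendental ↥(descVal A K₁) t := H19S18.h19_transc ↥(descVal A K₁) K₁ htr
  have htr' : Transcendental K₁ t⁻¹ := H19S18.h19_transc_inv K₁ htr
  have htrR' : Transcendental ↥(descVal A K₁) t⁻¹ :=
    H19S18.h19_transc ↥(descVal A K₁) K₁ htr'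
  have hPG' := hPG M q hq hqM hT A hA K₁ hfin ϖ hϖ t₀ ht₀ t ht
  have hint : GInt ↥(descVal A K₁) ϖ t (y : FK K₁ (M * q)) := by
    rcases hc with rfl | rfl
    · exact H19S18.h19_gint_of_isInt ↥(descVal A K₁) htrR hϖ y.2
    · exact H19S18.h19_gint_of_isInt_inv ↥(descVal A K₁) htrR htrR' hϖ y.2
  exact ⟨((hPG' y).1.mp hint).1, ((hPG' y).1.mp hint).2⟩

end Concrete

/-- **(R1), chart `t⁻¹`**: (R1) at the closed points of the chart `t` gives (R1) at the closed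
points of both charts. -/
theorem r1_inv (h : H1R1.R1TStatement) : H1R1.R1NodeStatement := by
  intro M _ q _ hq hqM hT hRig A hA K₁ hfin hζ γ hγ1 hγ2 hγ3 _ _ ϖ hϖ hass t₀ ht₀ t ht c hc
    P₁ P₂ h1 h2 𝔫 h𝔫 hP1 hP2
  rcases hc with rfl | rfl
  · exact h M q hq hqM hT hRig A hA K₁ hfin hζ γ hγ1 hγ2 hγ3 ϖ hϖ hass t₀ ht₀ c ht P₁ P₂ h1 h2
      𝔫 h𝔫 hP1 hP2
  · haveI : Fact q.Prime := ⟨hq⟩
    obtain ⟨hdvr, -, -⟩ := H4DVR.dvrStatement q A hA K₁ hfin
    haveI := hdvr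
    have hprime : 𝔫.IsPrime := h𝔫.1.isPrime
    by_cases hu : H7C0.uC M q A K₁ t ∈ 𝔫
    · exact absurd ⟨hP1, hP2⟩
        (cusp_inf M q hq hqM hT A hA K₁ hfin ϖ hϖ t₀ ht₀ t ht P₁ P₂ h1 h2 𝔫 hprime hu)
    · have htr : Transcendental K₁ t := H22DA.base_transcendental M q hT K₁ t₀ ht₀ t ht
      have hfinF : FiniteDimensional K₁⟮t⟯ (FK K₁ (M * q)) :=
        H7C0.finite_chart M q hT K₁ t₀ ht₀ t ht t (Or.inl rfl)
      obtain ⟨𝔫₀, h𝔫₀, hiff⟩ := H20CC.h20cc_chartChange ↥(descVal A K₁) K₁ (FK K₁ (M * q))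
        ϖ hϖ t htr hfinF 𝔫 h𝔫 ⟨H7C0.uC M q A K₁ t, rfl, hu⟩
      have hprime₀ : 𝔫₀.IsPrime := h𝔫₀.1.isPrime
      obtain ⟨P₁', P₂', h1', h2'⟩ := H22DA.exists_comp H8PB.h8pg_pairGauss M q hq hqM hT A hA K₁
        hfin ϖ hϖ t₀ ht₀ t ht t (Or.inl rfl)
      -- the two valuation rings
      have hV₀ := chart_mem_gauss M q hq hqM hT A hA K₁ hfin ϖ hϖ t₀ ht₀ t ht t (Or.inl rfl)
      have hV := chart_mem_gauss M q hq hqM hT A hA K₁ hfin ϖ hϖ t₀ ht₀ t ht t⁻¹ (Or.inr rfl)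
      have e1 : ∀ y : Chart ↥(descVal A K₁) t⁻¹, y ∈ P₁ ↔
          (H10FC.gaussVal (descVal A K₁) (M * q)).valuation (y : FK K₁ (M * q)) < 1 :=
        fun y => (h1 y).trans (H10FC.gaussVal_lt_one (descVal A K₁) (M * q) _).symm
      have e1' : ∀ y : Chart ↥(descVal A K₁) t, y ∈ P₁' ↔
          (H10FC.gaussVal (descVal A K₁) (M * q)).valuation (y : FK K₁ (M * q)) < 1 :=
        fun y => (h1' y).trans (H10FC.gaussVal_lt_one (descVal A K₁) (M * q) _).symm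
      have e2 : ∀ y : Chart ↥(descVal A K₁) t⁻¹, y ∈ P₂ ↔
          (H10FC.gaussVal2 M q hq hqM K₁ (descVal A K₁)).valuation (y : FK K₁ (M * q)) < 1 :=
        fun y => (h2 y).trans (H10FC.gaussVal2_lt_one M q hq hqM K₁ (descVal A K₁) _).symm
      have e2' : ∀ y : Chart ↥(descVal A K₁) t, y ∈ P₂' ↔
          (H10FC.gaussVal2 M q hq hqM K₁ (descVal A K₁)).valuation (y : FK K₁ (M * q)) < 1 :=
        fun y => (h2' y).trans (H10FC.gaussVal2_lt_one M q hq hqM K₁ (descVal A K₁) _).symm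
      have hP1' : P₁' ≤ 𝔫₀ :=
        (comp_le_congr 𝔫₀ 𝔫 hprime₀ hprime hiff _ (fun y => (hV₀ y).1) (fun y => (hV y).1)
          P₁' e1' P₁ e1).2 hP1
      have hP2' : P₂' ≤ 𝔫₀ :=
        (comp_le_congr 𝔫₀ 𝔫 hprime₀ hprime hiff _ (fun y => (hV₀ y).2) (fun y => (hV y).2)
          P₂' e2' P₂ e2).2 hP2
      obtain ⟨r1, r2, r3⟩ := h M q hq hqM hT hRig A hA K₁ hfin hζ γ hγ1 hγ2 hγ3 ϖ hϖ hass t₀ ht₀
        t ht P₁' P₂' h1' h2' 𝔫₀ h𝔫₀ hP1' hP2'
      exact ⟨(twoGenAt_congr 𝔫₀ 𝔫 hprime₀ hprime hiff).1 r1,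
        (prinAt_congr 𝔫₀ 𝔫 hprime₀ hprime hiff _ (fun y => (hV₀ y).1) (fun y => (hV y).1)
          P₁' e1' P₁ e1).1 r2,
        (prinAt_congr 𝔫₀ 𝔫 hprime₀ hprime hiff _ (fun y => (hV₀ y).2) (fun y => (hV y).2)
          P₂' e2' P₂ e2).1 r3⟩

end H5RI

end
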