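/-
helper16: item 86 (S36), LOC, (R1-NC): the leaf `H1R1.NCLeaf` of helper1's (R1) assembly
(`S36/R1LeafDefs_helper1.lean`): at the image `𝔫₀` (chart `tM` of level `M`) of a common point
`𝔫` of the two components of the chart `t` of level `M q`, the function `j` is finite.

* kind `1` (`q ≥ 5`): `tM = j`;
* kind `2` (`q = 3`): `j tM² = (tM + 256)³`, kind `3` (`q = 2`): `j tM³ = (tM + 27)(tM + 243)³`
  (`H7C0.j_mul_sq`, `H7C0.j_mul_cube`), and `tM ∉ 𝔫₀` because `t ∉ 𝔫`
  (`H4S34.t_notMem_of_cusp0 H7C0.compCusp0Statement`).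

`H16NC.ncLeaf : H1R1.NCLeaf`.
-/
import Mathlib
import Fermat.Agent.S36.R1LeafDefs_helper1
import Fermat.Agent.S34.Cusp0_helper7

set_option autoImplicit false
set_option linter.unusedSectionVars false
set_option linter.unusedVariables false
set_option linter.style.haveILetI false
set_option linter.style.longLine false
set_option synthInstance.maxHeartbeats 400000
set_option maxHeartbeats 1000000

noncomputable section

open Polynomial IntermediateField ModularCurve H7S18 H4S34 H26DI H28GV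

namespace H16NC

section elem

variable (R : Type) [CommRing R] {E : Type} [Field E] [Algebra R E]

/-- the element `t` of the chart ring of `t` -/
def tCh (t : E) : Chart R t :=
  ⟨t, (isIntegral_algebraMap : IsIntegral (Algebra.adjoin R {t})
    (algebraMap (Algebra.adjoin R {t}) E ⟨t, Algebra.subset_adjoin (Set.mem_singleton t)⟩))⟩

theorem coe_tCh (t : E) : ((tCh R t : Chart R t) : E) = t := rfl

end elem

/-- **(R1-NC)**: the image of a common point is not a cusp. -/
theorem ncLeaf : H1R1.NCLeaf := by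
  intro M _ q _ hq hqM hT A hA K₁ hfin _ _ _ _ ϖ hϖ t₀ ht₀ tM htM t ht P₁ P₂ h1 h2 𝔫₀ h𝔫₀ 𝔫 h𝔫
    hab hP₁ hP₂
  have hprime : 𝔫₀.IsPrime := h𝔫₀.1.isPrime
  have hne : 𝔫₀ ≠ ⊤ := hprime.ne_top
  -- `α tM = t`
  have hαt : heckeAlphaBar ↥K₁ M q tM = t := by
    apply Subtype.ext
    rw [coe_heckeAlphaBar, htM, ht]
  by_cases h23 : q = 2 ∨ q = 3
  · -- `tM ∉ 𝔫₀`
    have htn : ∀ y : Chart ↥(descVal A K₁) t, (y : FK K₁ (M * q)) = t → y ∉ 𝔫 :=
      H4S34.t_notMem_of_cusp0 H7C0.compCusp0Statement M q hq hqM hT h23 A hA K₁ hfin ϖ hϖ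
        t₀ ht₀ t ht P₁ P₂ h1 h2 𝔫 h𝔫 hP₁ hP₂
    have htM0 : tCh ↥(descVal A K₁) tM ∉ 𝔫₀ := by
      intro hmem
      refine htn (tCh ↥(descVal A K₁) t) rfl ?_
      exact hab _ hmem (tCh ↥(descVal A K₁) t) (by rw [coe_tCh, coe_tCh, hαt])
    rcases h23 with h2' | h3'
    · -- `q = 2`, kind `3`
      have hk : baseKind q = 3 := by rw [h2']; rfl
      rw [hk] at ht₀
      have key : jqModC K₁ * (tM : LaurentSeries K₁) ^ 3 =
          ((tM : LaurentSeries K₁) + 27) * ((tM : LaurentSeries K₁) + 243) ^ 3 := by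
        rw [htM]
        exact H7C0.j_mul_cube K₁ t₀ ht₀
      refine ⟨(tCh ↥(descVal A K₁) tM + ((27 : ℕ) : Chart ↥(descVal A K₁) tM)) *
          (tCh ↥(descVal A K₁) tM + ((243 : ℕ) : Chart ↥(descVal A K₁) tM)) ^ 3,
        tCh ↥(descVal A K₁) tM ^ 3, ?_, ?_⟩
      · intro hs
        exact htM0 (hprime.mem_of_pow_mem 3 hs)
      · apply Subtype.ext
        have e1 : ((((tCh ↥(descVal A K₁) tM ^ 3 : Chart ↥(descVal A K₁) tM) : FK K₁ M) *
            H9C6e.JK ↥K₁ M : FK K₁ M) : LaurentSeries K₁) =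
            (tM : LaurentSeries K₁) ^ 3 * jqModC K₁ := by
          have := H9C6e.coe_JK ↥K₁ M
          rw [← this]
          rfl
        have e2 : ((((tCh ↥(descVal A K₁) tM + ((27 : ℕ) : Chart ↥(descVal A K₁) tM)) *
            (tCh ↥(descVal A K₁) tM + ((243 : ℕ) : Chart ↥(descVal A K₁) tM)) ^ 3 :
            Chart ↥(descVal A K₁) tM) : FK K₁ M) : LaurentSeries K₁) =
            ((tM : LaurentSeries K₁) + ((27 : ℕ) : LaurentSeries K₁)) *
              ((tM : LaurentSeries K₁) + ((243 : ℕ) : LaurentSeries K₁)) ^ 3 := rfl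
        rw [e1, e2, mul_comm, key]
        norm_num
    · -- `q = 3`, kind `2`
      have hk : baseKind q = 2 := by rw [h3']; rfl
      rw [hk] at ht₀
      have key : jqModC K₁ * (tM : LaurentSeries K₁) ^ 2 =
          ((tM : LaurentSeries K₁) + 256) ^ 3 := by
        rw [htM]
        exact H7C0.j_mul_sq K₁ t₀ ht₀
      refine ⟨(tCh ↥(descVal A K₁) tM + ((256 : ℕ) : Chart ↥(descVal A K₁) tM)) ^ 3,
        tCh ↥(descVal A K₁) tM ^ 2, ?_, ?_⟩
      · intro hs
        exact htM0 (hprime.mem_of_pow_mem 2 hs)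
      · apply Subtype.ext
        have e1 : ((((tCh ↥(descVal A K₁) tM ^ 2 : Chart ↥(descVal A K₁) tM) : FK K₁ M) *
            H9C6e.JK ↥K₁ M : FK K₁ M) : LaurentSeries K₁) =
            (tM : LaurentSeries K₁) ^ 2 * jqModC K₁ := by
          have := H9C6e.coe_JK ↥K₁ M
          rw [← this]
          rfl
        have e2 : ((((tCh ↥(descVal A K₁) tM + ((256 : ℕ) : Chart ↥(descVal A K₁) tM)) ^ 3 :
            Chart ↥(descVal A K₁) tM) : FK K₁ M) : LaurentSeries K₁) =
            ((tM : LaurentSeries K₁) + ((256 : ℕ) : LaurentSeries K₁)) ^ 3 := rfl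
        rw [e1, e2, mul_comm, key]
        norm_num
  · -- kind `1`: `tM = j`
    have hk : baseKind q = 1 := by
      unfold baseKind
      rw [if_neg (fun h => h23 (Or.inl h)), if_neg (fun h => h23 (Or.inr h))]
    rw [hk] at ht₀
    have hj : t₀ = jq := by
      rcases ht₀ with ⟨-, h⟩ | ⟨h, -⟩ | ⟨h, -⟩
      · exact h
      · exact absurd h (by norm_num)
      · exact absurd h (by norm_num)
    have hJ : H9C6e.JK ↥K₁ M = tM := by
      apply Subtype.ext
      rw [htM, hj]
      rfl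
    refine ⟨tCh ↥(descVal A K₁) tM, 1, ?_, ?_⟩
    · intro h1'
      exact hne ((Ideal.eq_top_iff_one 𝔫₀).mpr h1')
    · rw [hJ, coe_tCh]
      show ((1 : Chart ↥(descVal A K₁) tM) : FK K₁ M) * tM = tM
      rw [show ((1 : Chart ↥(descVal A K₁) tM) : FK K₁ M) = 1 from rfl, one_mul]

end H16NC

end
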