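import Mathlib
import Fermat.Agent.S36.R1Core_helper26
import Fermat.Agent.S36.DiscR1Shape_helper21
import Fermat.Agent.S36.DiscIntR1_helper21
import Fermat.Agent.S36.LocEL_helper5
import Fermat.Agent.S36.R1NC_helper16
import Fermat.Agent.S36.R1EndLeaf_helper22
import Fermat.Agent.S36.R1Inv_helper5

/-!
# Item 86 (S36), LOC, leaf (R1-INST), third assembly (helper26): `R1TStatement`

* `H26R1.r1T_of_leaves : H1R1.NCLeaf → H1R1.EndLeaf → H1R1.R1TStatement`;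
* `H26R1.r1T : H1R1.R1TStatement`, `H26R1.r1Node : H1R1.R1NodeStatement`.
-/

set_option autoImplicit false
set_option linter.unusedSectionVars false
set_option linter.unusedVariables false
set_option linter.style.haveILetI false
set_option linter.style.longLine false
set_option synthInstance.maxHeartbeats 400000
set_option maxHeartbeats 8000000

noncomputable section

open Polynomial IntermediateField AlgebraicCurve ModularCurve H7S18 H4S34 H26DI

namespace H26R1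

local notation "Qb" => AlgebraicClosure ℚ

/-- `q` lies in the maximal ideal of `descVal A K₁`. -/
theorem liesOver_descVal (q : ℕ) (A : ValuationSubring Qb) (K₁ : IntermediateField ℚ Qb)
    (hnu : ¬ IsUnit ((q : ℕ) : ↥(descVal A K₁))) : (descVal A K₁).LiesOverPrime q := by
  show ((q : ℕ) : ↥K₁) ∈ (descVal A K₁).nonunits
  rw [ValuationSubring.mem_nonunits_iff_exists_mem_maximalIdeal]
  have hq' : ((q : ℕ) : ↥K₁) = (((q : ℕ) : ↥(descVal A K₁)) : ↥K₁) := by simp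
  have hmem : ((q : ℕ) : ↥K₁) ∈ descVal A K₁ := by
    rw [hq']
    exact ((q : ℕ) : ↥(descVal A K₁)).2
  refine ⟨hmem, ?_⟩
  have e1 : (⟨((q : ℕ) : ↥K₁), hmem⟩ : ↥(descVal A K₁)) = ((q : ℕ) : ↥(descVal A K₁)) :=
    Subtype.ext hq'
  rw [e1, IsLocalRing.mem_maximalIdeal, mem_nonunits_iff]
  exact hnu

/-- **(R1), chart `t`**, from the two leaves. -/
theorem r1T_of_leaves (hNC : H1R1.NCLeaf) (hEnd : H1R1.EndLeaf) : H1R1.R1TStatement := by
  intro M _ q _ hq hqM hT hRig A hA K₁ hfin hζ γ hγ hγ' hfrob _ _ ϖ hϖ hass t₀ ht₀ t ht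
    P₁ P₂ h1 h2 𝔫 h𝔫 hP1 hP2
  haveI hqF : Fact q.Prime := ⟨hq⟩
  obtain ⟨hdvr, hnu, -⟩ := H4DVR.dvrStatement q A hA K₁ hfin
  haveI := hdvr
  haveI := hfin
  have hR : (descVal A K₁).LiesOverPrime q := liesOver_descVal q A K₁ hnu
  obtain ⟨tM, htM, -, -, -⟩ :=
    H9C6e.fieldBasics M (baseKind q) (h7_baseKind_ok hT) t₀ ht₀ K₁
  have hαt : heckeAlphaBar ↥K₁ M q tM = t :=
    Subtype.ext (by rw [coe_heckeAlphaBar, htM, ht])
  subst hαt
  letI algM : Algebra ↥(descVal A K₁) (FK K₁ M) :=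
    ((algebraMap K₁ (FK K₁ M)).comp (algebraMap ↥(descVal A K₁) K₁)).toAlgebra
  haveI towM : IsScalarTower ↥(descVal A K₁) K₁ (FK K₁ M) :=
    IsScalarTower.of_algebraMap_eq (fun _ => rfl)
  letI algα : Algebra (FK K₁ M) (FK K₁ (M * q)) := algebraAlong (heckeAlphaBar ↥K₁ M q)
  haveI tow1 : IsScalarTower K₁ (FK K₁ M) (FK K₁ (M * q)) :=
    isScalarTower_along (heckeAlphaBar ↥K₁ M q)
  haveI tow2 : IsScalarTower ↥(descVal A K₁) (FK K₁ M) (FK K₁ (M * q)) :=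
    IsScalarTower.of_algebraMap_eq (fun r => by
      rw [IsScalarTower.algebraMap_apply ↥(descVal A K₁) K₁ (FK K₁ (M * q)),
        IsScalarTower.algebraMap_apply ↥(descVal A K₁) K₁ (FK K₁ M)]
      exact ((heckeAlphaBar ↥K₁ M q).commutes _).symm)
  have hr : Module.finrank (FK K₁ M) (FK K₁ (M * q)) = q + 1 :=
    H21D1.finrank_alpha_succ K₁ M q hq hqM
  haveI hfd : FiniteDimensional (FK K₁ M) (FK K₁ (M * q)) :=
    Module.finite_of_finrank_pos (by rw [hr]; exact Nat.succ_pos q)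
  have halg : ∀ x : FK K₁ M,
      algebraMap (FK K₁ M) (FK K₁ (M * q)) x = heckeAlphaBar K₁ M q x := fun _ => rfl
  have hgen := two_gen_R1_shape M q hq hqM hT A hA K₁ hfin hζ γ hγ hγ' hfrob halg ϖ hϖ t₀ ht₀
    tM htM hNC hr
    (H5EL.locE_alpha M q hRig K₁ (H9C6e.JK ↥K₁ M) (H9C6e.coe_JK ↥K₁ M))
    (fun i : Fin (q + 1) => (H21D1.Yq K₁ M q) ^ (i : ℕ))
    (fun 𝔫₀ h𝔫₀ hj i => H21DI.hb_R1 K₁ M q hq hqM ↥(descVal A K₁) tM 𝔫₀ h𝔫₀ hj i)
    (H21D1.hdval_R1 K₁ M q hq hqM (descVal A K₁) hR ϖ hϖ hass)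
    P₁ P₂ h1 h2 𝔫 h𝔫 hP1 hP2
  exact hEnd M q hq hqM hT A hA K₁ hfin ϖ hϖ t₀ ht₀ _ ht P₁ P₂ h1 h2 𝔫 h𝔫 hP1 hP2 hgen

/-- **(R1), chart `t`**. -/
theorem r1T : H1R1.R1TStatement := r1T_of_leaves H16NC.ncLeaf H22RE.endLeaf

/-- **(R1)**, both charts. -/
theorem r1Node : H1R1.R1NodeStatement := H5RI.r1_inv r1T

end H26R1

end
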