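import Mathlib
import Fermat.Agent.S35.FWDefs_helper17

/-!
# Item 86 (S36, Carayol), slice (BOOK3): the function-field interface of (INJ)  (helper11)

Levels `M = N' q²` over `N' q`, `q ∤ N'`; `F̄_M = modularFunctionFieldBar (N' * q * q)`;
`N_α, N_β : F̄_M → F̄_{N' q}` the norms along the two degeneracy maps
(`H17FW.normA (N' * q) q`, `H17FW.normB (N' * q) q`); `A ⊆ ℚ̄` a valuation subring over `q`,
`I_A = A.inertiaSubgroupIn ℚ`.

* `H11IJ.InjFieldAt N' q c` : **(INJ) in function-field form with constant `c`**: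
  for `0 < n`, `q ∤ n` and `f ∈ F̄_Mˣ` with `n ∣ div f`, `τ f / f ∈ (F̄_Mˣ)ⁿ` for all `τ ∈ I_A`,
  `N_α f`, `N_β f ∈ (F̄_{N' q}ˣ)ⁿ`:  `f ^ c ∈ (F̄_Mˣ)ⁿ`.
* `H11IJ.InjFieldStatement` : `∀ N' q, q` prime, `q ∤ N'` `→ ∃ c > 0, InjFieldAt N' q c`.

`H11IJ.injStatement_of_field : InjFieldStatement → H16S36.InjStatement` is in
`S36/InjBook_helper11.lean`; the level change
`InjFieldAt (N' * r) q c → InjFieldAt N' q (c * deg)` is helper28's slice (LC3).
-/

set_option autoImplicit false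

noncomputable section

open ModularCurve AlgebraicCurve H11W3G

namespace H11IJ

/-- **(INJ), function-field form** at the pair of levels `(N' q², N' q)` with constant `c`. -/
def InjFieldAt (N' q : ℕ) [NeZero N'] [NeZero q] [NeZero (N' * q)] [NeZero (N' * q * q)]
    (c : ℕ) : Prop :=
  ∀ A : ValuationSubring (AlgebraicClosure ℚ), A.LiesOverPrime q →
  ∀ n : ℕ, 0 < n → ¬ q ∣ n →
  ∀ f : modularFunctionFieldBar (N' * q * q), f ≠ 0 →
    (∀ P : Place (AlgebraicClosure ℚ) (modularFunctionFieldBar (N' * q * q)),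
      (n : ℤ) ∣ P.ord f) →
    (∀ τ : GQ, τ ∈ A.inertiaSubgroupIn ℚ →
      ∃ g : modularFunctionFieldBar (N' * q * q), H17FW.act (N' * q * q) τ f = g ^ n * f) →
    (∃ h : modularFunctionFieldBar (N' * q), H17FW.normA (N' * q) q f = h ^ n) →
    (∃ h : modularFunctionFieldBar (N' * q), H17FW.normB (N' * q) q f = h ^ n) →
    ∃ g : modularFunctionFieldBar (N' * q * q), f ^ c = g ^ n

/-- **(INJ), function-field form**: at every pair of levels there is a constant. -/
def InjFieldStatement : Prop :=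
  ∀ (N' q : ℕ) [NeZero N'] [NeZero q] [NeZero (N' * q)] [NeZero (N' * q * q)],
    q.Prime → ¬ q ∣ N' → ∃ c : ℕ, 0 < c ∧ InjFieldAt N' q c

/-- (INJ), function-field form, at tame levels only (`TameLevel q N'` as in S34/S35). -/
def InjFieldTameStatement : Prop :=
  ∀ (N' q : ℕ) [NeZero N'] [NeZero q] [NeZero (N' * q)] [NeZero (N' * q * q)],
    q.Prime → ¬ q ∣ N' → H7S18.TameLevel q N' → ∃ c : ℕ, 0 < c ∧ InjFieldAt N' q c

theorem InjFieldAt.mul_right {N' q : ℕ} [NeZero N'] [NeZero q] [NeZero (N' * q)]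
    [NeZero (N' * q * q)] {c : ℕ} (h : InjFieldAt N' q c) (d : ℕ) :
    InjFieldAt N' q (c * d) := by
  intro A hA n hn hqn f hf0 hord hI hα hβ
  obtain ⟨g, hg⟩ := h A hA n hn hqn f hf0 hord hI hα hβ
  exact ⟨g ^ d, by rw [pow_mul, hg, ← pow_mul, ← pow_mul, mul_comm n d]⟩

end H11IJ

end
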