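import Mathlib
import Fermat.Agent.S35.ASM2_helper11
import Fermat.Agent.W3G.Comm_helper13

/-!
# Item 86 (S36, Carayol at `q² ‖ M`): the formal slice (INV) ⟸ (INJ) (helper16)

Route of helper4 (board note `3mwi2z2slc32l`): level `M = N' q²`, `q ∤ N'`, `q ≠ p`.

* `H16S36.InjStatement` **(INJ)**, the only geometric input: a torsion point `y` of `J₀(N' q²)`
  of order prime to `q` which is fixed by the inertia group at `q` and is killed by both
  degeneracy maps `α_*, β_* : J₀(N' q²) → J₀(N' q)` is killed by a constant `c = c(N', q)`;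
* `H16S36.InvStatement` **(INV)**: for every word `P` in the good Hecke operators which kills
  `S₂(Γ₀(N' q))` and every Tate-divisible inertia-fixed `x ∈ J₀(N' q²)[p^k]`: `c · P(T) x = 0`;
* `H16S36.inv_of_inj` : (BF-K) + (BF-D) + (INJ) ⟹ (INV)  (the analogue of
  `H11S35.h11bf_badFrobP`).

`NewOp`, `Kill`, `DegTorsPrime` of S35 are stated for arbitrary levels (no `q ∤ level`), and
`pushAlpha (N' q) q`, `pushBeta (N' q) q` are genuine pushforwards (`H2R0.finiteAlong_alpha`), so
nothing of S35 has to be re-proved at the pair of levels `(N' q², N' q)`.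
-/

set_option autoImplicit false
set_option linter.unusedSectionVars false
set_option linter.unusedVariables false
set_option linter.style.haveILetI false

noncomputable section

namespace H16S36

open H11W3G H11S35 ModularCurve CongruenceSubgroup AlgebraicCurve

/-- **(INJ)**: inertia-invariant torsion of `J₀(N' q²)` which is killed by both degeneracy maps
to level `N' q` is killed by a constant. -/
def InjStatement : Prop :=
  ∀ (N' q : ℕ) [NeZero N'] [NeZero q] [NeZero (N' * q)] [NeZero (N' * q * q)],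
    q.Prime → ¬ q ∣ N' →
    ∃ c : ℕ, 0 < c ∧
      ∀ A : ValuationSubring (AlgebraicClosure ℚ), A.LiesOverPrime q →
      ∀ n : ℕ, 0 < n → ¬ q ∣ n →
      ∀ y : JZero (N' * q * q), n • y = 0 →
        (∀ τ : GQ, τ ∈ A.inertiaSubgroupIn ℚ → τ • y = y) →
        pushAlpha (N' * q) q y = 0 → pushBeta (N' * q) q y = 0 → c • y = 0

/-- **(INV)**: words killing `S₂(Γ₀(N' q))` kill (up to a constant) the inertia-invariant
Tate-divisible torsion of `J₀(N' q²)`. -/
def InvStatement : Prop :=
  ∀ (N' q : ℕ) [NeZero N'] [NeZero q] [NeZero (N' * q)] [NeZero (N' * q * q)],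
    q.Prime → ¬ q ∣ N' →
    ∃ c : ℕ, 0 < c ∧
      ∀ (S : Finset ℕ) (P : Wd (N' * q * q) S),
        evalCusp (N' * q * q) S (N' * q) (dvd_mul_right (N' * q) q) P = 0 →
      ∀ (p k : ℕ), p.Prime → q ≠ p → p ∈ S →
      ∀ A : ValuationSubring (AlgebraicClosure ℚ), A.LiesOverPrime q →
      ∀ x : JZero (N' * q * q), IsTateDiv p k x →
        (∀ τ : GQ, τ ∈ A.inertiaSubgroupIn ℚ → τ • x = x) →
        c • evalJ (N' * q * q) S P x = 0

/-- words in the Hecke operators commute with the Galois action on `J₀(M)` -/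
theorem evalJ_smul (M : ℕ) [NeZero M] (S : Finset ℕ) (P : Wd M S) (σ : GQ) (x : JZero M) :
    evalJ M S P (σ • x) = σ • evalJ M S P x := by
  induction P using FreeAlgebra.induction generalizing x with
  | grade0 r =>
      rw [AlgHom.commutes]
      simp only [Module.algebraMap_end_apply]
      exact (smul_comm _ _ _)
  | grade1 t =>
      have h : evalJ M S (FreeAlgebra.ι ℤ t) = heckeOperatorBar M ⟨t.1, t.2.1⟩ := by
        unfold evalJ
        rw [FreeAlgebra.lift_ι_apply]
      rw [h]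
      exact H13W3G.heckeOperatorBar_smul M ⟨t.1, t.2.1⟩ σ x
  | mul a b ha hb =>
      rw [map_mul, Module.End.mul_apply, Module.End.mul_apply, hb, ha]
  | add a b ha hb =>
      rw [map_add, LinearMap.add_apply, LinearMap.add_apply, ha, hb, smul_add]

/-- **(INV) ⟸ (BF-K) + (BF-D) + (INJ)**. -/
theorem inv_of_inj (hK : KillStatement) (hD : DegTorsPrimeStatement) (hI : InjStatement) :
    InvStatement := by
  intro N' q _ _ _ _ hq hqN'
  obtain ⟨c, hc, hI'⟩ := hI N' q hq hqN'
  refine ⟨c, hc, ?_⟩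
  intro S P hP p k hp hqp hpS A hA x hx hfix
  obtain ⟨hDa, hDb⟩ := hD (N' * q) q hq
  set y := evalJ (N' * q * q) S P x with hy
  have hxt : p ^ k • x = 0 := h11bf_tateDiv_tors hx
  have hyt : p ^ k • y = 0 := by
    rw [hy, ← map_nsmul, hxt, map_zero]
  have hqn : ¬ q ∣ p ^ k := fun hd =>
    hqp ((Nat.prime_dvd_prime_iff_eq hq hp).1 (hq.dvd_of_dvd_pow hd))
  have hpk : 0 < p ^ k := pow_pos hp.pos k
  have hℓn : ∀ t : Idx (N' * q * q) S, ¬ t.1 ∣ p ^ k := by
    intro t hd
    have h1 : t.1 = p := (Nat.prime_dvd_prime_iff_eq t.2.1 hp).1 (t.2.1.dvd_of_dvd_pow hd)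
    exact t.2.2.2 (Finset.mem_coe.mpr (h1 ▸ hpS))
  have ha : pushAlpha (N' * q) q y = 0 := by
    have h1 := h11bf_intertwine_tors
      (fun t : Idx (N' * q * q) S => heckeOperatorBar (N' * q * q) ⟨t.1, t.2.1⟩)
      (fun t : Idx (N' * q * q) S => heckeOperatorBar (N' * q) ⟨t.1, t.2.1⟩)
      (pushAlpha (N' * q) q) (p ^ k)
      (fun t x hx => hDa t.1 t.2.1 t.2.2.1 (p ^ k) hpk (hℓn t) x hx) P x hxt
    rw [hy, evalJ, h1]
    exact hK (N' * q * q) S (N' * q) (dvd_mul_right (N' * q) q) P hP p k hp _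
      (h11bf_tateDiv_map _ hx)
  have hb : pushBeta (N' * q) q y = 0 := by
    have h1 := h11bf_intertwine_tors
      (fun t : Idx (N' * q * q) S => heckeOperatorBar (N' * q * q) ⟨t.1, t.2.1⟩)
      (fun t : Idx (N' * q * q) S => heckeOperatorBar (N' * q) ⟨t.1, t.2.1⟩)
      (pushBeta (N' * q) q) (p ^ k)
      (fun t x hx => hDb t.1 t.2.1 t.2.2.1 (p ^ k) hpk (hℓn t) x hx) P x hxt
    rw [hy, evalJ, h1]
    exact hK (N' * q * q) S (N' * q) (dvd_mul_right (N' * q) q) P hP p k hp _
      (h11bf_tateDiv_map _ hx)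
  have hyfix : ∀ τ : GQ, τ ∈ A.inertiaSubgroupIn ℚ → τ • y = y := by
    intro τ hτ
    rw [hy, ← evalJ_smul, hfix τ hτ]
  exact hI' A hA (p ^ k) hpk hqn y hyt hyfix ha hb

end H16S36

end
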