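import Mathlib
import Fermat.Agent.S36.InjDefs_helper11
import Fermat.Agent.S36.InvOfInj_helper16
import Fermat.Agent.S36.DescUnr_helper29
import Fermat.Agent.S35.PushNorm_helper13
import Fermat.Agent.S35.FWBook_helper29

/-!
# Item 86 (S36, Carayol), slice (BOOK3): (INJ) from its function-field form  (helper11)

* `H11IJ.injStatement_of_field : InjFieldStatement → H16S36.InjStatement`.

For `y = [D] ∈ J₀(N' q²)[n]`, `n D = div f`:
* `α_* y = 0 = β_* y` ⟹ `N_α f`, `N_β f` are `n`-th powers (`H13AB.push_norm_alpha/beta` at the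
  pair of levels `(N' q², N' q)`);
* `τ y = y` ⟹ `τ f = gⁿ f` (`H29DU.rel_of_fixed`, constants are `n`-th powers);
* `f ^ c = gⁿ` ⟹ `n (c D - div g) = 0` ⟹ `c D = div g` ⟹ `c y = 0`.
-/

set_option autoImplicit false
set_option linter.unusedSectionVars false
set_option linter.unusedVariables false
set_option linter.style.haveILetI false
set_option maxHeartbeats 1000000

noncomputable section

open ModularCurve AlgebraicCurve H11W3G

namespace H11IJ

local notation "Qb" => AlgebraicClosure ℚ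

/-- `f ^ c = g ^ n`, `div f = n D`, `0 < n` ⟹ `c • [D] = 0` -/
theorem smul_mk_eq_zero_of_pow (N : ℕ) [NeZero N] (n c : ℕ) (hn : 0 < n)
    (D : Divisor.degZero (K := Qb) (F := modularFunctionFieldBar N))
    (f g : modularFunctionFieldBar N) (hf0 : f ≠ 0)
    (hfD : ∀ W : Place Qb (modularFunctionFieldBar N),
      W.ord f = n * (D : Divisor Qb (modularFunctionFieldBar N)) W)
    (hfg : f ^ c = g ^ n) : c • (Pic0.mk D : JZero N) = 0 := by
  have hg0 : g ≠ 0 := by
    rintro rfl
    rw [zero_pow hn.ne'] at hfg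
    exact pow_ne_zero c hf0 hfg
  have h1 : (Pic0.mk (c • D) : JZero N) = 0 := by
    refine H29GU.mk_eq_zero' _ ⟨g, hg0, fun W => ?_⟩
    have e1 : W.ord (f ^ c) = c * W.ord f := by
      have := W.ord_zpow f (c : ℤ)
      rwa [zpow_natCast] at this
    have e2 : W.ord (g ^ n) = n * W.ord g := by
      have := W.ord_zpow g (n : ℤ)
      rwa [zpow_natCast] at this
    have e3 : (c : ℤ) * W.ord f = n * W.ord g := by rw [← e1, ← e2, hfg]
    have hn' : (n : ℤ) ≠ 0 := by exact_mod_cast hn.ne'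
    rw [AddSubgroup.coe_nsmul, Finsupp.smul_apply, nsmul_eq_mul]
    apply mul_left_cancel₀ hn'
    rw [← e3, hfD]
    ring
  exact h1

/-- **(BOOK3)**: (INJ) from its function-field form. -/
theorem injStatement_of_field (h : InjFieldStatement) : H16S36.InjStatement := by
  intro N' q _ _ _ _ hq hqN'
  obtain ⟨c, hc, hI⟩ := h N' q hq hqN'
  refine ⟨c, hc, ?_⟩
  intro A hA n hn hqn y hy hfix ha hb
  obtain ⟨D, f, rfl, hf0, hfD⟩ := H29FW.exists_function (N' * q * q) n y hy
  have hA' := H13AB.push_norm_alpha (N' * q) q n hn D f hf0 hfD ha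
  have hB' := H13AB.push_norm_beta (N' * q) q n hn D f hf0 hfD hb
  have hrel : ∀ τ : GQ, τ ∈ A.inertiaSubgroupIn ℚ →
      ∃ g : modularFunctionFieldBar (N' * q * q), H17FW.act (N' * q * q) τ f = g ^ n * f := by
    intro τ hτ
    obtain ⟨e, g, he0, hg0, hrel⟩ :=
      H29DU.rel_of_fixed (N' * q * q) n D f hf0 hfD τ (hfix τ hτ)
    obtain ⟨d, hd⟩ := IsAlgClosed.exists_pow_nat_eq e hn
    refine ⟨algebraMap Qb (modularFunctionFieldBar (N' * q * q)) d * g, ?_⟩
    show arithmeticGalois (modularFunctionFieldFull (N' * q * q)) τ • f = _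
    rw [hrel, mul_pow, ← map_pow, hd]
    ring
  obtain ⟨g, hg⟩ := hI A hA n hn hqn f hf0 (fun P => ⟨_, hfD P⟩) hrel hA' hB'
  exact smul_mk_eq_zero_of_pow (N' * q * q) n c hn D f g hf0 hfD hg

end H11IJ

end
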