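import Mathlib
import Fermat.Agent.S18.Defs
import Fermat.Agent.S34.Defs_helper4
import Fermat.Agent.S35.FWGenDefs_helper1

/-!
# Item 86 (S36), slice (GEN3), part (C0) (helper1): Kummer descent for a family of components
with multiplicities, INTERFACE

Generic setting of `H7S18` (as in `H19KD.KDStatement`): `R` a DVR with uniformizer `ϖ`,
`K = Frac R` of characteristic `0`, `F / K(t)` finite, `K` algebraically closed in `F`.

* `𝒱 : Set (ValuationSubring F)` : the valuation rings of the components of the special fibre;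
* `(hO)` : `O_F = ⋂ V` (`GInt x ↔ ∀ V ∈ 𝒱, x ∈ V`);
* `(hJ)` : `rad(ϖ O_F)^m ⊆ ϖ O_F` in the weak form `(∀ V ∈ 𝒱, v_V(x) < 1) → x ^ m ∈ ϖ O_F`
  (multiplicities `≤ m`; NO reducedness of the special fibre);
* `MLoc` : the local hypothesis at every closed point `𝔫 ∋ ϖ` of a chart `c`:
  `∃ h`, `h ≡ 1` at every `V ∈ 𝒱`, `v · h ^ n ∈ B_𝔫`.

`KDMultiStatement` : `v ≡ 1` at every `V ∈ 𝒱` + `MLoc` in both charts `⇒ v ∈ Kˣ · Fˣⁿ`.
(No power of `v` is needed: `(1 + rad) / (1 + ϖ O)` is uniquely `n`-divisible, by the truncated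
binomial series of `(1 + a)^(1/n)`.)
-/

set_option autoImplicit false
set_option synthInstance.maxHeartbeats 400000

noncomputable section

open Polynomial IntermediateField AlgebraicCurve H7S18 H4S34 H1FW

namespace H1G3

/-- the local hypothesis of `KDMultiStatement` in the chart `c`: at every closed point `𝔫 ∋ ϖ`
there is `h ≡ 1` at every `V ∈ 𝒱` with `v · h ^ n ∈ B_𝔫`. -/
def MLoc (R : Type) [CommRing R] {F : Type} [Field F] [Algebra R F] (ϖ : R)
    (𝒱 : Set (ValuationSubring F)) (c : F) (n : ℕ) (v : F) : Prop :=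
  ∀ 𝔫 : Ideal (Chart R c), IsClosedPt R ϖ c 𝔫 →
    ∃ h : F, (∀ V ∈ 𝒱, One V h) ∧ InLoc R c 𝔫 (v * h ^ n)

/-- **(C0) Kummer descent for a family of components with multiplicities.** -/
def KDMultiStatement : Prop :=
  ∀ (R : Type) [CommRing R] [IsDomain R] [IsDiscreteValuationRing R]
    (K : Type) [Field K] [CharZero K] [Algebra R K] [IsFractionRing R K]
    (F : Type) [Field F] [Algebra K F] [Algebra R F] [IsScalarTower R K F]
    (ϖ : R) (_ : Irreducible ϖ) (t : F) (_ : Transcendental K t)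
    (_ : FiniteDimensional K⟮t⟯ F)
    (_ : ∀ x : F, IsAlgebraic K x → x ∈ (algebraMap K F).range)
    (n : ℕ) (_ : IsUnit (n : R)) (_ : ∃ ζ : R, IsPrimitiveRoot ζ n)
    (𝒱 : Set (ValuationSubring F))
    (_ : ∀ x : F, GInt R ϖ t x ↔ ∀ V ∈ 𝒱, x ∈ V)
    (m : ℕ) (_ : 1 ≤ m)
    (_ : ∀ x : F, (∀ V ∈ 𝒱, V.valuation x < 1) → ModPi R ϖ t (x ^ m) 0)
    (v : F) (_ : ∀ V ∈ 𝒱, One V v)
    (_ : MLoc R ϖ 𝒱 t n v) (_ : MLoc R ϖ 𝒱 t⁻¹ n v),
    ∃ (c : K) (g : F), v = algebraMap K F c * g ^ n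

end H1G3

end
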