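/-
helper17: item 86 (S36, Carayol), slice (TOR3) — abstract core (Mathlib only).

Setting (one supersingular point `s` of level `M = N'q²`, its image `s'` of level `N'q`):
* fields `F' →(φ) F` with a multiplicative norm `Nm : F →* F'`;
* valuation rings `V₁ V₂ V₃` of `F` (the three components through `s`), `V₁' V₂'` of `F'`,
  `V₁, V₃` over `V₁'` (with `(e,f) = (1,1), (q-1,1)`), `V₂` over `V₂'` (`f = q` inseparable);
* local rings `B ⊆ V₁ ∩ V₂ ∩ V₃`, `B' ⊆ V₁' ∩ V₂'`, `φ B' ⊆ B`, a residue map `r : B → k` killing the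
  three branch primes `B ∩ 𝔪(V_i)`.

`h17t3_alpha_rel`: if `u = ε yⁿ` locally, `Nm u = Hⁿ`, `Nm Ψ / H ≡ κ_i mod 𝔪(V_i')` (constants) and
`Ψ / y ≡ b_i mod 𝔪(V_i)` (`b_i ∈ B`, the branch roots), then in `k`
  `b̄₁ · b̄₃^(q-1) · κ̄₂ = b̄₂^q · κ̄₁`.
`h17t3_combine`: the `α`- and the `β`-relation give `b̄₁^(q²-1) = Ξ_X · b̄₃^(q²-1)`,
`b̄₂^(q²-1) = Ξ_Y · b̄₃^(q²-1)` with `Ξ_X, Ξ_Y` products of the constants.
-/
import Mathlib

set_option autoImplicit false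

namespace H17T3

section Cg

variable {F : Type*} [Field F]

/-- `x ≡ y` modulo the maximal ideal of the valuation subring `V`. -/
def Cg (V : ValuationSubring F) (x y : F) : Prop := V.valuation (x - y) < 1

theorem cg_iff (V : ValuationSubring F) (x y : F) : Cg V x y ↔ V.valuation (x - y) < 1 := Iff.rfl

theorem cg_refl (V : ValuationSubring F) (x : F) : Cg V x x := by
  unfold Cg
  rw [sub_self, map_zero]
  exact zero_lt_one

theorem cg_symm {V : ValuationSubring F} {x y : F} (h : Cg V x y) : Cg V y x := by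
  unfold Cg at h ⊢
  rw [← neg_sub, Valuation.map_neg]
  exact h

theorem cg_trans {V : ValuationSubring F} {x y z : F} (h₁ : Cg V x y) (h₂ : Cg V y z) :
    Cg V x z := by
  unfold Cg at h₁ h₂ ⊢
  have : x - z = (x - y) + (y - z) := by ring
  rw [this]
  exact lt_of_le_of_lt (V.valuation.map_add _ _) (max_lt h₁ h₂)

theorem cg_mem {V : ValuationSubring F} {x y : F} (h : Cg V x y) (hy : y ∈ V) : x ∈ V := by
  have h1 : x - y ∈ V := (V.valuation_le_one_iff _).mp (le_of_lt h)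
  have : x = (x - y) + y := by ring
  rw [this]
  exact V.add_mem _ _ h1 hy

theorem cg_mul {V : ValuationSubring F} {x x' y y' : F} (hx : Cg V x x') (hy : Cg V y y')
    (hx' : x' ∈ V) (hy0 : y ∈ V) : Cg V (x * y) (x' * y') := by
  unfold Cg at hx hy ⊢
  have : x * y - x' * y' = (x - x') * y + x' * (y - y') := by ring
  rw [this]
  refine lt_of_le_of_lt (V.valuation.map_add _ _) (max_lt ?_ ?_)
  · rw [map_mul]
    calc V.valuation (x - x') * V.valuation y ≤ V.valuation (x - x') * 1 :=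
          mul_le_mul' le_rfl ((V.valuation_le_one_iff _).mpr hy0)
      _ = V.valuation (x - x') := mul_one _
      _ < 1 := hx
  · rw [map_mul]
    calc V.valuation x' * V.valuation (y - y') ≤ 1 * V.valuation (y - y') :=
          mul_le_mul' ((V.valuation_le_one_iff _).mpr hx') le_rfl
      _ = V.valuation (y - y') := one_mul _
      _ < 1 := hy

theorem cg_mul_left {V : ValuationSubring F} {y y' : F} (x : F) (hx : x ∈ V) (hy : Cg V y y') :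
    Cg V (x * y) (x * y') := by
  unfold Cg at hy ⊢
  rw [← mul_sub, map_mul]
  calc V.valuation x * V.valuation (y - y') ≤ 1 * V.valuation (y - y') :=
        mul_le_mul' ((V.valuation_le_one_iff _).mpr hx) le_rfl
    _ = V.valuation (y - y') := one_mul _
    _ < 1 := hy

theorem cg_mul_right {V : ValuationSubring F} {x x' : F} (y : F) (hy : y ∈ V) (hx : Cg V x x') :
    Cg V (x * y) (x' * y) := by
  rw [mul_comm x y, mul_comm x' y]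
  exact cg_mul_left y hy hx

theorem cg_pow {V : ValuationSubring F} {x x' : F} (hx : Cg V x x') (hx' : x' ∈ V) (m : ℕ) :
    Cg V (x ^ m) (x' ^ m) := by
  induction m with
  | zero => simp only [pow_zero]; exact cg_refl V 1
  | succ m ih =>
    rw [pow_succ, pow_succ]
    exact cg_mul ih hx (V.pow_mem hx' m) (cg_mem hx hx')

/-- a congruence is preserved by a ring homomorphism under which `V` lies over `V'`. -/
theorem cg_map {F' : Type*} [Field F'] (φ : F' →+* F) {V : ValuationSubring F}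
    {V' : ValuationSubring F'} (hφ : ∀ x : F', V'.valuation x < 1 → V.valuation (φ x) < 1)
    {x y : F'} (h : Cg V' x y) : Cg V (φ x) (φ y) := by
  unfold Cg at h ⊢
  rw [← map_sub]
  exact hφ _ h

/-- a residue map killing `B ∩ 𝔪(V)` identifies congruent elements of `B`. -/
theorem cg_res {k : Type*} [Field k] {V : ValuationSubring F} {B : Subring F} (r : B →+* k)
    (hr : ∀ x : B, V.valuation (x : F) < 1 → r x = 0) {x y : B} (h : Cg V (x : F) (y : F)) :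
    r x = r y := by
  have := hr (x - y) (by simpa [Cg] using h)
  rwa [map_sub, sub_eq_zero] at this

/-- an element whose `n`-th power is a unit of `V` is a unit of `V`. -/
theorem val_eq_one_of_pow {V : ValuationSubring F} {n : ℕ} (hn : 0 < n) {x : F}
    (h : V.valuation (x ^ n) = 1) : V.valuation x = 1 := by
  rw [map_pow] at h
  rcases lt_trichotomy (V.valuation x) 1 with h1 | h1 | h1
  · exact absurd h (ne_of_lt (pow_lt_one₀ zero_le h1 hn.ne'))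
  · exact h1
  · exact absurd h (ne_of_gt (one_lt_pow₀ h1 hn.ne'))

/-- an element congruent to a unit of `V` is a unit of `V`. -/
theorem cg_val_eq_one {V : ValuationSubring F} {x y : F} (h : Cg V x y)
    (hy : V.valuation y = 1) : V.valuation x = 1 := by
  have h1 : x = y + (x - y) := by ring
  rw [h1]
  have h2 : V.valuation (x - y) < V.valuation y := by rw [hy]; exact h
  rw [Valuation.map_add_eq_of_lt_left _ h2, hy]

/-- if `Gⁿ ≡ 1` modulo `𝔪(V)` and `ζ` is a primitive `n`-th root of unity, then `G ≡ ζ^j`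
for some `j`. -/
theorem h17t3_cg_root_of_unity (V : ValuationSubring F) (n : ℕ) (hn : 0 < n) (ζ : F)
    (hζ : IsPrimitiveRoot ζ n) (G : F) (hG : Cg V (G ^ n) 1) :
    ∃ j : ℕ, j < n ∧ Cg V G (ζ ^ j) := by
  by_contra hcon
  have hcon' : ∀ j : ℕ, j < n → ¬ Cg V G (ζ ^ j) := fun j hj hc => hcon ⟨j, hj, hc⟩
  have hGV : G ∈ V := by
    have h1 : V.valuation (G ^ n) = 1 := cg_val_eq_one hG (map_one _)
    exact (V.valuation_le_one_iff _).mp (le_of_eq (val_eq_one_of_pow hn h1))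
  have hζV : ∀ j : ℕ, ζ ^ j ∈ V := by
    intro j
    have h1 : V.valuation ((ζ ^ j) ^ n) = 1 := by
      rw [← pow_mul, mul_comm, pow_mul, hζ.pow_eq_one, one_pow, map_one]
    exact (V.valuation_le_one_iff _).mp (le_of_eq (val_eq_one_of_pow hn h1))
  have hall : ∀ μ ∈ Polynomial.nthRootsFinset n (1 : F), V.valuation (G - μ) = 1 := by
    intro μ hμ
    have hμ1 : μ ^ n = 1 := ((Polynomial.mem_nthRootsFinset hn 1).mp hμ)
    have : NeZero n := ⟨hn.ne'⟩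
    obtain ⟨j, hj, rfl⟩ := hζ.eq_pow_of_pow_eq_one hμ1
    have h1 : V.valuation (G - ζ ^ j) ≤ 1 :=
      (V.valuation_le_one_iff _).mpr (sub_mem hGV (hζV j))
    exact le_antisymm h1 (not_lt.mp (hcon' j hj))
  have hprod : G ^ n - 1 = ∏ μ ∈ Polynomial.nthRootsFinset n (1 : F), (G - μ) := by
    have h := Polynomial.X_pow_sub_one_eq_prod hn hζ
    have h2 := congrArg (Polynomial.eval G) h
    simpa [Polynomial.eval_prod] using h2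
  unfold Cg at hG
  rw [hprod, map_prod] at hG
  have : ∏ μ ∈ Polynomial.nthRootsFinset n (1 : F), V.valuation (G - μ) = 1 :=
    Finset.prod_eq_one hall
  rw [this] at hG
  exact lt_irrefl _ hG

end Cg

section Core

variable {F F' k : Type*} [Field F] [Field F'] [Field k]

/-- **(TOR3), the `α`-relation at one triple point.**
`V₁, V₃` lie over `V₁'`, `V₂` over `V₂'`; `hN₁`, `hN₂` are the residues of the norm (slice NORM);
`hT2` says that the branch `B / P₃` comes from level `N'q` (`f(w₃ | w₁') = 1`);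
`u = ε yⁿ` with `Nm u = Hⁿ`, and `Nm Ψ / H ≡ κ_i` at `V_i'`; `b_i` are the branch roots. -/
theorem h17t3_alpha_rel (φ : F' →+* F) (Nm : F →* F')
    (V₁ V₂ V₃ : ValuationSubring F) (V₁' V₂' : ValuationSubring F')
    (B : Subring F) (B' : Subring F') (r : B →+* k) (q n : ℕ) (hn : 0 < n)
    (hB₁ : ∀ x ∈ B, x ∈ V₁) (hB₂ : ∀ x ∈ B, x ∈ V₂)
    (hr₁ : ∀ x : B, V₁.valuation (x : F) < 1 → r x = 0)
    (hr₂ : ∀ x : B, V₂.valuation (x : F) < 1 → r x = 0)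
    (hr₃ : ∀ x : B, V₃.valuation (x : F) < 1 → r x = 0)
    (hB₁' : ∀ x ∈ B', x ∈ V₁') (hB₂' : ∀ x ∈ B', x ∈ V₂')
    (hφB : ∀ x ∈ B', φ x ∈ B)
    (hφ₁ : ∀ x : F', V₁'.valuation x < 1 → V₁.valuation (φ x) < 1)
    (hφ₂ : ∀ x : F', V₂'.valuation x < 1 → V₂.valuation (φ x) < 1)
    (hroot : ∀ x : F', x ^ n ∈ B' → x ∈ B')
    (hN₁ : ∀ x : F, V₁.valuation x = 1 → V₃.valuation x = 1 → ∀ a : F', a ∈ V₁' →
      Cg V₃ x (φ a) → Cg V₁ (φ (Nm x)) (x * φ a ^ (q - 1)))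
    (hN₂ : ∀ x : F, V₂.valuation x = 1 → Cg V₂ (φ (Nm x)) (x ^ q))
    (hT2 : ∀ b ∈ B, ∃ b' ∈ B', Cg V₃ b (φ b'))
    (Ψ y ε : F) (H κ₁ κ₂ : F') (hy : y ≠ 0) (hH : H ≠ 0)
    (hNε : Nm ε ∈ B')
    (hNu : Nm (ε * y ^ n) = H ^ n)
    (hκ₁ : κ₁ ∈ B') (hκ₂ : κ₂ ∈ B')
    (hG₁ : Cg V₁' (Nm Ψ / H) κ₁) (hG₂ : Cg V₂' (Nm Ψ / H) κ₂)
    (hx₁ : V₁.valuation (Ψ / y) = 1) (hx₂ : V₂.valuation (Ψ / y) = 1)
    (hx₃ : V₃.valuation (Ψ / y) = 1)
    (b₁ b₂ b₃ : B) (hb₁ : Cg V₁ (Ψ / y) b₁) (hb₂ : Cg V₂ (Ψ / y) b₂) (hb₃ : Cg V₃ (Ψ / y) b₃) :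
    r b₁ * r b₃ ^ (q - 1) * r ⟨φ κ₂, hφB _ hκ₂⟩ = r b₂ ^ q * r ⟨φ κ₁, hφB _ hκ₁⟩ := by
  -- η := H / Nm y, with ηⁿ = Nm ε
  have hNy : Nm y ≠ 0 := by
    intro h0
    have h1 : Nm (ε * y ^ n) = 0 := by rw [map_mul, map_pow, h0, zero_pow hn.ne', mul_zero]
    rw [hNu] at h1
    exact hH (pow_eq_zero_iff hn.ne' |>.mp h1)
  set η : F' := H / Nm y with hη
  have hηn : η ^ n = Nm ε := by
    rw [hη, div_pow, ← hNu, map_mul, map_pow]
    field_simp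
  have hηB : η ∈ B' := hroot η (by rw [hηn]; exact hNε)
  have hNx : Nm (Ψ / y) = (Nm Ψ / H) * η := by
    have h1 : Nm (Ψ / y) * Nm y = Nm Ψ := by
      rw [← map_mul, div_mul_cancel₀ _ hy]
    rw [hη, ← h1]
    field_simp
  -- the branch `V₃` comes from level `N'q`
  obtain ⟨b₃', hb₃', hb₃c⟩ := hT2 (b₃ : F) b₃.2
  have hφb₃' : φ b₃' ∈ B := hφB _ hb₃'
  have hrb₃ : r ⟨φ b₃', hφb₃'⟩ = r b₃ := (cg_res r hr₃ (x := b₃) (y := ⟨φ b₃', hφb₃'⟩) hb₃c).symm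
  -- first place
  have h1a : Cg V₁' (Nm (Ψ / y)) (κ₁ * η) := by
    rw [hNx]
    exact cg_mul_right η (hB₁' _ hηB) hG₁
  have h1b : Cg V₁ (φ (Nm (Ψ / y))) (φ (κ₁ * η)) := cg_map φ hφ₁ h1a
  have h1c : Cg V₁ (φ (Nm (Ψ / y))) (Ψ / y * φ b₃' ^ (q - 1)) :=
    hN₁ _ hx₁ hx₃ b₃' (hB₁' _ hb₃') (cg_trans hb₃ hb₃c)
  have h1d : Cg V₁ (Ψ / y * φ b₃' ^ (q - 1)) ((b₁ : F) * φ b₃' ^ (q - 1)) :=
    cg_mul_right _ (V₁.pow_mem (hB₁ _ hφb₃') _) hb₁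
  have h1e : Cg V₁ (φ (κ₁ * η)) ((b₁ : F) * φ b₃' ^ (q - 1)) :=
    cg_trans (cg_symm h1b) (cg_trans h1c h1d)
  have hφη : φ η ∈ B := hφB _ hηB
  have h1f : r (⟨φ κ₁, hφB _ hκ₁⟩ * ⟨φ η, hφη⟩) = r (b₁ * ⟨φ b₃', hφb₃'⟩ ^ (q - 1)) := by
    apply cg_res r hr₁
    simpa [map_mul] using h1e
  -- second place
  have h2a : Cg V₂' (Nm (Ψ / y)) (κ₂ * η) := by
    rw [hNx]
    exact cg_mul_right η (hB₂' _ hηB) hG₂
  have h2b : Cg V₂ (φ (Nm (Ψ / y))) (φ (κ₂ * η)) := cg_map φ hφ₂ h2a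
  have h2c : Cg V₂ (φ (Nm (Ψ / y))) ((Ψ / y) ^ q) := hN₂ _ hx₂
  have h2d : Cg V₂ ((Ψ / y) ^ q) ((b₂ : F) ^ q) := cg_pow hb₂ (hB₂ _ b₂.2) q
  have h2e : Cg V₂ (φ (κ₂ * η)) ((b₂ : F) ^ q) := cg_trans (cg_symm h2b) (cg_trans h2c h2d)
  have h2f : r (⟨φ κ₂, hφB _ hκ₂⟩ * ⟨φ η, hφη⟩) = r (b₂ ^ q) := by
    apply cg_res r hr₂
    simpa [map_mul] using h2e
  rw [map_mul, map_mul, map_pow, hrb₃] at h1f
  rw [map_mul, map_pow] at h2f
  calc r b₁ * r b₃ ^ (q - 1) * r ⟨φ κ₂, hφB _ hκ₂⟩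
      = r ⟨φ κ₁, hφB _ hκ₁⟩ * r ⟨φ η, hφη⟩ * r ⟨φ κ₂, hφB _ hκ₂⟩ := by rw [h1f]
    _ = r ⟨φ κ₂, hφB _ hκ₂⟩ * r ⟨φ η, hφη⟩ * r ⟨φ κ₁, hφB _ hκ₁⟩ := by ring
    _ = r b₂ ^ q * r ⟨φ κ₁, hφB _ hκ₁⟩ := by rw [h2f]

/-- **(TOR3), combination of the `α`- and the `β`-relation** (in a field `k`): from
`X κ₂ = Y^q κ₁` and `Y μ₂ = X^q μ₁` (after division by `b̄₃^q`) one gets that
`X^(q²-1)` and `Y^(q²-1)` are products of the constants. Stated without division: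
`b₁ b₃^(q-1) κ₂ = b₂^q κ₁`, `b₂ b₃^(q-1) μ₂ = b₁^q μ₁`. -/
theorem h17t3_combine (q : ℕ) (hq : 0 < q) (b₁ b₂ b₃ κ₁ κ₂ μ₁ μ₂ : k)
    (hb₁ : b₁ ≠ 0) (hb₂ : b₂ ≠ 0)
    (hα : b₁ * b₃ ^ (q - 1) * κ₂ = b₂ ^ q * κ₁)
    (hβ : b₂ * b₃ ^ (q - 1) * μ₂ = b₁ ^ q * μ₁) :
    b₁ ^ (q ^ 2 - 1) * (μ₁ ^ q * κ₁) = b₃ ^ (q ^ 2 - 1) * (μ₂ ^ q * κ₂) ∧
    b₂ ^ (q ^ 2 - 1) * (κ₁ ^ q * μ₁) = b₃ ^ (q ^ 2 - 1) * (κ₂ ^ q * μ₂) := by
  obtain ⟨m, rfl⟩ : ∃ m, q = m + 1 := ⟨q - 1, (Nat.sub_add_cancel hq).symm⟩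
  have hT : (m + 1) ^ 2 - 1 = m * (m + 1) + m := by
    have : (m + 1) ^ 2 = m * (m + 1) + m + 1 := by ring
    omega
  simp only [Nat.add_sub_cancel] at hα hβ
  rw [hT]
  constructor
  · -- b₁^(q²) μ₁^q κ₁ = (b₂ b₃^m μ₂)^q κ₁ = b₂^q κ₁ · b₃^(mq) μ₂^q = b₁ b₃^m κ₂ b₃^(mq) μ₂^q
    have h1 : b₁ * (b₁ ^ (m * (m + 1) + m) * (μ₁ ^ (m + 1) * κ₁)) =
        b₁ * (b₃ ^ (m * (m + 1) + m) * (μ₂ ^ (m + 1) * κ₂)) := by
      calc b₁ * (b₁ ^ (m * (m + 1) + m) * (μ₁ ^ (m + 1) * κ₁))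
          = (b₁ ^ (m + 1) * μ₁) ^ (m + 1) * κ₁ := by ring
        _ = (b₂ * b₃ ^ m * μ₂) ^ (m + 1) * κ₁ := by rw [hβ]
        _ = (b₂ ^ (m + 1) * κ₁) * (b₃ ^ (m * (m + 1)) * μ₂ ^ (m + 1)) := by ring
        _ = (b₁ * b₃ ^ m * κ₂) * (b₃ ^ (m * (m + 1)) * μ₂ ^ (m + 1)) := by rw [hα]
        _ = b₁ * (b₃ ^ (m * (m + 1) + m) * (μ₂ ^ (m + 1) * κ₂)) := by ring
    exact mul_left_cancel₀ hb₁ h1
  · have h1 : b₂ * (b₂ ^ (m * (m + 1) + m) * (κ₁ ^ (m + 1) * μ₁)) =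
        b₂ * (b₃ ^ (m * (m + 1) + m) * (κ₂ ^ (m + 1) * μ₂)) := by
      calc b₂ * (b₂ ^ (m * (m + 1) + m) * (κ₁ ^ (m + 1) * μ₁))
          = (b₂ ^ (m + 1) * κ₁) ^ (m + 1) * μ₁ := by ring
        _ = (b₁ * b₃ ^ m * κ₂) ^ (m + 1) * μ₁ := by rw [hα]
        _ = (b₁ ^ (m + 1) * μ₁) * (b₃ ^ (m * (m + 1)) * κ₂ ^ (m + 1)) := by ring
        _ = (b₂ * b₃ ^ m * μ₂) * (b₃ ^ (m * (m + 1)) * κ₂ ^ (m + 1)) := by rw [hβ]
        _ = b₂ * (b₃ ^ (m * (m + 1) + m) * (κ₂ ^ (m + 1) * μ₂)) := by ring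
    exact mul_left_cancel₀ hb₂ h1

end Core

end H17T3
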