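import Mathlib
import Fermat.Agent.S36.KDMultiDefs_helper1
import Fermat.Agent.S36.Tor3Core_helper17

/-!
# Item 86 (S36, Carayol), architect file (helper4): the GENERIC middle chain, INTERFACE

Generic setting (as in `H1G3.KDMultiStatement`): `R` a DVR with uniformizer `ϖ`, `K = Frac R`
of characteristic `0`, `F / K(t)` finite (the function field of level `N' q²` over the
UNRAMIFIED number field `K = L`), `F'` the function field of level `N' q`,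
`φα, φβ : F' → F` the two degeneracy embeddings, `Nα, Nβ : F →* F'` the norms.

* `V₁ V₂ V₃` : the three Gauss valuation rings of `F` (`e = 1, 1, q - 1`), `b₃` a uniformizer of
  `V₃`;  `V₁' V₂'` : the two Gauss valuation rings of `F'`;
  `α : (V₁, V₃, V₂) ↦ (V₁', V₁', V₂')`,  `β : (V₁, V₃, V₂) ↦ (V₁', V₂', V₂')`.
* `OrdAt V π x k` : `x = π ^ k · unit` at `V`.
* `Triple …` : everything the generic chain uses about these data (owners: TG crew for the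
  valuation-theoretic fields, NORM crew for `vN*`, `cN*`).
* `VertStatement` (VERT3, helper1), `Abel3Statement` (helper4), `MLocLeaf` (the local leaf:
  TOR3 + locGlue + LOC + CU3), `InjGenStatement` : the chain
  `Triple + MLocLeaf + KDMulti ⟹ f ^ ((q + 1) (q² - 1)²) ∈ Kˣ · Fˣⁿ`.
-/

set_option autoImplicit false

noncomputable section

open IntermediateField AlgebraicCurve H7S18 H4S34 H1FW H1G3 H17T3

namespace H4S36

/-- `x = π ^ k · unit` at the valuation ring `V`. -/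
def OrdAt {F : Type} [Field F] (V : ValuationSubring F) (π x : F) (k : ℤ) : Prop :=
  V.valuation (x * π ^ (-k)) = 1

/-- The generic data of the middle chain of S36: three components upstairs, two downstairs. -/
structure Triple (R : Type) [CommRing R] (K : Type) [Field K] [Algebra R K]
    (F : Type) [Field F] [Algebra K F] [Algebra R F]
    (F' : Type) [Field F'] [Algebra K F'] [Algebra R F']
    (ϖ : R) (t : F) (q n : ℕ) (φα φβ : F' →+* F) (Nα Nβ : F →* F')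
    (V₁ V₂ V₃ : ValuationSubring F) (V₁' V₂' : ValuationSubring F') (b₃ : F) : Prop where
  /-- (TG) `O = V₁ ∩ V₂ ∩ V₃` -/
  hO : ∀ x : F, GInt R ϖ t x ↔ x ∈ V₁ ∧ x ∈ V₂ ∧ x ∈ V₃
  /-- (TG) `(𝔪₁ ∩ 𝔪₂ ∩ 𝔪₃)^q ⊆ ϖ O` -/
  hJ : ∀ x : F, V₁.valuation x < 1 → V₂.valuation x < 1 → V₃.valuation x < 1 →
    ModPi R ϖ t (x ^ q) 0
  /-- `R ⊆ V_i`, `R ⊆ V_i'` -/
  hR₁ : ∀ r : R, algebraMap R F r ∈ V₁
  hR₂ : ∀ r : R, algebraMap R F r ∈ V₂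
  hR₃ : ∀ r : R, algebraMap R F r ∈ V₃
  hR₁' : ∀ r : R, algebraMap R F' r ∈ V₁'
  hR₂' : ∀ r : R, algebraMap R F' r ∈ V₂'
  /-- uniformizers: `ϖ` at `V₁, V₂, V₁', V₂'`, `b₃` at `V₃` with `ϖ = b₃^(q-1) · unit` -/
  hϖ₁ : V₁.valuation (algebraMap R F ϖ) < 1
  hϖ₂ : V₂.valuation (algebraMap R F ϖ) < 1
  hb₃ : V₃.valuation b₃ < 1
  he₃ : OrdAt V₃ b₃ (algebraMap R F ϖ) ((q : ℤ) - 1)
  hϖ₁' : V₁'.valuation (algebraMap R F' ϖ) < 1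
  hϖ₂' : V₂'.valuation (algebraMap R F' ϖ) < 1
  /-- discreteness: every `x ≠ 0` is `uniformizer ^ k · unit` -/
  hd₁ : ∀ x : F, x ≠ 0 → ∃ k : ℤ, OrdAt V₁ (algebraMap R F ϖ) x k
  hd₂ : ∀ x : F, x ≠ 0 → ∃ k : ℤ, OrdAt V₂ (algebraMap R F ϖ) x k
  hd₃ : ∀ x : F, x ≠ 0 → ∃ k : ℤ, OrdAt V₃ b₃ x k
  hd₁' : ∀ x : F', x ≠ 0 → ∃ k : ℤ, OrdAt V₁' (algebraMap R F' ϖ) x k
  hd₂' : ∀ x : F', x ≠ 0 → ∃ k : ℤ, OrdAt V₂' (algebraMap R F' ϖ) x k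
  /-- weak approximation, order form -/
  wa : ∀ k₁ k₂ k₃ : ℤ, ∃ g : F, g ≠ 0 ∧ OrdAt V₁ (algebraMap R F ϖ) g k₁ ∧
    OrdAt V₂ (algebraMap R F ϖ) g k₂ ∧ OrdAt V₃ b₃ g k₃
  /-- weak approximation, residue form -/
  wg : ∀ ψ₁ ψ₂ ψ₃ : F, V₁.valuation ψ₁ = 1 → V₂.valuation ψ₂ = 1 → V₃.valuation ψ₃ = 1 →
    ∃ Ψ : F, Cg V₁ Ψ ψ₁ ∧ Cg V₂ Ψ ψ₂ ∧ Cg V₃ Ψ ψ₃
  /-- `φα, φβ` are `K`-linear; norms of constants -/
  hφα : ∀ c : K, φα (algebraMap K F' c) = algebraMap K F c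
  hφβ : ∀ c : K, φβ (algebraMap K F' c) = algebraMap K F c
  hNαc : ∀ c : K, Nα (algebraMap K F c) = algebraMap K F' c ^ q
  hNβc : ∀ c : K, Nβ (algebraMap K F c) = algebraMap K F' c ^ q
  /-- lying over: `α : V₁, V₃ | V₁'`, `V₂ | V₂'`;  `β : V₁ | V₁'`, `V₃, V₂ | V₂'` -/
  hα₁ : ∀ x : F', V₁'.valuation x < 1 ↔ V₁.valuation (φα x) < 1
  hα₃ : ∀ x : F', V₁'.valuation x < 1 ↔ V₃.valuation (φα x) < 1
  hα₂ : ∀ x : F', V₂'.valuation x < 1 ↔ V₂.valuation (φα x) < 1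
  hβ₁ : ∀ x : F', V₁'.valuation x < 1 ↔ V₁.valuation (φβ x) < 1
  hβ₃ : ∀ x : F', V₂'.valuation x < 1 ↔ V₃.valuation (φβ x) < 1
  hβ₂ : ∀ x : F', V₂'.valuation x < 1 ↔ V₂.valuation (φβ x) < 1
  /-- (NORM) valuations of norms -/
  vNα₁ : ∀ (x : F) (a c : ℤ), OrdAt V₁ (algebraMap R F ϖ) x a → OrdAt V₃ b₃ x c →
    OrdAt V₁' (algebraMap R F' ϖ) (Nα x) (a + c)
  vNα₂ : ∀ (x : F) (a : ℤ), OrdAt V₂ (algebraMap R F ϖ) x a →
    OrdAt V₂' (algebraMap R F' ϖ) (Nα x) (q * a)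
  vNβ₁ : ∀ (x : F) (a : ℤ), OrdAt V₁ (algebraMap R F ϖ) x a →
    OrdAt V₁' (algebraMap R F' ϖ) (Nβ x) (q * a)
  vNβ₂ : ∀ (x : F) (a c : ℤ), OrdAt V₂ (algebraMap R F ϖ) x a → OrdAt V₃ b₃ x c →
    OrdAt V₂' (algebraMap R F' ϖ) (Nβ x) (a + c)
  /-- (NORM) congruences (the hypotheses of `H17T3.h17t3_toric`) -/
  cNα₁ : ∀ x : F, V₁.valuation x = 1 → V₃.valuation x = 1 → ∀ a : F', a ∈ V₁' →
    Cg V₃ x (φα a) → Cg V₁ (φα (Nα x)) (x * φα a ^ (q - 1))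
  cNα₂ : ∀ x : F, V₂.valuation x = 1 → Cg V₂ (φα (Nα x)) (x ^ q)
  cNβ₂ : ∀ x : F, V₂.valuation x = 1 → V₃.valuation x = 1 → ∀ a : F', a ∈ V₂' →
    Cg V₃ x (φβ a) → Cg V₂ (φβ (Nβ x)) (x * φβ a ^ (q - 1))
  cNβ₁ : ∀ x : F, V₁.valuation x = 1 → Cg V₁ (φβ (Nβ x)) (x ^ q)
  /-- residue degree one -/
  f₃α : ∀ x : F, x ∈ V₃ → ∃ a : F', a ∈ V₁' ∧ Cg V₃ x (φα a)
  f₃β : ∀ x : F, x ∈ V₃ → ∃ a : F', a ∈ V₂' ∧ Cg V₃ x (φβ a)
  f₁α : ∀ x : F, x ∈ V₁ → ∃ p : F', p ∈ V₁' ∧ Cg V₁ x (φα p)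
  f₂β : ∀ x : F, x ∈ V₂ → ∃ p : F', p ∈ V₂' ∧ Cg V₂ x (φβ p)
  /-- constants: the residue field of `R` is algebraically closed in `κ(V₁')` -/
  calg : ∀ c : R, IsUnit c → ∀ g : F', V₁'.valuation g = 1 →
    Cg V₁' (algebraMap R F' c) (g ^ n) → ∃ d r : R, IsUnit d ∧ c = d ^ n * (1 + ϖ * r)

/-- `x` is a unit at `V₁, V₂, V₃`. -/
def Unit3 {F : Type} [Field F] (V₁ V₂ V₃ : ValuationSubring F) (x : F) : Prop :=
  V₁.valuation x = 1 ∧ V₂.valuation x = 1 ∧ V₃.valuation x = 1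

/-- `x ≡ 1` at `V₁, V₂, V₃`. -/
def One3 {F : Type} [Field F] (V₁ V₂ V₃ : ValuationSubring F) (x : F) : Prop :=
  One V₁ x ∧ One V₂ x ∧ One V₃ x

/-- the norm of `x` is a constant times an `n`-th power -/
def NormPow {K F F' : Type} [Field K] [Field F] [Field F'] [Algebra K F']
    (Nm : F →* F') (n : ℕ) (x : F) : Prop :=
  ∃ (c : K) (G : F'), c ≠ 0 ∧ G ≠ 0 ∧ Nm x = algebraMap K F' c * G ^ n

/-- the norm of `x` is a unit of `R` times an `n`-th power -/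
def NormPowU (R : Type) [CommRing R] {F F' : Type} [Field F] [Field F'] [Algebra R F']
    (Nm : F →* F') (n : ℕ) (x : F) : Prop :=
  ∃ (c : R) (G : F'), IsUnit c ∧ G ≠ 0 ∧ Nm x = algebraMap R F' c * G ^ n

/-- the norm of `x` is a constant `≡ 1 mod ϖ` times an `n`-th power -/
def NormPow1 (R : Type) [CommRing R] {F F' : Type} [Field F] [Field F'] [Algebra R F']
    (ϖ : R) (Nm : F →* F') (n : ℕ) (x : F) : Prop :=
  ∃ (r : R) (G : F'), G ≠ 0 ∧ Nm x = algebraMap R F' (1 + ϖ * r) * G ^ n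

/-- **(VERT3)** vertical normalisation: if `Nα f`, `Nβ f ∈ Kˣ · F'ˣⁿ` then `f ^ (q+1) · d · gⁿ`
is a unit at `V₁, V₂, V₃` (`d ∈ Kˣ`), and its norms are in `Rˣ · F'ˣⁿ`. -/
def VertStatement : Prop :=
  ∀ (R : Type) [CommRing R] [IsDomain R] [IsDiscreteValuationRing R]
    (K : Type) [Field K] [CharZero K] [Algebra R K] [IsFractionRing R K]
    (F : Type) [Field F] [Algebra K F] [Algebra R F] [IsScalarTower R K F]
    (F' : Type) [Field F'] [Algebra K F'] [Algebra R F'] [IsScalarTower R K F']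
    (ϖ : R) (_ : Irreducible ϖ) (t : F) (q n : ℕ) (_ : 0 < q) (_ : 0 < n)
    (φα φβ : F' →+* F) (Nα Nβ : F →* F')
    (V₁ V₂ V₃ : ValuationSubring F) (V₁' V₂' : ValuationSubring F') (b₃ : F)
    (_ : Triple R K F F' ϖ t q n φα φβ Nα Nβ V₁ V₂ V₃ V₁' V₂' b₃)
    (f : F) (_ : f ≠ 0) (_ : NormPow (K := K) Nα n f) (_ : NormPow (K := K) Nβ n f),
    ∃ (d : K) (g : F), d ≠ 0 ∧ g ≠ 0 ∧
      Unit3 V₁ V₂ V₃ (f ^ (q + 1) * algebraMap K F d * g ^ n) ∧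
      NormPowU R Nα n (f ^ (q + 1) * algebraMap K F d * g ^ n) ∧
      NormPowU R Nβ n (f ^ (q + 1) * algebraMap K F d * g ^ n)

/-- **(ABEL3)** with constants: a unit `u` at `V₁, V₂, V₃` with norms in `Rˣ · F'ˣⁿ` has
`u ^ (q² - 1) = c₀ · Ψⁿ · v` with `v ≡ 1` at `V₁, V₂, V₃`, and the norms of `v` are
`(1 + ϖ r) · n`-th powers. -/
def Abel3Statement : Prop :=
  ∀ (R : Type) [CommRing R] [IsDomain R] [IsDiscreteValuationRing R]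
    (K : Type) [Field K] [CharZero K] [Algebra R K] [IsFractionRing R K]
    (F : Type) [Field F] [Algebra K F] [Algebra R F] [IsScalarTower R K F]
    (F' : Type) [Field F'] [Algebra K F'] [Algebra R F'] [IsScalarTower R K F']
    (ϖ : R) (_ : Irreducible ϖ) (t : F) (q n : ℕ) (_ : 0 < q) (_ : 0 < n) (_ : Nat.Coprime q n)
    (φα φβ : F' →+* F) (Nα Nβ : F →* F')
    (V₁ V₂ V₃ : ValuationSubring F) (V₁' V₂' : ValuationSubring F') (b₃ : F)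
    (_ : Triple R K F F' ϖ t q n φα φβ Nα Nβ V₁ V₂ V₃ V₁' V₂' b₃)
    (u : F) (_ : Unit3 V₁ V₂ V₃ u) (_ : NormPowU R Nα n u) (_ : NormPowU R Nβ n u),
    ∃ (c₀ : R) (Ψ : F), IsUnit c₀ ∧ Ψ ≠ 0 ∧
      One3 V₁ V₂ V₃ (u ^ (q ^ 2 - 1) * (algebraMap R F c₀ * Ψ ^ n)⁻¹) ∧
      NormPow1 R ϖ Nα n (u ^ (q ^ 2 - 1) * (algebraMap R F c₀ * Ψ ^ n)⁻¹) ∧
      NormPow1 R ϖ Nβ n (u ^ (q ^ 2 - 1) * (algebraMap R F c₀ * Ψ ^ n)⁻¹)

/-- **(MLOC), the local leaf** for given data: every `v ≡ 1` at `V₁, V₂, V₃` with `n ∣ div v`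
and norms `(1 + ϖ r) · n`-th powers has, after the power `q² - 1` and a correction `eⁿ ≡ 1`,
the local property `H1G3.MLoc` in both charts.
(= `H17T3.h17t3_toric` + `H10G3.locGlueVal_h` + (L1) at every closed point + branch roots.) -/
def MLocLeaf (R : Type) [CommRing R] (K : Type) [Field K] [Algebra R K]
    (F : Type) [Field F] [Algebra K F] [Algebra R F]
    (F' : Type) [Field F'] [Algebra R F']
    (ϖ : R) (t : F) (q n : ℕ) (Nα Nβ : F →* F')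
    (V₁ V₂ V₃ : ValuationSubring F) : Prop :=
  ∀ v : F, v ≠ 0 → One3 V₁ V₂ V₃ v → (∀ V : Place K F, (n : ℤ) ∣ V.ord v) →
    NormPow1 R ϖ Nα n v → NormPow1 R ϖ Nβ n v →
    ∃ e : F, e ≠ 0 ∧ One3 V₁ V₂ V₃ (e ^ n) ∧
      MLoc R ϖ {V₁, V₂, V₃} t n (v ^ (q ^ 2 - 1) * e ^ n) ∧
      MLoc R ϖ {V₁, V₂, V₃} t⁻¹ n (v ^ (q ^ 2 - 1) * e ^ n)

/-- **the generic middle chain**: `Triple` + `MLocLeaf` + norms of `f` in `Kˣ · F'ˣⁿ` +
`n ∣ div f`  `⟹  f ^ ((q + 1) (q² - 1)²) ∈ Kˣ · Fˣⁿ`. -/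
def InjGenStatement : Prop :=
  ∀ (R : Type) [CommRing R] [IsDomain R] [IsDiscreteValuationRing R]
    (K : Type) [Field K] [CharZero K] [Algebra R K] [IsFractionRing R K]
    (F : Type) [Field F] [Algebra K F] [Algebra R F] [IsScalarTower R K F]
    (F' : Type) [Field F'] [Algebra K F'] [Algebra R F'] [IsScalarTower R K F']
    (ϖ : R) (_ : Irreducible ϖ) (t : F) (_ : Transcendental K t)
    (_ : FiniteDimensional K⟮t⟯ F)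
    (_ : ∀ x : F, IsAlgebraic K x → x ∈ (algebraMap K F).range)
    (q n : ℕ) (_ : 0 < q) (_ : 0 < n) (_ : Nat.Coprime q n)
    (_ : IsUnit (n : R)) (_ : ∃ ζ : R, IsPrimitiveRoot ζ n)
    (φα φβ : F' →+* F) (Nα Nβ : F →* F')
    (V₁ V₂ V₃ : ValuationSubring F) (V₁' V₂' : ValuationSubring F') (b₃ : F)
    (_ : Triple R K F F' ϖ t q n φα φβ Nα Nβ V₁ V₂ V₃ V₁' V₂' b₃)
    (_ : MLocLeaf R K F F' ϖ t q n Nα Nβ V₁ V₂ V₃)
    (f : F) (_ : f ≠ 0) (_ : ∀ V : Place K F, (n : ℤ) ∣ V.ord f)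
    (_ : NormPow (K := K) Nα n f) (_ : NormPow (K := K) Nβ n f),
    ∃ (c : K) (g : F), c ≠ 0 ∧ g ≠ 0 ∧
      f ^ ((q + 1) * ((q ^ 2 - 1) * (q ^ 2 - 1))) = algebraMap K F c * g ^ n

end H4S36

end
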