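import Mathlib
import Fermat.Agent.S36.InjGenDefs_helper4

/-!
# Item 86 (S36, Carayol): the generic slice (ABEL3)  (helper16)

`H16AB.abel3 : H4S36.Abel3Statement` (architect file `S36/InjGenDefs_helper4.lean`):
a unit `u` at `V₁, V₂, V₃` whose norms `Nα u`, `Nβ u` are in `Rˣ · F'ˣⁿ` satisfies
`u ^ (q² - 1) = c₀ · Ψⁿ · v` with `c₀ ∈ Rˣ`, `v ≡ 1` at `V₁, V₂, V₃`, and the norms of `v` are
`(1 + ϖ r) · n`-th powers.

Bookkeeping devices:
* `PC V n z` : `z ≡ ψⁿ` at `V` for a unit `ψ` of `V` (closed under products, powers, inverses);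
* `PR ϖ n c` : `c = dⁿ (1 + ϖ r)` with `d ∈ Rˣ` (closed under products and powers).
-/

set_option autoImplicit false
set_option linter.unusedSectionVars false
set_option linter.unusedVariables false
set_option linter.style.haveILetI false

noncomputable section

namespace H16AB

open H17T3 H4S36 H1FW

/-! ### units of a valuation subring -/

section basic

variable {F : Type*} [Field F] {V : ValuationSubring F}

theorem mem_of_val {x : F} (h : V.valuation x = 1) : x ∈ V :=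
  (V.valuation_le_one_iff x).1 h.le

theorem ne_zero_of_val {x : F} (h : V.valuation x = 1) : x ≠ 0 := by
  rintro rfl
  rw [map_zero] at h
  exact zero_ne_one h

theorem val_inv {x : F} (h : V.valuation x = 1) : V.valuation x⁻¹ = 1 := by
  rw [map_inv₀, h, inv_one]

theorem val_mul {x y : F} (hx : V.valuation x = 1) (hy : V.valuation y = 1) :
    V.valuation (x * y) = 1 := by
  rw [map_mul, hx, hy, one_mul]

theorem val_pow {x : F} (hx : V.valuation x = 1) (m : ℕ) : V.valuation (x ^ m) = 1 := by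
  rw [map_pow, hx, one_pow]

theorem val_of_mul_left {x y : F} (hxy : V.valuation (x * y) = 1) (hx : V.valuation x = 1) :
    V.valuation y = 1 := by
  rwa [map_mul, hx, one_mul] at hxy

/-- `z ≡ ψⁿ` at `V` for some unit `ψ` of `V`. -/
def PC (V : ValuationSubring F) (n : ℕ) (z : F) : Prop :=
  ∃ ψ : F, V.valuation ψ = 1 ∧ Cg V z (ψ ^ n)

theorem PC.val {n : ℕ} {z : F} (h : PC V n z) : V.valuation z = 1 := by
  obtain ⟨ψ, hψ, hc⟩ := h
  exact cg_val_eq_one hc (val_pow hψ n)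

theorem PC.of_pow {n : ℕ} {ψ : F} (hψ : V.valuation ψ = 1) : PC V n (ψ ^ n) :=
  ⟨ψ, hψ, cg_refl V _⟩

theorem PC.mul {n : ℕ} {z₁ z₂ : F} (h₁ : PC V n z₁) (h₂ : PC V n z₂) : PC V n (z₁ * z₂) := by
  have hz₂ := h₂.val
  obtain ⟨ψ₁, hψ₁, h1⟩ := h₁
  obtain ⟨ψ₂, hψ₂, h2⟩ := h₂
  refine ⟨ψ₁ * ψ₂, val_mul hψ₁ hψ₂, ?_⟩
  rw [mul_pow]
  exact cg_mul h1 h2 (mem_of_val (val_pow hψ₁ n)) (mem_of_val hz₂)

theorem PC.pow {n : ℕ} {z : F} (h : PC V n z) (m : ℕ) : PC V n (z ^ m) := by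
  obtain ⟨ψ, hψ, hc⟩ := h
  refine ⟨ψ ^ m, val_pow hψ m, ?_⟩
  rw [← pow_mul, mul_comm m n, pow_mul]
  exact cg_pow hc (mem_of_val (val_pow hψ n)) m

theorem PC.inv {n : ℕ} {z : F} (h : PC V n z) : PC V n z⁻¹ := by
  have hz := h.val
  obtain ⟨ψ, hψ, hc⟩ := h
  refine ⟨ψ⁻¹, val_inv hψ, ?_⟩
  have hz0 := ne_zero_of_val hz
  have hψ0 : ψ ^ n ≠ 0 := pow_ne_zero _ (ne_zero_of_val hψ)
  have e : z⁻¹ - ψ⁻¹ ^ n = -(z - ψ ^ n) * (z⁻¹ * (ψ ^ n)⁻¹) := by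
    rw [inv_pow]
    field_simp
    ring
  unfold Cg at hc ⊢
  rw [e, map_mul, Valuation.map_neg, val_mul (val_inv hz) (val_inv (val_pow hψ n)), mul_one]
  exact hc

theorem PC.congr {n : ℕ} {z z' : F} (hc : Cg V z z') (h : PC V n z') : PC V n z := by
  obtain ⟨ψ, hψ, h'⟩ := h
  exact ⟨ψ, hψ, cg_trans hc h'⟩

theorem PC.of_eq {n : ℕ} {z z' : F} (h : PC V n z') (e : z = z') : PC V n z := e ▸ h

/-- extraction of a `q`-th root modulo `n`-th powers (`a q = 1 + k n`). -/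
theorem pc_root {n q a k : ℕ} (hak : a * q = 1 + k * n) {u c : F} (hu : V.valuation u = 1)
    (hc : V.valuation c = 1) (h : PC V n (u ^ q * c⁻¹)) : PC V n (u * (c ^ a)⁻¹) := by
  have h1 := (h.pow a).mul (PC.of_pow (n := n) (val_inv (val_pow hu k)))
  refine h1.of_eq ?_
  have hu0 := ne_zero_of_val hu
  have hc0 := ne_zero_of_val hc
  have e1 : (u ^ q) ^ a = u * (u ^ k) ^ n := by
    rw [← pow_mul, mul_comm q a, hak, pow_add, pow_one, pow_mul]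
  rw [mul_pow, e1, inv_pow, inv_pow]
  field_simp

end basic

/-! ### transport along `φ : F' → F` with `V` over `V'` -/

section transport

variable {F F' : Type*} [Field F] [Field F'] (φ : F' →+* F) {V : ValuationSubring F}
  {V' : ValuationSubring F'}

theorem cg_up (hφ : ∀ x : F', V'.valuation x < 1 ↔ V.valuation (φ x) < 1) {x y : F'}
    (h : Cg V' x y) : Cg V (φ x) (φ y) := by
  unfold Cg at h ⊢
  rw [← map_sub]
  exact (hφ _).1 h

theorem cg_down (hφ : ∀ x : F', V'.valuation x < 1 ↔ V.valuation (φ x) < 1) {x y : F'}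
    (h : Cg V (φ x) (φ y)) : Cg V' x y := by
  unfold Cg at h ⊢
  rw [← map_sub] at h
  exact (hφ _).2 h

theorem val_up (hφ : ∀ x : F', V'.valuation x < 1 ↔ V.valuation (φ x) < 1) {x : F'}
    (h : V'.valuation x = 1) : V.valuation (φ x) = 1 := by
  have hx0 : x ≠ 0 := ne_zero_of_val h
  have h1 : ¬ V.valuation (φ x) < 1 := fun hlt => by
    have := (hφ x).2 hlt
    rw [h] at this
    exact lt_irrefl _ this
  have h2 : ¬ V.valuation (φ x⁻¹) < 1 := fun hlt => by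
    have := (hφ x⁻¹).2 hlt
    rw [val_inv h] at this
    exact lt_irrefl _ this
  rw [map_inv₀, map_inv₀] at h2
  have h0 : V.valuation (φ x) ≠ 0 := by
    rw [ne_eq, Valuation.zero_iff]
    exact (map_ne_zero φ).2 hx0
  apply le_antisymm _ (not_lt.1 h1)
  by_contra hgt
  rw [not_le] at hgt
  exact h2 (inv_lt_one_of_one_lt₀ hgt)

theorem val_down (hφ : ∀ x : F', V'.valuation x < 1 ↔ V.valuation (φ x) < 1) {x : F'}
    (h : V.valuation (φ x) = 1) : V'.valuation x = 1 := by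
  have hx0 : x ≠ 0 := by
    rintro rfl
    rw [map_zero, map_zero] at h
    exact zero_ne_one h
  have h1 : ¬ V'.valuation x < 1 := fun hlt => by
    have := (hφ x).1 hlt
    rw [h] at this
    exact lt_irrefl _ this
  have h2 : ¬ V'.valuation x⁻¹ < 1 := fun hlt => by
    have := (hφ x⁻¹).1 hlt
    rw [map_inv₀, val_inv h] at this
    exact lt_irrefl _ this
  rw [map_inv₀] at h2
  have h0 : V'.valuation x ≠ 0 := by
    rw [ne_eq, Valuation.zero_iff]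
    exact hx0
  apply le_antisymm _ (not_lt.1 h1)
  by_contra hgt
  rw [not_le] at hgt
  exact h2 (inv_lt_one_of_one_lt₀ hgt)

/-- descent of `PC` along `φ` when the residue extension is trivial. -/
theorem pc_down (hφ : ∀ x : F', V'.valuation x < 1 ↔ V.valuation (φ x) < 1)
    (hf : ∀ x : F, x ∈ V → ∃ a : F', a ∈ V' ∧ Cg V x (φ a)) {n : ℕ} {c : F'}
    (h : PC V n (φ c)) : PC V' n c := by
  obtain ⟨ψ, hψ, hc⟩ := h
  obtain ⟨g, -, hg⟩ := hf ψ (mem_of_val hψ)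
  have hgu : V.valuation (φ g) = 1 := cg_val_eq_one (cg_symm hg) hψ
  refine ⟨g, val_down φ hφ hgu, ?_⟩
  apply cg_down φ hφ
  rw [map_pow]
  exact cg_trans hc (cg_pow hg (mem_of_val hgu) n)

end transport

/-! ### constants -/

section const

variable {R F : Type*} [CommRing R] [Field F] [Algebra R F] {V : ValuationSubring F}

theorem val_unit (hR : ∀ r : R, algebraMap R F r ∈ V) {c : R} (hc : IsUnit c) :
    V.valuation (algebraMap R F c) = 1 := by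
  obtain ⟨c', hcc'⟩ := hc.exists_right_inv
  have h1 : V.valuation (algebraMap R F c) ≤ 1 := (V.valuation_le_one_iff _).2 (hR c)
  have h2 : V.valuation (algebraMap R F c') ≤ 1 := (V.valuation_le_one_iff _).2 (hR c')
  have h3 : V.valuation (algebraMap R F c) * V.valuation (algebraMap R F c') = 1 := by
    rw [← map_mul, ← map_mul, hcc', map_one, map_one]
  by_contra hne
  have hlt : V.valuation (algebraMap R F c) < 1 := lt_of_le_of_ne h1 hne
  have : V.valuation (algebraMap R F c) * V.valuation (algebraMap R F c') < 1 :=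
    lt_of_le_of_lt (mul_le_mul' le_rfl h2) (by rwa [mul_one])
  rw [h3] at this
  exact lt_irrefl _ this

/-- `c = dⁿ (1 + ϖ r)` with `d` a unit of `R`. -/
def PR (ϖ : R) (n : ℕ) (c : R) : Prop :=
  ∃ d r : R, IsUnit d ∧ c = d ^ n * (1 + ϖ * r)

theorem PR.of_pow (ϖ : R) (n : ℕ) {d : R} (hd : IsUnit d) : PR ϖ n (d ^ n) :=
  ⟨d, 0, hd, by ring⟩

theorem PR.mul {ϖ : R} {n : ℕ} {c c' : R} (h : PR ϖ n c) (h' : PR ϖ n c') :
    PR ϖ n (c * c') := by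
  obtain ⟨d, r, hd, rfl⟩ := h
  obtain ⟨d', r', hd', rfl⟩ := h'
  exact ⟨d * d', r + r' + ϖ * r * r', hd.mul hd', by ring⟩

theorem PR.pow {ϖ : R} {n : ℕ} {c : R} (h : PR ϖ n c) (m : ℕ) : PR ϖ n (c ^ m) := by
  induction m with
  | zero => exact ⟨1, 0, isUnit_one, by ring⟩
  | succ m ih =>
    rw [pow_succ]
    exact ih.mul h

theorem PR.pc (hR : ∀ r : R, algebraMap R F r ∈ V) {ϖ : R}
    (hϖ : V.valuation (algebraMap R F ϖ) < 1) {n : ℕ} {c : R} (h : PR ϖ n c) :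
    PC V n (algebraMap R F c) := by
  obtain ⟨d, r, hd, rfl⟩ := h
  refine ⟨algebraMap R F d, val_unit hR hd, ?_⟩
  unfold Cg
  have e : algebraMap R F (d ^ n * (1 + ϖ * r)) - algebraMap R F d ^ n =
      algebraMap R F ϖ * algebraMap R F (d ^ n * r) := by
    simp only [map_mul, map_add, map_one, map_pow]
    ring
  rw [e, map_mul]
  calc V.valuation (algebraMap R F ϖ) * V.valuation (algebraMap R F (d ^ n * r))
      ≤ V.valuation (algebraMap R F ϖ) * 1 :=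
        mul_le_mul' le_rfl ((V.valuation_le_one_iff _).2 (hR _))
    _ = V.valuation (algebraMap R F ϖ) := mul_one _
    _ < 1 := hϖ

end const

/-! ### the step along one degeneracy map -/

section step

variable {F F' : Type*} [Field F] [Field F'] (φ : F' →+* F) {Va V₃ : ValuationSubring F}
  {Va' : ValuationSubring F'}

/-- **step (iii)**: from the congruence for `u` at `Va` (over `Va'`) and the norm congruence
at `Va` to the congruence for `u ^ (q - 1)` at `V₃` (also over `Va'`). -/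
theorem step3 (hφa : ∀ x : F', Va'.valuation x < 1 ↔ Va.valuation (φ x) < 1)
    (hφ3 : ∀ x : F', Va'.valuation x < 1 ↔ V₃.valuation (φ x) < 1)
    (f3 : ∀ x : F, x ∈ V₃ → ∃ a : F', a ∈ Va' ∧ Cg V₃ x (φ a))
    (fa : ∀ x : F, x ∈ Va → ∃ p : F', p ∈ Va' ∧ Cg Va x (φ p))
    {q n : ℕ} (u : F) (hua : Va.valuation u = 1) (hu3 : V₃.valuation u = 1) (N : F')
    (hcN : ∀ a : F', a ∈ Va' → Cg V₃ u (φ a) → Cg Va (φ N) (u * φ a ^ (q - 1)))
    (E C G : F') (hN : N = E * G ^ n) (hG : Va'.valuation G = 1) (hE : Va'.valuation E = 1)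
    (hC : Va'.valuation C = 1) (h1 : PC Va n (u * (φ C)⁻¹)) :
    PC V₃ n (u ^ (q - 1) * (φ E * (φ C)⁻¹)⁻¹) := by
  obtain ⟨a3, ha3, hc3⟩ := f3 u (mem_of_val hu3)
  have hcN' := hcN a3 ha3 hc3
  obtain ⟨ψ1, hψ1, hcψ⟩ := h1
  obtain ⟨p1, -, hp1⟩ := fa ψ1 (mem_of_val hψ1)
  -- units
  have hφp1a : Va.valuation (φ p1) = 1 := cg_val_eq_one (cg_symm hp1) hψ1
  have hp1' : Va'.valuation p1 = 1 := val_down φ hφa hφp1a
  have hφa3 : V₃.valuation (φ a3) = 1 := cg_val_eq_one (cg_symm hc3) hu3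
  have ha3' : Va'.valuation a3 = 1 := val_down φ hφ3 hφa3
  have hCa : Va.valuation (φ C) = 1 := val_up φ hφa hC
  have hC3 : V₃.valuation (φ C) = 1 := val_up φ hφ3 hC
  have hE3 : V₃.valuation (φ E) = 1 := val_up φ hφ3 hE
  have hG3 : V₃.valuation (φ G) = 1 := val_up φ hφ3 hG
  have hp13 : V₃.valuation (φ p1) = 1 := val_up φ hφ3 hp1'
  have hC0 := ne_zero_of_val hC3
  have hE0 := ne_zero_of_val hE3
  have hp0 := ne_zero_of_val hp13
  -- `u ≡ φ C · φ(p1)ⁿ` at `Va`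
  have h2 : Cg Va u (φ C * φ p1 ^ n) := by
    have h3 : Cg Va (u * (φ C)⁻¹) (φ p1 ^ n) :=
      cg_trans hcψ (cg_pow hp1 (mem_of_val hφp1a) n)
    have h4 := cg_mul_right (φ C) (mem_of_val hCa) h3
    have e1 : u * (φ C)⁻¹ * φ C = u := by
      rw [mul_assoc, inv_mul_cancel₀ (ne_zero_of_val hCa), mul_one]
    rw [e1] at h4
    rw [mul_comm (φ C)]
    exact h4
  -- `φ N ≡ φ (C p1ⁿ a3^(q-1))` at `Va`
  have h5 : Cg Va (φ N) (φ (C * p1 ^ n * a3 ^ (q - 1))) := by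
    rw [map_mul, map_mul, map_pow, map_pow]
    refine cg_trans hcN' ?_
    exact cg_mul_right _ (mem_of_val (val_pow (val_up φ hφa ha3') _)) h2
  -- transfer to `V₃`
  have h6 : Cg V₃ (φ N) (φ (C * p1 ^ n * a3 ^ (q - 1))) := cg_up φ hφ3 (cg_down φ hφa h5)
  rw [map_mul, map_mul, map_pow, map_pow, hN, map_mul, map_pow] at h6
  -- replace `φ a3` by `u`
  have h7 : Cg V₃ (φ E * φ G ^ n) (φ C * φ p1 ^ n * u ^ (q - 1)) := by
    refine cg_trans h6 ?_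
    exact cg_mul_left _ (mem_of_val (val_mul hC3 (val_pow hp13 n)))
      (cg_pow (cg_symm hc3) (mem_of_val hu3) _)
  -- divide
  refine ⟨φ G * (φ p1)⁻¹, val_mul hG3 (val_inv hp13), ?_⟩
  have h8 := cg_mul_right ((φ E)⁻¹ * (φ p1 ^ n)⁻¹)
    (mem_of_val (val_mul (val_inv hE3) (val_inv (val_pow hp13 n)))) (cg_symm h7)
  have e2 : φ C * φ p1 ^ n * u ^ (q - 1) * ((φ E)⁻¹ * (φ p1 ^ n)⁻¹) =
      u ^ (q - 1) * (φ E * (φ C)⁻¹)⁻¹ := by
    field_simp
  have e3 : φ E * φ G ^ n * ((φ E)⁻¹ * (φ p1 ^ n)⁻¹) = (φ G * (φ p1)⁻¹) ^ n := by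
    rw [mul_pow, inv_pow]
    field_simp
  rwa [e2, e3] at h8

end step

/-! ### arithmetic and units of `R` -/

section arith

theorem exists_ak {q n : ℕ} (hq : 0 < q) (hn : 0 < n) (h : Nat.Coprime q n) :
    ∃ a k : ℕ, a * q = 1 + k * n := by
  rcases Nat.lt_or_ge 1 n with h1 | h1
  · obtain ⟨m, -, hm⟩ := Nat.exists_mul_mod_eq_one_of_coprime h h1
    refine ⟨m, q * m / n, ?_⟩
    have h2 := Nat.div_add_mod (q * m) n
    rw [hm] at h2
    calc m * q = q * m := mul_comm _ _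
      _ = n * (q * m / n) + 1 := h2.symm
      _ = 1 + q * m / n * n := by ring
  · have h2 : n = 1 := by omega
    subst h2
    exact ⟨1, q - 1, by omega⟩

theorem sq_sub_one_eq {q : ℕ} (hq : 0 < q) : q ^ 2 - 1 = (q - 1) * (q + 1) := by
  obtain ⟨q', rfl⟩ : ∃ q', q = q' + 1 := ⟨q - 1, by omega⟩
  have h : (q' + 1) ^ 2 = q' * (q' + 1 + 1) + 1 := by ring
  rw [h]
  simp

variable {G : Type*} [CommGroup G]

/-- `X^(q+1) = (X^(1+a))^q · ((X⁻¹)^k)ⁿ` when `a q = 1 + k n`. -/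
theorem grp_id1 {q n a k : ℕ} (hak : a * q = 1 + k * n) (X : G) :
    X ^ (q + 1) = (X ^ (1 + a)) ^ q * ((X⁻¹) ^ k) ^ n := by
  have h1 : (1 + a) * q = (q + 1) + k * n := by
    rw [add_mul, one_mul, hak]
    ring
  have h2 : (X ^ (1 + a)) ^ q = X ^ (q + 1) * X ^ (k * n) := by
    rw [← pow_mul, h1, pow_add]
  have h3 : ((X⁻¹) ^ k) ^ n = (X ^ (k * n))⁻¹ := by
    rw [← pow_mul, inv_pow]
  rw [h2, h3, mul_inv_cancel_right]

/-- `c₃^(q+1) = X^(q+1) · ((e_b⁻¹)^(k(q+1)))ⁿ · c₀`. -/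
theorem grp_id2 {q n a k : ℕ} (hq : 0 < q) (hak : a * q = 1 + k * n) (ea eb : G) :
    (ea * (eb ^ a)⁻¹) ^ (q + 1) =
      ((ea * eb⁻¹) ^ (q + 1) * ((eb⁻¹) ^ (k * (q + 1))) ^ n) * eb ^ (a * (q ^ 2 - 1)) := by
  have h1 : a * (q ^ 2 - 1) + a * (q + 1) = (q + 1) + k * (q + 1) * n := by
    rw [sq_sub_one_eq hq]
    obtain ⟨q', rfl⟩ : ∃ q', q = q' + 1 := ⟨q - 1, by omega⟩
    have h2 : a * ((q' + 1 - 1) * (q' + 1 + 1)) + a * (q' + 1 + 1) =
        (a * (q' + 1)) * (q' + 1 + 1) := by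
      simp only [Nat.add_sub_cancel]
      ring
    rw [h2, hak]
    ring
  have h3 : eb ^ (a * (q ^ 2 - 1)) * eb ^ (a * (q + 1)) =
      eb ^ (q + 1) * eb ^ (k * (q + 1) * n) := by
    rw [← pow_add, ← pow_add, h1]
  have h4 : (ea * (eb ^ a)⁻¹) ^ (q + 1) = ea ^ (q + 1) * (eb ^ (a * (q + 1)))⁻¹ := by
    rw [mul_pow, inv_pow, ← pow_mul]
  have h5 : (ea * eb⁻¹) ^ (q + 1) * ((eb⁻¹) ^ (k * (q + 1))) ^ n =
      ea ^ (q + 1) * (eb ^ (q + 1) * eb ^ (k * (q + 1) * n))⁻¹ := by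
    rw [mul_pow, inv_pow, inv_pow, inv_pow, ← pow_mul, mul_inv, mul_assoc]
  rw [h4, h5, ← h3, mul_assoc]
  congr 1
  rw [mul_inv, mul_assoc, mul_comm ((eb ^ (a * (q + 1)))⁻¹), ← mul_assoc, inv_mul_cancel,
    one_mul]

/-- `c₂^m = X^(a m) · c₀`. -/
theorem grp_id3 (a m : ℕ) (ea eb : G) :
    (ea ^ a) ^ m = (ea * eb⁻¹) ^ (a * m) * eb ^ (a * m) := by
  rw [mul_pow, inv_pow, mul_assoc, inv_mul_cancel, mul_one, pow_mul]

/-- `c₃ · c₃'⁻¹ = X^(1+a)`. -/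
theorem grp_id4 (a : ℕ) (ea eb : G) :
    (ea * (eb ^ a)⁻¹) * (eb * (ea ^ a)⁻¹)⁻¹ = (ea * eb⁻¹) ^ (1 + a) := by
  rw [pow_add, pow_one, mul_pow, inv_pow, mul_inv, inv_inv]
  simp only [mul_comm, mul_left_comm, mul_assoc]

end arith

section units

variable (R F : Type*) [CommRing R] [Field F] [Algebra R F]

/-- units of `R` in `F`, as a monoid homomorphism -/
def iu : Rˣ →* F := ((algebraMap R F : R →+* F) : R →* F).comp (Units.coeHom R)

theorem iu_apply (e : Rˣ) : iu R F e = algebraMap R F (e : R) := rfl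

theorem iu_ne_zero (e : Rˣ) : iu R F e ≠ 0 := by
  intro h
  have h1 : iu R F e * iu R F e⁻¹ = 1 := by rw [← map_mul, mul_inv_cancel, map_one]
  rw [h, zero_mul] at h1
  exact zero_ne_one h1

end units

/-- a multiplicative map between fields commutes with inverses of nonzero elements -/
theorem map_inv_of_ne {F F' : Type*} [Field F] [Field F'] (N : F →* F') {x : F} (hx : x ≠ 0) :
    N x⁻¹ = (N x)⁻¹ := by
  apply eq_inv_of_mul_eq_one_left
  rw [← map_mul, inv_mul_cancel₀ hx, map_one]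

theorem map_ne_zero_of_ne {F F' : Type*} [Field F] [Field F'] (N : F →* F') {x : F}
    (hx : x ≠ 0) : N x ≠ 0 := by
  intro h
  have h1 : N x * N x⁻¹ = 1 := by rw [← map_mul, mul_inv_cancel₀ hx, map_one]
  rw [h, zero_mul] at h1
  exact zero_ne_one h1

/-! ### the main theorem -/

section main

/-- **(ABEL3)**. -/
theorem abel3 : Abel3Statement := by
  intro R _ _ _ K _ _ _ _ F _ _ _ _ F' _ _ _ _ ϖ hϖ t q n hq hn hqn φα φβ Nα Nβ V₁ V₂ V₃
    V₁' V₂' b₃ T u hu hNα hNβ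
  -- the trivial case `q = 1`
  rcases Nat.lt_or_ge 1 q with hq2 | hq1
  swap
  · have hq1' : q = 1 := by omega
    subst hq1'
    have e : u ^ (1 ^ 2 - 1) * (algebraMap R F 1 * 1 ^ n)⁻¹ = 1 := by simp
    refine ⟨1, 1, isUnit_one, one_ne_zero, ?_, ⟨0, 1, one_ne_zero, ?_⟩, ⟨0, 1, one_ne_zero, ?_⟩⟩
    · rw [e]
      exact ⟨cg_refl V₁ 1, cg_refl V₂ 1, cg_refl V₃ 1⟩
    · rw [e]
      simp
    · rw [e]
      simp
  obtain ⟨hu1, hu2, hu3⟩ := hu
  obtain ⟨εα, G, hεα, hG0, hNαu⟩ := hNα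
  obtain ⟨εβ, G', hεβ, hG'0, hNβu⟩ := hNβ
  obtain ⟨ea, rfl⟩ := hεα
  obtain ⟨eb, rfl⟩ := hεβ
  have hu0 : u ≠ 0 := ne_zero_of_val hu1
  -- constants
  have hφαc : ∀ r : R, φα (algebraMap R F' r) = algebraMap R F r := fun r => by
    rw [IsScalarTower.algebraMap_apply R K F', T.hφα, ← IsScalarTower.algebraMap_apply]
  have hφβc : ∀ r : R, φβ (algebraMap R F' r) = algebraMap R F r := fun r => by
    rw [IsScalarTower.algebraMap_apply R K F', T.hφβ, ← IsScalarTower.algebraMap_apply]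
  have hNαc : ∀ r : R, Nα (algebraMap R F r) = algebraMap R F' r ^ q := fun r => by
    rw [IsScalarTower.algebraMap_apply R K F, T.hNαc, ← IsScalarTower.algebraMap_apply]
  have hNβc : ∀ r : R, Nβ (algebraMap R F r) = algebraMap R F' r ^ q := fun r => by
    rw [IsScalarTower.algebraMap_apply R K F, T.hNβc, ← IsScalarTower.algebraMap_apply]
  have hφαu : ∀ e : Rˣ, φα (iu R F' e) = iu R F e := fun e => hφαc _
  have hφβu : ∀ e : Rˣ, φβ (iu R F' e) = iu R F e := fun e => hφβc _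
  -- units of `R` are units everywhere
  have hc1 : ∀ e : Rˣ, V₁.valuation (iu R F e) = 1 := fun e => val_unit T.hR₁ e.isUnit
  have hc2 : ∀ e : Rˣ, V₂.valuation (iu R F e) = 1 := fun e => val_unit T.hR₂ e.isUnit
  have hc3 : ∀ e : Rˣ, V₃.valuation (iu R F e) = 1 := fun e => val_unit T.hR₃ e.isUnit
  have hc1' : ∀ e : Rˣ, V₁'.valuation (iu R F' e) = 1 := fun e => val_unit T.hR₁' e.isUnit
  have hc2' : ∀ e : Rˣ, V₂'.valuation (iu R F' e) = 1 := fun e => val_unit T.hR₂' e.isUnit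
  -- `ϖ` at `V₃`
  have hϖ3 : V₃.valuation (algebraMap R F ϖ) < 1 := by
    have h := T.he₃
    unfold OrdAt at h
    have hq' : ((q : ℤ) - 1) = ((q - 1 : ℕ) : ℤ) := by
      rw [Nat.cast_sub (by omega : 1 ≤ q)]
      simp
    rw [hq', zpow_neg, zpow_natCast, map_mul, map_inv₀, map_pow] at h
    have h0 : V₃.valuation b₃ ^ (q - 1) ≠ 0 := by
      intro h0
      rw [h0, inv_zero, mul_zero] at h
      exact zero_ne_one h
    rw [mul_inv_eq_one₀ h0] at h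
    rw [h]
    exact pow_lt_one₀ zero_le T.hb₃ (by omega)
  -- `G`, `G'` are units at `V₁'`, `V₂'`
  have hNu1 : V₁'.valuation (Nα u) = 1 := by
    have := T.vNα₁ u 0 0 (by simpa [OrdAt] using hu1) (by simpa [OrdAt] using hu3)
    simpa [OrdAt] using this
  have hNu2 : V₂'.valuation (Nα u) = 1 := by
    have := T.vNα₂ u 0 (by simpa [OrdAt] using hu2)
    simpa [OrdAt] using this
  have hN'u1 : V₁'.valuation (Nβ u) = 1 := by
    have := T.vNβ₁ u 0 (by simpa [OrdAt] using hu1)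
    simpa [OrdAt] using this
  have hN'u2 : V₂'.valuation (Nβ u) = 1 := by
    have := T.vNβ₂ u 0 0 (by simpa [OrdAt] using hu2) (by simpa [OrdAt] using hu3)
    simpa [OrdAt] using this
  have hNαu' : Nα u = iu R F' ea * G ^ n := hNαu
  have hNβu' : Nβ u = iu R F' eb * G' ^ n := hNβu
  have hG1 : V₁'.valuation G = 1 :=
    val_eq_one_of_pow hn (val_of_mul_left (hNαu' ▸ hNu1) (hc1' ea))
  have hG2 : V₂'.valuation G = 1 :=
    val_eq_one_of_pow hn (val_of_mul_left (hNαu' ▸ hNu2) (hc2' ea))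
  have hG'1 : V₁'.valuation G' = 1 :=
    val_eq_one_of_pow hn (val_of_mul_left (hNβu' ▸ hN'u1) (hc1' eb))
  have hG'2 : V₂'.valuation G' = 1 :=
    val_eq_one_of_pow hn (val_of_mul_left (hNβu' ▸ hN'u2) (hc2' eb))
  obtain ⟨a, k, hak⟩ := exists_ak hq hn hqn
  -- (i): `u ≡ e_b^a ψⁿ` at `V₁`
  have hi : PC V₁ n (u * (iu R F (eb ^ a))⁻¹) := by
    rw [map_pow]
    apply pc_root hak hu1 (hc1 eb)
    have h := T.cNβ₁ u hu1
    rw [hNβu', map_mul, map_pow, hφβu] at h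
    refine ⟨φβ G', val_up φβ T.hβ₁ hG'1, ?_⟩
    have h' := cg_mul_right (iu R F eb)⁻¹ (mem_of_val (val_inv (hc1 eb))) (cg_symm h)
    rwa [show iu R F eb * φβ G' ^ n * (iu R F eb)⁻¹ = φβ G' ^ n from by
      field_simp [iu_ne_zero R F eb]] at h'
  -- (ii): `u ≡ e_a^a ψⁿ` at `V₂`
  have hii : PC V₂ n (u * (iu R F (ea ^ a))⁻¹) := by
    rw [map_pow]
    apply pc_root hak hu2 (hc2 ea)
    have h := T.cNα₂ u hu2
    rw [hNαu', map_mul, map_pow, hφαu] at h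
    refine ⟨φα G, val_up φα T.hα₂ hG2, ?_⟩
    have h' := cg_mul_right (iu R F ea)⁻¹ (mem_of_val (val_inv (hc2 ea))) (cg_symm h)
    rwa [show iu R F ea * φα G ^ n * (iu R F ea)⁻¹ = φα G ^ n from by
      field_simp [iu_ne_zero R F ea]] at h'
  -- (iii), (iii'): `u^(q-1)` at `V₃`, via `α` and via `β`
  have hiii : PC V₃ n (u ^ (q - 1) * (iu R F (ea * (eb ^ a)⁻¹))⁻¹) := by
    have h := step3 φα T.hα₁ T.hα₃ T.f₃α T.f₁α (q := q) (n := n) u hu1 hu3 (Nα u)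
      (fun a ha hc => T.cNα₁ u hu1 hu3 a ha hc) (iu R F' ea) (iu R F' (eb ^ a)) G hNαu' hG1
      (hc1' ea) (hc1' _) (by rw [hφαu]; exact hi)
    rw [hφαu, hφαu] at h
    rwa [map_mul, map_inv]
  have hiii' : PC V₃ n (u ^ (q - 1) * (iu R F (eb * (ea ^ a)⁻¹))⁻¹) := by
    have h := step3 φβ T.hβ₂ T.hβ₃ T.f₃β T.f₂β (q := q) (n := n) u hu2 hu3 (Nβ u)
      (fun a ha hc => T.cNβ₂ u hu2 hu3 a ha hc) (iu R F' eb) (iu R F' (ea ^ a)) G' hNβu' hG'2
      (hc2' eb) (hc2' _) (by rw [hφβu]; exact hii)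
    rw [hφβu, hφβu] at h
    rwa [map_mul, map_inv]
  -- (iv): `X^(1+a)` is an `n`-th power modulo `ϖ`
  have hXa : PR ϖ n (((ea * eb⁻¹) ^ (1 + a) : Rˣ) : R) := by
    have h1 : PC V₃ n (iu R F ((ea * eb⁻¹) ^ (1 + a))) := by
      refine (hiii'.mul hiii.inv).of_eq ?_
      rw [← grp_id4 a ea eb, map_mul, map_inv]
      have h0 : u ^ (q - 1) ≠ 0 := pow_ne_zero _ hu0
      have h1 := iu_ne_zero R F (ea * (eb ^ a)⁻¹)
      have h2 := iu_ne_zero R F (eb * (ea ^ a)⁻¹)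
      field_simp
    rw [← hφαu] at h1
    obtain ⟨g, hg, hcg⟩ := pc_down φα T.hα₃ T.f₃α h1
    exact T.calg _ (Units.isUnit _) g hg hcg
  have hX : PR ϖ n (((ea * eb⁻¹) ^ (q + 1) : Rˣ) : R) := by
    rw [grp_id1 hak (ea * eb⁻¹), Units.val_mul, Units.val_pow_eq_pow_val,
      Units.val_pow_eq_pow_val (n := n)]
    exact (hXa.pow q).mul (PR.of_pow ϖ n (Units.isUnit _))
  -- (v): the three congruences for `u ^ m`
  set m := q ^ 2 - 1 with hm
  have hmq : m = (q - 1) * (q + 1) := sq_sub_one_eq hq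
  set c0 : Rˣ := eb ^ (a * m) with hc0
  have hC0 : iu R F c0 ≠ 0 := iu_ne_zero R F c0
  have h1m : PC V₁ n (u ^ m * (iu R F c0)⁻¹) := by
    refine (hi.pow m).of_eq ?_
    rw [mul_pow, inv_pow, hc0, pow_mul, map_pow, map_pow]
  have h2m : PC V₂ n (u ^ m * (iu R F c0)⁻¹) := by
    have hP : PR ϖ n (((ea * eb⁻¹) ^ (a * m) : Rˣ) : R) := by
      have e : (ea * eb⁻¹) ^ (a * m) = ((ea * eb⁻¹) ^ (q + 1)) ^ (a * (q - 1)) := by
        rw [← pow_mul, hmq]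
        congr 1
        ring
      rw [e, Units.val_pow_eq_pow_val]
      exact hX.pow _
    have h2 : PC V₂ n (iu R F ((ea * eb⁻¹) ^ (a * m))) := PR.pc T.hR₂ T.hϖ₂ hP
    refine ((hii.pow m).mul h2).of_eq ?_
    have e := congrArg (iu R F) (grp_id3 a m ea eb)
    rw [map_mul, map_pow] at e
    have h3 := iu_ne_zero R F ((ea * eb⁻¹) ^ (a * m))
    have h4 := iu_ne_zero R F (ea ^ a)
    rw [mul_pow, inv_pow, e, hc0]
    field_simp
  have h3m : PC V₃ n (u ^ m * (iu R F c0)⁻¹) := by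
    have hP : PR ϖ n (((ea * eb⁻¹) ^ (q + 1) * ((eb⁻¹) ^ (k * (q + 1))) ^ n : Rˣ) : R) := by
      rw [Units.val_mul, Units.val_pow_eq_pow_val (n := n)]
      exact hX.mul (PR.of_pow ϖ n (Units.isUnit _))
    have h2 : PC V₃ n (iu R F ((ea * eb⁻¹) ^ (q + 1) * ((eb⁻¹) ^ (k * (q + 1))) ^ n)) :=
      PR.pc T.hR₃ hϖ3 hP
    refine ((hiii.pow (q + 1)).mul h2).of_eq ?_
    have e := congrArg (iu R F) (grp_id2 hq hak ea eb)
    rw [map_mul, map_pow] at e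
    have h3 := iu_ne_zero R F ((ea * eb⁻¹) ^ (q + 1) * ((eb⁻¹) ^ (k * (q + 1))) ^ n)
    have h4 := iu_ne_zero R F (ea * (eb ^ a)⁻¹)
    rw [mul_pow, inv_pow, e, ← pow_mul, ← hmq, ← hm, ← hc0]
    field_simp
  -- glue
  obtain ⟨ψ₁, hψ₁, hcψ₁⟩ := h1m
  obtain ⟨ψ₂, hψ₂, hcψ₂⟩ := h2m
  obtain ⟨ψ₃, hψ₃, hcψ₃⟩ := h3m
  obtain ⟨Ψ, hΨ₁, hΨ₂, hΨ₃⟩ := T.wg ψ₁ ψ₂ ψ₃ hψ₁ hψ₂ hψ₃
  have hΨu1 : V₁.valuation Ψ = 1 := cg_val_eq_one hΨ₁ hψ₁
  have hΨu2 : V₂.valuation Ψ = 1 := cg_val_eq_one hΨ₂ hψ₂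
  have hΨu3 : V₃.valuation Ψ = 1 := cg_val_eq_one hΨ₃ hψ₃
  have hΨ0 : Ψ ≠ 0 := ne_zero_of_val hΨu1
  have hΨn0 : Ψ ^ n ≠ 0 := pow_ne_zero _ hΨ0
  set v := u ^ m * (algebraMap R F (c0 : R) * Ψ ^ n)⁻¹ with hv
  have hone : ∀ (V : ValuationSubring F) (ψ : F), V.valuation ψ = 1 → V.valuation Ψ = 1 →
      Cg V Ψ ψ → Cg V (u ^ m * (iu R F c0)⁻¹) (ψ ^ n) → Cg V v 1 := by
    intro V ψ hψ hΨu hΨ hc
    have h1 : Cg V (u ^ m * (iu R F c0)⁻¹) (Ψ ^ n) :=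
      cg_trans hc (cg_symm (cg_pow hΨ (mem_of_val hψ) n))
    have h2 := cg_mul_right (Ψ ^ n)⁻¹ (mem_of_val (val_inv (val_pow hΨu n))) h1
    rw [mul_inv_cancel₀ hΨn0] at h2
    have e : v = u ^ m * (iu R F c0)⁻¹ * (Ψ ^ n)⁻¹ := by
      rw [hv, ← iu_apply, mul_inv, mul_assoc]
    rw [e]
    exact h2
  have hv1 : Cg V₁ v 1 := hone V₁ ψ₁ hψ₁ hΨu1 hΨ₁ hcψ₁
  have hv2 : Cg V₂ v 1 := hone V₂ ψ₂ hψ₂ hΨu2 hΨ₂ hcψ₂
  have hv3 : Cg V₃ v 1 := hone V₃ ψ₃ hψ₃ hΨu3 hΨ₃ hcψ₃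
  have hvu1 : V₁.valuation v = 1 := cg_val_eq_one hv1 (map_one _)
  have hvu3 : V₃.valuation v = 1 := cg_val_eq_one hv3 (map_one _)
  -- (vi): the norms of `v`
  have hnorm : ∀ (φ : F' →+* F) (Nm : F →* F') (e : Rˣ) (H₀ : F'),
      (∀ r : R, Nm (algebraMap R F r) = algebraMap R F' r ^ q) →
      Nm u = iu R F' e * H₀ ^ n → H₀ ≠ 0 → Cg V₁' (Nm v) 1 → NormPow1 R ϖ Nm n v := by
    intro φ Nm e H₀ hNc hNu hH₀ hcg
    set κ : Rˣ := e ^ m * (c0 ^ q)⁻¹ with hκ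
    set H : F' := H₀ ^ m * (Nm Ψ)⁻¹ with hH
    have hNΨ : Nm Ψ ≠ 0 := map_ne_zero_of_ne Nm hΨ0
    have hH0 : H ≠ 0 := mul_ne_zero (pow_ne_zero _ hH₀) (inv_ne_zero hNΨ)
    have hc0' := iu_ne_zero R F' c0
    have hNv : Nm v = iu R F' κ * H ^ n := by
      have h1 : algebraMap R F (c0 : R) * Ψ ^ n ≠ 0 :=
        mul_ne_zero (iu_ne_zero R F c0) hΨn0
      rw [hv, map_mul, map_inv_of_ne Nm h1, map_mul, map_pow, map_pow, hNc, hNu, hκ, hH,
        map_mul, map_inv, map_pow, map_pow, ← iu_apply]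
      rw [mul_pow, mul_pow, mul_inv, inv_pow, ← pow_mul, ← pow_mul]
      ring
    have hκu : V₁'.valuation (iu R F' κ) = 1 := hc1' κ
    have hNvu : V₁'.valuation (Nm v) = 1 := cg_val_eq_one hcg (map_one _)
    have hHu : V₁'.valuation H = 1 :=
      val_eq_one_of_pow hn (val_of_mul_left (hNv ▸ hNvu) hκu)
    have hHn0 : H ^ n ≠ 0 := pow_ne_zero _ hH0
    have hcκ : Cg V₁' (algebraMap R F' (κ : R)) (H⁻¹ ^ n) := by
      have h2 := cg_mul_right (H⁻¹ ^ n) (mem_of_val (val_pow (val_inv hHu) n)) hcg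
      rw [one_mul, hNv, inv_pow, mul_assoc, mul_inv_cancel₀ hHn0, mul_one] at h2
      rw [inv_pow]
      exact h2
    obtain ⟨d, r, hd, hdr⟩ := T.calg _ (Units.isUnit κ) H⁻¹ (val_inv hHu) hcκ
    refine ⟨r, algebraMap R F' d * H, mul_ne_zero ?_ hH0, ?_⟩
    · exact ne_zero_of_val (val_unit T.hR₁' hd)
    · rw [hNv, iu_apply, hdr, map_mul, map_pow, mul_pow]
      ring
  have hNαv : Cg V₁' (Nα v) 1 := by
    have h := T.cNα₁ v hvu1 hvu3 1 V₁'.one_mem (by rw [map_one]; exact hv3)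
    rw [map_one, one_pow, mul_one] at h
    have h2 : Cg V₁ (φα (Nα v)) (φα 1) := by
      rw [map_one]
      exact cg_trans h hv1
    exact cg_down φα T.hα₁ h2
  have hNβv : Cg V₁' (Nβ v) 1 := by
    have h := T.cNβ₁ v hvu1
    have h1 : Cg V₁ (v ^ q) 1 := by
      have := cg_pow hv1 V₁.one_mem q
      rwa [one_pow] at this
    have h2 : Cg V₁ (φβ (Nβ v)) (φβ 1) := by
      rw [map_one]
      exact cg_trans h h1
    exact cg_down φβ T.hβ₁ h2
  exact ⟨(c0 : R), Ψ, Units.isUnit c0, hΨ0, ⟨hv1, hv2, hv3⟩,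
    hnorm φα Nα ea G hNαc hNαu' hG0 hNαv, hnorm φβ Nβ eb G' hNβc hNβu' hG'0 hNβv⟩

end main

end H16AB

end
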