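import Mathlib
import Fermat.Agent.S36.InjGenDefs_helper4
import Fermat.Agent.S35.FWGen_helper1

/-!
# Item 86 (S36), middle chain (helper1): the GENERIC CHAIN

`H4S36.InjGenStatement  ⟸  H4S36.VertStatement + H4S36.Abel3Statement + H1G3.KDMultiStatement`.

For `f` with `n ∣ div f`, `Nα f, Nβ f ∈ Kˣ · F'ˣⁿ` :
* (VERT3)  `u = f ^ (q+1) · d · gⁿ` unit at `V₁ V₂ V₃`, norms in `Rˣ · F'ˣⁿ`;
* (ABEL3)  `v = u ^ (q²-1) / (c₀ Ψⁿ) ≡ 1` at `V₁ V₂ V₃`, norms `(1 + ϖ r) ·` n-th powers;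
* (MLOC leaf, hypothesis) `v' = v ^ (q²-1) · eⁿ` has `H1G3.MLoc` in both charts;
* (KD)  `v' = c · g'ⁿ`;
hence `f ^ ((q+1)(q²-1)²) = C · Gⁿ`.
-/

set_option autoImplicit false
set_option synthInstance.maxHeartbeats 400000

noncomputable section

open IntermediateField AlgebraicCurve H7S18 H4S34 H1FW H1G3 H17T3

namespace H1IG

/-- nonzero constants have order `0` at every place over `K`. -/
theorem ord_const {K F : Type*} [Field K] [Field F] [Algebra K F] (V : Place K F) (c : K)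
    (hc : c ≠ 0) : V.ord (algebraMap K F c) = 0 := by
  have h1 : algebraMap K F c ∈ V.toValuationSubring := V.algebraMap_mem' c
  have h2 : algebraMap K F c⁻¹ ∈ V.toValuationSubring := V.algebraMap_mem' c⁻¹
  have hu : (⟨algebraMap K F c, h1⟩ : V.toValuationSubring) * ⟨algebraMap K F c⁻¹, h2⟩ = 1 := by
    apply Subtype.ext
    show algebraMap K F c * algebraMap K F c⁻¹ = 1
    rw [← map_mul, mul_inv_cancel₀ hc, map_one]
  have hu' : (⟨algebraMap K F c⁻¹, h2⟩ : V.toValuationSubring) * ⟨algebraMap K F c, h1⟩ = 1 := by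
    rw [mul_comm]; exact hu
  exact V.ord_coe_unit ⟨⟨algebraMap K F c, h1⟩, ⟨algebraMap K F c⁻¹, h2⟩, hu, hu'⟩

theorem ord_pow' {K F : Type*} [Field K] [Field F] [Algebra K F] (V : Place K F) (x : F)
    (m : ℕ) : V.ord (x ^ m) = m * V.ord x := by
  have := V.ord_zpow x (m : ℤ)
  rwa [zpow_natCast] at this

/-- **the generic middle chain.** -/
theorem injGen (hV : H4S36.VertStatement) (hA : H4S36.Abel3Statement)
    (hKD : H1G3.KDMultiStatement) : H4S36.InjGenStatement := by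
  intro R _ _ _ K _ _ _ _ F _ _ _ _ F' _ _ _ _ ϖ hϖ t htr hfin halg q n hq hn hqn hnR hζ
    φα φβ Nα Nβ V₁ V₂ V₃ V₁' V₂' b₃ T hML f hf hdiv hNα hNβ
  -- (VERT3)
  obtain ⟨d, g, hd0, hg0, hU, hNUα, hNUβ⟩ :=
    hV R K F F' ϖ hϖ t q n hq hn φα φβ Nα Nβ V₁ V₂ V₃ V₁' V₂' b₃ T f hf hNα hNβ
  obtain ⟨u, hu⟩ : ∃ u : F, u = f ^ (q + 1) * algebraMap K F d * g ^ n := ⟨_, rfl⟩
  rw [← hu] at hU hNUα hNUβ
  have hdF : algebraMap K F d ≠ 0 := by simpa using hd0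
  have hu0 : u ≠ 0 := by
    rw [hu]; exact mul_ne_zero (mul_ne_zero (pow_ne_zero _ hf) hdF) (pow_ne_zero _ hg0)
  -- (ABEL3)
  obtain ⟨c₀, Ψ, hc₀, hΨ0, hOne, hN1α, hN1β⟩ :=
    hA R K F F' ϖ hϖ t q n hq hn hqn φα φβ Nα Nβ V₁ V₂ V₃ V₁' V₂' b₃ T u hU hNUα hNUβ
  obtain ⟨m, hm⟩ : ∃ m : ℕ, m = q ^ 2 - 1 := ⟨_, rfl⟩
  rw [← hm] at hOne hN1α hN1β
  have hc₀K : algebraMap R K c₀ ≠ 0 := by
    intro h0
    have := (map_eq_zero_iff _ (IsFractionRing.injective R K)).1 h0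
    exact hc₀.ne_zero this
  have hc₀F : algebraMap R F c₀ = algebraMap K F (algebraMap R K c₀) :=
    IsScalarTower.algebraMap_apply R K F c₀
  have hc₀F0 : algebraMap R F c₀ ≠ 0 := by
    rw [hc₀F]; simpa using hc₀K
  obtain ⟨v, hv⟩ : ∃ v : F, v = u ^ m * (algebraMap R F c₀ * Ψ ^ n)⁻¹ := ⟨_, rfl⟩
  rw [← hv] at hOne hN1α hN1β
  have hv0 : v ≠ 0 := by
    rw [hv]
    exact mul_ne_zero (pow_ne_zero _ hu0)
      (inv_ne_zero (mul_ne_zero hc₀F0 (pow_ne_zero _ hΨ0)))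
  -- `n ∣ div v`
  have hdivv : ∀ V : Place K F, (n : ℤ) ∣ V.ord v := by
    intro V
    obtain ⟨k, hk⟩ := hdiv V
    have e1 : V.ord u = (q + 1 : ℕ) * V.ord f + 0 + n * V.ord g := by
      rw [hu, V.ord_mul (mul_ne_zero (pow_ne_zero _ hf) hdF) (pow_ne_zero _ hg0),
        V.ord_mul (pow_ne_zero _ hf) hdF, ord_pow', ord_pow', ord_const V d hd0]
    have e2 : V.ord v = m * V.ord u + -(0 + n * V.ord Ψ) := by
      rw [hv, V.ord_mul (pow_ne_zero _ hu0) (inv_ne_zero (mul_ne_zero hc₀F0 (pow_ne_zero _ hΨ0))),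
        V.ord_inv, V.ord_mul hc₀F0 (pow_ne_zero _ hΨ0), ord_pow', ord_pow', hc₀F,
        ord_const V _ hc₀K]
    refine ⟨m * ((q + 1 : ℕ) * k + V.ord g) - V.ord Ψ, ?_⟩
    rw [e2, e1, hk]
    ring
  -- (MLOC leaf)
  obtain ⟨e, he0, hOne_e, hM1, hM2⟩ := hML v hv0 hOne hdivv hN1α hN1β
  rw [← hm] at hM1 hM2
  obtain ⟨v', hv'⟩ : ∃ v' : F, v' = v ^ m * e ^ n := ⟨_, rfl⟩
  rw [← hv'] at hM1 hM2
  have hv'0 : v' ≠ 0 := by
    rw [hv']; exact mul_ne_zero (pow_ne_zero _ hv0) (pow_ne_zero _ he0)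
  have hOne' : ∀ V ∈ ({V₁, V₂, V₃} : Set (ValuationSubring F)), One V v' := by
    intro V hVm
    simp only [Set.mem_insert_iff, Set.mem_singleton_iff] at hVm
    rcases hVm with rfl | rfl | rfl
    · rw [hv']; exact one_mul' _ (onePow _ hOne.1 m) hOne_e.1
    · rw [hv']; exact one_mul' _ (onePow _ hOne.2.1 m) hOne_e.2.1
    · rw [hv']; exact one_mul' _ (onePow _ hOne.2.2 m) hOne_e.2.2
  -- (KD)
  obtain ⟨c, g', hcg⟩ := hKD R K F ϖ hϖ t htr hfin halg n hnR hζ {V₁, V₂, V₃}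
    (fun x => by
      rw [T.hO x]
      simp only [Set.mem_insert_iff, Set.mem_singleton_iff, forall_eq_or_imp, forall_eq])
    q hq
    (fun x hx => T.hJ x (hx V₁ (by simp)) (hx V₂ (by simp)) (hx V₃ (by simp)))
    v' hOne' hM1 hM2
  have hc0 : c ≠ 0 := by
    rintro rfl
    rw [map_zero, zero_mul] at hcg
    exact hv'0 hcg
  have hg'0 : g' ≠ 0 := by
    rintro rfl
    rw [zero_pow hn.ne', mul_zero] at hcg
    exact hv'0 hcg
  -- conclusion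
  refine ⟨c * algebraMap R K c₀ ^ m * (d ^ (m * m))⁻¹, g' * e⁻¹ * Ψ ^ m * (g ^ (m * m))⁻¹,
    mul_ne_zero (mul_ne_zero hc0 (pow_ne_zero _ hc₀K)) (inv_ne_zero (pow_ne_zero _ hd0)),
    mul_ne_zero (mul_ne_zero (mul_ne_zero hg'0 (inv_ne_zero he0)) (pow_ne_zero _ hΨ0))
      (inv_ne_zero (pow_ne_zero _ hg0)), ?_⟩
  rw [← hm]
  -- `u ^ m = v · c₀ Ψⁿ`, `v ^ m = c g'ⁿ e⁻ⁿ`
  have h1 : u ^ m = v * (algebraMap R F c₀ * Ψ ^ n) := by
    rw [hv, mul_assoc, inv_mul_cancel₀ (mul_ne_zero hc₀F0 (pow_ne_zero _ hΨ0)), mul_one]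
  have h2 : v ^ m = algebraMap K F c * g' ^ n * (e ^ n)⁻¹ := by
    rw [← hcg, hv', mul_assoc, mul_inv_cancel₀ (pow_ne_zero _ he0), mul_one]
  have h3 : f ^ (q + 1) = u * (algebraMap K F d)⁻¹ * (g ^ n)⁻¹ := by
    rw [hu]
    field_simp
  have h4 : u ^ (m * m) = algebraMap K F c * g' ^ n * (e ^ n)⁻¹
      * (algebraMap R F c₀ * Ψ ^ n) ^ m := by
    rw [pow_mul, h1, mul_pow, h2]
  rw [pow_mul, h3, mul_pow, mul_pow, h4, hc₀F]
  simp only [map_mul, map_pow, map_inv₀, mul_pow, inv_pow]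
  ring

end H1IG

end
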