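import Mathlib
import Fermat.Agent.S36.KDMultiDefs_helper1
import Fermat.Agent.S35.FWGen_helper1
import Fermat.Agent.S34.KD_helper19
import Fermat.Agent.S34.WTransport_helper26

/-!
# Item 86 (S36), slice (GEN3), part (C0) (helper1): proof of `H1G3.KDMultiStatement`

Kummer descent for a family `𝒱` of components with multiplicities, on helper19's Kummer descent
`H19KD.h19_KD` (which has NO reducedness hypothesis on the special fibre).

* `exists_root_poly` : truncated binomial series, `(1 + X P)^n = 1 + X + X^(m+1) Q`;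
* `J = {x | ∀ V ∈ 𝒱, v_V(x) < 1}` (the radical of `ϖ O`), `J^(m+1) ⊆ ϖ O` by `(hJ)`;
  `1 + a = h₀ⁿ · (1 + ϖ z)` for `a ∈ J`, with `h₀ = 1 + a P(a) ≡ 1` at every `V`;
* `modPi_of_pow` : `x ≡ 1` at every `V` and `xⁿ ≡ 1 mod ϖ O` give `x ≡ 1 mod ϖ O`;
* `chart_small_mem` : `M₀ ∩ J ⊆ 𝔫` for every closed point `𝔫 ∋ ϖ` (Lemma U);
* `kdMulti : KDMultiStatement`.
-/

set_option autoImplicit false
set_option synthInstance.maxHeartbeats 400000
set_option linter.unusedSectionVars false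
set_option linter.unusedVariables false
set_option linter.style.haveILetI false

noncomputable section

open Polynomial IntermediateField AlgebraicCurve H7S18 H4S34 H19KD H19S18 H1FW H26WT

namespace H1G3

/-- truncated binomial series of `(1 + X)^(1/n)`: for `n` invertible there are polynomials
`P, Q` with `(1 + X P)^n = 1 + X + X^(m+1) Q`. -/
theorem exists_root_poly {A : Type} [CommRing A] (n : ℕ) (hn : IsUnit (n : A)) :
    ∀ m : ℕ, ∃ P Q : A[X], (1 + X * P) ^ n = 1 + X + X ^ (m + 1) * Q := by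
  intro m
  induction m with
  | zero => exact ⟨0, -1, by simp⟩
  | succ m ih =>
    obtain ⟨P, Q, h1⟩ := ih
    obtain ⟨u, hu⟩ := hn
    set q0 : A := Q.coeff 0 with hq0
    set c : A := -(q0 * ((u⁻¹ : Aˣ) : A)) with hc
    obtain ⟨k, h2⟩ := Polynomial.powAddExpansion (1 + X * P) (C c * X ^ (m + 1)) n
    obtain ⟨E, h3⟩ := sub_dvd_pow_sub_pow (1 + X * P) 1 (n - 1)
    have h4 : Q.divX * X + C q0 = Q := Polynomial.divX_mul_X_add Q
    have h5 : C q0 + (n : A[X]) * C c = 0 := by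
      have : (n : A[X]) = C ((u : A)) := by rw [hu]; exact (Polynomial.C_eq_natCast n).symm
      rw [this, ← C_mul, ← C_add, hc]
      have : q0 + (u : A) * -(q0 * ((u⁻¹ : Aˣ) : A)) = 0 := by
        have hu1 : (u : A) * ((u⁻¹ : Aˣ) : A) = 1 := Units.mul_inv u
        linear_combination (-q0) * hu1
      rw [this, C_0]
    rw [one_pow] at h3
    refine ⟨P + C c * X ^ m, Q.divX + (n : A[X]) * P * E * C c + k * (C c) ^ 2 * X ^ m, ?_⟩
    have e : 1 + X * (P + C c * X ^ m) = 1 + X * P + C c * X ^ (m + 1) := by ring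
    rw [e, h2, h1]
    linear_combination (↑n * (C c * X ^ (m + 1))) * h3 - X ^ (m + 1) * h4 + X ^ (m + 1) * h5

/-- a predicate closed under `+`, `*` and containing the constants and `a` contains `R[a]`. -/
theorem aeval_mem_pred {R F : Type} [CommRing R] [Field F] [Algebra R F] (p : F → Prop)
    (hC : ∀ r : R, p (algebraMap R F r)) (hadd : ∀ x y, p x → p y → p (x + y))
    (hmul : ∀ x y, p x → p y → p (x * y)) (a : F) (ha : p a) (P : R[X]) :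
    p (aeval a P) := by
  induction P using Polynomial.induction_on' with
  | add f g hf hg => rw [map_add]; exact hadd _ _ hf hg
  | monomial k r =>
    rw [aeval_monomial]
    refine hmul _ _ (hC r) ?_
    induction k with
    | zero => rw [pow_zero]; have := hC 1; rwa [map_one] at this
    | succ k ih => rw [pow_succ]; exact hmul _ _ ih ha

section Val

variable {F : Type} [Field F]

theorem mem_of_val_lt (V : ValuationSubring F) {x : F} (h : V.valuation x < 1) : x ∈ V :=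
  (V.valuation_le_one_iff x).mp h.le

theorem val_mul_lt (V : ValuationSubring F) {a y : F} (ha : V.valuation a < 1) (hy : y ∈ V) :
    V.valuation (a * y) < 1 := by
  rw [map_mul]
  exact lt_of_le_of_lt (mul_le_of_le_one_right' ((V.valuation_le_one_iff y).mpr hy)) ha

theorem val_mul_lt' (V : ValuationSubring F) {a y : F} (hy : y ∈ V) (ha : V.valuation a < 1) :
    V.valuation (y * a) < 1 := by
  rw [mul_comm]; exact val_mul_lt V ha hy

theorem mem_of_one (V : ValuationSubring F) {x : F} (h : H1FW.One V x) : x ∈ V :=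
  (V.valuation_le_one_iff x).mp (one_val V h).le

theorem inv_mem_of_one (V : ValuationSubring F) {x : F} (h : H1FW.One V x) : x⁻¹ ∈ V :=
  mem_of_one V (one_inv V h)

/-- `x ≡ 1` at `V` and `n` a unit at `V`: the geometric sum `∑_{k<n} x^k` is a unit at `V`. -/
theorem geom_val_one (V : ValuationSubring F) {x : F} (h : H1FW.One V x) (n : ℕ)
    (hn : V.valuation (n : F) = 1) :
    V.valuation (∑ k ∈ Finset.range n, x ^ k) = 1 := by
  have h1 : V.valuation ((∑ k ∈ Finset.range n, x ^ k) - (n : F)) < 1 := by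
    have e : (∑ k ∈ Finset.range n, x ^ k) - (n : F) = ∑ k ∈ Finset.range n, (x ^ k - 1) := by
      rw [Finset.sum_sub_distrib, Finset.sum_const, Finset.card_range, nsmul_eq_mul, mul_one]
    rw [e]
    exact Valuation.map_sum_lt _ one_ne_zero (fun k _ => onePow V h k)
  have h2 : V.valuation ((∑ k ∈ Finset.range n, x ^ k) - (n : F)) < V.valuation (n : F) := by
    rw [hn]; exact h1
  have := Valuation.map_add_eq_of_lt_right V.valuation h2
  rw [sub_add_cancel, hn] at this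
  exact this

end Val

section Main

variable (R : Type) [CommRing R] [IsDomain R] [IsDiscreteValuationRing R]
  {F : Type} [Field F] [Algebra R F]

/-- `x ≡ 1 mod ϖ O`, `y ≡ 1 mod ϖ O`, `y ∈ O`: `x y ≡ 1 mod ϖ O`. -/
theorem modPi_one_mul {ϖ : R} (hϖ : Irreducible ϖ) {t : F} (htR : Transcendental R t) {x y : F}
    (hx : ModPi R ϖ t x 1) (hy : ModPi R ϖ t y 1) (hyO : GInt R ϖ t y) :
    ModPi R ϖ t (x * y) 1 := by
  obtain ⟨z₁, hz₁, e₁⟩ := hx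
  obtain ⟨z₂, hz₂, e₂⟩ := hy
  refine ⟨z₁ * y + z₂, h19_gint_add R htR hϖ (h19_gint_mul R htR hϖ hz₁ hyO) hz₂, ?_⟩
  linear_combination y * e₁ + e₂

/-- `x ≡ 1 mod ϖ O`, `x⁻¹ ∈ O`: `x⁻¹ ≡ 1 mod ϖ O`. -/
theorem modPi_one_inv {ϖ : R} (hϖ : Irreducible ϖ) {t : F} (htR : Transcendental R t) {x : F}
    (hx0 : x ≠ 0) (hx : ModPi R ϖ t x 1) (hxO : GInt R ϖ t x⁻¹) :
    ModPi R ϖ t x⁻¹ 1 := by
  obtain ⟨z, hz, e⟩ := hx
  refine ⟨-(z * x⁻¹), h19_gint_neg R (h19_gint_mul R htR hϖ hz hxO), ?_⟩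
  have : x⁻¹ - 1 = -((x - 1) * x⁻¹) := by field_simp; ring
  rw [this, e]; ring

variable (𝒱 : Set (ValuationSubring F))

/-- `x ≡ 1` at every `V ∈ 𝒱`: `x, x⁻¹ ∈ O`. -/
theorem gint_of_one {ϖ : R} {t : F}
    (hO : ∀ x : F, GInt R ϖ t x ↔ ∀ V ∈ 𝒱, x ∈ V) {x : F} (hx : ∀ V ∈ 𝒱, H1FW.One V x) :
    GInt R ϖ t x ∧ GInt R ϖ t x⁻¹ :=
  ⟨(hO x).mpr fun V hV => mem_of_one V (hx V hV),
    (hO x⁻¹).mpr fun V hV => inv_mem_of_one V (hx V hV)⟩

/-- `x ≡ 1` at every `V ∈ 𝒱` and `xⁿ ≡ 1 mod ϖ O` give `x ≡ 1 mod ϖ O` (`n` a unit). -/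
theorem modPi_of_pow {ϖ : R} (hϖ : Irreducible ϖ) (hϖF : algebraMap R F ϖ ≠ 0) {t : F}
    (htR : Transcendental R t)
    (hO : ∀ x : F, GInt R ϖ t x ↔ ∀ V ∈ 𝒱, x ∈ V)
    (n : ℕ) (hn : ∀ V ∈ 𝒱, V.valuation (n : F) = 1) {x : F} (hx : ∀ V ∈ 𝒱, H1FW.One V x)
    (hxn : ModPi R ϖ t (x ^ n) 1) : ModPi R ϖ t x 1 := by
  obtain ⟨z, hz, e⟩ := hxn
  set S : F := ∑ k ∈ Finset.range n, x ^ k with hS
  have hSv : ∀ V ∈ 𝒱, V.valuation S = 1 := fun V hV => geom_val_one V (hx V hV) n (hn V hV)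
  have hSinv : GInt R ϖ t S⁻¹ := (hO _).mpr fun V hV => by
    rw [← V.valuation_le_one_iff, map_inv₀, hSv V hV, inv_one]
  by_cases hS0 : S = 0
  · -- `𝒱` is empty: everything is in `O`
    have hemp : ∀ V ∈ 𝒱, False := fun V hV => by
      have := hSv V hV
      rw [hS0, Valuation.map_zero] at this
      exact zero_ne_one this
    have hall : ∀ y : F, GInt R ϖ t y := fun y => (hO y).mpr fun V hV => (hemp V hV).elim
    refine ⟨(x - 1) * (algebraMap R F ϖ)⁻¹, hall _, ?_⟩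
    field_simp
  · refine ⟨z * S⁻¹, h19_gint_mul R htR hϖ hz hSinv, ?_⟩
    have h1 : S * (x - 1) = x ^ n - 1 := geom_sum_mul x n
    have : x - 1 = (x ^ n - 1) * S⁻¹ := by
      rw [← h1]; field_simp
    rw [this, e]; ring

/-- **`M₀ ∩ J ⊆ 𝔫`**: an element of the chart ring which is small at every `V ∈ 𝒱` lies in
every closed point `𝔫 ∋ ϖ` (by Lemma U, `hU`). -/
theorem chart_small_mem {ϖ : R} {t c : F}
    (hU : ∀ y : F, GInt R ϖ t y → IsInt R c (algebraMap R F ϖ * y) → IsInt R c y)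
    (m : ℕ) (hJ : ∀ x : F, (∀ V ∈ 𝒱, V.valuation x < 1) → ModPi R ϖ t (x ^ (m + 1)) 0)
    (𝔫 : Ideal (Chart R c)) (h𝔫 : IsClosedPt R ϖ c 𝔫)
    (α : Chart R c) (hα : ∀ V ∈ 𝒱, V.valuation (α : F) < 1) : α ∈ 𝔫 := by
  haveI hprime : 𝔫.IsPrime := h𝔫.1.isPrime
  obtain ⟨z, hz, e⟩ := hJ (α : F) hα
  rw [sub_zero] at e
  have hint : IsInt R c (algebraMap R F ϖ * z) := by
    rw [← e]
    have h3 : (α : F) ^ (m + 1) = ((α ^ (m + 1) : Chart R c) : F) := by push_cast; rfl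
    rw [h3]
    exact (α ^ (m + 1)).2
  have hzint : IsInt R c z := hU z hz hint
  let z' : Chart R c := ⟨z, hzint⟩
  let y : Chart R c := ⟨algebraMap R F ϖ, h19_isInt_algebraMap R c ϖ⟩
  have hy : y ∈ 𝔫 := h𝔫.2 y rfl
  have hpow : α ^ (m + 1) = y * z' := Subtype.ext (by
    push_cast
    exact e)
  have : α ^ (m + 1) ∈ 𝔫 := by rw [hpow]; exact 𝔫.mul_mem_right _ hy
  exact hprime.mem_of_pow_mem _ this

/-- an element of `B_𝔫` which is small at every `V ∈ 𝒱` lies in the maximal ideal of `B_𝔫`. -/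
theorem inMax_of_small {ϖ : R} {t c : F}
    (hO : ∀ x : F, GInt R ϖ t x ↔ ∀ V ∈ 𝒱, x ∈ V)
    (hG : ∀ y : F, IsInt R c y → GInt R ϖ t y)
    (hU : ∀ y : F, GInt R ϖ t y → IsInt R c (algebraMap R F ϖ * y) → IsInt R c y)
    (m : ℕ) (hJ : ∀ x : F, (∀ V ∈ 𝒱, V.valuation x < 1) → ModPi R ϖ t (x ^ (m + 1)) 0)
    (𝔫 : Ideal (Chart R c)) (h𝔫 : IsClosedPt R ϖ c 𝔫)
    {x : F} (hx : InLoc R c 𝔫 x) (hxs : ∀ V ∈ 𝒱, V.valuation x < 1) : InMax c 𝔫 x := by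
  obtain ⟨a, s, hs, e⟩ := hx
  refine ⟨a, s, ?_, hs, e⟩
  apply chart_small_mem R 𝒱 hU m hJ 𝔫 h𝔫 a
  intro V hV
  rw [← e]
  exact val_mul_lt' V ((hO _).mp (hG _ s.2) V hV) (hxs V hV)

/-- `x ∈ 𝔪(B_𝔫)`: `(1 + x)⁻¹ ∈ B_𝔫`. -/
theorem inLoc_inv_one_add {c : F} {𝔫 : Ideal (Chart R c)} (h𝔫 : 𝔫.IsPrime) {x : F}
    (hx : InMax c 𝔫 x) : InLoc R c 𝔫 (1 + x)⁻¹ := by
  by_cases h0 : 1 + x = 0
  · rw [h0, inv_zero]; exact inLoc_zero h𝔫
  obtain ⟨a, s, ha, hs, e⟩ := hx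
  refine ⟨s, s + a, ?_, ?_⟩
  · intro h
    have : s + a - a ∈ 𝔫 := 𝔫.sub_mem h ha
    rw [add_sub_cancel_right] at this
    exact hs this
  · push_cast
    rw [← e]
    field_simp

end Main

/-- **(C0) Kummer descent for a family of components with multiplicities.** -/
theorem kdMulti : KDMultiStatement := by
  intro R _ _ _ K _ _ _ _ F _ _ _ _ ϖ hϖ t ht hfin hK n hnu hζ 𝒱 hO m hm hJ v hv hl0 hlinf
  obtain ⟨ζ, hζ⟩ := hζ
  obtain ⟨m, rfl⟩ : ∃ m' : ℕ, m = m' + 1 := ⟨m - 1, by omega⟩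
  have htR : Transcendental R t := h19_transc R K ht
  have htR' : Transcendental R t⁻¹ := h19_transc R K (h19_transc_inv K ht)
  have hinj : Function.Injective (algebraMap R F) := h19_algebraMap_injective R K
  have hϖF : algebraMap R F ϖ ≠ 0 := by
    intro h
    exact hϖ.ne_zero (hinj (by rw [h, map_zero]))
  -- closure properties
  have hRV : ∀ r : R, ∀ V ∈ 𝒱, algebraMap R F r ∈ V := fun r V hV =>
    (hO _).mp (h19_gint_algebraMap R htR hϖ r) V hV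
  have hnV : ∀ V ∈ 𝒱, V.valuation (n : F) = 1 := by
    intro V hV
    obtain ⟨u, hu⟩ := hnu
    have e1 : (n : F) = algebraMap R F (u : R) := by rw [hu, map_natCast]
    have h1 : V.valuation (n : F) ≤ 1 := by
      rw [e1]; exact (V.valuation_le_one_iff _).mpr (hRV _ V hV)
    have h2 : V.valuation (algebraMap R F ((u⁻¹ : Rˣ) : R)) ≤ 1 :=
      (V.valuation_le_one_iff _).mpr (hRV _ V hV)
    have h3 : (n : F) * algebraMap R F ((u⁻¹ : Rˣ) : R) = 1 := by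
      rw [e1, ← map_mul, Units.mul_inv, map_one]
    have h4 : V.valuation (n : F) * V.valuation (algebraMap R F ((u⁻¹ : Rˣ) : R)) = 1 := by
      rw [← map_mul, h3, map_one]
    exact le_antisymm h1 (by
      by_contra hlt
      push Not at hlt
      have : V.valuation (n : F) * V.valuation (algebraMap R F ((u⁻¹ : Rˣ) : R)) < 1 :=
        lt_of_le_of_lt (mul_le_of_le_one_right' h2) hlt
      rw [h4] at this
      exact lt_irrefl _ this)
  -- the truncated binomial root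
  obtain ⟨P, Q, hPQ⟩ := exists_root_poly (A := R) n hnu m
  have key : ∀ a : F, (aeval a (1 + X * P)) ^ n = 1 + a + a ^ (m + 1) * aeval a Q := by
    intro a
    have := congrArg (aeval a) hPQ
    simpa using this
  have hrt_one : ∀ a : F, (∀ V ∈ 𝒱, V.valuation a < 1) →
      ∀ V ∈ 𝒱, H1FW.One V (aeval a (1 + X * P)) := by
    intro a ha V hV
    have e : aeval a (1 + X * P) - 1 = a * aeval a P := by simp
    unfold H1FW.One
    rw [e]
    refine val_mul_lt V (ha V hV) ?_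
    exact aeval_mem_pred (fun x => x ∈ V) (fun r => hRV r V hV) (fun _ _ hx hy => V.add_mem _ _ hx hy)
      (fun _ _ hx hy => V.mul_mem _ _ hx hy) a (mem_of_val_lt V (ha V hV)) P
  have hrt_mod : ∀ a : F, (∀ V ∈ 𝒱, V.valuation a < 1) →
      ModPi R ϖ t ((aeval a (1 + X * P)) ^ n) (1 + a) := by
    intro a ha
    obtain ⟨z, hz, e⟩ := hJ a ha
    rw [sub_zero] at e
    have haO : GInt R ϖ t a := (hO a).mpr fun V hV => mem_of_val_lt V (ha V hV)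
    have hQO : GInt R ϖ t (aeval a Q) :=
      aeval_mem_pred (fun x => GInt R ϖ t x) (fun r => h19_gint_algebraMap R htR hϖ r)
        (fun _ _ hx hy => h19_gint_add R htR hϖ hx hy)
        (fun _ _ hx hy => h19_gint_mul R htR hϖ hx hy) a haO Q
    refine ⟨z * aeval a Q, h19_gint_mul R htR hϖ hz hQO, ?_⟩
    rw [key a, e]; ring
  -- the degenerate case `𝒱 = ∅`
  by_cases hne : ∃ V, V ∈ 𝒱
  swap
  · push Not at hne
    have hall : ∀ y : F, GInt R ϖ t y := fun y => (hO y).mpr fun V hV => (hne V hV).elim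
    have hmod : ∀ x y : F, ModPi R ϖ t x y := fun x y =>
      ⟨(x - y) * (algebraMap R F ϖ)⁻¹, hall _, by field_simp⟩
    exact h19_KD R K F ϖ hϖ t ht hfin hK n hnu ζ hζ v (hmod _ _)
      (fun 𝔫 hmax hϖ𝔫 => by
        obtain ⟨h, -, hloc⟩ := hl0 𝔫 ⟨hmax, hϖ𝔫⟩
        exact ⟨h, hmod _ _, inLocAt_of_inLoc R hloc⟩)
      (fun 𝔫 hmax hϖ𝔫 => by
        obtain ⟨h, -, hloc⟩ := hlinf 𝔫 ⟨hmax, hϖ𝔫⟩
        exact ⟨h, hmod _ _, inLocAt_of_inLoc R hloc⟩)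
  obtain ⟨V₀, hV₀⟩ := hne
  have hv0 : v ≠ 0 := H1FW.one_ne_zero V₀ (hv V₀ hV₀)
  -- step 1: `v = v₀ h₀ⁿ` with `v₀ ≡ 1 mod ϖ O`
  obtain ⟨a, ha_def⟩ : ∃ a : F, a = v - 1 := ⟨_, rfl⟩
  have ha : ∀ V ∈ 𝒱, V.valuation a < 1 := fun V hV => by rw [ha_def]; exact hv V hV
  obtain ⟨h₀, hh₀⟩ : ∃ h₀ : F, h₀ = aeval a (1 + X * P) := ⟨_, rfl⟩
  have hh₀1 : ∀ V ∈ 𝒱, H1FW.One V h₀ := fun V hV => by rw [hh₀]; exact hrt_one a ha V hV
  have hh₀n1 : ∀ V ∈ 𝒱, H1FW.One V (h₀ ^ n) := fun V hV => onePow V (hh₀1 V hV) n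
  have hh₀0 : h₀ ≠ 0 := H1FW.one_ne_zero V₀ (hh₀1 V₀ hV₀)
  obtain ⟨v₀, hv₀⟩ : ∃ v₀ : F, v₀ = v * (h₀ ^ n)⁻¹ := ⟨_, rfl⟩
  have hv₀1 : ∀ V ∈ 𝒱, H1FW.One V v₀ := fun V hV => by
    rw [hv₀]; exact one_mul' V (hv V hV) (one_inv V (hh₀n1 V hV))
  have hv₀0 : v₀ ≠ 0 := H1FW.one_ne_zero V₀ (hv₀1 V₀ hV₀)
  have hv₀mod : ModPi R ϖ t v₀ 1 := by
    obtain ⟨z, hz, e⟩ := hrt_mod a ha
    rw [← hh₀] at e
    have hinvO := (gint_of_one R 𝒱 hO hh₀n1).2
    refine ⟨-(z * (h₀ ^ n)⁻¹), h19_gint_neg R (h19_gint_mul R htR hϖ hz hinvO), ?_⟩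
    have hn0 : h₀ ^ n ≠ 0 := pow_ne_zero _ hh₀0
    have e2 : v * (h₀ ^ n)⁻¹ - 1 = -((h₀ ^ n - (1 + a)) * (h₀ ^ n)⁻¹) := by
      rw [ha_def]; field_simp; ring
    rw [hv₀, e2, e]; ring
  -- step 2: the local hypothesis for `v₀`
  have hloc : ∀ c : F, (∀ y : F, IsInt R c y → GInt R ϖ t y) →
      (∀ y : F, GInt R ϖ t y → IsInt R c (algebraMap R F ϖ * y) → IsInt R c y) →
      MLoc R ϖ 𝒱 c n v → LocPowAt R ϖ t c n v₀ := by
    intro c hG hU hl 𝔫 hmax hϖ𝔫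
    have h𝔫 : IsClosedPt R ϖ c 𝔫 := ⟨hmax, hϖ𝔫⟩
    have hprime : 𝔫.IsPrime := hmax.isPrime
    obtain ⟨h, hh1, hlocβ⟩ := hl 𝔫 h𝔫
    have hh0 : h ≠ 0 := H1FW.one_ne_zero V₀ (hh1 V₀ hV₀)
    obtain ⟨β, hβ⟩ : ∃ β : F, β = v * h ^ n := ⟨_, rfl⟩
    rw [← hβ] at hlocβ
    have hβ1 : ∀ V ∈ 𝒱, H1FW.One V β := fun V hV => by
      rw [hβ]; exact one_mul' V (hv V hV) (onePow V (hh1 V hV) n)
    obtain ⟨a', ha'_def⟩ : ∃ a' : F, a' = β - 1 := ⟨_, rfl⟩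
    have ha' : ∀ V ∈ 𝒱, V.valuation a' < 1 := fun V hV => by rw [ha'_def]; exact hβ1 V hV
    have ha'loc : InLoc R c 𝔫 a' := by
      rw [ha'_def]; exact inLoc_sub hprime hlocβ (inLoc_one hprime)
    have ha'max : InMax c 𝔫 a' := inMax_of_small R 𝒱 hO hG hU m hJ 𝔫 h𝔫 ha'loc ha'
    obtain ⟨h₁, hh₁⟩ : ∃ h₁ : F, h₁ = aeval a' (1 + X * P) := ⟨_, rfl⟩
    have hh₁1 : ∀ V ∈ 𝒱, H1FW.One V h₁ := fun V hV => by rw [hh₁]; exact hrt_one a' ha' V hV
    have hh₁e : h₁ = 1 + a' * aeval a' P := by rw [hh₁]; simp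
    have hPloc : InLoc R c 𝔫 (aeval a' P) :=
      aeval_mem_pred (fun x => InLoc R c 𝔫 x) (fun r => inLoc_algebraMap hprime r)
        (fun _ _ hx hy => inLoc_add hprime hx hy) (fun _ _ hx hy => inLoc_mul hprime hx hy)
        a' ha'loc P
    have hh₁inv : InLoc R c 𝔫 h₁⁻¹ := by
      rw [hh₁e]; exact inLoc_inv_one_add R hprime (inMax_mul hprime ha'max hPloc)
    have hh₁0 : h₁ ≠ 0 := H1FW.one_ne_zero V₀ (hh₁1 V₀ hV₀)
    have hh₁n0 : h₁ ^ n ≠ 0 := pow_ne_zero _ hh₁0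
    have hh₀n0 : h₀ ^ n ≠ 0 := pow_ne_zero _ hh₀0
    refine ⟨h * h₀ * h₁⁻¹, ?_, ?_⟩
    · have hh'1 : ∀ V ∈ 𝒱, H1FW.One V (h * h₀ * h₁⁻¹) := fun V hV =>
        one_mul' V (one_mul' V (hh1 V hV) (hh₀1 V hV)) (one_inv V (hh₁1 V hV))
      apply modPi_of_pow R 𝒱 hϖ hϖF htR hO n hnV hh'1
      have hw : ModPi R ϖ t (β * (h₁ ^ n)⁻¹) 1 := by
        obtain ⟨z, hz, e⟩ := hrt_mod a' ha'
        rw [← hh₁] at e
        have hinvO := (gint_of_one R 𝒱 hO (fun V hV => onePow V (hh₁1 V hV) n)).2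
        refine ⟨-(z * (h₁ ^ n)⁻¹), h19_gint_neg R (h19_gint_mul R htR hϖ hz hinvO), ?_⟩
        have e2 : β * (h₁ ^ n)⁻¹ - 1 = -((h₁ ^ n - (1 + a')) * (h₁ ^ n)⁻¹) := by
          rw [ha'_def]; field_simp; ring
        rw [e2, e]; ring
      have hv₀inv : ModPi R ϖ t v₀⁻¹ 1 :=
        modPi_one_inv R hϖ htR hv₀0 hv₀mod (gint_of_one R 𝒱 hO hv₀1).2
      have hprod := modPi_one_mul R hϖ htR hw hv₀inv (gint_of_one R 𝒱 hO hv₀1).2
      have hhn0 : h ^ n ≠ 0 := pow_ne_zero _ hh0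
      have e : (h * h₀ * h₁⁻¹) ^ n = β * (h₁ ^ n)⁻¹ * v₀⁻¹ := by
        rw [hβ, hv₀, mul_pow, mul_pow, inv_pow]; field_simp
      rw [e]; exact hprod
    · have e : v₀ * (h * h₀ * h₁⁻¹) ^ n = β * h₁⁻¹ ^ n := by
        rw [hβ, hv₀, mul_pow, mul_pow, inv_pow]; field_simp
      rw [e]
      exact inLocAt_of_inLoc R (inLoc_mul hprime hlocβ (inLoc_pow hprime hh₁inv n))
  -- step 3: Kummer descent for `v₀`
  obtain ⟨c, g, hcg⟩ := h19_KD R K F ϖ hϖ t ht hfin hK n hnu ζ hζ v₀ hv₀mod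
    (hloc t (fun y hy => h19_gint_of_isInt R htR hϖ hy)
      (fun y hy h => h19_lemmaU R htR hϖ hy h) hl0)
    (hloc t⁻¹ (fun y hy => h19_gint_of_isInt_inv R htR htR' hϖ hy)
      (fun y hy h => h19_lemmaU_inv R htR htR' hϖ hy h) hlinf)
  refine ⟨c, g * h₀, ?_⟩
  have hn0 : h₀ ^ n ≠ 0 := pow_ne_zero _ hh₀0
  have e : v = v₀ * h₀ ^ n := by rw [hv₀]; field_simp
  rw [e, hcg]; ring

end H1G3

end
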