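import Mathlib

/-!
# Item 86 (S36), middle chain, step (VERT3) (helper1): the vertical normalisation, GENERIC CORE

Mathlib only.  Three valuation rings `V₁ V₂ V₃` of `F` (uniformizers `π, π, b₃`, with
`π = b₃ ^ (q - 1) · unit` at `V₃`), two valuation rings `V₁' V₂'` of `F'` (uniformizer `π'`),
two multiplicative maps `Nα Nβ : F →* F'` with the valuation formulas

  `ord_{V₁'} (Nα x) = ord_{V₁} x + ord_{V₃} x`,   `ord_{V₂'} (Nα x) = q · ord_{V₂} x`,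
  `ord_{V₁'} (Nβ x) = q · ord_{V₁} x`,            `ord_{V₂'} (Nβ x) = ord_{V₂} x + ord_{V₃} x`,

and `N c = c ^ q` on constants.  If `Nα f = cα · hⁿ` and `Nβ f = cβ · h'ⁿ` (`cα, cβ` constants),
then the orders `a₁ a₂ a₃` of `f` satisfy `(q + 1)(a₂ - a₁) ≡ 0` and
`(q + 1)(a₃ - (q - 1) a₁) ≡ 0  (mod n)`, so that for `d = π ^ (-(q + 1) a₁)` and a suitable `g`
(weak approximation) `u = f ^ (q + 1) · d · gⁿ` is a unit at `V₁, V₂, V₃`, and
`Nα u = rα ^ (q + 1) · Hαⁿ`, `Nβ u = rβ ^ (q + 1) · Hβⁿ` with `rα, rβ` units of `R`.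
-/

set_option autoImplicit false

namespace H1V3

/-- `x` has order `k` at `V` with respect to `π`: `x = π ^ k · (V-unit)`. -/
def Ord {F : Type*} [Field F] (V : ValuationSubring F) (π x : F) (k : ℤ) : Prop :=
  V.valuation (x * π ^ (-k)) = 1

section basic

variable {F : Type*} [Field F] {V : ValuationSubring F} {π x y : F} {k l : ℤ}

theorem ord_iff : Ord V π x k ↔ V.valuation (x * π ^ (-k)) = 1 := Iff.rfl

theorem ord_zero_iff : Ord V π x 0 ↔ V.valuation x = 1 := by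
  simp [Ord]

theorem ord_mul (hπ : π ≠ 0) (hx : Ord V π x k) (hy : Ord V π y l) :
    Ord V π (x * y) (k + l) := by
  unfold Ord at *
  have : x * y * π ^ (-(k + l)) = (x * π ^ (-k)) * (y * π ^ (-l)) := by
    rw [neg_add, zpow_add₀ hπ]; ring
  rw [this, map_mul, hx, hy, one_mul]

theorem ord_zpow (hx : Ord V π x k) (m : ℤ) : Ord V π (x ^ m) (m * k) := by
  unfold Ord at *
  have : x ^ m * π ^ (-(m * k)) = (x * π ^ (-k)) ^ m := by
    rw [mul_zpow, ← zpow_mul]; congr 2; ring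
  rw [this, map_zpow₀, hx, one_zpow]

theorem ord_pow (hx : Ord V π x k) (m : ℕ) : Ord V π (x ^ m) (m * k) := by
  have := ord_zpow hx (m : ℤ)
  rwa [zpow_natCast] at this

theorem ord_inv (hx : Ord V π x k) : Ord V π x⁻¹ (-k) := by
  have := ord_zpow hx (-1)
  rwa [zpow_neg_one, neg_one_mul] at this

theorem ord_self_zpow (hπ : π ≠ 0) (k : ℤ) : Ord V π (π ^ k) k := by
  unfold Ord
  rw [← zpow_add₀ hπ, add_neg_cancel, zpow_zero, map_one]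

theorem ord_val (hπ : π ≠ 0) (hx : Ord V π x k) : V.valuation x = V.valuation π ^ k := by
  unfold Ord at hx
  rw [map_mul, map_zpow₀, zpow_neg] at hx
  have h0 : V.valuation π ^ k ≠ 0 := zpow_ne_zero _ ((map_ne_zero _).2 hπ)
  rw [← div_eq_mul_inv, div_eq_one_iff_eq h0] at hx
  exact hx

theorem ord_uniq (hπ : π ≠ 0) (hπ1 : V.valuation π < 1) (h1 : Ord V π x k)
    (h2 : Ord V π x l) : k = l := by
  have e1 := ord_val hπ h1
  have e2 := ord_val hπ h2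
  rw [e1] at e2
  have h0 : 0 < V.valuation π := zero_lt_iff.2 ((map_ne_zero _).2 hπ)
  exact (zpow_right_inj₀ h0 hπ1.ne).1 e2

theorem ord_ne_zero (hx : Ord V π x k) : x ≠ 0 := by
  rintro rfl
  unfold Ord at hx
  simp at hx

theorem ord_cast (hx : Ord V π x k) (h : k = l) : Ord V π x l := h ▸ hx

end basic

/-- the arithmetic of the vertical step. -/
theorem vert3_arith (q n a₁ a₂ a₃ kα kβ e₁ e₂ e₁' e₂' : ℤ)
    (E1 : a₁ + a₃ = kα + n * e₁) (E2 : q * a₂ = kα + n * e₂)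
    (E3 : q * a₁ = kβ + n * e₁') (E4 : a₂ + a₃ = kβ + n * e₂') :
    (q + 1) * a₂ + -((q + 1) * a₁) + n * -(e₂ + e₂' - e₁ - e₁') = 0 ∧
    (q + 1) * a₃ + -((q + 1) * a₁) * (q - 1)
        + n * -(q * (e₂ + e₂' - e₁ - e₁') + (q + 1) * (e₁ - e₂)) = 0 ∧
    kα * (q + 1) + -((q + 1) * a₁) * q = (q * (e₂ + e₂' - e₁ - e₁') - (q + 1) * e₂) * n ∧
    kβ * (q + 1) + -((q + 1) * a₁) * q = (-((q + 1) * e₁')) * n := by
  refine ⟨?_, ?_, ?_, ?_⟩
  · linear_combination (E4 - E3) - (E1 - E2)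
  · linear_combination (q + 1) * (E1 - E2) + q * ((E4 - E3) - (E1 - E2))
  · linear_combination (-(q + 1)) * E2 + q * ((E4 - E3) - (E1 - E2))
  · linear_combination (-(q + 1)) * E3

section main

variable {R K F F' : Type*} [CommRing R] [Field K] [Algebra R K] [Field F] [Field F']
  [Algebra K F] [Algebra K F']

/-- order of a constant `π ^ k · r`, `r ∈ Rˣ`, at a valuation ring in which `R`-units are
units. -/
theorem ord_const {E : Type*} [Field E] [Algebra K E] (V : ValuationSubring E) (πK : K)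
    (hπ : πK ≠ 0)
    (hR : ∀ r : Rˣ, V.valuation (algebraMap K E (algebraMap R K r)) = 1)
    (k : ℤ) (r : Rˣ) :
    Ord V (algebraMap K E πK) (algebraMap K E (πK ^ k * algebraMap R K r)) k := by
  have hπE : algebraMap K E πK ≠ 0 := by
    simpa using hπ
  rw [map_mul, map_zpow₀]
  have := ord_mul (V := V) hπE (ord_self_zpow hπE k) (ord_zero_iff.2 (hR r))
  rwa [add_zero] at this

/-- **(VERT3), generic core.** -/
theorem vert3 (πK : K) (hπ : πK ≠ 0)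
    (hK : ∀ c : K, c ≠ 0 → ∃ (k : ℤ) (r : Rˣ), c = πK ^ k * algebraMap R K r)
    (V₁ V₂ V₃ : ValuationSubring F) (V₁' V₂' : ValuationSubring F') (b₃ : F)
    (q n : ℕ) (hn : n ≠ 0)
    (hV₁' : V₁'.valuation (algebraMap K F' πK) < 1)
    (hV₂' : V₂'.valuation (algebraMap K F' πK) < 1)
    (hb₃ : b₃ ≠ 0)
    (hπ₃ : Ord V₃ b₃ (algebraMap K F πK) ((q : ℤ) - 1))
    (hR₁' : ∀ r : Rˣ, V₁'.valuation (algebraMap K F' (algebraMap R K r)) = 1)
    (hR₂' : ∀ r : Rˣ, V₂'.valuation (algebraMap K F' (algebraMap R K r)) = 1)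
    (hord₁ : ∀ x : F, x ≠ 0 → ∃ k : ℤ, Ord V₁ (algebraMap K F πK) x k)
    (hord₂ : ∀ x : F, x ≠ 0 → ∃ k : ℤ, Ord V₂ (algebraMap K F πK) x k)
    (hord₃ : ∀ x : F, x ≠ 0 → ∃ k : ℤ, Ord V₃ b₃ x k)
    (hord₁' : ∀ x : F', x ≠ 0 → ∃ k : ℤ, Ord V₁' (algebraMap K F' πK) x k)
    (hord₂' : ∀ x : F', x ≠ 0 → ∃ k : ℤ, Ord V₂' (algebraMap K F' πK) x k)
    (hWA : ∀ k₁ k₂ k₃ : ℤ, ∃ g : F, g ≠ 0 ∧
      Ord V₁ (algebraMap K F πK) g k₁ ∧
      Ord V₂ (algebraMap K F πK) g k₂ ∧ Ord V₃ b₃ g k₃)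
    (Nα Nβ : F →* F')
    (hNαc : ∀ c : K, Nα (algebraMap K F c) = algebraMap K F' c ^ q)
    (hNβc : ∀ c : K, Nβ (algebraMap K F c) = algebraMap K F' c ^ q)
    (vNa1 : ∀ (x : F) (a c : ℤ), Ord V₁ (algebraMap K F πK) x a →
      Ord V₃ b₃ x c → Ord V₁' (algebraMap K F' πK) (Nα x) (a + c))
    (vNa2 : ∀ (x : F) (a : ℤ), Ord V₂ (algebraMap K F πK) x a →
      Ord V₂' (algebraMap K F' πK) (Nα x) (q * a))
    (vNb1 : ∀ (x : F) (a : ℤ), Ord V₁ (algebraMap K F πK) x a →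
      Ord V₁' (algebraMap K F' πK) (Nβ x) (q * a))
    (vNb2 : ∀ (x : F) (a c : ℤ), Ord V₂ (algebraMap K F πK) x a →
      Ord V₃ b₃ x c → Ord V₂' (algebraMap K F' πK) (Nβ x) (a + c))
    (f : F) (hf : f ≠ 0) (cα cβ : K) (h h' : F')
    (hα : Nα f = algebraMap K F' cα * h ^ n)
    (hβ : Nβ f = algebraMap K F' cβ * h' ^ n) :
    ∃ (d : K) (g : F) (rα rβ : Rˣ) (Hα Hβ : F'), d ≠ 0 ∧ g ≠ 0 ∧ Hα ≠ 0 ∧ Hβ ≠ 0 ∧
      V₁.valuation (f ^ (q + 1) * algebraMap K F d * g ^ n) = 1 ∧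
      V₂.valuation (f ^ (q + 1) * algebraMap K F d * g ^ n) = 1 ∧
      V₃.valuation (f ^ (q + 1) * algebraMap K F d * g ^ n) = 1 ∧
      Nα (f ^ (q + 1) * algebraMap K F d * g ^ n)
        = algebraMap K F' (algebraMap R K rα) * Hα ^ n ∧
      Nβ (f ^ (q + 1) * algebraMap K F d * g ^ n)
        = algebraMap K F' (algebraMap R K rβ) * Hβ ^ n := by
  classical
  set πF : F := algebraMap K F πK with hπF
  set πF' : F' := algebraMap K F' πK with hπF'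
  have hπF0 : πF ≠ 0 := by simpa [hπF] using hπ
  have hπF'0 : πF' ≠ 0 := by simpa [hπF'] using hπ
  -- nonvanishing
  have hNαf : Nα f ≠ 0 := ((IsUnit.mk0 f hf).map Nα).ne_zero
  have hNβf : Nβ f ≠ 0 := ((IsUnit.mk0 f hf).map Nβ).ne_zero
  have hcα : cα ≠ 0 := by
    rintro rfl; rw [map_zero, zero_mul] at hα; exact hNαf hα
  have hcβ : cβ ≠ 0 := by
    rintro rfl; rw [map_zero, zero_mul] at hβ; exact hNβf hβ
  have hh : h ≠ 0 := by
    rintro rfl; rw [zero_pow hn, mul_zero] at hα; exact hNαf hα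
  have hh' : h' ≠ 0 := by
    rintro rfl; rw [zero_pow hn, mul_zero] at hβ; exact hNβf hβ
  -- orders
  obtain ⟨a₁, ha₁⟩ := hord₁ f hf
  obtain ⟨a₂, ha₂⟩ := hord₂ f hf
  obtain ⟨a₃, ha₃⟩ := hord₃ f hf
  obtain ⟨e₁, he₁⟩ := hord₁' h hh
  obtain ⟨e₂, he₂⟩ := hord₂' h hh
  obtain ⟨e₁', he₁'⟩ := hord₁' h' hh'
  obtain ⟨e₂', he₂'⟩ := hord₂' h' hh'
  obtain ⟨kα, rα, hkα⟩ := hK cα hcα
  obtain ⟨kβ, rβ, hkβ⟩ := hK cβ hcβ
  -- the four relations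
  have E1 : a₁ + a₃ = kα + n * e₁ := by
    refine ord_uniq hπF'0 hV₁' (vNa1 f a₁ a₃ ha₁ ha₃) ?_
    rw [hα, hkα]
    exact ord_mul hπF'0 (ord_const V₁' πK hπ hR₁' kα rα) (ord_pow he₁ n)
  have E2 : (q : ℤ) * a₂ = kα + n * e₂ := by
    refine ord_uniq hπF'0 hV₂' (vNa2 f a₂ ha₂) ?_
    rw [hα, hkα]
    exact ord_mul hπF'0 (ord_const V₂' πK hπ hR₂' kα rα) (ord_pow he₂ n)
  have E3 : (q : ℤ) * a₁ = kβ + n * e₁' := by
    refine ord_uniq hπF'0 hV₁' (vNb1 f a₁ ha₁) ?_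
    rw [hβ, hkβ]
    exact ord_mul hπF'0 (ord_const V₁' πK hπ hR₁' kβ rβ) (ord_pow he₁' n)
  have E4 : a₂ + a₃ = kβ + n * e₂' := by
    refine ord_uniq hπF'0 hV₂' (vNb2 f a₂ a₃ ha₂ ha₃) ?_
    rw [hβ, hkβ]
    exact ord_mul hπF'0 (ord_const V₂' πK hπ hR₂' kβ rβ) (ord_pow he₂' n)
  obtain ⟨A2, A3, Aα, Aβ⟩ := vert3_arith q n a₁ a₂ a₃ kα kβ e₁ e₂ e₁' e₂' E1 E2 E3 E4
  -- the data
  set k₂ : ℤ := e₂ + e₂' - e₁ - e₁' with hk₂
  set k₃ : ℤ := q * k₂ + (q + 1) * (e₁ - e₂) with hk₃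
  obtain ⟨g, hg0, hg₁, hg₂, hg₃⟩ := hWA 0 (-k₂) (-k₃)
  set d : K := πK ^ (-(((q : ℤ) + 1) * a₁)) with hd
  have hd0 : d ≠ 0 := zpow_ne_zero _ hπ
  have hdF : algebraMap K F d = πF ^ (-(((q : ℤ) + 1) * a₁)) := by
    rw [hd, map_zpow₀]
  have hdF' : algebraMap K F' d = πF' ^ (-(((q : ℤ) + 1) * a₁)) := by
    rw [hd, map_zpow₀]
  have hNαg : Nα g ≠ 0 := ((IsUnit.mk0 g hg0).map Nα).ne_zero
  have hNβg : Nβ g ≠ 0 := ((IsUnit.mk0 g hg0).map Nβ).ne_zero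
  refine ⟨d, g, rα ^ (q + 1), rβ ^ (q + 1),
    πF' ^ ((q : ℤ) * k₂ - (q + 1) * e₂) * h ^ (q + 1) * Nα g,
    πF' ^ (-(((q : ℤ) + 1) * e₁')) * h' ^ (q + 1) * Nβ g, hd0, hg0,
    mul_ne_zero (mul_ne_zero (zpow_ne_zero _ hπF'0) (pow_ne_zero _ hh)) hNαg,
    mul_ne_zero (mul_ne_zero (zpow_ne_zero _ hπF'0) (pow_ne_zero _ hh')) hNβg,
    ?_, ?_, ?_, ?_, ?_⟩
  · -- V₁
    rw [← ord_zero_iff (π := πF)]
    have := ord_mul hπF0 (ord_mul hπF0 (ord_pow ha₁ (q + 1))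
      (hdF ▸ ord_self_zpow (V := V₁) hπF0 (-(((q : ℤ) + 1) * a₁)))) (ord_pow hg₁ n)
    refine ord_cast this ?_
    push_cast; ring
  · -- V₂
    rw [← ord_zero_iff (π := πF)]
    have := ord_mul hπF0 (ord_mul hπF0 (ord_pow ha₂ (q + 1))
      (hdF ▸ ord_self_zpow (V := V₂) hπF0 (-(((q : ℤ) + 1) * a₁)))) (ord_pow hg₂ n)
    refine ord_cast this ?_
    push_cast; linear_combination A2
  · -- V₃
    rw [← ord_zero_iff (π := b₃)]
    have hd₃ : Ord V₃ b₃ (algebraMap K F d) (-(((q : ℤ) + 1) * a₁) * ((q : ℤ) - 1)) := by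
      rw [hdF]; exact ord_zpow hπ₃ _
    have := ord_mul hb₃ (ord_mul hb₃ (ord_pow ha₃ (q + 1)) hd₃) (ord_pow hg₃ n)
    refine ord_cast this ?_
    push_cast; linear_combination A3
  · -- Nα
    rw [map_mul, map_mul, map_pow, map_pow, hα, hNαc, hdF', hkα]
    have key : (πK ^ kα) ^ (q + 1) * (πK ^ (-(((q : ℤ) + 1) * a₁))) ^ q
        = (πK ^ ((q : ℤ) * k₂ - (q + 1) * e₂)) ^ n := by
      have hexp : kα * ((q + 1 : ℕ) : ℤ) + -(((q : ℤ) + 1) * a₁) * (q : ℤ)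
          = ((q : ℤ) * k₂ - (q + 1) * e₂) * (n : ℤ) := by
        push_cast; linear_combination Aα
      rw [← zpow_natCast (πK ^ kα), ← zpow_natCast (πK ^ (-(((q : ℤ) + 1) * a₁))),
        ← zpow_natCast (πK ^ ((q : ℤ) * k₂ - (q + 1) * e₂)), ← zpow_mul, ← zpow_mul, ← zpow_mul,
        ← zpow_add₀ hπ, hexp]
    have key' := congrArg (algebraMap K F') key
    simp only [map_mul, map_pow, map_zpow₀] at key'
    simp only [map_mul, map_pow, map_zpow₀, Units.val_pow_eq_pow_val]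
    rw [← hπF'] at key' ⊢
    linear_combination (algebraMap K F' (algebraMap R K ↑rα) ^ (q + 1) * h ^ (n * (q + 1))
      * Nα g ^ n) * key'
  · -- Nβ
    rw [map_mul, map_mul, map_pow, map_pow, hβ, hNβc, hdF', hkβ]
    have key : (πK ^ kβ) ^ (q + 1) * (πK ^ (-(((q : ℤ) + 1) * a₁))) ^ q
        = (πK ^ (-(((q : ℤ) + 1) * e₁'))) ^ n := by
      have hexp : kβ * ((q + 1 : ℕ) : ℤ) + -(((q : ℤ) + 1) * a₁) * (q : ℤ)
          = (-(((q : ℤ) + 1) * e₁')) * (n : ℤ) := by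
        push_cast; linear_combination Aβ
      rw [← zpow_natCast (πK ^ kβ), ← zpow_natCast (πK ^ (-(((q : ℤ) + 1) * a₁))),
        ← zpow_natCast (πK ^ (-(((q : ℤ) + 1) * e₁'))), ← zpow_mul, ← zpow_mul, ← zpow_mul,
        ← zpow_add₀ hπ, hexp]
    have key' := congrArg (algebraMap K F') key
    simp only [map_mul, map_pow, map_zpow₀] at key'
    simp only [map_mul, map_pow, map_zpow₀, Units.val_pow_eq_pow_val]
    rw [← hπF'] at key' ⊢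
    linear_combination (algebraMap K F' (algebraMap R K ↑rβ) ^ (q + 1) * h' ^ (n * (q + 1))
      * Nβ g ^ n) * key'

end main

end H1V3
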