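import Mathlib
import Fermat.Agent.S36.InjGenDefs_helper4
import Fermat.Agent.S36.Vert3Core_helper1

/-!
# Item 86 (S36), middle chain, step (VERT3) (helper1): `H4S36.VertStatement`

The vertical normalisation of the generic middle chain (architect helper4,
`S36/InjGenDefs_helper4.lean`), from the Mathlib-only core `H1V3.vert3`
(`S36/Vert3Core_helper1.lean`) and the fields
`hR₁' hR₂' hb₃ he₃ hϖ₁' hϖ₂' hd₁ hd₂ hd₃ hd₁' hd₂' wa hNαc hNβc vNα₁ vNα₂ vNβ₁ vNβ₂`
of `H4S36.Triple`.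
-/

set_option autoImplicit false

noncomputable section

namespace H1V3

/-- in the fraction field of a DVR every nonzero element is `ϖ ^ k · unit` (`k ∈ ℤ`). -/
theorem exists_zpow_mul_unit (R : Type*) [CommRing R] [IsDomain R] [IsDiscreteValuationRing R]
    (K : Type*) [Field K] [Algebra R K] [IsFractionRing R K] (ϖ : R) (hϖ : Irreducible ϖ)
    (c : K) (hc : c ≠ 0) :
    ∃ (k : ℤ) (r : Rˣ), c = algebraMap R K ϖ ^ k * algebraMap R K r := by
  obtain ⟨a, b, hb, rfl⟩ := IsFractionRing.div_surjective (A := R) c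
  have hb0 : b ≠ 0 := nonZeroDivisors.ne_zero hb
  have ha0 : a ≠ 0 := by
    rintro rfl; simp at hc
  obtain ⟨m, u, rfl⟩ := IsDiscreteValuationRing.eq_unit_mul_pow_irreducible ha0 hϖ
  obtain ⟨l, w, rfl⟩ := IsDiscreteValuationRing.eq_unit_mul_pow_irreducible hb0 hϖ
  have hϖK : algebraMap R K ϖ ≠ 0 := by
    intro h0
    exact hϖ.ne_zero ((map_eq_zero_iff _ (IsFractionRing.injective R K)).1 h0)
  have hwK : algebraMap R K (w : R) ≠ 0 := by
    intro h0
    exact w.ne_zero ((map_eq_zero_iff _ (IsFractionRing.injective R K)).1 h0)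
  refine ⟨(m : ℤ) - l, u * w⁻¹, ?_⟩
  have hw : algebraMap R K ((w⁻¹ : Rˣ) : R) = (algebraMap R K (w : R))⁻¹ := by
    refine eq_inv_of_mul_eq_one_left ?_
    rw [← map_mul]
    simp
  rw [zpow_sub₀ hϖK, zpow_natCast, zpow_natCast, Units.val_mul, map_mul, map_mul, map_mul,
    map_pow, map_pow, hw]
  field_simp

/-- units of `R` are units of a valuation ring containing `R`. -/
theorem val_unit_eq_one {R : Type*} [CommRing R] {E : Type*} [Field E] [Algebra R E]
    (V : ValuationSubring E) (hR : ∀ r : R, algebraMap R E r ∈ V) (r : Rˣ) :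
    V.valuation (algebraMap R E (r : R)) = 1 := by
  have h1 : V.valuation (algebraMap R E (r : R)) ≤ 1 :=
    (ValuationSubring.valuation_le_one_iff V _).2 (hR r)
  have h2 : V.valuation (algebraMap R E ((r⁻¹ : Rˣ) : R)) ≤ 1 :=
    (ValuationSubring.valuation_le_one_iff V _).2 (hR _)
  have h3 : V.valuation (algebraMap R E (r : R)) * V.valuation (algebraMap R E ((r⁻¹ : Rˣ) : R))
      = 1 := by
    rw [← map_mul, ← map_mul]; simp
  refine le_antisymm h1 ?_
  calc (1 : _) = V.valuation (algebraMap R E (r : R))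
        * V.valuation (algebraMap R E ((r⁻¹ : Rˣ) : R)) := h3.symm
    _ ≤ V.valuation (algebraMap R E (r : R)) * 1 := by gcongr
    _ = _ := mul_one _

/-- **(VERT3)** : `H4S36.VertStatement`. -/
theorem vertStatement : H4S36.VertStatement := by
  intro R _ _ _ K _ _ _ _ F _ _ _ _ F' _ _ _ _ ϖ hϖ t q n hq hn φα φβ Nα Nβ V₁ V₂ V₃ V₁' V₂' b₃
    T f hf hNα hNβ
  obtain ⟨cα, h, -, -, hα⟩ := hNα
  obtain ⟨cβ, h', -, -, hβ⟩ := hNβ
  have hϖK : algebraMap R K ϖ ≠ 0 := by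
    intro h0
    exact hϖ.ne_zero ((map_eq_zero_iff _ (IsFractionRing.injective R K)).1 h0)
  have eF : algebraMap K F (algebraMap R K ϖ) = algebraMap R F ϖ :=
    (IsScalarTower.algebraMap_apply R K F ϖ).symm
  have eF' : algebraMap K F' (algebraMap R K ϖ) = algebraMap R F' ϖ :=
    (IsScalarTower.algebraMap_apply R K F' ϖ).symm
  have eF'r : ∀ r : R, algebraMap K F' (algebraMap R K r) = algebraMap R F' r := fun r =>
    (IsScalarTower.algebraMap_apply R K F' r).symm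
  have hb₃ : b₃ ≠ 0 := by
    intro h0
    have := T.he₃
    unfold H4S36.OrdAt at this
    rcases Nat.lt_or_ge 1 q with h1 | h1
    · -- q ≥ 2 : the exponent -(q-1) is negative, 0 ^ (negative) = 0
      rw [h0, zero_zpow _ (by omega), mul_zero, map_zero] at this
      exact zero_ne_one this
    · -- q = 1 : `ϖ` would be a unit at `V₃`, but `ϖ = 0^0 * ...`; use `hb₃ < 1` and `hd₃`
      obtain ⟨k, hk⟩ := T.hd₃ 1 one_ne_zero
      unfold H4S36.OrdAt at hk
      rw [h0, one_mul] at hk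
      rcases eq_or_ne k 0 with rfl | hk0
      · -- then every order is `0`; contradiction with `wa` at order `1`
        obtain ⟨g, hg0, -, -, hg₃⟩ := T.wa 0 0 1
        unfold H4S36.OrdAt at hg₃
        rw [h0, zero_zpow _ (by omega), mul_zero, map_zero] at hg₃
        exact zero_ne_one hg₃
      · rw [zero_zpow _ (by omega), map_zero] at hk
        exact zero_ne_one hk
  obtain ⟨d, g, rα, rβ, Hα, Hβ, hd0, hg0, hHα, hHβ, h1, h2, h3, hNa, hNb⟩ :=
    vert3 (R := R) (algebraMap R K ϖ) hϖK (exists_zpow_mul_unit R K ϖ hϖ) V₁ V₂ V₃ V₁' V₂' b₃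
      q n hn.ne'
      (eF' ▸ T.hϖ₁') (eF' ▸ T.hϖ₂') hb₃ (eF ▸ T.he₃)
      (fun r => by rw [eF'r]; exact val_unit_eq_one V₁' T.hR₁' r)
      (fun r => by rw [eF'r]; exact val_unit_eq_one V₂' T.hR₂' r)
      (eF ▸ T.hd₁) (eF ▸ T.hd₂) T.hd₃ (eF' ▸ T.hd₁') (eF' ▸ T.hd₂')
      (eF ▸ T.wa) Nα Nβ T.hNαc T.hNβc
      (by rw [eF, eF']; exact T.vNα₁) (by rw [eF, eF']; exact T.vNα₂)
      (by rw [eF, eF']; exact T.vNβ₁) (by rw [eF, eF']; exact T.vNβ₂)
      f hf cα cβ h h' hα hβ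
  refine ⟨d, g, hd0, hg0, ⟨h1, h2, h3⟩, ⟨rα, Hα, rα.isUnit, hHα, ?_⟩, ⟨rβ, Hβ, rβ.isUnit, hHβ, ?_⟩⟩
  · rw [hNa, eF'r]
  · rw [hNb, eF'r]

end H1V3

end
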