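import Mathlib
import Fermat.Agent.S36.InjGen_helper1
import Fermat.Agent.S36.Vert3_helper1
import Fermat.Agent.S36.KDMulti_helper1

/-!
# Item 86 (S36), middle chain (helper1): `Abel3Statement ⟹ InjGenStatement`

The generic chain `H1IG.injGen` with (VERT3) `H1V3.vertStatement` and (KD) `H1G3.kdMulti`
discharged: the only remaining generic input is (ABEL3).
-/

set_option autoImplicit false

namespace H1IG

/-- the generic middle chain, with (VERT3) and (KD) discharged. -/
theorem injGen_of_abel3 (hA : H4S36.Abel3Statement) : H4S36.InjGenStatement :=
  injGen H1V3.vertStatement hA H1G3.kdMulti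

end H1IG
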