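import Mathlib
import Fermat.Agent.S36.InjGenAsm_helper1
import Fermat.Agent.S36.Abel3_helper16

/-!
# Item 86 (S36), middle chain (helper1): `H4S36.InjGenStatement`, UNCONDITIONAL

`H1IG.injGenStatement : H4S36.InjGenStatement`, from (VERT3) `H1V3.vertStatement`,
(ABEL3) `H16AB.abel3` (helper16) and (KD) `H1G3.kdMulti`, through the chain `H1IG.injGen`.
What remains for (INJ) is concrete: the record `H4S36.Triple` and the local leaf
`H4S36.MLocLeaf` for the concrete objects.
-/

set_option autoImplicit false

namespace H1IG

/-- **the generic middle chain of S36, unconditional.** -/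
theorem injGenStatement : H4S36.InjGenStatement :=
  injGen_of_abel3 H16AB.abel3

end H1IG
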