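import Mathlib
import Fermat.Agent.S18.C6b_helper4
import Fermat.Agent.TEll.BRLiftInertia

/-!
# Item 86 (S36), slice (UNR) (helper29): number fields fixed by the inertia group are unramified

`H29UN.irreducible_of_fixed`: `A` a valuation subring of `ℚ̄` over the prime `q`, `L ⊆ ℚ̄` a number
field fixed pointwise by the inertia group `I_A`.  Then `q` is a uniformiser of the discrete
valuation ring `A ∩ L = descVal A L`.

Proof.  `M` = normal closure of `L`, `P = 𝔪_A ∩ 𝓞 M`.  Every element of the inertia group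
`I₀ ≤ Gal(M/ℚ)` of `P` lifts to `I_A` (helper22's `h22_lift_inertia_of_normal`), hence fixes `L`:
`I₀ ↪ I(P | L)`.  By `Ideal.card_inertia_eq_ramificationIdxIn` (for `M/ℚ` and for `M/L`)
`e(P | q) ≤ e(P | P ∩ 𝓞 L)`, so `e(P ∩ 𝓞 L | q) = 1` by multiplicativity, i.e. `q ∉ (P ∩ 𝓞 L)²`;
as `A ∩ L` is the localisation of `𝓞 L` at `P ∩ 𝓞 L` (helper4's `H4DVR.atPrime_eq`), `q` is
irreducible in `A ∩ L`.
-/

set_option autoImplicit false
set_option linter.style.haveILetI false
set_option linter.unusedSectionVars false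
set_option linter.unusedVariables false
set_option linter.style.longLine false
set_option synthInstance.maxHeartbeats 400000
set_option maxHeartbeats 1000000

noncomputable section

open scoped NumberField Pointwise
open IsDedekindDomain

namespace H29UN

section P1

variable {L M : Type*} [Field L] [Field M] [NumberField L] [NumberField M] [Algebra L M]
  [IsGalois ℚ M]

/-- **the inertia field is unramified** (ideal-theoretic form): if every element of the inertia
group of `P` in `Gal(M/ℚ)` fixes `L ⊆ M`, then `P ∩ 𝓞 L` is unramified over `ℤ`. -/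
theorem ramificationIdx_under_eq_one (P : Ideal (𝓞 M)) [P.IsPrime]
    (hfix : ∀ τ : M ≃ₐ[ℚ] M, (∀ b : 𝓞 M, ∃ d : 𝓞 M, d ∈ P ∧ τ (b : M) - (b : M) = (d : M)) →
      ∀ c : L, τ (algebraMap L M c) = algebraMap L M c) :
    (P.under (𝓞 L)).ramificationIdx ℤ = 1 := by
  haveI : IsGalois L M := IsGalois.tower_top_of_isGalois ℚ L M
  -- the two Galois actions
  letI a₁ : MulSemiringAction Gal(M/ℚ) (𝓞 M) := IsIntegralClosure.MulSemiringAction ℤ ℚ M (𝓞 M)
  letI a₂ : MulSemiringAction Gal(M/L) (𝓞 M) :=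
    IsIntegralClosure.MulSemiringAction (𝓞 L) L M (𝓞 M)
  have hG₁ : IsGaloisGroup Gal(M/ℚ) ℤ (𝓞 M) :=
    IsGaloisGroup.of_isFractionRing Gal(M/ℚ) ℤ (𝓞 M) ℚ M
  have hG₂ : IsGaloisGroup Gal(M/L) (𝓞 L) (𝓞 M) :=
    IsGaloisGroup.of_isFractionRing Gal(M/L) (𝓞 L) (𝓞 M) L M
  have h1 : Nat.card (P.inertia Gal(M/ℚ)) = P.ramificationIdx ℤ := by
    rw [Ideal.card_inertia_eq_ramificationIdxIn (G := Gal(M/ℚ)) (P.under ℤ) P,
      Ideal.ramificationIdxIn_eq_ramificationIdx (P.under ℤ) P Gal(M/ℚ)]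
  have h2 : Nat.card (P.inertia Gal(M/L)) = P.ramificationIdx (𝓞 L) := by
    rw [Ideal.card_inertia_eq_ramificationIdxIn (G := Gal(M/L)) (P.under (𝓞 L)) P,
      Ideal.ramificationIdxIn_eq_ramificationIdx (P.under (𝓞 L)) P Gal(M/L)]
  -- the injection
  have e₁ : ∀ (τ : Gal(M/ℚ)) (b : 𝓞 M), (((τ • b : 𝓞 M) : 𝓞 M) : M) = τ (b : M) := fun τ b =>
    algebraMap_galRestrict_apply ℤ τ b
  have e₂ : ∀ (τ : Gal(M/L)) (b : 𝓞 M), (((τ • b : 𝓞 M) : 𝓞 M) : M) = τ (b : M) := fun τ b =>
    algebraMap_galRestrict_apply (𝓞 L) τ b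
  have hmem : ∀ τ : P.inertia Gal(M/ℚ), ∀ c : L,
      (τ : Gal(M/ℚ)) (algebraMap L M c) = algebraMap L M c := by
    intro τ
    apply hfix
    intro b
    refine ⟨(τ : Gal(M/ℚ)) • b - b, τ.2 b, ?_⟩
    rw [← e₁]
    exact (map_sub (algebraMap (𝓞 M) M) _ _).symm
  let f : P.inertia Gal(M/ℚ) → P.inertia Gal(M/L) := fun τ =>
    ⟨{ (τ : Gal(M/ℚ)).toRingEquiv with commutes' := hmem τ }, by
      intro b
      have h := τ.2 b
      have e : ((({ (τ : Gal(M/ℚ)).toRingEquiv with commutes' := hmem τ } : Gal(M/L)) • b : 𝓞 M))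
          = (τ : Gal(M/ℚ)) • b := by
        apply NumberField.RingOfIntegers.ext
        rw [e₁, e₂]
        rfl
      rw [e]
      exact h⟩
  have hf : Function.Injective f := by
    intro τ τ' h
    apply Subtype.ext
    apply AlgEquiv.ext
    intro x
    have h' := congrArg (fun σ : P.inertia Gal(M/L) => (σ : Gal(M/L)) x) h
    exact h'
  have h3 : Nat.card (P.inertia Gal(M/ℚ)) ≤ Nat.card (P.inertia Gal(M/L)) :=
    Nat.card_le_card_of_injective f hf
  have h4 := Ideal.ramificationIdx_tower (R := ℤ) (P.under (𝓞 L)) P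
  have h5 : P.ramificationIdx (𝓞 L) ≤ P.ramificationIdx ℤ :=
    Ideal.ramificationIdx_above_le (R := ℤ) (P.under (𝓞 L)) P
  have h6 : 0 < P.ramificationIdx ℤ := Ideal.ramificationIdx_pos P ℤ
  rw [h1, h2] at h3
  have h7 : P.ramificationIdx (𝓞 L) = P.ramificationIdx ℤ := le_antisymm h5 h3
  rw [h7] at h4
  have h8 : (P.under (𝓞 L)).ramificationIdx ℤ * P.ramificationIdx ℤ = 1 * P.ramificationIdx ℤ := by
    rw [one_mul]
    exact h4.symm
  exact Nat.eq_of_mul_eq_mul_right h6 h8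

end P1

section P3

variable {K : Type*} [Field K] [NumberField K] (B : ValuationSubring K)

/-- in a maximal ideal power, non-members of the maximal ideal can be cancelled -/
theorem mem_pow_of_mul_mem {R : Type*} [CommRing R] (P : Ideal R) (hP : P.IsMaximal) (n : ℕ)
    (hn : 0 < n) {x y : R} (hxy : x * y ∈ P ^ n) (hy : y ∉ P) : x ∈ P ^ n := by
  have hprim : (P ^ n).IsPrimary := Ideal.isPrimary_of_isMaximal_radical (by
    rw [Ideal.radical_pow P hn.ne', hP.isPrime.radical]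
    exact hP)
  rcases (Ideal.isPrimary_iff.1 hprim).2 hxy with h | h
  · exact h
  · exfalso
    rw [Ideal.radical_pow P hn.ne', hP.isPrime.radical] at h
    exact hy h

variable {B}

theorem exists_frac {ℓ : ℕ} (hℓ : ℓ.Prime) (h : (ℓ : K) ∈ B.nonunits) (x : B) :
    ∃ a s : 𝓞 K, s ∉ (H4DVR.center hℓ h).asIdeal ∧
      (x : K) * algebraMap (𝓞 K) K s = algebraMap (𝓞 K) K a := by
  have hx : (x : K) ∈ HeightOneSpectrum.valuationSubringAtPrime K (H4DVR.center hℓ h) := by
    rw [H4DVR.atPrime_eq hℓ h]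
    exact x.2
  obtain ⟨a, s, hs, hxe⟩ := hx
  refine ⟨a, s, hs, ?_⟩
  have hs0 : (algebraMap (𝓞 K) K s) ≠ 0 := by
    intro h0
    apply hs
    have : s = 0 := by
      apply NumberField.RingOfIntegers.ext
      simpa using h0
    rw [this]
    exact Ideal.zero_mem _
  rw [hxe, mul_assoc, inv_mul_cancel₀ hs0, mul_one]

theorem mem_center_iff {ℓ : ℕ} (hℓ : ℓ.Prime) (h : (ℓ : K) ∈ B.nonunits) (a : 𝓞 K) :
    a ∈ (H4DVR.center hℓ h).asIdeal ↔ algebraMap (𝓞 K) K a ∈ B.nonunits := by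
  show H4DVR.incl B a ∈ IsLocalRing.maximalIdeal B ↔ _
  rw [← ValuationSubring.coe_mem_nonunits_iff]
  rfl

/-- **`ℓ ∉ 𝔭²` ⟹ `ℓ` is a uniformiser** -/
theorem irreducible_of_not_mem_sq {ℓ : ℕ} (hℓ : ℓ.Prime) (h : (ℓ : K) ∈ B.nonunits)
    (hsq : ((ℓ : ℕ) : 𝓞 K) ∉ (H4DVR.center hℓ h).asIdeal ^ 2) : Irreducible ((ℓ : ℕ) : B) := by
  haveI : IsDiscreteValuationRing B := H4DVR.isDVR hℓ h
  obtain ⟨ϖ, hϖ⟩ := IsDiscreteValuationRing.exists_irreducible B
  have hℓ0 : ((ℓ : ℕ) : B) ≠ 0 := by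
    intro h0
    have := congrArg (fun x : B => (x : K)) h0
    exact (by exact_mod_cast hℓ.ne_zero : ((ℓ : ℕ) : K) ≠ 0) (by exact_mod_cast this)
  have hnu : ¬ IsUnit ((ℓ : ℕ) : B) := by
    intro hu
    have h1 : (((ℓ : ℕ) : B) : K) ∈ B.nonunits := by
      simpa using h
    rw [ValuationSubring.coe_mem_nonunits_iff] at h1
    exact (IsLocalRing.mem_maximalIdeal _).1 h1 hu
  obtain ⟨n, hn⟩ := IsDiscreteValuationRing.associated_pow_irreducible hℓ0 hϖ
  rcases Nat.lt_or_ge n 2 with hlt | hge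
  · interval_cases n
    · exfalso
      rw [pow_zero] at hn
      exact hnu (hn.symm.isUnit isUnit_one)
    · rw [pow_one] at hn
      exact hn.symm.irreducible hϖ
  · exfalso
    apply hsq
    -- `ϖ² ∣ ℓ`
    have hdvd : ϖ ^ 2 ∣ ((ℓ : ℕ) : B) := (pow_dvd_pow ϖ hge).trans hn.symm.dvd
    obtain ⟨w, hw⟩ := hdvd
    obtain ⟨a, s, hs, has⟩ := exists_frac hℓ h ϖ
    obtain ⟨b, t, ht, hbt⟩ := exists_frac hℓ h w
    have hPmax : (H4DVR.center hℓ h).asIdeal.IsMaximal := (H4DVR.center hℓ h).isMaximal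
    have ha : a ∈ (H4DVR.center hℓ h).asIdeal := by
      rw [mem_center_iff, ← has]
      have h1 : (ϖ * H4DVR.incl B s : B) ∈ IsLocalRing.maximalIdeal B :=
        Ideal.mul_mem_right _ _ ((IsLocalRing.mem_maximalIdeal _).2 hϖ.not_isUnit)
      rw [← ValuationSubring.coe_mem_nonunits_iff] at h1
      exact h1
    have hst : s ^ 2 * t ∉ (H4DVR.center hℓ h).asIdeal := by
      intro hmem
      rcases hPmax.isPrime.mem_or_mem hmem with h1 | h1
      · exact hs (hPmax.isPrime.mem_of_pow_mem 2 h1)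
      · exact ht h1
    apply mem_pow_of_mul_mem _ hPmax 2 (by norm_num) _ hst
    have e : ((ℓ : ℕ) : 𝓞 K) * (s ^ 2 * t) = a ^ 2 * b := by
      apply FaithfulSMul.algebraMap_injective (𝓞 K) K
      have hw' : ((ℓ : ℕ) : K) = (ϖ : K) ^ 2 * (w : K) := by
        have := congrArg (fun x : B => (x : K)) hw
        exact_mod_cast this
      rw [map_mul, map_mul, map_mul, map_pow, map_pow, map_natCast, hw', ← has, ← hbt]
      ring
    rw [e]
    exact Ideal.mul_mem_right _ _ (Ideal.pow_mem_pow ha 2)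

end P3

section P2

local notation "Qb" => AlgebraicClosure ℚ

theorem mem_nonunits_descVal (A : ValuationSubring Qb) (K₁ : IntermediateField ℚ Qb) (x : K₁) :
    x ∈ (H7S18.descVal A K₁).nonunits ↔ (x : Qb) ∈ A.nonunits := by
  rw [ValuationSubring.mem_nonunits_iff_or, ValuationSubring.mem_nonunits_iff_or,
    H7S18.descVal, ValuationSubring.mem_comap, map_inv₀]
  constructor
  · rintro (h | h)
    · left
      rw [h]
      rfl
    · right
      exact h
  · rintro (h | h)
    · left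
      exact Subtype.ext h
    · right
      exact h

/-- **(UNR)**: a number field fixed by the inertia group of `A` is unramified at `A`: the prime
`q` is a uniformiser of `A ∩ L`. -/
theorem irreducible_of_fixed (q : ℕ) (hq : q.Prime) (A : ValuationSubring Qb)
    (hA : A.LiesOverPrime q) (L : IntermediateField ℚ Qb) [FiniteDimensional ℚ L]
    (hL : ∀ τ ∈ A.inertiaSubgroupIn ℚ, ∀ c : L, τ (c : Qb) = c) :
    Irreducible ((q : ℕ) : ↥(H7S18.descVal A L)) := by
  haveI : NumberField L := { to_charZero := inferInstance, to_finiteDimensional := inferInstance }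
  haveI halg : Algebra.IsAlgebraic ℚ Qb := AlgebraicClosure.isAlgebraic ℚ
  haveI : IsAlgClosure ℚ Qb := ⟨inferInstance, inferInstance⟩
  haveI : Normal ℚ Qb := IsAlgClosure.normal ℚ Qb
  obtain ⟨M, hMdef⟩ : ∃ M : IntermediateField ℚ Qb, M = IntermediateField.normalClosure ℚ L Qb :=
    ⟨_, rfl⟩
  haveI : FiniteDimensional ℚ M := by
    rw [hMdef]
    exact normalClosure.is_finiteDimensional ℚ L _
  haveI : Normal ℚ M := by
    rw [hMdef]
    exact normalClosure.normal ℚ L Qb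
  haveI : IsGalois ℚ M := ⟨⟩
  haveI : NumberField M := { to_charZero := inferInstance, to_finiteDimensional := inferInstance }
  have hLM : L ≤ M := by
    rw [hMdef]
    exact IntermediateField.le_normalClosure L
  letI : Algebra L M := (IntermediateField.inclusion hLM).toRingHom.toAlgebra
  have halgLM : ∀ c : L, ((algebraMap L M c : M) : Qb) = (c : Qb) := fun c => rfl
  have hqQ : ((q : ℕ) : Qb) ∈ A.nonunits := hA
  have hqL : ((q : ℕ) : L) ∈ (H7S18.descVal A L).nonunits := by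
    rw [mem_nonunits_descVal]
    exact_mod_cast hqQ
  have hqM : ((q : ℕ) : M) ∈ (H7S18.descVal A M).nonunits := by
    rw [mem_nonunits_descVal]
    exact_mod_cast hqQ
  obtain ⟨P, hPdef⟩ : ∃ P : Ideal (𝓞 M), P = (H4DVR.center hq hqM).asIdeal := ⟨_, rfl⟩
  haveI : P.IsPrime := by
    rw [hPdef]
    exact (H4DVR.center hq hqM).isPrime
  have hPmem : ∀ d : 𝓞 M, d ∈ P ↔ ((algebraMap (𝓞 M) M d : M) : Qb) ∈ A.nonunits := by
    intro d
    rw [hPdef, mem_center_iff, mem_nonunits_descVal]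
  have h1 := ramificationIdx_under_eq_one (L := L) (M := M) P (by
    intro τ hτ c
    obtain ⟨σ, hσ, hσM⟩ := Fermat.Agent.H22BR.h22_lift_inertia_of_normal M A hq hA τ (by
      intro x hx
      obtain ⟨d, hd, hde⟩ := hτ ⟨x, hx⟩
      have hde' : τ x - x = algebraMap (𝓞 M) M d := hde
      have := (hPmem d).1 hd
      rw [← hde'] at this
      exact this)
    apply Subtype.ext
    rw [← hσM, halgLM]
    exact hL σ hσ c)
  have hPL : P.under (𝓞 L) = (H4DVR.center hq hqL).asIdeal := by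
    ext x
    rw [Ideal.under_def, Ideal.mem_comap, hPmem, mem_center_iff, mem_nonunits_descVal]
    rfl
  rw [hPL] at h1
  apply irreducible_of_not_mem_sq hq hqL
  intro hsq
  -- `(q) = PL ∩ ℤ`
  have hq0 : (q : ℤ) ≠ 0 := by exact_mod_cast hq.ne_zero
  have hqprime : Prime (q : ℤ) := Nat.prime_iff_prime_int.mp hq
  have hpmax : (Ideal.span {(q : ℤ)}).IsMaximal :=
    PrincipalIdealRing.isMaximal_of_irreducible hqprime.irreducible
  have hqPL : ((q : ℕ) : 𝓞 L) ∈ (H4DVR.center hq hqL).asIdeal := by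
    rw [mem_center_iff, map_natCast]
    exact hqL
  haveI hLO : (H4DVR.center hq hqL).asIdeal.LiesOver (Ideal.span {(q : ℤ)}) := by
    refine ⟨?_⟩
    have hle : Ideal.span {(q : ℤ)} ≤ (H4DVR.center hq hqL).asIdeal.under ℤ := by
      rw [Ideal.span_singleton_le_iff_mem, Ideal.under_def, Ideal.mem_comap]
      simpa using hqPL
    have hne : (H4DVR.center hq hqL).asIdeal.under ℤ ≠ ⊤ := by
      intro htop
      have h1' : (1 : ℤ) ∈ (H4DVR.center hq hqL).asIdeal.under ℤ := by rw [htop]; trivial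
      rw [Ideal.under_def, Ideal.mem_comap, map_one] at h1'
      exact (H4DVR.center hq hqL).isPrime.ne_top ((Ideal.eq_top_iff_one _).2 h1')
    exact hpmax.eq_of_le hne hle
  have hpne : Ideal.span {(q : ℤ)} ≠ ⊥ := by
    rw [Ne, Ideal.span_singleton_eq_bot]
    exact hq0
  have h2 := Ideal.ramificationIdx'_eq_ramificationIdx (Ideal.span {(q : ℤ)})
    (H4DVR.center hq hqL).asIdeal hpne
  rw [h1] at h2
  have hmap : Ideal.map (algebraMap ℤ (𝓞 L)) (Ideal.span {(q : ℤ)}) ≤
      (H4DVR.center hq hqL).asIdeal ^ 2 := by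
    rw [Ideal.map_span, Set.image_singleton, Ideal.span_singleton_le_iff_mem]
    simpa using hsq
  have hmap1 : Ideal.map (algebraMap ℤ (𝓞 L)) (Ideal.span {(q : ℤ)}) ≤
      (H4DVR.center hq hqL).asIdeal := by
    rw [Ideal.map_span, Set.image_singleton, Ideal.span_singleton_le_iff_mem]
    simpa using hqPL
  exact (Ideal.ramificationIdx'_ne_one_iff hmap1).2 hmap h2

end P2

end H29UN

end
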