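import Mathlib
import Fermat.Agent.S36.DescUnr_helper29
import Fermat.Agent.S36.UnrInertia_helper29

/-!
# Item 86 (S36), slice (DESC), function-field form (helper29)

`H29DU.descUnrField`: `f ∈ F̄_N`, `f ≠ 0`, with `τ f ∈ f · (F̄_Nˣ)ⁿ` for all `τ` in a subgroup
`H ≤ G_ℚ`; `K₀` a number field fixed by `H`.  Then `f hⁿ = φ(f₁)` with `f₁ ∈ F_L(N)`, `L ⊇ K₀` a
number field fixed by `H`.

`H29DU.descUnrInertia`: for `H = I_A` (inertia group of a valuation subring `A` of `ℚ̄` over the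
prime `q`), moreover `q` is a uniformiser of `A ∩ L` (`L` is unramified at `A`).
-/

set_option autoImplicit false
set_option synthInstance.maxHeartbeats 400000
set_option maxHeartbeats 1000000
set_option linter.unusedSectionVars false
set_option linter.unusedVariables false
set_option linter.style.haveILetI false
set_option linter.style.longLine false

noncomputable section

open H11W3G ModularCurve AlgebraicCurve H7S18 H28GV H29R2M

namespace H29DU

local notation "Qb" => AlgebraicClosure ℚ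

section LevelF

variable (N : ℕ) [NeZero N] (K₁ : IntermediateField ℚ Qb) [Normal ℚ K₁]

/-- the Kummer relation at finite level, from the relation over `ℚ̄`. -/
theorem rel_level_of_rel (n : ℕ) (hn : 0 < n)
    (f₁ : FK K₁ N) (hf₁ : f₁ ≠ 0) (τ : GQ)
    (g : modularFunctionFieldBar N) (hg1 : lc (modularFunctionFieldFull N) g = 1)
    (hg : arithmeticGalois (modularFunctionFieldFull N) τ • phi N K₁ f₁ = phi N K₁ f₁ * g ^ n) :
    ∃ g₁ : FK K₁ N, lc (modularFunctionFieldFull N) g₁ = 1 ∧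
      arithmeticGalois (modularFunctionFieldFull N) (H29GU.res K₁ τ) • f₁ = f₁ * g₁ ^ n := by
  have hf0 : phi N K₁ f₁ ≠ 0 := fun h => hf₁ ((phi N K₁).injective (by rw [h, map_zero]))
  have hpow : g ^ n = phi N K₁
      ((arithmeticGalois (modularFunctionFieldFull N) (H29GU.res K₁ τ) • f₁) * f₁⁻¹) := by
    rw [map_mul, H29GU.phi_smul, hg, map_inv₀]
    field_simp
  have hcoef : ∀ j, (g : LaurentSeries Qb).coeff j ∈ K₁ := by
    intro j
    have := coeff_mem_of_pow_lc (K := Qb) K₁.toSubfield hn (g : LaurentSeries Qb)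
      ((phi N K₁ ((arithmeticGalois (modularFunctionFieldFull N) (H29GU.res K₁ τ) • f₁) * f₁⁻¹) :
        modularFunctionFieldBar N) : LaurentSeries Qb)
      (by
        rw [← hpow]
        rfl)
      (fun i => by
        rw [phi_coe, coeffMap_coeff]
        exact (_ : K₁).2)
      (by
        have : (g : LaurentSeries Qb).leadingCoeff = 1 := hg1
        rw [this]
        exact one_mem _) j
    exact this
  obtain ⟨g₁, hg₁⟩ := exists_phi_eq N K₁ g hcoef
  refine ⟨g₁, ?_, ?_⟩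
  · apply (algebraMap K₁ Qb).injective
    rw [← lc_phi, hg₁, hg1, map_one]
  · apply (phi N K₁).injective
    rw [H29GU.phi_smul, hg, map_mul, map_pow, hg₁]

end LevelF

section MainF

variable (N : ℕ) [NeZero N]

/-- normalisation of the relation `τ f = gⁿ f` for a normalised `f` -/
theorem rel_norm (n : ℕ) (hn : 0 < n) (f : modularFunctionFieldBar N) (hf : f ≠ 0)
    (hlc : lc (modularFunctionFieldFull N) f = 1) (τ : GQ)
    (g : modularFunctionFieldBar N)
    (hg : arithmeticGalois (modularFunctionFieldFull N) τ • f = g ^ n * f) :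
    ∃ g' : modularFunctionFieldBar N, lc (modularFunctionFieldFull N) g' = 1 ∧
      arithmeticGalois (modularFunctionFieldFull N) τ • f = f * g' ^ n := by
  have hg0 : g ≠ 0 := by
    rintro rfl
    rw [zero_pow hn.ne', zero_mul] at hg
    exact H29GU.smul_ne_zero' _ hf hg
  have hl0 : lc (modularFunctionFieldFull N) g ≠ 0 := lc_ne_zero _ hg0
  have h1 := congrArg (lc (modularFunctionFieldFull N)) hg
  rw [lc_smul, hlc, map_one, lc_mul, lc_pow, hlc, mul_one] at h1
  refine ⟨g * algebraMap Qb (modularFunctionFieldBar N) (lc (modularFunctionFieldFull N) g)⁻¹,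
    ?_, ?_⟩
  · rw [lc_mul, lc_algebraMap, mul_inv_cancel₀ hl0]
  · rw [hg, mul_pow, ← map_pow, inv_pow, ← h1, inv_one, map_one, mul_one, mul_comm]

/-- the action on constants -/
theorem smul_algebraMap_bar (τ : GQ) (c : Qb) :
    arithmeticGalois (modularFunctionFieldFull N) τ • algebraMap Qb (modularFunctionFieldBar N) c =
      algebraMap Qb (modularFunctionFieldBar N) (τ c) :=
  arithmeticRingAut_algebraMap (modularFunctionFieldFull N) τ c

/-- **(DESC), function-field form**: `f ≠ 0` with `τ f ∈ f (F̄ˣ)ⁿ` for all `τ ∈ H`; then `f hⁿ` is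
defined over a number field `L ⊇ K₀` fixed by `H`. -/
theorem descUnrField (n : ℕ) (hn : 0 < n) (H : Subgroup GQ)
    (K₀ : IntermediateField ℚ Qb) [FiniteDimensional ℚ K₀]
    (hK₀ : ∀ τ ∈ H, ∀ c : K₀, τ (c : Qb) = c)
    (f : modularFunctionFieldBar N) (hf : f ≠ 0)
    (hH : ∀ τ ∈ H, ∃ g : modularFunctionFieldBar N,
      arithmeticGalois (modularFunctionFieldFull N) τ • f = g ^ n * f) :
    ∃ (L : IntermediateField ℚ Qb) (_ : FiniteDimensional ℚ L) (f₁ : FK L N)
      (h : modularFunctionFieldBar N),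
      K₀ ≤ L ∧ (∀ τ ∈ H, ∀ c : L, τ (c : Qb) = c) ∧ h ≠ 0 ∧ f₁ ≠ 0 ∧
        phi N L f₁ = f * h ^ n := by
  classical
  -- normalise `f`
  have hl0 : lc (modularFunctionFieldFull N) f ≠ 0 := lc_ne_zero _ hf
  obtain ⟨c, hc⟩ := IsAlgClosed.exists_pow_nat_eq (lc (modularFunctionFieldFull N) f)⁻¹ hn
  have hc0 : c ≠ 0 := by
    rintro rfl
    rw [zero_pow hn.ne'] at hc
    exact inv_ne_zero hl0 hc.symm
  have hcF : algebraMap Qb (modularFunctionFieldBar N) c ≠ 0 := by
    intro h0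
    have := congrArg (lc (modularFunctionFieldFull N)) h0
    rw [lc_algebraMap, lc_zero] at this
    exact hc0 this
  obtain ⟨f₀, hf₀def⟩ : ∃ f₀ : modularFunctionFieldBar N,
      f₀ = f * algebraMap Qb (modularFunctionFieldBar N) c ^ n := ⟨_, rfl⟩
  have hf₀0 : f₀ ≠ 0 := by
    rw [hf₀def]
    exact mul_ne_zero hf (pow_ne_zero n hcF)
  have hlc0 : lc (modularFunctionFieldFull N) f₀ = 1 := by
    rw [hf₀def, lc_mul, lc_pow, lc_algebraMap, hc, mul_inv_cancel₀ hl0]
  have hrel : ∀ τ ∈ H, ∃ g' : modularFunctionFieldBar N,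
      lc (modularFunctionFieldFull N) g' = 1 ∧
      arithmeticGalois (modularFunctionFieldFull N) τ • f₀ = f₀ * g' ^ n := by
    intro τ hτ
    obtain ⟨g, hg⟩ := hH τ hτ
    apply rel_norm N n hn f₀ hf₀0 hlc0 τ
      (g * algebraMap Qb (modularFunctionFieldBar N) (τ c) *
        (algebraMap Qb (modularFunctionFieldBar N) c)⁻¹)
    rw [hf₀def, smul_mul', smul_pow', smul_algebraMap_bar, hg, mul_pow, mul_pow, inv_pow]
    have hcn := pow_ne_zero n hcF
    field_simp
  obtain ⟨K₁, hfd, hnor, hK₀K₁, -, hlev⟩ := H29DS.exists_level_finset N n hn K₀ {f₀}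
  haveI := hfd
  haveI := hnor
  obtain ⟨f₀₁, hf₀₁⟩ := hlev f₀ (Finset.mem_singleton_self _)
  have hf₀₁0 : f₀₁ ≠ 0 := by
    rintro rfl
    rw [map_zero] at hf₀₁
    exact hf₀0 hf₀₁.symm
  obtain ⟨h, hh0, hinv⟩ := exists_invariant (modularFunctionFieldFull N)
    (H.map (AlgEquiv.restrictNormalHom K₁)) hn f₀₁ hf₀₁0 (by
      rintro ⟨γ, τ, hτ, rfl⟩
      obtain ⟨g', hg'1, hg'⟩ := hrel τ hτ
      exact rel_level_of_rel N K₁ n hn f₀₁ hf₀₁0 τ g' hg'1 (by rw [hf₀₁]; exact hg'))
  have hphi0 : phi N K₁ h ≠ 0 := fun h0 => hh0 ((phi N K₁).injective (by rw [h0, map_zero]))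
  -- the field
  let L : IntermediateField ℚ Qb := K₁ ⊓ IntermediateField.fixedField H
  have hLK : L ≤ K₁ := inf_le_left
  haveI : FiniteDimensional ℚ L :=
    Module.Finite.of_injective (IntermediateField.inclusion hLK).toLinearMap
      (IntermediateField.inclusion_injective hLK)
  have hcoefL : ∀ j, ((phi N K₁ (f₀₁ * h ^ n) : modularFunctionFieldBar N) :
      LaurentSeries Qb).coeff j ∈ L := by
    intro j
    rw [phi_coe, coeffMap_coeff]
    refine IntermediateField.mem_inf.2 ⟨(_ : K₁).2, ?_⟩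
    rw [IntermediateField.mem_fixedField_iff]
    intro τ hτ
    have h1 := hinv ⟨AlgEquiv.restrictNormalHom K₁ τ, τ, hτ, rfl⟩
    have h2 := congrArg (fun y : FK K₁ N => (y : LaurentSeries K₁).coeff j) h1
    simp only [rhoHom_coe, coeffMap_coeff] at h2
    have h3 := H29GU.res_commutes K₁ τ (((f₀₁ * h ^ n : FK K₁ N) : LaurentSeries K₁).coeff j)
    rw [← h3]
    exact congrArg (algebraMap K₁ Qb) h2
  obtain ⟨f₁, hf₁⟩ := exists_phi_eq N L (phi N K₁ (f₀₁ * h ^ n)) hcoefL
  have hne : phi N K₁ (f₀₁ * h ^ n) ≠ 0 := by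
    rw [map_mul, map_pow, hf₀₁]
    exact mul_ne_zero hf₀0 (pow_ne_zero n hphi0)
  refine ⟨L, inferInstance, f₁, algebraMap Qb (modularFunctionFieldBar N) c * phi N K₁ h,
    ?_, ?_, mul_ne_zero hcF hphi0, ?_, ?_⟩
  · intro y hy
    refine IntermediateField.mem_inf.2 ⟨hK₀K₁ hy, ?_⟩
    rw [IntermediateField.mem_fixedField_iff]
    intro τ hτ
    exact hK₀ τ hτ ⟨y, hy⟩
  · intro τ hτ c'
    have hc' : (c' : Qb) ∈ IntermediateField.fixedField H := (IntermediateField.mem_inf.1 c'.2).2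
    rw [IntermediateField.mem_fixedField_iff] at hc'
    exact hc' τ hτ
  · rintro rfl
    rw [map_zero] at hf₁
    exact hne hf₁.symm
  · rw [hf₁, map_mul, map_pow, hf₀₁, hf₀def, mul_pow]
    ring

/-- **(DESC) + (UNR)**: for the inertia group of `A` over `q`, the field `L` is unramified at
`A`: `q` is a uniformiser of `A ∩ L`. -/
theorem descUnrInertia (n : ℕ) (hn : 0 < n) (q : ℕ) (hq : q.Prime)
    (A : ValuationSubring Qb) (hA : A.LiesOverPrime q)
    (K₀ : IntermediateField ℚ Qb) [FiniteDimensional ℚ K₀]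
    (hK₀ : ∀ τ ∈ A.inertiaSubgroupIn ℚ, ∀ c : K₀, τ (c : Qb) = c)
    (f : modularFunctionFieldBar N) (hf : f ≠ 0)
    (hH : ∀ τ ∈ A.inertiaSubgroupIn ℚ, ∃ g : modularFunctionFieldBar N,
      arithmeticGalois (modularFunctionFieldFull N) τ • f = g ^ n * f) :
    ∃ (L : IntermediateField ℚ Qb) (_ : FiniteDimensional ℚ L) (f₁ : FK L N)
      (h : modularFunctionFieldBar N),
      K₀ ≤ L ∧ Irreducible ((q : ℕ) : ↥(descVal A L)) ∧
        (∀ τ ∈ A.inertiaSubgroupIn ℚ, ∀ c : L, τ (c : Qb) = c) ∧ h ≠ 0 ∧ f₁ ≠ 0 ∧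
        phi N L f₁ = f * h ^ n := by
  obtain ⟨L, hfd, f₁, h, hK, hfix, hh0, hf₁0, hf₁⟩ :=
    descUnrField N n hn (A.inertiaSubgroupIn ℚ) K₀ hK₀ f hf hH
  haveI := hfd
  exact ⟨L, hfd, f₁, h, hK, H29UN.irreducible_of_fixed q hq A hA L hfix, hfix, hh0, hf₁0, hf₁⟩

end MainF

end H29DU

end
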