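import Mathlib
import Fermat.Agent.S36.InjDefs_helper11
import Fermat.Agent.S36.DescUnrField_helper29
import Fermat.Agent.S35.FWBookMain_helper29

/-!
# Item 86 (S36, Carayol), slice (BOOK3), part 2: (INJ) over number fields unramified at `A`
(helper11)

* `H11IJ.InjFieldLAt N' q c` : the function-field form of (INJ) for functions **defined over a
  number field `L` on which the inertia group `I_A` acts trivially** (so `q` is a uniformiser of
  `A ∩ L`), `L` containing a number field `K₀ = K₀(A, n)` of one's choice (fixed by `I_A`;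
  e.g. generated by roots of unity of order prime to `q`, or `⊥`).
* `H11IJ.injFieldAt_of_L : q.Prime → InjFieldLAt N' q c → InjFieldAt N' q c`
  (Hilbert 90 descent `H29DU.descUnrInertia` of helper29 + multiplicativity of the norms).
* `H11IJ.injFieldStatement_of_L : InjFieldLStatement → InjFieldStatement`
  (then `H11IJ.injStatement_of_field` of `S36/InjBook_helper11.lean` gives `H16S36.InjStatement`).
-/

set_option autoImplicit false
set_option linter.unusedSectionVars false
set_option linter.unusedVariables false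
set_option linter.style.haveILetI false
set_option linter.style.longLine false
set_option synthInstance.maxHeartbeats 400000
set_option maxHeartbeats 1000000

noncomputable section

open ModularCurve AlgebraicCurve H11W3G H7S18 H29R2M

namespace H11IJ

local notation "Qb" => AlgebraicClosure ℚ

/-- **(INJ), function-field form over number fields unramified at `A`**, constant `c`. -/
def InjFieldLAt (N' q : ℕ) [NeZero N'] [NeZero q] [NeZero (N' * q)] [NeZero (N' * q * q)]
    (c : ℕ) : Prop :=
  ∀ A : ValuationSubring Qb, A.LiesOverPrime q →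
  ∀ n : ℕ, 0 < n → ¬ q ∣ n →
  ∃ (K₀ : IntermediateField ℚ Qb) (_ : FiniteDimensional ℚ K₀),
    (∀ τ ∈ A.inertiaSubgroupIn ℚ, ∀ x : K₀, τ (x : Qb) = x) ∧
    ∀ (L : IntermediateField ℚ Qb) (_ : FiniteDimensional ℚ L), K₀ ≤ L →
      Irreducible ((q : ℕ) : ↥(descVal A L)) →
      (∀ τ ∈ A.inertiaSubgroupIn ℚ, ∀ x : L, τ (x : Qb) = x) →
      ∀ f₁ : FK L (N' * q * q), f₁ ≠ 0 →
        (∀ P : Place Qb (modularFunctionFieldBar (N' * q * q)),
          (n : ℤ) ∣ P.ord (phi (N' * q * q) L f₁)) →
        (∃ h : modularFunctionFieldBar (N' * q),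
          H17FW.normA (N' * q) q (phi (N' * q * q) L f₁) = h ^ n) →
        (∃ h : modularFunctionFieldBar (N' * q),
          H17FW.normB (N' * q) q (phi (N' * q * q) L f₁) = h ^ n) →
        ∃ g : modularFunctionFieldBar (N' * q * q), (phi (N' * q * q) L f₁) ^ c = g ^ n

/-- (INJ) over unramified number fields, at every pair of levels -/
def InjFieldLStatement : Prop :=
  ∀ (N' q : ℕ) [NeZero N'] [NeZero q] [NeZero (N' * q)] [NeZero (N' * q * q)],
    q.Prime → ¬ q ∣ N' → ∃ c : ℕ, 0 < c ∧ InjFieldLAt N' q c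

theorem normA_pow' (N' q : ℕ) [NeZero N'] [NeZero q] (a : modularFunctionFieldBar (N' * q))
    (n : ℕ) : H17FW.normA N' q (a ^ n) = H17FW.normA N' q a ^ n := by
  unfold H17FW.normA
  exact map_pow _ a n

theorem normB_pow' (N' q : ℕ) [NeZero N'] [NeZero q] (a : modularFunctionFieldBar (N' * q))
    (n : ℕ) : H17FW.normB N' q (a ^ n) = H17FW.normB N' q a ^ n := by
  unfold H17FW.normB
  exact map_pow _ a n

/-- **the bridge**: the form over unramified number fields gives the form over `ℚ̄`. -/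
theorem injFieldAt_of_L (N' q : ℕ) [NeZero N'] [NeZero q] [NeZero (N' * q)]
    [NeZero (N' * q * q)] (hq : q.Prime) (c : ℕ) (hL : InjFieldLAt N' q c) :
    InjFieldAt N' q c := by
  intro A hA n hn hqn f hf0 hord hI hα hβ
  obtain ⟨K₀, hK₀fd, hK₀, hmain⟩ := hL A hA n hn hqn
  haveI := hK₀fd
  obtain ⟨L, hLfd, f₁, h, hKL, hirr, hfix, hh0, hf₁0, hf₁⟩ :=
    H29DU.descUnrInertia (N' * q * q) n hn q hq A hA K₀ hK₀ f hf0 hI
  obtain ⟨a, ha⟩ := hα
  obtain ⟨b, hb⟩ := hβ
  have hordh : ∀ P : Place Qb (modularFunctionFieldBar (N' * q * q)),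
      (n : ℤ) ∣ P.ord (phi (N' * q * q) L f₁) := by
    intro P
    rw [hf₁, P.ord_mul hf0 (pow_ne_zero n hh0)]
    have e : P.ord (h ^ n) = n * P.ord h := by
      have := P.ord_zpow h (n : ℤ)
      rwa [zpow_natCast] at this
    rw [e]
    exact dvd_add (hord P) (dvd_mul_right _ _)
  obtain ⟨g, hg⟩ := hmain L hLfd hKL hirr hfix f₁ hf₁0 hordh
    ⟨a * H17FW.normA (N' * q) q h, by
      rw [hf₁, H29FW.normA_mul, normA_pow', ha, mul_pow]⟩
    ⟨b * H17FW.normB (N' * q) q h, by
      rw [hf₁, H29FW.normB_mul, normB_pow', hb, mul_pow]⟩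
  refine ⟨g * (h ^ c)⁻¹, ?_⟩
  rw [hf₁, mul_pow] at hg
  have hhc : (h ^ n) ^ c ≠ 0 := pow_ne_zero c (pow_ne_zero n hh0)
  have e1 : f ^ c = g ^ n * ((h ^ n) ^ c)⁻¹ := by
    rw [← hg, mul_inv_cancel_right₀ hhc]
  rw [e1, mul_pow, inv_pow, ← pow_mul, ← pow_mul, mul_comm n c]

/-- (INJ) from its function-field form over unramified number fields. -/
theorem injFieldStatement_of_L (h : InjFieldLStatement) : InjFieldStatement := by
  intro N' q _ _ _ _ hq hqN'
  obtain ⟨c, hc, hL⟩ := h N' q hq hqN'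
  exact ⟨c, hc, injFieldAt_of_L N' q hq c hL⟩

end H11IJ

end
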