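import Mathlib
import Fermat.Agent.S36.InjGenDefs_helper4
import Fermat.Agent.S36.InjL_helper11
import Fermat.Agent.S36.NormK_helper13
import Fermat.Agent.S18.DefsD

/-!
# Item 86 (S36, Carayol), architect file (helper4): the `L`-level statements, INTERFACE

`L ⊆ ℚ̄` a number field fixed by the inertia group `I_A` (so `q` is a uniformizer of
`R = descVal A L = A ∩ L`), `F = FK L (N' q q)`, `F' = FK L (N' q)`,
`φα = heckeAlphaBar L (N' q) q`, `φβ = heckeBetaBar L (N' q) q`, `Nα, Nβ` the norms.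

* `H4S36.normAKH`, `H4S36.normBKH` : the norms as monoid homomorphisms (`= H13N3.normAK/BK`);
* `H4S36.InjLAt N' q c` : **(INJ) at the `L`-level**, norms in `Lˣ · F'ˣⁿ` (CONSTANTS allowed),
  places of `F / L`;  the bridge `InjLAt → H11IJ.InjFieldLAt` is slice (DESC3) (helper29);
* `H4S36.TripleLAt N' q` : **the concrete leaf**: in this setting there are
  `V₁ V₂ V₃ V₁' V₂' b₃` with `H4S36.Triple` (TG + NORM crews) and `H4S36.MLocLeaf`
  (TOR3 + GEN3-local + LOC + CU3 crews);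
* `H4S36.injLAt_of` (file `S36/InjLAsm_helper4.lean`):
  `InjGenStatement → TripleLAt N' q → InjLAt N' q ((q+1) (q²-1)²)`.
-/

set_option autoImplicit false
set_option synthInstance.maxHeartbeats 400000

noncomputable section

open IntermediateField AlgebraicCurve ModularCurve H7S18 H4S34 H1FW H1G3 H17T3

namespace H4S36

local notation "Qb" => AlgebraicClosure ℚ

section Norms

variable (K₁ : IntermediateField ℚ Qb) (M q : ℕ) [NeZero M] [NeZero q]

/-- the norm along `α` at the levels `(M q q, M q)` over `K₁`, as a monoid homomorphism -/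
def normAKH : FK ↥K₁ (M * q * q) →* FK ↥K₁ (M * q) :=
  letI := algebraAlong (heckeAlphaBar ↥K₁ (M * q) q)
  Algebra.norm (FK ↥K₁ (M * q))

/-- the norm along `β` at the levels `(M q q, M q)` over `K₁`, as a monoid homomorphism -/
def normBKH : FK ↥K₁ (M * q * q) →* FK ↥K₁ (M * q) :=
  letI := algebraAlong (heckeBetaBar ↥K₁ (M * q) q)
  Algebra.norm (FK ↥K₁ (M * q))

theorem normAKH_apply (z : FK ↥K₁ (M * q * q)) :
    normAKH K₁ M q z = H13N3.normAK K₁ M q z := rfl

theorem normBKH_apply (z : FK ↥K₁ (M * q * q)) :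
    normBKH K₁ M q z = H13N3.normBK K₁ M q z := rfl

end Norms

/-- **(INJ) at the `L`-level** with constant `c`: `L` fixed by `I_A`, containing `K₀` and the
`n`-th roots of unity; `f₁ ∈ FK L (N' q q)` with `n ∣ div f₁` and norms in `Lˣ · F'ˣⁿ`. -/
def InjLAt (N' q : ℕ) [NeZero N'] [NeZero q] [NeZero (N' * q)] [NeZero (N' * q * q)]
    (c : ℕ) : Prop :=
  ∀ A : ValuationSubring Qb, A.LiesOverPrime q →
  ∀ n : ℕ, 0 < n → ¬ q ∣ n →
  ∃ (K₀ : IntermediateField ℚ Qb) (_ : FiniteDimensional ℚ K₀),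
    (∀ τ ∈ A.inertiaSubgroupIn ℚ, ∀ x : K₀, τ (x : Qb) = x) ∧
    ∀ (L : IntermediateField ℚ Qb) (_ : FiniteDimensional ℚ L), K₀ ≤ L →
      Irreducible ((q : ℕ) : ↥(descVal A L)) →
      (∀ τ ∈ A.inertiaSubgroupIn ℚ, ∀ x : L, τ (x : Qb) = x) →
      (∃ ζ : L, IsPrimitiveRoot ζ n) →
      ∀ f₁ : FK L (N' * q * q), f₁ ≠ 0 →
        (∀ V : Place L (FK L (N' * q * q)), (n : ℤ) ∣ V.ord f₁) →
        NormPow (K := L) (normAKH L N' q) n f₁ →
        NormPow (K := L) (normBKH L N' q) n f₁ →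
        ∃ (c' : L) (g : FK L (N' * q * q)), c' ≠ 0 ∧ g ≠ 0 ∧
          f₁ ^ c = algebraMap L (FK L (N' * q * q)) c' * g ^ n

/-- **the concrete leaf of the middle chain**: the `L`-level setting carries a `Triple` and
satisfies the local leaf `MLocLeaf`.  (`ϖ = q`; `t` the base function of kind `baseKind q`.) -/
def TripleLAt (N' q : ℕ) [NeZero N'] [NeZero q] [NeZero (N' * q)] [NeZero (N' * q * q)] :
    Prop :=
  ∀ A : ValuationSubring Qb, A.LiesOverPrime q →
  ∀ n : ℕ, 0 < n → ¬ q ∣ n →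
  ∃ (K₀ : IntermediateField ℚ Qb) (_ : FiniteDimensional ℚ K₀),
    (∀ τ ∈ A.inertiaSubgroupIn ℚ, ∀ x : K₀, τ (x : Qb) = x) ∧
    ∀ (L : IntermediateField ℚ Qb) (_ : FiniteDimensional ℚ L), K₀ ≤ L →
      Irreducible ((q : ℕ) : ↥(descVal A L)) →
      (∀ τ ∈ A.inertiaSubgroupIn ℚ, ∀ x : L, τ (x : Qb) = x) →
      (∃ ζ : L, IsPrimitiveRoot ζ n) →
      ∀ [Algebra ↥(descVal A L) (FK L (N' * q * q))]
        [IsScalarTower ↥(descVal A L) L (FK L (N' * q * q))]
        [Algebra ↥(descVal A L) (FK L (N' * q))]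
        [IsScalarTower ↥(descVal A L) L (FK L (N' * q))]
        (t₀ : LaurentSeries ℚ) (_ : IsBase (baseKind q) t₀)
        (t : FK L (N' * q * q)) (_ : (t : LaurentSeries L) = coeffEmb L t₀),
        ∃ (V₁ V₂ V₃ : ValuationSubring (FK L (N' * q * q)))
          (V₁' V₂' : ValuationSubring (FK L (N' * q))) (b₃ : FK L (N' * q * q)),
          Triple ↥(descVal A L) L (FK L (N' * q * q)) (FK L (N' * q))
            ((q : ℕ) : ↥(descVal A L)) t q n
            (heckeAlphaBar L (N' * q) q).toRingHom (heckeBetaBar L (N' * q) q).toRingHom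
            (normAKH L N' q) (normBKH L N' q) V₁ V₂ V₃ V₁' V₂' b₃ ∧
          MLocLeaf ↥(descVal A L) L (FK L (N' * q * q)) (FK L (N' * q))
            ((q : ℕ) : ↥(descVal A L)) t q n (normAKH L N' q) (normBKH L N' q) V₁ V₂ V₃

end H4S36

end
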