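import Mathlib
import Fermat.Agent.S36.DescUnrField_helper29

/-!
# Item 86 (S36): the unramified part of a normal number field, and (DESC) over it (helper29)

`A ⊆ ℚ̄` a valuation subring over `q`, `I_A ≤ D_A` its inertia and decomposition groups.
For a number field `K₁ ⊆ ℚ̄`:  `H29DU.unrPart A K₁ := K₁ ∩ ℚ̄^{I_A}`.

* `finiteDimensional_unrPart`, `unrPart_le`, `unrPart_fixed`, `le_unrPart`;
* `irreducible_unrPart` : `q` is a uniformiser of `A ∩ unrPart A K₁`;
* `smul_mem_unrPart_iff` : for `K₁` normal and `σ ∈ D_A` (e.g. a Frobenius element):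
  `σ c ∈ unrPart A K₁ ↔ c ∈ unrPart A K₁`  (the base field is stable under Frobenius);
* `root_of_unity_fixed`, `root_of_unity_mem_unrPart` : roots of unity of order prime to `q` are
  fixed by `I_A`;
* `descUnrInertiaK` : **(DESC)** over `unrPart A K₁` with `K₁ ⊇ K₀` normal, `K₀` any number field.
-/

set_option autoImplicit false
set_option synthInstance.maxHeartbeats 400000
set_option maxHeartbeats 1000000
set_option linter.unusedSectionVars false
set_option linter.unusedVariables false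
set_option linter.style.haveILetI false
set_option linter.style.longLine false

noncomputable section

open H11W3G ModularCurve AlgebraicCurve H7S18 H28GV H29R2M

namespace H29DU

local notation "Qb" => AlgebraicClosure ℚ

section Unr

variable (A : ValuationSubring Qb) (K₁ : IntermediateField ℚ Qb)

/-- the maximal subfield of `K₁` fixed by the inertia group of `A` -/
def unrPart : IntermediateField ℚ Qb :=
  K₁ ⊓ IntermediateField.fixedField (A.inertiaSubgroupIn ℚ)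

theorem unrPart_le : unrPart A K₁ ≤ K₁ := inf_le_left

theorem mem_unrPart_iff (c : Qb) :
    c ∈ unrPart A K₁ ↔ c ∈ K₁ ∧ ∀ τ ∈ A.inertiaSubgroupIn ℚ, τ c = c := by
  rw [unrPart, IntermediateField.mem_inf, IntermediateField.mem_fixedField_iff]

theorem unrPart_fixed : ∀ τ ∈ A.inertiaSubgroupIn ℚ, ∀ c : unrPart A K₁, τ (c : Qb) = c :=
  fun τ hτ c => ((mem_unrPart_iff A K₁ c).1 c.2).2 τ hτ

theorem le_unrPart (K₀ : IntermediateField ℚ Qb) (h : K₀ ≤ K₁)
    (hK₀ : ∀ τ ∈ A.inertiaSubgroupIn ℚ, ∀ c : K₀, τ (c : Qb) = c) : K₀ ≤ unrPart A K₁ :=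
  fun y hy => (mem_unrPart_iff A K₁ y).2 ⟨h hy, fun τ hτ => hK₀ τ hτ ⟨y, hy⟩⟩

instance finiteDimensional_unrPart [FiniteDimensional ℚ K₁] :
    FiniteDimensional ℚ (unrPart A K₁) :=
  Module.Finite.of_injective (IntermediateField.inclusion (unrPart_le A K₁)).toLinearMap
    (IntermediateField.inclusion_injective (unrPart_le A K₁))

/-- `q` is a uniformiser of `A ∩ unrPart A K₁`. -/
theorem irreducible_unrPart [FiniteDimensional ℚ K₁] (q : ℕ) (hq : q.Prime)
    (hA : A.LiesOverPrime q) : Irreducible ((q : ℕ) : ↥(descVal A (unrPart A K₁))) :=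
  H29UN.irreducible_of_fixed q hq A hA (unrPart A K₁) (unrPart_fixed A K₁)

/-- the inertia group is normalised by the decomposition group -/
theorem conj_mem_inertia {σ τ : GQ} (hσ : σ ∈ A.decompositionSubgroup ℚ)
    (hτ : τ ∈ A.inertiaSubgroupIn ℚ) : σ⁻¹ * τ * σ ∈ A.inertiaSubgroupIn ℚ := by
  obtain ⟨τ', hτ', rfl⟩ := hτ
  have hN : (A.inertiaSubgroup ℚ).Normal := MonoidHom.normal_ker _
  have h := hN.conj_mem τ' hτ' ((⟨σ, hσ⟩ : A.decompositionSubgroup ℚ)⁻¹)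
  rw [inv_inv] at h
  exact ⟨_, h, rfl⟩

theorem smul_mem_unrPart [Normal ℚ K₁] {σ : GQ} (hσ : σ ∈ A.decompositionSubgroup ℚ)
    {c : Qb} (hc : c ∈ unrPart A K₁) : σ c ∈ unrPart A K₁ := by
  rw [mem_unrPart_iff] at hc ⊢
  refine ⟨?_, fun τ hτ => ?_⟩
  · have := H29GU.res_commutes K₁ σ ⟨c, hc.1⟩
    have e : σ c = algebraMap K₁ Qb (H29GU.res K₁ σ ⟨c, hc.1⟩) := this.symm
    rw [e]
    exact (H29GU.res K₁ σ ⟨c, hc.1⟩).2
  · have h1 := hc.2 (σ⁻¹ * τ * σ) (conj_mem_inertia A hσ hτ)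
    have h2 : (σ⁻¹ * τ * σ) c = σ⁻¹ (τ (σ c)) := rfl
    rw [h2] at h1
    have h3 := congrArg σ h1
    rw [show σ (σ⁻¹ (τ (σ c))) = τ (σ c) from AlgEquiv.apply_symm_apply σ _] at h3
    exact h3

/-- **the base field is stable under the decomposition group** (in particular under a Frobenius
element) -/
theorem smul_mem_unrPart_iff [Normal ℚ K₁] {σ : GQ} (hσ : σ ∈ A.decompositionSubgroup ℚ)
    (c : Qb) : σ c ∈ unrPart A K₁ ↔ c ∈ unrPart A K₁ := by
  constructor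
  · intro h
    have h1 := smul_mem_unrPart A K₁ ((A.decompositionSubgroup ℚ).inv_mem hσ) h
    rwa [show σ⁻¹ (σ c) = c from AlgEquiv.symm_apply_apply σ _] at h1
  · exact smul_mem_unrPart A K₁ hσ

theorem frobenius_mem_unrPart_iff [Normal ℚ K₁] {σ : GQ} {q : ℕ} (hσ : A.IsFrobeniusAt σ q)
    (c : Qb) : σ c ∈ unrPart A K₁ ↔ c ∈ unrPart A K₁ :=
  smul_mem_unrPart_iff A K₁ hσ.mem_decompositionSubgroup c

end Unr

section Roots

variable (A : ValuationSubring Qb)

/-- a root of unity of order prime to `q` is fixed by the inertia group at `q`. -/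
theorem root_of_unity_fixed {q : ℕ} (hq : q.Prime) (hA : A.LiesOverPrime q) {e : ℕ}
    (he : ¬ q ∣ e) {ζ : Qb} (hζ : ζ ^ e = 1) {τ : GQ} (hτ : τ ∈ A.inertiaSubgroupIn ℚ) :
    τ ζ = ζ := by
  have he0 : 0 < e := Nat.pos_of_ne_zero (fun h0 => he (h0 ▸ dvd_zero q))
  have hτd := H29GU.decomposition_of_inertia A hτ
  have hζ0 : ζ ≠ 0 := by
    rintro rfl
    rw [zero_pow he0.ne'] at hζ
    exact zero_ne_one hζ
  have hint : ∀ x : Qb, x ^ e = 1 → x ∈ A := by
    intro x hx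
    apply Fermat.Agent.H9.h9_mem_of_isIntegral A
    exact ⟨Polynomial.X ^ e - 1, Polynomial.monic_X_pow_sub_C 1 he0.ne', by simp [hx]⟩
  have hζA : ζ ∈ A := hint ζ hζ
  have hζinv : ζ⁻¹ ∈ A := hint ζ⁻¹ (by rw [inv_pow, hζ, inv_one])
  -- `η = τ ζ / ζ`
  by_contra hne
  obtain ⟨η, hηdef⟩ : ∃ η : Qb, η = τ ζ * ζ⁻¹ := ⟨_, rfl⟩
  have hηe : η ^ e = 1 := by
    rw [hηdef, mul_pow, ← map_pow, hζ, map_one, inv_pow, hζ, inv_one, mul_one]
  have hη1 : η ≠ 1 := by
    intro h1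
    apply hne
    rw [hηdef] at h1
    have := congrArg (· * ζ) h1
    simpa [mul_assoc, inv_mul_cancel₀ hζ0] using this
  have hηA : η ∈ A := hint η hηe
  -- `η - 1 ∈ 𝔪`
  have h0 := H29GU.sub_mem_of_inertia A hτ hτd ⟨ζ, hζA⟩
  have hm : (⟨η, hηA⟩ - 1 : A) ∈ IsLocalRing.maximalIdeal A := by
    have e1 : (⟨η, hηA⟩ - 1 : A) =
        (⟨τ ζ, H29GU.mem_of_decomposition A hτd hζA⟩ - ⟨ζ, hζA⟩) * ⟨ζ⁻¹, hζinv⟩ := by
      apply Subtype.ext
      show η - 1 = (τ ζ - ζ) * ζ⁻¹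
      rw [hηdef, sub_mul, mul_inv_cancel₀ hζ0]
    rw [e1]
    apply Ideal.mul_mem_right
    rw [← IsLocalRing.residue_eq_zero_iff]
    exact h0
  -- geometric sum
  have hsum : (∑ i ∈ Finset.range e, (⟨η, hηA⟩ : A) ^ i) = 0 := by
    have h1 : (∑ i ∈ Finset.range e, (⟨η, hηA⟩ : A) ^ i) * (⟨η, hηA⟩ - 1) = 0 := by
      rw [geom_sum_mul]
      apply Subtype.ext
      show η ^ e - 1 = 0
      rw [hηe, sub_self]
    rcases mul_eq_zero.1 h1 with h | h
    · exact h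
    · exfalso
      apply hη1
      have := congrArg (fun x : A => (x : Qb)) h
      have h' : η - 1 = 0 := this
      exact sub_eq_zero.1 h'
  have hres : IsLocalRing.residue A (⟨η, hηA⟩ : A) = 1 := by
    have := (IsLocalRing.residue_eq_zero_iff _).2 hm
    rw [map_sub, map_one, sub_eq_zero] at this
    exact this
  have hem : ((e : ℕ) : A) ∈ IsLocalRing.maximalIdeal A := by
    rw [← IsLocalRing.residue_eq_zero_iff]
    have := congrArg (IsLocalRing.residue A) hsum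
    rw [map_sum, map_zero] at this
    simp only [map_pow, hres, one_pow, Finset.sum_const, Finset.card_range, nsmul_eq_mul,
      mul_one] at this
    rw [map_natCast]
    exact this
  have hqm : ((q : ℕ) : A) ∈ IsLocalRing.maximalIdeal A := by
    rw [← ValuationSubring.coe_mem_nonunits_iff]
    have : (((q : ℕ) : A) : Qb) = (q : Qb) := by push_cast; rfl
    rw [this]
    exact hA
  -- Bezout
  have hc : Nat.Coprime q e := (Nat.Prime.coprime_iff_not_dvd hq).mpr he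
  have hb := Int.gcd_eq_gcd_ab (q : ℤ) (e : ℤ)
  rw [Int.gcd_natCast_natCast, hc] at hb
  have h1 : (1 : A) ∈ IsLocalRing.maximalIdeal A := by
    have e' : (1 : A) = ((q : ℕ) : A) * ((Int.gcdA q e : ℤ) : A)
        + ((e : ℕ) : A) * ((Int.gcdB q e : ℤ) : A) := by
      have := congrArg (Int.cast : ℤ → A) hb
      push_cast at this
      exact this
    rw [e']
    exact Ideal.add_mem _ (Ideal.mul_mem_right _ _ hqm) (Ideal.mul_mem_right _ _ hem)
  exact (IsLocalRing.maximalIdeal.isMaximal A).ne_top ((Ideal.eq_top_iff_one _).2 h1)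

theorem root_of_unity_mem_unrPart (K₁ : IntermediateField ℚ Qb) {q : ℕ} (hq : q.Prime)
    (hA : A.LiesOverPrime q) {e : ℕ} (he : ¬ q ∣ e) {ζ : Qb} (hζ : ζ ^ e = 1) (hζK : ζ ∈ K₁) :
    ζ ∈ unrPart A K₁ :=
  (mem_unrPart_iff A K₁ ζ).2 ⟨hζK, fun τ hτ => root_of_unity_fixed A hq hA he hζ hτ⟩

end Roots

section MainK

variable (N : ℕ) [NeZero N]

/-- **(DESC), function-field form, with explicit normal field**: `f ≠ 0` with `τ f ∈ f (F̄ˣ)ⁿ`
for all `τ ∈ H`; then `f hⁿ` is defined over `K₁ ∩ ℚ̄^H`, `K₁ ⊇ K₀` a normal number field. -/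
theorem descUnrFieldK (n : ℕ) (hn : 0 < n) (H : Subgroup GQ)
    (K₀ : IntermediateField ℚ Qb) [FiniteDimensional ℚ K₀]
    (f : modularFunctionFieldBar N) (hf : f ≠ 0)
    (hH : ∀ τ ∈ H, ∃ g : modularFunctionFieldBar N,
      arithmeticGalois (modularFunctionFieldFull N) τ • f = g ^ n * f) :
    ∃ (K₁ : IntermediateField ℚ Qb) (_ : FiniteDimensional ℚ K₁) (_ : Normal ℚ K₁)
      (f₁ : FK (K₁ ⊓ IntermediateField.fixedField H : IntermediateField ℚ Qb) N)
      (h : modularFunctionFieldBar N),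
      K₀ ≤ K₁ ∧ (∃ ζ : K₁, IsPrimitiveRoot ζ n) ∧ h ≠ 0 ∧ f₁ ≠ 0 ∧
        phi N (K₁ ⊓ IntermediateField.fixedField H : IntermediateField ℚ Qb) f₁ = f * h ^ n := by
  classical
  -- normalise `f`
  have hl0 : lc (modularFunctionFieldFull N) f ≠ 0 := lc_ne_zero _ hf
  obtain ⟨c, hc⟩ := IsAlgClosed.exists_pow_nat_eq (lc (modularFunctionFieldFull N) f)⁻¹ hn
  have hc0 : c ≠ 0 := by
    rintro rfl
    rw [zero_pow hn.ne'] at hc
    exact inv_ne_zero hl0 hc.symm
  have hcF : algebraMap Qb (modularFunctionFieldBar N) c ≠ 0 := by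
    intro h0
    have := congrArg (lc (modularFunctionFieldFull N)) h0
    rw [lc_algebraMap, lc_zero] at this
    exact hc0 this
  obtain ⟨f₀, hf₀def⟩ : ∃ f₀ : modularFunctionFieldBar N,
      f₀ = f * algebraMap Qb (modularFunctionFieldBar N) c ^ n := ⟨_, rfl⟩
  have hf₀0 : f₀ ≠ 0 := by
    rw [hf₀def]
    exact mul_ne_zero hf (pow_ne_zero n hcF)
  have hlc0 : lc (modularFunctionFieldFull N) f₀ = 1 := by
    rw [hf₀def, lc_mul, lc_pow, lc_algebraMap, hc, mul_inv_cancel₀ hl0]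
  have hrel : ∀ τ ∈ H, ∃ g' : modularFunctionFieldBar N,
      lc (modularFunctionFieldFull N) g' = 1 ∧
      arithmeticGalois (modularFunctionFieldFull N) τ • f₀ = f₀ * g' ^ n := by
    intro τ hτ
    obtain ⟨g, hg⟩ := hH τ hτ
    apply rel_norm N n hn f₀ hf₀0 hlc0 τ
      (g * algebraMap Qb (modularFunctionFieldBar N) (τ c) *
        (algebraMap Qb (modularFunctionFieldBar N) c)⁻¹)
    rw [hf₀def, smul_mul', smul_pow', smul_algebraMap_bar, hg, mul_pow, mul_pow, inv_pow]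
    have hcn := pow_ne_zero n hcF
    field_simp
  obtain ⟨K₁, hfd, hnor, hK₀K₁, hζ, hlev⟩ := H29DS.exists_level_finset N n hn K₀ {f₀}
  haveI := hfd
  haveI := hnor
  obtain ⟨f₀₁, hf₀₁⟩ := hlev f₀ (Finset.mem_singleton_self _)
  have hf₀₁0 : f₀₁ ≠ 0 := by
    rintro rfl
    rw [map_zero] at hf₀₁
    exact hf₀0 hf₀₁.symm
  obtain ⟨h, hh0, hinv⟩ := exists_invariant (modularFunctionFieldFull N)
    (H.map (AlgEquiv.restrictNormalHom K₁)) hn f₀₁ hf₀₁0 (by
      rintro ⟨γ, τ, hτ, rfl⟩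
      obtain ⟨g', hg'1, hg'⟩ := hrel τ hτ
      exact rel_level_of_rel N K₁ n hn f₀₁ hf₀₁0 τ g' hg'1 (by rw [hf₀₁]; exact hg'))
  have hphi0 : phi N K₁ h ≠ 0 := fun h0 => hh0 ((phi N K₁).injective (by rw [h0, map_zero]))
  have hcoefL : ∀ j, ((phi N K₁ (f₀₁ * h ^ n) : modularFunctionFieldBar N) :
      LaurentSeries Qb).coeff j ∈
        (K₁ ⊓ IntermediateField.fixedField H : IntermediateField ℚ Qb) := by
    intro j
    rw [phi_coe, coeffMap_coeff]
    refine IntermediateField.mem_inf.2 ⟨(_ : K₁).2, ?_⟩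
    rw [IntermediateField.mem_fixedField_iff]
    intro τ hτ
    have h1 := hinv ⟨AlgEquiv.restrictNormalHom K₁ τ, τ, hτ, rfl⟩
    have h2 := congrArg (fun y : FK K₁ N => (y : LaurentSeries K₁).coeff j) h1
    simp only [rhoHom_coe, coeffMap_coeff] at h2
    have h3 := H29GU.res_commutes K₁ τ (((f₀₁ * h ^ n : FK K₁ N) : LaurentSeries K₁).coeff j)
    rw [← h3]
    exact congrArg (algebraMap K₁ Qb) h2
  obtain ⟨f₁, hf₁⟩ := exists_phi_eq N
    (K₁ ⊓ IntermediateField.fixedField H : IntermediateField ℚ Qb)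
    (phi N K₁ (f₀₁ * h ^ n)) hcoefL
  have hne : phi N K₁ (f₀₁ * h ^ n) ≠ 0 := by
    rw [map_mul, map_pow, hf₀₁]
    exact mul_ne_zero hf₀0 (pow_ne_zero n hphi0)
  refine ⟨K₁, hfd, hnor, f₁, algebraMap Qb (modularFunctionFieldBar N) c * phi N K₁ h,
    hK₀K₁, hζ, mul_ne_zero hcF hphi0, ?_, ?_⟩
  · rintro rfl
    rw [map_zero] at hf₁
    exact hne hf₁.symm
  · rw [hf₁, map_mul, map_pow, hf₀₁, hf₀def, mul_pow]
    ring

/-- **(DESC) over the unramified part of a normal number field** `K₁ ⊇ K₀` (`K₀` any number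
field): for `f ≠ 0` with `τ f ∈ f (F̄ˣ)ⁿ` for all `τ ∈ I_A`, `f hⁿ` is defined over
`L = unrPart A K₁`; `q` is a uniformiser of `A ∩ L` (`irreducible_unrPart`), `L` is stable under
`D_A` (`smul_mem_unrPart_iff`) and contains the roots of unity of `K₁` of order prime to `q`
(`root_of_unity_mem_unrPart`). -/
theorem descUnrInertiaK (n : ℕ) (hn : 0 < n) (A : ValuationSubring Qb)
    (K₀ : IntermediateField ℚ Qb) [FiniteDimensional ℚ K₀]
    (f : modularFunctionFieldBar N) (hf : f ≠ 0)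
    (hH : ∀ τ ∈ A.inertiaSubgroupIn ℚ, ∃ g : modularFunctionFieldBar N,
      arithmeticGalois (modularFunctionFieldFull N) τ • f = g ^ n * f) :
    ∃ (K₁ : IntermediateField ℚ Qb) (_ : FiniteDimensional ℚ K₁) (_ : Normal ℚ K₁)
      (f₁ : FK (unrPart A K₁) N) (h : modularFunctionFieldBar N),
      K₀ ≤ K₁ ∧ (∃ ζ : K₁, IsPrimitiveRoot ζ n) ∧ h ≠ 0 ∧ f₁ ≠ 0 ∧
        phi N (unrPart A K₁) f₁ = f * h ^ n :=
  descUnrFieldK N n hn (A.inertiaSubgroupIn ℚ) K₀ f hf hH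

end MainK

end H29DU

end
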