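import Mathlib
import Fermat.Agent.S36.InjLDefs_helper4
import Fermat.Agent.S36.UnrField_helper29

/-!
# Item 86 (S36, Carayol), architect file (helper4): the UNRAMIFIED-PART interfaces (`U`-forms)

Lead's alert (07:02Z): a general number field `L` fixed by `I_A` has no Frobenius automorphism.
So the concrete leaves are only asked at `L = H29DU.unrPart A K₁ = K₁ ∩ ℚ̄^{I_A}` with `K₁` a
finite NORMAL extension of `ℚ` containing a number field `K₀` CHOSEN BY THE PROVER (no
condition on `K₀`: it may contain `ζ_q`, `ζ_{N'}`, ...) and the `n`-th roots of unity.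

* `InjCoreAt N' q c n L`, `InjFieldCoreAt N' q c n L` : the two forms of (INJ) at ONE field `L`
  (`L`-level norms / places with constants, resp. `ℚ̄`-level);
  (DESC3) = `InjCoreAt … L → InjFieldCoreAt … L` (helper29);
* `TripleLeafAt N' q A n L` : the concrete leaf (`Triple` + `MLocLeaf`) at ONE field `L`;
* `InjUAt`, `InjFieldUAt`, `TripleUAt` : the `U`-forms;
* `injFieldAt_of_U : InjFieldUAt N' q c → H11IJ.InjFieldAt N' q c` (with `descUnrInertiaK`).
-/

set_option autoImplicit false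
set_option linter.style.haveILetI false
set_option linter.style.longLine false
set_option synthInstance.maxHeartbeats 400000
set_option maxHeartbeats 1000000

noncomputable section

open IntermediateField AlgebraicCurve ModularCurve H7S18 H4S34 H1FW H1G3 H17T3 H11W3G H29R2M

namespace H4S36

local notation "Qb" => AlgebraicClosure ℚ

section Core

variable (N' q : ℕ) [NeZero N'] [NeZero q] [NeZero (N' * q)] [NeZero (N' * q * q)]

/-- (INJ) at ONE number field `L`, `L`-level form (constants allowed, places of `F / L`). -/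
def InjCoreAt (c n : ℕ) (L : IntermediateField ℚ Qb) : Prop :=
  ∀ f₁ : FK L (N' * q * q), f₁ ≠ 0 →
    (∀ V : Place L (FK L (N' * q * q)), (n : ℤ) ∣ V.ord f₁) →
    NormPow (K := L) (normAKH L N' q) n f₁ →
    NormPow (K := L) (normBKH L N' q) n f₁ →
    ∃ (c' : L) (g : FK L (N' * q * q)), c' ≠ 0 ∧ g ≠ 0 ∧
      f₁ ^ c = algebraMap L (FK L (N' * q * q)) c' * g ^ n

/-- (INJ) at ONE number field `L`, `ℚ̄`-level form. -/
def InjFieldCoreAt (c n : ℕ) (L : IntermediateField ℚ Qb) : Prop :=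
  ∀ f₁ : FK L (N' * q * q), f₁ ≠ 0 →
    (∀ P : Place Qb (modularFunctionFieldBar (N' * q * q)),
      (n : ℤ) ∣ P.ord (phi (N' * q * q) L f₁)) →
    (∃ h : modularFunctionFieldBar (N' * q),
      H17FW.normA (N' * q) q (phi (N' * q * q) L f₁) = h ^ n) →
    (∃ h : modularFunctionFieldBar (N' * q),
      H17FW.normB (N' * q) q (phi (N' * q * q) L f₁) = h ^ n) →
    ∃ g : modularFunctionFieldBar (N' * q * q), (phi (N' * q * q) L f₁) ^ c = g ^ n

/-- the concrete leaf at ONE number field `L`: `Triple` + `MLocLeaf` for `R = A ∩ L`, `ϖ = q`. -/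
def TripleLeafAt (A : ValuationSubring Qb) (n : ℕ) (L : IntermediateField ℚ Qb) : Prop :=
  ∀ [Algebra ↥(descVal A L) (FK L (N' * q * q))]
    [IsScalarTower ↥(descVal A L) L (FK L (N' * q * q))]
    [Algebra ↥(descVal A L) (FK L (N' * q))]
    [IsScalarTower ↥(descVal A L) L (FK L (N' * q))]
    (t₀ : LaurentSeries ℚ) (_ : IsBase (baseKind q) t₀)
    (t : FK L (N' * q * q)) (_ : (t : LaurentSeries L) = coeffEmb L t₀),
    ∃ (V₁ V₂ V₃ : ValuationSubring (FK L (N' * q * q)))
      (V₁' V₂' : ValuationSubring (FK L (N' * q))) (b₃ : FK L (N' * q * q)),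
      Triple ↥(descVal A L) L (FK L (N' * q * q)) (FK L (N' * q))
        ((q : ℕ) : ↥(descVal A L)) t q n
        (heckeAlphaBar L (N' * q) q).toRingHom (heckeBetaBar L (N' * q) q).toRingHom
        (normAKH L N' q) (normBKH L N' q) V₁ V₂ V₃ V₁' V₂' b₃ ∧
      MLocLeaf ↥(descVal A L) L (FK L (N' * q * q)) (FK L (N' * q))
        ((q : ℕ) : ↥(descVal A L)) t q n (normAKH L N' q) (normBKH L N' q) V₁ V₂ V₃

/-- the `U`-quantifier: for every `A` over `q` and `n` prime to `q` there is a number field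
`K₀` such that `P A n (unrPart A K₁)` for all finite normal `K₁ ⊇ K₀` containing `ζ_n`. -/
def UForm (q : ℕ) (P : ValuationSubring Qb → ℕ → IntermediateField ℚ Qb → Prop) : Prop :=
  ∀ A : ValuationSubring Qb, A.LiesOverPrime q →
  ∀ n : ℕ, 0 < n → ¬ q ∣ n →
  ∃ (K₀ : IntermediateField ℚ Qb) (_ : FiniteDimensional ℚ K₀),
    ∀ (K₁ : IntermediateField ℚ Qb) (_ : FiniteDimensional ℚ K₁), Normal ℚ K₁ → K₀ ≤ K₁ →
      (∃ ζ : K₁, IsPrimitiveRoot ζ n) → P A n (H29DU.unrPart A K₁)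

/-- **(INJ) at the unramified parts**, `L`-level form -/
def InjUAt (c : ℕ) : Prop := UForm q (fun _ n L => InjCoreAt N' q c n L)

/-- **(INJ) at the unramified parts**, `ℚ̄`-level form -/
def InjFieldUAt (c : ℕ) : Prop := UForm q (fun _ n L => InjFieldCoreAt N' q c n L)

/-- **the concrete leaf at the unramified parts** -/
def TripleUAt : Prop := UForm q (fun A n L => TripleLeafAt N' q A n L)

theorem uForm_mono {q : ℕ} {P Q : ValuationSubring Qb → ℕ → IntermediateField ℚ Qb → Prop}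
    (h : ∀ A n L, 0 < n → P A n L → Q A n L) (hP : UForm q P) : UForm q Q := by
  intro A hA n hn hqn
  obtain ⟨K₀, hK₀, hmain⟩ := hP A hA n hn hqn
  exact ⟨K₀, hK₀, fun K₁ hK₁ hnor hle hζ => h A n _ hn (hmain K₁ hK₁ hnor hle hζ)⟩

/-- (DESC3) in `U`-form from (DESC3) at every field. -/
theorem injFieldUAt_of_core (c : ℕ)
    (hD : ∀ (n : ℕ) (L : IntermediateField ℚ Qb), 0 < n →
      InjCoreAt N' q c n L → InjFieldCoreAt N' q c n L)
    (h : InjUAt N' q c) : InjFieldUAt N' q c :=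
  uForm_mono (fun _ n L hn => hD n L hn) h

/-- **the bridge**: the form over the unramified parts gives the form over `ℚ̄`. -/
theorem injFieldAt_of_U (c : ℕ) (hL : InjFieldUAt N' q c) : H11IJ.InjFieldAt N' q c := by
  intro A hA n hn hqn f hf0 hord hI hα hβ
  obtain ⟨K₀, hK₀fd, hmain⟩ := hL A hA n hn hqn
  haveI := hK₀fd
  obtain ⟨K₁, hK₁fd, hK₁n, f₁, h, hKL, hζ, hh0, hf₁0, hf₁⟩ :=
    H29DU.descUnrInertiaK (N' * q * q) n hn A K₀ f hf0 hI
  obtain ⟨a, ha⟩ := hα
  obtain ⟨b, hb⟩ := hβ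
  have hordh : ∀ P : Place Qb (modularFunctionFieldBar (N' * q * q)),
      (n : ℤ) ∣ P.ord (phi (N' * q * q) (H29DU.unrPart A K₁) f₁) := by
    intro P
    rw [hf₁, P.ord_mul hf0 (pow_ne_zero n hh0)]
    have e : P.ord (h ^ n) = n * P.ord h := by
      have := P.ord_zpow h (n : ℤ)
      rwa [zpow_natCast] at this
    rw [e]
    exact dvd_add (hord P) (dvd_mul_right _ _)
  obtain ⟨g, hg⟩ := hmain K₁ hK₁fd hK₁n hKL hζ f₁ hf₁0 hordh
    ⟨a * H17FW.normA (N' * q) q h, by
      rw [hf₁, H29FW.normA_mul, H11IJ.normA_pow', ha, mul_pow]⟩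
    ⟨b * H17FW.normB (N' * q) q h, by
      rw [hf₁, H29FW.normB_mul, H11IJ.normB_pow', hb, mul_pow]⟩
  refine ⟨g * (h ^ c)⁻¹, ?_⟩
  rw [hf₁, mul_pow] at hg
  have hhc : (h ^ n) ^ c ≠ 0 := pow_ne_zero c (pow_ne_zero n hh0)
  have e1 : f ^ c = g ^ n * ((h ^ n) ^ c)⁻¹ := by
    rw [← hg, mul_inv_cancel_right₀ hhc]
  rw [e1, mul_pow, inv_pow, ← pow_mul, ← pow_mul, mul_comm n c]

end Core

end H4S36

end
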