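import Mathlib
import Fermat.Agent.S36.InjUDefs_helper4
import Fermat.Agent.S18.C12bAux_helper7
import Fermat.Agent.S18.C6b_helper4
import Fermat.Agent.S18.C6e_helper9
import Fermat.Agent.S18.C9Final_helper4

/-!
# Item 86 (S36, Carayol), architect file (helper4): the assembly at ONE field and in `U`-form

* `H4S36.injCoreAt_of` : `InjGenStatement` + `TripleLeafAt N' q A n L` (`q` a uniformiser of
  `A ∩ L`, `ζ_n ∈ L`, `q ∤ n`, `(N', q)` tame) give `InjCoreAt N' q ((q + 1) (q² - 1)²) n L`;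
* `H4S36.injUAt_of` : `InjGenStatement` + `TripleUAt N' q` give `InjUAt N' q ((q + 1) (q² - 1)²)`.
-/

set_option autoImplicit false
set_option linter.style.haveILetI false
set_option synthInstance.maxHeartbeats 400000
set_option maxHeartbeats 4000000

noncomputable section

open Polynomial IntermediateField AlgebraicCurve ModularCurve H7S18 H4S34 H1FW H1G3 H17T3

namespace H4S36

local notation "Qb" => AlgebraicClosure ℚ

/-- **assembly at one field `L`**: the generic chain at the concrete triple. -/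
theorem injCoreAt_of (hGen : InjGenStatement)
    (N' : ℕ) [NeZero N'] (q : ℕ) [NeZero q] [NeZero (N' * q)] [NeZero (N' * q * q)]
    (hq : q.Prime) (hT : TameLevel q N')
    (A : ValuationSubring Qb) (hA : A.LiesOverPrime q) (n : ℕ) (hn : 0 < n) (hqn : ¬ q ∣ n)
    (L : IntermediateField ℚ Qb) (hLfin : FiniteDimensional ℚ L)
    (hirr : Irreducible ((q : ℕ) : ↥(descVal A L))) (hζ : ∃ ζ : L, IsPrimitiveRoot ζ n)
    (hTr : TripleLeafAt N' q A n L) :
    InjCoreAt N' q ((q + 1) * ((q ^ 2 - 1) * (q ^ 2 - 1))) n L := by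
  classical
  haveI : Fact q.Prime := ⟨hq⟩
  intro f₁ hf₁ hdiv hNα hNβ
  -- the base function
  have hdvd : N' ∣ N' * q * q := by rw [mul_assoc]; exact dvd_mul_right _ _
  have hi : baseKind q = 1 ∨ (baseKind q = 2 ∧ 2 ∣ N' * q * q) ∨
      (baseKind q = 3 ∧ 3 ∣ N' * q * q) := by
    rcases h7_baseKind_ok hT with h | h | h
    · exact Or.inl h
    · exact Or.inr (Or.inl ⟨h.1, h.2.trans hdvd⟩)
    · exact Or.inr (Or.inr ⟨h.1, h.2.trans hdvd⟩)
  obtain ⟨t₀, ht₀⟩ : ∃ t₀ : LaurentSeries ℚ, IsBase (baseKind q) t₀ := by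
    rcases hi with h | h | h
    · exact ⟨jq, Or.inl ⟨h, rfl⟩⟩
    · exact ⟨modularUnitSeries 2, Or.inr (Or.inl ⟨h.1, rfl⟩)⟩
    · obtain ⟨-, t₃, ht₃, -⟩ := H4HM.hauptmodulStatement
      rw [← h.1] at ht₃
      exact ⟨t₃, ht₃⟩
  -- the DVR
  obtain ⟨hdvr, -, hunit⟩ := H4DVR.dvrStatement q A hA L hLfin
  haveI := hdvr
  -- field basics
  obtain ⟨t, htcoe, httr, htfin, htconst⟩ :=
    H9C6e.fieldBasics (N' * q * q) (baseKind q) hi t₀ ht₀ L
  letI algRF : Algebra ↥(descVal A L) (FK L (N' * q * q)) :=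
    ((algebraMap L (FK L (N' * q * q))).comp (algebraMap ↥(descVal A L) L)).toAlgebra
  haveI towRF : IsScalarTower ↥(descVal A L) L (FK L (N' * q * q)) :=
    IsScalarTower.of_algebraMap_eq (fun _ => rfl)
  letI algRF' : Algebra ↥(descVal A L) (FK L (N' * q)) :=
    ((algebraMap L (FK L (N' * q))).comp (algebraMap ↥(descVal A L) L)).toAlgebra
  haveI towRF' : IsScalarTower ↥(descVal A L) L (FK L (N' * q)) :=
    IsScalarTower.of_algebraMap_eq (fun _ => rfl)
  have hnu : IsUnit ((n : ℕ) : ↥(descVal A L)) := hunit n hqn hn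
  have hζR : ∃ ζ' : ↥(descVal A L), IsPrimitiveRoot ζ' n := by
    obtain ⟨ζ, hζ⟩ := hζ
    have hmem : ζ ∈ descVal A L := h7_mem_of_pow_eq_one _ _ _ hn hζ.pow_eq_one
    refine ⟨⟨ζ, hmem⟩, ?_⟩
    exact IsPrimitiveRoot.of_map_of_injective (f := (descVal A L).subtype)
      (by exact hζ) Subtype.val_injective
  -- the concrete leaf
  obtain ⟨V₁, V₂, V₃, V₁', V₂', b₃, hTri, hML⟩ := hTr t₀ ht₀ t htcoe
  -- the generic chain
  exact hGen ↥(descVal A L) L (FK L (N' * q * q)) (FK L (N' * q))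
    ((q : ℕ) : ↥(descVal A L)) hirr t httr htfin htconst q n hq.pos hn
    ((Nat.Prime.coprime_iff_not_dvd hq).2 hqn) hnu hζR
    (heckeAlphaBar L (N' * q) q).toRingHom (heckeBetaBar L (N' * q) q).toRingHom
    (normAKH L N' q) (normBKH L N' q) V₁ V₂ V₃ V₁' V₂' b₃ hTri hML f₁ hf₁ hdiv hNα hNβ

/-- a primitive `n`-th root of unity of `K₁` (`q ∤ n`) lies in the unramified part. -/
theorem exists_primitiveRoot_unrPart {q : ℕ} (hq : q.Prime)
    (A : ValuationSubring Qb) (hA : A.LiesOverPrime q) {n : ℕ} (hqn : ¬ q ∣ n)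
    (K₁ : IntermediateField ℚ Qb) (hζ : ∃ ζ : K₁, IsPrimitiveRoot ζ n) :
    ∃ ζ : H29DU.unrPart A K₁, IsPrimitiveRoot ζ n := by
  obtain ⟨ζ, hζ⟩ := hζ
  have h1 : ((ζ : Qb)) ^ n = 1 := by
    have := congrArg (fun x : K₁ => (x : Qb)) hζ.pow_eq_one
    simpa using this
  have hmem : (ζ : Qb) ∈ H29DU.unrPart A K₁ :=
    H29DU.root_of_unity_mem_unrPart A K₁ hq hA hqn h1 ζ.2
  refine ⟨⟨(ζ : Qb), hmem⟩, ?_⟩
  have hQ : IsPrimitiveRoot (ζ : Qb) n :=
    hζ.map_of_injective (f := K₁.val) Subtype.val_injective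
  exact IsPrimitiveRoot.of_map_of_injective (f := (H29DU.unrPart A K₁).val)
    (by exact hQ) Subtype.val_injective

/-- **`U`-assembly**: the generic chain at the concrete triples over the unramified parts. -/
theorem injUAt_of (hGen : InjGenStatement)
    (N' : ℕ) [NeZero N'] (q : ℕ) [NeZero q] [NeZero (N' * q)] [NeZero (N' * q * q)]
    (hq : q.Prime) (hT : TameLevel q N') (hTr : TripleUAt N' q) :
    InjUAt N' q ((q + 1) * ((q ^ 2 - 1) * (q ^ 2 - 1))) := by
  intro A hA n hn hqn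
  obtain ⟨K₀, hK₀fin, hL⟩ := hTr A hA n hn hqn
  refine ⟨K₀, hK₀fin, ?_⟩
  intro K₁ hK₁fin hK₁n hle hζ
  haveI := hK₁fin
  exact injCoreAt_of hGen N' q hq hT A hA n hn hqn (H29DU.unrPart A K₁)
    (H29DU.finiteDimensional_unrPart A K₁) (H29DU.irreducible_unrPart A K₁ q hq hA)
    (exists_primitiveRoot_unrPart hq A hA hqn K₁ hζ) (hL K₁ hK₁fin hK₁n hle hζ)

end H4S36

end
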