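import Fermat.Agent.S36.NormDeg_helper13
import Fermat.Agent.S37.R3Norm_helper13

/-!
# Item 86 (S36), slice (NORM), part 2 (helper13): the norm along `β` is the product of the twists

`F₁ = F̄_{M q}`, `F₂ = F̄_{M q q}` (`q` prime, `q ∤ M`), `β = heckeBetaBar` (`𝐪 ↦ 𝐪^q`),
`ζ ∈ ℚ̄` a primitive `q`-th root of unity.  For EVERY `x ∈ F₂`:

* `H13N3.norm_beta_twist` : `(N_β x)(𝐪^q) = ∏_{b<q} x(ζ^b 𝐪)` in `ℚ̄((𝐪))`.

(The `q = [F₂ : β F₁]` embeddings of `F₂` over `β F₁` into `ℚ̄((𝐪))` are the twists.)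
-/

set_option autoImplicit false
set_option linter.style.haveILetI false
set_option linter.unusedSectionVars false
set_option linter.unusedVariables false

noncomputable section

open AlgebraicCurve IntermediateField
open ModularCurve RH24 H28S28 HahnSeries

namespace H13N3

variable (M q : ℕ) [NeZero M] [NeZero q]

/-- the twist embeddings `x ↦ x(ζ^b 𝐪)` of `F₂` -/
def twEmb (ζ : Kbarˣ) (b : ℕ) : modularFunctionFieldBar (M * q * q) →+* LaurentSeries Kbar :=
  (tw (ζ ^ b)).comp (modularFunctionFieldBar (M * q * q)).val.toRingHom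

theorem twEmb_apply (ζ : Kbarˣ) (b : ℕ) (x : modularFunctionFieldBar (M * q * q)) :
    twEmb M q ζ b x = tw (ζ ^ b) (x : LaurentSeries Kbar) := rfl

/-- the base embedding `y ↦ y(𝐪^q)` of `F₁` -/
def betaEmb : modularFunctionFieldBar (M * q) →+* LaurentSeries Kbar :=
  (qExpand Kbar q).comp (modularFunctionFieldBar (M * q)).val.toRingHom

theorem betaEmb_apply (y : modularFunctionFieldBar (M * q)) :
    betaEmb M q y = qExpand Kbar q (y : LaurentSeries Kbar) := rfl

theorem twEmb_beta (ζ : Kbarˣ) (hζ : (ζ : Kbar) ^ q = 1) (b : ℕ)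
    (y : modularFunctionFieldBar (M * q)) :
    twEmb M q ζ b (heckeBetaBar Kbar (M * q) q y) = betaEmb M q y := by
  rw [twEmb_apply, betaEmb_apply, coe_heckeBetaBar]
  apply H18WP3.h18_tw_qExpand_of_pow_eq_one
  rw [← pow_mul, mul_comm, pow_mul]
  have : ζ ^ q = 1 := Units.ext hζ
  rw [this, one_pow]

theorem twEmb_Jbar_coeff (ζ : Kbarˣ) (b : ℕ) :
    (twEmb M q ζ b (Jbar (M * q * q))).coeff (-1) = (((ζ ^ b) ^ (-1 : ℤ) : Kbarˣ) : Kbar) := by
  have hJ : ((Jbar (M * q * q) : modularFunctionFieldBar (M * q * q)) : LaurentSeries Kbar)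
      = jqModC Kbar := by
    rw [coe_Jbar, h8b_coeffEmb_jq]
  rw [twEmb_apply, tw_coeff, hJ, coeff_jqModC_neg_one, mul_one]

theorem twEmb_injective (ζ : Kbarˣ) (hζ : IsPrimitiveRoot (ζ : Kbar) q) :
    Function.Injective (fun b : Fin q => twEmb M q ζ (b : ℕ)) := by
  intro b b' h
  have h0 := congrArg (fun σ : modularFunctionFieldBar (M * q * q) →+* LaurentSeries Kbar =>
    (σ (Jbar (M * q * q))).coeff (-1)) h
  simp only [twEmb_Jbar_coeff] at h0
  have h1 : ((ζ ^ (b : ℕ)) ^ (-1 : ℤ) : Kbarˣ) = (ζ ^ (b' : ℕ)) ^ (-1 : ℤ) := Units.ext h0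
  have h2 : ζ ^ (b : ℕ) = ζ ^ (b' : ℕ) := by
    have := congrArg (fun u : Kbarˣ => u ^ (-1 : ℤ)) h1
    simpa using this
  have h3 : (ζ : Kbar) ^ (b : ℕ) = (ζ : Kbar) ^ (b' : ℕ) := by
    have := congrArg (fun u : Kbarˣ => (u : Kbar)) h2
    simpa using this
  exact Fin.ext (hζ.pow_inj b.2 b'.2 h3)

set_option synthInstance.maxHeartbeats 400000 in
set_option maxHeartbeats 1600000 in
/-- **[N1]: the norm along `β` is the product of the twists**:
`(N_β x)(𝐪^q) = ∏_{b<q} x(ζ^b 𝐪)`. -/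
theorem norm_beta_twist (hq : q.Prime) (hqM : ¬ q ∣ M) (ζ : Kbarˣ)
    (hζ : IsPrimitiveRoot (ζ : Kbar) q) (x : modularFunctionFieldBar (M * q * q)) :
    qExpand Kbar q ((normB2 M q x : modularFunctionFieldBar (M * q)) : LaurentSeries Kbar) =
      ∏ b ∈ Finset.range q, tw (ζ ^ b) (x : LaurentSeries Kbar) := by
  classical
  letI iA : Algebra (modularFunctionFieldBar (M * q)) (modularFunctionFieldBar (M * q * q)) :=
    algebraAlong (heckeBetaBar Kbar (M * q) q)
  haveI hfd : FiniteDimensional (modularFunctionFieldBar (M * q))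
      (modularFunctionFieldBar (M * q * q)) := finiteDimensional_beta_sq M q hq hqM
  have hrank : Module.finrank (modularFunctionFieldBar (M * q))
      (modularFunctionFieldBar (M * q * q)) = q := finrank_beta_sq M q hq hqM
  haveI : CharZero (modularFunctionFieldBar (M * q)) :=
    charZero_of_injective_algebraMap
      (algebraMap Kbar (modularFunctionFieldBar (M * q))).injective
  haveI : Algebra.IsSeparable (modularFunctionFieldBar (M * q))
      (modularFunctionFieldBar (M * q * q)) := inferInstance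
  have h := norm_eq_prod_of_embs (betaEmb M q) (fun b : Fin q => twEmb M q ζ (b : ℕ))
    (fun b y => twEmb_beta M q ζ hζ.pow_eq_one (b : ℕ) y) (twEmb_injective M q ζ hζ)
    (by rw [Fintype.card_fin, hrank]) x
  rw [Fin.prod_univ_eq_prod_range (fun b => twEmb M q ζ b x) q] at h
  exact h

end H13N3

end
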