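import Mathlib
import Fermat.Agent.S36.InjDefs_helper11
import Fermat.Agent.S36.NormBeta_helper13
import Fermat.Agent.S35.FWLevel_helper21

/-!
# Item 86 (S36, Carayol), slice (LC3): level change for (INJ) in function-field form (helper28)

`q` prime, `M₁ ∣ M₂`, `q ∤ M₂`.  `F̄(M₁ q q) ⊆ F̄(M₂ q q)`, `F̄(M₁ q) ⊆ F̄(M₂ q)` (`H21FL.incl`).

* `H28LC.normB2_incl`  : `N_β (incl x) = incl (N_β x)`  (from helper13's twist formula, which does
  not see the level);
* `H28LC.wq2_compat`   : `W_{q²}` is compatible with the levels;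
* `H28LC.normA2_incl`  : `N_α (incl x) = incl (N_α x)`  (`N_α = W_q ∘ N_β ∘ W_{q²}`);
* `H28LC.injFieldAt_of_dvd` : **(LC3)**
  `InjFieldAt M₂ q c → InjFieldAt M₁ q (c * (ψ(M₂ q q) / ψ(M₁ q q)))`;
* `H28LC.injFieldStatement_of_good` : (INJ) at the levels of a class `Good q M` that contains a
  multiple prime to `q` of every level gives (INJ) at all levels;
* `H28LC.exists_aux_prime` : Dirichlet: a prime `r ≡ a mod m` (`a` prime to `m`) bigger than any
  bound.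

No `rfl` between two levels: all cross-level facts go through `H21FL.coe_incl`.
-/

set_option autoImplicit false
set_option linter.unusedSectionVars false
set_option linter.unusedVariables false
set_option linter.style.haveILetI false
set_option linter.style.longLine false

noncomputable section

open ModularCurve AlgebraicCurve H11W3G H28GV H7S18 H17FW RH24 H29W H21FL

namespace H28LC

/-! ### generic: the norm of an `n`-th power -/

section abstract

variable {K : Type*} [Field K] {Λ : Type*} [Field Λ] [Algebra K Λ]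

open IntermediateField in
/-- if `u ∈ F` is an `n`-th power in `F' ⊇ F`, then `u ^ [F' : F]` is an `n`-th power in `F`. -/
theorem exists_pow_eq_pow_relfinrank (F F' : IntermediateField K Λ) (hle : F ≤ F') (n : ℕ)
    {u : Λ} (hu : u ∈ F) {g' : Λ} (hg' : g' ∈ F') (h : g' ^ n = u) :
    ∃ g ∈ F, g ^ n = u ^ (relfinrank F F') := by
  set d := relfinrank F F' with hd
  rcases Nat.eq_zero_or_pos d with hd0 | hdpos
  · exact ⟨1, one_mem _, by rw [hd0, pow_zero, one_pow]⟩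
  have hfr : Module.finrank F (extendScalars hle) = d := (relfinrank_eq_finrank_of_le hle).symm
  haveI : FiniteDimensional F (extendScalars hle) :=
    Module.finite_of_finrank_pos (by rw [hfr]; exact hdpos)
  haveI : Module.Free F (extendScalars hle) := Module.Free.of_divisionRing _ _
  set G : extendScalars hle := ⟨g', (mem_extendScalars hle).mpr hg'⟩ with hG
  set U : F := ⟨u, hu⟩ with hU
  have hGU : G ^ n = algebraMap F (extendScalars hle) U := by
    apply Subtype.ext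
    exact h
  have hnp : (Algebra.norm F G) ^ n = U ^ d := by
    rw [← map_pow, hGU, Algebra.norm_algebraMap, hfr]
  refine ⟨((Algebra.norm F G : F) : Λ), (Algebra.norm F G : F).2, ?_⟩
  have := congrArg (Subtype.val) hnp
  simpa using this

end abstract

/-! ### the norms along `β` and `α` and the levels -/

section norms

variable (M₁ M₂ q : ℕ) [NeZero M₁] [NeZero M₂] [NeZero q]

omit [NeZero M₁] [NeZero M₂] [NeZero q] in
theorem dvd_one (h12 : M₁ ∣ M₂) : M₁ * q ∣ M₂ * q := Nat.mul_dvd_mul_right h12 q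

omit [NeZero M₁] [NeZero M₂] [NeZero q] in
theorem dvd_two (h12 : M₁ ∣ M₂) : M₁ * q * q ∣ M₂ * q * q :=
  Nat.mul_dvd_mul_right (Nat.mul_dvd_mul_right h12 q) q

/-- **`N_β` is compatible with the levels** -/
theorem normB2_incl (h12 : M₁ ∣ M₂) (hq : q.Prime) (hqM₁ : ¬ q ∣ M₁) (hqM₂ : ¬ q ∣ M₂)
    (x : modularFunctionFieldBar (M₁ * q * q)) :
    H13N3.normB2 M₂ q (incl (dvd_two M₁ M₂ q h12) x) =
      incl (dvd_one M₁ M₂ q h12) (H13N3.normB2 M₁ q x) := by
  haveI : NeZero ((q : ℕ) : ℚ) := ⟨by exact_mod_cast hq.ne_zero⟩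
  obtain ⟨ζ, hζ⟩ := HasEnoughRootsOfUnity.exists_primitiveRoot Kbar q
  have hζu : IsUnit ζ := hζ.isUnit hq.ne_zero
  have hζ' : IsPrimitiveRoot ((hζu.unit : Kbarˣ) : Kbar) q := by
    rw [IsUnit.unit_spec]
    exact hζ
  apply Subtype.ext
  apply qExpand_injective (R := Kbar) q
  rw [H13N3.norm_beta_twist M₂ q hq hqM₂ hζu.unit hζ', coe_incl, coe_incl,
    H13N3.norm_beta_twist M₁ q hq hqM₁ hζu.unit hζ']

/-- the value of `W_{q²}` as a Laurent series -/
def w2Ser (M : ℕ) [NeZero M] (hq : q.Prime) (hqM : ¬ q ∣ M) :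
    modularFunctionFieldBar (M * q * q) →+* LaurentSeries Kbar :=
  (algebraMap (modularFunctionFieldBar (M * q * q)) (LaurentSeries Kbar)).comp
    (H12WQ.wq2BarHom M q hq hqM)

theorem w2Ser_apply (M : ℕ) [NeZero M] (hq : q.Prime) (hqM : ¬ q ∣ M)
    (x : modularFunctionFieldBar (M * q * q)) :
    w2Ser q M hq hqM x =
      ((H12WQ.wq2BarHom M q hq hqM x : modularFunctionFieldBar (M * q * q)) :
        LaurentSeries Kbar) := rfl

theorem w2Ser_const (M : ℕ) [NeZero M] (hq : q.Prime) (hqM : ¬ q ∣ M) (c : Kbar) :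
    w2Ser q M hq hqM (algebraMap Kbar (modularFunctionFieldBar (M * q * q)) c) =
      algebraMap Kbar (LaurentSeries Kbar) c := by
  rw [w2Ser_apply, H12WQ.wq2BarHom_const, coe_algebraMap']

theorem w2Ser_Jgen (M : ℕ) [NeZero M] (hq : q.Prime) (hqM : ¬ q ∣ M) (d : Dv (M * q * q)) :
    w2Ser q M hq hqM (Jgen d) = jser (Nat.gcd d.1 M * (q * q / Nat.gcd d.1 (q * q))) := by
  rw [w2Ser_apply]
  unfold H12WQ.wq2BarHom
  rw [H12WQ.wLBarHom_Jgen, coe_Jgen_jser, H12WQ.swapL_val]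

omit [NeZero M₁] [NeZero M₂] [NeZero q] in
/-- the `M`-part of a divisor of `M₁ q q` does not see `M₂` -/
theorem gcd_level (h12 : M₁ ∣ M₂) (hq : q.Prime) (hqM₂ : ¬ q ∣ M₂) {d : ℕ}
    (hd : d ∣ M₁ * q * q) : Nat.gcd d M₂ = Nat.gcd d M₁ := by
  apply Nat.dvd_antisymm
  · apply Nat.dvd_gcd (Nat.gcd_dvd_left _ _)
    have h1 : Nat.gcd d M₂ ∣ M₁ * (q * q) := by
      rw [← mul_assoc]
      exact (Nat.gcd_dvd_left _ _).trans hd
    have hcop : Nat.Coprime (Nat.gcd d M₂) (q * q) := by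
      have hc : Nat.Coprime M₂ q := ((Nat.Prime.coprime_iff_not_dvd hq).mpr hqM₂).symm
      exact Nat.Coprime.coprime_dvd_left (Nat.gcd_dvd_right _ _) (Nat.Coprime.mul_right hc hc)
    exact hcop.dvd_of_dvd_mul_right h1
  · exact Nat.dvd_gcd (Nat.gcd_dvd_left _ _) ((Nat.gcd_dvd_right _ _).trans h12)

/-- **level compatibility of `W_{q²}`** -/
theorem wq2_compat (h12 : M₁ ∣ M₂) (hq : q.Prime) (hqM₁ : ¬ q ∣ M₁) (hqM₂ : ¬ q ∣ M₂)
    (x : modularFunctionFieldBar (M₁ * q * q)) :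
    ((H12WQ.wq2BarHom M₂ q hq hqM₂ (incl (dvd_two M₁ M₂ q h12) x) :
        modularFunctionFieldBar (M₂ * q * q)) : LaurentSeries Kbar) =
      ((H12WQ.wq2BarHom M₁ q hq hqM₁ x : modularFunctionFieldBar (M₁ * q * q)) :
        LaurentSeries Kbar) := by
  have key : (w2Ser q M₂ hq hqM₂).comp (incl (dvd_two M₁ M₂ q h12)) = w2Ser q M₁ hq hqM₁ := by
    apply ringHom_ext_F
    · intro c
      rw [RingHom.comp_apply, incl_const, w2Ser_const, w2Ser_const]
    · intro d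
      rw [RingHom.comp_apply, incl_Jgen, w2Ser_Jgen, w2Ser_Jgen]
      show jser (Nat.gcd d.1 M₂ * (q * q / Nat.gcd d.1 (q * q))) = _
      rw [gcd_level M₁ M₂ q h12 hq hqM₂ d.2]
  have := RingHom.congr_fun key x
  rw [RingHom.comp_apply, w2Ser_apply, w2Ser_apply] at this
  exact this

theorem wq2_incl (h12 : M₁ ∣ M₂) (hq : q.Prime) (hqM₁ : ¬ q ∣ M₁) (hqM₂ : ¬ q ∣ M₂)
    (x : modularFunctionFieldBar (M₁ * q * q)) :
    H12WQ.wq2BarHom M₂ q hq hqM₂ (incl (dvd_two M₁ M₂ q h12) x) =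
      incl (dvd_two M₁ M₂ q h12) (H12WQ.wq2BarHom M₁ q hq hqM₁ x) := by
  apply Subtype.ext
  rw [wq2_compat M₁ M₂ q h12 hq hqM₁ hqM₂, coe_incl]

theorem wq_incl (h12 : M₁ ∣ M₂) (hq : q.Prime) (hqM₁ : ¬ q ∣ M₁) (hqM₂ : ¬ q ∣ M₂)
    (x : modularFunctionFieldBar (M₁ * q)) :
    H12AL.wqBarHom M₂ q hq hqM₂ (incl (dvd_one M₁ M₂ q h12) x) =
      incl (dvd_one M₁ M₂ q h12) (H12AL.wqBarHom M₁ q hq hqM₁ x) := by
  apply Subtype.ext
  rw [wq_compat M₁ M₂ q h12 hq hqM₁ hqM₂, coe_incl]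

/-- `N_α = W_q ∘ N_β ∘ W_{q²}` -/
theorem normA2_eq (M : ℕ) [NeZero M] (hq : q.Prime) (hqM : ¬ q ∣ M)
    (x : modularFunctionFieldBar (M * q * q)) :
    H13N3.normA2 M q x =
      H12AL.wqBarHom M q hq hqM (H13N3.normB2 M q (H12WQ.wq2BarHom M q hq hqM x)) := by
  have h := H13N3.normA2_wq2 M q hq hqM (H12WQ.wq2BarHom M q hq hqM x)
  rw [H12WQ.wq2BarHom_invol] at h
  exact h

/-- **`N_α` is compatible with the levels** -/
theorem normA2_incl (h12 : M₁ ∣ M₂) (hq : q.Prime) (hqM₁ : ¬ q ∣ M₁) (hqM₂ : ¬ q ∣ M₂)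
    (x : modularFunctionFieldBar (M₁ * q * q)) :
    H13N3.normA2 M₂ q (incl (dvd_two M₁ M₂ q h12) x) =
      incl (dvd_one M₁ M₂ q h12) (H13N3.normA2 M₁ q x) := by
  rw [normA2_eq q M₂ hq hqM₂, normA2_eq q M₁ hq hqM₁, wq2_incl M₁ M₂ q h12 hq hqM₁ hqM₂,
    normB2_incl M₁ M₂ q h12 hq hqM₁ hqM₂, wq_incl M₁ M₂ q h12 hq hqM₁ hqM₂]

end norms

/-! ### (LC3) -/

section main

variable (M₁ M₂ q : ℕ) [NeZero M₁] [NeZero M₂] [NeZero q]

theorem normA_eq_normA2 (M : ℕ) [NeZero M] (x : modularFunctionFieldBar (M * q * q)) :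
    H17FW.normA (M * q) q x = H13N3.normA2 M q x := rfl

theorem normB_eq_normB2 (M : ℕ) [NeZero M] (x : modularFunctionFieldBar (M * q * q)) :
    H17FW.normB (M * q) q x = H13N3.normB2 M q x := rfl

theorem psi_ratio_pos {N N' : ℕ} [NeZero N] [NeZero N'] (h : N ∣ N') :
    0 < dedekindPsi N' / dedekindPsi N := by
  rw [← H12C11b.relfinrank_bar h]
  rcases Nat.eq_zero_or_pos (IntermediateField.relfinrank (modularFunctionFieldBar N)
    (modularFunctionFieldBar N')) with h0 | hpos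
  · exfalso
    have h1 := IntermediateField.relfinrank_mul_relfinrank (H12C11b.jField_le N)
      (H12C11b.bar_le h)
    rw [H12C11b.relfinrank_jField N, H12C11b.relfinrank_jField N', h0, mul_zero] at h1
    exact (H12C11b.dedekindPsi_pos N').ne h1
  · exact hpos

/-- **(LC3)**: level change for (INJ) in function-field form. -/
theorem injFieldAt_of_dvd (h12 : M₁ ∣ M₂) (hq : q.Prime) (hqM₁ : ¬ q ∣ M₁) (hqM₂ : ¬ q ∣ M₂)
    (c : ℕ) (h : H11IJ.InjFieldAt M₂ q c) :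
    H11IJ.InjFieldAt M₁ q (c * (dedekindPsi (M₂ * q * q) / dedekindPsi (M₁ * q * q))) := by
  intro A hA n hn hqn f hf0 hord hI hα hβ
  have hd2 : M₁ * q * q ∣ M₂ * q * q := dvd_two M₁ M₂ q h12
  have hd1 : M₁ * q ∣ M₂ * q := dvd_one M₁ M₂ q h12
  have hle : modularFunctionFieldBar (M₁ * q * q) ≤ modularFunctionFieldBar (M₂ * q * q) :=
    H12C11b.bar_le hd2
  have hf0' : incl hd2 f ≠ 0 := incl_ne_zero _ hf0
  have hιf : incl hd2 f = ⟨(f : LaurentSeries Kbar), hle f.2⟩ :=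
    Subtype.ext (coe_incl hd2 f)
  -- the divisibility of the divisor
  have hord' : ∀ P' : Place Kbar (modularFunctionFieldBar (M₂ * q * q)),
      (n : ℤ) ∣ P'.ord (incl hd2 f) := by
    intro P'
    have h1 := H12C11b.dvd_ord_of_dvd_ord hle (n : ℤ) (x₁ := (f : LaurentSeries Kbar))
      (x₂ := (1 : LaurentSeries Kbar)) f.2 (one_mem _) (fun P => by
        have e1 : (⟨(1 : LaurentSeries Kbar), one_mem _⟩ :
            modularFunctionFieldBar (M₁ * q * q)) = 1 := rfl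
        have e2 : (⟨(f : LaurentSeries Kbar), f.2⟩ : modularFunctionFieldBar (M₁ * q * q)) = f :=
          rfl
        rw [e1, e2, P.ord_one, sub_zero]
        exact hord P) P'
    have e1 : (⟨(1 : LaurentSeries Kbar), hle (one_mem _)⟩ :
        modularFunctionFieldBar (M₂ * q * q)) = 1 := rfl
    rw [e1, P'.ord_one, sub_zero, ← hιf] at h1
    exact h1
  -- the inertia condition
  have hI' : ∀ τ : GQ, τ ∈ A.inertiaSubgroupIn ℚ →
      ∃ g : modularFunctionFieldBar (M₂ * q * q),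
        H17FW.act (M₂ * q * q) τ (incl hd2 f) = g ^ n * incl hd2 f := by
    intro τ hτ
    obtain ⟨g, hg⟩ := hI τ hτ
    refine ⟨incl hd2 g, ?_⟩
    apply Subtype.ext
    rw [coe_act, coe_incl, ← coe_act, hg, ← map_pow, ← map_mul, coe_incl]
  -- the norms
  have hα' : ∃ h' : modularFunctionFieldBar (M₂ * q),
      H17FW.normA (M₂ * q) q (incl hd2 f) = h' ^ n := by
    obtain ⟨h0, hh0⟩ := hα
    refine ⟨incl hd1 h0, ?_⟩
    rw [normA_eq_normA2, normA2_incl M₁ M₂ q h12 hq hqM₁ hqM₂, ← normA_eq_normA2, hh0, map_pow]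
  have hβ' : ∃ h' : modularFunctionFieldBar (M₂ * q),
      H17FW.normB (M₂ * q) q (incl hd2 f) = h' ^ n := by
    obtain ⟨h0, hh0⟩ := hβ
    refine ⟨incl hd1 h0, ?_⟩
    rw [normB_eq_normB2, normB2_incl M₁ M₂ q h12 hq hqM₁ hqM₂, ← normB_eq_normB2, hh0, map_pow]
  obtain ⟨g', hg'⟩ := h A hA n hn hqn (incl hd2 f) hf0' hord' hI' hα' hβ'
  -- down by the norm
  have hpow : (g' : LaurentSeries Kbar) ^ n = (f : LaurentSeries Kbar) ^ c := by
    have h1 : ((incl hd2 f ^ c : modularFunctionFieldBar (M₂ * q * q)) : LaurentSeries Kbar) =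
        ((g' ^ n : modularFunctionFieldBar (M₂ * q * q)) : LaurentSeries Kbar) :=
      congrArg Subtype.val hg'
    have e1 : ((incl hd2 f ^ c : modularFunctionFieldBar (M₂ * q * q)) : LaurentSeries Kbar) =
        ((incl hd2 f : modularFunctionFieldBar (M₂ * q * q)) : LaurentSeries Kbar) ^ c := rfl
    have e2 : ((g' ^ n : modularFunctionFieldBar (M₂ * q * q)) : LaurentSeries Kbar) =
        (g' : LaurentSeries Kbar) ^ n := rfl
    rw [e1, e2, coe_incl] at h1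
    exact h1.symm
  obtain ⟨g, hg, hgp⟩ := exists_pow_eq_pow_relfinrank (modularFunctionFieldBar (M₁ * q * q))
    (modularFunctionFieldBar (M₂ * q * q)) hle n (pow_mem f.2 c) g'.2 hpow
  rw [H12C11b.relfinrank_bar hd2] at hgp
  refine ⟨⟨g, hg⟩, ?_⟩
  apply Subtype.ext
  show (f : LaurentSeries Kbar) ^ (c * (dedekindPsi (M₂ * q * q) / dedekindPsi (M₁ * q * q))) =
    g ^ n
  rw [hgp, pow_mul]

end main

/-! ### the wrapper -/

/-- **(LC3), final form**: if (INJ) holds at the levels of a class `Good q M` and every level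
`N'` prime to `q` has a multiple `M` prime to `q` in the class, then (INJ) holds at all levels. -/
theorem injFieldStatement_of_good (Good : ℕ → ℕ → Prop)
    (hG : ∀ N' q : ℕ, N' ≠ 0 → q.Prime → ¬ q ∣ N' →
      ∃ M : ℕ, M ≠ 0 ∧ N' ∣ M ∧ ¬ q ∣ M ∧ Good q M)
    (h : ∀ (M q : ℕ) [NeZero M] [NeZero q] [NeZero (M * q)] [NeZero (M * q * q)],
      q.Prime → ¬ q ∣ M → Good q M → ∃ c : ℕ, 0 < c ∧ H11IJ.InjFieldAt M q c) :
    H11IJ.InjFieldStatement := by
  intro N' q _ _ _ _ hq hqN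
  obtain ⟨M, hM0, hdvd, hqM, hgood⟩ := hG N' q (NeZero.ne N') hq hqN
  haveI : NeZero M := ⟨hM0⟩
  haveI : NeZero (M * q) := ⟨mul_ne_zero hM0 hq.ne_zero⟩
  haveI : NeZero (M * q * q) := ⟨mul_ne_zero (mul_ne_zero hM0 hq.ne_zero) hq.ne_zero⟩
  obtain ⟨c, hc, hinj⟩ := h M q hq hqM hgood
  exact ⟨c * (dedekindPsi (M * q * q) / dedekindPsi (N' * q * q)),
    Nat.mul_pos hc (psi_ratio_pos (dvd_two N' M q hdvd)),
    injFieldAt_of_dvd N' M q hdvd hq hqN hqM c hinj⟩

/-- **Dirichlet**: for `a` prime to `m` there is a prime `r ≡ a mod m` bigger than any bound;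
in particular `r ∤ B` for `B ≠ 0`. -/
theorem exists_aux_prime (m a : ℕ) (hm : m ≠ 0) (ha : Nat.Coprime a m) (B : ℕ) :
    ∃ r : ℕ, r.Prime ∧ B < r ∧ r % m = a % m := by
  haveI : NeZero m := ⟨hm⟩
  have hu : IsUnit (a : ZMod m) := (ZMod.isUnit_iff_coprime a m).mpr ha
  obtain ⟨r, hr, hrp, hra⟩ := Nat.forall_exists_prime_gt_and_eq_mod hu B
  refine ⟨r, hrp, hr, ?_⟩
  have := (ZMod.natCast_eq_natCast_iff' r a m).mp hra
  exact this

/-- the auxiliary prime for the rigid levels: `r ≡ 11 mod 12`, `r ∤ N' q`. -/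
theorem exists_rigid_prime (N' q : ℕ) (hN : N' ≠ 0) (hq : q.Prime) :
    ∃ r : ℕ, r.Prime ∧ r % 12 = 11 ∧ ¬ r ∣ N' ∧ r ≠ q := by
  obtain ⟨r, hr, hB, hmod⟩ := exists_aux_prime 12 11 (by norm_num) (by norm_num) (N' * q)
  refine ⟨r, hr, by simpa using hmod, ?_, ?_⟩
  · intro hd
    have h1 : r ≤ N' := Nat.le_of_dvd (Nat.pos_of_ne_zero hN) hd
    have h2 : N' ≤ N' * q := Nat.le_mul_of_pos_right _ hq.pos
    omega
  · intro h
    have h2 : q ≤ N' * q := Nat.le_mul_of_pos_left _ (Nat.pos_of_ne_zero hN)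
    omega

/-- **(LC3) for the rigid levels**: (INJ) at the levels `M` divisible by a prime
`r ≡ 11 mod 12` (`r ≠ q`) gives (INJ) at all levels. -/
theorem injFieldStatement_of_rigid
    (h : ∀ (M q : ℕ) [NeZero M] [NeZero q] [NeZero (M * q)] [NeZero (M * q * q)],
      q.Prime → ¬ q ∣ M → (∃ r : ℕ, r.Prime ∧ r % 12 = 11 ∧ r ∣ M ∧ r ≠ q) →
      ∃ c : ℕ, 0 < c ∧ H11IJ.InjFieldAt M q c) :
    H11IJ.InjFieldStatement := by
  refine injFieldStatement_of_good (fun q M => ∃ r : ℕ, r.Prime ∧ r % 12 = 11 ∧ r ∣ M ∧ r ≠ q)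
    ?_ h
  intro N' q hN hq hqN
  obtain ⟨r, hr, hmod, hrN, hrq⟩ := exists_rigid_prime N' q hN hq
  refine ⟨N' * r, mul_ne_zero hN hr.ne_zero, dvd_mul_right N' r, ?_, r, hr, hmod,
    dvd_mul_left r N', hrq⟩
  intro hd
  rcases (Nat.Prime.dvd_mul hq).1 hd with h1 | h1
  · exact hqN h1
  · exact hrq ((Nat.prime_dvd_prime_iff_eq hq hr).1 h1).symm

end H28LC

end
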