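import Mathlib
import Fermat.Agent.S36.LevelChange_helper28
import Fermat.Agent.S36.LocE_helper14

/-!
# Item 86 (S36), slice (LC3), wrappers for the rigid (and tame) levels (helper28)

* `H28LC.RigidTame q M` : `M` is rigid (`H14LE.Rigid M`, no elliptic points), tame for `q`
  (`H7S18.TameLevel q M`) and divisible by a prime `r ≡ 11 mod 12`, `r ≠ q`;
* `H28LC.exists_rigidTame` : every level `N'` prime to `q` divides such a level;
* `H28LC.injFieldStatement_of_rigidTame`, `H28LC.injFieldStatement_of_Rigid` :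
  (INJ) at these levels gives (INJ) at all levels.
-/

set_option autoImplicit false
set_option linter.unusedSectionVars false
set_option linter.unusedVariables false
set_option linter.style.haveILetI false
set_option linter.style.longLine false

noncomputable section

open ModularCurve AlgebraicCurve

namespace H28LC

/-- the levels of the geometric crew: rigid, tame for `q`, with an auxiliary prime
`r ≡ 11 mod 12`. -/
def RigidTame (q M : ℕ) : Prop :=
  H14LE.Rigid M ∧ H7S18.TameLevel q M ∧ ∃ r : ℕ, r.Prime ∧ r % 12 = 11 ∧ r ∣ M ∧ r ≠ q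

/-- the tame factor: `3` for `q = 2`, `2` for `q = 3`, `1` otherwise -/
def tameFactor (q : ℕ) : ℕ := if q = 2 then 3 else if q = 3 then 2 else 1

theorem tameFactor_ne_zero (q : ℕ) : tameFactor q ≠ 0 := by
  unfold tameFactor
  split_ifs <;> norm_num

theorem not_dvd_tameFactor {q : ℕ} (hq : q.Prime) : ¬ q ∣ tameFactor q := by
  unfold tameFactor
  split_ifs with h2 h3
  · rw [h2]; norm_num
  · rw [h3]; norm_num
  · intro h
    exact hq.one_lt.ne' (Nat.dvd_one.mp h)

theorem tameFactor_two : tameFactor 2 = 3 := by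
  unfold tameFactor
  rw [if_pos rfl]

theorem tameFactor_three : tameFactor 3 = 2 := by
  unfold tameFactor
  rw [if_neg (by norm_num), if_pos rfl]

theorem exists_rigidTame (N' q : ℕ) (hN : N' ≠ 0) (hq : q.Prime) (hqN : ¬ q ∣ N') :
    ∃ M : ℕ, M ≠ 0 ∧ N' ∣ M ∧ ¬ q ∣ M ∧ RigidTame q M := by
  obtain ⟨r, hr, hmod, hrN, hrq⟩ := exists_rigid_prime N' q hN hq
  have hM0 : N' * r * tameFactor q ≠ 0 :=
    mul_ne_zero (mul_ne_zero hN hr.ne_zero) (tameFactor_ne_zero q)
  have hqM : ¬ q ∣ N' * r * tameFactor q := by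
    intro hd
    rcases (Nat.Prime.dvd_mul hq).1 hd with h1 | h1
    · rcases (Nat.Prime.dvd_mul hq).1 h1 with h2 | h2
      · exact hqN h2
      · exact hrq ((Nat.prime_dvd_prime_iff_eq hq hr).1 h2).symm
    · exact not_dvd_tameFactor hq h1
  have hrM : r ∣ N' * r * tameFactor q :=
    Dvd.dvd.mul_right (dvd_mul_left r N') _
  haveI : NeZero (N' * r * tameFactor q) := ⟨hM0⟩
  refine ⟨N' * r * tameFactor q, hM0, ?_, hqM, ?_, ⟨hqM, ?_, ?_⟩, r, hr, hmod, hrM, hrq⟩
  · rw [mul_assoc]
    exact dvd_mul_right N' _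
  · exact H14LE.rigid_of_prime_dvd hr hmod hrM
  · intro h2
    rw [h2, tameFactor_two]
    exact dvd_mul_left 3 _
  · intro h3
    rw [h3, tameFactor_three]
    exact dvd_mul_left 2 _

/-- **(LC3) for the rigid tame levels** -/
theorem injFieldStatement_of_rigidTame
    (h : ∀ (M q : ℕ) [NeZero M] [NeZero q] [NeZero (M * q)] [NeZero (M * q * q)],
      q.Prime → ¬ q ∣ M → RigidTame q M → ∃ c : ℕ, 0 < c ∧ H11IJ.InjFieldAt M q c) :
    H11IJ.InjFieldStatement :=
  injFieldStatement_of_good RigidTame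
    (fun N' q hN hq hqN => exists_rigidTame N' q hN hq hqN) h

/-- **(LC3) for the rigid levels** (`H14LE.Rigid`) -/
theorem injFieldStatement_of_Rigid
    (h : ∀ (M q : ℕ) [NeZero M] [NeZero q] [NeZero (M * q)] [NeZero (M * q * q)],
      q.Prime → ¬ q ∣ M → H14LE.Rigid M → ∃ c : ℕ, 0 < c ∧ H11IJ.InjFieldAt M q c) :
    H11IJ.InjFieldStatement :=
  injFieldStatement_of_rigidTame (fun M q _ _ _ _ hq hqM hg => h M q hq hqM hg.1)

end H28LC

end
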