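import Mathlib
import Fermat.Agent.S36.InjUAsm_helper4
import Fermat.Agent.S36.InjGenFinal_helper1
import Fermat.Agent.S36.InjBook_helper11
import Fermat.Agent.S36.LevelChangeRigid_helper28

/-!
# Item 86 (S36, Carayol), architect file (helper4): the MIDDLE CHAIN, closed up to two leaves

`H4S36.injStatement_of_leaves : Desc3Statement → TripleUStatement → H16S36.InjStatement`

* `Desc3Statement` (DESC3, helper29): at every number field `L ⊆ ℚ̄`,
  `InjCoreAt N' q c n L → InjFieldCoreAt N' q c n L`;
* `TripleUStatement` (TRIPLE-ASM helper11 + MLocLeaf helper10 + LOC crew): `TripleUAt M q` at the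
  levels `H28LC.RigidTame q M`.

Everything else is plugged in: `H1IG.injGenStatement` (generic chain, helper1),
`H4S36.injUAt_of`, `H4S36.injFieldAt_of_U`, `H28LC.injFieldStatement_of_rigidTame` (helper28),
`H11IJ.injStatement_of_field` (helper11).  Then
`Fermat.Agent.S36.result := H19S36.h19s36_of_inj (injStatement_of_leaves …) …`.
-/

set_option autoImplicit false
set_option linter.style.longLine false
set_option linter.style.haveILetI false
set_option synthInstance.maxHeartbeats 400000
set_option maxHeartbeats 1000000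

noncomputable section

open IntermediateField AlgebraicCurve ModularCurve H7S18

namespace H4S36

local notation "Qb" => AlgebraicClosure ℚ

/-- **(DESC3)**: the `L`-level form of (INJ) at a number field `L` gives the `ℚ̄`-level form. -/
def Desc3Statement : Prop :=
  ∀ (N' q : ℕ) [NeZero N'] [NeZero q] [NeZero (N' * q)] [NeZero (N' * q * q)] (c n : ℕ)
    (L : IntermediateField ℚ Qb) [FiniteDimensional ℚ L], 0 < n →
    InjCoreAt N' q c n L → InjFieldCoreAt N' q c n L

/-- **the concrete leaf** at the rigid tame levels. -/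
def TripleUStatement : Prop :=
  ∀ (M q : ℕ) [NeZero M] [NeZero q] [NeZero (M * q)] [NeZero (M * q * q)],
    q.Prime → ¬ q ∣ M → H28LC.RigidTame q M → TripleUAt M q

theorem chain_const_pos {q : ℕ} (hq : q.Prime) :
    0 < (q + 1) * ((q ^ 2 - 1) * (q ^ 2 - 1)) := by
  have h2 : 2 ≤ q := hq.two_le
  have h4 : 4 ≤ q ^ 2 := by nlinarith
  have h1 : 0 < q ^ 2 - 1 := by omega
  positivity

/-- (DESC3) in `U`-form. -/
theorem injFieldUAt_of_desc3 (hD : Desc3Statement)
    (N' q : ℕ) [NeZero N'] [NeZero q] [NeZero (N' * q)] [NeZero (N' * q * q)] (c : ℕ)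
    (h : InjUAt N' q c) : InjFieldUAt N' q c := by
  intro A hA n hn hqn
  obtain ⟨K₀, hK₀, hmain⟩ := h A hA n hn hqn
  refine ⟨K₀, hK₀, fun K₁ hK₁ hnor hle hζ => ?_⟩
  haveI := hK₁
  exact hD N' q c n (H29DU.unrPart A K₁) hn (hmain K₁ hK₁ hnor hle hζ)

/-- **the middle chain**: (INJ) from (DESC3) and the concrete leaf. -/
theorem injStatement_of_leaves (hD : Desc3Statement) (hT : TripleUStatement) :
    H16S36.InjStatement :=
  H11IJ.injStatement_of_field
    (H28LC.injFieldStatement_of_rigidTame (fun M q _ _ _ _ hq hqM hRT =>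
      ⟨(q + 1) * ((q ^ 2 - 1) * (q ^ 2 - 1)), chain_const_pos hq,
        injFieldAt_of_U M q _ (injFieldUAt_of_desc3 hD M q _
          (injUAt_of H1IG.injGenStatement M q hq hRT.2.1 (hT M q hq hqM hRT)))⟩))

end H4S36

end
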