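import Fermat.Agent.S36.NormGen_helper13
import Fermat.Agent.S36.ALQ2_helper12
import Fermat.Agent.S37.R3Deg_helper13

/-!
# Item 86 (S36), slice (NORM), part 1 (helper13): degrees at the `ℚ̄`-level

`F₁ = F̄_{N}`, `F₂ = F̄_{N ℓ}`, `ℓ` prime, **`ℓ ∣ N`**:

* `H13N3.finrank_alpha_dvd` : `[F₂ : α F₁] = ℓ` (`α = heckeAlphaBar`, the inclusion);
* `H13N3.finrank_beta_sq`  : `[F̄_{M q q} : β F̄_{M q}] = q` (`β = heckeBetaBar`, `𝐪 ↦ 𝐪^q`), `q ∤ M`
  (from the `α`-degree by helper12's `W_{q²} ∘ α = β ∘ W_q`);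
* `H13N3.normBeta_wq2` / `normAlpha_wq2` : `N_β (W_{q²} x) = W_q (N_α x)`,
  `N_α (W_{q²} x) = W_q (N_β x)`.
-/

set_option autoImplicit false
set_option linter.style.haveILetI false
set_option linter.unusedSectionVars false
set_option linter.unusedVariables false

noncomputable section

open AlgebraicCurve IntermediateField
open ModularCurve RH24

namespace H13N3

section Alpha

variable (N ℓ : ℕ) [NeZero N] [NeZero ℓ]

set_option synthInstance.maxHeartbeats 400000 in
set_option maxHeartbeats 1600000 in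
/-- `[F_{Nℓ} ℚ̄ : F_N ℚ̄] = ℓ` along `α`, for a prime `ℓ ∣ N`. -/
theorem finrank_alpha_dvd (hℓ : ℓ.Prime) (hℓN : ℓ ∣ N) :
    letI := algebraAlong (heckeAlphaBar Kbar N ℓ)
    Module.finrank (modularFunctionFieldBar N) (modularFunctionFieldBar (N * ℓ)) = ℓ := by
  letI := algebraAlong (heckeAlphaBar Kbar N ℓ)
  letI algAC : Algebra Kbar⟮Jbar N⟯ (modularFunctionFieldBar (N * ℓ)) :=
    ((algebraMap (modularFunctionFieldBar N) (modularFunctionFieldBar (N * ℓ))).comp
      (algebraMap Kbar⟮Jbar N⟯ (modularFunctionFieldBar N))).toAlgebra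
  haveI : IsScalarTower Kbar⟮Jbar N⟯ (modularFunctionFieldBar N)
      (modularFunctionFieldBar (N * ℓ)) := IsScalarTower.of_algebraMap_eq (fun _ => rfl)
  have htower := Module.finrank_mul_finrank Kbar⟮Jbar N⟯ (modularFunctionFieldBar N)
    (modularFunctionFieldBar (N * ℓ))
  have hmap : (Kbar⟮Jbar N⟯).map (heckeAlphaBar Kbar N ℓ) = Kbar⟮Jbar (N * ℓ)⟯ := by
    rw [IntermediateField.adjoin_map, Set.image_singleton, H13R3.alpha_Jbar]
  let i : Kbar⟮Jbar N⟯ ≃+* Kbar⟮Jbar (N * ℓ)⟯ :=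
    ((IntermediateField.equivMap Kbar⟮Jbar N⟯ (heckeAlphaBar Kbar N ℓ)).trans
      (IntermediateField.equivOfEq hmap)).toRingEquiv
  have h2 : Module.finrank Kbar⟮Jbar N⟯ (modularFunctionFieldBar (N * ℓ))
      = Module.finrank Kbar⟮Jbar (N * ℓ)⟯ (modularFunctionFieldBar (N * ℓ)) :=
    Algebra.finrank_eq_of_equiv_equiv i (RingEquiv.refl _) (by ext a; rfl)
  have hpsi : dedekindPsi (N * ℓ) = ℓ * dedekindPsi N := by
    rw [mul_comm N ℓ]
    exact H28S28.h10_psi_mul_of_dvd hℓ (NeZero.ne N) hℓN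
  rw [h2, H13R3.finrank_bar_eq, H13R3.finrank_bar_eq, hpsi] at htower
  have hpos : 0 < dedekindPsi N := by
    rw [← H13R3.finrank_bar_eq]
    haveI : FiniteDimensional Kbar⟮Jbar N⟯ (modularFunctionFieldBar N) := (B_degree N).1
    exact Module.finrank_pos
  have h3 : dedekindPsi N * Module.finrank (modularFunctionFieldBar N)
      (modularFunctionFieldBar (N * ℓ)) = dedekindPsi N * ℓ := by
    rw [htower]; ring
  exact Nat.eq_of_mul_eq_mul_left hpos h3

set_option synthInstance.maxHeartbeats 400000 in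
theorem finiteDimensional_alpha_dvd (hℓ : ℓ.Prime) (hℓN : ℓ ∣ N) :
    letI := algebraAlong (heckeAlphaBar Kbar N ℓ)
    FiniteDimensional (modularFunctionFieldBar N) (modularFunctionFieldBar (N * ℓ)) := by
  letI := algebraAlong (heckeAlphaBar Kbar N ℓ)
  apply Module.finite_of_finrank_pos
  rw [finrank_alpha_dvd N ℓ hℓ hℓN]
  exact hℓ.pos

end Alpha

section Beta

variable (M q : ℕ) [NeZero M] [NeZero q]

/-- `W_{q²}` of `F̄_{M q q}` as a ring automorphism -/
def wq2Bar (hq : q.Prime) (hqM : ¬ q ∣ M) :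
    modularFunctionFieldBar (M * q * q) ≃+* modularFunctionFieldBar (M * q * q) :=
  H12WQ.wLBar (M * q * q) M (q * q) (mul_assoc M q q) (H12WQ.coprime_sq M q hq hqM)

theorem wq2Bar_apply (hq : q.Prime) (hqM : ¬ q ∣ M) (x : modularFunctionFieldBar (M * q * q)) :
    wq2Bar M q hq hqM x = H12WQ.wq2BarHom M q hq hqM x := rfl

/-- the norm along `α` at the level `(M q q, M q)` -/
def normA2 (z : modularFunctionFieldBar (M * q * q)) : modularFunctionFieldBar (M * q) :=
  letI := algebraAlong (heckeAlphaBar Kbar (M * q) q)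
  Algebra.norm (modularFunctionFieldBar (M * q)) z

/-- the norm along `β` at the level `(M q q, M q)` -/
def normB2 (z : modularFunctionFieldBar (M * q * q)) : modularFunctionFieldBar (M * q) :=
  letI := algebraAlong (heckeBetaBar Kbar (M * q) q)
  Algebra.norm (modularFunctionFieldBar (M * q)) z

/-- `[F̄_{M q q} : β F̄_{M q}] = q`. -/
theorem finrank_beta_sq (hq : q.Prime) (hqM : ¬ q ∣ M) :
    letI := algebraAlong (heckeBetaBar Kbar (M * q) q)
    Module.finrank (modularFunctionFieldBar (M * q)) (modularFunctionFieldBar (M * q * q)) = q := by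
  have h := finrank_transfer (heckeAlphaBar Kbar (M * q) q).toRingHom
    (heckeBetaBar Kbar (M * q) q).toRingHom (H12AL.wqBar M q hq hqM) (wq2Bar M q hq hqM)
    (fun y => H12WQ.wq2BarHom_alpha M q hq hqM y)
  have h2 := finrank_alpha_dvd (M * q) q hq (dvd_mul_left q M)
  exact h.trans h2

theorem finiteDimensional_beta_sq (hq : q.Prime) (hqM : ¬ q ∣ M) :
    letI := algebraAlong (heckeBetaBar Kbar (M * q) q)
    FiniteDimensional (modularFunctionFieldBar (M * q)) (modularFunctionFieldBar (M * q * q)) := by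
  letI := algebraAlong (heckeBetaBar Kbar (M * q) q)
  apply Module.finite_of_finrank_pos
  rw [finrank_beta_sq M q hq hqM]
  exact hq.pos

/-- `N_β (W_{q²} x) = W_q (N_α x)`. -/
theorem normB2_wq2 (hq : q.Prime) (hqM : ¬ q ∣ M) (x : modularFunctionFieldBar (M * q * q)) :
    normB2 M q (H12WQ.wq2BarHom M q hq hqM x) = H12AL.wqBarHom M q hq hqM (normA2 M q x) :=
  norm_transfer (heckeAlphaBar Kbar (M * q) q).toRingHom
    (heckeBetaBar Kbar (M * q) q).toRingHom (H12AL.wqBar M q hq hqM) (wq2Bar M q hq hqM)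
    (fun y => H12WQ.wq2BarHom_alpha M q hq hqM y) x

/-- `N_α (W_{q²} x) = W_q (N_β x)`. -/
theorem normA2_wq2 (hq : q.Prime) (hqM : ¬ q ∣ M) (x : modularFunctionFieldBar (M * q * q)) :
    normA2 M q (H12WQ.wq2BarHom M q hq hqM x) = H12AL.wqBarHom M q hq hqM (normB2 M q x) :=
  norm_transfer (heckeBetaBar Kbar (M * q) q).toRingHom
    (heckeAlphaBar Kbar (M * q) q).toRingHom (H12AL.wqBar M q hq hqM) (wq2Bar M q hq hqM)
    (fun y => H12WQ.wq2BarHom_beta M q hq hqM y) x

end Beta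

end H13N3

end
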