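import Mathlib
import Fermat.Agent.S36.UnrField_helper29
import Fermat.Agent.S36.NormK_helper13
import Fermat.Agent.S36.NormDeg_helper13
import Fermat.Agent.S35.FWDefs_helper17
import Fermat.Agent.S18.C6f_helper1

/-!
# Item 86 (S36), slice (DESC3), part 1 (helper29): norms commute with base change

* `H29NB.norm_map_of_span` (generic): `F₂/F₁`, `E₂/E₁` finite of the same degree, `φ₂(F₂)` spans
  `E₂` over `E₁` ⟹ `N_{E₂/E₁}(φ₂ x) = φ₁(N_{F₂/F₁} x)`.
* `H29NB.span_eq_top_of_adjoin` (generic).
* `H29NB.phi_normAK`, `H29NB.phi_normBK`: for a subfield `L ⊆ ℚ̄`, at the levels `(M q q, M q)`: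
  `φ (N_α x) = N_α (φ x)`, `φ (N_β x) = N_β (φ x)` (`N` over `L` = helper13's `normAK`, `normBK`;
  `N` over `ℚ̄` = `H17FW.normA`, `H17FW.normB`).
-/

set_option autoImplicit false
set_option synthInstance.maxHeartbeats 400000
set_option maxHeartbeats 1600000
set_option linter.unusedSectionVars false
set_option linter.unusedVariables false
set_option linter.style.haveILetI false
set_option linter.style.longLine false

noncomputable section

open H11W3G ModularCurve AlgebraicCurve H7S18 H28GV H29R2M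

namespace H29NB

section Gen

variable {F₁ F₂ E₁ E₂ : Type*} [Field F₁] [Field F₂] [Field E₁] [Field E₂]
  [Algebra F₁ F₂] [Algebra E₁ E₂]

/-- **norms commute with base change**: if `φ₂(F₂)` spans `E₂` over `E₁` and the degrees agree. -/
theorem norm_map_of_span [FiniteDimensional F₁ F₂]
    (φ₁ : F₁ →+* E₁) (φ₂ : F₂ →+* E₂)
    (hcomm : ∀ y : F₁, φ₂ (algebraMap F₁ F₂ y) = algebraMap E₁ E₂ (φ₁ y))
    (hrank : Module.finrank E₁ E₂ = Module.finrank F₁ F₂)
    (hspan : Submodule.span E₁ (Set.range φ₂) = ⊤)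
    (x : F₂) : Algebra.norm E₁ (φ₂ x) = φ₁ (Algebra.norm F₁ x) := by
  classical
  have hpos : 0 < Module.finrank F₁ F₂ := Module.finrank_pos
  haveI : FiniteDimensional E₁ E₂ := Module.finite_of_finrank_pos (by rw [hrank]; exact hpos)
  let β := Module.finBasis F₁ F₂
  let v : Fin (Module.finrank F₁ F₂) → E₂ := fun i => φ₂ (β i)
  -- expansion
  have hexp : ∀ y : F₂, φ₂ y = ∑ i, φ₁ (β.repr y i) • v i := by
    intro y
    conv_lhs => rw [← β.sum_repr y]
    rw [map_sum]
    refine Finset.sum_congr rfl fun i _ => ?_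
    rw [Algebra.smul_def, map_mul, hcomm, Algebra.smul_def]
  have hv_span : ⊤ ≤ Submodule.span E₁ (Set.range v) := by
    rw [← hspan, Submodule.span_le]
    rintro _ ⟨y, rfl⟩
    rw [hexp y]
    exact Submodule.sum_mem _ fun i _ =>
      Submodule.smul_mem _ _ (Submodule.subset_span ⟨i, rfl⟩)
  have hcard : Fintype.card (Fin (Module.finrank F₁ F₂)) = Module.finrank E₁ E₂ := by
    rw [Fintype.card_fin, hrank]
  let B := basisOfTopLeSpanOfCardEqFinrank v hv_span hcard
  have hB : ∀ i, B i = v i := fun i => by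
    show basisOfTopLeSpanOfCardEqFinrank v hv_span hcard i = v i
    rw [coe_basisOfTopLeSpanOfCardEqFinrank]
  have hmat : Algebra.leftMulMatrix B (φ₂ x) = (Algebra.leftMulMatrix β x).map φ₁ := by
    ext i j
    rw [Algebra.leftMulMatrix_eq_repr_mul, Matrix.map_apply, Algebra.leftMulMatrix_eq_repr_mul]
    have h1 : φ₂ x * B j = ∑ k, φ₁ (β.repr (x * β j) k) • B k := by
      rw [hB, ← map_mul, hexp]
      refine Finset.sum_congr rfl fun k _ => ?_
      rw [hB]
    rw [h1, B.repr_sum_self]
  rw [Algebra.norm_eq_matrix_det B, Algebra.norm_eq_matrix_det β, hmat]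
  exact (RingHom.map_det φ₁ _).symm

end Gen

end H29NB

namespace H29NB

section Span

variable {K X : Type*} [Field K] [Field X] [Algebra K X] (S₀ : Set X)
  (E₂ : IntermediateField K X)
  {E₁ : Type*} [Field E₁] [Algebra E₁ ↥E₂] [Algebra.IsAlgebraic E₁ ↥E₂]

/-- a subring of `E₂ = K(S₀)` containing `S₀` spans `E₂` over any subfield `E₁ ⊇ K` over which
`E₂` is algebraic. -/
theorem span_eq_top_of_adjoin (hE₂ : E₂ = IntermediateField.adjoin K S₀)
    (hconst : ∀ c : K, ∃ e : E₁, algebraMap E₁ ↥E₂ e = algebraMap K ↥E₂ c)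
    (R : Subring ↥E₂)
    (hR : ∀ s (hs : s ∈ S₀), ∃ hs' : s ∈ E₂, (⟨s, hs'⟩ : ↥E₂) ∈ R) :
    Submodule.span E₁ (R : Set ↥E₂) = ⊤ := by
  let T : Subalgebra E₁ ↥E₂ := Algebra.adjoin E₁ (R : Set ↥E₂)
  have hT : Subalgebra.toSubmodule T = Submodule.span E₁ (R : Set ↥E₂) := by
    show Subalgebra.toSubmodule (Algebra.adjoin E₁ _) = _
    rw [Algebra.adjoin_eq_span]
    congr 1
    have : Submonoid.closure (R : Set ↥E₂) = R.toSubmonoid :=
      Submonoid.closure_eq R.toSubmonoid
    rw [this]
    rfl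
  have hmem : ∀ (z : X) (hz' : z ∈ IntermediateField.adjoin K S₀),
      ∃ hz : z ∈ E₂, (⟨z, hz⟩ : ↥E₂) ∈ T := by
    intro z hz'
    induction hz' using IntermediateField.adjoin_induction with
    | mem s hs =>
        obtain ⟨hs', hsR⟩ := hR s hs
        exact ⟨hs', Algebra.subset_adjoin hsR⟩
    | algebraMap c =>
        obtain ⟨e, he⟩ := hconst c
        refine ⟨E₂.algebraMap_mem c, ?_⟩
        have : (⟨algebraMap K X c, E₂.algebraMap_mem c⟩ : ↥E₂) = algebraMap E₁ ↥E₂ e := by
          rw [he]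
          rfl
        rw [this]
        exact T.algebraMap_mem e
    | add x y hx hy ihx ihy =>
        obtain ⟨hx', hxT⟩ := ihx
        obtain ⟨hy', hyT⟩ := ihy
        exact ⟨E₂.add_mem hx' hy', T.add_mem hxT hyT⟩
    | inv x hx ih =>
        obtain ⟨hx', hxT⟩ := ih
        refine ⟨E₂.inv_mem hx', ?_⟩
        have h1 := Subalgebra.inv_mem_of_algebraic (A := T) (x := ⟨⟨x, hx'⟩, hxT⟩)
          (Algebra.IsAlgebraic.isAlgebraic _)
        exact h1
    | mul x y hx hy ihx ihy =>
        obtain ⟨hx', hxT⟩ := ihx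
        obtain ⟨hy', hyT⟩ := ihy
        exact ⟨E₂.mul_mem hx' hy', T.mul_mem hxT hyT⟩
  rw [← hT, eq_top_iff]
  rintro ⟨z, hz⟩ -
  obtain ⟨_, h'⟩ := hmem z (hE₂ ▸ hz)
  exact h'

end Span

end H29NB


namespace H29NB

local notation "Qb" => AlgebraicClosure ℚ

section App

variable (L : IntermediateField ℚ Qb) (M q : ℕ) [NeZero M] [NeZero q]

/-- the image of `φ` spans `F̄_{N}` over any subfield `E₁ ⊇ ℚ̄` over which it is algebraic -/
theorem span_range_phi (N : ℕ) [NeZero N] {E₁ : Type*} [Field E₁]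
    [Algebra E₁ (modularFunctionFieldBar N)]
    [Algebra.IsAlgebraic E₁ (modularFunctionFieldBar N)]
    (hconst : ∀ c : Qb, ∃ e : E₁, algebraMap E₁ (modularFunctionFieldBar N) e =
      algebraMap Qb (modularFunctionFieldBar N) c) :
    Submodule.span E₁ (Set.range (phi N L)) = ⊤ := by
  have h := span_eq_top_of_adjoin (K := Qb) (X := LaurentSeries Qb)
    (⇑(coeffEmb Qb) '' ((modularFunctionFieldFull N : IntermediateField ℚ (LaurentSeries ℚ)) :
      Set (LaurentSeries ℚ))) (modularFunctionFieldBar N) (E₁ := E₁) rfl hconst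
    (phi N L).range (by
      rintro _ ⟨y, hy, rfl⟩
      refine ⟨coeffEmb_mem_laurentBaseChange Qb hy,
        ⟨coeffEmb L y, coeffEmb_mem_laurentBaseChange L hy⟩, ?_⟩
      apply Subtype.ext
      rw [phi_coe]
      exact H1S18.coeffMap_coeffEmb_hom (algebraMap L Qb) y)
  rw [← RingHom.coe_range]
  exact h

/-- **`φ ∘ N_α = N_α ∘ φ`** at the levels `(M q q, M q)` -/
theorem phi_normAK (hq : q.Prime) (x : FK L (M * q * q)) :
    phi (M * q) L (H13N3.normAK L M q x) = H17FW.normA (M * q) q (phi (M * q * q) L x) := by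
  letI a₁ := algebraAlong (heckeAlphaBar L (M * q) q)
  letI a₂ := algebraAlong (heckeAlphaBar Qb (M * q) q)
  haveI : FiniteDimensional (FK L (M * q)) (FK L (M * q * q)) := by
    apply Module.finite_of_finrank_pos
    rw [H13N3.finrank_alphaK L (M * q) q hq (dvd_mul_left q M)]
    exact hq.pos
  haveI : FiniteDimensional (modularFunctionFieldBar (M * q))
      (modularFunctionFieldBar (M * q * q)) :=
    H13N3.finiteDimensional_alpha_dvd (M * q) q hq (dvd_mul_left q M)
  have h := norm_map_of_span (F₁ := FK L (M * q)) (F₂ := FK L (M * q * q))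
    (E₁ := modularFunctionFieldBar (M * q)) (E₂ := modularFunctionFieldBar (M * q * q))
    (phi (M * q) L) (phi (M * q * q) L)
    (fun y => by
      apply Subtype.ext
      show ((phi (M * q * q) L (heckeAlphaBar L (M * q) q y) :
        modularFunctionFieldBar (M * q * q)) : LaurentSeries Qb) =
        ((heckeAlphaBar Qb (M * q) q (phi (M * q) L y) :
          modularFunctionFieldBar (M * q * q)) : LaurentSeries Qb)
      rw [phi_coe, coe_heckeAlphaBar, coe_heckeAlphaBar, phi_coe])
    (by
      rw [H13N3.finrank_alphaK L (M * q) q hq (dvd_mul_left q M)]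
      exact H13N3.finrank_alpha_dvd (M * q) q hq (dvd_mul_left q M))
    (span_range_phi L (M * q * q) (fun c => ⟨algebraMap Qb _ c,
      (heckeAlphaBar Qb (M * q) q).commutes c⟩)) x
  exact h.symm

/-- **`φ ∘ N_β = N_β ∘ φ`** at the levels `(M q q, M q)` -/
theorem phi_normBK (hq : q.Prime) (hqM : ¬ q ∣ M) (x : FK L (M * q * q)) :
    phi (M * q) L (H13N3.normBK L M q x) = H17FW.normB (M * q) q (phi (M * q * q) L x) := by
  letI a₁ := algebraAlong (heckeBetaBar L (M * q) q)
  letI a₂ := algebraAlong (heckeBetaBar Qb (M * q) q)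
  haveI : FiniteDimensional (FK L (M * q)) (FK L (M * q * q)) := by
    apply Module.finite_of_finrank_pos
    rw [H13N3.finrank_betaK L M q hq hqM]
    exact hq.pos
  haveI : FiniteDimensional (modularFunctionFieldBar (M * q))
      (modularFunctionFieldBar (M * q * q)) :=
    H13N3.finiteDimensional_beta_sq M q hq hqM
  have h := norm_map_of_span (F₁ := FK L (M * q)) (F₂ := FK L (M * q * q))
    (E₁ := modularFunctionFieldBar (M * q)) (E₂ := modularFunctionFieldBar (M * q * q))
    (phi (M * q) L) (phi (M * q * q) L)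
    (fun y => by
      apply Subtype.ext
      show ((phi (M * q * q) L (heckeBetaBar L (M * q) q y) :
        modularFunctionFieldBar (M * q * q)) : LaurentSeries Qb) =
        ((heckeBetaBar Qb (M * q) q (phi (M * q) L y) :
          modularFunctionFieldBar (M * q * q)) : LaurentSeries Qb)
      rw [phi_coe, coe_heckeBetaBar, coe_heckeBetaBar, phi_coe]
      exact coeffMap_qExpand _ _ _)
    (by
      rw [H13N3.finrank_betaK L M q hq hqM]
      exact H13N3.finrank_beta_sq M q hq hqM)
    (span_range_phi L (M * q * q) (fun c => ⟨algebraMap Qb _ c,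
      (heckeBetaBar Qb (M * q) q).commutes c⟩)) x
  exact h.symm

end App

end H29NB

end
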