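import Mathlib
import Fermat.Agent.S36.ConstUnr_helper29
import Fermat.Agent.S36.NormBC_helper29
import Fermat.Agent.S36.InjUDefs_helper4

/-!
# Item 86 (S36), slice (DESC3) (helper29): from the `L`-level form of (INJ) to the `ℚ̄`-level form

* `H29D3.exists_const_pow`: `y ∈ F_L(M)`, `φ y = hⁿ` with `h ∈ F_{ℚ̄}(M)` ⟹ `y = c Gⁿ` with
  `c ∈ Lˣ`, `G ∈ F_L(M)` (normalise the leading coefficient of `h`, `H29DU.coeff_mem_of_pow_lc`).
* `H29D3.desc3_core : InjCoreAt N' q c n L → InjFieldCoreAt N' q c n L` (`L` a number field):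
  places by `H29CU.exists_place_over` (`ε = 1`), norms by `H29NB.phi_normAK/BK` and
  `exists_const_pow`, conclusion by an `n`-th root of the constant in `ℚ̄`.
* `H29D3.injFieldUAt_of_injUAt : InjUAt N' q c → InjFieldUAt N' q c`.
-/

set_option autoImplicit false
set_option synthInstance.maxHeartbeats 400000
set_option maxHeartbeats 1000000
set_option linter.style.haveILetI false
set_option linter.style.longLine false
set_option linter.unusedSectionVars false
set_option linter.unusedVariables false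

noncomputable section

open H11W3G ModularCurve AlgebraicCurve H7S18 H28GV H29R2M

namespace H29D3

local notation "Qb" => AlgebraicClosure ℚ

section Const

variable (M : ℕ) [NeZero M] (L : IntermediateField ℚ Qb)

attribute [local instance] algFF towKF algFFalg algKL

theorem phi_algebraMap (c : L) :
    phi M L (algebraMap L (FK L M) c) = algebraMap Qb (FK Qb M) (algebraMap L Qb c) := by
  rw [← algebraMap_FF, ← IsScalarTower.algebraMap_apply L (FK L M) (FK Qb M),
    IsScalarTower.algebraMap_apply L Qb (FK Qb M)]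

/-- a function over `L` which is an `n`-th power over `ℚ̄` is a constant times an `n`-th power
over `L`. -/
theorem exists_const_pow (n : ℕ) (hn : 0 < n) (y : FK L M) (hy : y ≠ 0)
    (h : modularFunctionFieldBar M) (hh : phi M L y = h ^ n) :
    ∃ (c : L) (G : FK L M), c ≠ 0 ∧ G ≠ 0 ∧ y = algebraMap L (FK L M) c * G ^ n := by
  have hφy0 : phi M L y ≠ 0 := fun h0 => hy ((phi M L).injective (by rw [h0, map_zero]))
  have hh0 : h ≠ 0 := by
    rintro rfl
    rw [zero_pow hn.ne'] at hh
    exact hφy0 hh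
  set a : Qb := H29DU.lc (modularFunctionFieldFull M) h with ha
  have ha0 : a ≠ 0 := H29DU.lc_ne_zero _ hh0
  set c : L := H29DU.lc (modularFunctionFieldFull M) y with hc
  have hc0 : c ≠ 0 := H29DU.lc_ne_zero _ hy
  have hca : algebraMap L Qb c = a ^ n := by
    rw [hc, ← H29DU.lc_phi, hh, H29DU.lc_pow]
  set h' : modularFunctionFieldBar M := algebraMap Qb (modularFunctionFieldBar M) a⁻¹ * h
    with hh'
  have hlc' : H29DU.lc (modularFunctionFieldFull M) h' = 1 := by
    rw [hh', H29DU.lc_mul, H29DU.lc_algebraMap, ← ha, inv_mul_cancel₀ ha0]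
  set y' : FK L M := algebraMap L (FK L M) c⁻¹ * y with hy'
  have hpow : h' ^ n = phi M L y' := by
    rw [hy', map_mul, phi_algebraMap, hh, hh', mul_pow, ← map_pow, map_inv₀, hca, inv_pow]
  have hcoef : ∀ j, (h' : LaurentSeries Qb).coeff j ∈ L := by
    intro j
    exact H29DU.coeff_mem_of_pow_lc (K := Qb) L.toSubfield hn (h' : LaurentSeries Qb)
      ((phi M L y' : modularFunctionFieldBar M) : LaurentSeries Qb)
      (by
        rw [← hpow]
        rfl)
      (fun i => by
        rw [phi_coe, coeffMap_coeff]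
        exact (_ : L).2)
      (by
        have : (h' : LaurentSeries Qb).leadingCoeff = 1 := hlc'
        rw [this]
        exact one_mem _) j
  obtain ⟨G, hG⟩ := H29DU.exists_phi_eq M L h' hcoef
  have hG0 : G ≠ 0 := by
    rintro rfl
    rw [map_zero] at hG
    rw [← hG, H29DU.lc_zero] at hlc'
    exact zero_ne_one hlc'
  refine ⟨c, G, hc0, hG0, ?_⟩
  apply (phi M L).injective
  rw [map_mul, map_pow, hG, hpow, hy', ← map_mul, ← mul_assoc, ← map_mul,
    mul_inv_cancel₀ hc0, map_one, one_mul]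

end Const

section Main

variable (N' q : ℕ) [NeZero N'] [NeZero q] [NeZero (N' * q)] [NeZero (N' * q * q)]

/-- **(DESC3) at one number field `L`**. -/
theorem desc3_core (hq : q.Prime) (hqN' : ¬ q ∣ N') (c n : ℕ) (hn : 0 < n)
    (L : IntermediateField ℚ Qb) [FiniteDimensional ℚ L]
    (hcore : H4S36.InjCoreAt N' q c n L) : H4S36.InjFieldCoreAt N' q c n L := by
  intro f₁ hf₁0 hord hα hβ
  have hV : ∀ V : Place L (FK L (N' * q * q)), (n : ℤ) ∣ V.ord f₁ := by
    intro V
    obtain ⟨W, hW⟩ := H29CU.exists_place_over (N' * q * q) L V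
    rw [← hW f₁]
    exact hord W
  have hNA : H4S36.NormPow (K := L) (H4S36.normAKH L N' q) n f₁ := by
    obtain ⟨h, hh⟩ := hα
    have h0 : H4S36.normAKH L N' q f₁ ≠ 0 :=
      ((isUnit_iff_ne_zero.2 hf₁0).map (H4S36.normAKH L N' q)).ne_zero
    have e : phi (N' * q) L (H4S36.normAKH L N' q f₁) = h ^ n := by
      rw [H4S36.normAKH_apply, H29NB.phi_normAK L N' q hq f₁, hh]
    exact exists_const_pow (N' * q) L n hn _ h0 h e
  have hNB : H4S36.NormPow (K := L) (H4S36.normBKH L N' q) n f₁ := by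
    obtain ⟨h, hh⟩ := hβ
    have h0 : H4S36.normBKH L N' q f₁ ≠ 0 :=
      ((isUnit_iff_ne_zero.2 hf₁0).map (H4S36.normBKH L N' q)).ne_zero
    have e : phi (N' * q) L (H4S36.normBKH L N' q f₁) = h ^ n := by
      rw [H4S36.normBKH_apply, H29NB.phi_normBK L N' q hq hqN' f₁, hh]
    exact exists_const_pow (N' * q) L n hn _ h0 h e
  obtain ⟨c', g, hc', hg, e⟩ := hcore f₁ hf₁0 hV hNA hNB
  obtain ⟨r, hr⟩ := IsAlgClosed.exists_pow_nat_eq (algebraMap L Qb c') hn
  refine ⟨algebraMap Qb (modularFunctionFieldBar (N' * q * q)) r * phi (N' * q * q) L g, ?_⟩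
  have e1 : (phi (N' * q * q) L f₁) ^ c =
      algebraMap Qb (FK Qb (N' * q * q)) (algebraMap L Qb c') * (phi (N' * q * q) L g) ^ n := by
    rw [← map_pow, e, map_mul, phi_algebraMap, map_pow]
  rw [e1, mul_pow, ← hr, map_pow]

/-- **(DESC3)**, `U`-form: the `L`-level form of (INJ) at the unramified parts gives the
`ℚ̄`-level form. -/
theorem injFieldUAt_of_injUAt (hq : q.Prime) (hqN' : ¬ q ∣ N') (c : ℕ)
    (h : H4S36.InjUAt N' q c) : H4S36.InjFieldUAt N' q c := by
  intro A hA n hn hqn
  obtain ⟨K₀, hK₀, hmain⟩ := h A hA n hn hqn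
  refine ⟨K₀, hK₀, fun K₁ hK₁ hnor hle hζ => ?_⟩
  haveI := hK₁
  exact desc3_core N' q hq hqN' c n hn _ (hmain K₁ hK₁ hnor hle hζ)

end Main

end H29D3

end
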