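import Mathlib
import Fermat.Agent.S36.Chain_helper4
import Fermat.Agent.S36.Desc3_helper29

/-!
# Item 86 (S36), (DESC3) plugged into the middle chain (helper29)

`H29D3.injStatement_of_triple : H4S36.TripleUStatement → H16S36.InjStatement`:
helper4's `H4S36.injStatement_of_leaves` with (DESC3) discharged by
`H29D3.injFieldUAt_of_injUAt` (which uses `q.Prime`, `¬ q ∣ M`, available in the chain).
-/

set_option autoImplicit false
set_option linter.style.longLine false
set_option linter.style.haveILetI false
set_option synthInstance.maxHeartbeats 400000
set_option maxHeartbeats 1000000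

noncomputable section

open IntermediateField AlgebraicCurve ModularCurve H7S18

namespace H29D3

/-- **the middle chain with (DESC3) discharged**: (INJ) from the concrete leaf. -/
theorem injStatement_of_triple (hT : H4S36.TripleUStatement) : H16S36.InjStatement :=
  H11IJ.injStatement_of_field
    (H28LC.injFieldStatement_of_rigidTame (fun M q _ _ _ _ hq hqM hRT =>
      ⟨(q + 1) * ((q ^ 2 - 1) * (q ^ 2 - 1)), H4S36.chain_const_pos hq,
        H4S36.injFieldAt_of_U M q _ (injFieldUAt_of_injUAt M q hq hqM _
          (H4S36.injUAt_of H1IG.injGenStatement M q hq hRT.2.1 (hT M q hq hqM hRT)))⟩))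

end H29D3

end
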