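import Mathlib
import Fermat.Agent.S36.InjUAsm_helper4

/-!
# Item 86 (S36, Carayol), architect file (helper4): tools for the final glue (`U`-forms)

* `exists_field_with_root m` : a number field `K₀ ⊆ ℚ̄` such that every `K₁ ⊇ K₀` contains a
  primitive `m`-th root of unity;
* `uForm_of_forall m` : to prove `UForm q P` one may assume that `K₁` (finite, normal) contains a
  primitive `m`-th root of unity (`m` of one's choice, e.g. `m = q · e₀ · N'`);
* `uForm_and` : conjunction of two `U`-forms;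
* `exists_primitiveRoot_of_mul` : `ζ_{a b} ∈ K ⟹ ζ_a ∈ K`.
-/

set_option autoImplicit false
set_option linter.style.haveILetI false
set_option linter.style.longLine false

noncomputable section

open IntermediateField

namespace H4S36

local notation "Qb" => AlgebraicClosure ℚ

/-- a number field containing a primitive `m`-th root of unity -/
theorem exists_field_with_root (m : ℕ) (hm : 0 < m) :
    ∃ (K₀ : IntermediateField ℚ Qb) (_ : FiniteDimensional ℚ K₀),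
      ∀ K₁ : IntermediateField ℚ Qb, K₀ ≤ K₁ → ∃ ζ : K₁, IsPrimitiveRoot ζ m := by
  haveI : NeZero m := ⟨hm.ne'⟩
  obtain ⟨ζ, hζ⟩ := HasEnoughRootsOfUnity.exists_primitiveRoot Qb m
  have hint : IsIntegral ℚ ζ := (hζ.isIntegral hm).tower_top
  refine ⟨ℚ⟮ζ⟯, IntermediateField.adjoin.finiteDimensional hint, ?_⟩
  intro K₁ hle
  have hmem : ζ ∈ K₁ := hle (IntermediateField.mem_adjoin_simple_self ℚ ζ)
  exact ⟨⟨ζ, hmem⟩, IsPrimitiveRoot.of_map_of_injective (f := K₁.val) (by exact hζ)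
    Subtype.val_injective⟩

/-- `ζ_{a b} ∈ K ⟹ ζ_a ∈ K` -/
theorem exists_primitiveRoot_of_mul {K : Type*} [CommMonoid K] {a b : ℕ} (hb : 0 < b)
    (h : ∃ ζ : K, IsPrimitiveRoot ζ (a * b)) : ∃ ζ : K, IsPrimitiveRoot ζ a := by
  obtain ⟨ζ, hζ⟩ := h
  by_cases ha : a = 0
  · subst ha
    rw [zero_mul] at hζ
    exact ⟨ζ, hζ⟩
  · exact ⟨ζ ^ b, hζ.pow (Nat.mul_pos (Nat.pos_of_ne_zero ha) hb) (mul_comm a b)⟩

/-- to prove a `U`-form one may assume `ζ_m ∈ K₁`. -/
theorem uForm_of_forall {q : ℕ}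
    {P : ValuationSubring Qb → ℕ → IntermediateField ℚ Qb → Prop} (m : ℕ) (hm : 0 < m)
    (h : ∀ A : ValuationSubring Qb, A.LiesOverPrime q → ∀ n : ℕ, 0 < n → ¬ q ∣ n →
      ∀ (K₁ : IntermediateField ℚ Qb) (_ : FiniteDimensional ℚ K₁), Normal ℚ K₁ →
        (∃ ζ : K₁, IsPrimitiveRoot ζ n) → (∃ ζ : K₁, IsPrimitiveRoot ζ m) →
        P A n (H29DU.unrPart A K₁)) : UForm q P := by
  intro A hA n hn hqn
  obtain ⟨K₀, hK₀, hroot⟩ := exists_field_with_root m hm
  exact ⟨K₀, hK₀, fun K₁ hK₁ hnor hle hζ => h A hA n hn hqn K₁ hK₁ hnor hζ (hroot K₁ hle)⟩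

/-- conjunction of two `U`-forms -/
theorem uForm_and {q : ℕ} {P Q : ValuationSubring Qb → ℕ → IntermediateField ℚ Qb → Prop}
    (hP : UForm q P) (hQ : UForm q Q) : UForm q (fun A n L => P A n L ∧ Q A n L) := by
  intro A hA n hn hqn
  obtain ⟨K₀, hK₀, h1⟩ := hP A hA n hn hqn
  obtain ⟨K₀', hK₀', h2⟩ := hQ A hA n hn hqn
  haveI := hK₀
  haveI := hK₀'
  refine ⟨K₀ ⊔ K₀', IntermediateField.finiteDimensional_sup K₀ K₀', ?_⟩
  intro K₁ hK₁ hnor hle hζ
  exact ⟨h1 K₁ hK₁ hnor (le_sup_left.trans hle) hζ, h2 K₁ hK₁ hnor (le_sup_right.trans hle) hζ⟩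

end H4S36

end
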