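import Fermat.Agent.S36.NormKF_helper13

/-!
# Item 86 (S36), slice (NORM), part 7 (helper13): norms of constants and of level-`M q` elements

* `H13N3.normAK_alpha` : `N_α (α y) = y ^ q`;  `H13N3.normBK_beta` : `N_β (β y) = y ^ q`;
* `H13N3.normAK_const`, `H13N3.normBK_const` : `N (c) = c ^ q` for constants `c ∈ K₁`
  (fields `hNαc`, `hNβc` of `H4S36.Triple`);
* `H13N3.normAKHom`, `H13N3.normBKHom` : the norms as monoid homomorphisms.
-/

set_option autoImplicit false
set_option linter.style.haveILetI false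
set_option linter.unusedSectionVars false
set_option linter.unusedVariables false
set_option synthInstance.maxHeartbeats 400000
set_option maxHeartbeats 1600000

noncomputable section

open AlgebraicCurve IntermediateField
open ModularCurve RH24 H28S28 HahnSeries H7S18

namespace H13N3

variable (K₁ : IntermediateField ℚ Kbar) (M q : ℕ) [NeZero M] [NeZero q]

/-- the norm along `α` as a monoid homomorphism -/
def normAKHom : FK ↥K₁ (M * q * q) →* FK ↥K₁ (M * q) :=
  letI := algebraAlong (heckeAlphaBar ↥K₁ (M * q) q)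
  Algebra.norm (FK ↥K₁ (M * q))

/-- the norm along `β` as a monoid homomorphism -/
def normBKHom : FK ↥K₁ (M * q * q) →* FK ↥K₁ (M * q) :=
  letI := algebraAlong (heckeBetaBar ↥K₁ (M * q) q)
  Algebra.norm (FK ↥K₁ (M * q))

theorem normAKHom_apply (x : FK ↥K₁ (M * q * q)) : normAKHom K₁ M q x = normAK K₁ M q x := rfl

theorem normBKHom_apply (x : FK ↥K₁ (M * q * q)) : normBKHom K₁ M q x = normBK K₁ M q x := rfl

/-- `N_α (α y) = y ^ q`. -/
theorem normAK_alpha (hq : q.Prime) (y : FK ↥K₁ (M * q)) :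
    normAK K₁ M q (heckeAlphaBar ↥K₁ (M * q) q y) = y ^ q := by
  letI := algebraAlong (heckeAlphaBar ↥K₁ (M * q) q)
  have h := Algebra.norm_algebraMap (S := FK ↥K₁ (M * q * q)) y
  rw [finrank_alphaK ↥K₁ (M * q) q hq (dvd_mul_left q M)] at h
  exact h

/-- `N_β (β y) = y ^ q`. -/
theorem normBK_beta (hq : q.Prime) (hqM : ¬ q ∣ M) (y : FK ↥K₁ (M * q)) :
    normBK K₁ M q (heckeBetaBar ↥K₁ (M * q) q y) = y ^ q := by
  letI := algebraAlong (heckeBetaBar ↥K₁ (M * q) q)
  have h := Algebra.norm_algebraMap (S := FK ↥K₁ (M * q * q)) y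
  rw [finrank_betaK K₁ M q hq hqM] at h
  exact h

/-- **field `hNαc`**: the norm of a constant is its `q`-th power. -/
theorem normAK_const (hq : q.Prime) (c : ↥K₁) :
    normAK K₁ M q (algebraMap ↥K₁ (FK ↥K₁ (M * q * q)) c) =
      algebraMap ↥K₁ (FK ↥K₁ (M * q)) c ^ q := by
  rw [← normAK_alpha K₁ M q hq, AlgHom.commutes]

/-- **field `hNβc`**: the norm of a constant is its `q`-th power. -/
theorem normBK_const (hq : q.Prime) (hqM : ¬ q ∣ M) (c : ↥K₁) :
    normBK K₁ M q (algebraMap ↥K₁ (FK ↥K₁ (M * q * q)) c) =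
      algebraMap ↥K₁ (FK ↥K₁ (M * q)) c ^ q := by
  rw [← normBK_beta K₁ M q hq hqM, AlgHom.commutes]

theorem normAK_mul (x y : FK ↥K₁ (M * q * q)) :
    normAK K₁ M q (x * y) = normAK K₁ M q x * normAK K₁ M q y :=
  map_mul (normAKHom K₁ M q) x y

theorem normBK_mul (x y : FK ↥K₁ (M * q * q)) :
    normBK K₁ M q (x * y) = normBK K₁ M q x * normBK K₁ M q y :=
  map_mul (normBKHom K₁ M q) x y

theorem normAK_natCast (hq : q.Prime) (n : ℕ) :
    normAK K₁ M q (n : FK ↥K₁ (M * q * q)) = (n : FK ↥K₁ (M * q)) ^ q := by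
  have h := normAK_const K₁ M q hq (n : ↥K₁)
  rwa [map_natCast, map_natCast] at h

theorem normBK_natCast (hq : q.Prime) (hqM : ¬ q ∣ M) (n : ℕ) :
    normBK K₁ M q (n : FK ↥K₁ (M * q * q)) = (n : FK ↥K₁ (M * q)) ^ q := by
  have h := normBK_const K₁ M q hq hqM (n : ↥K₁)
  rwa [map_natCast, map_natCast] at h

end H13N3

end
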