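/-
helper9: item 86 (S36), slice (CU3): residue degree one of the first Gauss valuation `w₁` of
`F₁(M q²)` over the level `M`.

* `H9CU.resdeg_tower` (generic): if `θ ≡ a` modulo `𝔪_{w₁}` with `a` of the lower level `F` and
  the coefficients `c_k` are congruent to elements of `F`, then so is `Σ c_k θ^k`;
* `H9CU.kron2_inGm` : `j(𝐪^{q²}) ≡ j^{q²}` modulo `𝔪_{w₁}`;
* `H9CU.resDegOne2` : an element `x = Σ_{k<q} c_k J₂^k` of `F₁(M q²)` whose coordinates
  `c_k ∈ F₁(M q)` lie in both Gauss rings of level `M q` is congruent modulo `𝔪_{w₁}` to an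
  element of level `M` of the Gauss ring.   [`H8PB.h8pb_resDegOne` for the `c_k`.]
-/
import Mathlib
import Fermat.Agent.S34.ResDeg1_helper8
import Fermat.Agent.S34.DichComp_helper22

set_option autoImplicit false
set_option synthInstance.maxHeartbeats 400000
set_option maxHeartbeats 1000000
set_option linter.unusedSectionVars false
set_option linter.unusedVariables false
set_option linter.style.haveILetI false

noncomputable section

open ModularCurve HahnSeries H28GV H7S18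

namespace H9CU

section tower

variable {K : Type} [Field K] (R : ValuationSubring K)

/-- `InGm` from a vanishing reduction -/
theorem inGm_of_red {x : LaurentSeries K} (h : x ∈ gvO R (H22DC.resR R))
    (h0 : gvRed R (H22DC.resR R) ⟨x, h⟩ = 0) : H8PB.InGm R x :=
  (H22DC.inGm_iff R x).mpr ⟨h, h0⟩

/-- two elements of the Gauss ring with the same reduction are congruent -/
theorem inGm_sub_of_red_eq {x z : LaurentSeries K} (hx : x ∈ gvO R (H22DC.resR R))
    (hz : z ∈ gvO R (H22DC.resR R))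
    (h : gvRed R (H22DC.resR R) ⟨x, hx⟩ = gvRed R (H22DC.resR R) ⟨z, hz⟩) :
    H8PB.InGm R (x - z) := by
  refine inGm_of_red R ((gvO R (H22DC.resR R)).sub_mem hx hz) ?_
  have e : (⟨x - z, (gvO R (H22DC.resR R)).sub_mem hx hz⟩ : ↥(gvO R (H22DC.resR R))) =
      ⟨x, hx⟩ - ⟨z, hz⟩ := rfl
  rw [e, map_sub, h, sub_self]

/-- a congruence in the Gauss ring: membership and equality of the reductions -/
theorem red_eq_of_inGm_sub {x z : LaurentSeries K} (hz : z ∈ gvO R (H22DC.resR R))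
    (h : H8PB.InGm R (x - z)) :
    ∃ hx : x ∈ gvO R (H22DC.resR R),
      gvRed R (H22DC.resR R) ⟨x, hx⟩ = gvRed R (H22DC.resR R) ⟨z, hz⟩ := by
  obtain ⟨h1, h2⟩ := (H22DC.inGm_iff R _).mp h
  have hx : x ∈ gvO R (H22DC.resR R) := by
    have : x = (x - z) + z := by ring
    rw [this]
    exact (gvO R (H22DC.resR R)).add_mem h1 hz
  refine ⟨hx, ?_⟩
  have e : (⟨x - z, h1⟩ : ↥(gvO R (H22DC.resR R))) = ⟨x, hx⟩ - ⟨z, hz⟩ := rfl
  rw [e, map_sub, sub_eq_zero] at h2
  exact h2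

/-- **tower step of the residue degree one** -/
theorem resdeg_tower (F : IntermediateField K (LaurentSeries K))
    (θ a : LaurentSeries K) (haF : a ∈ F) (haG : H8PB.InG R a) (hθa : H8PB.InGm R (θ - a))
    (q : ℕ) (cf : ℕ → LaurentSeries K)
    (hcf : ∀ k, ∃ z : LaurentSeries K, z ∈ F ∧ H8PB.InG R z ∧ H8PB.InGm R (cf k - z)) :
    ∃ z : LaurentSeries K, z ∈ F ∧ H8PB.InG R z ∧
      H8PB.InGm R ((∑ k ∈ Finset.range q, cf k * θ ^ k) - z) := by
  classical
  choose z hzF hzG hzm using hcf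
  have haO : a ∈ gvO R (H22DC.resR R) := (H22DC.inG_iff R a).mp haG
  have hzO : ∀ k, z k ∈ gvO R (H22DC.resR R) := fun k => (H22DC.inG_iff R _).mp (hzG k)
  obtain ⟨hθO, hθr⟩ := red_eq_of_inGm_sub R haO hθa
  have hc := fun k => red_eq_of_inGm_sub R (hzO k) (hzm k)
  choose hcO hcr using hc
  set Z : LaurentSeries K := ∑ k ∈ Finset.range q, z k * a ^ k with hZ
  have hZO : Z ∈ gvO R (H22DC.resR R) :=
    Subring.sum_mem _ (fun k _ => Subring.mul_mem _ (hzO k) (Subring.pow_mem _ haO _))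
  have hXO : (∑ k ∈ Finset.range q, cf k * θ ^ k) ∈ gvO R (H22DC.resR R) :=
    Subring.sum_mem _ (fun k _ => Subring.mul_mem _ (hcO k) (Subring.pow_mem _ hθO _))
  refine ⟨Z, sum_mem (fun k _ => mul_mem (hzF k) (pow_mem haF _)),
    (H22DC.inG_iff R Z).mpr hZO, inGm_sub_of_red_eq R hXO hZO ?_⟩
  have e1 : (⟨_, hXO⟩ : ↥(gvO R (H22DC.resR R))) =
      ∑ k ∈ Finset.range q, (⟨cf k, hcO k⟩ : ↥(gvO R (H22DC.resR R))) * ⟨θ, hθO⟩ ^ k := by
    apply Subtype.ext
    push_cast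
    rfl
  have e2 : (⟨Z, hZO⟩ : ↥(gvO R (H22DC.resR R))) =
      ∑ k ∈ Finset.range q, (⟨z k, hzO k⟩ : ↥(gvO R (H22DC.resR R))) * ⟨a, haO⟩ ^ k := by
    apply Subtype.ext
    push_cast
    rfl
  rw [e1, e2, map_sum, map_sum]
  refine Finset.sum_congr rfl (fun k _ => ?_)
  rw [map_mul, map_mul, map_pow, map_pow, hcr k, hθr]

end tower

section kron

variable (K₁ : IntermediateField ℚ RH24.Kbar) (R : ValuationSubring ↥K₁)
variable (q : ℕ) [NeZero q] [CharP (IsLocalRing.ResidueField ↥R) q]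

/-- Kronecker twice: `ρ (j(𝐪^{q²}) − j^{q²}) = 0` -/
theorem kron2_red (hq : q.Prime) :
    gvRho R (IsLocalRing.residue ↥R)
      (qExpand ↥R (q * q) (jqModC ↥R) - (jqModC ↥R) ^ (q * q)) = 0 := by
  haveI : Fact q.Prime := ⟨hq⟩
  have h1 : gvRho R (IsLocalRing.residue ↥R) (qExpand ↥R (q * q) (jqModC ↥R)) =
      qExpand (IsLocalRing.ResidueField ↥R) (q * q) (jqModC (IsLocalRing.ResidueField ↥R)) := by
    rw [← H8PB.h8pb_rho_jq R (IsLocalRing.residue ↥R)]
    exact coeffMap_qExpand _ _ _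
  rw [map_sub, map_pow, h1, H8PB.h8pb_rho_jq, ← qExpand_qExpand,
    H8PB.h8pb_kronecker (IsLocalRing.ResidueField ↥R) q, map_pow,
    H8PB.h8pb_kronecker (IsLocalRing.ResidueField ↥R) q, ← pow_mul, sub_self]

/-- `j(𝐪^{q²}) ≡ j^{q²}` modulo `𝔪_{w₁}` -/
theorem kron2_inGm (hq : q.Prime) :
    H8PB.InGm R (qExpand ↥K₁ (q * q) (jqModC ↥K₁) - (jqModC ↥K₁) ^ (q * q)) := by
  have e : qExpand ↥K₁ (q * q) (jqModC ↥K₁) - (jqModC ↥K₁) ^ (q * q) =
      gvEps R (qExpand ↥R (q * q) (jqModC ↥R) - (jqModC ↥R) ^ (q * q)) := by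
    rw [map_sub, map_pow, H8PB.h8pb_eps_jq]
    congr 1
    rw [← H8PB.h8pb_eps_jq K₁ R]
    exact (coeffMap_qExpand _ _ _).symm
  rw [e]
  refine inGm_of_red R (gvEps_mem_gvO R _ _) ?_
  rw [gvRed_eps]
  exact kron2_red K₁ R q hq

end kron

/-- **residue degree one of `w₁` at the level `M q²`**: an element with coordinates in both
Gauss rings of level `M q` is congruent modulo `𝔪_{w₁}` to an element of level `M`. -/
theorem resDegOne2 (M : ℕ) [NeZero M] (q : ℕ) [NeZero q] (hq : q.Prime) (hqM : ¬ q ∣ M)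
    (hT : TameLevel q M)
    (A : ValuationSubring (AlgebraicClosure ℚ)) (hA : A.LiesOverPrime q)
    (K₁ : IntermediateField ℚ (AlgebraicClosure ℚ)) (hfin : FiniteDimensional ℚ K₁)
    (cf : ℕ → FK K₁ (M * q))
    (hcf : ∀ k, H8PB.InG (descVal A K₁) ((cf k : FK K₁ (M * q)) : LaurentSeries K₁) ∧
      H8PB.InG (descVal A K₁)
        ((H12AL.wqKHom K₁ M q hq hqM (cf k) : FK K₁ (M * q)) : LaurentSeries K₁)) :
    ∃ z : LaurentSeries K₁, z ∈ laurentBaseChange K₁ (modularFunctionFieldFull M) ∧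
      H8PB.InG (descVal A K₁) z ∧
      H8PB.InGm (descVal A K₁)
        ((∑ k ∈ Finset.range q, ((cf k : FK K₁ (M * q)) : LaurentSeries K₁) *
          (qExpand K₁ (q * q) (jqModC K₁)) ^ k) - z) := by
  haveI hqF : Fact q.Prime := ⟨hq⟩
  obtain ⟨hperf, hcharp⟩ := H1S18.c7Perfect q A hA K₁
  haveI := hcharp
  have hjM : jqModC ↥K₁ ∈ laurentBaseChange K₁ (modularFunctionFieldFull M) :=
    gv_mem_base_of_full M (jqModC_mem_full ↥K₁ M)
  have hjG : H8PB.InG (descVal A K₁) (jqModC ↥K₁) := by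
    rw [H22DC.inG_iff, ← H8PB.h8pb_eps_jq K₁ (descVal A K₁)]
    exact gvEps_mem_gvO _ _ _
  have haG : H8PB.InG (descVal A K₁) ((jqModC ↥K₁) ^ (q * q)) := by
    rw [H22DC.inG_iff] at hjG ⊢
    exact Subring.pow_mem _ hjG _
  exact resdeg_tower (descVal A K₁) (laurentBaseChange K₁ (modularFunctionFieldFull M))
    (qExpand K₁ (q * q) (jqModC K₁)) ((jqModC ↥K₁) ^ (q * q)) (pow_mem hjM _) haG
    (kron2_inGm K₁ (descVal A K₁) q hq) q
    (fun k => ((cf k : FK K₁ (M * q)) : LaurentSeries K₁))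
    (fun k => H8PB.h8pb_resDegOne M q hq hqM hT A hA K₁ hfin (cf k) (hcf k).1 (hcf k).2)

end H9CU

end
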