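/-
helper9: item 86 (S36), slice (CU3): uniformizers on the first component `C₁` of the special
fibre at the level `L = M q²` (`hunif` of the lemma (R2), `H26R2.l1At_R2`).

Generic part (`K` a field of characteristic zero, `R ⊆ K` a DVR, `F ≤ E` intermediate fields of
`K((𝐪)) / K`, `t ∈ E` transcendental, `c = t` or `t⁻¹`, `M₀ = H4S34.Chart R c`):

* `H9CU.gint_of_chart`   : the elements of `M₀` are Gauss-integral;
* `H9CU.comp_inter_gen`  : `P₁ ∩ R[c] ⊆ ϖ R[c]` as soon as `GInt x → InG x`;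
* `H9CU.unif_sq_gen`     : uniformizers of `(M₀ / P₁)_𝔫` from
    `hG  : GInt x → InG x`,
    `hRD : GInt x → x ≡ z mod 𝔪_{w₁}` with `z ∈ F` in the Gauss ring   (residue degree one),
    `hLN` : normality at the level `F`.

Concrete part, level `L` with `M ∣ L` (`L = M * q ^ 2` or `M * q * q`), `K₁ ∋ ζ_{e₀}`:

* `H9CU.levelNormal_at` : `hLN` at the level `M` (Normal-free form of `H14I2.h14i2_levelNormal`);
* `H9CU.unif1_sq` : `∃ x, UnifAt P₁ 𝔫 x` for every maximal `𝔫 ⊇ P₁ = {y ∈ M₀ | InGm y}`, from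
  the coordinate form `hTC` of TripleGauss:  every Gauss-integral `x` of level `L` is
  `Σ_{k<q} c_k J₂^k` with `c_k` of level `M q` in both Gauss rings of level `M q`.
-/
import Mathlib
import Fermat.Agent.S34.CompUnif_helper9
import Fermat.Agent.S34.I2LevelNormal_helper14
import Fermat.Agent.S36.ResDeg2_helper9

set_option autoImplicit false
set_option synthInstance.maxHeartbeats 400000
set_option maxHeartbeats 4000000
set_option linter.unusedSectionVars false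
set_option linter.unusedVariables false
set_option linter.style.haveILetI false

noncomputable section

open Polynomial IntermediateField ModularCurve H7S18 H4S34 H26DI H28GV

namespace H9CU

section generic

variable {K : Type} [Field K] [CharZero K] (R : ValuationSubring K)
  [IsDiscreteValuationRing ↥R]
  (F E : IntermediateField K (LaurentSeries K)) (h : F ≤ E)
  [Algebra ↥R ↥F] [IsScalarTower ↥R K ↥F] [Algebra ↥R ↥E] [IsScalarTower ↥R K ↥E]
  (ϖ : ↥R) (hϖ : Irreducible ϖ) (t c : ↥E) (hc : c = t ∨ c = t⁻¹)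
  (htr : Transcendental K t)

include hϖ hc htr in
/-- chart elements are Gauss-integral -/
theorem gint_of_chart (y : Chart ↥R c) : GInt ↥R ϖ t (y : ↥E) := by
  have htrR : Transcendental ↥R t := H19S18.h19_transc ↥R K htr
  have htr' : Transcendental K t⁻¹ := H19S18.h19_transc_inv K htr
  have htrR' : Transcendental ↥R t⁻¹ := H19S18.h19_transc ↥R K htr'
  rcases hc with rfl | rfl
  · exact H19S18.h19_gint_of_isInt ↥R htrR hϖ y.2
  · exact H19S18.h19_gint_of_isInt_inv ↥R htrR htrR' hϖ y.2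

include hϖ hc htr in
/-- `P₁ ∩ R[c] ⊆ ϖ R[c]` -/
theorem comp_inter_gen
    (hG : ∀ x : ↥E, GInt ↥R ϖ t x → H8PB.InG R (x : LaurentSeries K))
    (P₁ : Ideal (Chart ↥R c))
    (hP₁ : ∀ y : Chart ↥R c, y ∈ P₁ ↔ H8PB.InGm R (((y : ↥E)) : LaurentSeries K))
    (s : Algebra.adjoin ↥R {c})
    (hs : algebraMap (Algebra.adjoin ↥R {c}) (Chart ↥R c) s ∈ P₁) :
    algebraMap ↥R (Algebra.adjoin ↥R {c}) ϖ ∣ s := by
  have htrR : Transcendental ↥R t := H19S18.h19_transc ↥R K htr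
  have htr' : Transcendental K t⁻¹ := H19S18.h19_transc_inv K htr
  have htrR' : Transcendental ↥R t⁻¹ := H19S18.h19_transc ↥R K htr'
  by_contra hnd
  have hGU : IsGaussUnit ↥R ϖ c (s : ↥E) := (H19S18.h19_gaussUnit_iff ↥R ϖ c s).mpr hnd
  have hs0 : (s : ↥E) ≠ 0 := by
    intro h0
    apply hnd
    have : s = 0 := Subtype.ext h0
    rw [this]
    exact dvd_zero _
  have hGc : GInt ↥R ϖ c ((s : ↥E))⁻¹ := by
    refine ⟨(s : ↥E), hGU, ?_⟩
    rw [mul_inv_cancel₀ hs0]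
    exact isIntegral_one
  have hGt : GInt ↥R ϖ t ((s : ↥E))⁻¹ := by
    rcases hc with rfl | rfl
    · exact hGc
    · exact (H19S18.h19_gint_inv_iff ↥R htrR htrR' hϖ _).mp hGc
  have hInv := hG _ hGt
  have hsm : H8PB.InGm R (((s : ↥E)) : LaurentSeries K) := (hP₁ _).mp hs
  obtain ⟨h1, h2⟩ := (H22DC.inGm_iff R _).mp hsm
  have h3 := (H22DC.inG_iff R _).mp hInv
  have h4 : (⟨_, h1⟩ : ↥(gvO R (H22DC.resR R))) * ⟨_, h3⟩ = 1 := by
    apply Subtype.ext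
    show (((s : ↥E)) : LaurentSeries K) * ((((s : ↥E))⁻¹ : ↥E) : LaurentSeries K) = 1
    rw [← MulMemClass.coe_mul, mul_inv_cancel₀ hs0]
    rfl
  have h5 := congrArg (gvRed R (H22DC.resR R)) h4
  rw [map_mul, h2, zero_mul, map_one] at h5
  exact zero_ne_one h5

include h hϖ hc htr in
/-- **uniformizers on the first component**, generic form with Gauss-integrality. -/
theorem unif_sq_gen (hcF : (c : LaurentSeries K) ∈ F)
    (hG : ∀ x : ↥E, GInt ↥R ϖ t x → H8PB.InG R (x : LaurentSeries K))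
    (hRD : ∀ x : ↥E, GInt ↥R ϖ t x → ∃ z : LaurentSeries K, z ∈ F ∧ H8PB.InG R z ∧
      H8PB.InGm R ((x : LaurentSeries K) - z))
    (hLN : ∀ (y : ↥F) (n : ℕ) (cf : ℕ → ↥F),
      (∀ i, cf i ∈ Algebra.adjoin ↥R {(⟨(c : LaurentSeries K), hcF⟩ : ↥F)}) →
      H8PB.InG R (y : LaurentSeries K) →
      H8PB.InGm R (((y ^ n + ∑ i ∈ Finset.range n, cf i * y ^ i : ↥F)) : LaurentSeries K) →
      ∃ d : ↥F, IsInt ↥R (⟨(c : LaurentSeries K), hcF⟩ : ↥F) d ∧
        H8PB.InGm R (((y - d : ↥F)) : LaurentSeries K))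
    (hcfin : FiniteDimensional K⟮c⟯ ↥E)
    (P₁ : Ideal (Chart ↥R c))
    (hP₁ : ∀ y : Chart ↥R c, y ∈ P₁ ↔ H8PB.InGm R (((y : ↥E)) : LaurentSeries K))
    (𝔫 : Ideal (Chart ↥R c)) (h𝔫 : 𝔫.IsMaximal) (hle : P₁ ≤ 𝔫) :
    ∃ x, UnifAt P₁ 𝔫 x := by
  have hcK : Transcendental K c := by
    rcases hc with rfl | rfl
    · exact htr
    · exact H19S18.h19_transc_inv K htr
  have hgi := gint_of_chart R E ϖ hϖ t c hc htr
  exact H9UF.unif_gen R F E h c hcF (fun y => hG _ (hgi y)) (fun y => hRD _ (hgi y)) hLN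
    hcK hcfin ϖ hϖ P₁ hP₁ (comp_inter_gen R E ϖ hϖ t c hc htr hG P₁ hP₁) 𝔫 h𝔫 hle

end generic

section concrete

open H18R2

variable (M : ℕ) [NeZero M] (q : ℕ) [NeZero q] (hq : q.Prime) (hqM : ¬ q ∣ M)
  (hT : TameLevel q M)
  (A : ValuationSubring (AlgebraicClosure ℚ)) (hA : A.LiesOverPrime q)
  (K₁ : IntermediateField ℚ (AlgebraicClosure ℚ)) (hfin : FiniteDimensional ℚ K₁)
  (hζ : ∃ ζ : K₁, IsPrimitiveRoot ζ (branchIndex (baseKind q) M))

include hq hqM hT hA hfin hζ in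
/-- **(A'')** at a fixed `K₁ ∋ ζ_{e₀}` (no normality of `K₁ / ℚ`): normality of the special fibre
of the chart `c ∈ {t, t⁻¹}` at the level `M`. -/
theorem levelNormal_at
    [Algebra ↥(descVal A K₁) (FK K₁ M)] [IsScalarTower ↥(descVal A K₁) K₁ (FK K₁ M)]
    (ϖ : ↥(descVal A K₁)) (hϖ : Irreducible ϖ)
    (t₀ : LaurentSeries ℚ) (ht₀ : IsBase (baseKind q) t₀)
    (t : FK K₁ M) (ht : (t : LaurentSeries K₁) = coeffEmb K₁ t₀)
    (c : FK K₁ M) (hc : c = t ∨ c = t⁻¹)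
    (y : FK K₁ M) (n : ℕ) (cf : ℕ → FK K₁ M)
    (hcf : ∀ i, cf i ∈ Algebra.adjoin ↥(descVal A K₁) {c})
    (hy : H8PB.InG (descVal A K₁) (y : LaurentSeries K₁))
    (hz : H8PB.InGm (descVal A K₁)
      (((y ^ n + ∑ i ∈ Finset.range n, cf i * y ^ i : FK K₁ M)) : LaurentSeries K₁)) :
    ∃ d : FK K₁ M, IsInt ↥(descVal A K₁) c d ∧
      H8PB.InGm (descVal A K₁) (((y - d : FK K₁ M)) : LaurentSeries K₁) := by
  haveI : Fact q.Prime := ⟨hq⟩
  have hi := h7_baseKind_ok hT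
  obtain ⟨hdvr, -, hunit⟩ := H4DVR.dvrStatement q A hA K₁ hfin
  haveI := hdvr
  obtain ⟨t₁, ht₁coe, ht₁tr, -, -⟩ := H9C6e.fieldBasics M (baseKind q) hi t₀ ht₀ K₁
  have htt : t = t₁ := Subtype.ext (by rw [ht, ht₁coe])
  have httr : Transcendental K₁ t := by rw [htt]; exact ht₁tr
  have htR : Transcendental ↥(descVal A K₁) t := H21S18.transcendental_base httr
  have hϖp : Prime ϖ := H21S18.prime_of_irreducible hϖ
  obtain ⟨hN1, hN2⟩ := H14I2.h14i2_chartNormalInst M q hT A hA K₁ hfin hζ ϖ hϖ t₀ ht₀ t ht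
  have hG := fun x : FK K₁ M => H18GM.gaussM M A K₁ q hqM hA ϖ hϖ (baseKind q) t₀ ht₀ t ht x
  have hyG : GInt ↥(descVal A K₁) ϖ t y := (hG y).1.mpr hy
  have hzM : ModPi ↥(descVal A K₁) ϖ t (y ^ n + ∑ i ∈ Finset.range n, cf i * y ^ i) 0 :=
    (hG _).2.mpr hz
  rcases hc with hc | hc
  · subst hc
    obtain ⟨d, hd, z, hzG, hze⟩ := hN1 y hyG ⟨n, cf, hcf, hzM⟩
    refine ⟨d, hd, (hG (y - d)).2.mp ⟨z, hzG, ?_⟩⟩
    rw [sub_zero]
    exact hze
  · subst hc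
    have hyG' : GInt ↥(descVal A K₁) ϖ t⁻¹ y := (H21S18.gInt_inv_iff hϖp htR).mpr hyG
    have hzM' : ModPi ↥(descVal A K₁) ϖ t⁻¹ (y ^ n + ∑ i ∈ Finset.range n, cf i * y ^ i) 0 :=
      (H21S18.modPi_inv_iff hϖp htR).mpr hzM
    obtain ⟨d, hd, hmod⟩ := hN2 y hyG' ⟨n, cf, hcf, hzM'⟩
    obtain ⟨z, hzG, hze⟩ := (H21S18.modPi_inv_iff hϖp htR).mp hmod
    refine ⟨d, hd, (hG (y - d)).2.mp ⟨z, hzG, ?_⟩⟩
    rw [sub_zero]
    exact hze

/-- `J₂ = j(𝐪^{q²})` lies in the Gauss ring -/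
theorem inG_J2 (R : ValuationSubring ↥K₁) :
    H8PB.InG R (qExpand ↥K₁ (q * q) (jqModC ↥K₁)) := by
  have e : qExpand ↥K₁ (q * q) (jqModC ↥K₁) = gvEps R (qExpand ↥R (q * q) (jqModC ↥R)) := by
    rw [← H8PB.h8pb_eps_jq K₁ R]
    exact (coeffMap_qExpand _ _ _).symm
  rw [e, H22DC.inG_iff]
  exact gvEps_mem_gvO R _ _

include hq hqM hT hA hfin hζ in
/-- **(CU3)**: uniformizers on the first component at the level `L`, `M ∣ L` (`L = M q²`), from
the coordinate form `hTC` of TripleGauss. -/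
theorem unif1_sq (L : ℕ) [NeZero L] (hML : M ∣ L)
    [Algebra ↥(descVal A K₁) (FK K₁ L)] [IsScalarTower ↥(descVal A K₁) K₁ (FK K₁ L)]
    (ϖ : ↥(descVal A K₁)) (hϖ : Irreducible ϖ)
    (t₀ : LaurentSeries ℚ) (ht₀ : IsBase (baseKind q) t₀)
    (t : FK K₁ L) (ht : (t : LaurentSeries K₁) = coeffEmb K₁ t₀)
    (c : FK K₁ L) (hc : c = t ∨ c = t⁻¹)
    (hTC : ∀ x : FK K₁ L, GInt ↥(descVal A K₁) ϖ t x →
      ∃ cf : ℕ → FK K₁ (M * q),
        (∀ k, H8PB.InG (descVal A K₁) ((cf k : FK K₁ (M * q)) : LaurentSeries K₁) ∧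
          H8PB.InG (descVal A K₁)
            ((H12AL.wqKHom K₁ M q hq hqM (cf k) : FK K₁ (M * q)) : LaurentSeries K₁)) ∧
        (x : LaurentSeries K₁) = ∑ k ∈ Finset.range q,
          ((cf k : FK K₁ (M * q)) : LaurentSeries K₁) * (qExpand K₁ (q * q) (jqModC K₁)) ^ k)
    (P₁ : Ideal (Chart ↥(descVal A K₁) c))
    (hP₁ : ∀ y : Chart ↥(descVal A K₁) c,
      y ∈ P₁ ↔ H8PB.InGm (descVal A K₁) (((y : FK K₁ L)) : LaurentSeries K₁))
    (𝔫 : Ideal (Chart ↥(descVal A K₁) c)) (h𝔫 : 𝔫.IsMaximal) (hle : P₁ ≤ 𝔫) :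
    ∃ x, UnifAt P₁ 𝔫 x := by
  haveI : Fact q.Prime := ⟨hq⟩
  obtain ⟨hdvr, -, -⟩ := H4DVR.dvrStatement q A hA K₁ hfin
  haveI := hdvr
  have hiM := H28PL.baseKind_ok hT
  have hiL : baseKind q = 1 ∨ (baseKind q = 2 ∧ 2 ∣ L) ∨ (baseKind q = 3 ∧ 3 ∣ L) := by
    rcases hiM with h | h | h
    · exact Or.inl h
    · exact Or.inr (Or.inl ⟨h.1, h.2.trans hML⟩)
    · exact Or.inr (Or.inr ⟨h.1, h.2.trans hML⟩)
  obtain ⟨tM, htM, -, -, -⟩ := H9C6e.fieldBasics M (baseKind q) hiM t₀ ht₀ K₁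
  obtain ⟨t₁, ht₁coe, ht₁tr, ht₁fin, -⟩ := H9C6e.fieldBasics L (baseKind q) hiL t₀ ht₀ K₁
  have htt : t₁ = t := Subtype.ext (ht₁coe.trans ht.symm)
  rw [htt] at ht₁tr ht₁fin
  have hfin' : FiniteDimensional K₁⟮t⁻¹⟯ (FK K₁ L) :=
    H21S18.finiteDimensional_transport (H21S18.adjoin_inv_eq (K := K₁) t).symm ht₁fin
  have hcfin : FiniteDimensional K₁⟮c⟯ (FK K₁ L) := by
    rcases hc with h | h
    · rw [h]; exact ht₁fin
    · rw [h]; exact hfin'
  have hFE : laurentBaseChange K₁ (modularFunctionFieldFull M) ≤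
      laurentBaseChange K₁ (modularFunctionFieldFull L) :=
    H28PL.laurentBaseChange_le K₁ (full_degeneracy_le hML)
  have htF : (t : LaurentSeries K₁) ∈ laurentBaseChange K₁ (modularFunctionFieldFull M) := by
    rw [ht, ← htM]
    exact tM.2
  have hcF : (c : LaurentSeries K₁) ∈ laurentBaseChange K₁ (modularFunctionFieldFull M) := by
    rcases hc with h | h
    · rw [h]
      exact htF
    · rw [h]
      show ((t : LaurentSeries K₁))⁻¹ ∈ _
      exact inv_mem htF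
  have hcM : (⟨(c : LaurentSeries K₁), hcF⟩ : FK K₁ M) = tM ∨
      (⟨(c : LaurentSeries K₁), hcF⟩ : FK K₁ M) = tM⁻¹ := by
    rcases hc with h | h
    · left
      apply Subtype.ext
      show (c : LaurentSeries K₁) = (tM : LaurentSeries K₁)
      rw [h, ht, htM]
    · right
      apply Subtype.ext
      show (c : LaurentSeries K₁) = ((tM : LaurentSeries K₁))⁻¹
      rw [h, htM, ← ht]
      rfl
  letI algRF : Algebra ↥(descVal A K₁) (FK K₁ M) :=
    ((algebraMap K₁ (FK K₁ M)).comp (algebraMap ↥(descVal A K₁) K₁)).toAlgebra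
  haveI towRF : IsScalarTower ↥(descVal A K₁) K₁ (FK K₁ M) :=
    IsScalarTower.of_algebraMap_eq (fun _ => rfl)
  have hJ2 := (H22DC.inG_iff (descVal A K₁) _).mp (inG_J2 q K₁ (descVal A K₁))
  refine unif_sq_gen (descVal A K₁) (laurentBaseChange K₁ (modularFunctionFieldFull M))
    (laurentBaseChange K₁ (modularFunctionFieldFull L)) hFE ϖ hϖ t c hc ht₁tr hcF ?_ ?_ ?_
    hcfin P₁ hP₁ 𝔫 h𝔫 hle
  · intro x hx
    obtain ⟨cf, hcf, hxe⟩ := hTC x hx
    rw [hxe, H22DC.inG_iff]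
    exact Subring.sum_mem _ (fun k _ => Subring.mul_mem _
      ((H22DC.inG_iff _ _).mp (hcf k).1) (Subring.pow_mem _ hJ2 _))
  · intro x hx
    obtain ⟨cf, hcf, hxe⟩ := hTC x hx
    rw [hxe]
    exact resDegOne2 M q hq hqM hT A hA K₁ hfin cf hcf
  · exact fun y n cf hcf hy hrel =>
      levelNormal_at M q hq hqM hT A hA K₁ hfin hζ ϖ hϖ t₀ ht₀ tM htM ⟨_, hcF⟩ hcM
        y n cf hcf hy hrel

end concrete

end H9CU

end
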