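/-
helper9: item 86 (S36), slice (CU3): uniformizers on a component of the special fibre of a
chart, for an ARBITRARY valuation ring (abstract version of `H9UF.unif_gen`).

`R` a DVR with uniformizer `ϖ`, `K = Frac R`, `E / K(c)` finite (function field of the upper
level), `F → E` a subfield (function field of the lower level) containing the chart parameter
`c = algebraMap F E cF`, `M₀ = H4S34.Chart R c ⊆ E`.  A valuation ring of `E` is given in the
form `G ⊆ E` (a subring), `red : G →+* κ` (`κ` a field), units of `G` detected by `red`.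
The component is `P = {y ∈ M₀ | red y = 0}`.  Hypotheses:
* `hmem` : `M₀ ⊆ G`;
* `hRD`  : residue degree one over `F`: every `y ∈ M₀` is congruent modulo `ker red` to an
           element of `F ∩ G`;
* `hLN`  : normality at the level `F`: `y ∈ F ∩ G`, root modulo `ker red` of a monic polynomial
           over `R[cF]` ⟹ `y ≡ d` with `d ∈ F` integral over `R[cF]`;
* `hPA`  : `P ∩ R[c] ⊆ ϖ R[c]`.
Conclusions (`H9CU.comp_val`): `P` is prime, `M₀ / P` is normal (element form), every element
of `M₀` is congruent modulo `P` to an element of `M₀` coming from `F`; and (`H9CU.unif_val`)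
every maximal ideal `𝔫 ⊇ P` has a uniformizer modulo `P` (`H26DI.UnifAt P 𝔫 x`).
-/
import Mathlib
import Fermat.Agent.S34.CompUnifCore_helper9
import Fermat.Agent.S34.CompUnifInst_helper9
import Fermat.Agent.S18.C5Base_helper19

set_option autoImplicit false
set_option synthInstance.maxHeartbeats 400000
set_option maxHeartbeats 4000000
set_option linter.unusedSectionVars false
set_option linter.unusedVariables false
set_option linter.style.haveILetI false

noncomputable section

open Polynomial IntermediateField H7S18 H4S34 H26DI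

namespace H9CU

section val

variable (R : Type) [CommRing R] [IsDomain R] [IsDiscreteValuationRing R]
  {E : Type} [Field E] [Algebra R E]
  {F : Type} [Field F] [Algebra R F] [Algebra F E] [IsScalarTower R F E]
  (cF : F) {κ : Type} [Field κ] (G : Subring E) (red : ↥G →+* κ)

/-- the inclusion `M₀ → G` -/
def toG (hmem : ∀ y : Chart R (algebraMap F E cF), (y : E) ∈ G) :
    Chart R (algebraMap F E cF) →+* ↥G where
  toFun y := ⟨(y : E), hmem y⟩
  map_one' := rfl
  map_mul' _ _ := rfl
  map_zero' := rfl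
  map_add' _ _ := rfl

theorem coe_toG (hmem : ∀ y : Chart R (algebraMap F E cF), (y : E) ∈ G)
    (y : Chart R (algebraMap F E cF)) : ((toG R cF G hmem y : ↥G) : E) = (y : E) := rfl

/-- **level transfer**, abstract form: the normality input of `H9UF.hnorm_abstract`. -/
theorem transfer_val
    (hmem : ∀ y : Chart R (algebraMap F E cF), (y : E) ∈ G)
    (hLN : ∀ (y : F) (hy : algebraMap F E y ∈ G) (n : ℕ) (cf : ℕ → F),
      (∀ i, cf i ∈ Algebra.adjoin R {cF}) →
      ∀ hG : algebraMap F E (y ^ n + ∑ i ∈ Finset.range n, cf i * y ^ i) ∈ G,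
      red ⟨_, hG⟩ = 0 →
      ∃ d : F, IsInt R cF d ∧ ∃ hd : algebraMap F E d ∈ G, red ⟨_, hd⟩ = red ⟨_, hy⟩)
    (y : ↥G) (hy : (y : E) ∈ (algebraMap F E).fieldRange)
    (p : (Algebra.adjoin R {algebraMap F E cF})[X]) (hp : p.Monic)
    (hsum : (∑ i ∈ Finset.range (p.natDegree + 1),
      red (toG R cF G hmem
        (algebraMap (Algebra.adjoin R {algebraMap F E cF}) (Chart R (algebraMap F E cF))
          (p.coeff i))) * red y ^ i) = 0) :
    ∃ d : Chart R (algebraMap F E cF), (∃ dF : F, IsInt R cF dF ∧ algebraMap F E dF = (d : E)) ∧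
      red (toG R cF G hmem d) = red y := by
  classical
  obtain ⟨yF, hyF⟩ := hy
  have hcf : ∀ i, ∃ cf ∈ Algebra.adjoin R {cF},
      algebraMap F E cf = ((p.coeff i : Algebra.adjoin R {algebraMap F E cF}) : E) :=
    fun i => H19S18.h19_exists_of_mem_TE R cF (p.coeff i).2
  choose cf hcfmem hcfeq using hcf
  set n := p.natDegree with hn
  set g : ↥G := ∑ i ∈ Finset.range (n + 1),
      toG R cF G hmem
        (algebraMap (Algebra.adjoin R {algebraMap F E cF}) (Chart R (algebraMap F E cF))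
          (p.coeff i)) * y ^ i with hg
  have hgred : red g = 0 := by
    rw [hg, map_sum, ← hsum]
    refine Finset.sum_congr rfl (fun i _ => ?_)
    rw [map_mul, map_pow]
  have hgcoe : (g : E) =
      algebraMap F E (yF ^ n + ∑ i ∈ Finset.range n, cf i * yF ^ i) := by
    have h1 : (g : E) = ∑ i ∈ Finset.range (n + 1),
        (((p.coeff i : Algebra.adjoin R {algebraMap F E cF}) : E)) * (y : E) ^ i := by
      rw [hg]
      push_cast
      rfl
    rw [h1, Finset.sum_range_succ]
    have h2 : p.coeff n = 1 := hp.coeff_natDegree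
    rw [h2, map_add, map_sum, map_pow]
    rw [add_comm]
    congr 1
    · rw [hyF]
      simp
    · refine Finset.sum_congr rfl (fun i _ => ?_)
      rw [map_mul, map_pow, hcfeq i, hyF]
  have hyG : algebraMap F E yF ∈ G := by rw [hyF]; exact y.2
  have hG : algebraMap F E (yF ^ n + ∑ i ∈ Finset.range n, cf i * yF ^ i) ∈ G := by
    rw [← hgcoe]; exact g.2
  have hG0 : red ⟨_, hG⟩ = 0 := by
    have : (⟨_, hG⟩ : ↥G) = g := Subtype.ext hgcoe.symm
    rw [this]
    exact hgred
  obtain ⟨d, hdint, hdG, hdred⟩ := hLN yF hyG n cf hcfmem hG hG0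
  have hdE : IsInt R (algebraMap F E cF) (algebraMap F E d) :=
    H19S18.h19_isInt_map (E := E) R cF hdint
  refine ⟨⟨algebraMap F E d, hdE⟩, ⟨d, hdint, rfl⟩, ?_⟩
  have e1 : toG R cF G hmem ⟨algebraMap F E d, hdE⟩ = ⟨_, hdG⟩ := Subtype.ext rfl
  have e2 : (⟨_, hyG⟩ : ↥G) = y := Subtype.ext hyF
  rw [e1, hdred, e2]

/-- **the component of a valuation ring**: prime, normal, and comparison with the level `F`. -/
theorem comp_val (hinv : ∀ x : ↥G, red x ≠ 0 → ((x : E))⁻¹ ∈ G)
    (hmem : ∀ y : Chart R (algebraMap F E cF), (y : E) ∈ G)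
    (hRD : ∀ y : Chart R (algebraMap F E cF), ∃ z : F, ∃ hz : algebraMap F E z ∈ G,
      red ⟨_, hz⟩ = red ⟨(y : E), hmem y⟩)
    (hLN : ∀ (y : F) (hy : algebraMap F E y ∈ G) (n : ℕ) (cf : ℕ → F),
      (∀ i, cf i ∈ Algebra.adjoin R {cF}) →
      ∀ hG : algebraMap F E (y ^ n + ∑ i ∈ Finset.range n, cf i * y ^ i) ∈ G,
      red ⟨_, hG⟩ = 0 →
      ∃ d : F, IsInt R cF d ∧ ∃ hd : algebraMap F E d ∈ G, red ⟨_, hd⟩ = red ⟨_, hy⟩)
    (P : Ideal (Chart R (algebraMap F E cF)))
    (hP : ∀ y : Chart R (algebraMap F E cF), y ∈ P ↔ red ⟨(y : E), hmem y⟩ = 0) :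
    P.IsPrime ∧
    (∀ (a b : Chart R (algebraMap F E cF)) (p : (Algebra.adjoin R {algebraMap F E cF})[X]),
      b ∉ P → p.Monic → H9UF.homRel p a b ∈ P →
      ∃ d : Chart R (algebraMap F E cF), a - d * b ∈ P) ∧
    (∀ y : Chart R (algebraMap F E cF), ∃ d : Chart R (algebraMap F E cF),
      (∃ dF : F, IsInt R cF dF ∧ algebraMap F E dF = (d : E)) ∧ y - d ∈ P) := by
  set ι := toG R cF G hmem with hι
  have hP' : ∀ y, y ∈ P ↔ red (ι y) = 0 := hP
  have hres : ∀ y : Chart R (algebraMap F E cF), ∃ z : ↥G,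
      (z : E) ∈ (algebraMap F E).fieldRange ∧ red z = red (ι y) := by
    intro y
    obtain ⟨z, hz, hzr⟩ := hRD y
    exact ⟨⟨_, hz⟩, ⟨z, rfl⟩, hzr⟩
  have hLNc := transfer_val R cF G red hmem hLN
  refine ⟨?_, ?_, ?_⟩
  · have e : P = RingHom.ker (red.comp ι) := by
      ext y
      rw [RingHom.mem_ker, hP']
      rfl
    rw [e]
    exact RingHom.ker_isPrime _
  · have key := @H9UF.hnorm_abstract E κ _ _ G red
      (Algebra.adjoin R {algebraMap F E cF}) (Chart R (algebraMap F E cF)) _ _ _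
      hinv ι P hP' (algebraMap F E).fieldRange
    have key2 := key hres
    intro a b p hb hp hH
    refine key2 ?_ a b p hb hp hH
    intro y hy p hp hsum
    obtain ⟨d, -, hd⟩ := hLNc y hy p hp hsum
    exact ⟨d, hd⟩
  · have key := @H9UF.res_abstract E κ _ _ G red
      (Algebra.adjoin R {algebraMap F E cF}) (Chart R (algebraMap F E cF)) _ _ _
      ι P hP' (algebraMap F E).fieldRange
      (fun d : Chart R (algebraMap F E cF) =>
        ∃ dF : F, IsInt R cF dF ∧ algebraMap F E dF = (d : E))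
    have key2 := key hres
    have key3 := key2 hLNc
    intro y
    obtain ⟨p, hp, hpy⟩ :=
      integralClosure.isIntegral (R := Algebra.adjoin R {algebraMap F E cF}) y
    have hpy' : Polynomial.aeval y p = 0 := hpy
    exact key3 y p hp hpy'

end val

section unif

variable (R : Type) [CommRing R] [IsDomain R] [IsDiscreteValuationRing R]
  (K : Type) [Field K] [CharZero K] [Algebra R K] [IsFractionRing R K]
  {E : Type} [Field E] [Algebra K E] [Algebra R E] [IsScalarTower R K E]
  {F : Type} [Field F] [Algebra R F] [Algebra F E] [IsScalarTower R F E]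
  (cF : F) {κ : Type} [Field κ] (G : Subring E) (red : ↥G →+* κ)

/-- **uniformizers on the component of a valuation ring** -/
theorem unif_val (hinv : ∀ x : ↥G, red x ≠ 0 → ((x : E))⁻¹ ∈ G)
    (hmem : ∀ y : Chart R (algebraMap F E cF), (y : E) ∈ G)
    (hRD : ∀ y : Chart R (algebraMap F E cF), ∃ z : F, ∃ hz : algebraMap F E z ∈ G,
      red ⟨_, hz⟩ = red ⟨(y : E), hmem y⟩)
    (hLN : ∀ (y : F) (hy : algebraMap F E y ∈ G) (n : ℕ) (cf : ℕ → F),
      (∀ i, cf i ∈ Algebra.adjoin R {cF}) →
      ∀ hG : algebraMap F E (y ^ n + ∑ i ∈ Finset.range n, cf i * y ^ i) ∈ G,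
      red ⟨_, hG⟩ = 0 →
      ∃ d : F, IsInt R cF d ∧ ∃ hd : algebraMap F E d ∈ G, red ⟨_, hd⟩ = red ⟨_, hy⟩)
    (hcK : Transcendental K (algebraMap F E cF))
    (hcfin : FiniteDimensional K⟮algebraMap F E cF⟯ E)
    {ϖ : R} (hϖ : Irreducible ϖ)
    (P : Ideal (Chart R (algebraMap F E cF)))
    (hP : ∀ y : Chart R (algebraMap F E cF), y ∈ P ↔ red ⟨(y : E), hmem y⟩ = 0)
    (hϖP : algebraMap (Algebra.adjoin R {algebraMap F E cF}) (Chart R (algebraMap F E cF))
      (algebraMap R (Algebra.adjoin R {algebraMap F E cF}) ϖ) ∈ P)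
    (hPA : ∀ s : Algebra.adjoin R {algebraMap F E cF},
      algebraMap (Algebra.adjoin R {algebraMap F E cF}) (Chart R (algebraMap F E cF)) s ∈ P →
      algebraMap R (Algebra.adjoin R {algebraMap F E cF}) ϖ ∣ s)
    (𝔫 : Ideal (Chart R (algebraMap F E cF))) (h𝔫 : 𝔫.IsMaximal) (hle : P ≤ 𝔫) :
    ∃ x, UnifAt P 𝔫 x := by
  obtain ⟨hprime, hnorm, -⟩ := comp_val R cF G red hinv hmem hRD hLN P hP
  haveI := hcfin
  exact H9UF.unif_chart R K hcK hϖ P hprime hϖP hPA hnorm 𝔫 h𝔫 hle

end unif

end H9CU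

end
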