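/-
helper9: item 86 (S36), slice (CU3): uniformizers on the component of a chart cut out by a
`ValuationSubring` (third component `C₃`, valuation `V₃` of helper3).

* `H9CU.resdeg_tower_vs` (Mathlib only): congruences modulo `𝔪(V)` pass to `Σ c_k θ^k`;
* `H9CU.unif_vs` : `H9CU.unif_val` in `ValuationSubring` language:
  `R` a DVR, `F → E` fields (lower / upper level), `c = algebraMap F E cF` the chart parameter,
  `V` a valuation subring of `E` containing `R[c]`, `P = {y ∈ M₀ | v(y) < 1}`; hypotheses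
    `hRD` : every `y ∈ M₀` is congruent modulo `𝔪(V)` to an element of `F ∩ V`,
    `hLN` : normality at the level `F`,
    `hPA` : `𝔪(V) ∩ R[c] ⊆ ϖ R[c]`;
  conclusion: every maximal ideal `𝔫 ⊇ P` has a uniformizer modulo `P`.
-/
import Mathlib
import Fermat.Agent.S36.CompUnifVal_helper9

set_option autoImplicit false
set_option synthInstance.maxHeartbeats 400000
set_option maxHeartbeats 4000000
set_option linter.unusedSectionVars false
set_option linter.unusedVariables false
set_option linter.style.haveILetI false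

noncomputable section

open Polynomial IntermediateField H7S18 H4S34 H26DI

namespace H9CU

section vsbasic

variable {E : Type} [Field E] (V : ValuationSubring E)

theorem vs_lt_one_iff (x : E) : V.valuation x < 1 ↔ x = 0 ∨ x⁻¹ ∉ V := by
  rw [← ValuationSubring.mem_nonunits_iff, ValuationSubring.mem_nonunits_iff_or]

theorem vs_mem_of_lt_one {x : E} (h : V.valuation x < 1) : x ∈ V :=
  (V.valuation_le_one_iff x).mp h.le

/-- the residue of an element of `V` vanishes iff its valuation is `< 1` -/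
theorem vs_residue_eq_zero_iff (x : ↥V) :
    IsLocalRing.residue ↥V x = 0 ↔ V.valuation (x : E) < 1 := by
  rw [IsLocalRing.residue_eq_zero_iff, ValuationSubring.valuation_lt_one_iff]

theorem vs_lt_one_add {x y : E} (hx : V.valuation x < 1) (hy : V.valuation y < 1) :
    V.valuation (x + y) < 1 :=
  lt_of_le_of_lt (V.valuation.map_add x y) (max_lt hx hy)

theorem vs_lt_one_mul {x y : E} (hx : V.valuation x < 1) (hy : y ∈ V) :
    V.valuation (x * y) < 1 := by
  rw [map_mul]
  exact mul_lt_one_of_lt_of_le hx ((V.valuation_le_one_iff y).mpr hy)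

/-- **tower step of the residue degree one**, valuation form -/
theorem resdeg_tower_vs (θ a : E) (haV : a ∈ V) (hθa : V.valuation (θ - a) < 1)
    (q : ℕ) (cf z : ℕ → E) (hz : ∀ k, z k ∈ V) (hcz : ∀ k, V.valuation (cf k - z k) < 1) :
    V.valuation ((∑ k ∈ Finset.range q, cf k * θ ^ k) - ∑ k ∈ Finset.range q, z k * a ^ k) < 1 := by
  have hθV : θ ∈ V := by
    have : θ = (θ - a) + a := by ring
    rw [this]
    exact V.add_mem _ _ (vs_mem_of_lt_one V hθa) haV
  have hcV : ∀ k, cf k ∈ V := by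
    intro k
    have : cf k = (cf k - z k) + z k := by ring
    rw [this]
    exact V.add_mem _ _ (vs_mem_of_lt_one V (hcz k)) (hz k)
  set X : ↥V := ∑ k ∈ Finset.range q, (⟨cf k, hcV k⟩ : ↥V) * ⟨θ, hθV⟩ ^ k with hX
  set Z : ↥V := ∑ k ∈ Finset.range q, (⟨z k, hz k⟩ : ↥V) * ⟨a, haV⟩ ^ k with hZ
  have hres : IsLocalRing.residue ↥V (X - Z) = 0 := by
    rw [map_sub, sub_eq_zero, hX, hZ, map_sum, map_sum]
    refine Finset.sum_congr rfl (fun k _ => ?_)
    rw [map_mul, map_mul, map_pow, map_pow]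
    have h1 : IsLocalRing.residue ↥V (⟨cf k, hcV k⟩ : ↥V) =
        IsLocalRing.residue ↥V (⟨z k, hz k⟩ : ↥V) := by
      rw [← sub_eq_zero, ← map_sub, vs_residue_eq_zero_iff]
      exact hcz k
    have h2 : IsLocalRing.residue ↥V (⟨θ, hθV⟩ : ↥V) =
        IsLocalRing.residue ↥V (⟨a, haV⟩ : ↥V) := by
      rw [← sub_eq_zero, ← map_sub, vs_residue_eq_zero_iff]
      exact hθa
    rw [h1, h2]
  rw [vs_residue_eq_zero_iff] at hres
  have e : ((X - Z : ↥V) : E) =
      (∑ k ∈ Finset.range q, cf k * θ ^ k) - ∑ k ∈ Finset.range q, z k * a ^ k := by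
    rw [hX, hZ]
    push_cast
    rfl
  rw [← e]
  exact hres

end vsbasic

section vs

variable (R : Type) [CommRing R] [IsDomain R] [IsDiscreteValuationRing R]
  (K : Type) [Field K] [CharZero K] [Algebra R K] [IsFractionRing R K]
  {E : Type} [Field E] [Algebra K E] [Algebra R E] [IsScalarTower R K E]
  {F : Type} [Field F] [Algebra R F] [Algebra F E] [IsScalarTower R F E]
  (cF : F) (V : ValuationSubring E)

/-- chart elements lie in a valuation ring containing `R[c]` -/
theorem chart_mem_vs (c : E) (hRV : ∀ r : R, algebraMap R E r ∈ V) (hcV : c ∈ V)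
    (y : Chart R c) : (y : E) ∈ V := by
  have hle : ∀ s : Algebra.adjoin R {c}, (s : E) ∈ V := by
    intro s
    have h1 : Algebra.adjoin R {c} ≤
        (⟨V.toSubring.toSubsemiring, fun r => hRV r⟩ : Subalgebra R E) := by
      apply Algebra.adjoin_le
      intro x hx
      rw [Set.mem_singleton_iff] at hx
      rw [hx]
      exact hcV
    exact h1 s.2
  let φ : Algebra.adjoin R {c} →+* ↥V :=
    { toFun := fun s => ⟨(s : E), hle s⟩
      map_one' := rfl
      map_mul' := fun _ _ => rfl
      map_zero' := rfl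
      map_add' := fun _ _ => rfl }
  have hint : IsIntegral ↥V ((RingHom.id E) (y : E)) :=
    IsIntegral.map_of_comp_eq φ (RingHom.id E) (RingHom.ext fun u => rfl) y.2
  obtain ⟨v, hv⟩ := (IsIntegrallyClosed.isIntegral_iff (R := ↥V) (K := E)).mp hint
  have : (y : E) = (v : E) := hv.symm
  rw [this]
  exact v.2

/-- **the component of a valuation subring**: prime, normal (element form), and residue
comparison with the level `F`. -/
theorem comp_vs (hRV : ∀ r : R, algebraMap R E r ∈ V) (hcV : algebraMap F E cF ∈ V)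
    (hRD : ∀ y : Chart R (algebraMap F E cF), ∃ z : F, algebraMap F E z ∈ V ∧
      V.valuation ((y : E) - algebraMap F E z) < 1)
    (hLN : ∀ (y : F) (n : ℕ) (cf : ℕ → F),
      (∀ i, cf i ∈ Algebra.adjoin R {cF}) → algebraMap F E y ∈ V →
      V.valuation (algebraMap F E (y ^ n + ∑ i ∈ Finset.range n, cf i * y ^ i)) < 1 →
      ∃ d : F, IsInt R cF d ∧ V.valuation (algebraMap F E (y - d)) < 1)
    (P : Ideal (Chart R (algebraMap F E cF)))
    (hP : ∀ y : Chart R (algebraMap F E cF), y ∈ P ↔ V.valuation (y : E) < 1) :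
    P.IsPrime ∧
    (∀ (a b : Chart R (algebraMap F E cF)) (p : (Algebra.adjoin R {algebraMap F E cF})[X]),
      b ∉ P → p.Monic → H9UF.homRel p a b ∈ P →
      ∃ d : Chart R (algebraMap F E cF), a - d * b ∈ P) ∧
    (∀ y : Chart R (algebraMap F E cF), ∃ d : Chart R (algebraMap F E cF),
      (∃ dF : F, IsInt R cF dF ∧ algebraMap F E dF = (d : E)) ∧ y - d ∈ P) := by
  have hmem : ∀ y : Chart R (algebraMap F E cF), (y : E) ∈ V.toSubring :=
    fun y => chart_mem_vs R V _ hRV hcV y
  let red : ↥V.toSubring →+* IsLocalRing.ResidueField ↥V := IsLocalRing.residue ↥V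
  have hred0 : ∀ (x : E) (hx : x ∈ V.toSubring), red ⟨x, hx⟩ = 0 ↔ V.valuation x < 1 :=
    fun x hx => vs_residue_eq_zero_iff V ⟨x, hx⟩
  have hredeq : ∀ (x y : E) (hx : x ∈ V.toSubring) (hy : y ∈ V.toSubring),
      red ⟨x, hx⟩ = red ⟨y, hy⟩ ↔ V.valuation (x - y) < 1 := by
    intro x y hx hy
    rw [← hred0 (x - y) (V.toSubring.sub_mem hx hy), ← sub_eq_zero, ← map_sub]
    rfl
  refine comp_val R cF V.toSubring red ?_ hmem ?_ ?_ P ?_
  · intro x hx
    by_contra hinv
    apply hx
    rw [hred0 (x : E) x.2, vs_lt_one_iff]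
    exact Or.inr hinv
  · intro y
    obtain ⟨z, hzV, hzy⟩ := hRD y
    refine ⟨z, hzV, ?_⟩
    rw [hredeq]
    have : algebraMap F E z - (y : E) = -((y : E) - algebraMap F E z) := by ring
    rw [this, Valuation.map_neg]
    exact hzy
  · intro y hy n cf hcf hG h0
    rw [hred0] at h0
    obtain ⟨d, hd, hdv⟩ := hLN y n cf hcf hy h0
    have hdV : algebraMap F E d ∈ V.toSubring := by
      have : algebraMap F E d = algebraMap F E y - algebraMap F E (y - d) := by
        rw [map_sub]; ring
      rw [this]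
      exact V.toSubring.sub_mem hy (vs_mem_of_lt_one V hdv)
    refine ⟨d, hd, hdV, ?_⟩
    rw [hredeq]
    have : algebraMap F E d - algebraMap F E y = -(algebraMap F E (y - d)) := by
      rw [map_sub]; ring
    rw [this, Valuation.map_neg]
    exact hdv
  · intro y
    rw [hP y, hred0]

/-- **uniformizers on the component of a valuation subring** -/
theorem unif_vs (hRV : ∀ r : R, algebraMap R E r ∈ V) (hcV : algebraMap F E cF ∈ V)
    (hRD : ∀ y : Chart R (algebraMap F E cF), ∃ z : F, algebraMap F E z ∈ V ∧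
      V.valuation ((y : E) - algebraMap F E z) < 1)
    (hLN : ∀ (y : F) (n : ℕ) (cf : ℕ → F),
      (∀ i, cf i ∈ Algebra.adjoin R {cF}) → algebraMap F E y ∈ V →
      V.valuation (algebraMap F E (y ^ n + ∑ i ∈ Finset.range n, cf i * y ^ i)) < 1 →
      ∃ d : F, IsInt R cF d ∧ V.valuation (algebraMap F E (y - d)) < 1)
    (hcK : Transcendental K (algebraMap F E cF))
    (hcfin : FiniteDimensional K⟮algebraMap F E cF⟯ E)
    {ϖ : R} (hϖ : Irreducible ϖ) (hϖV : V.valuation (algebraMap R E ϖ) < 1)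
    (P : Ideal (Chart R (algebraMap F E cF)))
    (hP : ∀ y : Chart R (algebraMap F E cF), y ∈ P ↔ V.valuation (y : E) < 1)
    (hPA : ∀ s : Algebra.adjoin R {algebraMap F E cF}, V.valuation (s : E) < 1 →
      algebraMap R (Algebra.adjoin R {algebraMap F E cF}) ϖ ∣ s)
    (𝔫 : Ideal (Chart R (algebraMap F E cF))) (h𝔫 : 𝔫.IsMaximal) (hle : P ≤ 𝔫) :
    ∃ x, UnifAt P 𝔫 x := by
  have hmem : ∀ y : Chart R (algebraMap F E cF), (y : E) ∈ V.toSubring :=
    fun y => chart_mem_vs R V _ hRV hcV y
  let red : ↥V.toSubring →+* IsLocalRing.ResidueField ↥V := IsLocalRing.residue ↥V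
  have hred0 : ∀ (x : E) (hx : x ∈ V.toSubring), red ⟨x, hx⟩ = 0 ↔ V.valuation x < 1 :=
    fun x hx => vs_residue_eq_zero_iff V ⟨x, hx⟩
  have hredeq : ∀ (x y : E) (hx : x ∈ V.toSubring) (hy : y ∈ V.toSubring),
      red ⟨x, hx⟩ = red ⟨y, hy⟩ ↔ V.valuation (x - y) < 1 := by
    intro x y hx hy
    rw [← hred0 (x - y) (V.toSubring.sub_mem hx hy), ← sub_eq_zero, ← map_sub]
    rfl
  refine unif_val R K cF V.toSubring red ?_ hmem ?_ ?_ hcK hcfin hϖ P ?_ ?_ ?_ 𝔫 h𝔫 hle
  · intro x hx
    by_contra hinv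
    apply hx
    rw [hred0 (x : E) x.2, vs_lt_one_iff]
    exact Or.inr hinv
  · intro y
    obtain ⟨z, hzV, hzy⟩ := hRD y
    refine ⟨z, hzV, ?_⟩
    rw [hredeq]
    have : algebraMap F E z - (y : E) = -((y : E) - algebraMap F E z) := by ring
    rw [this, Valuation.map_neg]
    exact hzy
  · intro y hy n cf hcf hG h0
    rw [hred0] at h0
    obtain ⟨d, hd, hdv⟩ := hLN y n cf hcf hy h0
    have hdV : algebraMap F E d ∈ V.toSubring := by
      have : algebraMap F E d = algebraMap F E y - algebraMap F E (y - d) := by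
        rw [map_sub]; ring
      rw [this]
      exact V.toSubring.sub_mem hy (vs_mem_of_lt_one V hdv)
    refine ⟨d, hd, hdV, ?_⟩
    rw [hredeq]
    have : algebraMap F E d - algebraMap F E y = -(algebraMap F E (y - d)) := by
      rw [map_sub]; ring
    rw [this, Valuation.map_neg]
    exact hdv
  · intro y
    rw [hP y, hred0]
  · rw [hP]
    exact hϖV
  · intro s hs
    rw [hP] at hs
    exact hPA s hs

end vs

end H9CU

end
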