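/-
helper9: item 86 (S36), slice (CU3), third component: uniformizers on the component `C₃` of the
special fibre at the level `L = M q²` cut out by a valuation subring `V₃` of `F₁(L)`, and the
residue comparison of `V₃` with the level `M`.

Generic part (`K`, `R ⊆ K` a DVR, `F ≤ E` intermediate fields of `K((𝐪)) / K`, `V` a valuation
subring of `E` with `V ∩ F` = Gauss ring of `F`):
* `H9CU.comp_inter_core` : `s ∈ R[c]`, `InGm s` ⟹ `ϖ ∣ s`;
* `H9CU.resdeg3_gen`     : `x = Σ c_k θ^k`, `θ ≡ a mod 𝔪(V)`, `c_k ≡ z_k mod 𝔪_{w₁}` ⟹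
                           `x ≡ Σ z_k a^k mod 𝔪(V)`;
* `H9CU.comp_vs_gen`, `H9CU.unif_vs_gen` : the component `P = {y ∈ M₀ | v(y) < 1}` is prime,
  normal, residually of level `F`, and has uniformizers at every closed point.

Concrete part (level `L`, `M q ∣ L`, `V₃` ANY valuation subring of `FK K₁ L` with
`h3lev : V₃ ∩ F₁(M q)` = Gauss ring and `h3J : v₃(J₂ - J) < 1`, as for `H3V3.V3`):
* `H9CU.resDeg3`  : Gauss-integral `x` of level `L` is `≡ z mod 𝔪(V₃)`, `z` of level `M`;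
* `H9CU.res3_sq`  : every chart element is `≡ mod P₃` to a chart element of level `M`;
* `H9CU.unif3_sq` : `∃ x, UnifAt P₃ 𝔫 x` for every maximal `𝔫 ⊇ P₃`.
-/
import Mathlib
import Fermat.Agent.S36.CompUnifVS_helper9
import Fermat.Agent.S36.CompUnifSq_helper9

set_option autoImplicit false
set_option synthInstance.maxHeartbeats 400000
set_option maxHeartbeats 4000000
set_option linter.unusedSectionVars false
set_option linter.unusedVariables false
set_option linter.style.haveILetI false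

noncomputable section

open Polynomial IntermediateField ModularCurve H7S18 H4S34 H26DI H28GV

namespace H9CU

section chartmem

variable (R : Type) [CommRing R] {E : Type} [Field E] [Algebra R E]

/-- the chart function lies in the chart ring -/
theorem chart_self_mem9 (c : E) : c ∈ Chart R c :=
  isIntegral_algebraMap (R := Algebra.adjoin R {c}) (A := E)
    (x := ⟨c, Algebra.self_mem_adjoin_singleton R c⟩)

/-- constants lie in the chart ring -/
theorem chart_const_mem9 (c : E) (r : R) : algebraMap R E r ∈ Chart R c :=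
  isIntegral_algebraMap (R := Algebra.adjoin R {c}) (A := E)
    (x := ⟨algebraMap R E r, Subalgebra.algebraMap_mem _ r⟩)

end chartmem

section vsprime

variable (R : Type) [CommRing R] [IsDomain R] [IsDiscreteValuationRing R]
  (K : Type) [Field K] [CharZero K] [Algebra R K] [IsFractionRing R K]
  {E : Type} [Field E] [Algebra K E] [Algebra R E] [IsScalarTower R K E]
  {F : Type} [Field F] [Algebra R F] [Algebra F E] [IsScalarTower R F E]
  (cF : F) (V : ValuationSubring E)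

/-- `H9CU.comp_vs` / `H9CU.unif_vs` for a chart parameter `c` given with `algebraMap F E cF = c` -/
theorem comp_unif_vs' (c : E) (hcE : algebraMap F E cF = c)
    (hRV : ∀ r : R, algebraMap R E r ∈ V) (hcV : c ∈ V)
    (hRD : ∀ y : Chart R c, ∃ z : F, algebraMap F E z ∈ V ∧
      V.valuation ((y : E) - algebraMap F E z) < 1)
    (hLN : ∀ (y : F) (n : ℕ) (cf : ℕ → F),
      (∀ i, cf i ∈ Algebra.adjoin R {cF}) → algebraMap F E y ∈ V →
      V.valuation (algebraMap F E (y ^ n + ∑ i ∈ Finset.range n, cf i * y ^ i)) < 1 →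
      ∃ d : F, IsInt R cF d ∧ V.valuation (algebraMap F E (y - d)) < 1)
    (hcK : Transcendental K c) (hcfin : FiniteDimensional K⟮c⟯ E)
    {ϖ : R} (hϖ : Irreducible ϖ) (hϖV : V.valuation (algebraMap R E ϖ) < 1)
    (P : Ideal (Chart R c)) (hP : ∀ y : Chart R c, y ∈ P ↔ V.valuation (y : E) < 1)
    (hPA : ∀ s : Algebra.adjoin R {c}, V.valuation (s : E) < 1 →
      algebraMap R (Algebra.adjoin R {c}) ϖ ∣ s) :
    (P.IsPrime ∧
      (∀ y : Chart R c, ∃ d : Chart R c,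
        (∃ dF : F, IsInt R cF dF ∧ algebraMap F E dF = (d : E)) ∧ y - d ∈ P)) ∧
    ∀ (𝔫 : Ideal (Chart R c)), 𝔫.IsMaximal → P ≤ 𝔫 → ∃ x, UnifAt P 𝔫 x := by
  subst hcE
  obtain ⟨h1, -, h3⟩ := comp_vs R cF V hRV hcV hRD hLN P hP
  exact ⟨⟨h1, h3⟩, fun 𝔫 h𝔫 hle =>
    unif_vs R K cF V hRV hcV hRD hLN hcK hcfin hϖ hϖV P hP hPA 𝔫 h𝔫 hle⟩

end vsprime

section gen3

variable {K : Type} [Field K] [CharZero K] (R : ValuationSubring K)
  [IsDiscreteValuationRing ↥R]
  (F E : IntermediateField K (LaurentSeries K)) (h : F ≤ E)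
  [Algebra ↥R ↥F] [IsScalarTower ↥R K ↥F] [Algebra ↥R ↥E] [IsScalarTower ↥R K ↥E]
  (ϖ : ↥R) (hϖ : Irreducible ϖ) (t c : ↥E) (hc : c = t ∨ c = t⁻¹)
  (htr : Transcendental K t)
  (V : ValuationSubring ↥E)

/-- the elements of `R[c]` are of the level of `c` -/
theorem adjoin_level (hcF : (c : LaurentSeries K) ∈ F) (s : ↥E)
    (hs : s ∈ Algebra.adjoin ↥R {c}) : (s : LaurentSeries K) ∈ F := by
  induction hs using Algebra.adjoin_induction with
  | mem x hx =>
    rw [Set.mem_singleton_iff] at hx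
    rw [hx]
    exact hcF
  | algebraMap r =>
    rw [H22DC.coe_algebraMap_R]
    have : (HahnSeries.C ((r : ↥R) : K) : LaurentSeries K) =
        algebraMap K (LaurentSeries K) ((r : ↥R) : K) := by
      rw [algebraMap_laurentSeries_eq_single]
      rfl
    rw [this]
    exact F.algebraMap_mem _
  | add x y _ _ hx hy => exact F.add_mem hx hy
  | mul x y _ _ hx hy => exact F.mul_mem hx hy

include hϖ hc htr in
/-- `InGm s → ϖ ∣ s` for `s ∈ R[c]` -/
theorem comp_inter_core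
    (hG : ∀ x : ↥E, GInt ↥R ϖ t x → H8PB.InG R (x : LaurentSeries K))
    (s : Algebra.adjoin ↥R {c})
    (hsm : H8PB.InGm R (((s : ↥E)) : LaurentSeries K)) :
    algebraMap ↥R (Algebra.adjoin ↥R {c}) ϖ ∣ s := by
  have htrR : Transcendental ↥R t := H19S18.h19_transc ↥R K htr
  have htr' : Transcendental K t⁻¹ := H19S18.h19_transc_inv K htr
  have htrR' : Transcendental ↥R t⁻¹ := H19S18.h19_transc ↥R K htr'
  by_contra hnd
  have hGU : IsGaussUnit ↥R ϖ c (s : ↥E) := (H19S18.h19_gaussUnit_iff ↥R ϖ c s).mpr hnd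
  have hs0 : (s : ↥E) ≠ 0 := by
    intro h0
    apply hnd
    have : s = 0 := Subtype.ext h0
    rw [this]
    exact dvd_zero _
  have hGc : GInt ↥R ϖ c ((s : ↥E))⁻¹ := by
    refine ⟨(s : ↥E), hGU, ?_⟩
    rw [mul_inv_cancel₀ hs0]
    exact isIntegral_one
  have hGt : GInt ↥R ϖ t ((s : ↥E))⁻¹ := by
    rcases hc with rfl | rfl
    · exact hGc
    · exact (H19S18.h19_gint_inv_iff ↥R htrR htrR' hϖ _).mp hGc
  have hInv := hG _ hGt
  obtain ⟨h1, h2⟩ := (H22DC.inGm_iff R _).mp hsm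
  have h3 := (H22DC.inG_iff R _).mp hInv
  have h4 : (⟨_, h1⟩ : ↥(gvO R (H22DC.resR R))) * ⟨_, h3⟩ = 1 := by
    apply Subtype.ext
    show (((s : ↥E)) : LaurentSeries K) * ((((s : ↥E))⁻¹ : ↥E) : LaurentSeries K) = 1
    rw [← MulMemClass.coe_mul, mul_inv_cancel₀ hs0]
    rfl
  have h5 := congrArg (gvRed R (H22DC.resR R)) h4
  rw [map_mul, h2, zero_mul, map_one] at h5
  exact zero_ne_one h5

include h in
/-- **residue degree one of `V` over the level `F`**, tower step -/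
theorem resdeg3_gen (F' : IntermediateField K (LaurentSeries K)) (hFF' : F ≤ F')
    (hF'E : F' ≤ E)
    (hVF' : ∀ x : ↥E, (x : LaurentSeries K) ∈ F' →
      (x ∈ V ↔ H8PB.InG R (x : LaurentSeries K)) ∧
      (V.valuation x < 1 ↔ H8PB.InGm R (x : LaurentSeries K)))
    (θ a : ↥E) (haF : (a : LaurentSeries K) ∈ F) (haG : H8PB.InG R (a : LaurentSeries K))
    (hθa : V.valuation (θ - a) < 1)
    (x : ↥E) (q : ℕ) (cf : ℕ → LaurentSeries K) (hcfF' : ∀ k, cf k ∈ F')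
    (hx : (x : LaurentSeries K) = ∑ k ∈ Finset.range q, cf k * (θ : LaurentSeries K) ^ k)
    (hcf : ∀ k, ∃ z : LaurentSeries K, z ∈ F ∧ H8PB.InG R z ∧ H8PB.InGm R (cf k - z)) :
    ∃ z : ↥E, (z : LaurentSeries K) ∈ F ∧ z ∈ V ∧ V.valuation (x - z) < 1 := by
  classical
  choose z hzF hzG hzm using hcf
  set cfE : ℕ → ↥E := fun k => ⟨cf k, hF'E (hcfF' k)⟩ with hcfE
  set zE : ℕ → ↥E := fun k => ⟨z k, h (hzF k)⟩ with hzE
  have hzV : ∀ k, zE k ∈ V := fun k => ((hVF' (zE k) (hFF' (hzF k))).1).mpr (hzG k)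
  have hczV : ∀ k, V.valuation (cfE k - zE k) < 1 := by
    intro k
    have hmem : ((cfE k - zE k : ↥E) : LaurentSeries K) ∈ F' :=
      F'.sub_mem (hcfF' k) (hFF' (hzF k))
    exact ((hVF' _ hmem).2).mpr (hzm k)
  have haV : a ∈ V := ((hVF' a (hFF' haF)).1).mpr haG
  have key := resdeg_tower_vs V θ a haV hθa q cfE zE hzV hczV
  have hxe : x = ∑ k ∈ Finset.range q, cfE k * θ ^ k := by
    apply Subtype.ext
    rw [hx]
    push_cast
    rfl
  refine ⟨∑ k ∈ Finset.range q, zE k * a ^ k, ?_, ?_, ?_⟩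
  · push_cast
    exact F.sum_mem (fun k _ => F.mul_mem (hzF k) (F.pow_mem haF k))
  · exact V.toSubring.sum_mem (fun k _ => V.mul_mem _ _ (hzV k) (V.toSubring.pow_mem haV _))
  · rw [hxe]
    exact key

include h hϖ hc htr in
/-- **the component of `V`** (generic Laurent form): prime, residually of level `F`, with
uniformizers at every closed point. -/
theorem comp_unif_vs_gen (hcF : (c : LaurentSeries K) ∈ F)
    (hVF : ∀ x : ↥E, (x : LaurentSeries K) ∈ F →
      (x ∈ V ↔ H8PB.InG R (x : LaurentSeries K)) ∧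
      (V.valuation x < 1 ↔ H8PB.InGm R (x : LaurentSeries K)))
    (hG : ∀ x : ↥E, GInt ↥R ϖ t x → H8PB.InG R (x : LaurentSeries K))
    (hRD : ∀ x : ↥E, GInt ↥R ϖ t x →
      ∃ z : ↥E, (z : LaurentSeries K) ∈ F ∧ z ∈ V ∧ V.valuation (x - z) < 1)
    (hLN : ∀ (y : ↥F) (n : ℕ) (cf : ℕ → ↥F),
      (∀ i, cf i ∈ Algebra.adjoin ↥R {(⟨(c : LaurentSeries K), hcF⟩ : ↥F)}) →
      H8PB.InG R (y : LaurentSeries K) →
      H8PB.InGm R (((y ^ n + ∑ i ∈ Finset.range n, cf i * y ^ i : ↥F)) : LaurentSeries K) →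
      ∃ d : ↥F, IsInt ↥R (⟨(c : LaurentSeries K), hcF⟩ : ↥F) d ∧
        H8PB.InGm R (((y - d : ↥F)) : LaurentSeries K))
    (hcfin : FiniteDimensional K⟮c⟯ ↥E)
    (P : Ideal (Chart ↥R c))
    (hP : ∀ y : Chart ↥R c, y ∈ P ↔ V.valuation (y : ↥E) < 1) :
    (P.IsPrime ∧
      (∀ y : Chart ↥R c, ∃ d : Chart ↥R c,
        (∃ dF : ↥F, IsInt ↥R (⟨(c : LaurentSeries K), hcF⟩ : ↥F) dF ∧
          (dF : LaurentSeries K) = ((d : ↥E) : LaurentSeries K)) ∧ y - d ∈ P)) ∧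
    ∀ (𝔫 : Ideal (Chart ↥R c)), 𝔫.IsMaximal → P ≤ 𝔫 → ∃ x, UnifAt P 𝔫 x := by
  letI algFE : Algebra ↥F ↥E := (IntermediateField.inclusion h).toRingHom.toAlgebra
  haveI towFE : IsScalarTower ↥R ↥F ↥E := IsScalarTower.of_algebraMap_eq (fun r => by
    rw [IsScalarTower.algebraMap_apply ↥R K ↥E, IsScalarTower.algebraMap_apply ↥R K ↥F]
    exact ((IntermediateField.inclusion h).commutes _).symm)
  have hcoe : ∀ z : ↥F, ((algebraMap ↥F ↥E z : ↥E) : LaurentSeries K) = (z : LaurentSeries K) :=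
    fun z => rfl
  have hcFE : algebraMap ↥F ↥E (⟨(c : LaurentSeries K), hcF⟩ : ↥F) = c := Subtype.ext rfl
  have hcK : Transcendental K c := by
    rcases hc with rfl | rfl
    · exact htr
    · exact H19S18.h19_transc_inv K htr
  have hgi := gint_of_chart R E ϖ hϖ t c hc htr
  have hlev : ∀ z : ↥F, ((algebraMap ↥F ↥E z : ↥E) : LaurentSeries K) ∈ F := fun z => z.2
  have hRV : ∀ r : ↥R, algebraMap ↥R ↥E r ∈ V := by
    intro r
    have h1 : ((algebraMap ↥R ↥E r : ↥E) : LaurentSeries K) ∈ F :=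
      adjoin_level R F E c hcF _ (Subalgebra.algebraMap_mem _ r)
    rw [(hVF _ h1).1]
    exact hG _ (hgi ⟨_, chart_const_mem9 ↥R c r⟩)
  have hcV : c ∈ V := by
    rw [(hVF _ hcF).1]
    exact hG _ (hgi ⟨_, chart_self_mem9 ↥R c⟩)
  have key := comp_unif_vs' ↥R K (⟨(c : LaurentSeries K), hcF⟩ : ↥F) V c hcFE hRV hcV
    ?_ ?_ hcK hcfin hϖ ?_ P hP ?_
  · obtain ⟨⟨h1, h2⟩, h3⟩ := key
    refine ⟨⟨h1, ?_⟩, h3⟩
    intro y
    obtain ⟨d, ⟨dF, hdF, hde⟩, hyd⟩ := h2 y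
    refine ⟨d, ⟨dF, hdF, ?_⟩, hyd⟩
    rw [← hde]
    rfl
  · intro y
    obtain ⟨z, hzF, hzV, hzy⟩ := hRD _ (hgi y)
    refine ⟨⟨(z : LaurentSeries K), hzF⟩, ?_, ?_⟩
    · have : algebraMap ↥F ↥E ⟨(z : LaurentSeries K), hzF⟩ = z := Subtype.ext rfl
      rw [this]
      exact hzV
    · have : algebraMap ↥F ↥E ⟨(z : LaurentSeries K), hzF⟩ = z := Subtype.ext rfl
      rw [this]
      exact hzy
  · intro y n cf hcf hyV hval
    have hyG : H8PB.InG R (y : LaurentSeries K) := by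
      have := (hVF _ (hlev y)).1.mp hyV
      rwa [hcoe] at this
    have hrel : H8PB.InGm R
        (((y ^ n + ∑ i ∈ Finset.range n, cf i * y ^ i : ↥F)) : LaurentSeries K) := by
      have := (hVF _ (hlev _)).2.mp hval
      rwa [hcoe] at this
    obtain ⟨d, hd, hdm⟩ := hLN y n cf hcf hyG hrel
    refine ⟨d, hd, ?_⟩
    rw [(hVF _ (hlev _)).2, hcoe]
    exact hdm
  · have h1 : ((algebraMap ↥R ↥E ϖ : ↥E) : LaurentSeries K) ∈ F :=
      adjoin_level R F E c hcF _ (Subalgebra.algebraMap_mem _ ϖ)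
    rw [(hVF _ h1).2]
    exact H22DC.inGm_algebraMap R hϖ.not_isUnit
  · intro s hs
    have h1 : (((s : ↥E)) : LaurentSeries K) ∈ F := adjoin_level R F E c hcF _ s.2
    exact comp_inter_core R E ϖ hϖ t c hc htr hG s ((hVF _ h1).2.mp hs)

end gen3

section concrete3

variable (M : ℕ) [NeZero M] (q : ℕ) [NeZero q] (hq : q.Prime) (hqM : ¬ q ∣ M)
  (hT : TameLevel q M)
  (A : ValuationSubring (AlgebraicClosure ℚ)) (hA : A.LiesOverPrime q)
  (K₁ : IntermediateField ℚ (AlgebraicClosure ℚ)) (hfin : FiniteDimensional ℚ K₁)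
  (hζ : ∃ ζ : K₁, IsPrimitiveRoot ζ (branchIndex (baseKind q) M))
  (L : ℕ) [NeZero L]

include hT in
/-- field basics at the level `L`, `M ∣ L`, for the chart parameter `c ∈ {t, t⁻¹}` -/
theorem sq_basics (hML : M ∣ L)
    (t₀ : LaurentSeries ℚ) (ht₀ : IsBase (baseKind q) t₀)
    (t : FK K₁ L) (ht : (t : LaurentSeries K₁) = coeffEmb K₁ t₀)
    (c : FK K₁ L) (hc : c = t ∨ c = t⁻¹) :
    Transcendental K₁ t ∧ FiniteDimensional K₁⟮c⟯ (FK K₁ L) ∧
    laurentBaseChange K₁ (modularFunctionFieldFull M) ≤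
      laurentBaseChange K₁ (modularFunctionFieldFull L) ∧
    ∃ tM : FK K₁ M, (tM : LaurentSeries K₁) = coeffEmb K₁ t₀ ∧
      ∃ hcF : (c : LaurentSeries K₁) ∈ laurentBaseChange K₁ (modularFunctionFieldFull M),
        (⟨(c : LaurentSeries K₁), hcF⟩ : FK K₁ M) = tM ∨
          (⟨(c : LaurentSeries K₁), hcF⟩ : FK K₁ M) = tM⁻¹ := by
  have hiM := H28PL.baseKind_ok hT
  have hiL : baseKind q = 1 ∨ (baseKind q = 2 ∧ 2 ∣ L) ∨ (baseKind q = 3 ∧ 3 ∣ L) := by
    rcases hiM with h | h | h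
    · exact Or.inl h
    · exact Or.inr (Or.inl ⟨h.1, h.2.trans hML⟩)
    · exact Or.inr (Or.inr ⟨h.1, h.2.trans hML⟩)
  obtain ⟨tM, htM, -, -, -⟩ := H9C6e.fieldBasics M (baseKind q) hiM t₀ ht₀ K₁
  obtain ⟨t₁, ht₁coe, ht₁tr, ht₁fin, -⟩ := H9C6e.fieldBasics L (baseKind q) hiL t₀ ht₀ K₁
  have htt : t₁ = t := Subtype.ext (ht₁coe.trans ht.symm)
  rw [htt] at ht₁tr ht₁fin
  have hfin' : FiniteDimensional K₁⟮t⁻¹⟯ (FK K₁ L) :=
    H21S18.finiteDimensional_transport (H21S18.adjoin_inv_eq (K := K₁) t).symm ht₁fin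
  have hcfin : FiniteDimensional K₁⟮c⟯ (FK K₁ L) := by
    rcases hc with h | h
    · rw [h]; exact ht₁fin
    · rw [h]; exact hfin'
  have hFE : laurentBaseChange K₁ (modularFunctionFieldFull M) ≤
      laurentBaseChange K₁ (modularFunctionFieldFull L) :=
    H28PL.laurentBaseChange_le K₁ (full_degeneracy_le hML)
  have htF : (t : LaurentSeries K₁) ∈ laurentBaseChange K₁ (modularFunctionFieldFull M) := by
    rw [ht, ← htM]
    exact tM.2
  have hcF : (c : LaurentSeries K₁) ∈ laurentBaseChange K₁ (modularFunctionFieldFull M) := by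
    rcases hc with h | h
    · rw [h]
      exact htF
    · rw [h]
      show ((t : LaurentSeries K₁))⁻¹ ∈ _
      exact inv_mem htF
  refine ⟨ht₁tr, hcfin, hFE, tM, htM, hcF, ?_⟩
  rcases hc with h | h
  · left
    apply Subtype.ext
    show (c : LaurentSeries K₁) = (tM : LaurentSeries K₁)
    rw [h, ht, htM]
  · right
    apply Subtype.ext
    show (c : LaurentSeries K₁) = ((tM : LaurentSeries K₁))⁻¹
    rw [h, htM, ← ht]
    rfl

variable (V₃ : ValuationSubring (FK K₁ L))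

include hq hqM hT hA hfin in
/-- **residue degree one of `V₃` over the level `M`**: an element `Σ_{k<q} c_k J₂^k` of level
`L` with coordinates in both Gauss rings of level `M q` is congruent modulo `𝔪(V₃)` to an
element of level `M`. -/
theorem resDeg3 (hML : M * q ∣ L)
    (h3lev : ∀ x : FK K₁ L,
      (x : LaurentSeries K₁) ∈ laurentBaseChange K₁ (modularFunctionFieldFull (M * q)) →
      (x ∈ V₃ ↔ H8PB.InG (descVal A K₁) (x : LaurentSeries K₁)) ∧
      (V₃.valuation x < 1 ↔ H8PB.InGm (descVal A K₁) (x : LaurentSeries K₁)))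
    (J0 J2 : FK K₁ L) (hJ0 : (J0 : LaurentSeries K₁) = jqModC K₁)
    (hJ2 : (J2 : LaurentSeries K₁) = qExpand K₁ (q * q) (jqModC K₁))
    (h3J : V₃.valuation (J2 - J0) < 1)
    (x : FK K₁ L) (cf : ℕ → FK K₁ (M * q))
    (hcf : ∀ k, H8PB.InG (descVal A K₁) ((cf k : FK K₁ (M * q)) : LaurentSeries K₁) ∧
      H8PB.InG (descVal A K₁)
        ((H12AL.wqKHom K₁ M q hq hqM (cf k) : FK K₁ (M * q)) : LaurentSeries K₁))
    (hx : (x : LaurentSeries K₁) = ∑ k ∈ Finset.range q,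
      ((cf k : FK K₁ (M * q)) : LaurentSeries K₁) * (qExpand K₁ (q * q) (jqModC K₁)) ^ k) :
    ∃ z : FK K₁ L, (z : LaurentSeries K₁) ∈ laurentBaseChange K₁ (modularFunctionFieldFull M) ∧
      z ∈ V₃ ∧ V₃.valuation (x - z) < 1 := by
  haveI : Fact q.Prime := ⟨hq⟩
  obtain ⟨hdvr, -, -⟩ := H4DVR.dvrStatement q A hA K₁ hfin
  haveI := hdvr
  have hML' : M ∣ L := (Dvd.intro q rfl).trans hML
  have hFE : laurentBaseChange K₁ (modularFunctionFieldFull M) ≤
      laurentBaseChange K₁ (modularFunctionFieldFull L) :=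
    H28PL.laurentBaseChange_le K₁ (full_degeneracy_le hML')
  have hFF' : laurentBaseChange K₁ (modularFunctionFieldFull M) ≤
      laurentBaseChange K₁ (modularFunctionFieldFull (M * q)) :=
    H28PL.laurentBaseChange_le K₁ (full_degeneracy_le (Dvd.intro q rfl))
  have hF'E : laurentBaseChange K₁ (modularFunctionFieldFull (M * q)) ≤
      laurentBaseChange K₁ (modularFunctionFieldFull L) :=
    H28PL.laurentBaseChange_le K₁ (full_degeneracy_le hML)
  have hjM : (J0 : LaurentSeries K₁) ∈ laurentBaseChange K₁ (modularFunctionFieldFull M) := by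
    rw [hJ0]
    exact gv_mem_base_of_full M (jqModC_mem_full ↥K₁ M)
  have hjG : H8PB.InG (descVal A K₁) (J0 : LaurentSeries K₁) := by
    rw [hJ0, H22DC.inG_iff, ← H8PB.h8pb_eps_jq K₁ (descVal A K₁)]
    exact gvEps_mem_gvO _ _ _
  refine resdeg3_gen (descVal A K₁) (laurentBaseChange K₁ (modularFunctionFieldFull M))
    (laurentBaseChange K₁ (modularFunctionFieldFull L)) hFE V₃
    (laurentBaseChange K₁ (modularFunctionFieldFull (M * q))) hFF' hF'E h3lev J2 J0 hjM hjG h3J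
    x q (fun k => ((cf k : FK K₁ (M * q)) : LaurentSeries K₁)) (fun k => (cf k).2) ?_ ?_
  · rw [hx, hJ2]
  · exact fun k => H8PB.h8pb_resDegOne M q hq hqM hT A hA K₁ hfin (cf k) (hcf k).1 (hcf k).2

include hq hqM hT hA hfin hζ in
/-- **(CU3), third component**: the component `P₃ = {y ∈ M₀ | v₃(y) < 1}` of the chart
`c ∈ {t, t⁻¹}` at the level `L` (`M q ∣ L`) is prime, residually of level `M`, and has a
uniformizer at every closed point. -/
theorem comp_unif3_sq (hML : M * q ∣ L)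
    (h3lev : ∀ x : FK K₁ L,
      (x : LaurentSeries K₁) ∈ laurentBaseChange K₁ (modularFunctionFieldFull (M * q)) →
      (x ∈ V₃ ↔ H8PB.InG (descVal A K₁) (x : LaurentSeries K₁)) ∧
      (V₃.valuation x < 1 ↔ H8PB.InGm (descVal A K₁) (x : LaurentSeries K₁)))
    (J0 J2 : FK K₁ L) (hJ0 : (J0 : LaurentSeries K₁) = jqModC K₁)
    (hJ2 : (J2 : LaurentSeries K₁) = qExpand K₁ (q * q) (jqModC K₁))
    (h3J : V₃.valuation (J2 - J0) < 1)
    [Algebra ↥(descVal A K₁) (FK K₁ L)] [IsScalarTower ↥(descVal A K₁) K₁ (FK K₁ L)]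
    (ϖ : ↥(descVal A K₁)) (hϖ : Irreducible ϖ)
    (t₀ : LaurentSeries ℚ) (ht₀ : IsBase (baseKind q) t₀)
    (t : FK K₁ L) (ht : (t : LaurentSeries K₁) = coeffEmb K₁ t₀)
    (c : FK K₁ L) (hc : c = t ∨ c = t⁻¹)
    (hTC : ∀ x : FK K₁ L, GInt ↥(descVal A K₁) ϖ t x →
      ∃ cf : ℕ → FK K₁ (M * q),
        (∀ k, H8PB.InG (descVal A K₁) ((cf k : FK K₁ (M * q)) : LaurentSeries K₁) ∧
          H8PB.InG (descVal A K₁)
            ((H12AL.wqKHom K₁ M q hq hqM (cf k) : FK K₁ (M * q)) : LaurentSeries K₁)) ∧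
        (x : LaurentSeries K₁) = ∑ k ∈ Finset.range q,
          ((cf k : FK K₁ (M * q)) : LaurentSeries K₁) * (qExpand K₁ (q * q) (jqModC K₁)) ^ k)
    (P₃ : Ideal (Chart ↥(descVal A K₁) c))
    (hP₃ : ∀ y : Chart ↥(descVal A K₁) c, y ∈ P₃ ↔ V₃.valuation (y : FK K₁ L) < 1) :
    (P₃.IsPrime ∧
      (∀ y : Chart ↥(descVal A K₁) c, ∃ d : Chart ↥(descVal A K₁) c,
        (((d : FK K₁ L)) : LaurentSeries K₁) ∈
          laurentBaseChange K₁ (modularFunctionFieldFull M) ∧ y - d ∈ P₃)) ∧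
    ∀ (𝔫 : Ideal (Chart ↥(descVal A K₁) c)), 𝔫.IsMaximal → P₃ ≤ 𝔫 → ∃ x, UnifAt P₃ 𝔫 x := by
  haveI : Fact q.Prime := ⟨hq⟩
  obtain ⟨hdvr, -, -⟩ := H4DVR.dvrStatement q A hA K₁ hfin
  haveI := hdvr
  have hML' : M ∣ L := (Dvd.intro q rfl).trans hML
  obtain ⟨htr, hcfin, hFE, tM, htM, hcF, hcM⟩ := sq_basics M q hT K₁ L hML' t₀ ht₀ t ht c hc
  have hFF' : laurentBaseChange K₁ (modularFunctionFieldFull M) ≤
      laurentBaseChange K₁ (modularFunctionFieldFull (M * q)) :=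
    H28PL.laurentBaseChange_le K₁ (full_degeneracy_le (Dvd.intro q rfl))
  letI algRF : Algebra ↥(descVal A K₁) (FK K₁ M) :=
    ((algebraMap K₁ (FK K₁ M)).comp (algebraMap ↥(descVal A K₁) K₁)).toAlgebra
  haveI towRF : IsScalarTower ↥(descVal A K₁) K₁ (FK K₁ M) :=
    IsScalarTower.of_algebraMap_eq (fun _ => rfl)
  have hJ2G := (H22DC.inG_iff (descVal A K₁) _).mp (inG_J2 q K₁ (descVal A K₁))
  have key := comp_unif_vs_gen (descVal A K₁) (laurentBaseChange K₁ (modularFunctionFieldFull M))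
    (laurentBaseChange K₁ (modularFunctionFieldFull L)) hFE ϖ hϖ t c hc htr V₃ hcF
    (fun x hx => h3lev x (hFF' hx)) ?_ ?_ ?_ hcfin P₃ hP₃
  · obtain ⟨⟨h1, h2⟩, h3⟩ := key
    refine ⟨⟨h1, ?_⟩, h3⟩
    intro y
    obtain ⟨d, ⟨dF, -, hde⟩, hyd⟩ := h2 y
    refine ⟨d, ?_, hyd⟩
    rw [← hde]
    exact dF.2
  · intro x hx
    obtain ⟨cf, hcf, hxe⟩ := hTC x hx
    rw [hxe, H22DC.inG_iff]
    exact Subring.sum_mem _ (fun k _ => Subring.mul_mem _
      ((H22DC.inG_iff _ _).mp (hcf k).1) (Subring.pow_mem _ hJ2G _))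
  · intro x hx
    obtain ⟨cf, hcf, hxe⟩ := hTC x hx
    exact resDeg3 M q hq hqM hT A hA K₁ hfin L V₃ hML h3lev J0 J2 hJ0 hJ2 h3J x cf hcf hxe
  · exact fun y n cf hcf hy hrel =>
      levelNormal_at M q hq hqM hT A hA K₁ hfin hζ ϖ hϖ t₀ ht₀ tM htM ⟨_, hcF⟩ hcM
        y n cf hcf hy hrel

end concrete3

end H9CU

end
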