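/-
helper24: item 86 (S36), slice TripleGauss via the RELATIVE extension `F(N'q) ⊆ F(N'q²)`.

Ring-theoretic core (Mathlib only).  `A → B_a`, `A → B_b` ring homomorphisms (later: the
valuation ring `V₁'` of `F(N'q)` and the valuation rings `V₁`, `V₃` of `F(N'q²)` above it),
`ϖ ∈ A`, ideals `I_a ⊆ B_a`, `I_b ⊆ B_b` (the maximal ideals) lying over `ϖ A`.
`θ ≡ a mod I_a` (simple root), `b := θ - c ∈ I_b` with `b ^ (d-1) ∼ ϖ` (totally ramified
root), `θ - a` a unit of `B_b`.  Then a polynomial `P ∈ A[X]` of degree `< d` with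
`P(θ) ∈ I_a` and `P(θ) ∈ ϖ B_b` has all its coefficients in `ϖ A`.
-/
import Mathlib

set_option autoImplicit false
set_option linter.style.haveILetI false

open Polynomial

namespace H24RG

section Core

/-- **Eisenstein-type induction**: `Q ∈ A[X]` of degree `< m ≤ e`, `b ^ e ∼ ϖ`, `b ∈ I`,
`I ∩ A ⊆ ϖ A`: if `Q(b) ∈ b ^ m B` then all the coefficients of `Q` lie in `ϖ A`. -/
theorem coeff_mem_of_eval₂_mem_pow {A B : Type} [CommRing A] [CommRing B] [IsDomain B]
    (ι : A →+* B) (ϖ : A) (I : Ideal B)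
    (hI : ∀ r : A, ι r ∈ I → r ∈ Ideal.span {ϖ})
    (b : B) (hbI : b ∈ I) (hb0 : b ≠ 0) (e : ℕ)
    (hbe : Ideal.span {ι ϖ} = Ideal.span {b ^ e}) :
    ∀ (m : ℕ), m ≤ e → ∀ Q : A[X], Q.degree < m → Q.eval₂ ι b ∈ Ideal.span {b ^ m} →
      ∀ k, Q.coeff k ∈ Ideal.span {ϖ} := by
  intro m
  induction m with
  | zero =>
    intro _ Q hQ _ k
    have : Q = 0 := by
      rw [← Polynomial.degree_eq_bot]
      by_contra h
      obtain ⟨n, hn⟩ := WithBot.ne_bot_iff_exists.mp h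
      rw [← hn] at hQ
      have : ((n : ℕ) : WithBot ℕ) < ((0 : ℕ) : WithBot ℕ) := hQ
      exact absurd (WithBot.coe_lt_coe.mp this) (Nat.not_lt_zero n)
    rw [this, Polynomial.coeff_zero]
    exact Ideal.zero_mem _
  | succ m ih =>
    intro hm Q hQ hev k
    by_cases hQ0 : Q = 0
    · rw [hQ0, Polynomial.coeff_zero]
      exact Ideal.zero_mem _
    have hdec : Q.divX * X + C (Q.coeff 0) = Q := Polynomial.divX_mul_X_add Q
    have hev' : Q.eval₂ ι b = Q.divX.eval₂ ι b * b + ι (Q.coeff 0) := by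
      conv_lhs => rw [← hdec]
      rw [Polynomial.eval₂_add, Polynomial.eval₂_mul, Polynomial.eval₂_X, Polynomial.eval₂_C]
    -- the constant coefficient
    have hpowI : Ideal.span {b ^ (m + 1)} ≤ I := by
      rw [Ideal.span_le, Set.singleton_subset_iff]
      exact I.pow_mem_of_mem hbI (m + 1) (Nat.succ_pos m)
    have h0I : ι (Q.coeff 0) ∈ I := by
      have h1 : Q.eval₂ ι b ∈ I := hpowI hev
      have h2 : Q.divX.eval₂ ι b * b ∈ I := I.mul_mem_left _ hbI
      have h3 : ι (Q.coeff 0) = Q.eval₂ ι b - Q.divX.eval₂ ι b * b := by rw [hev']; ring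
      rw [h3]
      exact I.sub_mem h1 h2
    have h0 : Q.coeff 0 ∈ Ideal.span {ϖ} := hI _ h0I
    have h0' : ι (Q.coeff 0) ∈ Ideal.span {b ^ (m + 1)} := by
      have h1 : ι (Q.coeff 0) ∈ Ideal.span {ι ϖ} := by
        obtain ⟨s, hs⟩ := Ideal.mem_span_singleton'.mp h0
        rw [← hs, map_mul]
        exact Ideal.mul_mem_left _ _ (Ideal.mem_span_singleton_self _)
      rw [hbe] at h1
      obtain ⟨s, hs⟩ := Ideal.mem_span_singleton'.mp h1
      rw [Ideal.mem_span_singleton']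
      refine ⟨s * b ^ (e - (m + 1)), ?_⟩
      rw [mul_assoc, ← pow_add, Nat.sub_add_cancel hm]
      exact hs
    -- the rest
    have hrest : Q.divX.eval₂ ι b ∈ Ideal.span {b ^ m} := by
      have h1 : Q.divX.eval₂ ι b * b ∈ Ideal.span {b ^ (m + 1)} := by
        have h3 : Q.divX.eval₂ ι b * b = Q.eval₂ ι b - ι (Q.coeff 0) := by rw [hev']; ring
        rw [h3]
        exact Ideal.sub_mem _ hev h0'
      obtain ⟨s, hs⟩ := Ideal.mem_span_singleton'.mp h1
      rw [Ideal.mem_span_singleton']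
      refine ⟨s, ?_⟩
      have h4 : (s * b ^ m) * b = Q.divX.eval₂ ι b * b := by
        rw [← hs, pow_succ]; ring
      exact mul_right_cancel₀ hb0 h4
    have hdeg : Q.divX.degree < (m : WithBot ℕ) := by
      have h1 := Polynomial.degree_divX_lt hQ0
      have h2 : Q.degree ≤ (m : WithBot ℕ) := by
        rw [Polynomial.degree_eq_natDegree hQ0] at hQ ⊢
        have h3 : Q.natDegree < m + 1 := by exact_mod_cast hQ
        exact_mod_cast Nat.lt_succ_iff.mp h3
      exact lt_of_lt_of_le h1 h2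
    have hih := ih (Nat.le_of_succ_le hm) Q.divX hdeg hrest
    rcases k with _ | k
    · exact h0
    · rw [← Polynomial.coeff_divX]
      exact hih k

/-- evaluation of a Taylor shift -/
theorem eval₂_taylor' {A B : Type} [CommRing A] [CommRing B] (ι : A →+* B) (c : A) (x : B)
    (Q : A[X]) : (Polynomial.taylor c Q).eval₂ ι x = Q.eval₂ ι (x + ι c) := by
  rw [Polynomial.taylor_apply, Polynomial.eval₂_comp, Polynomial.eval₂_add, Polynomial.eval₂_X,
    Polynomial.eval₂_C]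

/-- a Taylor shift preserves "all coefficients in `J`" -/
theorem coeff_taylor_mem {A : Type} [CommRing A] (J : Ideal A) (c : A) (Q : A[X])
    (hQ : ∀ k, Q.coeff k ∈ J) : ∀ k, (Polynomial.taylor c Q).coeff k ∈ J := by
  intro k
  rw [Polynomial.taylor_coeff, Polynomial.eval_eq_sum_range]
  refine Ideal.sum_mem _ fun i _ => ?_
  rw [Polynomial.hasseDeriv_coeff]
  exact Ideal.mul_mem_right _ _ (Ideal.mul_mem_left _ _ (hQ _))

/-- **core of (B)**: see the header. -/
theorem core_split {A Ba Bb : Type} [CommRing A] [CommRing Ba] [CommRing Bb] [IsDomain Bb]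
    (ιa : A →+* Ba) (ιb : A →+* Bb) (ϖ : A)
    (Ia : Ideal Ba) (Ib : Ideal Bb)
    (hIa : ∀ r : A, ιa r ∈ Ia → r ∈ Ideal.span {ϖ})
    (hIb : ∀ r : A, ιb r ∈ Ib → r ∈ Ideal.span {ϖ})
    (θa : Ba) (θb : Bb) (a c : A)
    (ha : θa - ιa a ∈ Ia)
    (hb : θb - ιb c ∈ Ib) (hb0 : θb - ιb c ≠ 0)
    (d : ℕ) (hbe : Ideal.span {ιb ϖ} = Ideal.span {(θb - ιb c) ^ (d - 1)})
    (hu : IsUnit (θb - ιb a))
    (P : A[X]) (hP : P.degree < d)
    (hPa : P.eval₂ ιa θa ∈ Ia) (hPb : P.eval₂ ιb θb ∈ Ideal.span {ιb ϖ}) :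
    ∀ k, P.coeff k ∈ Ideal.span {ϖ} := by
  by_cases hP0 : P = 0
  · intro k
    rw [hP0, Polynomial.coeff_zero]
    exact Ideal.zero_mem _
  set Q : A[X] := P /ₘ (X - C a) with hQdef
  set r : A := P.eval a with hrdef
  have hdec : C r + (X - C a) * Q = P := by
    have := Polynomial.modByMonic_add_div P (X - C a)
    rwa [Polynomial.modByMonic_X_sub_C_eq_C_eval] at this
  -- the remainder
  have hr : r ∈ Ideal.span {ϖ} := by
    apply hIa
    have h1 : P.eval₂ ιa θa = ιa r + (θa - ιa a) * Q.eval₂ ιa θa := by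
      conv_lhs => rw [← hdec]
      rw [Polynomial.eval₂_add, Polynomial.eval₂_mul, Polynomial.eval₂_sub, Polynomial.eval₂_X,
        Polynomial.eval₂_C, Polynomial.eval₂_C]
    have h2 : ιa r = P.eval₂ ιa θa - (θa - ιa a) * Q.eval₂ ιa θa := by rw [h1]; ring
    rw [h2]
    exact Ia.sub_mem hPa (Ia.mul_mem_right _ ha)
  have hr' : ιb r ∈ Ideal.span {ιb ϖ} := by
    obtain ⟨s, hs⟩ := Ideal.mem_span_singleton'.mp hr
    rw [← hs, map_mul]
    exact Ideal.mul_mem_left _ _ (Ideal.mem_span_singleton_self _)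
  -- the quotient at `θb`
  have hQb : Q.eval₂ ιb θb ∈ Ideal.span {ιb ϖ} := by
    have h1 : P.eval₂ ιb θb = ιb r + (θb - ιb a) * Q.eval₂ ιb θb := by
      conv_lhs => rw [← hdec]
      rw [Polynomial.eval₂_add, Polynomial.eval₂_mul, Polynomial.eval₂_sub, Polynomial.eval₂_X,
        Polynomial.eval₂_C, Polynomial.eval₂_C]
    have h2 : (θb - ιb a) * Q.eval₂ ιb θb ∈ Ideal.span {ιb ϖ} := by
      have h3 : (θb - ιb a) * Q.eval₂ ιb θb = P.eval₂ ιb θb - ιb r := by rw [h1]; ring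
      rw [h3]
      exact Ideal.sub_mem _ hPb hr'
    obtain ⟨u, hu'⟩ := hu
    have h4 : Q.eval₂ ιb θb = ((u⁻¹ : Bbˣ) : Bb) * ((θb - ιb a) * Q.eval₂ ιb θb) := by
      rw [← hu', ← mul_assoc, Units.inv_mul, one_mul]
    rw [h4]
    exact Ideal.mul_mem_left _ _ h2
  -- Taylor shift
  have hQ'ev : (Polynomial.taylor c Q).eval₂ ιb (θb - ιb c) ∈
      Ideal.span {(θb - ιb c) ^ (d - 1)} := by
    rw [eval₂_taylor', sub_add_cancel, ← hbe]
    exact hQb
  have hQdeg : Q.degree < ((d - 1 : ℕ) : WithBot ℕ) := by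
    have h1 : Q.degree < P.degree := by
      haveI := Polynomial.Nontrivial.of_polynomial_ne hP0
      apply Polynomial.degree_divByMonic_lt P (X - C a) hP0
      rw [Polynomial.degree_X_sub_C]
      exact zero_lt_one
    have h2 : P.degree ≤ ((d - 1 : ℕ) : WithBot ℕ) := by
      rw [Polynomial.degree_eq_natDegree hP0] at hP ⊢
      have h3 : P.natDegree < d := by exact_mod_cast hP
      exact_mod_cast Nat.le_sub_one_of_lt h3
    exact lt_of_lt_of_le h1 h2
  have hQ'deg : (Polynomial.taylor c Q).degree < ((d - 1 : ℕ) : WithBot ℕ) := by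
    rw [Polynomial.degree_taylor]
    exact hQdeg
  have hQ' := coeff_mem_of_eval₂_mem_pow ιb ϖ Ib hIb (θb - ιb c) hb hb0 (d - 1) hbe (d - 1)
    le_rfl (Polynomial.taylor c Q) hQ'deg hQ'ev
  have hQc : ∀ k, Q.coeff k ∈ Ideal.span {ϖ} := by
    have h1 := coeff_taylor_mem (Ideal.span {ϖ}) (-c) _ hQ'
    rwa [Polynomial.taylor_taylor, neg_add_cancel, Polynomial.taylor_zero] at h1
  -- conclusion
  have hPmem : P ∈ Ideal.map (C : A →+* A[X]) (Ideal.span {ϖ}) := by
    rw [← hdec]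
    refine Ideal.add_mem _ ?_ (Ideal.mul_mem_left _ _ ?_)
    · exact Ideal.mem_map_of_mem _ hr
    · exact Ideal.mem_map_C_iff.mpr hQc
  exact Ideal.mem_map_C_iff.mp hPmem

end Core

end H24RG
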