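/-
helper24: item 86 (S36), slice TripleGauss via the RELATIVE extension `F₁ = F(N'q) ⊆ F₂ = F₁(θ)`,
`θ = j(q²z)`, `[F₂ : F₁] = q`.  Generic lemmas (Mathlib only), valuation-subring language.

`V'` a valuation subring of `F₁`, `V` (resp. `Va`, `Vb`) valuation subrings of `F₂` lying over
`V'` (`c ∈ V' ↔ c ∈ V` for `c ∈ F₁`).  For `x = ∑_{k<d} c_k θ^k`, `c_k ∈ F₁`:

* `rel_inert` **(A)**: if `1, θ, …, θ^{d-1}` are linearly independent mod `𝔪(V)` over `V'`
  (inert case: `f(V|V') = d`), then `x ∈ V → ∀ k, c_k ∈ V'`;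
* `rel_split` **(B)**: if `θ ≡ a mod 𝔪(Va)`, `b := θ - c₀ ∈ 𝔪(Vb)` with `b^(d-1) = ϖ · unit`
  (`ϖ` a uniformizer of `V'`), `a - c₀ ∈ (V')ˣ`, then `x ∈ Va → x ∈ Vb → ∀ k, c_k ∈ V'`
  (split case: `e f = 1` for `Va`, `e = d - 1` for `Vb`).

So with `V₁' ∩ V₂' = O₁` known at level `N'q` (PairGauss): `V₁ ∩ V₂ ∩ V₃ = O₁[θ]`.
-/
import Mathlib
import Fermat.Agent.S36.RelGaussCore_helper24

set_option autoImplicit false
set_option linter.unusedSectionVars false
set_option linter.unusedVariables false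
set_option linter.style.haveILetI false

open Polynomial

namespace H24RG

section Wrap

variable {F₁ F₂ : Type} [Field F₁] [Field F₂] [Algebra F₁ F₂]

/-- `V` lies over `V'`. -/
def LiesOverVS (V : ValuationSubring F₂) (V' : ValuationSubring F₁) : Prop :=
  ∀ c : F₁, algebraMap F₁ F₂ c ∈ V ↔ c ∈ V'

theorem valuation_lt_one_iff' {F : Type} [Field F] (V : ValuationSubring F) (x : F) :
    V.valuation x < 1 ↔ x = 0 ∨ x⁻¹ ∉ V := by
  rw [← ValuationSubring.mem_nonunits_iff, ValuationSubring.mem_nonunits_iff_or]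

theorem LiesOverVS.lt_one_iff {V : ValuationSubring F₂} {V' : ValuationSubring F₁}
    (h : LiesOverVS V V') (c : F₁) :
    V.valuation (algebraMap F₁ F₂ c) < 1 ↔ V'.valuation c < 1 := by
  rw [valuation_lt_one_iff', valuation_lt_one_iff', ← map_inv₀, h c⁻¹,
    map_eq_zero_iff _ (algebraMap F₁ F₂).injective]

theorem mem_of_lt_one {F : Type} [Field F] (V : ValuationSubring F) {x : F}
    (h : V.valuation x < 1) : x ∈ V :=
  (V.valuation_le_one_iff x).mp h.le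

theorem lt_one_mul {F : Type} [Field F] (V : ValuationSubring F) {x y : F}
    (hx : V.valuation x < 1) (hy : y ∈ V) : V.valuation (x * y) < 1 := by
  rw [map_mul]
  exact mul_lt_one_of_lt_of_le hx ((V.valuation_le_one_iff y).mpr hy)

/-- **scaling**: if not all `c_k` lie in `V'`, some `s ∈ 𝔪(V')` makes all `s c_k` integral and
one of them equal to `1`. -/
theorem exists_scale (V' : ValuationSubring F₁) {d : ℕ} (c : Fin d → F₁)
    (hc : ¬ ∀ k, c k ∈ V') :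
    ∃ (k₀ : Fin d) (s : F₁), V'.valuation s < 1 ∧ s ≠ 0 ∧ (∀ k, s * c k ∈ V') ∧
      s * c k₀ = 1 := by
  rw [not_forall] at hc
  obtain ⟨k₁, hk₁⟩ := hc
  obtain ⟨k₀, -, hmax⟩ := Finset.exists_max_image Finset.univ
    (fun k => V'.valuation (c k)) ⟨k₁, Finset.mem_univ _⟩
  have h1 : ¬ V'.valuation (c k₁) ≤ 1 := fun h => hk₁ ((V'.valuation_le_one_iff _).mp h)
  have h2 : 1 < V'.valuation (c k₀) := lt_of_lt_of_le (not_le.mp h1) (hmax k₁ (Finset.mem_univ _))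
  have hne : c k₀ ≠ 0 := by
    intro h0
    rw [h0, map_zero] at h2
    exact absurd h2 (not_lt.mpr zero_le_one)
  have hv0 : V'.valuation (c k₀) ≠ 0 := (V'.valuation.ne_zero_iff).mpr hne
  refine ⟨k₀, (c k₀)⁻¹, ?_, inv_ne_zero hne, ?_, inv_mul_cancel₀ hne⟩
  · rw [map_inv₀]
    exact inv_lt_one_of_one_lt₀ h2
  · intro k
    rw [← ValuationSubring.valuation_le_one_iff, map_mul, map_inv₀]
    rw [inv_mul_le_iff₀ (lt_of_le_of_ne zero_le hv0.symm), mul_one]
    exact hmax k (Finset.mem_univ _)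

/-- **(A), inert case.** -/
theorem rel_inert (V' : ValuationSubring F₁) (V : ValuationSubring F₂) (hV : LiesOverVS V V')
    (θ : F₂) (d : ℕ)
    (hind : ∀ c : Fin d → F₁, (∀ k, c k ∈ V') →
      V.valuation (∑ k : Fin d, algebraMap F₁ F₂ (c k) * θ ^ (k : ℕ)) < 1 →
      ∀ k, V'.valuation (c k) < 1)
    (c : Fin d → F₁) (hx : (∑ k : Fin d, algebraMap F₁ F₂ (c k) * θ ^ (k : ℕ)) ∈ V) :
    ∀ k, c k ∈ V' := by
  by_contra hcon
  obtain ⟨k₀, s, hs, hs0, hsc, hk₀⟩ := exists_scale V' c hcon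
  have h1 : (∑ k : Fin d, algebraMap F₁ F₂ (s * c k) * θ ^ (k : ℕ)) =
      algebraMap F₁ F₂ s * ∑ k : Fin d, algebraMap F₁ F₂ (c k) * θ ^ (k : ℕ) := by
    rw [Finset.mul_sum]
    refine Finset.sum_congr rfl fun k _ => ?_
    rw [map_mul, mul_assoc]
  have h2 : V.valuation (∑ k : Fin d, algebraMap F₁ F₂ (s * c k) * θ ^ (k : ℕ)) < 1 := by
    rw [h1]
    exact lt_one_mul V ((hV.lt_one_iff s).mpr hs) hx
  have h3 := hind (fun k => s * c k) hsc h2 k₀
  rw [hk₀, map_one] at h3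
  exact lt_irrefl _ h3

/-- the inclusion `V' → V` -/
def incl {V : ValuationSubring F₂} {V' : ValuationSubring F₁} (h : LiesOverVS V V') :
    ↥V' →+* ↥V where
  toFun x := ⟨algebraMap F₁ F₂ x, (h x).mpr x.2⟩
  map_one' := Subtype.ext (map_one _)
  map_mul' x y := Subtype.ext (map_mul _ _ _)
  map_zero' := Subtype.ext (map_zero _)
  map_add' x y := Subtype.ext (map_add _ _ _)

@[simp]
theorem coe_incl {V : ValuationSubring F₂} {V' : ValuationSubring F₁} (h : LiesOverVS V V')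
    (x : ↥V') : ((incl h x : ↥V) : F₂) = algebraMap F₁ F₂ (x : F₁) := rfl

/-- the polynomial with coefficients `c'` -/
noncomputable def polyOf {A : Type} [CommRing A] {d : ℕ} (c' : Fin d → A) : A[X] :=
  ∑ k : Fin d, Polynomial.monomial (k : ℕ) (c' k)

theorem polyOf_coeff {A : Type} [CommRing A] {d : ℕ} (c' : Fin d → A) (k : Fin d) :
    (polyOf c').coeff (k : ℕ) = c' k := by
  unfold polyOf
  rw [Polynomial.finsetSum_coeff]
  rw [Finset.sum_eq_single k]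
  · rw [Polynomial.coeff_monomial, if_pos rfl]
  · intro i _ hik
    rw [Polynomial.coeff_monomial, if_neg]
    intro h
    exact hik (Fin.ext h)
  · intro h
    exact absurd (Finset.mem_univ k) h

theorem polyOf_degree_lt {A : Type} [CommRing A] {d : ℕ} (c' : Fin d → A) :
    (polyOf c').degree < (d : WithBot ℕ) := by
  rw [Polynomial.degree_lt_iff_coeff_zero]
  intro m hm
  unfold polyOf
  rw [Polynomial.finsetSum_coeff]
  refine Finset.sum_eq_zero fun i _ => ?_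
  rw [Polynomial.coeff_monomial, if_neg]
  intro h
  have := i.2
  omega

theorem polyOf_eval₂ {A B : Type} [CommRing A] [CommRing B] (f : A →+* B) (x : B) {d : ℕ}
    (c' : Fin d → A) :
    (polyOf c').eval₂ f x = ∑ k : Fin d, f (c' k) * x ^ (k : ℕ) := by
  unfold polyOf
  rw [Polynomial.eval₂_finsetSum]
  refine Finset.sum_congr rfl fun k _ => ?_
  rw [Polynomial.eval₂_monomial]

set_option maxHeartbeats 800000 in
/-- **(B), split case** (simple root `a` at `Va`, totally ramified root `c₀` at `Vb`). -/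
theorem rel_split (V' : ValuationSubring F₁) (Va Vb : ValuationSubring F₂)
    (hVa : LiesOverVS Va V') (hVb : LiesOverVS Vb V')
    (ϖ : F₁) (hϖ0 : ϖ ≠ 0) (hϖ1 : V'.valuation ϖ < 1)
    (hϖ : ∀ r : F₁, V'.valuation r < 1 → ∃ s ∈ V', r = ϖ * s)
    (θ : F₂) (hθa : θ ∈ Va) (hθb : θ ∈ Vb)
    (a c₀ : F₁) (ha : a ∈ V') (hc₀ : c₀ ∈ V')
    (hθ_a : Va.valuation (θ - algebraMap F₁ F₂ a) < 1)
    (hθ_b : Vb.valuation (θ - algebraMap F₁ F₂ c₀) < 1)
    (d : ℕ)
    (hbe : ∃ u : F₂, Vb.valuation u = 1 ∧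
      (θ - algebraMap F₁ F₂ c₀) ^ (d - 1) = algebraMap F₁ F₂ ϖ * u)
    (hac : V'.valuation (a - c₀) = 1)
    (c : Fin d → F₁)
    (hxa : (∑ k : Fin d, algebraMap F₁ F₂ (c k) * θ ^ (k : ℕ)) ∈ Va)
    (hxb : (∑ k : Fin d, algebraMap F₁ F₂ (c k) * θ ^ (k : ℕ)) ∈ Vb) :
    ∀ k, c k ∈ V' := by
  by_contra hcon
  obtain ⟨k₀, s, hs, hs0, hsc, hk₀⟩ := exists_scale V' c hcon
  obtain ⟨s', hs', hss'⟩ := hϖ s hs
  obtain ⟨u, hu1, hub⟩ := hbe
  set x : F₂ := ∑ k : Fin d, algebraMap F₁ F₂ (c k) * θ ^ (k : ℕ) with hxdef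
  have hsum : (∑ k : Fin d, algebraMap F₁ F₂ (s * c k) * θ ^ (k : ℕ)) =
      algebraMap F₁ F₂ ϖ * (algebraMap F₁ F₂ s' * x) := by
    rw [hxdef, Finset.mul_sum, Finset.mul_sum]
    refine Finset.sum_congr rfl fun k _ => ?_
    rw [hss', map_mul, map_mul]
    ring
  have hϖV : ϖ ∈ V' := mem_of_lt_one V' hϖ1
  -- the rings
  let ϖ' : ↥V' := ⟨ϖ, hϖV⟩
  let a' : ↥V' := ⟨a, ha⟩
  let c₀' : ↥V' := ⟨c₀, hc₀⟩
  let θa : ↥Va := ⟨θ, hθa⟩
  let θb : ↥Vb := ⟨θ, hθb⟩
  let cc : Fin d → ↥V' := fun k => ⟨s * c k, hsc k⟩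
  have hI : ∀ (V : ValuationSubring F₂) (hV : LiesOverVS V V') (r : ↥V'),
      incl hV r ∈ IsLocalRing.maximalIdeal ↥V → r ∈ Ideal.span {ϖ'} := by
    intro V hV r hr
    rw [ValuationSubring.valuation_lt_one_iff, coe_incl, hV.lt_one_iff] at hr
    obtain ⟨t, ht, hrt⟩ := hϖ (r : F₁) hr
    rw [Ideal.mem_span_singleton']
    exact ⟨⟨t, ht⟩, Subtype.ext (by rw [mul_comm]; exact hrt.symm)⟩
  -- values of the polynomial
  have hevA : (((polyOf cc).eval₂ (incl hVa) θa : ↥Va) : F₂) =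
      algebraMap F₁ F₂ ϖ * (algebraMap F₁ F₂ s' * x) := by
    rw [← hsum, polyOf_eval₂]
    rw [show (((∑ k : Fin d, (incl hVa) (cc k) * θa ^ (k : ℕ) : ↥Va)) : F₂) =
      Va.subtype (∑ k : Fin d, (incl hVa) (cc k) * θa ^ (k : ℕ)) from rfl, map_sum]
    rfl
  have hevB : (((polyOf cc).eval₂ (incl hVb) θb : ↥Vb) : F₂) =
      algebraMap F₁ F₂ ϖ * (algebraMap F₁ F₂ s' * x) := by
    rw [← hsum, polyOf_eval₂]
    rw [show (((∑ k : Fin d, (incl hVb) (cc k) * θb ^ (k : ℕ) : ↥Vb)) : F₂) =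
      Vb.subtype (∑ k : Fin d, (incl hVb) (cc k) * θb ^ (k : ℕ)) from rfl, map_sum]
    rfl
  have hPa : (polyOf cc).eval₂ (incl hVa) θa ∈ IsLocalRing.maximalIdeal ↥Va := by
    rw [ValuationSubring.valuation_lt_one_iff, hevA]
    exact lt_one_mul Va ((hVa.lt_one_iff ϖ).mpr hϖ1) (Va.mul_mem _ _ ((hVa s').mpr hs') hxa)
  have hPb : (polyOf cc).eval₂ (incl hVb) θb ∈ Ideal.span {incl hVb ϖ'} := by
    rw [Ideal.mem_span_singleton']
    refine ⟨⟨algebraMap F₁ F₂ s' * x, Vb.mul_mem _ _ ((hVb s').mpr hs') hxb⟩, Subtype.ext ?_⟩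
    rw [hevB, mul_comm]
    rfl
  -- the hypotheses of the core
  have ha' : θa - incl hVa a' ∈ IsLocalRing.maximalIdeal ↥Va := by
    rw [ValuationSubring.valuation_lt_one_iff]
    exact hθ_a
  have hb' : θb - incl hVb c₀' ∈ IsLocalRing.maximalIdeal ↥Vb := by
    rw [ValuationSubring.valuation_lt_one_iff]
    exact hθ_b
  have hvϖ : Vb.valuation (algebraMap F₁ F₂ ϖ) < 1 := (hVb.lt_one_iff ϖ).mpr hϖ1
  have hvϖ0 : Vb.valuation (algebraMap F₁ F₂ ϖ) ≠ 0 :=
    (Vb.valuation.ne_zero_iff).mpr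
      ((map_ne_zero_iff _ (algebraMap F₁ F₂).injective).mpr hϖ0)
  have hbval : Vb.valuation ((θ - algebraMap F₁ F₂ c₀) ^ (d - 1)) =
      Vb.valuation (algebraMap F₁ F₂ ϖ) := by
    rw [hub, map_mul, hu1, mul_one]
  have hb0 : θb - incl hVb c₀' ≠ 0 := by
    intro h0
    have h1 : θ - algebraMap F₁ F₂ c₀ = 0 := congrArg Subtype.val h0
    rw [h1] at hbval
    rcases Nat.eq_zero_or_pos (d - 1) with hd | hd
    · rw [hd, pow_zero, map_one] at hbval
      rw [← hbval] at hvϖ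
      exact lt_irrefl _ hvϖ
    · rw [zero_pow (Nat.pos_iff_ne_zero.mp hd), map_zero] at hbval
      exact hvϖ0 hbval.symm
  have hu_mem : u ∈ Vb := (Vb.valuation_le_one_iff u).mp hu1.le
  have hu_unit : IsUnit (⟨u, hu_mem⟩ : ↥Vb) := by
    rw [ValuationSubring.valuation_eq_one_iff]
    exact hu1
  have hbe' : Ideal.span {incl hVb ϖ'} = Ideal.span {(θb - incl hVb c₀') ^ (d - 1)} := by
    rw [Ideal.span_singleton_eq_span_singleton]
    obtain ⟨uu, huu⟩ := hu_unit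
    refine ⟨uu, Subtype.ext ?_⟩
    rw [huu]
    exact hub.symm
  have hunit : IsUnit (θb - incl hVb a') := by
    rw [ValuationSubring.valuation_eq_one_iff]
    have h1 : ((θb - incl hVb a' : ↥Vb) : F₂) =
        (θ - algebraMap F₁ F₂ c₀) + algebraMap F₁ F₂ (c₀ - a) := by
      rw [map_sub]
      show θ - algebraMap F₁ F₂ a = _
      ring
    rw [h1]
    have h2 : Vb.valuation (algebraMap F₁ F₂ (c₀ - a)) = 1 := by
      have h3 : V'.valuation (c₀ - a) = 1 := by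
        rw [← neg_sub, Valuation.map_neg]
        exact hac
      have h4 : ¬ Vb.valuation (algebraMap F₁ F₂ (c₀ - a)) < 1 := by
        rw [hVb.lt_one_iff, h3]
        exact lt_irrefl _
      have h5 : Vb.valuation (algebraMap F₁ F₂ (c₀ - a)) ≤ 1 := by
        rw [ValuationSubring.valuation_le_one_iff, hVb]
        exact (V'.valuation_le_one_iff _).mp h3.le
      exact le_antisymm h5 (not_lt.mp h4)
    rw [Valuation.map_add_eq_of_lt_right _ (by rw [h2]; exact hθ_b), h2]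
  have hcore := core_split (incl hVa) (incl hVb) ϖ' (IsLocalRing.maximalIdeal ↥Va)
    (IsLocalRing.maximalIdeal ↥Vb) (hI Va hVa) (hI Vb hVb) θa θb a' c₀' ha' hb' hb0 d hbe' hunit
    (polyOf cc) (polyOf_degree_lt cc) hPa hPb (k₀ : ℕ)
  rw [polyOf_coeff, Ideal.mem_span_singleton'] at hcore
  obtain ⟨w, hw⟩ := hcore
  have h6 : (w : F₁) * ϖ = 1 := by
    have := congrArg Subtype.val hw
    rw [show ((cc k₀ : ↥V') : F₁) = s * c k₀ from rfl, hk₀] at this
    exact this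
  have h7 : V'.valuation ((w : F₁) * ϖ) < 1 := by
    rw [mul_comm]
    exact lt_one_mul V' hϖ1 w.2
  rw [h6, map_one] at h7
  exact lt_irrefl _ h7

end Wrap

end H24RG
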