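import Mathlib
import Fermat.Agent.S34.ResDeg1_helper8

/-!
# Item 86 (S36), slice (TG): the inert step, series level (helper8)

`A ⊆ L` a valuation subring, `O = gvO A` its Gauss ring in `L((𝐪))`, `ρ = gvRed`.

* `h8tg_red_qExpand`     : `ρ (x(𝐪^q)) = (ρ x)(𝐪^q)`;
* `h8tg_inGm_qExpand_iff`: for `x ∈ O`: `x(𝐪^q) ∈ 𝔪 ↔ x ∈ 𝔪`;
* `h8tg_inert_series`    : `E_k ∈ O` (`k < q`), `Σ_k E_k(𝐪^q) · j^k ∈ 𝔪 ⟹ E_k ∈ 𝔪` for all `k < q`
  (`1, j, …, j^{q-1}` are independent over the series in `𝐪^q`: `H8PB.h8pb_order_indep`);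
* `h8tg_kron2_red`       : `j(𝐪^{q²}) − j^{q²} ∈ 𝔪` (Frobenius twice), residue characteristic `q`;
* `h8tg_unit_diff`       : `j^{q²} − j` is a unit of `O`.
-/

set_option autoImplicit false
set_option linter.unusedSectionVars false
set_option linter.style.longLine false
set_option linter.unusedVariables false
set_option linter.style.haveILetI false
set_option synthInstance.maxHeartbeats 400000

open ModularCurve HahnSeries H28GV

noncomputable section

namespace H8TG

section Series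

variable {L : Type} [Field L] (A : ValuationSubring L) (q : ℕ) [NeZero q]

theorem h8tg_qExpand_mem (x : LaurentSeries L) (hx : x ∈ gvO A (IsLocalRing.residue A)) :
    qExpand L q x ∈ gvO A (IsLocalRing.residue A) := by
  obtain ⟨f, g, hg, h⟩ := hx
  refine ⟨qExpand A q f, qExpand A q g, ?_, ?_⟩
  · have e : gvRho A (IsLocalRing.residue A) (qExpand A q g) =
        qExpand _ q (gvRho A (IsLocalRing.residue A) g) := coeffMap_qExpand _ _ _
    rw [e]
    intro h0
    exact hg (qExpand_injective q (h0.trans (map_zero _).symm))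
  · have e1 : gvEps A (qExpand A q g) = qExpand L q (gvEps A g) := coeffMap_qExpand _ _ _
    have e2 : gvEps A (qExpand A q f) = qExpand L q (gvEps A f) := coeffMap_qExpand _ _ _
    rw [e1, e2, ← map_mul, h]

/-- `ρ (x(𝐪^q)) = (ρ x)(𝐪^q)` -/
theorem h8tg_red_qExpand (x : LaurentSeries L) (hx : x ∈ gvO A (IsLocalRing.residue A)) :
    gvRed A (IsLocalRing.residue A) ⟨qExpand L q x, h8tg_qExpand_mem A q x hx⟩ =
      qExpand _ q (gvRed A (IsLocalRing.residue A) ⟨x, hx⟩) := by
  obtain ⟨f, g, hg, h⟩ := hx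
  have e0 : gvRho A (IsLocalRing.residue A) (qExpand A q g) =
      qExpand _ q (gvRho A (IsLocalRing.residue A) g) := coeffMap_qExpand _ _ _
  have e0' : gvRho A (IsLocalRing.residue A) (qExpand A q f) =
      qExpand _ q (gvRho A (IsLocalRing.residue A) f) := coeffMap_qExpand _ _ _
  have hg' : gvRho A (IsLocalRing.residue A) (qExpand A q g) ≠ 0 := by
    rw [e0]
    intro h0
    exact hg (qExpand_injective q (h0.trans (map_zero _).symm))
  have h' : qExpand L q x * gvEps A (qExpand A q g) = gvEps A (qExpand A q f) := by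
    have e1 : gvEps A (qExpand A q g) = qExpand L q (gvEps A g) := coeffMap_qExpand _ _ _
    have e2 : gvEps A (qExpand A q f) = qExpand L q (gvEps A f) := coeffMap_qExpand _ _ _
    rw [e1, e2, ← map_mul, h]
  rw [gvRed_eq A _ ⟨x, ⟨f, g, hg, h⟩⟩ f g hg h,
    gvRed_eq A _ ⟨qExpand L q x, _⟩ (qExpand A q f) (qExpand A q g) hg' h', e0, e0', map_div₀]

/-- for `x ∈ O`: `x(𝐪^q) ∈ 𝔪 ↔ x ∈ 𝔪` -/
theorem h8tg_inGm_qExpand_iff (x : LaurentSeries L) (hx : H8PB.InG A x) :
    H8PB.InGm A (qExpand L q x) ↔ H8PB.InGm A x := by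
  have hx' := (H8PB.h8pg_inG_iff A x).mp hx
  constructor
  · intro h
    obtain ⟨h1, h2⟩ := H8PB.h8pg_inGm_red A _ h
    have h3 := h8tg_red_qExpand A q x hx'
    have h4 : qExpand _ q (gvRed A (IsLocalRing.residue A) ⟨x, hx'⟩) = 0 := by
      rw [← h3]; exact h2
    exact H8PB.h8pg_inGm_of_red A x hx' (qExpand_injective q (h4.trans (map_zero _).symm))
  · intro h
    obtain ⟨h1, h2⟩ := H8PB.h8pg_inGm_red A _ h
    refine H8PB.h8pg_inGm_of_red A _ (h8tg_qExpand_mem A q x hx') ?_
    rw [h8tg_red_qExpand A q x hx']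
    have : gvRed A (IsLocalRing.residue A) ⟨x, hx'⟩ = 0 := h2
    rw [this, map_zero]

theorem h8tg_inG_qExpand (x : LaurentSeries L) (hx : H8PB.InG A x) :
    H8PB.InG A (qExpand L q x) :=
  (H8PB.h8pg_inG_iff A _).mpr (h8tg_qExpand_mem A q x ((H8PB.h8pg_inG_iff A x).mp hx))

theorem h8tg_jq_mem : jqModC L ∈ gvO A (IsLocalRing.residue A) := by
  have h := gvEps_mem_gvO A (IsLocalRing.residue A) (jqModC A)
  have e : gvEps A (jqModC A) = jqModC L := coeffMap_jqModC _
  rwa [e] at h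

theorem h8tg_red_jq :
    gvRed A (IsLocalRing.residue A) ⟨jqModC L, h8tg_jq_mem A⟩ =
      jqModC (IsLocalRing.ResidueField A) := by
  have e : gvEps A (jqModC A) = jqModC L := coeffMap_jqModC _
  have h := gvRed_eps' A (IsLocalRing.residue A) (jqModC A) (by rw [e]; exact h8tg_jq_mem A)
  have e2 : gvRho A (IsLocalRing.residue A) (jqModC A) = jqModC _ := coeffMap_jqModC _
  rw [e2] at h
  rw [← h]
  congr 1
  exact Subtype.ext e.symm

/-- **the inert step**: `Σ_{k<q} E_k(𝐪^q) · j^k ∈ 𝔪` with `E_k ∈ O` forces `E_k ∈ 𝔪`. -/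
theorem h8tg_inert_series (E : ℕ → LaurentSeries L) (hE : ∀ k, H8PB.InG A (E k))
    (h : H8PB.InGm A (∑ k ∈ Finset.range q, qExpand L q (E k) * jqModC L ^ k)) :
    ∀ k < q, H8PB.InGm A (E k) := by
  classical
  have hE' : ∀ k, E k ∈ gvO A (IsLocalRing.residue A) := fun k => (H8PB.h8pg_inG_iff A _).mp (hE k)
  obtain ⟨h1, h2⟩ := H8PB.h8pg_inGm_red A _ h
  have e : (⟨_, h1⟩ : gvO A (IsLocalRing.residue A)) =
      ∑ k ∈ Finset.range q, (⟨qExpand L q (E k), h8tg_qExpand_mem A q _ (hE' k)⟩ :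
        gvO A (IsLocalRing.residue A)) * (⟨jqModC L, h8tg_jq_mem A⟩ :
        gvO A (IsLocalRing.residue A)) ^ k := by
    apply Subtype.ext
    have hcoe : ∀ s : gvO A (IsLocalRing.residue A),
        (s : LaurentSeries L) = (gvO A (IsLocalRing.residue A)).subtype s := fun _ => rfl
    have hs := map_sum (gvO A (IsLocalRing.residue A)).subtype
      (fun k => (⟨qExpand L q (E k), h8tg_qExpand_mem A q _ (hE' k)⟩ :
        gvO A (IsLocalRing.residue A)) * (⟨jqModC L, h8tg_jq_mem A⟩ :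
        gvO A (IsLocalRing.residue A)) ^ k) (Finset.range q)
    refine Eq.trans ?_ hs.symm
    show (∑ k ∈ Finset.range q, qExpand L q (E k) * jqModC L ^ k) =
      ∑ k ∈ Finset.range q, (gvO A (IsLocalRing.residue A)).subtype
        ((⟨qExpand L q (E k), h8tg_qExpand_mem A q _ (hE' k)⟩ :
        gvO A (IsLocalRing.residue A)) * (⟨jqModC L, h8tg_jq_mem A⟩ :
        gvO A (IsLocalRing.residue A)) ^ k)
    refine Finset.sum_congr rfl (fun k _ => ?_)
    rw [map_mul, map_pow]
    rfl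
  rw [e, map_sum] at h2
  have h3 : ∑ k ∈ Finset.range q,
      qExpand _ q (gvRed A (IsLocalRing.residue A) ⟨E k, hE' k⟩) *
        jqModC (IsLocalRing.ResidueField A) ^ k = 0 := by
    rw [← h2]
    refine Finset.sum_congr rfl (fun k _ => ?_)
    rw [map_mul, map_pow, h8tg_red_qExpand A q (E k) (hE' k), h8tg_red_jq]
  have h4 := H8PB.h8pb_order_indep (IsLocalRing.ResidueField A) q
    (fun k => gvRed A (IsLocalRing.residue A) ⟨E k, hE' k⟩) h3
  intro k hk
  exact H8PB.h8pg_inGm_of_red A _ (hE' k) (h4 k hk)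

end Series

section Kron

variable {L : Type} [Field L] (A : ValuationSubring L) (q : ℕ) [NeZero q]
variable [Fact q.Prime] [CharP (IsLocalRing.ResidueField A) q]

/-- Frobenius twice: `j(𝐪^{q²}) − j^{q²} ∈ 𝔪`. -/
theorem h8tg_kron2 :
    H8PB.InGm A (qExpand L (q * q) (jqModC L) - jqModC L ^ (q * q)) := by
  have hmem : qExpand L (q * q) (jqModC L) - jqModC L ^ (q * q) ∈
      gvO A (IsLocalRing.residue A) := by
    have e1 : gvEps A (qExpand A (q * q) (jqModC A) - jqModC A ^ (q * q)) =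
        qExpand L (q * q) (jqModC L) - jqModC L ^ (q * q) := by
      rw [map_sub, map_pow]
      have e : gvEps A (jqModC A) = jqModC L := coeffMap_jqModC _
      have e' : gvEps A (qExpand A (q * q) (jqModC A)) = qExpand L (q * q) (gvEps A (jqModC A)) :=
        coeffMap_qExpand _ _ _
      rw [e', e]
    rw [← e1]
    exact gvEps_mem_gvO A _ _
  refine H8PB.h8pg_inGm_of_red A _ hmem ?_
  have e1 : gvEps A (qExpand A (q * q) (jqModC A) - jqModC A ^ (q * q)) =
      qExpand L (q * q) (jqModC L) - jqModC L ^ (q * q) := by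
    rw [map_sub, map_pow]
    have e : gvEps A (jqModC A) = jqModC L := coeffMap_jqModC _
    have e' : gvEps A (qExpand A (q * q) (jqModC A)) = qExpand L (q * q) (gvEps A (jqModC A)) :=
      coeffMap_qExpand _ _ _
    rw [e', e]
  have h := gvRed_eps' A (IsLocalRing.residue A)
    (qExpand A (q * q) (jqModC A) - jqModC A ^ (q * q)) (by rw [e1]; exact hmem)
  have h0 : gvRho A (IsLocalRing.residue A)
      (qExpand A (q * q) (jqModC A) - jqModC A ^ (q * q)) = 0 := by
    rw [map_sub, map_pow]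
    have e2 : gvRho A (IsLocalRing.residue A) (jqModC A) = jqModC _ := coeffMap_jqModC _
    have e3 : gvRho A (IsLocalRing.residue A) (qExpand A (q * q) (jqModC A)) =
        qExpand _ (q * q) (gvRho A (IsLocalRing.residue A) (jqModC A)) := coeffMap_qExpand _ _ _
    rw [e3, e2, ← qExpand_qExpand, H8PB.h8pb_kronecker (IsLocalRing.ResidueField A) q, map_pow,
      H8PB.h8pb_kronecker (IsLocalRing.ResidueField A) q, ← pow_mul, sub_self]
  rw [h0] at h
  rw [← h]
  congr 1
  exact Subtype.ext e1.symm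

end Kron

end H8TG

end
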