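import Mathlib
import Fermat.Agent.S36.TGIncl_helper8
import Fermat.Agent.S36.TGInert_helper8
import Fermat.Agent.S36.RelGauss_helper24
import Fermat.Agent.S35.FWSigVS_helper3

/-!
# Item 86 (S36), slice (TG): the backward direction, core (helper8)

`F₁ = FK K₁ (M q) ⊆ F₂ = FK K₁ L`, `L = M q²`; `V₁ = gaussVS R L` (expansion at `∞`),
`V₂ = V₁ ∘ W` (`W = W_{q²}`), `V₃` a third valuation subring (helper3's `H3V3.V3`);
`V₁' = gaussVS R (M q)`, `V₂' = V₁' ∘ W_q`.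

* `h8tg_liesOver1`, `h8tg_liesOver2` : `V₁ ∩ F₁ = V₁'`, `V₂ ∩ F₁ = V₂'`;
* `h8tg_backward_core` : `x ∈ V₁ ∩ V₂ ∩ V₃`, `x = Σ_{k<q} c_k J₂^k` (`c_k ∈ F₁`)
  `⟹ c_k ∈ V₁' ∩ V₂'` for all `k` (helper24's `H24RG.rel_split`, `H24RG.rel_inert`).

The data on `W` and `V₃` are hypotheses here (`hW1, hW2`, `hV3a, hV3b, hV3c`); they are
instantiated in `S36/TGFinal_helper8.lean`.
-/

set_option autoImplicit false
set_option linter.unusedSectionVars false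
set_option linter.style.longLine false
set_option linter.unusedVariables false
set_option linter.style.haveILetI false
set_option synthInstance.maxHeartbeats 400000

open ModularCurve HahnSeries H28GV H12AL RH24 H7S18 H8PB H3SIG

noncomputable section

namespace H8TG

section Core

variable (K₁ : IntermediateField ℚ Kbar) (R : ValuationSubring ↥K₁)
variable (M q : ℕ) [NeZero M] [NeZero q]
variable [IsDiscreteValuationRing ↥R] [CharP (IsLocalRing.ResidueField ↥R) q]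
variable (L : ℕ) [NeZero L]

/-- `V₁ ∩ F₁ = V₁'` -/
theorem h8tg_liesOver1 (h1 : M * q ∣ L) :
    letI := (incl ↥K₁ (M * q) L h1).toAlgebra
    H24RG.LiesOverVS (gaussVS R L) (gaussVS R (M * q)) := by
  letI := (incl ↥K₁ (M * q) L h1).toAlgebra
  intro c
  show InG R ((incl ↥K₁ (M * q) L h1 c : FK ↥K₁ L) : LaurentSeries ↥K₁) ↔
    InG R (c : LaurentSeries ↥K₁)
  rw [coe_incl]

/-- `InG (y(𝐪^q)) ↔ InG y` for `y` in a modular function field -/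
theorem h8tg_inG_qExpand_iff (N : ℕ) [NeZero N] (y : LaurentSeries ↥K₁)
    (hy : y ∈ modularFunctionFieldFullC ↥K₁ N) :
    InG R (qExpand ↥K₁ q y) ↔ InG R y := by
  constructor
  · intro h
    rcases inG_or_inv (R := R) N y hy with h1 | h1
    · exact h1
    · by_contra hcon
      have hy0 : y ≠ 0 := fun h0 => hcon (by rw [h0]; exact inG_zero R)
      have hm : InGm R y⁻¹ := by
        rw [inGm_iff_not_inv h1, inv_inv]
        exact Or.inr hcon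
      have hm' : InGm R (qExpand ↥K₁ q y⁻¹) := (h8tg_inGm_qExpand_iff R q _ h1).mpr hm
      have hq0 : qExpand ↥K₁ q y ≠ 0 := fun h0 =>
        hy0 (qExpand_injective q (h0.trans (map_zero _).symm))
      rw [inGm_iff_not_inv (inGm_inG hm'), map_inv₀, inv_inv] at hm'
      rcases hm' with h0 | h0
      · exact inv_ne_zero hq0 h0
      · exact h0 h
  · exact h8tg_inG_qExpand R q y

variable (W : FK ↥K₁ L →+* FK ↥K₁ L)

/-- `V₂ ∩ F₁ = V₂'` -/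
theorem h8tg_liesOver2 (hq : q.Prime) (hqM : ¬ q ∣ M) (h1 : M * q ∣ L)
    (hW1 : ∀ c : FK ↥K₁ (M * q), ((W (incl ↥K₁ (M * q) L h1 c) : FK ↥K₁ L) :
      LaurentSeries ↥K₁) =
        qExpand ↥K₁ q ((wqKHom K₁ M q hq hqM c : FK ↥K₁ (M * q)) : LaurentSeries ↥K₁)) :
    letI := (incl ↥K₁ (M * q) L h1).toAlgebra
    H24RG.LiesOverVS (gaussVSw R L W) (gaussVSw R (M * q) (wqKHom K₁ M q hq hqM)) := by
  letI := (incl ↥K₁ (M * q) L h1).toAlgebra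
  intro c
  show InG R ((W (incl ↥K₁ (M * q) L h1 c) : FK ↥K₁ L) : LaurentSeries ↥K₁) ↔
    InG R ((wqKHom K₁ M q hq hqM c : FK ↥K₁ (M * q)) : LaurentSeries ↥K₁)
  rw [hW1]
  exact h8tg_inG_qExpand_iff K₁ R q (M * q) _ (gv_coe_mem_full (M * q) _)

/-- the independence hypothesis of `H24RG.rel_inert` at `V₂` -/
theorem h8tg_hind (hq : q.Prime) (hqM : ¬ q ∣ M) (h1 : M * q ∣ L) (h2 : q * q ∣ L)
    (hW1 : ∀ c : FK ↥K₁ (M * q), ((W (incl ↥K₁ (M * q) L h1 c) : FK ↥K₁ L) :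
      LaurentSeries ↥K₁) =
        qExpand ↥K₁ q ((wqKHom K₁ M q hq hqM c : FK ↥K₁ (M * q)) : LaurentSeries ↥K₁))
    (hW2 : ((W (J2 ↥K₁ L q h2) : FK ↥K₁ L) : LaurentSeries ↥K₁) = jqModC ↥K₁)
    (c : Fin q → FK ↥K₁ (M * q))
    (hc : ∀ k, c k ∈ gaussVSw R (M * q) (wqKHom K₁ M q hq hqM))
    (hx : (gaussVSw R L W).valuation
      (∑ k : Fin q, incl ↥K₁ (M * q) L h1 (c k) * J2 ↥K₁ L q h2 ^ (k : ℕ)) < 1) :
    ∀ k, (gaussVSw R (M * q) (wqKHom K₁ M q hq hqM)).valuation (c k) < 1 := by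
  classical
  rw [valuation_gaussVSw_lt_one_iff] at hx
  -- the series `E_k`
  set E : ℕ → LaurentSeries ↥K₁ := fun k =>
    if h : k < q then ((wqKHom K₁ M q hq hqM (c ⟨k, h⟩) : FK ↥K₁ (M * q)) : LaurentSeries ↥K₁)
    else 0 with hE
  have hEin : ∀ k, InG R (E k) := by
    intro k
    by_cases h : k < q
    · simp only [hE, dif_pos h]
      exact hc ⟨k, h⟩
    · simp only [hE, dif_neg h]
      exact inG_zero R
  have hsum : ((W (∑ k : Fin q, incl ↥K₁ (M * q) L h1 (c k) * J2 ↥K₁ L q h2 ^ (k : ℕ)) :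
      FK ↥K₁ L) : LaurentSeries ↥K₁) =
      ∑ k ∈ Finset.range q, qExpand ↥K₁ q (E k) * jqModC ↥K₁ ^ k := by
    rw [map_sum, coe_sum, ← Fin.sum_univ_eq_sum_range
      (fun k => qExpand ↥K₁ q (E k) * jqModC ↥K₁ ^ k) q]
    refine Finset.sum_congr rfl (fun k _ => ?_)
    rw [map_mul, map_pow, MulMemClass.coe_mul, SubmonoidClass.coe_pow, hW1, hW2]
    simp only [hE, dif_pos k.2, Fin.eta]
  rw [hsum] at hx
  have key := h8tg_inert_series R q E hEin hx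
  intro k
  rw [valuation_gaussVSw_lt_one_iff]
  have := key k k.2
  simp only [hE, dif_pos k.2, Fin.eta] at this
  exact this

/-- **backward direction, core**: `x = Σ c_k J₂^k ∈ V₁ ∩ V₂ ∩ V₃ ⟹ c_k ∈ V₁' ∩ V₂'`. -/
theorem h8tg_backward_core [Fact q.Prime] (hq : q.Prime) (hqM : ¬ q ∣ M) (h1 : M * q ∣ L)
    (h2 : q * q ∣ L)
    (hW1 : ∀ c : FK ↥K₁ (M * q), ((W (incl ↥K₁ (M * q) L h1 c) : FK ↥K₁ L) :
      LaurentSeries ↥K₁) =
        qExpand ↥K₁ q ((wqKHom K₁ M q hq hqM c : FK ↥K₁ (M * q)) : LaurentSeries ↥K₁))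
    (hW2 : ((W (J2 ↥K₁ L q h2) : FK ↥K₁ L) : LaurentSeries ↥K₁) = jqModC ↥K₁)
    (V3 : ValuationSubring (FK ↥K₁ L))
    (hV3a : ∀ c : FK ↥K₁ (M * q), incl ↥K₁ (M * q) L h1 c ∈ V3 ↔
      InG R (c : LaurentSeries ↥K₁))
    (hV3b : V3.valuation (J2 ↥K₁ L q h2 - incl ↥K₁ (M * q) L h1 (J0 ↥K₁ (M * q))) < 1)
    (ϖ : FK ↥K₁ (M * q)) (hϖ0 : ϖ ≠ 0) (hϖ1 : InGm R (ϖ : LaurentSeries ↥K₁))
    (hϖdiv : ∀ r : FK ↥K₁ (M * q), InGm R (r : LaurentSeries ↥K₁) →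
      ∃ s : FK ↥K₁ (M * q), InG R (s : LaurentSeries ↥K₁) ∧ r = ϖ * s)
    (hV3c : ∃ u : FK ↥K₁ L, V3.valuation u = 1 ∧
      (J2 ↥K₁ L q h2 - incl ↥K₁ (M * q) L h1 (J0 ↥K₁ (M * q))) ^ (q - 1) =
        incl ↥K₁ (M * q) L h1 ϖ * u)
    (hac : InG R ((jqModC ↥K₁ ^ (q * q) - jqModC ↥K₁)⁻¹))
    (c : Fin q → FK ↥K₁ (M * q))
    (hx1 : InG R ((∑ k : Fin q, incl ↥K₁ (M * q) L h1 (c k) * J2 ↥K₁ L q h2 ^ (k : ℕ) :
      FK ↥K₁ L) : LaurentSeries ↥K₁))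
    (hx2 : InG R ((W (∑ k : Fin q, incl ↥K₁ (M * q) L h1 (c k) * J2 ↥K₁ L q h2 ^ (k : ℕ)) :
      FK ↥K₁ L) : LaurentSeries ↥K₁))
    (hx3 : (∑ k : Fin q, incl ↥K₁ (M * q) L h1 (c k) * J2 ↥K₁ L q h2 ^ (k : ℕ)) ∈ V3) :
    ∀ k, InG R (c k : LaurentSeries ↥K₁) ∧
      InG R ((wqKHom K₁ M q hq hqM (c k) : FK ↥K₁ (M * q)) : LaurentSeries ↥K₁) := by
  letI := (incl ↥K₁ (M * q) L h1).toAlgebra
  have hLO1 := h8tg_liesOver1 K₁ R M q L h1
  have hLO2 := h8tg_liesOver2 K₁ R M q L W hq hqM h1 hW1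
  have hLO3 : H24RG.LiesOverVS V3 (gaussVS R (M * q)) := fun c => hV3a c
  -- `J₂ ∈ V₁`
  have hJ2in : J2 ↥K₁ L q h2 ∈ gaussVS R L := by
    show InG R (qExpand ↥K₁ (q * q) (jqModC ↥K₁))
    exact h8tg_inG_qExpand R (q * q) _ ((h8pg_inG_iff R _).mpr (h8tg_jq_mem R))
  have hJ0in : J0 ↥K₁ (M * q) ∈ gaussVS R (M * q) := (h8pg_inG_iff R _).mpr (h8tg_jq_mem R)
  have hJ2in3 : J2 ↥K₁ L q h2 ∈ V3 := by
    have e : J2 ↥K₁ L q h2 = (J2 ↥K₁ L q h2 - incl ↥K₁ (M * q) L h1 (J0 ↥K₁ (M * q))) +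
        incl ↥K₁ (M * q) L h1 (J0 ↥K₁ (M * q)) := by ring
    rw [e]
    exact V3.add_mem _ _ (H24RG.mem_of_lt_one V3 hV3b) ((hV3a _).mpr hJ0in)
  -- (B)
  have hB := H24RG.rel_split (gaussVS R (M * q)) (gaussVS R L) V3 hLO1 hLO3 ϖ hϖ0
    ((valuation_gaussVS_lt_one_iff R (M * q) ϖ).mpr hϖ1)
    (fun r hr => by
      obtain ⟨s, hs, hrs⟩ := hϖdiv r ((valuation_gaussVS_lt_one_iff R (M * q) r).mp hr)
      exact ⟨s, hs, hrs⟩)
    (J2 ↥K₁ L q h2) hJ2in hJ2in3 (J0 ↥K₁ (M * q) ^ (q * q)) (J0 ↥K₁ (M * q))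
    ((gaussVS R (M * q)).pow_mem hJ0in _) hJ0in
    (by
      rw [valuation_gaussVS_lt_one_iff]
      show InGm R ((J2 ↥K₁ L q h2 - incl ↥K₁ (M * q) L h1 (J0 ↥K₁ (M * q) ^ (q * q)) :
        FK ↥K₁ L) : LaurentSeries ↥K₁)
      rw [AddSubgroupClass.coe_sub, coe_incl, SubmonoidClass.coe_pow, coe_J2, coe_J0]
      exact h8tg_kron2 R q)
    hV3b q hV3c
    (by
      have hmem : J0 ↥K₁ (M * q) ^ (q * q) - J0 ↥K₁ (M * q) ∈ gaussVS R (M * q) :=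
        (gaussVS R (M * q)).sub_mem ((gaussVS R (M * q)).pow_mem hJ0in _) hJ0in
      have hinv : (J0 ↥K₁ (M * q) ^ (q * q) - J0 ↥K₁ (M * q))⁻¹ ∈ gaussVS R (M * q) := by
        show InG R (((J0 ↥K₁ (M * q) ^ (q * q) - J0 ↥K₁ (M * q))⁻¹ : FK ↥K₁ (M * q)) :
          LaurentSeries ↥K₁)
        have e : (((J0 ↥K₁ (M * q) ^ (q * q) - J0 ↥K₁ (M * q))⁻¹ : FK ↥K₁ (M * q)) :
            LaurentSeries ↥K₁) = (jqModC ↥K₁ ^ (q * q) - jqModC ↥K₁)⁻¹ := by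
          rw [← coe_J0 ↥K₁ (M * q)]
          push_cast
          rfl
        rw [e]
        exact hac
      have h3 : (gaussVS R (M * q)).valuation (J0 ↥K₁ (M * q) ^ (q * q) - J0 ↥K₁ (M * q)) ≤ 1 :=
        ((gaussVS R (M * q)).valuation_le_one_iff _).mpr hmem
      have h4 : (gaussVS R (M * q)).valuation
          (J0 ↥K₁ (M * q) ^ (q * q) - J0 ↥K₁ (M * q))⁻¹ ≤ 1 :=
        ((gaussVS R (M * q)).valuation_le_one_iff _).mpr hinv
      rw [map_inv₀] at h4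
      by_cases h0 : (gaussVS R (M * q)).valuation
          (J0 ↥K₁ (M * q) ^ (q * q) - J0 ↥K₁ (M * q)) = 0
      · exfalso
        rw [map_eq_zero, sub_eq_zero] at h0
        have h5 := congrArg (fun z : FK ↥K₁ (M * q) => (z : LaurentSeries ↥K₁)) h0
        simp only [SubmonoidClass.coe_pow, coe_J0] at h5
        have h6 := congrArg HahnSeries.order h5
        rw [HahnSeries.order_pow, h8pb_order_jq] at h6
        have hq2 : 2 ≤ q := hq.two_le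
        have h7 : (4 : ℤ) ≤ ((q * q : ℕ) : ℤ) := by
          have : 4 ≤ q * q := by nlinarith
          exact_mod_cast this
        simp only [nsmul_eq_mul] at h6
        linarith
      · exact le_antisymm h3 ((inv_le_one₀ (zero_lt_iff.mpr h0)).mp h4))
    c hx1 hx3
  -- (A)
  have hA := H24RG.rel_inert (gaussVSw R (M * q) (wqKHom K₁ M q hq hqM)) (gaussVSw R L W) hLO2
    (J2 ↥K₁ L q h2) q
    (fun c' hc' hx' => h8tg_hind K₁ R M q L W hq hqM h1 h2 hW1 hW2 c' hc' hx')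
    c hx2
  exact fun k => ⟨hB k, hA k⟩

end Core

end H8TG

end
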