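import Mathlib
import Fermat.Agent.S36.TGIncl_helper8
import Fermat.Agent.S36.ALQ2_helper12
import Fermat.Agent.S36.V3Hom_helper3

/-!
# Item 86 (S36), slice (TG): INTERFACE of the triple Gauss theorem (helper8)

Level `L = M q q`, `q` prime, `q ∤ M`; `K₁ ⊆ ℚ̄` finite over `ℚ` and UNRAMIFIED at `A`
(`q` is a uniformizer of `R = descVal A K₁`); `K₃ ⊇ K₁` finite with a primitive `q`-th root of
unity `ζ`, `R₃ = descVal A K₃`;
`F = FK K₁ (M q q)`, `F' = FK K₁ (M q)`, `incl : F' → F`, `J₂ = j(𝐪^{q²})`,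
`W = H12WQ.wq2KHom K₁ M q` (`W_{q²}`), `ι₃ = H3V3.iota3 (M q q) q … ζ`.

`TripleGaussStatement`: for `x ∈ F`
* **(I)**  `GInt R q t x ↔ InG R x ∧ InG R (W x) ∧ InG R₃ (ι₃ x)`      (`O = V₁ ∩ V₂ ∩ V₃`);
* **(II)** `GInt R q t x ↔ ∃ c : Fin q → F', (∀ k, InG R (c k) ∧ InG R (w_q (c k))) ∧
              x = Σ_k incl (c k) · J₂^k`                        (`O = ⊕_{k<q} O' J₂^k`).
-/

set_option autoImplicit false
set_option linter.unusedSectionVars false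
set_option linter.style.longLine false
set_option linter.unusedVariables false
set_option synthInstance.maxHeartbeats 400000

noncomputable section

open ModularCurve H7S18 H8PB RH24

namespace H8TG

theorem h8tg_dvd1 (M q : ℕ) : M * q ∣ M * q * q := Dvd.intro _ rfl

theorem h8tg_dvd2 (M q : ℕ) : q * q ∣ M * q * q := ⟨M, by ring⟩

theorem h8tg_hM2 (M q : ℕ) : q ^ 2 ∣ M * q * q := ⟨M, by ring⟩

theorem h8tg_hM3 (M q : ℕ) (hq : q.Prime) (hqM : ¬ q ∣ M) : ¬ q ^ 3 ∣ M * q * q := by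
  intro h
  have e : M * q * q = q ^ 2 * M := by ring
  have e3 : q ^ 3 = q ^ 2 * q := by ring
  rw [e, e3] at h
  exact hqM (Nat.dvd_of_mul_dvd_mul_left (pow_pos hq.pos 2) h)

theorem h8tg_not_sq (M q : ℕ) (hq : q.Prime) (hqM : ¬ q ∣ M) : ¬ q ^ 2 ∣ M * q := by
  intro h
  have e : M * q = q * M := by ring
  have e3 : q ^ 2 = q * q := by ring
  rw [e, e3] at h
  exact hqM (Nat.dvd_of_mul_dvd_mul_left hq.pos h)

/-- `ι₃` at the level `M q q` -/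
def iota3qq (K₁ K₃ : IntermediateField ℚ Kbar) (M q : ℕ) [NeZero M] [NeZero q]
    (hq : q.Prime) (hqM : ¬ q ∣ M) (h13 : K₁ ≤ K₃) (ζ : (↥K₃)ˣ) (hζ : IsPrimitiveRoot ζ q) :
    FK ↥K₁ (M * q * q) →+* LaurentSeries ↥K₃ :=
  H3V3.iota3 (M * q * q) q h13 hq (h8tg_hM2 M q) (h8tg_hM3 M q hq hqM) ζ hζ

/-- **the triple Gauss theorem** (see the header). -/
def TripleGaussStatement : Prop :=
  ∀ (M : ℕ) [NeZero M] (q : ℕ) [NeZero q] (hq : q.Prime) (hqM : ¬ q ∣ M) (_ : TameLevel q M)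
    (A : ValuationSubring (AlgebraicClosure ℚ)) (_ : A.LiesOverPrime q)
    (K₁ : IntermediateField ℚ (AlgebraicClosure ℚ)) (_ : FiniteDimensional ℚ K₁)
    (_ : Irreducible ((q : ℕ) : ↥(descVal A K₁)))
    (K₃ : IntermediateField ℚ (AlgebraicClosure ℚ)) (_ : FiniteDimensional ℚ K₃)
    (h13 : K₁ ≤ K₃) (ζ : (↥K₃)ˣ) (hζ : IsPrimitiveRoot ζ q)
    [Algebra ↥(descVal A K₁) (FK K₁ (M * q * q))]
    [IsScalarTower ↥(descVal A K₁) K₁ (FK K₁ (M * q * q))]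
    (t₀ : LaurentSeries ℚ) (_ : IsBase (baseKind q) t₀)
    (t : FK K₁ (M * q * q)) (_ : (t : LaurentSeries K₁) = coeffEmb K₁ t₀)
    (x : FK K₁ (M * q * q)),
    (GInt ↥(descVal A K₁) ((q : ℕ) : ↥(descVal A K₁)) t x ↔
      InG (descVal A K₁) (x : LaurentSeries K₁) ∧
      InG (descVal A K₁) ((H12WQ.wq2KHom K₁ M q hq hqM x : FK K₁ (M * q * q)) :
        LaurentSeries K₁) ∧
      InG (descVal A K₃) (iota3qq K₁ K₃ M q hq hqM h13 ζ hζ x)) ∧
    (GInt ↥(descVal A K₁) ((q : ℕ) : ↥(descVal A K₁)) t x ↔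
      ∃ c : Fin q → FK K₁ (M * q),
        (∀ k, InG (descVal A K₁) (c k : LaurentSeries K₁) ∧
          InG (descVal A K₁) ((H12AL.wqKHom K₁ M q hq hqM (c k) : FK K₁ (M * q)) :
            LaurentSeries K₁)) ∧
        x = ∑ k : Fin q, incl K₁ (M * q) (M * q * q) (h8tg_dvd1 M q) (c k) *
          J2 K₁ (M * q * q) q (h8tg_dvd2 M q) ^ (k : ℕ))

end H8TG

end
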