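import Mathlib
import Fermat.Agent.S18.C5Base_helper19
import Fermat.Agent.S18.C5_helper19

/-!
# Item 86 (S36), slice (TG): the forward direction, generic (helper8)

`R` a DVR, `F ⊆ E` fields over `R`, `t ∈ F`, `V` a valuation subring of `E`.
If `V` contains the image of `O_F = {GInt}` (the integral closure in `F` of the Gauss
localization `R[t]_(ϖ)`), then `V` contains `O_E`:

* `h8tg_gint_mem_vs` : `(∀ c : F, GInt c → c ∈ V) → ∀ x : E, GInt x → x ∈ V`.

(Used with `F = FK K₁ (M q)`, `E = FK K₁ (M q²)`, `V = V₁, V₂, V₃` and `PairGauss` at level `M q`.)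
-/

set_option autoImplicit false
set_option linter.unusedSectionVars false
set_option linter.style.longLine false
set_option linter.unusedVariables false
set_option linter.style.haveILetI false

open Polynomial H7S18

namespace H8TG

section Fwd

variable (R : Type) [CommRing R] [IsDomain R] [IsDiscreteValuationRing R]
  {F : Type} [Field F] [Algebra R F]
  {E : Type} [Field E] [Algebra R E] [Algebra F E] [IsScalarTower R F E]

theorem h8tg_gaussUnit_ne_zero {t : F} {ϖ : R} {s : F} (hs : IsGaussUnit R ϖ t s) : s ≠ 0 := by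
  intro h0
  exact hs.2 0 (Subalgebra.zero_mem _) (by rw [h0, mul_zero])

theorem h8tg_gint_inv_gaussUnit {t : F} {ϖ : R} {s : F} (hs : IsGaussUnit R ϖ t s) :
    GInt R ϖ t s⁻¹ := by
  refine ⟨s, hs, ?_⟩
  rw [mul_inv_cancel₀ (h8tg_gaussUnit_ne_zero R hs)]
  have := H19S18.h19_isInt_algebraMap R t 1
  rwa [map_one] at this

/-- **forward direction**: a valuation subring of `E` containing the image of `O_F` contains
`O_E`. -/
theorem h8tg_gint_mem_vs {t : F} (ht : Transcendental R t) {ϖ : R} (hϖ : Irreducible ϖ)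
    (V : ValuationSubring E)
    (hV : ∀ c : F, GInt R ϖ t c → algebraMap F E c ∈ V)
    (x : E) (hx : GInt R ϖ (algebraMap F E t) x) : x ∈ V := by
  obtain ⟨s', hs', hint⟩ := hx
  obtain ⟨s, hs, rfl⟩ := H19S18.h19_gaussUnit_E_exists R ht ϖ hs'
  have hs0 : s ≠ 0 := h8tg_gaussUnit_ne_zero R hs
  have hsinv : GInt R ϖ t s⁻¹ := h8tg_gint_inv_gaussUnit R hs
  rw [H19S18.h19_isInt_E_iff] at hint
  have hadj : ∀ a : Algebra.adjoin R {t}, algebraMap F E (a : F) ∈ V := fun a =>
    hV _ (H19S18.h19_gint_of_isInt R ht hϖ (H19S18.h19_mem_T_isInt R t a.2))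
  have hint' : IsIntegral ↥V (algebraMap F E s * x) := by
    refine H19S18.h19_isIntegralElem_of_range (algebraMap (Algebra.adjoin R {t}) E)
      (algebraMap ↥V E) ?_ _ hint
    intro a
    exact ⟨⟨_, hadj a⟩, rfl⟩
  obtain ⟨z, hz⟩ := IsIntegrallyClosed.algebraMap_eq_of_integral hint'
  have hmem : algebraMap F E s * x ∈ V := by
    rw [← hz]
    exact z.2
  have hx' : x = algebraMap F E s⁻¹ * (algebraMap F E s * x) := by
    rw [← mul_assoc, ← map_mul, inv_mul_cancel₀ hs0, map_one, one_mul]
  rw [hx']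
  exact V.mul_mem _ _ (hV _ hsinv) hmem

end Fwd

end H8TG
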