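import Mathlib
import Fermat.Agent.S36.TGIncl_helper8
import Fermat.Agent.S35.FWComp_helper10
import Fermat.Agent.S35.FWSigVS_helper3
import Fermat.Agent.S36.RelGauss_helper24

/-!
# Item 86 (S36), slice (TG-RES-V1): the `V₁`-side inputs of `H24RG.rel_split` (helper24)

Tower `F₁ = FK K N ⊆ F₂ = FK K L`, `N ∣ L`, `q² ∣ L` (`H8TG.incl K N L h`, GENERIC levels; for
S36: `N = M q`, `L = M q q`), `θ = J₂ = j(𝐪^{q²})`,
`V₁' = ` Gauss valuation ring of `F₁` (cusp `∞`), `V₁ = ` Gauss valuation ring of `F₂`.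

Series level (`K` any field, `R : ValuationSubring K`, `char k_R = q`):
* `inGm_J2_sub`     : `InGm R (j(𝐪^{q²}) − j^{q²})`            (Kronecker twice);
* `inG_Jpow_sub`, `not_inGm_Jpow_sub` : `j^{q²} − j` is a unit of the Gauss ring;
* `inG_jq`, `inG_J2`.

`FK` level, for BOTH incarnations of the Gauss ring (`H10FC.gaussVal` and `H3SIG.gaussVS`,
which are equal: `gaussVS_eq_gaussVal`):
* `liesOver_V1`     : `incl c ∈ V₁ ↔ c ∈ V₁'`                                   (`hVa`);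
* `unifF`           : `ϖ := algebraMap K F₁ ϖ₀`, `unifF_ne_zero`, `unifF_lt_one`, `unifF_div`
                                                                       (`hϖ0`, `hϖ1`, `hϖ`);
* `J2_mem_V1`, `aF_mem`, `J0_mem`                                   (`hθa`, `ha`, `hc₀`);
* `J2_sub_lt_one`   : `V₁.valuation (J₂ − incl (J^{q²})) < 1`                  (`hθ_a`);
* `aF_sub_J0_val`   : `V₁'.valuation (J^{q²} − J) = 1`                           (`hac`);
* `tg_split`        : `rel_split` with all `V₁`-side inputs discharged: only the `V_b`-side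
                      (`= V₃`) hypotheses remain.
-/

set_option autoImplicit false
set_option linter.unusedSectionVars false
set_option linter.style.longLine false
set_option linter.unusedVariables false
set_option linter.style.haveILetI false
set_option synthInstance.maxHeartbeats 400000

open ModularCurve HahnSeries H28GV H8PB H3TAU H7S18

noncomputable section

namespace H24TG

section Series

variable {K : Type} [Field K] (R : ValuationSubring K)
variable (q : ℕ) [NeZero q] [Fact q.Prime] [CharP (IsLocalRing.ResidueField R) q]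

/-- `j(𝐪^{q²}) − j^{q²}` over `R` -/
def y2R : LaurentSeries R := qExpand R (q * q) (jqModC R) - jqModC R ^ (q ^ 2)

/-- `j^{q²} − j` over `R` -/
def zR : LaurentSeries R := jqModC R ^ (q ^ 2) - jqModC R

theorem rho_y2R : rhoR R (y2R R q) = 0 := by
  unfold y2R
  rw [map_sub, map_pow]
  show coeffMap _ (qExpand R (q * q) (jqModC R)) - (coeffMap _ (jqModC R)) ^ (q ^ 2) = 0
  rw [coeffMap_qExpand, coeffMap_jqModC, ← qExpand_qExpand, h8pb_kronecker, map_pow,
    h8pb_kronecker, ← pow_mul, pow_two, sub_self]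

theorem rho_zR : rhoR R (zR R q) ≠ 0 := by
  unfold zR
  rw [map_sub, map_pow]
  show (coeffMap _ (jqModC R)) ^ (q ^ 2) - coeffMap _ (jqModC R) ≠ 0
  rw [coeffMap_jqModC, sub_ne_zero, pow_two]
  exact fun h => h8pb_jq_ne_pow _ q h.symm

theorem eps_y2R : gvEps R (y2R R q) = qExpand K (q * q) (jqModC K) - jqModC K ^ (q ^ 2) := by
  unfold y2R
  rw [map_sub, map_pow]
  show coeffMap _ (qExpand R (q * q) (jqModC R)) - (coeffMap _ (jqModC R)) ^ (q ^ 2) = _
  rw [coeffMap_qExpand, coeffMap_jqModC]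

theorem eps_zR : gvEps R (zR R q) = jqModC K ^ (q ^ 2) - jqModC K := by
  unfold zR
  rw [map_sub, map_pow]
  show (coeffMap _ (jqModC R)) ^ (q ^ 2) - coeffMap _ (jqModC R) = _
  rw [coeffMap_jqModC]

/-- **`hθ_a`, series form**: `j(𝐪^{q²}) ≡ j^{q²}` modulo the Gauss maximal ideal. -/
theorem inGm_J2_sub : InGm R (qExpand K (q * q) (jqModC K) - jqModC K ^ (q ^ 2)) := by
  rw [← eps_y2R R q]
  exact H10FC.inGm_eps R (rho_y2R R q)

theorem inG_Jpow_sub : InG R (jqModC K ^ (q ^ 2) - jqModC K) := by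
  rw [← eps_zR R q]
  exact H10FC.inG_eps R _

/-- **`hac`, series form**: `j^{q²} − j` is a unit of the Gauss ring. -/
theorem not_inGm_Jpow_sub : ¬ InGm R (jqModC K ^ (q ^ 2) - jqModC K) := by
  rw [← eps_zR R q]
  exact H10FC.not_inGm_eps R (rho_zR R q)

omit [Fact q.Prime] [CharP (IsLocalRing.ResidueField R) q] in
theorem inG_jq : InG R (jqModC K) := by
  have h : gvEps R (jqModC R) = jqModC K := by
    show coeffMap _ (jqModC R) = _
    rw [coeffMap_jqModC]
  rw [← h]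
  exact H10FC.inG_eps R _

omit [Fact q.Prime] [CharP (IsLocalRing.ResidueField R) q] in
theorem inG_qExpand_jq (d : ℕ) [NeZero d] : InG R (qExpand K d (jqModC K)) := by
  have h : gvEps R (qExpand R d (jqModC R)) = qExpand K d (jqModC K) := by
    show coeffMap _ (qExpand R d (jqModC R)) = _
    rw [coeffMap_qExpand, coeffMap_jqModC]
  rw [← h]
  exact H10FC.inG_eps R _

omit [Fact q.Prime] [CharP (IsLocalRing.ResidueField R) q] in
theorem inG_pow {x : LaurentSeries K} (hx : InG R x) (n : ℕ) : InG R (x ^ n) := by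
  induction n with
  | zero => rw [pow_zero]; exact H10FC.inG_one' R
  | succ n ih => rw [pow_succ]; exact H10FC.inG_mul' R ih hx

end Series

section FKLevel

variable (K : Type) [Field K] [Algebra ℚ K] (R : ValuationSubring K) [IsDiscreteValuationRing R]
variable (N L q : ℕ) [NeZero N] [NeZero L] [NeZero q] (hNL : N ∣ L) (hqL : q * q ∣ L)

/-- the two incarnations of the Gauss valuation ring agree -/
theorem gaussVS_eq_gaussVal : H3SIG.gaussVS R N = H10FC.gaussVal R N := by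
  ext x
  exact Iff.rfl

/-- `a = J^{q²}` as an element of `F₁ = FK K N` -/
def aF : FK K N := H8TG.J0 K N ^ (q ^ 2)

@[simp]
theorem coe_aF : ((aF K N q : FK K N) : LaurentSeries K) = jqModC K ^ (q ^ 2) := by
  unfold aF
  rw [SubmonoidClass.coe_pow, H8TG.coe_J0]

/-- the uniformizer `ϖ₀` of `R` as an element of `F₁ = FK K N` -/
def unifF (ϖ₀ : R) : FK K N := algebraMap K (FK K N) (ϖ₀ : K)

theorem coe_unifF (ϖ₀ : R) :
    ((unifF K R N ϖ₀ : FK K N) : LaurentSeries K) = HahnSeries.C (ϖ₀ : K) := by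
  unfold unifF
  show algebraMap K (LaurentSeries K) (ϖ₀ : K) = _
  rw [algebraMap_laurentSeries_eq_single]
  rfl

theorem unifF_ne_zero {ϖ₀ : R} (hϖ : Irreducible ϖ₀) : unifF K R N ϖ₀ ≠ 0 := by
  unfold unifF
  intro h
  have h1 : ((ϖ₀ : R) : K) = 0 := by
    have := (algebraMap K (FK K N)).injective (h.trans (map_zero _).symm)
    exact this
  exact hϖ.ne_zero (Subtype.ext h1)

/-- **`hVa`**: `V₁` lies over `V₁'` (`gaussVal` form). -/
theorem liesOver_V1 (c : FK K N) :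
    H8TG.incl K N L hNL c ∈ H10FC.gaussVal R L ↔ c ∈ H10FC.gaussVal R N := by
  rw [H10FC.mem_gaussVal, H10FC.mem_gaussVal, H8TG.coe_incl]

/-- **`hVa`**, as `H24RG.LiesOverVS` for the algebra structure `(H8TG.incl K N L h).toAlgebra`. -/
theorem liesOverVS_V1 :
    letI := (H8TG.incl K N L hNL).toAlgebra
    H24RG.LiesOverVS (H10FC.gaussVal R L) (H10FC.gaussVal R N) := by
  letI := (H8TG.incl K N L hNL).toAlgebra
  intro c
  exact liesOver_V1 K R N L hNL c

/-- **`hϖ1`** -/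
theorem unifF_lt_one {ϖ₀ : R} (hϖ : Irreducible ϖ₀) :
    (H10FC.gaussVal R N).valuation (unifF K R N ϖ₀) < 1 := by
  rw [H10FC.gaussVal_lt_one, coe_unifF, h3v_inGm_iff]
  refine ⟨HahnSeries.C ϖ₀, 1, by rw [map_one]; exact one_ne_zero, ?_, ?_⟩
  · ext n
    rw [gvRho_coeff, HahnSeries.coeff_zero]
    by_cases hn : n = 0
    · subst hn
      rw [HahnSeries.C_apply, HahnSeries.coeff_single_same]
      rw [IsLocalRing.residue_eq_zero_iff]
      exact (IsLocalRing.mem_maximalIdeal _).2 hϖ.not_isUnit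
    · rw [HahnSeries.C_apply, HahnSeries.coeff_single_of_ne hn, map_zero]
  · rw [map_one, mul_one]
    ext n
    rw [gvEps_coeff]
    by_cases hn : n = 0
    · subst hn
      rw [HahnSeries.C_apply, HahnSeries.coeff_single_same, HahnSeries.C_apply,
        HahnSeries.coeff_single_same]
    · rw [HahnSeries.C_apply, HahnSeries.coeff_single_of_ne hn, HahnSeries.C_apply,
        HahnSeries.coeff_single_of_ne hn]
      rfl

/-- **`hϖ`**: `ϖ` generates the maximal ideal of `V₁'`. -/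
theorem unifF_div {ϖ₀ : R} (hϖ : Irreducible ϖ₀) (r : FK K N)
    (hr : (H10FC.gaussVal R N).valuation r < 1) :
    ∃ s ∈ H10FC.gaussVal R N, r = unifF K R N ϖ₀ * s := by
  rw [H10FC.gaussVal_lt_one] at hr
  obtain ⟨y, hy, hxy⟩ := H10FC.inGm_unif R hϖ hr
  have h0 := unifF_ne_zero K R N hϖ
  have h0' : ((unifF K R N ϖ₀ : FK K N) : LaurentSeries K) ≠ 0 :=
    fun h => h0 (Subtype.ext h)
  have e : (((unifF K R N ϖ₀)⁻¹ * r : FK K N) : LaurentSeries K) = y := by
    show ((unifF K R N ϖ₀ : FK K N) : LaurentSeries K)⁻¹ * (r : LaurentSeries K) = y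
    rw [hxy, coe_unifF, ← mul_assoc, inv_mul_cancel₀ (by rw [← coe_unifF K R N]; exact h0'),
      one_mul]
  refine ⟨(unifF K R N ϖ₀)⁻¹ * r, ?_, ?_⟩
  · rw [H10FC.mem_gaussVal, e]
    exact hy
  · rw [← mul_assoc, mul_inv_cancel₀ h0, one_mul]

/-- **`hθa`** -/
theorem J2_mem_V1 : H8TG.J2 K L q hqL ∈ H10FC.gaussVal R L := by
  rw [H10FC.mem_gaussVal, H8TG.coe_J2]
  exact inG_qExpand_jq R (q * q)

/-- **`hc₀`** -/
theorem J0_mem : H8TG.J0 K N ∈ H10FC.gaussVal R N := by
  rw [H10FC.mem_gaussVal, H8TG.coe_J0]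
  exact inG_jq R

/-- **`ha`** -/
theorem aF_mem : aF K N q ∈ H10FC.gaussVal R N := by
  rw [H10FC.mem_gaussVal, coe_aF]
  exact inG_pow R (inG_jq R) _

/-- `incl ϖ` is the constant `ϖ₀` of `F₂` -/
theorem incl_unifF (ϖ₀ : R) :
    H8TG.incl K N L hNL (unifF K R N ϖ₀) = unifF K R L ϖ₀ :=
  H8TG.incl_algebraMap K N L hNL _

/-- for `ϖ₀ = q` (unramified case): `ϖ = (q : F₁)` -/
theorem unifF_natCast (n : ℕ) : unifF K R N ((n : R)) = (n : FK K N) := by
  unfold unifF
  rw [show (((n : R) : R) : K) = ((n : ℕ) : K) from by push_cast; rfl, map_natCast]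

/-- from an equality of valuations to the unit form `hbe` of `H24RG.rel_split` -/
theorem hbe_of_val_eq {F : Type} [Field F] (V : ValuationSubring F) {x y : F} (hy : y ≠ 0)
    (h : V.valuation x = V.valuation y) : ∃ u : F, V.valuation u = 1 ∧ x = y * u := by
  refine ⟨y⁻¹ * x, ?_, ?_⟩
  · rw [map_mul, map_inv₀, h, inv_mul_cancel₀]
    rwa [Ne, Valuation.zero_iff]
  · rw [← mul_assoc, mul_inv_cancel₀ hy, one_mul]

variable [Fact q.Prime] [CharP (IsLocalRing.ResidueField R) q]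

/-- **`hθ_a`**: `J₂ ≡ J^{q²}` modulo `𝔪_{V₁}`. -/
theorem J2_sub_lt_one :
    (H10FC.gaussVal R L).valuation
      (H8TG.J2 K L q hqL - H8TG.incl K N L hNL (aF K N q)) < 1 := by
  rw [H10FC.gaussVal_lt_one]
  have e : ((H8TG.J2 K L q hqL - H8TG.incl K N L hNL (aF K N q) : FK K L) : LaurentSeries K) =
      qExpand K (q * q) (jqModC K) - jqModC K ^ (q ^ 2) := by
    rw [AddSubgroupClass.coe_sub, H8TG.coe_J2, H8TG.coe_incl, coe_aF]
  rw [e]
  exact inGm_J2_sub R q

/-- **`hac`**: `J^{q²} − J` is a unit of `V₁'`. -/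
theorem aF_sub_J0_val :
    (H10FC.gaussVal R N).valuation (aF K N q - H8TG.J0 K N) = 1 := by
  have e : ((aF K N q - H8TG.J0 K N : FK K N) : LaurentSeries K) =
      jqModC K ^ (q ^ 2) - jqModC K := by
    rw [AddSubgroupClass.coe_sub, coe_aF, H8TG.coe_J0]
  have h1 : (H10FC.gaussVal R N).valuation (aF K N q - H8TG.J0 K N) ≤ 1 := by
    rw [ValuationSubring.valuation_le_one_iff, H10FC.mem_gaussVal, e]
    exact inG_Jpow_sub R q
  have h2 : ¬ (H10FC.gaussVal R N).valuation (aF K N q - H8TG.J0 K N) < 1 := by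
    rw [H10FC.gaussVal_lt_one, e]
    exact not_inGm_Jpow_sub R q
  exact le_antisymm h1 (not_lt.mp h2)

/-- **(TG-RES-V1), packaged**: `H24RG.rel_split` for the tower `F(N) ⊆ F(L)`, `θ = J₂`,
`V_a = V₁` (Gauss ring at `∞`), with every `V₁`-side hypothesis discharged.  What remains are
the hypotheses on the second valuation ring `V_b` (`= V₃`): it lies over `V₁'`, contains `J₂`,
`b = J₂ − J` is in its maximal ideal and `b^{d-1} = ϖ · unit`. -/
theorem tg_split {ϖ₀ : R} (hϖ : Irreducible ϖ₀)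
    (Vb : ValuationSubring (FK K L))
    (hVb : ∀ c : FK K N, H8TG.incl K N L hNL c ∈ Vb ↔ c ∈ H10FC.gaussVal R N)
    (hθb : H8TG.J2 K L q hqL ∈ Vb)
    (hθ_b : Vb.valuation (H8TG.J2 K L q hqL - H8TG.incl K N L hNL (H8TG.J0 K N)) < 1)
    (d : ℕ)
    (hbe : ∃ u : FK K L, Vb.valuation u = 1 ∧
      (H8TG.J2 K L q hqL - H8TG.incl K N L hNL (H8TG.J0 K N)) ^ (d - 1) =
        H8TG.incl K N L hNL (unifF K R N ϖ₀) * u)
    (c : Fin d → FK K N)
    (hxa : (∑ k : Fin d, H8TG.incl K N L hNL (c k) * H8TG.J2 K L q hqL ^ (k : ℕ)) ∈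
      H10FC.gaussVal R L)
    (hxb : (∑ k : Fin d, H8TG.incl K N L hNL (c k) * H8TG.J2 K L q hqL ^ (k : ℕ)) ∈ Vb) :
    ∀ k, c k ∈ H10FC.gaussVal R N := by
  letI := (H8TG.incl K N L hNL).toAlgebra
  exact H24RG.rel_split (H10FC.gaussVal R N) (H10FC.gaussVal R L) Vb
    (liesOver_V1 K R N L hNL) hVb
    (unifF K R N ϖ₀) (unifF_ne_zero K R N hϖ) (unifF_lt_one K R N hϖ)
    (unifF_div K R N hϖ)
    (H8TG.J2 K L q hqL) (J2_mem_V1 K R L q hqL) hθb
    (aF K N q) (H8TG.J0 K N) (aF_mem K R N q) (J0_mem K R N)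
    (J2_sub_lt_one K R N L q hNL hqL) hθ_b d hbe (aF_sub_J0_val K R N q) c hxa hxb

/-- `tg_split` with `hbe` in valuation form (`V_b(b^{d-1}) = V_b(ϖ)`). -/
theorem tg_split_val {ϖ₀ : R} (hϖ : Irreducible ϖ₀)
    (Vb : ValuationSubring (FK K L))
    (hVb : ∀ c : FK K N, H8TG.incl K N L hNL c ∈ Vb ↔ c ∈ H10FC.gaussVal R N)
    (hθb : H8TG.J2 K L q hqL ∈ Vb)
    (hθ_b : Vb.valuation (H8TG.J2 K L q hqL - H8TG.incl K N L hNL (H8TG.J0 K N)) < 1)
    (d : ℕ)
    (hbe : Vb.valuation ((H8TG.J2 K L q hqL - H8TG.incl K N L hNL (H8TG.J0 K N)) ^ (d - 1)) =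
      Vb.valuation (unifF K R L ϖ₀))
    (c : Fin d → FK K N)
    (hxa : (∑ k : Fin d, H8TG.incl K N L hNL (c k) * H8TG.J2 K L q hqL ^ (k : ℕ)) ∈
      H10FC.gaussVal R L)
    (hxb : (∑ k : Fin d, H8TG.incl K N L hNL (c k) * H8TG.J2 K L q hqL ^ (k : ℕ)) ∈ Vb) :
    ∀ k, c k ∈ H10FC.gaussVal R N := by
  refine tg_split K R N L q hNL hqL hϖ Vb hVb hθb hθ_b d (hbe_of_val_eq Vb ?_ ?_) c hxa hxb
  · rw [incl_unifF]
    exact unifF_ne_zero K R L hϖ
  · rw [incl_unifF]
    exact hbe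

end FKLevel

end H24TG

end
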