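/-
Item 86 (S36), slice **(TW-SER)** (helper25): the twist series congruence on the middle
component `C₃` of `X₀(N' q²)`.

`𝐪`-expansion at the cusp `1/q` (helper3's `ι₃`): `j(z) ↦ j(𝐪)`, `j(q² z) ↦ tw ζ j = j(ζ 𝐪)`.
For ANY commutative ring `A`, unit `ζ`, `π := ζ - 1`, and `f ∈ A((𝐪))`:

* `tw_sub_self`     : `tw ζ f - f = π • (θ f + π • g)`            (`θ = 𝐪 d/d𝐪`);
* `cyclo_pow`       : `1 + ζ + ⋯ + ζ^{q-1} = 0`, `q` prime  ⟹  `π^{q-1} = - q (1 + π c)`;
* `tw_sub_self_pow` : `(tw ζ f - f)^{q-1} = q • (- (θ f)^{q-1} + π • h)`.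

So `b = j(q² z) - j(z)` has `ι₃ b = π · (θ j + π g)` (`w₃ b = w₃ π`, uniformizer when `θ j` is a
Gauss unit) and `ε₃ = b^{q-1} / q ≡ - (θ j)^{q-1} mod π`.  Mathlib + `H28S28.tw` only.
-/
import Mathlib
import Fermat.Agent.S28.Interface

set_option autoImplicit false

noncomputable section

open HahnSeries Polynomial

namespace H25TW

section Theta

variable {A : Type} [CommRing A]

/-- `θ = 𝐪 d/d𝐪` on Laurent series: `∑ aₙ 𝐪ⁿ ↦ ∑ n aₙ 𝐪ⁿ`. -/
def thetaLS (x : LaurentSeries A) : LaurentSeries A where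
  coeff n := (n : A) * x.coeff n
  isPWO_support' := x.isPWO_support.mono (fun n hn => by
    simp only [Function.mem_support, ne_eq] at hn
    rw [HahnSeries.mem_support]
    intro h
    exact hn (by rw [h, mul_zero]))

@[simp] theorem thetaLS_coeff (x : LaurentSeries A) (n : ℤ) :
    (thetaLS x).coeff n = (n : A) * x.coeff n := rfl

/-- coefficientwise multiplier by a function `c : ℤ → A` -/
def mulCoeff (c : ℤ → A) (x : LaurentSeries A) : LaurentSeries A where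
  coeff n := c n * x.coeff n
  isPWO_support' := x.isPWO_support.mono (fun n hn => by
    simp only [Function.mem_support, ne_eq] at hn
    rw [HahnSeries.mem_support]
    intro h
    exact hn (by rw [h, mul_zero]))

@[simp] theorem mulCoeff_coeff (c : ℤ → A) (x : LaurentSeries A) (n : ℤ) :
    (mulCoeff c x).coeff n = c n * x.coeff n := rfl

theorem thetaLS_add (x y : LaurentSeries A) : thetaLS (x + y) = thetaLS x + thetaLS y := by
  ext n
  simp [mul_add]

theorem thetaLS_zero : thetaLS (0 : LaurentSeries A) = 0 := by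
  ext n
  simp

theorem thetaLS_smul (a : A) (x : LaurentSeries A) : thetaLS (a • x) = a • thetaLS x := by
  ext n
  simp only [thetaLS_coeff, HahnSeries.coeff_smul, smul_eq_mul]
  ring

end Theta

section QInt

variable {A : Type} [CommRing A]

/-- `ζ^n - 1 = (ζ - 1) (n + (ζ - 1) c)` for natural `n`, any `ζ`. -/
theorem exists_pow_sub_one (ζ : A) (n : ℕ) :
    ∃ c : A, ζ ^ n - 1 = (ζ - 1) * ((n : A) + (ζ - 1) * c) := by
  induction n with
  | zero => exact ⟨0, by simp⟩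
  | succ n ih =>
    obtain ⟨c, hc⟩ := ih
    refine ⟨(n : A) + ζ * c, ?_⟩
    have h1 : ζ ^ (n + 1) - 1 = ζ * (ζ ^ n - 1) + (ζ - 1) := by ring
    rw [h1, hc]
    push_cast
    ring

/-- `ζ^n - 1 = (ζ - 1) (n + (ζ - 1) c)` for `n : ℤ`, `ζ` a unit. -/
theorem exists_zpow_sub_one (ζ : Aˣ) (n : ℤ) :
    ∃ c : A, ((ζ ^ n : Aˣ) : A) - 1 = ((ζ : A) - 1) * ((n : A) + ((ζ : A) - 1) * c) := by
  obtain ⟨m, rfl | rfl⟩ := Int.eq_nat_or_neg n
  · obtain ⟨c, hc⟩ := exists_pow_sub_one (ζ : A) m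
    refine ⟨c, ?_⟩
    rw [zpow_natCast, Units.val_pow_eq_pow_val, hc]
    push_cast
    ring
  · obtain ⟨c, hc⟩ := exists_pow_sub_one ((ζ⁻¹ : Aˣ) : A) m
    have hinv : ((ζ⁻¹ : Aˣ) : A) * (ζ : A) = 1 := by
      rw [← Units.val_mul, inv_mul_cancel, Units.val_one]
    set η : A := ((ζ⁻¹ : Aˣ) : A) with hη
    set z : A := (ζ : A) with hz
    refine ⟨η * (m : A) + η * η * c, ?_⟩
    rw [zpow_neg, zpow_natCast, ← inv_pow, Units.val_pow_eq_pow_val, hc]
    push_cast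
    linear_combination ((m : A) * (2 - z) + c * (2 * η - 1 - η * z)) * hinv

end QInt

section Twist

variable {A : Type} [CommRing A]

open H28S28

/-- **(TW1)** `tw ζ f - f = (ζ - 1) · (θ f + (ζ - 1) · g)`. -/
theorem tw_sub_self (ζ : Aˣ) (f : LaurentSeries A) :
    ∃ g : LaurentSeries A,
      tw ζ f - f = HahnSeries.C ((ζ : A) - 1) * (thetaLS f + HahnSeries.C ((ζ : A) - 1) * g) := by
  choose c hc using exists_zpow_sub_one ζ
  refine ⟨mulCoeff c f, ?_⟩
  ext n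
  rw [HahnSeries.C_mul_eq_smul, HahnSeries.C_mul_eq_smul]
  simp only [HahnSeries.coeff_sub, tw_coeff, HahnSeries.coeff_smul, HahnSeries.coeff_add,
    thetaLS_coeff, mulCoeff_coeff, smul_eq_mul]
  have h := hc n
  have h2 : ((ζ ^ n : Aˣ) : A) * f.coeff n - f.coeff n =
      (((ζ ^ n : Aˣ) : A) - 1) * f.coeff n := by ring
  rw [h2, h]
  ring

/-- coefficient form of **(TW1)**. -/
theorem tw_sub_self_coeff (ζ : Aˣ) (f : LaurentSeries A) :
    ∃ g : LaurentSeries A, ∀ n : ℤ,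
      (tw ζ f - f).coeff n = ((ζ : A) - 1) * ((n : A) * f.coeff n + ((ζ : A) - 1) * g.coeff n) := by
  obtain ⟨g, hg⟩ := tw_sub_self ζ f
  refine ⟨g, fun n => ?_⟩
  rw [hg, HahnSeries.C_mul_eq_smul, HahnSeries.C_mul_eq_smul]
  simp only [HahnSeries.coeff_smul, HahnSeries.coeff_add, thetaLS_coeff, smul_eq_mul]

end Twist

section Cyclo

/-- the polynomial identity `∑_{i<q} (X+1)^i = X^{q-1} + q (1 + X c)` over `ℤ`, `q` prime. -/
theorem exists_geom_poly (q : ℕ) (hq : q.Prime) :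
    ∃ c : Polynomial ℤ,
      ∑ i ∈ Finset.range q, (X + 1 : Polynomial ℤ) ^ i =
        X ^ (q - 1) + (q : Polynomial ℤ) * (1 + X * c) := by
  obtain ⟨r, hr⟩ := exists_add_pow_prime_eq hq (X : Polynomial ℤ) 1
  set P : Polynomial ℤ := ∑ i ∈ Finset.range q, (X + 1 : Polynomial ℤ) ^ i with hP
  have hq1 : 1 ≤ q := hq.one_lt.le
  have hq0 : (q : ℤ) ≠ 0 := by exact_mod_cast hq.ne_zero
  have hXq : (X : Polynomial ℤ) ^ q = X ^ (q - 1) * X := by
    rw [← pow_succ, Nat.sub_add_cancel hq1]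
  have hXP : P * X = (X ^ (q - 1) + (q : Polynomial ℤ) * r) * X := by
    have h := geom_sum_mul (X + 1 : Polynomial ℤ) q
    rw [← hP] at h
    have h2 : (X + 1 : Polynomial ℤ) - 1 = X := by ring
    rw [h2] at h
    rw [h, hr, hXq]
    ring
  have hP' : P = X ^ (q - 1) + (q : Polynomial ℤ) * r :=
    mul_right_cancel₀ Polynomial.X_ne_zero hXP
  -- r(0) = 1
  have hr1 : (r - 1).coeff 0 = 0 := by
    have h := congrArg (fun p : Polynomial ℤ => p.eval 0) hP'
    simp only [hP, Polynomial.eval_finsetSum, Polynomial.eval_pow, Polynomial.eval_add,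
      Polynomial.eval_X, Polynomial.eval_one, zero_add, one_pow, Finset.sum_const,
      Finset.card_range, Polynomial.eval_mul, Polynomial.eval_natCast] at h
    have hq2 : q - 1 ≠ 0 := by have := hq.two_le; omega
    rw [zero_pow hq2, zero_add] at h
    have h5 : (q : ℤ) * 1 = (q : ℤ) * r.eval 0 := by simpa using h
    have h6 := mul_left_cancel₀ hq0 h5
    rw [Polynomial.coeff_sub, Polynomial.coeff_zero_eq_eval_zero, ← h6]
    simp
  obtain ⟨c, hc⟩ := Polynomial.X_dvd_iff.mpr hr1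
  refine ⟨c, ?_⟩
  rw [hP', ← hc]
  ring

variable {A : Type} [CommRing A]

/-- **(TW2)** `1 + ζ + ⋯ + ζ^{q-1} = 0`, `q` prime  ⟹  `(ζ-1)^{q-1} = - q (1 + (ζ-1) c)`. -/
theorem cyclo_pow (q : ℕ) (hq : q.Prime) (ζ : A)
    (hζ : ∑ i ∈ Finset.range q, ζ ^ i = 0) :
    ∃ c : A, (ζ - 1) ^ (q - 1) = - ((q : A) * (1 + (ζ - 1) * c)) := by
  obtain ⟨c, hc⟩ := exists_geom_poly q hq
  refine ⟨Polynomial.aeval (ζ - 1) c, ?_⟩
  have h := congrArg (Polynomial.aeval (ζ - 1)) hc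
  simp only [map_sum, map_pow, map_add, Polynomial.aeval_X, map_one, map_mul, map_natCast,
    sub_add_cancel] at h
  rw [hζ] at h
  have : (ζ - 1) ^ (q - 1) = 0 - (q : A) * (1 + (ζ - 1) * (Polynomial.aeval (ζ - 1)) c) := by
    rw [h]; ring
  rw [this]; ring

/-- `cyclo_pow` for a primitive `q`-th root of unity in a domain. -/
theorem cyclo_pow_of_isPrimitiveRoot [IsDomain A] (q : ℕ) (hq : q.Prime) (ζ : A)
    (hζ : IsPrimitiveRoot ζ q) :
    ∃ c : A, (ζ - 1) ^ (q - 1) = - ((q : A) * (1 + (ζ - 1) * c)) :=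
  cyclo_pow q hq ζ (hζ.geom_sum_eq_zero hq.one_lt)

end Cyclo

section Main

variable {A : Type} [CommRing A]

open H28S28

/-- **(TW3)** `(tw ζ f - f)^{q-1} = q · (- (θ f)^{q-1} + (ζ-1) · h)`:
`ε₃ = b^{q-1}/q ≡ - (θ f)^{q-1} mod (ζ - 1)`. -/
theorem tw_sub_self_pow (q : ℕ) (hq : q.Prime) (ζ : Aˣ)
    (hζ : ∑ i ∈ Finset.range q, (ζ : A) ^ i = 0) (f : LaurentSeries A) :
    ∃ h : LaurentSeries A,
      (tw ζ f - f) ^ (q - 1) =
        HahnSeries.C (q : A) * (- (thetaLS f) ^ (q - 1) + HahnSeries.C ((ζ : A) - 1) * h) := by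
  obtain ⟨g, hg⟩ := tw_sub_self ζ f
  obtain ⟨c, hc⟩ := cyclo_pow q hq (ζ : A) hζ
  set π : A := (ζ : A) - 1 with hπ
  -- (θ f + π g)^{q-1} = (θ f)^{q-1} + π • h'
  obtain ⟨h', hh'⟩ : ∃ h' : LaurentSeries A,
      (thetaLS f + HahnSeries.C π * g) ^ (q - 1) =
        (thetaLS f) ^ (q - 1) + HahnSeries.C π * h' := by
    obtain ⟨d, hd⟩ := sub_dvd_pow_sub_pow (thetaLS f + HahnSeries.C π * g) (thetaLS f) (q - 1)
    refine ⟨g * d, ?_⟩
    have : (thetaLS f + HahnSeries.C π * g) ^ (q - 1) = (thetaLS f) ^ (q - 1) +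
        (thetaLS f + HahnSeries.C π * g - thetaLS f) * d := by rw [← hd]; ring
    rw [this]
    ring
  refine ⟨- (HahnSeries.C c * (thetaLS f) ^ (q - 1)) - h' - HahnSeries.C (π * c) * h', ?_⟩
  have hcC : (HahnSeries.C π : LaurentSeries A) ^ (q - 1) =
      - (HahnSeries.C (q : A) * (1 + HahnSeries.C π * HahnSeries.C c)) := by
    rw [← map_pow, hc, map_neg, map_mul, map_add, map_one, map_mul]
  rw [hg, mul_pow, hh', hcC, map_mul]
  ring

end Main

end H25TW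

end
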