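/-
Item 86 (S36), slice **V3** (helper3), part 3: Gauss valuation subrings pulled back along a
ring homomorphism `ι : F →+* K((𝐪))`, and the THIRD valuation subring `V₃` of `F_{K₁}(M)`.

Generic (`K` a field, `R` a valuation subring of `K` which is a DVR):
* `IsQB R x`            : `x` is a quotient of bounded series;  `qbField R : Subfield K((𝐪))`;
* `inG_iff_of_nf`, `inGm_iff_of_nf` : for `x · ε Y₂ = c · ε Y₁` (`Y₁`, `Y₂` primitive):
                          `InG R x ↔ c ∈ R`,  `InGm R x ↔ c ∈ 𝔪_R`;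
* `gaussVia R ι hb : ValuationSubring F`  with  `x ∈ gaussVia ↔ InG R (ι x)`,
                          `(gaussVia).valuation x < 1 ↔ InGm R (ι x)`.
-/
import Mathlib
import Fermat.Agent.S35.FWSigVS_helper3

set_option autoImplicit false
set_option linter.style.longLine false
set_option linter.unusedVariables false
set_option linter.unusedSectionVars false
set_option linter.style.haveILetI false

noncomputable section

open ModularCurve HahnSeries H28GV H8PB H3TAU H3SIG

namespace H3V3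

variable {K : Type} [Field K] (R : ValuationSubring K)

/-- `x` is a quotient of bounded series. -/
def IsQB (x : LaurentSeries K) : Prop :=
  ∃ a b : LaurentSeries K, IsBdd R a ∧ IsBdd R b ∧ b ≠ 0 ∧ x * b = a

variable {R}

theorem IsQB.of_bdd {x : LaurentSeries K} (hx : IsBdd R x) : IsQB R x :=
  ⟨x, 1, hx, IsBdd.one, one_ne_zero, mul_one _⟩

theorem IsQB.add {x y : LaurentSeries K} (hx : IsQB R x) (hy : IsQB R y) : IsQB R (x + y) := by
  obtain ⟨a, b, ha, hb, hb0, h⟩ := hx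
  obtain ⟨a', b', ha', hb', hb0', h'⟩ := hy
  refine ⟨a * b' + a' * b, b * b', (ha.mul hb').add (ha'.mul hb), hb.mul hb',
    mul_ne_zero hb0 hb0', ?_⟩
  rw [← h, ← h']
  ring

theorem IsQB.mul {x y : LaurentSeries K} (hx : IsQB R x) (hy : IsQB R y) : IsQB R (x * y) := by
  obtain ⟨a, b, ha, hb, hb0, h⟩ := hx
  obtain ⟨a', b', ha', hb', hb0', h'⟩ := hy
  refine ⟨a * a', b * b', ha.mul ha', hb.mul hb', mul_ne_zero hb0 hb0', ?_⟩
  rw [← h, ← h']
  ring

theorem IsQB.neg {x : LaurentSeries K} (hx : IsQB R x) : IsQB R (-x) := by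
  obtain ⟨a, b, ha, hb, hb0, h⟩ := hx
  exact ⟨-a, b, ha.neg, hb, hb0, by rw [← h]; ring⟩

theorem IsQB.inv {x : LaurentSeries K} (hx : IsQB R x) : IsQB R x⁻¹ := by
  obtain ⟨a, b, ha, hb, hb0, h⟩ := hx
  by_cases hx0 : x = 0
  · exact ⟨0, 1, IsBdd.zero, IsBdd.one, one_ne_zero, by rw [hx0, inv_zero, zero_mul]⟩
  · have ha0 : a ≠ 0 := by
      rw [← h]
      exact mul_ne_zero hx0 hb0
    refine ⟨b, a, hb, ha, ha0, ?_⟩
    rw [← h, ← mul_assoc, inv_mul_cancel₀ hx0, one_mul]

variable (R)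

/-- the field of quotients of bounded series -/
def qbField : Subfield (LaurentSeries K) where
  carrier := {x | IsQB R x}
  mul_mem' := fun hx hy => hx.mul hy
  one_mem' := IsQB.of_bdd IsBdd.one
  add_mem' := fun hx hy => hx.add hy
  zero_mem' := IsQB.of_bdd IsBdd.zero
  neg_mem' := fun hx => hx.neg
  inv_mem' := fun _ hx => hx.inv

theorem mem_qbField {x : LaurentSeries K} : x ∈ qbField R ↔ IsQB R x := Iff.rfl

variable {R}

/-- the normal form of a nonzero quotient of bounded series -/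
theorem nf_of_isQB [IsDiscreteValuationRing R] {x : LaurentSeries K} (hx : IsQB R x)
    (hx0 : x ≠ 0) :
    ∃ (c : K) (Y₁ Y₂ : LaurentSeries R), c ≠ 0 ∧ rhoR R Y₁ ≠ 0 ∧ rhoR R Y₂ ≠ 0 ∧
      x * gvEps R Y₂ = HahnSeries.C c * gvEps R Y₁ := by
  obtain ⟨a, b, ha, hb, hb0, h⟩ := hx
  have ha0 : a ≠ 0 := by
    rw [← h]
    exact mul_ne_zero hx0 hb0
  obtain ⟨c₁, hc₁, Y₁, hY₁, rfl⟩ := h3b_norm ha0 ha
  obtain ⟨c₂, hc₂, Y₂, hY₂, rfl⟩ := h3b_norm hb0 hb
  refine ⟨c₁ / c₂, Y₁, Y₂, div_ne_zero hc₁ hc₂, hY₁, hY₂, ?_⟩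
  have hC : HahnSeries.C c₂ ≠ (0 : LaurentSeries K) := by
    intro h0
    have h' := congrArg (fun z : LaurentSeries K => z.coeff 0) h0
    simp only [HahnSeries.C_apply, HahnSeries.coeff_single_same, HahnSeries.coeff_zero] at h'
    exact hc₂ h'
  have h2 : HahnSeries.C c₂ * (x * gvEps R Y₂) = HahnSeries.C c₂ *
      (HahnSeries.C (c₁ / c₂) * gvEps R Y₁) := by
    rw [← mul_assoc (HahnSeries.C c₂) (HahnSeries.C (c₁ / c₂)), ← map_mul,
      mul_div_cancel₀ _ hc₂, ← h]
    ring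
  exact mul_left_cancel₀ hC h2

/-- for `x = c · ε Y₁ / ε Y₂` with `Y₁`, `Y₂` primitive: `InG R x ↔ c ∈ R`. -/
theorem inG_iff_of_nf {x : LaurentSeries K} {c : K} {Y₁ Y₂ : LaurentSeries R}
    (hY₁ : rhoR R Y₁ ≠ 0) (hY₂ : rhoR R Y₂ ≠ 0)
    (h : x * gvEps R Y₂ = HahnSeries.C c * gvEps R Y₁) : InG R x ↔ c ∈ R := by
  constructor
  · intro hx
    rw [h3v_inG_iff] at hx
    obtain ⟨f, g, hg, hfg⟩ := hx
    -- `C c · ε (Y₁ g) = ε (f Y₂)`
    have h1 : HahnSeries.C c * gvEps R (Y₁ * g) = gvEps R (f * Y₂) := by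
      rw [map_mul, map_mul, ← hfg, ← mul_assoc, ← h]
      ring
    have h2 : rhoR R (Y₁ * g) ≠ 0 := by
      rw [map_mul]
      exact mul_ne_zero hY₁ hg
    obtain ⟨n, hn⟩ := (h3b_rho_ne_zero_iff R _).1 h2
    have h3 := congrArg (fun z : LaurentSeries K => z.coeff n) h1
    simp only [HahnSeries.C_mul_eq_smul, HahnSeries.coeff_smul, gvEps_coeff, smul_eq_mul] at h3
    obtain ⟨v, hv⟩ := hn
    have h4 : c = (((f * Y₂).coeff n : R) : K) * ((v⁻¹ : Rˣ) : R) := by
      rw [← h3, ← hv, mul_assoc]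
      have : ((v : R) : K) * (((v⁻¹ : Rˣ) : R) : K) = 1 := by
        have h5 : ((v : R) * ((v⁻¹ : Rˣ) : R) : R) = 1 := by simp
        exact_mod_cast congrArg (fun r : R => (r : K)) h5
      rw [this, mul_one]
    rw [h4]
    exact R.mul_mem _ _ (Subtype.mem _) (Subtype.mem _)
  · intro hc
    rw [h3v_inG_iff]
    refine ⟨HahnSeries.C ⟨c, hc⟩ * Y₁, Y₂, hY₂, ?_⟩
    rw [h, map_mul, gvEps_C]

/-- for `x = c · ε Y₁ / ε Y₂` with `Y₁`, `Y₂` primitive: `InGm R x ↔ c ∈ 𝔪_R`. -/
theorem inGm_iff_of_nf {x : LaurentSeries K} {c : K} {Y₁ Y₂ : LaurentSeries R}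
    (hY₁ : rhoR R Y₁ ≠ 0) (hY₂ : rhoR R Y₂ ≠ 0)
    (h : x * gvEps R Y₂ = HahnSeries.C c * gvEps R Y₁) : InGm R x ↔ c ∈ R.nonunits := by
  constructor
  · intro hx
    rw [h3v_inGm_iff] at hx
    obtain ⟨f, g, hg, hf, hfg⟩ := hx
    have h1 : HahnSeries.C c * gvEps R (Y₁ * g) = gvEps R (f * Y₂) := by
      rw [map_mul, map_mul, ← hfg, ← mul_assoc, ← h]
      ring
    have h2 : rhoR R (Y₁ * g) ≠ 0 := by
      rw [map_mul]
      exact mul_ne_zero hY₁ hg
    have h2' : rhoR R (f * Y₂) = 0 := by rw [map_mul, hf, zero_mul]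
    obtain ⟨n, hn⟩ := (h3b_rho_ne_zero_iff R _).1 h2
    have hnon := (h3b_rho_eq_zero_iff R _).1 h2' n
    have h3 := congrArg (fun z : LaurentSeries K => z.coeff n) h1
    simp only [HahnSeries.C_mul_eq_smul, HahnSeries.coeff_smul, gvEps_coeff, smul_eq_mul] at h3
    obtain ⟨v, hv⟩ := hn
    have hvK : ((v : R) : K) * (((v⁻¹ : Rˣ) : R) : K) = 1 := by
      have h5 : ((v : R) * ((v⁻¹ : Rˣ) : R) : R) = 1 := by simp
      exact_mod_cast congrArg (fun r : R => (r : K)) h5
    have h4 : c = (((f * Y₂).coeff n * ((v⁻¹ : Rˣ) : R) : R) : K) := by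
      push_cast
      rw [← h3, ← hv, mul_assoc, hvK, mul_one]
    rw [h4, ValuationSubring.coe_mem_nonunits_iff, IsLocalRing.mem_maximalIdeal,
      mem_nonunits_iff]
    intro hu
    apply hnon
    have := hu.mul (v.isUnit)
    rwa [mul_assoc, Units.inv_mul, mul_one] at this
  · intro hc
    have hcR : c ∈ R := R.nonunits_le hc
    rw [h3v_inGm_iff]
    refine ⟨HahnSeries.C ⟨c, hcR⟩ * Y₁, Y₂, hY₂, ?_, ?_⟩
    · rw [map_mul]
      have : rhoR R (HahnSeries.C (⟨c, hcR⟩ : R)) = 0 := by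
        rw [h3b_rho_eq_zero_iff]
        intro n
        by_cases hn : n = 0
        · subst hn
          rw [HahnSeries.C_apply, HahnSeries.coeff_single_same]
          have h1 : ((⟨c, hcR⟩ : R) : K) ∈ R.nonunits := hc
          rw [ValuationSubring.coe_mem_nonunits_iff, IsLocalRing.mem_maximalIdeal,
            mem_nonunits_iff] at h1
          exact h1
        · rw [HahnSeries.C_apply, HahnSeries.coeff_single_of_ne hn]
          exact not_isUnit_zero
      rw [this, zero_mul]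
    · rw [h, map_mul, gvEps_C]

/-- the Gauss ring is a valuation ring on quotients of bounded series. -/
theorem inG_or_inv_of_isQB [IsDiscreteValuationRing R] {x : LaurentSeries K} (hx : IsQB R x) :
    InG R x ∨ InG R x⁻¹ := by
  by_cases hx0 : x = 0
  · left
    rw [hx0]
    exact inG_zero R
  obtain ⟨c, Y₁, Y₂, hc, hY₁, hY₂, hrel⟩ := nf_of_isQB hx hx0
  rcases R.mem_or_inv_mem c with h | h
  · left
    exact (inG_iff_of_nf hY₁ hY₂ hrel).2 h
  · right
    have hC : (HahnSeries.C c : LaurentSeries K) ≠ 0 := by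
      intro h0
      apply hc
      have := congrArg (fun z : LaurentSeries K => z.coeff 0) h0
      simpa using this
    have hrel' : x⁻¹ * gvEps R Y₁ = HahnSeries.C c⁻¹ * gvEps R Y₂ := by
      rw [map_inv₀, inv_mul_eq_iff_eq_mul₀ hx0, ← mul_assoc, mul_comm x, mul_assoc, hrel,
        ← mul_assoc, inv_mul_cancel₀ hC, one_mul]
    exact (inG_iff_of_nf hY₂ hY₁ hrel').2 h

variable (R)

/-- **the Gauss valuation subring pulled back along `ι`**. -/
def gaussVia [IsDiscreteValuationRing R] {F : Type*} [Field F] (ι : F →+* LaurentSeries K)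
    (hb : ∀ x : F, IsQB R (ι x)) : ValuationSubring F where
  carrier := {x | InG R (ι x)}
  mul_mem' := fun {x y} hx hy => by
    show InG R (ι (x * y))
    rw [map_mul]
    exact inG_mul hx hy
  one_mem' := by
    show InG R (ι 1)
    rw [map_one]
    exact inG_one R
  add_mem' := fun {x y} hx hy => by
    show InG R (ι (x + y))
    rw [map_add]
    exact inG_add hx hy
  zero_mem' := by
    show InG R (ι 0)
    rw [map_zero]
    exact inG_zero R
  neg_mem' := fun {x} hx => by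
    show InG R (ι (-x))
    rw [map_neg]
    exact inG_neg hx
  mem_or_inv_mem' := fun x => by
    show InG R (ι x) ∨ InG R (ι x⁻¹)
    rw [map_inv₀]
    exact inG_or_inv_of_isQB (hb x)

variable [IsDiscreteValuationRing R] {F : Type*} [Field F] (ι : F →+* LaurentSeries K)
  (hb : ∀ x : F, IsQB R (ι x))

theorem mem_gaussVia (x : F) : x ∈ gaussVia R ι hb ↔ InG R (ι x) := Iff.rfl

theorem mem_nonunits_gaussVia (x : F) :
    x ∈ (gaussVia R ι hb).nonunits ↔ InGm R (ι x) := by
  rw [ValuationSubring.mem_nonunits_iff_or]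
  constructor
  · rintro (rfl | h)
    · rw [map_zero]
      exact (inGm_iff_not_inv (inG_zero R)).2 (Or.inl rfl)
    · have hx : x ∈ gaussVia R ι hb := by
        rcases (gaussVia R ι hb).mem_or_inv_mem x with h1 | h1
        · exact h1
        · exact absurd h1 h
      refine (inGm_iff_not_inv hx).2 (Or.inr ?_)
      intro h2
      apply h
      show InG R (ι x⁻¹)
      rwa [map_inv₀]
  · intro hm
    rcases (inGm_iff_not_inv (inGm_inG hm)).1 hm with h0 | h
    · left
      exact (map_eq_zero_iff ι ι.injective).1 h0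
    · right
      intro h2
      apply h
      have : InG R (ι x⁻¹) := h2
      rwa [map_inv₀] at this

theorem valuation_gaussVia_lt_one_iff (x : F) :
    (gaussVia R ι hb).valuation x < 1 ↔ InGm R (ι x) := by
  rw [← mem_nonunits_gaussVia, ValuationSubring.mem_nonunits_iff]

theorem valuation_gaussVia_le_one_iff (x : F) :
    (gaussVia R ι hb).valuation x ≤ 1 ↔ InG R (ι x) := by
  rw [← mem_gaussVia R ι hb, ValuationSubring.valuation_le_one_iff]

end H3V3

end
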