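/-
Item 86 (S36), slice **V3** (helper3), part 4: the THIRD valuation subring `V₃` of `F_{K₁}(M)`,
`q² ∥ M`  (the Gauss valuation of `K₃((𝐪))` pulled back along `ι₃`).

`K₁ ≤ K₃` intermediate fields of `ℚ̄/ℚ`, `R₁ ⊆ K₁`, `R₃ ⊆ K₃` valuation subrings (DVRs) with
`R₁ = R₃ ∩ K₁`, `ζ ∈ K₃ˣ` a primitive `q`-th root of unity.

* `iota3_isQB`   : `ι₃ x` is a quotient of bounded series;
* `V3 R₃ … : ValuationSubring (FK K₁ M)`,  `mem_V3 : x ∈ V3 ↔ InG R₃ (ι₃ x)`,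
  `valuation_V3_lt_one : V3.valuation x < 1 ↔ InGm R₃ (ι₃ x)`;
* `inG_descent`, `inGm_descent` : Gauss descent `K₃ ⊇ K₁` for quotients of bounded series;
* `V3_of_level`  : for `x` of level `N₁ ∣ M`, `q² ∤ N₁`:
                   `(x ∈ V3 ↔ InG R₁ x) ∧ (V3.valuation x < 1 ↔ InGm R₁ x)`   (`V₃ ∩ F₁ = V₁'`).
-/
import Mathlib
import Fermat.Agent.S36.V3Hom_helper3
import Fermat.Agent.S36.V3Val_helper3

set_option autoImplicit false
set_option linter.style.longLine false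
set_option linter.unusedVariables false
set_option linter.unusedSectionVars false
set_option linter.style.haveILetI false

noncomputable section

open ModularCurve RH24 H28S28 H7S18 HahnSeries H28GV H8PB H3TAU H3SIG

namespace H3V3

/-! ### Roots of unity in valuation subrings, twists of integral series -/

section Tw

variable {K : Type} [Field K] (R : ValuationSubring K)

theorem unit_mem_of_pow_eq_one (ζ : Kˣ) {n : ℕ} (hn : 0 < n) (h : ζ ^ n = 1) :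
    (ζ : K) ∈ R := by
  rcases R.mem_or_inv_mem (ζ : K) with h1 | h1
  · exact h1
  · have h2 : (ζ : K) = ((ζ : K)⁻¹) ^ (n - 1) := by
      have h3 : (ζ : K) ^ n = 1 := by
        have := congrArg (fun u : Kˣ => (u : K)) h
        simpa using this
      have h4 : (ζ : K) ≠ 0 := ζ.ne_zero
      have h5 : (ζ : K) * (ζ : K) ^ (n - 1) = 1 := by
        rw [← pow_succ', Nat.sub_add_cancel hn, h3]
      rw [inv_pow]
      exact (eq_inv_of_mul_eq_one_left h5)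
    rw [h2]
    exact R.pow_mem h1 _

/-- a root of unity as a unit of `R` -/
def unitR (ζ : Kˣ) {n : ℕ} (hn : 0 < n) (h : ζ ^ n = 1) : (↥R)ˣ where
  val := ⟨(ζ : K), unit_mem_of_pow_eq_one R ζ hn h⟩
  inv := ⟨((ζ⁻¹ : Kˣ) : K), unit_mem_of_pow_eq_one R ζ⁻¹ hn (by rw [inv_pow, h, inv_one])⟩
  val_inv := Subtype.ext (by simp)
  inv_val := Subtype.ext (by simp)

theorem tw_gvEps (ζ : Kˣ) {n : ℕ} (hn : 0 < n) (h : ζ ^ n = 1) (Y : LaurentSeries R) :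
    tw ζ (gvEps R Y) = gvEps R (tw (unitR R ζ hn h) Y) := by
  have h1 := coeffMap_tw R.subtype (unitR R ζ hn h) Y
  have h2 : Units.map (R.subtype : ↥R →* K) (unitR R ζ hn h) = ζ := Units.ext rfl
  rw [h2] at h1
  exact h1.symm

variable {R}

theorem IsBdd.tw {x : LaurentSeries K} (hx : IsBdd R x) (ζ : Kˣ) {n : ℕ} (hn : 0 < n)
    (h : ζ ^ n = 1) : IsBdd R (tw ζ x) := by
  obtain ⟨r, hr, Y, hY⟩ := hx
  refine ⟨r, hr, H28S28.tw (unitR R ζ hn h) Y, ?_⟩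
  rw [← tw_gvEps, ← hY, map_mul]
  congr 1
  ext m
  rw [tw_coeff]
  by_cases hm : m = 0
  · subst hm
    simp
  · rw [HahnSeries.C_apply, HahnSeries.coeff_single_of_ne hm, mul_zero]

end Tw

/-! ### `ι₃ x` is a quotient of bounded series -/

section QB

variable {K₁ K₃ : IntermediateField ℚ Kbar} (R₃ : ValuationSubring ↥K₃)
variable (M : ℕ) [NeZero M] (q : ℕ)

theorem JgenK_isBdd (d : Dv M) :
    IsBdd R₃ ((JgenK ↥K₃ d : FK ↥K₃ M) : LaurentSeries ↥K₃) := by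
  haveI : NeZero d.1 := ⟨Dv_ne_zero d⟩
  show IsBdd R₃ (coeffEmb ↥K₃ (qExpand ℚ d.1 jq))
  rw [gv_coeffEmb_qExpand, gv_coeffEmb_jq, ← gvEps_jd R₃ d.1]
  exact IsBdd.of_eps _

theorem iota3_isQB (h13 : K₁ ≤ K₃) (hq : q.Prime) (hM2 : q ^ 2 ∣ M) (hM3 : ¬ q ^ 3 ∣ M)
    (ζ : (↥K₃)ˣ) (hζ : IsPrimitiveRoot ζ q) (x : FK ↥K₁ M) :
    IsQB R₃ (iota3 M q h13 hq hM2 hM3 ζ hζ x) := by
  refine FK_induction ((qbField R₃).comap (iota3 M q h13 hq hM2 hM3 ζ hζ))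
    (fun c => ?_) (fun d => ?_) x
  · show IsQB R₃ (iota3 M q h13 hq hM2 hM3 ζ hζ (algebraMap ↥K₁ (FK ↥K₁ M) c))
    rw [iota3_const]
    have : algebraMap ↥K₃ (LaurentSeries ↥K₃) (IntermediateField.inclusion h13 c) =
        HahnSeries.C (IntermediateField.inclusion h13 c) := by
      rw [algebraMap_laurentSeries_eq_single]
      rfl
    rw [this]
    exact IsQB.of_bdd (IsBdd.const _)
  · show IsQB R₃ (iota3 M q h13 hq hM2 hM3 ζ hζ (JgenK ↥K₁ d))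
    rw [iota3_JgenK]
    unfold g3K
    by_cases h : q ^ 2 ∣ d.1
    · rw [dif_pos h]
      exact IsQB.of_bdd (IsBdd.tw (JgenK_isBdd R₃ M _) ζ hq.pos hζ.pow_eq_one)
    · rw [dif_neg h]
      exact IsQB.of_bdd (JgenK_isBdd R₃ M d)

variable [IsDiscreteValuationRing R₃]

/-- **the third valuation subring** of `F_{K₁}(M)`, `q² ∥ M`. -/
def V3 (h13 : K₁ ≤ K₃) (hq : q.Prime) (hM2 : q ^ 2 ∣ M) (hM3 : ¬ q ^ 3 ∣ M)
    (ζ : (↥K₃)ˣ) (hζ : IsPrimitiveRoot ζ q) : ValuationSubring (FK ↥K₁ M) :=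
  gaussVia R₃ (iota3 M q h13 hq hM2 hM3 ζ hζ) (iota3_isQB R₃ M q h13 hq hM2 hM3 ζ hζ)

theorem mem_V3 (h13 : K₁ ≤ K₃) (hq : q.Prime) (hM2 : q ^ 2 ∣ M) (hM3 : ¬ q ^ 3 ∣ M)
    (ζ : (↥K₃)ˣ) (hζ : IsPrimitiveRoot ζ q) (x : FK ↥K₁ M) :
    x ∈ V3 R₃ M q h13 hq hM2 hM3 ζ hζ ↔ InG R₃ (iota3 M q h13 hq hM2 hM3 ζ hζ x) := Iff.rfl

theorem mem_nonunits_V3 (h13 : K₁ ≤ K₃) (hq : q.Prime) (hM2 : q ^ 2 ∣ M) (hM3 : ¬ q ^ 3 ∣ M)
    (ζ : (↥K₃)ˣ) (hζ : IsPrimitiveRoot ζ q) (x : FK ↥K₁ M) :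
    x ∈ (V3 R₃ M q h13 hq hM2 hM3 ζ hζ).nonunits ↔
      InGm R₃ (iota3 M q h13 hq hM2 hM3 ζ hζ x) :=
  mem_nonunits_gaussVia R₃ _ _ x

theorem valuation_V3_lt_one (h13 : K₁ ≤ K₃) (hq : q.Prime) (hM2 : q ^ 2 ∣ M)
    (hM3 : ¬ q ^ 3 ∣ M) (ζ : (↥K₃)ˣ) (hζ : IsPrimitiveRoot ζ q) (x : FK ↥K₁ M) :
    (V3 R₃ M q h13 hq hM2 hM3 ζ hζ).valuation x < 1 ↔
      InGm R₃ (iota3 M q h13 hq hM2 hM3 ζ hζ x) :=
  valuation_gaussVia_lt_one_iff R₃ _ _ x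

theorem valuation_V3_le_one (h13 : K₁ ≤ K₃) (hq : q.Prime) (hM2 : q ^ 2 ∣ M)
    (hM3 : ¬ q ^ 3 ∣ M) (ζ : (↥K₃)ˣ) (hζ : IsPrimitiveRoot ζ q) (x : FK ↥K₁ M) :
    (V3 R₃ M q h13 hq hM2 hM3 ζ hζ).valuation x ≤ 1 ↔
      InG R₃ (iota3 M q h13 hq hM2 hM3 ζ hζ x) :=
  valuation_gaussVia_le_one_iff R₃ _ _ x

end QB

/-! ### Gauss descent -/

section Descent

variable {K L : Type} [Field K] [Field L] (j : K →+* L)
  (R : ValuationSubring K) (S : ValuationSubring L) (hRS : ∀ c : K, c ∈ R ↔ j c ∈ S)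

/-- the restriction `R → S` of `j` -/
def jR : ↥R →+* ↥S where
  toFun r := ⟨j (r : K), (hRS _).1 r.2⟩
  map_one' := Subtype.ext (map_one j)
  map_mul' a b := Subtype.ext (map_mul j _ _)
  map_zero' := Subtype.ext (map_zero j)
  map_add' a b := Subtype.ext (map_add j _ _)

theorem coeffMap_gvEps (Y : LaurentSeries R) :
    coeffMap j (gvEps R Y) = gvEps S (coeffMap (jR j R S hRS) Y) := by
  ext n
  rfl

theorem rho_jR_ne_zero {Y : LaurentSeries R} (hY : rhoR R Y ≠ 0) :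
    rhoR S (coeffMap (jR j R S hRS) Y) ≠ 0 := by
  rw [h3b_rho_ne_zero_iff] at hY ⊢
  obtain ⟨n, hn⟩ := hY
  exact ⟨n, by rw [coeffMap_coeff]; exact hn.map _⟩

theorem coeffMap_C' (c : K) :
    coeffMap j (HahnSeries.C c : LaurentSeries K) = HahnSeries.C (j c) := by
  show coeffMap j (HahnSeries.single 0 c) = HahnSeries.single 0 (j c)
  rw [coeffMap_single]

include hRS in
theorem mem_nonunits_descent (c : K) : c ∈ R.nonunits ↔ j c ∈ S.nonunits := by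
  rw [ValuationSubring.mem_nonunits_iff_or, ValuationSubring.mem_nonunits_iff_or,
    map_eq_zero_iff j j.injective, ← map_inv₀, ← hRS]

include hRS in
/-- **Gauss descent** for `InG`. -/
theorem inG_descent [IsDiscreteValuationRing R] {x : LaurentSeries K} (hx : IsQB R x) :
    InG S (coeffMap j x) ↔ InG R x := by
  by_cases hx0 : x = 0
  · rw [hx0, map_zero]
    exact ⟨fun _ => inG_zero R, fun _ => inG_zero S⟩
  obtain ⟨c, Y₁, Y₂, hc, hY₁, hY₂, hrel⟩ := nf_of_isQB hx hx0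
  have hrel' : coeffMap j x * gvEps S (coeffMap (jR j R S hRS) Y₂) =
      HahnSeries.C (j c) * gvEps S (coeffMap (jR j R S hRS) Y₁) := by
    rw [← coeffMap_gvEps, ← coeffMap_gvEps, ← coeffMap_C', ← map_mul, ← map_mul, hrel]
  rw [inG_iff_of_nf hY₁ hY₂ hrel,
    inG_iff_of_nf (rho_jR_ne_zero j R S hRS hY₁) (rho_jR_ne_zero j R S hRS hY₂) hrel', hRS]

include hRS in
/-- **Gauss descent** for `InGm`. -/
theorem inGm_descent [IsDiscreteValuationRing R] {x : LaurentSeries K} (hx : IsQB R x) :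
    InGm S (coeffMap j x) ↔ InGm R x := by
  by_cases hx0 : x = 0
  · rw [hx0, map_zero]
    exact ⟨fun _ => (inGm_iff_not_inv (inG_zero R)).2 (Or.inl rfl),
      fun _ => (inGm_iff_not_inv (inG_zero S)).2 (Or.inl rfl)⟩
  obtain ⟨c, Y₁, Y₂, hc, hY₁, hY₂, hrel⟩ := nf_of_isQB hx hx0
  have hrel' : coeffMap j x * gvEps S (coeffMap (jR j R S hRS) Y₂) =
      HahnSeries.C (j c) * gvEps S (coeffMap (jR j R S hRS) Y₁) := by
    rw [← coeffMap_gvEps, ← coeffMap_gvEps, ← coeffMap_C', ← map_mul, ← map_mul, hrel]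
  rw [inGm_iff_of_nf hY₁ hY₂ hrel,
    inGm_iff_of_nf (rho_jR_ne_zero j R S hRS hY₁) (rho_jR_ne_zero j R S hRS hY₂) hrel',
    ← mem_nonunits_descent j R S hRS]

end Descent

/-- elements of `F_K(N)` are quotients of bounded series -/
theorem isQB_of_mem_lbc {K : Type} [Field K] [Algebra ℚ K] (R : ValuationSubring K)
    (N : ℕ) [NeZero N] (x : LaurentSeries K)
    (hx : x ∈ laurentBaseChange K (modularFunctionFieldFull N)) : IsQB R x := by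
  rw [gv_bar_eq] at hx
  exact h3b_quot R N x hx

/-! ### `V₃ ∩ F₁ = V₁'` -/

section Level

variable {K₁ K₃ : IntermediateField ℚ Kbar} (R₁ : ValuationSubring ↥K₁)
  (R₃ : ValuationSubring ↥K₃) [IsDiscreteValuationRing R₁] [IsDiscreteValuationRing R₃]
variable (M : ℕ) [NeZero M] (q : ℕ)

/-- **`V₃ ∩ F₁ = V₁'`**: on functions of level `N₁ ∣ M`, `q² ∤ N₁`, the third valuation is the
Gauss valuation of `R₁`. -/
theorem V3_of_level (h13 : K₁ ≤ K₃)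
    (hR : ∀ c : ↥K₁, c ∈ R₁ ↔ IntermediateField.inclusion h13 c ∈ R₃)
    (hq : q.Prime) (hM2 : q ^ 2 ∣ M) (hM3 : ¬ q ^ 3 ∣ M)
    (ζ : (↥K₃)ˣ) (hζ : IsPrimitiveRoot ζ q) (N₁ : ℕ) [NeZero N₁] (hN₁ : N₁ ∣ M)
    (hqN₁ : ¬ q ^ 2 ∣ N₁) (x : FK ↥K₁ M)
    (hx : (x : LaurentSeries ↥K₁) ∈ laurentBaseChange ↥K₁ (modularFunctionFieldFull N₁)) :
    (x ∈ V3 R₃ M q h13 hq hM2 hM3 ζ hζ ↔ InG R₁ (x : LaurentSeries ↥K₁)) ∧
    ((V3 R₃ M q h13 hq hM2 hM3 ζ hζ).valuation x < 1 ↔ InGm R₁ (x : LaurentSeries ↥K₁)) := by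
  have hqb := isQB_of_mem_lbc R₁ N₁ _ hx
  have hι := iota3_of_level M q h13 hq hM2 hM3 ζ hζ N₁ hN₁ hqN₁ x hx
  constructor
  · rw [mem_V3, hι]
    exact inG_descent (IntermediateField.inclusion h13 : ↥K₁ →+* ↥K₃) R₁ R₃ hR hqb
  · rw [valuation_V3_lt_one, hι]
    exact inGm_descent (IntermediateField.inclusion h13 : ↥K₁ →+* ↥K₃) R₁ R₃ hR hqb

end Level

end H3V3

end
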