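/-
Item 86 (S36), slice **V3** (helper3), part 5: the uniformizer `b = j(𝐪^{q²}) - j(𝐪)` of the
third valuation `V₃` (`e(w₃) = q - 1`).

`ι₃ b = tw_ζ j - j`, and `(tw_ζ j - j)^{q-1} = q · U` with `U ≡ -(θ j)^{q-1} mod (ζ - 1)` a Gauss
unit (helper25's `H25TW.tw_sub_self_pow`).  Hence

* `V3_unif_unit` : `b ^ (q-1) / q` is a unit of `V₃`  (`V₃.valuation (b^(q-1) / q) = 1`);
* `V3_unif_lt`   : `V₃.valuation b < 1`.
-/
import Mathlib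
import Fermat.Agent.S36.V3_helper3
import Fermat.Agent.S36.TwSer_helper25

set_option autoImplicit false
set_option linter.style.longLine false
set_option linter.unusedVariables false
set_option linter.unusedSectionVars false
set_option linter.style.haveILetI false

noncomputable section

open ModularCurve RH24 H28S28 H7S18 HahnSeries H28GV H8PB H3TAU H3SIG

namespace H3V3

section Series

variable {K : Type} [Field K] (R : ValuationSubring K)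

/-- the residue of `θ j` is not zero -/
theorem rho_theta_jq_ne_zero : rhoR R (H25TW.thetaLS (jqModC ↥R)) ≠ 0 := by
  rw [h3b_rho_ne_zero_iff]
  refine ⟨-1, ?_⟩
  rw [H25TW.thetaLS_coeff, coeff_jqModC_neg_one, mul_one]
  simp

/-- `(tw_ζ j - j)^{q-1} = q · U`, `U` primitive. -/
theorem exists_unif_series (q : ℕ) (hq : q.Prime) (hqR : (q : K) ∈ R.nonunits)
    (ζ : (↥R)ˣ) (hζ : IsPrimitiveRoot (ζ : ↥R) q) :
    ∃ U : LaurentSeries ↥R, rhoR R U ≠ 0 ∧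
      (tw ζ (jqModC ↥R) - jqModC ↥R) ^ (q - 1) = HahnSeries.C ((q : ℕ) : ↥R) * U := by
  have hsum : ∑ i ∈ Finset.range q, (ζ : ↥R) ^ i = 0 := hζ.geom_sum_eq_zero hq.one_lt
  obtain ⟨h, hh⟩ := H25TW.tw_sub_self_pow q hq ζ hsum (jqModC ↥R)
  obtain ⟨c, hc⟩ := H25TW.cyclo_pow q hq (ζ : ↥R) hsum
  -- `π = ζ - 1` is not a unit
  have hqm : ((q : ℕ) : ↥R) ∈ IsLocalRing.maximalIdeal ↥R := by
    have h1 : (((q : ℕ) : ↥R) : K) ∈ R.nonunits := by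
      have : (((q : ℕ) : ↥R) : K) = (q : K) := by push_cast; rfl
      rw [this]
      exact hqR
    rwa [ValuationSubring.coe_mem_nonunits_iff] at h1
  have hπ : (ζ : ↥R) - 1 ∈ IsLocalRing.maximalIdeal ↥R := by
    have h1 : ((ζ : ↥R) - 1) ^ (q - 1) ∈ IsLocalRing.maximalIdeal ↥R := by
      rw [hc]
      exact Ideal.neg_mem_iff _ |>.2 (Ideal.mul_mem_right _ _ hqm)
    exact (IsLocalRing.maximalIdeal.isMaximal ↥R).isPrime.mem_of_pow_mem _ h1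
  refine ⟨- (H25TW.thetaLS (jqModC ↥R)) ^ (q - 1) + HahnSeries.C ((ζ : ↥R) - 1) * h, ?_, hh⟩
  have h0 : rhoR R (HahnSeries.C ((ζ : ↥R) - 1)) = 0 := by
    rw [h3b_rho_eq_zero_iff]
    intro n
    by_cases hn : n = 0
    · subst hn
      rw [HahnSeries.C_apply, HahnSeries.coeff_single_same]
      exact (IsLocalRing.mem_maximalIdeal _).1 hπ
    · rw [HahnSeries.C_apply, HahnSeries.coeff_single_of_ne hn]
      exact not_isUnit_zero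
  rw [map_add, map_mul, h0, zero_mul, add_zero, map_neg, map_pow, neg_ne_zero]
  exact pow_ne_zero _ (rho_theta_jq_ne_zero R)

end Series

section Unif

variable {K₁ K₃ : IntermediateField ℚ Kbar} (R₃ : ValuationSubring ↥K₃)
  [IsDiscreteValuationRing R₃]
variable (M : ℕ) [NeZero M] (q : ℕ)

/-- `j(𝐪)` as an element of `F_{K₁}(M)` -/
def J0 (K₁ : IntermediateField ℚ Kbar) : FK ↥K₁ M := JgenK ↥K₁ (⟨1, one_dvd M⟩ : Dv M)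

/-- `j(𝐪^{q²})` as an element of `F_{K₁}(M)`, `q² ∣ M` -/
def J2 (K₁ : IntermediateField ℚ Kbar) (hM2 : q ^ 2 ∣ M) : FK ↥K₁ M :=
  JgenK ↥K₁ (⟨q ^ 2, hM2⟩ : Dv M)

theorem coe_J0 : ((J0 M K₁ : FK ↥K₁ M) : LaurentSeries ↥K₁) = coeffEmb ↥K₁ jq := by
  show coeffEmb ↥K₁ (qExpand ℚ 1 jq) = _
  rw [qExpand_one_apply]

theorem coe_J2 (hM2 : q ^ 2 ∣ M) [NeZero (q ^ 2)] :
    ((J2 M q K₁ hM2 : FK ↥K₁ M) : LaurentSeries ↥K₁) = coeffEmb ↥K₁ (qExpand ℚ (q ^ 2) jq) := rfl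

/-- `ι₃ (j(𝐪^{q²}) - j(𝐪)) = ε (tw_ζ j - j)` -/
theorem iota3_b (h13 : K₁ ≤ K₃) (hq : q.Prime) (hM2 : q ^ 2 ∣ M) (hM3 : ¬ q ^ 3 ∣ M)
    (ζ : (↥K₃)ˣ) (hζ : IsPrimitiveRoot ζ q) :
    iota3 M q h13 hq hM2 hM3 ζ hζ (J2 M q K₁ hM2 - J0 M K₁) =
      gvEps R₃ (tw (unitR R₃ ζ hq.pos hζ.pow_eq_one) (jqModC ↥R₃) - jqModC ↥R₃) := by
  have h1 : ¬ q ^ 2 ∣ (⟨1, one_dvd M⟩ : Dv M).1 := by
    intro h
    have h2 : q ^ 2 = 1 := Nat.dvd_one.1 h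
    have h3 : 1 < q ^ 2 := Nat.one_lt_pow (by norm_num) hq.one_lt
    omega
  haveI : NeZero (⟨1, one_dvd M⟩ : Dv M).1 := ⟨one_ne_zero⟩
  have hJ : coeffEmb ↥K₃ jq = gvEps R₃ (jqModC ↥R₃) := by
    rw [gv_coeffEmb_jq, gvEps_jq]
  rw [map_sub, J0, J2, iota3_Jlow M q h13 hq hM2 hM3 ζ hζ _ h1,
    iota3_Jhigh M q h13 hq hM2 hM3 ζ hζ (⟨q ^ 2, hM2⟩ : Dv M) 1 (by simp),
    qExpand_one_apply, hJ, tw_gvEps R₃ ζ hq.pos hζ.pow_eq_one, map_sub]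

theorem isPrimitiveRoot_unitR (hq : q.Prime) (ζ : (↥K₃)ˣ) (hζ : IsPrimitiveRoot ζ q) :
    IsPrimitiveRoot ((unitR R₃ ζ hq.pos hζ.pow_eq_one : (↥R₃)ˣ) : ↥R₃) q := by
  have h1 : IsPrimitiveRoot (ζ : ↥K₃) q := IsPrimitiveRoot.coe_units_iff.2 hζ
  have h2 : (R₃.subtype : ↥R₃ →+* ↥K₃) ((unitR R₃ ζ hq.pos hζ.pow_eq_one : (↥R₃)ˣ) : ↥R₃) =
      (ζ : ↥K₃) := rfl
  rw [← h2] at h1
  exact IsPrimitiveRoot.of_map_of_injective (f := (R₃.subtype : ↥R₃ →+* ↥K₃)) h1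
    Subtype.val_injective

/-- `ι₃ (b^{q-1}) = q · ε U`, `U` primitive. -/
theorem iota3_b_pow (h13 : K₁ ≤ K₃) (hq : q.Prime) (hM2 : q ^ 2 ∣ M) (hM3 : ¬ q ^ 3 ∣ M)
    (ζ : (↥K₃)ˣ) (hζ : IsPrimitiveRoot ζ q) (hqR : (q : ↥K₃) ∈ R₃.nonunits) :
    ∃ U : LaurentSeries ↥R₃, rhoR R₃ U ≠ 0 ∧
      iota3 M q h13 hq hM2 hM3 ζ hζ ((J2 M q K₁ hM2 - J0 M K₁) ^ (q - 1)) =
        HahnSeries.C (q : ↥K₃) * gvEps R₃ U := by
  obtain ⟨U, hU, hrel⟩ := exists_unif_series R₃ q hq hqR (unitR R₃ ζ hq.pos hζ.pow_eq_one)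
    (isPrimitiveRoot_unitR R₃ q hq ζ hζ)
  refine ⟨U, hU, ?_⟩
  rw [map_pow, iota3_b R₃ M q h13 hq hM2 hM3 ζ hζ, ← map_pow, hrel, map_mul, gvEps_C]
  congr 2

theorem iota3_natCast (h13 : K₁ ≤ K₃) (hq : q.Prime) (hM2 : q ^ 2 ∣ M) (hM3 : ¬ q ^ 3 ∣ M)
    (ζ : (↥K₃)ˣ) (hζ : IsPrimitiveRoot ζ q) (n : ℕ) :
    iota3 M q h13 hq hM2 hM3 ζ hζ (n : FK ↥K₁ M) = HahnSeries.C (n : ↥K₃) := by
  rw [map_natCast]
  have : ((n : ℕ) : LaurentSeries ↥K₃) = HahnSeries.C ((n : ℕ) : ↥K₃) := by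
    rw [map_natCast]
  exact this

/-- **the uniformizer**: `b^{q-1} / q` is a unit of `V₃`. -/
theorem V3_unif_unit (h13 : K₁ ≤ K₃) (hq : q.Prime) (hM2 : q ^ 2 ∣ M) (hM3 : ¬ q ^ 3 ∣ M)
    (ζ : (↥K₃)ˣ) (hζ : IsPrimitiveRoot ζ q) (hqR : (q : ↥K₃) ∈ R₃.nonunits) :
    (V3 R₃ M q h13 hq hM2 hM3 ζ hζ).valuation
      ((J2 M q K₁ hM2 - J0 M K₁) ^ (q - 1) / (q : FK ↥K₁ M)) = 1 := by
  obtain ⟨U, hU, hrel⟩ := iota3_b_pow R₃ M q h13 hq hM2 hM3 ζ hζ hqR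
  have hq0 : (q : ↥K₃) ≠ 0 := by
    have : ((q : ℕ) : ↥K₃) ≠ 0 := Nat.cast_ne_zero.2 hq.ne_zero
    exact this
  have hC : (HahnSeries.C (q : ↥K₃) : LaurentSeries ↥K₃) ≠ 0 := by
    intro h0
    have := congrArg (fun z : LaurentSeries ↥K₃ => z.coeff 0) h0
    simp only [HahnSeries.C_apply, HahnSeries.coeff_single_same, HahnSeries.coeff_zero] at this
    exact hq0 this
  have hx : iota3 M q h13 hq hM2 hM3 ζ hζ
      ((J2 M q K₁ hM2 - J0 M K₁) ^ (q - 1) / (q : FK ↥K₁ M)) = gvEps R₃ U := by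
    rw [map_div₀, hrel, iota3_natCast, mul_div_cancel_left₀ _ hC]
  have h1 : (1 : LaurentSeries ↥R₃) = 1 := rfl
  have hone : rhoR R₃ (1 : LaurentSeries ↥R₃) ≠ 0 := by
    rw [map_one]
    exact one_ne_zero
  apply le_antisymm
  · rw [valuation_V3_le_one, hx]
    exact inG_eps R₃ U
  · -- the inverse is integral
    have hinv : (V3 R₃ M q h13 hq hM2 hM3 ζ hζ).valuation
        ((J2 M q K₁ hM2 - J0 M K₁) ^ (q - 1) / (q : FK ↥K₁ M))⁻¹ ≤ 1 := by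
      rw [valuation_V3_le_one, map_inv₀, hx]
      have hrel' : (gvEps R₃ U)⁻¹ * gvEps R₃ U = HahnSeries.C (1 : ↥K₃) * gvEps R₃ 1 := by
        rw [inv_mul_cancel₀ (gvEps_ne_zero hU), map_one, map_one, mul_one]
      exact (inG_iff_of_nf hone hU hrel').2 R₃.one_mem
    have hx0 : (J2 M q K₁ hM2 - J0 M K₁) ^ (q - 1) / (q : FK ↥K₁ M) ≠ 0 := by
      intro h0
      rw [h0, map_zero] at hx
      exact gvEps_ne_zero hU hx.symm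
    have hmul : (V3 R₃ M q h13 hq hM2 hM3 ζ hζ).valuation
        ((J2 M q K₁ hM2 - J0 M K₁) ^ (q - 1) / (q : FK ↥K₁ M)) *
        (V3 R₃ M q h13 hq hM2 hM3 ζ hζ).valuation
        ((J2 M q K₁ hM2 - J0 M K₁) ^ (q - 1) / (q : FK ↥K₁ M))⁻¹ = 1 := by
      rw [← map_mul, mul_inv_cancel₀ hx0, map_one]
    calc (1 : _) = _ := hmul.symm
      _ ≤ (V3 R₃ M q h13 hq hM2 hM3 ζ hζ).valuation
          ((J2 M q K₁ hM2 - J0 M K₁) ^ (q - 1) / (q : FK ↥K₁ M)) * 1 :=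
        mul_le_mul_right hinv _
      _ = _ := mul_one _

/-- `b` lies in the maximal ideal of `V₃`. -/
theorem V3_unif_lt (h13 : K₁ ≤ K₃) (hq : q.Prime) (hM2 : q ^ 2 ∣ M) (hM3 : ¬ q ^ 3 ∣ M)
    (ζ : (↥K₃)ˣ) (hζ : IsPrimitiveRoot ζ q) (hqR : (q : ↥K₃) ∈ R₃.nonunits) :
    (V3 R₃ M q h13 hq hM2 hM3 ζ hζ).valuation (J2 M q K₁ hM2 - J0 M K₁) < 1 := by
  have hu := V3_unif_unit R₃ M q h13 hq hM2 hM3 ζ hζ hqR
  -- `v(q) < 1`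
  have hvq : (V3 R₃ M q h13 hq hM2 hM3 ζ hζ).valuation (q : FK ↥K₁ M) < 1 := by
    rw [valuation_V3_lt_one, iota3_natCast]
    have hrel' : HahnSeries.C (q : ↥K₃) * gvEps R₃ 1 = HahnSeries.C (q : ↥K₃) * gvEps R₃ 1 := rfl
    have hone : rhoR R₃ (1 : LaurentSeries ↥R₃) ≠ 0 := by
      rw [map_one]
      exact one_ne_zero
    exact (inGm_iff_of_nf hone hone hrel').2 hqR
  rw [map_div₀] at hu
  have hq0 : (V3 R₃ M q h13 hq hM2 hM3 ζ hζ).valuation (q : FK ↥K₁ M) ≠ 0 := by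
    rw [Ne, map_eq_zero]
    exact Nat.cast_ne_zero.2 hq.ne_zero
  have hb : (V3 R₃ M q h13 hq hM2 hM3 ζ hζ).valuation ((J2 M q K₁ hM2 - J0 M K₁) ^ (q - 1)) =
      (V3 R₃ M q h13 hq hM2 hM3 ζ hζ).valuation (q : FK ↥K₁ M) := by
    rw [div_eq_one_iff_eq hq0] at hu
    exact hu
  rw [map_pow] at hb
  by_contra hge
  rw [not_lt] at hge
  have := one_le_pow₀ (n := q - 1) hge
  rw [hb] at this
  exact absurd hvq (not_lt.2 this)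

end Unif

end H3V3

end
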