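import Mathlib
import Fermat.Agent.S36.TGDefs_helper8
import Fermat.Agent.S36.TGCore_helper8
import Fermat.Agent.S36.TGFwd_helper8
import Fermat.Agent.S36.TGResV1_helper24
import Fermat.Agent.S36.V3Unif_helper3
import Fermat.Agent.S34.PairGaussFinal_helper8
import Fermat.Agent.S34.PairJq_helper25

/-!
# Item 86 (S36), slice (TG): the triple Gauss theorem (helper8)

`H8TG.h8tg_tripleGauss : H8TG.TripleGaussStatement` (see `S36/TGDefs_helper8.lean`).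
-/

set_option autoImplicit false
set_option linter.unusedSectionVars false
set_option linter.style.longLine false
set_option linter.unusedVariables false
set_option linter.style.haveILetI false
set_option synthInstance.maxHeartbeats 400000

open ModularCurve HahnSeries H28GV H12AL RH24 H7S18 H8PB H3SIG H3TAU

noncomputable section

namespace H8TG

section Bridge

theorem h8tg_qExpand_congr (K : Type) [CommRing K] (d d' : ℕ) [NeZero d] [NeZero d']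
    (h : d = d') (x : LaurentSeries K) : qExpand K d x = qExpand K d' x := by
  subst h
  rfl

theorem h8tg_coeffEmb_jq (K : Type) [Field K] [Algebra ℚ K] : coeffEmb K jq = jqModC K := by
  rw [← jqModC_rat]
  exact coeffMap_jqModC (algebraMap ℚ K)

theorem h8tg_coeffEmb_qExpand_jq (K : Type) [Field K] [Algebra ℚ K] (d : ℕ) [NeZero d] :
    coeffEmb K (qExpand ℚ d jq) = qExpand K d (jqModC K) := by
  have h : coeffEmb K (qExpand ℚ d jq) = qExpand K d (coeffEmb K jq) := by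
    unfold coeffEmb
    exact coeffMap_qExpand _ _ _
  rw [h, h8tg_coeffEmb_jq]

variable (K₁ : IntermediateField ℚ Kbar) (M q : ℕ) [NeZero M] [NeZero q]

theorem h8tg_J2_eq :
    H3V3.J2 (M * q * q) q K₁ (h8tg_hM2 M q) = J2 ↥K₁ (M * q * q) q (h8tg_dvd2 M q) := by
  haveI : NeZero (q ^ 2) := ⟨pow_ne_zero 2 (NeZero.ne q)⟩
  apply Subtype.ext
  rw [H3V3.coe_J2, coe_J2, h8tg_coeffEmb_qExpand_jq]
  exact h8tg_qExpand_congr _ _ _ (pow_two q) _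

theorem h8tg_J0_eq :
    H3V3.J0 (M * q * q) K₁ =
      incl ↥K₁ (M * q) (M * q * q) (h8tg_dvd1 M q) (J0 ↥K₁ (M * q)) := by
  apply Subtype.ext
  rw [H3V3.coe_J0, coe_incl, coe_J0, h8tg_coeffEmb_jq]

end Bridge

section Main

variable (K₁ : IntermediateField ℚ Kbar) (M q : ℕ) [NeZero M] [NeZero q]

/-- `W_{q²} (incl c) = (w_q c)(𝐪^q)` -/
theorem h8tg_hW1 (hq : q.Prime) (hqM : ¬ q ∣ M) (c : FK ↥K₁ (M * q)) :
    ((H12WQ.wq2KHom K₁ M q hq hqM (incl ↥K₁ (M * q) (M * q * q) (h8tg_dvd1 M q) c) :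
      FK ↥K₁ (M * q * q)) : LaurentSeries ↥K₁) =
      qExpand ↥K₁ q ((wqKHom K₁ M q hq hqM c : FK ↥K₁ (M * q)) : LaurentSeries ↥K₁) :=
  H12WQ.coe_wq2KHom_of_level K₁ M q hq hqM _ c (coe_incl _ _ _ _ c)

/-- `W_{q²} J₂ = j` -/
theorem h8tg_hW2 (hq : q.Prime) (hqM : ¬ q ∣ M) :
    ((H12WQ.wq2KHom K₁ M q hq hqM (J2 ↥K₁ (M * q * q) q (h8tg_dvd2 M q)) :
      FK ↥K₁ (M * q * q)) : LaurentSeries ↥K₁) = jqModC ↥K₁ := by
  have h1 := H12WQ.coe_wq2KHom_qExpand K₁ M q hq hqM (J2 ↥K₁ (M * q * q) q (h8tg_dvd2 M q))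
    (J1 ↥K₁ (M * q) q (Dvd.intro_left M rfl)) (by
      rw [coe_J2, coe_J1, qExpand_qExpand])
  rw [h1]
  have h2 := wqKHom_qExpand K₁ M q hq hqM (J0 ↥K₁ (M * q))
    (J1 ↥K₁ (M * q) q (Dvd.intro_left M rfl)) (H25JQ.jqModC_mem_FK ↥K₁ M) (by
      rw [coe_J1, coe_J0])
  rw [h2, coe_J0]

end Main

section Coord

variable (K₁ K₃ : IntermediateField ℚ Kbar) (M q : ℕ) [NeZero M] [NeZero q]
variable (R : ValuationSubring ↥K₁) (R₃ : ValuationSubring ↥K₃)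
variable [IsDiscreteValuationRing ↥R] [IsDiscreteValuationRing ↥R₃]
variable [CharP (IsLocalRing.ResidueField ↥R) q]

/-- **coordinates**: `x ∈ V₁ ∩ V₂ ∩ V₃` has coordinates `c_k ∈ V₁' ∩ V₂'` in the basis `J₂^k`. -/
theorem h8tg_coord (hq : q.Prime) (hqM : ¬ q ∣ M)
    (B : GVBasis R (IsLocalRing.residue ↥R) M)
    (hunr : Irreducible ((q : ℕ) : ↥R))
    (h13 : K₁ ≤ K₃) (hR : ∀ c : ↥K₁, c ∈ R ↔ IntermediateField.inclusion h13 c ∈ R₃)
    (hqR : ((q : ℕ) : ↥K₃) ∈ R₃.nonunits)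
    (ζ : (↥K₃)ˣ) (hζ : IsPrimitiveRoot ζ q)
    (x : FK ↥K₁ (M * q * q))
    (hx1 : InG R (x : LaurentSeries ↥K₁))
    (hx2 : InG R ((H12WQ.wq2KHom K₁ M q hq hqM x : FK ↥K₁ (M * q * q)) : LaurentSeries ↥K₁))
    (hx3 : InG R₃ (iota3qq K₁ K₃ M q hq hqM h13 ζ hζ x)) :
    ∃ c : Fin q → FK ↥K₁ (M * q),
      (∀ k, InG R (c k : LaurentSeries ↥K₁) ∧
        InG R ((wqKHom K₁ M q hq hqM (c k) : FK ↥K₁ (M * q)) : LaurentSeries ↥K₁)) ∧
      x = ∑ k : Fin q, incl ↥K₁ (M * q) (M * q * q) (h8tg_dvd1 M q) (c k) *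
        J2 ↥K₁ (M * q * q) q (h8tg_dvd2 M q) ^ (k : ℕ) := by
  haveI : Fact q.Prime := ⟨hq⟩
  obtain ⟨c, hc⟩ := h8tg_spanFK K₁ R M q hq hqM B (M * q * q) rfl (h8tg_dvd1 M q)
    (h8tg_dvd2 M q) x
  refine ⟨c, ?_, hc⟩
  -- the valuation ring `V₃`
  set V3 : ValuationSubring (FK ↥K₁ (M * q * q)) :=
    H3V3.V3 R₃ (M * q * q) q h13 hq (h8tg_hM2 M q) (h8tg_hM3 M q hq hqM) ζ hζ with hV3
  have hV3a : ∀ c : FK ↥K₁ (M * q), incl ↥K₁ (M * q) (M * q * q) (h8tg_dvd1 M q) c ∈ V3 ↔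
      InG R (c : LaurentSeries ↥K₁) := by
    intro c
    have h := (H3V3.V3_of_level R R₃ (M * q * q) q h13 hR hq (h8tg_hM2 M q)
      (h8tg_hM3 M q hq hqM) ζ hζ (M * q) (h8tg_dvd1 M q) (h8tg_not_sq M q hq hqM)
      (incl ↥K₁ (M * q) (M * q * q) (h8tg_dvd1 M q) c) (by rw [coe_incl]; exact c.2)).1
    rw [coe_incl] at h
    exact h
  have hV3b : V3.valuation (J2 ↥K₁ (M * q * q) q (h8tg_dvd2 M q) -
      incl ↥K₁ (M * q) (M * q * q) (h8tg_dvd1 M q) (J0 ↥K₁ (M * q))) < 1 := by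
    have h := H3V3.V3_unif_lt (K₁ := K₁) R₃ (M * q * q) q h13 hq (h8tg_hM2 M q)
      (h8tg_hM3 M q hq hqM) ζ hζ hqR
    rw [h8tg_J2_eq, h8tg_J0_eq] at h
    exact h
  have hq0 : ((q : ℕ) : FK ↥K₁ (M * q * q)) ≠ 0 := Nat.cast_ne_zero.2 hq.ne_zero
  have hV3c : ∃ u : FK ↥K₁ (M * q * q), V3.valuation u = 1 ∧
      (J2 ↥K₁ (M * q * q) q (h8tg_dvd2 M q) -
        incl ↥K₁ (M * q) (M * q * q) (h8tg_dvd1 M q) (J0 ↥K₁ (M * q))) ^ (q - 1) =
        incl ↥K₁ (M * q) (M * q * q) (h8tg_dvd1 M q)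
          (H24TG.unifF ↥K₁ R (M * q) ((q : ℕ) : ↥R)) * u := by
    have h := H3V3.V3_unif_unit (K₁ := K₁) R₃ (M * q * q) q h13 hq (h8tg_hM2 M q)
      (h8tg_hM3 M q hq hqM) ζ hζ hqR
    rw [h8tg_J2_eq, h8tg_J0_eq] at h
    refine ⟨_, h, ?_⟩
    rw [H24TG.unifF_natCast, map_natCast, mul_div_cancel₀ _ hq0]
  have hϖ1 : InGm R ((H24TG.unifF ↥K₁ R (M * q) ((q : ℕ) : ↥R) : FK ↥K₁ (M * q)) :
      LaurentSeries ↥K₁) := by
    have h := H24TG.unifF_lt_one ↥K₁ R (M * q) hunr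
    rw [← H24TG.gaussVS_eq_gaussVal, valuation_gaussVS_lt_one_iff] at h
    exact h
  have hϖdiv : ∀ r : FK ↥K₁ (M * q), InGm R (r : LaurentSeries ↥K₁) →
      ∃ s : FK ↥K₁ (M * q), InG R (s : LaurentSeries ↥K₁) ∧
        r = H24TG.unifF ↥K₁ R (M * q) ((q : ℕ) : ↥R) * s := by
    intro r hr
    have h := H24TG.unifF_div ↥K₁ R (M * q) hunr r
    rw [← H24TG.gaussVS_eq_gaussVal, valuation_gaussVS_lt_one_iff] at h
    obtain ⟨s, hs, hrs⟩ := h hr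
    exact ⟨s, hs, hrs⟩
  have hac : InG R ((jqModC ↥K₁ ^ (q * q) - jqModC ↥K₁)⁻¹) := by
    have h1 := H24TG.inG_Jpow_sub R q
    have h2 := H24TG.not_inGm_Jpow_sub R q
    rw [pow_two] at h1 h2
    rw [inGm_iff_not_inv h1, not_or, not_not] at h2
    exact h2.2
  have hx : x = ∑ k : Fin q, incl ↥K₁ (M * q) (M * q * q) (h8tg_dvd1 M q) (c k) *
        J2 ↥K₁ (M * q * q) q (h8tg_dvd2 M q) ^ (k : ℕ) := hc
  rw [hx] at hx1 hx2 hx3
  exact h8tg_backward_core K₁ R M q (M * q * q) (H12WQ.wq2KHom K₁ M q hq hqM) hq hqM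
    (h8tg_dvd1 M q) (h8tg_dvd2 M q) (h8tg_hW1 K₁ M q hq hqM) (h8tg_hW2 K₁ M q hq hqM)
    V3 hV3a hV3b (H24TG.unifF ↥K₁ R (M * q) ((q : ℕ) : ↥R))
    (H24TG.unifF_ne_zero ↥K₁ R (M * q) hunr) hϖ1 hϖdiv hV3c hac c hx1 hx2 hx3

end Coord

section Final

/-- `q ∈ 𝔪(A ∩ K₃)` -/
theorem h8tg_hqR (q : ℕ) [Fact q.Prime] (A : ValuationSubring Kbar) (hA : A.LiesOverPrime q)
    (K₃ : IntermediateField ℚ Kbar) : ((q : ℕ) : ↥K₃) ∈ (descVal A K₃).nonunits := by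
  rw [ValuationSubring.mem_nonunits_iff_exists_mem_maximalIdeal]
  refine ⟨natCast_mem (descVal A K₃) q, ?_⟩
  rw [IsLocalRing.mem_maximalIdeal, mem_nonunits_iff]
  intro hu
  obtain ⟨⟨u, v, huv, hvu⟩, hu'⟩ := hu
  have h1 : ((u : ↥(descVal A K₃)) : ↥K₃) = (q : ℕ) := congrArg Subtype.val hu'
  have h2 : ((u : ↥(descVal A K₃)) : ↥K₃) * ((v : ↥(descVal A K₃)) : ↥K₃) = 1 :=
    congrArg Subtype.val huv
  have hA' : ((q : ℕ) : Kbar) ∈ A.nonunits := hA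
  rw [ValuationSubring.mem_nonunits_iff_exists_mem_maximalIdeal] at hA'
  obtain ⟨hqA, hqm⟩ := hA'
  rw [IsLocalRing.mem_maximalIdeal, mem_nonunits_iff] at hqm
  apply hqm
  have hvA : ((v : ↥K₃) : Kbar) ∈ A := v.2
  refine IsUnit.of_mul_eq_one ⟨((v : ↥K₃) : Kbar), hvA⟩ ?_
  apply Subtype.ext
  show ((q : ℕ) : Kbar) * ((v : ↥K₃) : Kbar) = 1
  rw [h1] at h2
  have h3 := congrArg (fun z : ↥K₃ => (z : Kbar)) h2
  simpa using h3

set_option maxHeartbeats 1600000 in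
/-- **the triple Gauss theorem**. -/
theorem h8tg_tripleGauss : TripleGaussStatement := by
  intro M _ q _ hq hqM hT A hA K₁ hK₁ hunr K₃ hK₃ h13 ζ hζ _ _ t₀ ht₀ t ht x
  haveI hqF : Fact q.Prime := ⟨hq⟩
  obtain ⟨hdvr, -, -⟩ := H4DVR.dvrStatement q A hA K₁ hK₁
  haveI := hdvr
  obtain ⟨hdvr3, -, -⟩ := H4DVR.dvrStatement q A hA K₃ hK₃
  haveI := hdvr3
  obtain ⟨hperf, hcharp⟩ := H1S18.c7Perfect q A hA K₁
  haveI := hcharp
  have hchar : ∀ r : ℕ, r.Prime → r ∣ M →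
      (r : IsLocalRing.ResidueField ↥(descVal A K₁)) ≠ 0 := by
    intro r hr hrM h0
    have h1 := (CharP.cast_eq_zero_iff (IsLocalRing.ResidueField ↥(descVal A K₁)) q r).mp h0
    have h2 : q = r := (Nat.prime_dvd_prime_iff_eq hq hr).mp h1
    exact hqM (h2 ▸ hrM)
  obtain ⟨B⟩ := gv_basis_nonempty_gen (descVal A K₁) (IsLocalRing.residue ↥(descVal A K₁)) M hchar
  have hR : ∀ c : ↥K₁, c ∈ descVal A K₁ ↔ IntermediateField.inclusion h13 c ∈ descVal A K₃ :=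
    fun c => Iff.rfl
  have hqR := h8tg_hqR q A hA K₃
  -- the level `M q`
  letI algF : Algebra ↥(descVal A K₁) (FK K₁ (M * q)) :=
    ((algebraMap K₁ (FK K₁ (M * q))).comp (algebraMap ↥(descVal A K₁) K₁)).toAlgebra
  haveI : IsScalarTower ↥(descVal A K₁) K₁ (FK K₁ (M * q)) :=
    IsScalarTower.of_algebraMap_eq (fun _ => rfl)
  obtain ⟨t1, ht1, htrK1, -, -⟩ :=
    H9C6e.fieldBasics (M * q) (baseKind q) (h8pg_baseKind_ok hT) t₀ ht₀ K₁
  have htrR1 : Transcendental ↥(descVal A K₁) t1 :=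
    H19S18.h19_transc ↥(descVal A K₁) K₁ htrK1
  -- the level `M q q`
  have hadm : baseKind q = 1 ∨ (baseKind q = 2 ∧ 2 ∣ M * q * q) ∨
      (baseKind q = 3 ∧ 3 ∣ M * q * q) := by
    rcases h8pg_baseKind_ok hT with h | ⟨h, h'⟩ | ⟨h, h'⟩
    · exact Or.inl h
    · exact Or.inr (Or.inl ⟨h, Dvd.dvd.mul_right h' q⟩)
    · exact Or.inr (Or.inr ⟨h, Dvd.dvd.mul_right h' q⟩)
  obtain ⟨tL, htL, htrKL, -, -⟩ := H9C6e.fieldBasics (M * q * q) (baseKind q) hadm t₀ ht₀ K₁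
  have etL : tL = t := Subtype.ext (htL.trans ht.symm)
  rw [etL] at htrKL
  have htrR : Transcendental ↥(descVal A K₁) t := H19S18.h19_transc ↥(descVal A K₁) K₁ htrKL
  -- the tower
  letI algFE : Algebra (FK K₁ (M * q)) (FK K₁ (M * q * q)) :=
    (incl ↥K₁ (M * q) (M * q * q) (h8tg_dvd1 M q)).toAlgebra
  haveI : IsScalarTower ↥(descVal A K₁) (FK K₁ (M * q)) (FK K₁ (M * q * q)) :=
    IsScalarTower.of_algebraMap_eq (fun r => by
      rw [IsScalarTower.algebraMap_apply ↥(descVal A K₁) K₁ (FK K₁ (M * q * q))]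
      exact (incl_algebraMap ↥K₁ (M * q) (M * q * q) (h8tg_dvd1 M q) _).symm)
  have htt : algebraMap (FK K₁ (M * q)) (FK K₁ (M * q * q)) t1 = t := by
    apply Subtype.ext
    show ((incl ↥K₁ (M * q) (M * q * q) (h8tg_dvd1 M q) t1 : FK K₁ (M * q * q)) :
      LaurentSeries ↥K₁) = _
    rw [coe_incl, ht1, ht]
  -- PairGauss at the level `M q`
  have hPG : ∀ c : FK K₁ (M * q), GInt ↥(descVal A K₁) ((q : ℕ) : ↥(descVal A K₁)) t1 c ↔
      InG (descVal A K₁) (c : LaurentSeries K₁) ∧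
        InG (descVal A K₁) ((wqKHom K₁ M q hq hqM c : FK K₁ (M * q)) : LaurentSeries K₁) :=
    fun c => (h8pg_pairGauss M q hq hqM hT A hA K₁ hK₁ _ hunr t₀ ht₀ t1 ht1 c).1
  -- `J₂` is `GInt`
  have hJ1 : GInt ↥(descVal A K₁) ((q : ℕ) : ↥(descVal A K₁)) t1
      (J1 ↥K₁ (M * q) q (Dvd.intro_left M rfl)) :=
    H25JQ.jqGInt M q hq hqM hT A hA K₁ hK₁ _ hunr t₀ ht₀ t1 ht1 _ rfl
  have hJ1L : GInt ↥(descVal A K₁) ((q : ℕ) : ↥(descVal A K₁)) t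
      (incl ↥K₁ (M * q) (M * q * q) (h8tg_dvd1 M q) (J1 ↥K₁ (M * q) q (Dvd.intro_left M rfl))) := by
    have h := H19S18.h19_gint_map (E := FK K₁ (M * q * q)) ↥(descVal A K₁) htrR1 _ hJ1
    rw [htt] at h
    exact h
  have hJ2 : GInt ↥(descVal A K₁) ((q : ℕ) : ↥(descVal A K₁)) t
      (J2 ↥K₁ (M * q * q) q (h8tg_dvd2 M q)) := by
    obtain ⟨Φ, hΦ⟩ := H28S28.h10_exists_modPoly q (H28S28.h10_hasModEq_all q hq)
    set jj : FK K₁ (M * q * q) :=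
      incl ↥K₁ (M * q) (M * q * q) (h8tg_dvd1 M q) (J1 ↥K₁ (M * q) q (Dvd.intro_left M rfl))
      with hjj
    set ψ : Polynomial ℤ →+* FK K₁ (M * q * q) :=
      Polynomial.eval₂RingHom (Int.castRingHom (FK K₁ (M * q * q))) jj with hψ
    refine H24PI.h24pi_gIntClosed ↥(descVal A K₁) K₁ (FK K₁ (M * q * q)) _ hunr t htrKL
      (Φ.map ψ) (hΦ.1.map ψ) ?_ _ ?_
    · intro i
      rw [Polynomial.coeff_map]
      have h1 : jj ∈ H19S18.h19_Oe ↥(descVal A K₁) htrR hunr :=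
        (H19S18.h19_mem_Oe ↥(descVal A K₁) htrR hunr jj).2 hJ1L
      have h2 := H25JQ.eval₂_int_mem (H19S18.h19_Oe ↥(descVal A K₁) htrR hunr) h1 (Φ.coeff i)
      exact (H19S18.h19_mem_Oe ↥(descVal A K₁) htrR hunr _).1 h2
    · rw [Polynomial.eval_map]
      set ι : FK K₁ (M * q * q) →+* LaurentSeries K₁ :=
        (laurentBaseChange K₁ (modularFunctionFieldFull (M * q * q))).val.toRingHom with hι
      have hιinj : Function.Injective ι := Subtype.val_injective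
      apply hιinj
      rw [map_zero, Polynomial.hom_eval₂]
      have hjjc : ι jj = qExpand K₁ q (jqModC K₁) := by
        show ((incl ↥K₁ (M * q) (M * q * q) (h8tg_dvd1 M q)
          (J1 ↥K₁ (M * q) q (Dvd.intro_left M rfl)) : FK K₁ (M * q * q)) : LaurentSeries K₁) = _
        rw [coe_incl, coe_J1]
      have hcomp : ι.comp ψ = H28S28.h10ev (qExpand K₁ q (jqModC K₁)) := by
        refine Polynomial.ringHom_ext' (Subsingleton.elim _ _) ?_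
        simp [hψ, H28S28.h10ev, hjjc]
      have hιx : ι (J2 ↥K₁ (M * q * q) q (h8tg_dvd2 M q)) = qExpand K₁ (q * q) (jqModC K₁) := rfl
      rw [hcomp, hιx]
      have h := H28S28.h10_root q Φ hΦ K₁ q
      unfold H28S28.h10ev2 at h
      exact h
  -- `(II ⇐)`
  have hII : ∀ c : Fin q → FK K₁ (M * q),
      (∀ k, InG (descVal A K₁) (c k : LaurentSeries K₁) ∧
        InG (descVal A K₁) ((wqKHom K₁ M q hq hqM (c k) : FK K₁ (M * q)) : LaurentSeries K₁)) →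
      GInt ↥(descVal A K₁) ((q : ℕ) : ↥(descVal A K₁)) t
        (∑ k : Fin q, incl ↥K₁ (M * q) (M * q * q) (h8tg_dvd1 M q) (c k) *
          J2 ↥K₁ (M * q * q) q (h8tg_dvd2 M q) ^ (k : ℕ)) := by
    intro c hc
    refine H19S18.h19_gint_sum ↥(descVal A K₁) htrR hunr _ _ (fun k _ => ?_)
    refine H19S18.h19_gint_mul ↥(descVal A K₁) htrR hunr ?_
      (H19S18.h19_gint_pow ↥(descVal A K₁) htrR hunr hJ2 _)
    have h := H19S18.h19_gint_map (E := FK K₁ (M * q * q)) ↥(descVal A K₁) htrR1 _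
      ((hPG (c k)).mpr (hc k))
    rw [htt] at h
    exact h
  -- `(I ⇒)`
  have hfwd : GInt ↥(descVal A K₁) ((q : ℕ) : ↥(descVal A K₁)) t x →
      InG (descVal A K₁) (x : LaurentSeries K₁) ∧
      InG (descVal A K₁) ((H12WQ.wq2KHom K₁ M q hq hqM x : FK K₁ (M * q * q)) :
        LaurentSeries K₁) ∧
      InG (descVal A K₃) (iota3qq K₁ K₃ M q hq hqM h13 ζ hζ x) := by
    intro hG
    rw [← htt] at hG
    refine ⟨?_, ?_, ?_⟩
    · refine h8tg_gint_mem_vs ↥(descVal A K₁) htrR1 hunr (gaussVS (descVal A K₁) (M * q * q))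
        (fun c hc => ?_) x hG
      show InG (descVal A K₁) ((incl ↥K₁ (M * q) (M * q * q) (h8tg_dvd1 M q) c :
        FK K₁ (M * q * q)) : LaurentSeries ↥K₁)
      rw [coe_incl]
      exact ((hPG c).mp hc).1
    · refine h8tg_gint_mem_vs ↥(descVal A K₁) htrR1 hunr
        (gaussVSw (descVal A K₁) (M * q * q) (H12WQ.wq2KHom K₁ M q hq hqM))
        (fun c hc => ?_) x hG
      show InG (descVal A K₁) ((H12WQ.wq2KHom K₁ M q hq hqM
        (incl ↥K₁ (M * q) (M * q * q) (h8tg_dvd1 M q) c) : FK K₁ (M * q * q)) :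
        LaurentSeries ↥K₁)
      rw [h8tg_hW1]
      exact h8tg_inG_qExpand (descVal A K₁) q _ ((hPG c).mp hc).2
    · refine h8tg_gint_mem_vs ↥(descVal A K₁) htrR1 hunr
        (H3V3.V3 (descVal A K₃) (M * q * q) q h13 hq (h8tg_hM2 M q) (h8tg_hM3 M q hq hqM) ζ hζ)
        (fun c hc => ?_) x hG
      have h := (H3V3.V3_of_level (descVal A K₁) (descVal A K₃) (M * q * q) q h13 hR hq
        (h8tg_hM2 M q) (h8tg_hM3 M q hq hqM) ζ hζ (M * q) (h8tg_dvd1 M q)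
        (h8tg_not_sq M q hq hqM)
        (incl ↥K₁ (M * q) (M * q * q) (h8tg_dvd1 M q) c) (by rw [coe_incl]; exact c.2)).1
      rw [coe_incl] at h
      exact h.mpr ((hPG c).mp hc).1
  -- coordinates
  have hcoord := h8tg_coord K₁ K₃ M q (descVal A K₁) (descVal A K₃) hq hqM B hunr h13 hR hqR
    ζ hζ x
  refine ⟨⟨hfwd, fun h => ?_⟩, ⟨fun hG => ?_, fun h => ?_⟩⟩
  · obtain ⟨c, hc, hx⟩ := hcoord h.1 h.2.1 h.2.2
    rw [hx]
    exact hII c hc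
  · obtain ⟨h1, h2, h3⟩ := hfwd hG
    exact hcoord h1 h2 h3
  · obtain ⟨c, hc, hx⟩ := h
    rw [hx]
    exact hII c hc

end Final

end H8TG

end
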