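import Mathlib
import Fermat.Agent.S36.InjLDefs_helper4
import Fermat.Agent.S36.V3_helper3
import Fermat.Agent.S36.TGIncl_helper8
import Fermat.Agent.S36.ALQ2_helper12
import Fermat.Agent.S35.FWComp_helper10

/-!
# Item 86 (S36, Carayol), architect file (helper4): the CONCRETE objects of the `Triple`

`R₁ ⊆ K₁` a valuation subring (DVR) of the number field `K₁ ⊆ ℚ̄` (in the application
`K₁ = L` fixed by `I_A`, `R₁ = descVal A L`, uniformizer `q`), level `M q q`, `q ∤ M`.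

* `H4S36.cV1  = H10FC.gaussVal R₁ (M q q)`                    (`𝐪`-expansion at `∞`),
* `H4S36.cV2  = (H10FC.gaussVal R₁ (M q q)).comap W_{q²}`      (`H12WQ.wq2KHom`),
* `H4S36.cV3  = H3V3.V3 R₃ (M q q) q …`                        (`K₃ ⊇ K₁`, `ζ ∈ K₃` primitive `q`-th root),
* `H4S36.cV1' = H10FC.gaussVal R₁ (M q)`,  `H4S36.cV2' = H10FC.gaussVal2 M q hq hqM K₁ R₁`,
* `H4S36.cb3  = J₂ - J`  (`H8TG.J2`, `H8TG.J0`).

ALL owners of fields of `H4S36.Triple` state their field for THESE objects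
(`R := ↥R₁`, `K := ↥K₁`, `F := FK K₁ (M q q)`, `F' := FK K₁ (M q)`, `ϖ` any uniformizer of `R₁`
or `ϖ = q`, `φα = (heckeAlphaBar K₁ (M q) q).toRingHom`, `φβ = (heckeBetaBar K₁ (M q) q).toRingHom`,
`Nα = H4S36.normAKH K₁ M q`, `Nβ = H4S36.normBKH K₁ M q`).
-/

set_option autoImplicit false
set_option synthInstance.maxHeartbeats 400000

noncomputable section

open IntermediateField AlgebraicCurve ModularCurve H7S18 RH24

namespace H4S36

variable (K₁ : IntermediateField ℚ Kbar) (R₁ : ValuationSubring ↥K₁)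
  [IsDiscreteValuationRing R₁]
variable (M q : ℕ) [NeZero M] [NeZero q] (hq : q.Prime) (hqM : ¬ q ∣ M)

theorem sq_dvd_level : q ^ 2 ∣ M * q * q := ⟨M, by ring⟩

theorem qq_dvd_level : q * q ∣ M * q * q := ⟨M, by ring⟩

include hq hqM in
theorem cube_not_dvd_level : ¬ q ^ 3 ∣ M * q * q := by
  intro h
  apply hqM
  have h1 : q * q * q ∣ q * q * M := by
    have e1 : q ^ 3 = q * q * q := by ring
    have e2 : M * q * q = q * q * M := by ring
    rwa [e1, e2] at h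
  have hqq : 0 < q * q := Nat.mul_pos hq.pos hq.pos
  exact Nat.dvd_of_mul_dvd_mul_left hqq h1

/-- `V₁` : the Gauss valuation ring at `∞` of level `M q q` -/
def cV1 : ValuationSubring (FK ↥K₁ (M * q * q)) := H10FC.gaussVal R₁ (M * q * q)

/-- `V₂ = V₁ ∘ W_{q²}` -/
def cV2 : ValuationSubring (FK ↥K₁ (M * q * q)) :=
  (H10FC.gaussVal R₁ (M * q * q)).comap (H12WQ.wq2KHom K₁ M q hq hqM)

/-- `V₁'` : the Gauss valuation ring at `∞` of level `M q` -/
def cV1' : ValuationSubring (FK ↥K₁ (M * q)) := H10FC.gaussVal R₁ (M * q)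

/-- `V₂' = V₁' ∘ W_q` -/
def cV2' : ValuationSubring (FK ↥K₁ (M * q)) := H10FC.gaussVal2 M q hq hqM K₁ R₁

/-- `V₃` : the Gauss valuation ring at the cusp `1/q` (helper3), for `K₃ ⊇ K₁` containing a
primitive `q`-th root of unity `ζ` and a DVR `R₃` of `K₃`. -/
def cV3 (K₃ : IntermediateField ℚ Kbar) (R₃ : ValuationSubring ↥K₃) [IsDiscreteValuationRing R₃]
    (h13 : K₁ ≤ K₃) (ζ : (↥K₃)ˣ) (hζ : IsPrimitiveRoot ζ q) :
    ValuationSubring (FK ↥K₁ (M * q * q)) :=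
  H3V3.V3 R₃ (M * q * q) q h13 hq (sq_dvd_level M q) (cube_not_dvd_level M q hq hqM) ζ hζ

/-- `b₃ = J₂ - J`, the uniformizer of `V₃` -/
def cb3 : FK ↥K₁ (M * q * q) :=
  H8TG.J2 ↥K₁ (M * q * q) q (qq_dvd_level M q) - H8TG.J0 ↥K₁ (M * q * q)

end H4S36

end
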