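/-
helper9: item 86 (S36): the residue-degree-one fields `f₁α`, `f₃α` of the architect's
`H4S36.Triple` for the concrete objects `H4S36.cV1`, `cV3`, `cV1'`,
`φα = (heckeAlphaBar K₁ (M q) q).toRingHom`, and the TripleGauss form of (CU3).

* `H9CU.resfield_of_O` (generic): residue comparison on `V₁ ∩ V₂ ∩ V₃` + weak approximation
  ⟹ residue comparison on all of `V`;
* `H9CU.coord_of_TG`  : the coordinate form `hTC` of (CU3) from `H8TG.h8tg_tripleGauss`;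
* `H9CU.h3lev_cV3`, `H9CU.h3J_cV3` : the two inputs of `H9CU.comp_unif3_sq` for `H4S36.cV3`;
* `H9CU.triple_f1α`, `H9CU.triple_f3α` : the fields.
-/
import Mathlib
import Fermat.Agent.S36.TGFinal_helper8
import Fermat.Agent.S36.TripleDefs_helper4
import Fermat.Agent.S36.V3Unif_helper3
import Fermat.Agent.S36.CompUnifV3_helper9

set_option autoImplicit false
set_option synthInstance.maxHeartbeats 400000
set_option maxHeartbeats 4000000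
set_option linter.unusedSectionVars false
set_option linter.unusedVariables false
set_option linter.style.haveILetI false

noncomputable section

open Polynomial IntermediateField ModularCurve H7S18 H4S34 H26DI H28GV H17T3

namespace H9CU

section generic

variable {F : Type} [Field F]

/-- residue comparison on `V ∩ W₁ ∩ W₂` and weak approximation give residue comparison on `V` -/
theorem resfield_of_O (V W₁ W₂ : ValuationSubring F)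
    (wg : ∀ ψ : F, V.valuation ψ = 1 → ∃ Ψ : F, Cg V Ψ ψ ∧ Ψ ∈ W₁ ∧ Ψ ∈ W₂)
    (T : F → Prop) (hT0 : T 0)
    (hO : ∀ x : F, x ∈ V → x ∈ W₁ → x ∈ W₂ → ∃ a : F, T a ∧ Cg V x a) :
    ∀ x : F, x ∈ V → ∃ a : F, T a ∧ Cg V x a := by
  intro x hx
  by_cases h1 : V.valuation x < 1
  · refine ⟨0, hT0, ?_⟩
    unfold Cg
    rwa [sub_zero]
  · have h2 : V.valuation x = 1 :=
      le_antisymm ((V.valuation_le_one_iff x).mpr hx) (not_lt.mp h1)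
    obtain ⟨Ψ, hΨ, hΨ1, hΨ2⟩ := wg x h2
    obtain ⟨a, ha, hΨa⟩ := hO Ψ (cg_mem hΨ hx) hΨ1 hΨ2
    exact ⟨a, ha, cg_trans (cg_symm hΨ) hΨa⟩

end generic

section concrete

open H8TG H4S36

variable (M : ℕ) [NeZero M] (q : ℕ) [NeZero q] (hq : q.Prime) (hqM : ¬ q ∣ M)
  (hT : TameLevel q M)
  (A : ValuationSubring (AlgebraicClosure ℚ)) (hA : A.LiesOverPrime q)
  (K₁ : IntermediateField ℚ (AlgebraicClosure ℚ)) (hfin : FiniteDimensional ℚ K₁)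
  (hunr : Irreducible ((q : ℕ) : ↥(descVal A K₁)))
  (K₃ : IntermediateField ℚ (AlgebraicClosure ℚ)) (hfin₃ : FiniteDimensional ℚ K₃)
  (h13 : K₁ ≤ K₃) (ζ : (↥K₃)ˣ) (hζ : IsPrimitiveRoot ζ q)

include hT hA hfin hunr hfin₃ h13 hζ in
/-- **the coordinate form `hTC` of TripleGauss** (input of `H9CU.unif1_sq`,
`H9CU.comp_unif3_sq`) -/
theorem coord_of_TG
    [Algebra ↥(descVal A K₁) (FK K₁ (M * q * q))]
    [IsScalarTower ↥(descVal A K₁) K₁ (FK K₁ (M * q * q))]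
    (t₀ : LaurentSeries ℚ) (ht₀ : IsBase (baseKind q) t₀)
    (t : FK K₁ (M * q * q)) (ht : (t : LaurentSeries K₁) = coeffEmb K₁ t₀)
    (x : FK K₁ (M * q * q))
    (hx : GInt ↥(descVal A K₁) ((q : ℕ) : ↥(descVal A K₁)) t x) :
    ∃ cf : ℕ → FK K₁ (M * q),
      (∀ k, H8PB.InG (descVal A K₁) ((cf k : FK K₁ (M * q)) : LaurentSeries K₁) ∧
        H8PB.InG (descVal A K₁)
          ((H12AL.wqKHom K₁ M q hq hqM (cf k) : FK K₁ (M * q)) : LaurentSeries K₁)) ∧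
      (x : LaurentSeries K₁) = ∑ k ∈ Finset.range q,
        ((cf k : FK K₁ (M * q)) : LaurentSeries K₁) * (qExpand K₁ (q * q) (jqModC K₁)) ^ k := by
  classical
  obtain ⟨c, hc, hxe⟩ :=
    ((h8tg_tripleGauss M q hq hqM hT A hA K₁ hfin hunr K₃ hfin₃ h13 ζ hζ t₀ ht₀ t ht x).2).mp hx
  refine ⟨fun k => if h : k < q then c ⟨k, h⟩ else 0, ?_, ?_⟩
  · intro k
    by_cases h : k < q
    · simp only [dif_pos h]
      exact hc ⟨k, h⟩
    · simp only [dif_neg h, map_zero, ZeroMemClass.coe_zero]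
      exact ⟨H10FC.inG_zero _, H10FC.inG_zero _⟩
  · rw [hxe]
    have hsum : ∀ (s : Finset (Fin q)) (f : Fin q → FK K₁ (M * q * q)),
        ((∑ k ∈ s, f k : FK K₁ (M * q * q)) : LaurentSeries K₁) =
          ∑ k ∈ s, (f k : LaurentSeries K₁) := by
      intro s f
      exact map_sum (laurentBaseChange K₁ (modularFunctionFieldFull (M * q * q))).val f s
    rw [hsum, ← Fin.sum_univ_eq_sum_range
      (fun k => ((if h : k < q then c ⟨k, h⟩ else 0 : FK K₁ (M * q)) : LaurentSeries K₁) *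
        (qExpand K₁ (q * q) (jqModC K₁)) ^ k) q]
    refine Finset.sum_congr rfl (fun k _ => ?_)
    rw [MulMemClass.coe_mul, SubmonoidClass.coe_pow, coe_incl, coe_J2]
    simp only [dif_pos k.2, Fin.eta]

section objects

variable [IsDiscreteValuationRing ↥(descVal A K₁)] [IsDiscreteValuationRing ↥(descVal A K₃)]

/-- `V₃ ∩ F₁(M q)` is the Gauss ring of level `M q` (input `h3lev` of `H9CU.comp_unif3_sq`) -/
theorem h3lev_cV3 (x : FK K₁ (M * q * q))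
    (hx : (x : LaurentSeries K₁) ∈ laurentBaseChange K₁ (modularFunctionFieldFull (M * q))) :
    (x ∈ cV3 K₁ M q hq hqM K₃ (descVal A K₃) h13 ζ hζ ↔
      H8PB.InG (descVal A K₁) (x : LaurentSeries K₁)) ∧
    ((cV3 K₁ M q hq hqM K₃ (descVal A K₃) h13 ζ hζ).valuation x < 1 ↔
      H8PB.InGm (descVal A K₁) (x : LaurentSeries K₁)) :=
  H3V3.V3_of_level (descVal A K₁) (descVal A K₃) (M * q * q) q h13 (fun c => Iff.rfl) hq
    (sq_dvd_level M q) (cube_not_dvd_level M q hq hqM) ζ hζ (M * q) (h8tg_dvd1 M q)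
    (h8tg_not_sq M q hq hqM) x hx

include hA in
/-- `v₃(J₂ - J) < 1` (input `h3J` of `H9CU.comp_unif3_sq`) -/
theorem h3J_cV3 :
    (cV3 K₁ M q hq hqM K₃ (descVal A K₃) h13 ζ hζ).valuation
      (H8TG.J2 ↥K₁ (M * q * q) q (h8tg_dvd2 M q) - H8TG.J0 ↥K₁ (M * q * q)) < 1 := by
  haveI : Fact q.Prime := ⟨hq⟩
  have h := H3V3.V3_unif_lt (K₁ := K₁) (descVal A K₃) (M * q * q) q h13 hq (sq_dvd_level M q)
    (cube_not_dvd_level M q hq hqM) ζ hζ (h8tg_hqR q A hA K₃)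
  have e2 : H3V3.J2 (M * q * q) q K₁ (sq_dvd_level M q) =
      H8TG.J2 ↥K₁ (M * q * q) q (h8tg_dvd2 M q) := h8tg_J2_eq K₁ M q
  have e0 : H3V3.J0 (M * q * q) K₁ = H8TG.J0 ↥K₁ (M * q * q) := by
    rw [h8tg_J0_eq]
    exact Subtype.ext rfl
  rw [e2, e0] at h
  exact h

end objects

section fields

variable [IsDiscreteValuationRing ↥(descVal A K₁)] [IsDiscreteValuationRing ↥(descVal A K₃)]

include hT hA hfin hunr hfin₃ in
/-- residue comparison of `V₁` with the level `M` on `O = V₁ ∩ V₂ ∩ V₃` -/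
theorem res1_O
    [Algebra ↥(descVal A K₁) (FK K₁ (M * q * q))]
    [IsScalarTower ↥(descVal A K₁) K₁ (FK K₁ (M * q * q))]
    (t₀ : LaurentSeries ℚ) (ht₀ : IsBase (baseKind q) t₀)
    (t : FK K₁ (M * q * q)) (ht : (t : LaurentSeries K₁) = coeffEmb K₁ t₀)
    (x : FK K₁ (M * q * q)) (h1 : x ∈ cV1 K₁ (descVal A K₁) M q)
    (h2 : x ∈ cV2 K₁ (descVal A K₁) M q hq hqM)
    (h3 : x ∈ cV3 K₁ M q hq hqM K₃ (descVal A K₃) h13 ζ hζ) :
    ∃ z : LaurentSeries K₁, z ∈ laurentBaseChange K₁ (modularFunctionFieldFull M) ∧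
      H8PB.InG (descVal A K₁) z ∧
      H8PB.InGm (descVal A K₁) ((x : LaurentSeries K₁) - z) := by
  have hG : GInt ↥(descVal A K₁) ((q : ℕ) : ↥(descVal A K₁)) t x :=
    ((h8tg_tripleGauss M q hq hqM hT A hA K₁ hfin hunr K₃ hfin₃ h13 ζ hζ t₀ ht₀ t ht x).1).mpr
      ⟨h1, h2, h3⟩
  obtain ⟨cf, hcf, hxe⟩ := coord_of_TG M q hq hqM hT A hA K₁ hfin hunr K₃ hfin₃ h13 ζ hζ
    t₀ ht₀ t ht x hG
  rw [hxe]
  exact resDegOne2 M q hq hqM hT A hA K₁ hfin cf hcf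

include hT hA hfin hunr hfin₃ in
/-- residue comparison of `V₃` with the level `M` on `O = V₁ ∩ V₂ ∩ V₃` -/
theorem res3_O
    [Algebra ↥(descVal A K₁) (FK K₁ (M * q * q))]
    [IsScalarTower ↥(descVal A K₁) K₁ (FK K₁ (M * q * q))]
    (t₀ : LaurentSeries ℚ) (ht₀ : IsBase (baseKind q) t₀)
    (t : FK K₁ (M * q * q)) (ht : (t : LaurentSeries K₁) = coeffEmb K₁ t₀)
    (x : FK K₁ (M * q * q)) (h1 : x ∈ cV1 K₁ (descVal A K₁) M q)
    (h2 : x ∈ cV2 K₁ (descVal A K₁) M q hq hqM)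
    (h3 : x ∈ cV3 K₁ M q hq hqM K₃ (descVal A K₃) h13 ζ hζ) :
    ∃ z : FK K₁ (M * q * q),
      (z : LaurentSeries K₁) ∈ laurentBaseChange K₁ (modularFunctionFieldFull M) ∧
      z ∈ cV3 K₁ M q hq hqM K₃ (descVal A K₃) h13 ζ hζ ∧
      (cV3 K₁ M q hq hqM K₃ (descVal A K₃) h13 ζ hζ).valuation (x - z) < 1 := by
  have hG : GInt ↥(descVal A K₁) ((q : ℕ) : ↥(descVal A K₁)) t x :=
    ((h8tg_tripleGauss M q hq hqM hT A hA K₁ hfin hunr K₃ hfin₃ h13 ζ hζ t₀ ht₀ t ht x).1).mpr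
      ⟨h1, h2, h3⟩
  obtain ⟨cf, hcf, hxe⟩ := coord_of_TG M q hq hqM hT A hA K₁ hfin hunr K₃ hfin₃ h13 ζ hζ
    t₀ ht₀ t ht x hG
  exact resDeg3 M q hq hqM hT A hA K₁ hfin (M * q * q)
    (cV3 K₁ M q hq hqM K₃ (descVal A K₃) h13 ζ hζ) (h8tg_dvd1 M q)
    (h3lev_cV3 M q hq hqM A K₁ K₃ h13 ζ hζ)
    (H8TG.J0 ↥K₁ (M * q * q)) (H8TG.J2 ↥K₁ (M * q * q) q (h8tg_dvd2 M q)) rfl rfl
    (h3J_cV3 M q hq hqM A hA K₁ K₃ h13 ζ hζ) x cf hcf hxe

include hT hA hfin hunr hfin₃ in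
/-- **the field `f₁α` of `H4S36.Triple`** for the concrete objects. -/
theorem triple_f1α
    [Algebra ↥(descVal A K₁) (FK K₁ (M * q * q))]
    [IsScalarTower ↥(descVal A K₁) K₁ (FK K₁ (M * q * q))]
    (t₀ : LaurentSeries ℚ) (ht₀ : IsBase (baseKind q) t₀)
    (t : FK K₁ (M * q * q)) (ht : (t : LaurentSeries K₁) = coeffEmb K₁ t₀)
    (wg : ∀ ψ₁ ψ₂ ψ₃ : FK K₁ (M * q * q),
      (cV1 K₁ (descVal A K₁) M q).valuation ψ₁ = 1 →
      (cV2 K₁ (descVal A K₁) M q hq hqM).valuation ψ₂ = 1 →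
      (cV3 K₁ M q hq hqM K₃ (descVal A K₃) h13 ζ hζ).valuation ψ₃ = 1 →
      ∃ Ψ : FK K₁ (M * q * q), Cg (cV1 K₁ (descVal A K₁) M q) Ψ ψ₁ ∧
        Cg (cV2 K₁ (descVal A K₁) M q hq hqM) Ψ ψ₂ ∧
        Cg (cV3 K₁ M q hq hqM K₃ (descVal A K₃) h13 ζ hζ) Ψ ψ₃) :
    ∀ x : FK K₁ (M * q * q), x ∈ cV1 K₁ (descVal A K₁) M q →
      ∃ p : FK K₁ (M * q), p ∈ cV1' K₁ (descVal A K₁) M q ∧
        Cg (cV1 K₁ (descVal A K₁) M q) x ((heckeAlphaBar ↥K₁ (M * q) q).toRingHom p) := by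
  have hFF' : laurentBaseChange K₁ (modularFunctionFieldFull M) ≤
      laurentBaseChange K₁ (modularFunctionFieldFull (M * q)) :=
    H28PL.laurentBaseChange_le K₁ (full_degeneracy_le (Dvd.intro q rfl))
  have key := resfield_of_O (cV1 K₁ (descVal A K₁) M q) (cV2 K₁ (descVal A K₁) M q hq hqM)
    (cV3 K₁ M q hq hqM K₃ (descVal A K₃) h13 ζ hζ) ?_
    (fun a => ∃ p : FK K₁ (M * q), p ∈ cV1' K₁ (descVal A K₁) M q ∧
      a = (heckeAlphaBar ↥K₁ (M * q) q).toRingHom p) ⟨0, zero_mem _, (map_zero _).symm⟩ ?_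
  · intro x hx
    obtain ⟨a, ⟨p, hp, rfl⟩, hxa⟩ := key x hx
    exact ⟨p, hp, hxa⟩
  · intro ψ hψ
    obtain ⟨Ψ, h1, h2, h3⟩ := wg ψ 1 1 hψ (map_one _) (map_one _)
    exact ⟨Ψ, h1, cg_mem h2 (one_mem _), cg_mem h3 (one_mem _)⟩
  · intro x h1 h2 h3
    obtain ⟨z, hzM, hzG, hzm⟩ := res1_O M q hq hqM hT A hA K₁ hfin hunr K₃ hfin₃ h13 ζ hζ
      t₀ ht₀ t ht x h1 h2 h3
    refine ⟨_, ⟨⟨z, hFF' hzM⟩, hzG, rfl⟩, ?_⟩
    show (cV1 K₁ (descVal A K₁) M q).valuation _ < 1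
    unfold cV1
    rw [H10FC.gaussVal_lt_one]
    exact hzm

include hT hA hfin hunr hfin₃ in
/-- **the field `f₃α` of `H4S36.Triple`** for the concrete objects. -/
theorem triple_f3α
    [Algebra ↥(descVal A K₁) (FK K₁ (M * q * q))]
    [IsScalarTower ↥(descVal A K₁) K₁ (FK K₁ (M * q * q))]
    (t₀ : LaurentSeries ℚ) (ht₀ : IsBase (baseKind q) t₀)
    (t : FK K₁ (M * q * q)) (ht : (t : LaurentSeries K₁) = coeffEmb K₁ t₀)
    (wg : ∀ ψ₁ ψ₂ ψ₃ : FK K₁ (M * q * q),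
      (cV1 K₁ (descVal A K₁) M q).valuation ψ₁ = 1 →
      (cV2 K₁ (descVal A K₁) M q hq hqM).valuation ψ₂ = 1 →
      (cV3 K₁ M q hq hqM K₃ (descVal A K₃) h13 ζ hζ).valuation ψ₃ = 1 →
      ∃ Ψ : FK K₁ (M * q * q), Cg (cV1 K₁ (descVal A K₁) M q) Ψ ψ₁ ∧
        Cg (cV2 K₁ (descVal A K₁) M q hq hqM) Ψ ψ₂ ∧
        Cg (cV3 K₁ M q hq hqM K₃ (descVal A K₃) h13 ζ hζ) Ψ ψ₃) :
    ∀ x : FK K₁ (M * q * q), x ∈ cV3 K₁ M q hq hqM K₃ (descVal A K₃) h13 ζ hζ →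
      ∃ a : FK K₁ (M * q), a ∈ cV1' K₁ (descVal A K₁) M q ∧
        Cg (cV3 K₁ M q hq hqM K₃ (descVal A K₃) h13 ζ hζ) x
          ((heckeAlphaBar ↥K₁ (M * q) q).toRingHom a) := by
  have hFF' : laurentBaseChange K₁ (modularFunctionFieldFull M) ≤
      laurentBaseChange K₁ (modularFunctionFieldFull (M * q)) :=
    H28PL.laurentBaseChange_le K₁ (full_degeneracy_le (Dvd.intro q rfl))
  have key := resfield_of_O (cV3 K₁ M q hq hqM K₃ (descVal A K₃) h13 ζ hζ)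
    (cV1 K₁ (descVal A K₁) M q) (cV2 K₁ (descVal A K₁) M q hq hqM) ?_
    (fun a => ∃ p : FK K₁ (M * q), p ∈ cV1' K₁ (descVal A K₁) M q ∧
      a = (heckeAlphaBar ↥K₁ (M * q) q).toRingHom p) ⟨0, zero_mem _, (map_zero _).symm⟩ ?_
  · intro x hx
    obtain ⟨a, ⟨p, hp, rfl⟩, hxa⟩ := key x hx
    exact ⟨p, hp, hxa⟩
  · intro ψ hψ
    obtain ⟨Ψ, h1, h2, h3⟩ := wg 1 1 ψ (map_one _) (map_one _) hψ
    exact ⟨Ψ, h3, cg_mem h1 (one_mem _), cg_mem h2 (one_mem _)⟩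
  · intro x h3 h1 h2
    obtain ⟨z, hzM, hzV, hzv⟩ := res3_O M q hq hqM hT A hA K₁ hfin hunr K₃ hfin₃ h13 ζ hζ
      t₀ ht₀ t ht x h1 h2 h3
    have hzG : H8PB.InG (descVal A K₁) (z : LaurentSeries K₁) :=
      ((h3lev_cV3 M q hq hqM A K₁ K₃ h13 ζ hζ z (hFF' hzM)).1).mp hzV
    refine ⟨_, ⟨⟨(z : LaurentSeries K₁), hFF' hzM⟩, hzG, rfl⟩, ?_⟩
    have e : (heckeAlphaBar ↥K₁ (M * q) q).toRingHom
        (⟨(z : LaurentSeries K₁), hFF' hzM⟩ : FK K₁ (M * q)) = z := Subtype.ext rfl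
    rw [e]
    exact hzv

end fields

end concrete

end H9CU

end
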