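/-
Item 86 (S36), `H4S36.Triple` fields **hd₁, hd₂, hd₁', hd₂'** (helper25): discreteness of the
four Gauss valuation rings `cV1, cV2` (level `M q q`) and `cV1', cV2'` (level `M q`):
every `x ≠ 0` is `ϖ ^ k · unit`.

Generic: `K` a field, `R ⊆ K` a valuation subring which is a DVR, uniformizer `ϖ`, any level `N`:
* `ordAt_gaussVal` : `∀ x ≠ 0, ∃ k, OrdAt (gaussVal R N) ϖ x k`   (normal form `H3TAU.h3b_nf`);
* `ordAt_comap`    : the same for `(gaussVal R N).comap w`, `w` a ring endomorphism fixing `K`.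
Concrete (objects of `S36/TripleDefs_helper4.lean`): `hd_cV1`, `hd_cV2`, `hd_cV1'`, `hd_cV2'`.
-/
import Mathlib
import Fermat.Agent.S36.TripleDefs_helper4

set_option autoImplicit false
set_option linter.style.longLine false
set_option linter.unusedVariables false
set_option linter.unusedSectionVars false
set_option linter.style.haveILetI false
set_option synthInstance.maxHeartbeats 400000

noncomputable section

open ModularCurve HahnSeries H28GV H8PB H3TAU H7S18 H10FC H4S36 RH24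

namespace H25HD

/-- a nonzero element with `z, z⁻¹ ∈ V` has valuation `1` -/
theorem val_eq_one_of_mem_inv {F : Type*} [Field F] (V : ValuationSubring F) {z : F}
    (hz0 : z ≠ 0) (hz : z ∈ V) (hzi : z⁻¹ ∈ V) : V.valuation z = 1 := by
  have h1 : V.valuation z ≤ 1 := (V.valuation_le_one_iff z).2 hz
  have h2 : V.valuation z⁻¹ ≤ 1 := (V.valuation_le_one_iff _).2 hzi
  have hv0 : V.valuation z ≠ 0 := by rwa [Ne, map_eq_zero]
  rw [map_inv₀] at h2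
  have h3 : 1 ≤ V.valuation z := (inv_le_one₀ (zero_lt_iff.mpr hv0)).mp h2
  exact le_antisymm h1 h3

section DVR

variable {K : Type} [Field K] (R : ValuationSubring K) [IsDiscreteValuationRing R]

/-- every nonzero element of `K` is `ϖ ^ k · unit` -/
theorem exists_zpow_unit (ϖ : ↥R) (hϖ : Irreducible ϖ) (c : K) (hc : c ≠ 0) :
    ∃ (k : ℤ) (u : (↥R)ˣ), c = ((ϖ : ↥R) : K) ^ k * ((u : ↥R) : K) := by
  rcases R.mem_or_inv_mem c with h | h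
  · have hc' : (⟨c, h⟩ : ↥R) ≠ 0 := fun h0 => hc (congrArg Subtype.val h0)
    obtain ⟨n, u, hu⟩ := IsDiscreteValuationRing.eq_unit_mul_pow_irreducible hc' hϖ
    refine ⟨n, u, ?_⟩
    have h1 : c = ((u : ↥R) : K) * ((ϖ : ↥R) : K) ^ n := congrArg Subtype.val hu
    rw [zpow_natCast, mul_comm]
    exact h1
  · have hc0 : c⁻¹ ≠ 0 := inv_ne_zero hc
    have hc' : (⟨c⁻¹, h⟩ : ↥R) ≠ 0 := fun h0 => hc0 (congrArg Subtype.val h0)
    obtain ⟨n, u, hu⟩ := IsDiscreteValuationRing.eq_unit_mul_pow_irreducible hc' hϖ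
    refine ⟨-(n : ℤ), u⁻¹, ?_⟩
    have h1 : c⁻¹ = ((u : ↥R) : K) * ((ϖ : ↥R) : K) ^ n := congrArg Subtype.val hu
    have hui : (((u⁻¹ : (↥R)ˣ) : ↥R) : K) = (((u : (↥R)ˣ) : ↥R) : K)⁻¹ := by
      have h2 : (((u⁻¹ : (↥R)ˣ) : ↥R) : K) * (((u : (↥R)ˣ) : ↥R) : K) = 1 := by
        have h3 : ((u⁻¹ : (↥R)ˣ) : ↥R) * (u : ↥R) = 1 := Units.inv_mul u
        exact congrArg Subtype.val h3
      exact eq_inv_of_mul_eq_one_left h2
    rw [zpow_neg, zpow_natCast, hui, ← mul_inv, mul_comm, ← h1, inv_inv]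

end DVR

section Generic

variable {K : Type} [Field K] [Algebra ℚ K] (R : ValuationSubring K)
  [IsDiscreteValuationRing R] (N : ℕ) [NeZero N]
  [Algebra ↥R (FK K N)] [IsScalarTower ↥R K (FK K N)]

theorem coe_algebraMap_R (c : ↥R) :
    ((algebraMap ↥R (FK K N) c : FK K N) : LaurentSeries K) = HahnSeries.C (c : K) := by
  rw [IsScalarTower.algebraMap_apply ↥R K (FK K N)]
  show algebraMap K (LaurentSeries K) (c : K) = _
  rw [algebraMap_laurentSeries_eq_single]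
  rfl

theorem algebraMap_R_ne_zero (ϖ : ↥R) (hϖ : Irreducible ϖ) :
    algebraMap ↥R (FK K N) ϖ ≠ 0 := by
  intro h0
  have h1 := congrArg (fun z : FK K N => ((z : LaurentSeries K)).coeff 0) h0
  simp only [coe_algebraMap_R, HahnSeries.C_apply, HahnSeries.coeff_single_same] at h1
  exact hϖ.ne_zero (Subtype.ext h1)

/-- **discreteness of the Gauss valuation ring**: every `x ≠ 0` of `F_K(N)` is `ϖ ^ k · unit`. -/
theorem ordAt_gaussVal (ϖ : ↥R) (hϖ : Irreducible ϖ) (x : FK K N) (hx : x ≠ 0) :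
    ∃ k : ℤ, OrdAt (gaussVal R N) (algebraMap ↥R (FK K N) ϖ) x k := by
  have hx0 : (x : LaurentSeries K) ≠ 0 := fun h0 => hx (Subtype.ext h0)
  obtain ⟨c, Y₁, Y₂, hc, hY₁, hY₂, hrel⟩ := h3b_nf R N (x : LaurentSeries K) (mem_fullC N x) hx0
  obtain ⟨k, u, hcu⟩ := exists_zpow_unit R ϖ hϖ c hc
  have hπ0 : algebraMap ↥R (FK K N) ϖ ≠ 0 := algebraMap_R_ne_zero R N ϖ hϖ
  have hϖK : ((ϖ : ↥R) : K) ≠ 0 := fun h0 => hϖ.ne_zero (Subtype.ext h0)
  refine ⟨k, ?_⟩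
  unfold OrdAt
  set z : FK K N := x * algebraMap ↥R (FK K N) ϖ ^ (-k) with hz
  have hz0 : z ≠ 0 := mul_ne_zero hx (zpow_ne_zero _ hπ0)
  -- the series of `z`
  have hCz : ∀ m : ℤ, (HahnSeries.C (((ϖ : ↥R) : K) ^ m) : LaurentSeries K) =
      (HahnSeries.C ((ϖ : ↥R) : K) : LaurentSeries K) ^ m := fun m => map_zpow₀ _ _ _
  have hzs : (z : LaurentSeries K) =
      (x : LaurentSeries K) * HahnSeries.C (((ϖ : ↥R) : K) ^ (-k)) := by
    have h1 : ((algebraMap ↥R (FK K N) ϖ ^ (-k) : FK K N) : LaurentSeries K) =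
        ((algebraMap ↥R (FK K N) ϖ : FK K N) : LaurentSeries K) ^ (-k) :=
      map_zpow₀ (laurentBaseChange K (modularFunctionFieldFull N)).toSubfield.subtype _ _
    have h2 : (z : LaurentSeries K) = (x : LaurentSeries K) *
        ((algebraMap ↥R (FK K N) ϖ ^ (-k) : FK K N) : LaurentSeries K) := rfl
    rw [h2, h1, coe_algebraMap_R R N ϖ, hCz]
  -- `z · ε Y₂ = ε (C u · Y₁)`
  have hcu' : ((ϖ : ↥R) : K) ^ (-k) * c = ((u : ↥R) : K) := by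
    rw [hcu, ← mul_assoc, ← zpow_add₀ hϖK, neg_add_cancel, zpow_zero, one_mul]
  have hrel' : (z : LaurentSeries K) * gvEps R Y₂ = gvEps R (HahnSeries.C (u : ↥R) * Y₁) := by
    calc (z : LaurentSeries K) * gvEps R Y₂
        = HahnSeries.C (((ϖ : ↥R) : K) ^ (-k)) * ((x : LaurentSeries K) * gvEps R Y₂) := by
          rw [hzs]; ring
      _ = HahnSeries.C (((ϖ : ↥R) : K) ^ (-k)) * (HahnSeries.C c * gvEps R Y₁) := by rw [hrel]
      _ = HahnSeries.C (((ϖ : ↥R) : K) ^ (-k) * c) * gvEps R Y₁ := by rw [map_mul]; ring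
      _ = gvEps R (HahnSeries.C (u : ↥R) * Y₁) := by rw [hcu', map_mul, gvEps_C]
  have hCu : rhoR R (HahnSeries.C (u : ↥R) * Y₁) ≠ 0 := by
    rw [map_mul]
    refine mul_ne_zero ?_ hY₁
    rw [h3b_rho_ne_zero_iff]
    refine ⟨0, ?_⟩
    rw [HahnSeries.C_apply, HahnSeries.coeff_single_same]
    exact u.isUnit
  apply val_eq_one_of_mem_inv _ hz0
  · rw [mem_gaussVal, h3v_inG_iff]
    exact ⟨HahnSeries.C (u : ↥R) * Y₁, Y₂, hY₂, hrel'⟩
  · rw [mem_gaussVal, h3v_inG_iff]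
    refine ⟨Y₂, HahnSeries.C (u : ↥R) * Y₁, hCu, ?_⟩
    have hzs0 : (z : LaurentSeries K) ≠ 0 := fun h0 => hz0 (Subtype.ext h0)
    have h1 : ((z⁻¹ : FK K N) : LaurentSeries K) = (z : LaurentSeries K)⁻¹ :=
      map_inv₀ (laurentBaseChange K (modularFunctionFieldFull N)).toSubfield.subtype _
    rw [h1, ← hrel', ← mul_assoc, inv_mul_cancel₀ hzs0, one_mul]

/-- discreteness of a pulled-back Gauss valuation ring `V ∘ w`, `w` fixing the constants. -/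
theorem ordAt_comap (ϖ : ↥R) (hϖ : Irreducible ϖ) (w : FK K N →+* FK K N)
    (hw : ∀ c : K, w (algebraMap K (FK K N) c) = algebraMap K (FK K N) c)
    (x : FK K N) (hx : x ≠ 0) :
    ∃ k : ℤ, OrdAt ((gaussVal R N).comap w) (algebraMap ↥R (FK K N) ϖ) x k := by
  have hwx : w x ≠ 0 := by
    rwa [Ne, map_eq_zero_iff w w.injective]
  obtain ⟨k, hk⟩ := ordAt_gaussVal R N ϖ hϖ (w x) hwx
  refine ⟨k, ?_⟩
  unfold OrdAt at hk ⊢
  have hπ0 : algebraMap ↥R (FK K N) ϖ ≠ 0 := algebraMap_R_ne_zero R N ϖ hϖ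
  have hwπ : w (algebraMap ↥R (FK K N) ϖ) = algebraMap ↥R (FK K N) ϖ := by
    rw [IsScalarTower.algebraMap_apply ↥R K (FK K N), hw]
  have hwz : w (x * algebraMap ↥R (FK K N) ϖ ^ (-k)) =
      w x * algebraMap ↥R (FK K N) ϖ ^ (-k) := by
    rw [map_mul, map_zpow₀, hwπ]
  have hz0 : x * algebraMap ↥R (FK K N) ϖ ^ (-k) ≠ 0 := mul_ne_zero hx (zpow_ne_zero _ hπ0)
  have hmem : w x * algebraMap ↥R (FK K N) ϖ ^ (-k) ∈ gaussVal R N := by
    rw [← ValuationSubring.valuation_le_one_iff, hk]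
  have hmemi : (w x * algebraMap ↥R (FK K N) ϖ ^ (-k))⁻¹ ∈ gaussVal R N := by
    rw [← ValuationSubring.valuation_le_one_iff, map_inv₀, hk, inv_one]
  apply val_eq_one_of_mem_inv _ hz0
  · rw [ValuationSubring.mem_comap, hwz]
    exact hmem
  · rw [ValuationSubring.mem_comap, map_inv₀, hwz]
    exact hmemi

end Generic

/-! ### The four concrete fields -/

section Concrete

variable (K₁ : IntermediateField ℚ Kbar) (R₁ : ValuationSubring ↥K₁)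
  [IsDiscreteValuationRing R₁]
variable (M q : ℕ) [NeZero M] [NeZero q] (hq : q.Prime) (hqM : ¬ q ∣ M)

/-- **hd₁** -/
theorem hd_cV1 [Algebra ↥R₁ (FK ↥K₁ (M * q * q))] [IsScalarTower ↥R₁ ↥K₁ (FK ↥K₁ (M * q * q))]
    (ϖ : ↥R₁) (hϖ : Irreducible ϖ) (x : FK ↥K₁ (M * q * q)) (hx : x ≠ 0) :
    ∃ k : ℤ, OrdAt (cV1 K₁ R₁ M q) (algebraMap ↥R₁ (FK ↥K₁ (M * q * q)) ϖ) x k :=
  ordAt_gaussVal R₁ (M * q * q) ϖ hϖ x hx

/-- **hd₂** -/
theorem hd_cV2 [Algebra ↥R₁ (FK ↥K₁ (M * q * q))] [IsScalarTower ↥R₁ ↥K₁ (FK ↥K₁ (M * q * q))]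
    (ϖ : ↥R₁) (hϖ : Irreducible ϖ) (x : FK ↥K₁ (M * q * q)) (hx : x ≠ 0) :
    ∃ k : ℤ, OrdAt (cV2 K₁ R₁ M q hq hqM) (algebraMap ↥R₁ (FK ↥K₁ (M * q * q)) ϖ) x k :=
  ordAt_comap R₁ (M * q * q) ϖ hϖ (H12WQ.wq2KHom K₁ M q hq hqM)
    (fun c => H12WQ.wq2KHom_const K₁ M q hq hqM c) x hx

/-- **hd₁'** -/
theorem hd_cV1' [Algebra ↥R₁ (FK ↥K₁ (M * q))] [IsScalarTower ↥R₁ ↥K₁ (FK ↥K₁ (M * q))]
    (ϖ : ↥R₁) (hϖ : Irreducible ϖ) (x : FK ↥K₁ (M * q)) (hx : x ≠ 0) :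
    ∃ k : ℤ, OrdAt (cV1' K₁ R₁ M q) (algebraMap ↥R₁ (FK ↥K₁ (M * q)) ϖ) x k :=
  ordAt_gaussVal R₁ (M * q) ϖ hϖ x hx

/-- **hd₂'** -/
theorem hd_cV2' [Algebra ↥R₁ (FK ↥K₁ (M * q))] [IsScalarTower ↥R₁ ↥K₁ (FK ↥K₁ (M * q))]
    (ϖ : ↥R₁) (hϖ : Irreducible ϖ) (x : FK ↥K₁ (M * q)) (hx : x ≠ 0) :
    ∃ k : ℤ, OrdAt (cV2' K₁ R₁ M q hq hqM) (algebraMap ↥R₁ (FK ↥K₁ (M * q)) ϖ) x k :=
  ordAt_comap R₁ (M * q) ϖ hϖ (H12AL.wqKHom K₁ M q hq hqM)
    (fun c => H12AL.wqKHom_const K₁ M q hq hqM c) x hx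

end Concrete

end H25HD

end
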