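import Mathlib

/-!
# Item 86 (S36), slice (NORM)/(V3-UNIQ) (helper13): Lemma T (Mathlib only)

`F` a field, `V₁`, `V`, `V'` valuation subrings, `ϖ, b ∈ F` with
* `ϖ ∈ 𝔪(V₁)`, `b` a unit of `V₁`, `V₁` archimedean for `ϖ` (`∀ x, ∃ m, ϖ^m x ∈ V₁`);
* at `V` and at `V'`: `v(b^e) = v(ϖ) < 1`.

`H13N3.le_of_inter_le` : if `V₁ ∩ V ⊆ V'` then `V ⊆ V'`.
`H13N3.eq_of_inter_le` : if moreover `V₁ ∩ V' ⊆ V` then `V = V'`.

(Use: `V₁` the Gauss valuation at `∞` of `F_{K}(M q²)`, `V, V'` two "third valuations"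
(`ι₃` for two primitive roots, or `V₃` and `V₃ ∘ W_{q²}`), `ϖ = q`, `b = J₂ - J`, `e = q - 1`;
`V₁ ∩ V = ⊕ V₁'·J₂^k ⊆ V'` by `H24TG.tg_split`.)
-/

set_option autoImplicit false

namespace H13N3

variable {F : Type*} [Field F]

theorem val_lt_one_of_pow {V : ValuationSubring F} {b ϖ : F} {e : ℕ}
    (hbV : V.valuation (b ^ e) = V.valuation ϖ) (hϖV : V.valuation ϖ < 1) :
    V.valuation b < 1 := by
  by_contra hcon
  have h1 : 1 ≤ V.valuation b := not_lt.mp hcon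
  have h2 : 1 ≤ V.valuation (b ^ e) := by
    rw [map_pow]
    exact one_le_pow₀ h1
  rw [hbV] at h2
  exact absurd hϖV (not_lt.mpr h2)

/-- the valuation of `ϖ^m + b^(e m + 1)` at a "third" valuation is that of `ϖ^m` -/
theorem val_add_third {V : ValuationSubring F} {b ϖ : F} {e : ℕ} (hϖ0 : ϖ ≠ 0)
    (hbV : V.valuation (b ^ e) = V.valuation ϖ) (hϖV : V.valuation ϖ < 1) (m : ℕ) :
    V.valuation (ϖ ^ m + b ^ (e * m + 1)) = V.valuation (ϖ ^ m) := by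
  have hb1 := val_lt_one_of_pow hbV hϖV
  have hpos : 0 < V.valuation (ϖ ^ m) := by
    rw [map_pow]
    exact pow_pos ((Valuation.pos_iff _).mpr hϖ0) m
  have hlt : V.valuation (b ^ (e * m + 1)) < V.valuation (ϖ ^ m) := by
    rw [pow_succ, pow_mul, map_mul, map_pow, hbV, ← map_pow]
    calc V.valuation (ϖ ^ m) * V.valuation b < V.valuation (ϖ ^ m) * 1 :=
          mul_lt_mul_of_pos_left hb1 hpos
      _ = V.valuation (ϖ ^ m) := mul_one _
  exact Valuation.map_add_eq_of_lt_left _ hlt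

/-- **Lemma T**. -/
theorem le_of_inter_le (V₁ V V' : ValuationSubring F) (ϖ b : F) (e : ℕ) (hϖ0 : ϖ ≠ 0)
    (hϖ₁ : V₁.valuation ϖ < 1) (hb₁ : V₁.valuation b = 1)
    (harch : ∀ x : F, ∃ m : ℕ, ϖ ^ m * x ∈ V₁)
    (hbV : V.valuation (b ^ e) = V.valuation ϖ) (hϖV : V.valuation ϖ < 1)
    (hbV' : V'.valuation (b ^ e) = V'.valuation ϖ) (hϖV' : V'.valuation ϖ < 1)
    (h : ∀ x, x ∈ V₁ → x ∈ V → x ∈ V') : V ≤ V' := by
  intro x hx
  obtain ⟨m₀, hm₀⟩ := harch x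
  set m := m₀ + 1 with hm
  have hϖmem : ϖ ∈ V₁ := (ValuationSubring.valuation_le_one_iff V₁ ϖ).mp hϖ₁.le
  have hmx : ϖ ^ m * x ∈ V₁ := by
    rw [hm, pow_succ, mul_assoc, mul_comm ϖ x, ← mul_assoc]
    exact V₁.mul_mem _ _ hm₀ hϖmem
  set d := ϖ ^ m + b ^ (e * m + 1) with hd
  -- at V₁ : d is a unit
  have hd₁ : V₁.valuation d = 1 := by
    have h1 : V₁.valuation (b ^ (e * m + 1)) = 1 := by rw [map_pow, hb₁, one_pow]
    have h2 : V₁.valuation (ϖ ^ m) < 1 := by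
      rw [map_pow, hm]
      exact pow_lt_one₀ zero_le hϖ₁ (Nat.succ_ne_zero m₀)
    rw [hd, Valuation.map_add_eq_of_lt_right _ (by rw [h1]; exact h2), h1]
  have hdV : V.valuation d = V.valuation (ϖ ^ m) := val_add_third hϖ0 hbV hϖV m
  have hdV' : V'.valuation d = V'.valuation (ϖ ^ m) := val_add_third hϖ0 hbV' hϖV' m
  have hϖm0 : ϖ ^ m ≠ 0 := pow_ne_zero m hϖ0
  have hd0 : d ≠ 0 := by
    intro h0
    rw [h0, map_zero] at hd₁
    exact zero_ne_one hd₁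
  -- t x
  have ht₁ : ϖ ^ m / d * x ∈ V₁ := by
    rw [← ValuationSubring.valuation_le_one_iff, div_mul_eq_mul_div, map_div₀, hd₁, div_one]
    exact (ValuationSubring.valuation_le_one_iff V₁ _).mpr hmx
  have htV : V.valuation (ϖ ^ m / d) = 1 := by
    rw [map_div₀, hdV]
    exact div_self ((Valuation.ne_zero_iff _).mpr hϖm0)
  have htV' : V'.valuation (ϖ ^ m / d) = 1 := by
    rw [map_div₀, hdV']
    exact div_self ((Valuation.ne_zero_iff _).mpr hϖm0)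
  have ht2 : ϖ ^ m / d * x ∈ V := by
    rw [← ValuationSubring.valuation_le_one_iff, map_mul, htV, one_mul]
    exact (ValuationSubring.valuation_le_one_iff V x).mpr hx
  have ht3 := h _ ht₁ ht2
  rw [← ValuationSubring.valuation_le_one_iff, map_mul, htV', one_mul] at ht3
  exact (ValuationSubring.valuation_le_one_iff V' x).mp ht3

/-- **uniqueness of the third valuation**. -/
theorem eq_of_inter_le (V₁ V V' : ValuationSubring F) (ϖ b : F) (e : ℕ) (hϖ0 : ϖ ≠ 0)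
    (hϖ₁ : V₁.valuation ϖ < 1) (hb₁ : V₁.valuation b = 1)
    (harch : ∀ x : F, ∃ m : ℕ, ϖ ^ m * x ∈ V₁)
    (hbV : V.valuation (b ^ e) = V.valuation ϖ) (hϖV : V.valuation ϖ < 1)
    (hbV' : V'.valuation (b ^ e) = V'.valuation ϖ) (hϖV' : V'.valuation ϖ < 1)
    (h : ∀ x, x ∈ V₁ → x ∈ V → x ∈ V') (h' : ∀ x, x ∈ V₁ → x ∈ V' → x ∈ V) : V = V' :=
  le_antisymm (le_of_inter_le V₁ V V' ϖ b e hϖ0 hϖ₁ hb₁ harch hbV hϖV hbV' hϖV' h)
    (le_of_inter_le V₁ V' V ϖ b e hϖ0 hϖ₁ hb₁ harch hbV' hϖV' hbV hϖV h')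

end H13N3
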