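/-
Item 86 (S36), slice **V3** (helper3), part 6: complements.

* `JgenK_mem_V3`   : every generator `j(𝐪^d)` lies in `V₃`  (so `J2 ∈ V₃`, `J0 ∈ V₃`);
* `V3_unif_val`    : `V₃.valuation (b^(q-1)) = V₃.valuation q`;
* `inG_tw_iff`, `inGm_tw_iff` : twisting by a root of unity preserves the Gauss ring;
* `iota3_beta`     : `ι₃ ∘ β = tw_ζ ∘ w_q` on `F_{K₁}(N₀ q)`   (`β : 𝐪 ↦ 𝐪^q`, `w_q` = helper12's
                     Atkin–Lehner involution `H12AL.wqKHom`);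
* `V3_beta`        : `β x ∈ V₃ ↔ InG R₁ (w_q x)`, `V₃.valuation (β x) < 1 ↔ InGm R₁ (w_q x)`
                     (`V₃ ∩ β F₁ = β V₂'`:  `w₃ | w₂'` via `β`).
-/
import Mathlib
import Fermat.Agent.S36.V3Unif_helper3

set_option autoImplicit false
set_option synthInstance.maxHeartbeats 400000
set_option linter.style.longLine false
set_option linter.unusedVariables false
set_option linter.unusedSectionVars false
set_option linter.style.haveILetI false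

noncomputable section

open ModularCurve RH24 H28S28 H7S18 HahnSeries H28GV H8PB H3TAU H3SIG

namespace H3V3

/-! ### Twists and the Gauss ring -/

section TwG

variable {K : Type} [Field K] (R : ValuationSubring K)

theorem rho_tw_ne_zero_iff (ζ : (↥R)ˣ) (Y : LaurentSeries ↥R) :
    rhoR R (tw ζ Y) ≠ 0 ↔ rhoR R Y ≠ 0 := by
  rw [h3b_rho_ne_zero_iff, h3b_rho_ne_zero_iff]
  constructor
  · rintro ⟨n, hn⟩
    refine ⟨n, ?_⟩
    rw [tw_coeff] at hn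
    exact (IsUnit.mul_iff.1 hn).2
  · rintro ⟨n, hn⟩
    refine ⟨n, ?_⟩
    rw [tw_coeff]
    exact (Units.isUnit _).mul hn

theorem rho_tw_eq_zero_iff (ζ : (↥R)ˣ) (Y : LaurentSeries ↥R) :
    rhoR R (tw ζ Y) = 0 ↔ rhoR R Y = 0 := by
  have := rho_tw_ne_zero_iff R ζ Y
  constructor
  · intro h
    by_contra h1
    exact (this.2 h1) h
  · intro h
    by_contra h1
    exact (this.1 h1) h

variable {R}

theorem inG_tw {x : LaurentSeries K} (hx : InG R x) (ζ : Kˣ) {n : ℕ} (hn : 0 < n)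
    (h : ζ ^ n = 1) : InG R (tw ζ x) := by
  rw [h3v_inG_iff] at hx ⊢
  obtain ⟨f, g, hg, hfg⟩ := hx
  refine ⟨tw (unitR R ζ hn h) f, tw (unitR R ζ hn h) g, (rho_tw_ne_zero_iff R _ _).2 hg, ?_⟩
  rw [← tw_gvEps, ← tw_gvEps, ← map_mul, hfg]

theorem inGm_tw {x : LaurentSeries K} (hx : InGm R x) (ζ : Kˣ) {n : ℕ} (hn : 0 < n)
    (h : ζ ^ n = 1) : InGm R (tw ζ x) := by
  rw [h3v_inGm_iff] at hx ⊢
  obtain ⟨f, g, hg, hf, hfg⟩ := hx
  refine ⟨tw (unitR R ζ hn h) f, tw (unitR R ζ hn h) g, (rho_tw_ne_zero_iff R _ _).2 hg,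
    (rho_tw_eq_zero_iff R _ _).2 hf, ?_⟩
  rw [← tw_gvEps, ← tw_gvEps, ← map_mul, hfg]

theorem tw_inv_tw {A : Type} [CommRing A] (ζ : Aˣ) (x : LaurentSeries A) :
    tw ζ⁻¹ (tw ζ x) = x := by
  ext n
  rw [tw_coeff, tw_coeff, ← mul_assoc, ← Units.val_mul, ← mul_zpow, inv_mul_cancel, one_zpow,
    Units.val_one, one_mul]

theorem inG_tw_iff (x : LaurentSeries K) (ζ : Kˣ) {n : ℕ} (hn : 0 < n) (h : ζ ^ n = 1) :
    InG R (tw ζ x) ↔ InG R x := by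
  constructor
  · intro hx
    have := inG_tw hx ζ⁻¹ hn (by rw [inv_pow, h, inv_one])
    rwa [tw_inv_tw] at this
  · intro hx
    exact inG_tw hx ζ hn h

theorem inGm_tw_iff (x : LaurentSeries K) (ζ : Kˣ) {n : ℕ} (hn : 0 < n) (h : ζ ^ n = 1) :
    InGm R (tw ζ x) ↔ InGm R x := by
  constructor
  · intro hx
    have := inGm_tw hx ζ⁻¹ hn (by rw [inv_pow, h, inv_one])
    rwa [tw_inv_tw] at this
  · intro hx
    exact inGm_tw hx ζ hn h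

/-- series in `𝐪^q` are fixed by the twist by a `q`-th root of unity -/
theorem tw_qExpand {A : Type} [CommRing A] (ζ : Aˣ) (q : ℕ) [NeZero q] (h : ζ ^ q = 1)
    (z : LaurentSeries A) : tw ζ (qExpand A q z) = qExpand A q z := by
  ext n
  rw [tw_coeff]
  by_cases hn : (q : ℤ) ∣ n
  · obtain ⟨m, rfl⟩ := hn
    have : ζ ^ ((q : ℤ) * m) = 1 := by
      rw [zpow_mul, zpow_natCast, h, one_zpow]
    rw [this, Units.val_one, one_mul]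
  · rw [qExpand_coeff_of_not_dvd q z hn, mul_zero]

end TwG

/-! ### Generators in `V₃`, valuation form of the uniformizer -/

section More

variable {K₁ K₃ : IntermediateField ℚ Kbar} (R₃ : ValuationSubring ↥K₃)
  [IsDiscreteValuationRing R₃]
variable (M : ℕ) [NeZero M] (q : ℕ)

theorem JgenK_inG {K : Type} [Field K] [Algebra ℚ K] (R : ValuationSubring K) (d : Dv M) :
    InG R ((JgenK K d : FK K M) : LaurentSeries K) := by
  haveI : NeZero d.1 := ⟨Dv_ne_zero d⟩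
  show InG R (coeffEmb K (qExpand ℚ d.1 jq))
  rw [gv_coeffEmb_qExpand, gv_coeffEmb_jq, ← gvEps_jd R d.1]
  exact inG_eps R _

theorem JgenK_mem_V3 (h13 : K₁ ≤ K₃) (hq : q.Prime) (hM2 : q ^ 2 ∣ M) (hM3 : ¬ q ^ 3 ∣ M)
    (ζ : (↥K₃)ˣ) (hζ : IsPrimitiveRoot ζ q) (d : Dv M) :
    JgenK ↥K₁ d ∈ V3 R₃ M q h13 hq hM2 hM3 ζ hζ := by
  rw [mem_V3, iota3_JgenK]
  unfold g3K
  by_cases h : q ^ 2 ∣ d.1
  · rw [dif_pos h]
    exact inG_tw (JgenK_inG M R₃ _) ζ hq.pos hζ.pow_eq_one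
  · rw [dif_neg h]
    exact JgenK_inG M R₃ d

theorem J2_mem_V3 (h13 : K₁ ≤ K₃) (hq : q.Prime) (hM2 : q ^ 2 ∣ M) (hM3 : ¬ q ^ 3 ∣ M)
    (ζ : (↥K₃)ˣ) (hζ : IsPrimitiveRoot ζ q) :
    J2 M q K₁ hM2 ∈ V3 R₃ M q h13 hq hM2 hM3 ζ hζ :=
  JgenK_mem_V3 R₃ M q h13 hq hM2 hM3 ζ hζ _

theorem J0_mem_V3 (h13 : K₁ ≤ K₃) (hq : q.Prime) (hM2 : q ^ 2 ∣ M) (hM3 : ¬ q ^ 3 ∣ M)
    (ζ : (↥K₃)ˣ) (hζ : IsPrimitiveRoot ζ q) :
    J0 M K₁ ∈ V3 R₃ M q h13 hq hM2 hM3 ζ hζ :=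
  JgenK_mem_V3 R₃ M q h13 hq hM2 hM3 ζ hζ _

/-- valuation form of the uniformizer statement -/
theorem V3_unif_val (h13 : K₁ ≤ K₃) (hq : q.Prime) (hM2 : q ^ 2 ∣ M) (hM3 : ¬ q ^ 3 ∣ M)
    (ζ : (↥K₃)ˣ) (hζ : IsPrimitiveRoot ζ q) (hqR : (q : ↥K₃) ∈ R₃.nonunits) :
    (V3 R₃ M q h13 hq hM2 hM3 ζ hζ).valuation ((J2 M q K₁ hM2 - J0 M K₁) ^ (q - 1)) =
      (V3 R₃ M q h13 hq hM2 hM3 ζ hζ).valuation (q : FK ↥K₁ M) := by
  have hu := V3_unif_unit R₃ M q h13 hq hM2 hM3 ζ hζ hqR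
  rw [map_div₀] at hu
  have hq0 : (V3 R₃ M q h13 hq hM2 hM3 ζ hζ).valuation (q : FK ↥K₁ M) ≠ 0 := by
    rw [Ne, map_eq_zero]
    exact Nat.cast_ne_zero.2 hq.ne_zero
  rwa [div_eq_one_iff_eq hq0] at hu

end More

/-! ### `ι₃ ∘ β = tw_ζ ∘ w_q` -/

section Beta

variable {K₁ K₃ : IntermediateField ℚ Kbar}
variable (M : ℕ) [NeZero M] (q : ℕ) [NeZero q] (N₀ : ℕ) [NeZero N₀]

theorem coeffEmb_qExpand_mul (K : Type) [Field K] [Algebra ℚ K] (d : ℕ) [NeZero d]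
    [NeZero (d * q)] :
    qExpand K q (coeffEmb K (qExpand ℚ d jq)) = coeffEmb K (qExpand ℚ (d * q) jq) := by
  rw [← gv_coeffEmb_qExpand, qExpand_qExpand]
  congr 1
  exact qExpand_congr (mul_comm q d) _

/-- `β : F_{K₁}(N₀ q) → F_{K₁}(M)`, `𝐪 ↦ 𝐪^q`, for `N₀ q q ∣ M`. -/
def betaM (K₁ : IntermediateField ℚ Kbar) (hNM : N₀ * q * q ∣ M) :
    FK ↥K₁ (N₀ * q) →+* FK ↥K₁ M :=
  ((IntermediateField.inclusion (lbc_le_of_dvd ↥K₁ hNM) : _ →+* _)).comp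
    (heckeBetaBarRingHom ↥K₁ (N₀ * q) q)

theorem coe_betaM (hNM : N₀ * q * q ∣ M) (x : FK ↥K₁ (N₀ * q)) :
    ((betaM M q N₀ K₁ hNM x : FK ↥K₁ M) : LaurentSeries ↥K₁) =
      qExpand ↥K₁ q (x : LaurentSeries ↥K₁) := rfl

/-- **`ι₃ ∘ β = tw_ζ ∘ w_q`**. -/
theorem iota3_betaM (h13 : K₁ ≤ K₃) (hq : q.Prime) (hqN₀ : ¬ q ∣ N₀) (hM2 : q ^ 2 ∣ M)
    (hM3 : ¬ q ^ 3 ∣ M) (hNM : N₀ * q * q ∣ M)
    (ζ : (↥K₃)ˣ) (hζ : IsPrimitiveRoot ζ q) (x : FK ↥K₁ (N₀ * q)) :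
    iota3 M q h13 hq hM2 hM3 ζ hζ (betaM M q N₀ K₁ hNM x) =
      tw ζ (coeffMap (IntermediateField.inclusion h13 : ↥K₁ →+* ↥K₃)
        ((H12AL.wqKHom K₁ N₀ q hq hqN₀ x : FK ↥K₁ (N₀ * q)) : LaurentSeries ↥K₁)) := by
  let f : FK ↥K₁ (N₀ * q) →+* LaurentSeries ↥K₃ :=
    (iota3 M q h13 hq hM2 hM3 ζ hζ).comp (betaM M q N₀ K₁ hNM)
  let g : FK ↥K₁ (N₀ * q) →+* LaurentSeries ↥K₃ :=
    (tw ζ).comp ((coeffMap (IntermediateField.inclusion h13 : ↥K₁ →+* ↥K₃)).comp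
      ((laurentBaseChange ↥K₁ (modularFunctionFieldFull (N₀ * q))).toSubfield.subtype.comp
        (H12AL.wqKHom K₁ N₀ q hq hqN₀)))
  have hfg : f = g := by
    apply ringHom_ext_FK
    · intro c
      show iota3 M q h13 hq hM2 hM3 ζ hζ (betaM M q N₀ K₁ hNM (algebraMap ↥K₁ _ c)) =
        tw ζ (coeffMap (IntermediateField.inclusion h13 : ↥K₁ →+* ↥K₃)
          ((H12AL.wqKHom K₁ N₀ q hq hqN₀ (algebraMap ↥K₁ _ c) : FK ↥K₁ (N₀ * q)) :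
            LaurentSeries ↥K₁))
      have h1 : betaM M q N₀ K₁ hNM (algebraMap ↥K₁ (FK ↥K₁ (N₀ * q)) c) =
          algebraMap ↥K₁ (FK ↥K₁ M) c := by
        apply Subtype.ext
        rw [coe_betaM]
        show qExpand ↥K₁ q (algebraMap ↥K₁ (LaurentSeries ↥K₁) c) =
          algebraMap ↥K₁ (LaurentSeries ↥K₁) c
        rw [algebraMap_laurentSeries_eq_single, qExpand_single, mul_zero]
      rw [h1, iota3_const, H12AL.wqKHom_const]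
      have h2 : ((algebraMap ↥K₁ (FK ↥K₁ (N₀ * q)) c : FK ↥K₁ (N₀ * q)) : LaurentSeries ↥K₁) =
          algebraMap ↥K₁ (LaurentSeries ↥K₁) c := rfl
      rw [h2, H1S18.coeffMap_algebraMap_hom]
      have h3 : algebraMap ↥K₃ (LaurentSeries ↥K₃) (IntermediateField.inclusion h13 c) =
          qExpand ↥K₃ q (algebraMap ↥K₃ (LaurentSeries ↥K₃) (IntermediateField.inclusion h13 c)) := by
        rw [algebraMap_laurentSeries_eq_single, qExpand_single, mul_zero]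
      show _ = tw ζ (algebraMap ↥K₃ (LaurentSeries ↥K₃) (IntermediateField.inclusion h13 c))
      rw [h3, tw_qExpand ζ q hζ.pow_eq_one, ← h3]
    · intro d
      haveI : NeZero d.1 := ⟨Dv_ne_zero d⟩
      show iota3 M q h13 hq hM2 hM3 ζ hζ (betaM M q N₀ K₁ hNM (JgenK ↥K₁ d)) =
        tw ζ (coeffMap (IntermediateField.inclusion h13 : ↥K₁ →+* ↥K₃)
          ((H12AL.wqKHom K₁ N₀ q hq hqN₀ (JgenK ↥K₁ d) : FK ↥K₁ (N₀ * q)) :
            LaurentSeries ↥K₁))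
      haveI : NeZero (d.1 * q) := ⟨Nat.mul_ne_zero (Dv_ne_zero d) hq.ne_zero⟩
      have hdq : d.1 * q ∣ M := (Nat.mul_dvd_mul_right d.2 q).trans hNM
      have h1 : betaM M q N₀ K₁ hNM (JgenK ↥K₁ d) = JgenK ↥K₁ (⟨d.1 * q, hdq⟩ : Dv M) := by
        apply Subtype.ext
        rw [coe_betaM]
        exact coeffEmb_qExpand_mul q ↥K₁ d.1
      rw [h1]
      by_cases hd : q ∣ d.1
      · -- `d = d' q`
        obtain ⟨d', hd'⟩ := hd
        have hd'0 : d' ≠ 0 := by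
          rintro rfl
          rw [mul_zero] at hd'
          exact Dv_ne_zero d hd'
        haveI : NeZero d' := ⟨hd'0⟩
        have hd'N : d' ∣ N₀ := by
          have h2 : q * d' ∣ q * N₀ := by
            rw [← hd', mul_comm q N₀]
            exact d.2
          exact (Nat.mul_dvd_mul_iff_left hq.pos).1 h2
        have hhigh : (⟨d.1 * q, hdq⟩ : Dv M).1 = d' * q ^ 2 := by
          show d.1 * q = d' * q ^ 2
          rw [hd']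
          ring
        rw [iota3_Jhigh M q h13 hq hM2 hM3 ζ hζ _ d' hhigh]
        -- `w_q (J_{d' q}) = J_{d'}`
        let x₀ : FK ↥K₁ (N₀ * q) := JgenK ↥K₁ (⟨d', hd'N.mul_right q⟩ : Dv (N₀ * q))
        have hx₀ : (x₀ : LaurentSeries ↥K₁) ∈
            laurentBaseChange ↥K₁ (modularFunctionFieldFull N₀) :=
          coeffEmb_mem_laurentBaseChange _ (jqd_mem_full N₀ hd'N)
        have hy : ((JgenK ↥K₁ d : FK ↥K₁ (N₀ * q)) : LaurentSeries ↥K₁) =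
            qExpand ↥K₁ q (x₀ : LaurentSeries ↥K₁) := by
          haveI : NeZero (d' * q) := ⟨Nat.mul_ne_zero hd'0 hq.ne_zero⟩
          show coeffEmb ↥K₁ (qExpand ℚ d.1 jq) = qExpand ↥K₁ q (coeffEmb ↥K₁ (qExpand ℚ d' jq))
          rw [coeffEmb_qExpand_mul q ↥K₁ d']
          congr 1
          exact qExpand_congr (by rw [hd', mul_comm]) _
        rw [H12AL.wqKHom_qExpand K₁ N₀ q hq hqN₀ x₀ (JgenK ↥K₁ d) hx₀ hy]
        show _ = tw ζ (coeffMap (IntermediateField.inclusion h13 : ↥K₁ →+* ↥K₃)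
          (coeffEmb ↥K₁ (qExpand ℚ d' jq)))
        rw [H1S18.coeffMap_coeffEmb_hom]
      · -- `q ∤ d`
        have hdN : d.1 ∣ N₀ :=
          (Nat.Coprime.dvd_mul_right ((Nat.Prime.coprime_iff_not_dvd hq).2 hd).symm).1 d.2
        have hlow : ¬ q ^ 2 ∣ (⟨d.1 * q, hdq⟩ : Dv M).1 := by
          show ¬ q ^ 2 ∣ d.1 * q
          intro h2
          apply hd
          have h3 : q * q ∣ d.1 * q := by rwa [← pow_two]
          exact (Nat.mul_dvd_mul_iff_right hq.pos).1 h3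
        rw [iota3_Jlow M q h13 hq hM2 hM3 ζ hζ _ hlow]
        have hx : ((JgenK ↥K₁ d : FK ↥K₁ (N₀ * q)) : LaurentSeries ↥K₁) ∈
            laurentBaseChange ↥K₁ (modularFunctionFieldFull N₀) :=
          coeffEmb_mem_laurentBaseChange _ (jqd_mem_full N₀ hdN)
        rw [H12AL.coe_wqKHom_of_level K₁ N₀ q hq hqN₀ _ hx]
        show _ = tw ζ (coeffMap (IntermediateField.inclusion h13 : ↥K₁ →+* ↥K₃)
          (qExpand ↥K₁ q (coeffEmb ↥K₁ (qExpand ℚ d.1 jq))))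
        rw [coeffMap_qExpand, tw_qExpand ζ q hζ.pow_eq_one, H1S18.coeffMap_coeffEmb_hom,
          coeffEmb_qExpand_mul q ↥K₃ d.1]
  exact RingHom.congr_fun hfg x

variable (R₁ : ValuationSubring ↥K₁) (R₃ : ValuationSubring ↥K₃)
  [IsDiscreteValuationRing R₁] [IsDiscreteValuationRing R₃]

/-- **`V₃ ∩ β F₁ = β V₂'`**: on `β F_{K₁}(N₀ q)` the third valuation is the second Gauss
valuation `w₂' = w₁' ∘ w_q` of level `N₀ q`. -/
theorem V3_betaM (h13 : K₁ ≤ K₃)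
    (hR : ∀ c : ↥K₁, c ∈ R₁ ↔ IntermediateField.inclusion h13 c ∈ R₃)
    (hq : q.Prime) (hqN₀ : ¬ q ∣ N₀) (hM2 : q ^ 2 ∣ M)
    (hM3 : ¬ q ^ 3 ∣ M) (hNM : N₀ * q * q ∣ M)
    (ζ : (↥K₃)ˣ) (hζ : IsPrimitiveRoot ζ q) (x : FK ↥K₁ (N₀ * q)) :
    (betaM M q N₀ K₁ hNM x ∈ V3 R₃ M q h13 hq hM2 hM3 ζ hζ ↔
      InG R₁ ((H12AL.wqKHom K₁ N₀ q hq hqN₀ x : FK ↥K₁ (N₀ * q)) : LaurentSeries ↥K₁)) ∧
    ((V3 R₃ M q h13 hq hM2 hM3 ζ hζ).valuation (betaM M q N₀ K₁ hNM x) < 1 ↔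
      InGm R₁ ((H12AL.wqKHom K₁ N₀ q hq hqN₀ x : FK ↥K₁ (N₀ * q)) : LaurentSeries ↥K₁)) := by
  have hqb := isQB_of_mem_lbc R₁ (N₀ * q) _ (H12AL.wqKHom K₁ N₀ q hq hqN₀ x).2
  constructor
  · rw [mem_V3, iota3_betaM M q N₀ h13 hq hqN₀ hM2 hM3 hNM ζ hζ x,
      inG_tw_iff _ ζ hq.pos hζ.pow_eq_one]
    exact inG_descent (IntermediateField.inclusion h13 : ↥K₁ →+* ↥K₃) R₁ R₃ hR hqb
  · rw [valuation_V3_lt_one, iota3_betaM M q N₀ h13 hq hqN₀ hM2 hM3 hNM ζ hζ x,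
      inGm_tw_iff _ ζ hq.pos hζ.pow_eq_one]
    exact inGm_descent (IntermediateField.inclusion h13 : ↥K₁ →+* ↥K₃) R₁ R₃ hR hqb

end Beta

end H3V3

end
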