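import Mathlib
import Fermat.Agent.S36.TGResV1_helper24
import Fermat.Agent.S36.V3Extra_helper3
import Fermat.Agent.S36.NormUniq_helper13

/-!
# Item 86 (S36), slice (TG): the `V₃`-side wiring of `H24TG.tg_split` and (V3-UNIQ) (helper24)

`K₁ ≤ K₃` number fields in `ℚ̄`, `R₁`, `R₃` DVRs with `R₃ ∩ K₁ = R₁`, `R₁` unramified at `q`
(`Irreducible (q : R₁)`), `ζ ∈ K₃` a primitive `q`-th root of unity, levels `N ∣ L`, `q² ∤ N`,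
`q² ∥ L`.

* `J2_eq`, `incl_J0_eq`  : helper8's `H8TG.J2`, `H8TG.J0` are helper3's `H3V3.J2`, `H3V3.J0`;
* `tg_split_V3`          : `x = Σ_{k<q} incl (c k) J₂^k ∈ V₁ ∩ V₃  ⇒  ∀ k, c k ∈ V₁'`;
* `harch_gaussVal`       : `∀ x, ∃ m, ϖ^m x ∈ V₁`;
* `V3_indep`  **(U1)**   : `V₃` does not depend on the primitive root `ζ`.
-/

set_option autoImplicit false
set_option linter.unusedSectionVars false
set_option linter.style.longLine false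
set_option linter.unusedVariables false
set_option linter.style.haveILetI false
set_option synthInstance.maxHeartbeats 400000

open ModularCurve RH24 H28S28 HahnSeries H28GV H8PB H3TAU H7S18

noncomputable section

namespace H24V3

section Ident

variable {K₁ : IntermediateField ℚ Kbar}
variable (N L q : ℕ) [NeZero N] [NeZero L] [NeZero q]

theorem J2_eq (hqL : q * q ∣ L) (hM2 : q ^ 2 ∣ L) :
    H8TG.J2 ↥K₁ L q hqL = H3V3.J2 L q K₁ hM2 := by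
  haveI : NeZero (q ^ 2) := ⟨pow_ne_zero 2 (NeZero.ne q)⟩
  apply Subtype.ext
  rw [H8TG.coe_J2, H3V3.coe_J2, gv_coeffEmb_qExpand, gv_coeffEmb_jq]
  exact qExpand_congr (by ring) _

theorem incl_J0_eq (hNL : N ∣ L) :
    H8TG.incl ↥K₁ N L hNL (H8TG.J0 ↥K₁ N) = H3V3.J0 L K₁ := by
  apply Subtype.ext
  rw [H8TG.coe_incl, H8TG.coe_J0, H3V3.coe_J0, gv_coeffEmb_jq]

end Ident

section Split

variable {K₁ K₃ : IntermediateField ℚ Kbar} (R₁ : ValuationSubring ↥K₁)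
  (R₃ : ValuationSubring ↥K₃) [IsDiscreteValuationRing R₁] [IsDiscreteValuationRing R₃]
variable (N L q : ℕ) [NeZero N] [NeZero L] [NeZero q]

/-- `q` is a non-unit of `R₃` -/
theorem q_mem_nonunits (h13 : K₁ ≤ K₃)
    (hR : ∀ c : ↥K₁, c ∈ R₁ ↔ IntermediateField.inclusion h13 c ∈ R₃)
    (hunr : Irreducible ((q : ℕ) : R₁)) : (q : ↥K₃) ∈ R₃.nonunits := by
  have h1 : ((q : ℕ) : ↥K₁) ∈ R₁.nonunits := by
    have e : (((q : ℕ) : R₁) : ↥K₁) = ((q : ℕ) : ↥K₁) := by push_cast; rfl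
    rw [← e, ValuationSubring.coe_mem_nonunits_iff, IsLocalRing.mem_maximalIdeal]
    exact hunr.not_isUnit
  have h2 := (H3V3.mem_nonunits_descent (IntermediateField.inclusion h13 : ↥K₁ →+* ↥K₃)
    R₁ R₃ hR _).1 h1
  rwa [map_natCast] at h2

/-- **`hVb`**: `V₃` lies over `V₁'`. -/
theorem liesOver_V3 (h13 : K₁ ≤ K₃)
    (hR : ∀ c : ↥K₁, c ∈ R₁ ↔ IntermediateField.inclusion h13 c ∈ R₃)
    (hq : q.Prime) (hNL : N ∣ L) (hqN : ¬ q ^ 2 ∣ N) (hM2 : q ^ 2 ∣ L) (hM3 : ¬ q ^ 3 ∣ L)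
    (ζ : (↥K₃)ˣ) (hζ : IsPrimitiveRoot ζ q) (c : FK ↥K₁ N) :
    H8TG.incl ↥K₁ N L hNL c ∈ H3V3.V3 R₃ L q h13 hq hM2 hM3 ζ hζ ↔ c ∈ H10FC.gaussVal R₁ N := by
  have hx : ((H8TG.incl ↥K₁ N L hNL c : FK ↥K₁ L) : LaurentSeries ↥K₁) ∈
      laurentBaseChange ↥K₁ (modularFunctionFieldFull N) := by
    rw [H8TG.coe_incl]
    exact c.2
  rw [(H3V3.V3_of_level R₁ R₃ L q h13 hR hq hM2 hM3 ζ hζ N hNL hqN _ hx).1, H8TG.coe_incl,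
    H10FC.mem_gaussVal]

/-- **`V₃`-side of TripleGauss**: if `x = Σ_{k<q} c_k J₂^k` (`c_k ∈ F₁ = F(N)`) is integral at
`V₁` and at `V₃`, then every `c_k` is integral at `V₁'`. -/
theorem tg_split_V3 (h13 : K₁ ≤ K₃)
    (hR : ∀ c : ↥K₁, c ∈ R₁ ↔ IntermediateField.inclusion h13 c ∈ R₃)
    (hq : q.Prime) [Fact q.Prime] [CharP (IsLocalRing.ResidueField R₁) q]
    (hunr : Irreducible ((q : ℕ) : R₁))
    (hNL : N ∣ L) (hqN : ¬ q ^ 2 ∣ N) (hqL : q * q ∣ L) (hM2 : q ^ 2 ∣ L) (hM3 : ¬ q ^ 3 ∣ L)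
    (ζ : (↥K₃)ˣ) (hζ : IsPrimitiveRoot ζ q)
    (c : Fin q → FK ↥K₁ N)
    (hxa : (∑ k : Fin q, H8TG.incl ↥K₁ N L hNL (c k) * H8TG.J2 ↥K₁ L q hqL ^ (k : ℕ)) ∈
      H10FC.gaussVal R₁ L)
    (hxb : (∑ k : Fin q, H8TG.incl ↥K₁ N L hNL (c k) * H8TG.J2 ↥K₁ L q hqL ^ (k : ℕ)) ∈
      H3V3.V3 R₃ L q h13 hq hM2 hM3 ζ hζ) :
    ∀ k, c k ∈ H10FC.gaussVal R₁ N := by
  have hqR := q_mem_nonunits R₁ R₃ q h13 hR hunr
  refine H24TG.tg_split_val ↥K₁ R₁ N L q hNL hqL hunr (H3V3.V3 R₃ L q h13 hq hM2 hM3 ζ hζ)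
    (liesOver_V3 R₁ R₃ N L q h13 hR hq hNL hqN hM2 hM3 ζ hζ) ?_ ?_ q ?_ c hxa hxb
  · rw [J2_eq L q hqL hM2]
    exact H3V3.J2_mem_V3 R₃ L q h13 hq hM2 hM3 ζ hζ
  · rw [J2_eq L q hqL hM2, incl_J0_eq N L hNL]
    exact H3V3.V3_unif_lt R₃ L q h13 hq hM2 hM3 ζ hζ hqR
  · rw [J2_eq L q hqL hM2, incl_J0_eq N L hNL, H24TG.unifF_natCast]
    exact H3V3.V3_unif_val R₃ L q h13 hq hM2 hM3 ζ hζ hqR

end Split

/-! ### (U1): `V₃` does not depend on `ζ` -/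

section Arch

variable {K : Type} [Field K] (R : ValuationSubring K) [IsDiscreteValuationRing R]

/-- a DVR is archimedean for its uniformizer -/
theorem exists_pow_mul_mem {ϖ₀ : R} (hϖ : Irreducible ϖ₀) (c : K) :
    ∃ m : ℕ, (ϖ₀ : K) ^ m * c ∈ R := by
  rcases R.mem_or_inv_mem c with h | h
  · exact ⟨0, by rw [pow_zero, one_mul]; exact h⟩
  · by_cases hc : c = 0
    · exact ⟨0, by rw [hc, mul_zero]; exact R.zero_mem⟩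
    have hc' : (⟨c⁻¹, h⟩ : R) ≠ 0 := by
      intro h0
      have := congrArg (fun r : R => (r : K)) h0
      exact inv_ne_zero hc this
    obtain ⟨m, u, hu⟩ := IsDiscreteValuationRing.eq_unit_mul_pow_irreducible hc' hϖ
    refine ⟨m, ?_⟩
    have h1 : c⁻¹ = ((u : R) : K) * (ϖ₀ : K) ^ m := by
      have := congrArg (fun r : R => (r : K)) hu
      simpa using this
    have hu1 : ((u : R) : K) * (((u⁻¹ : Rˣ) : R) : K) = 1 := by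
      have h5 : ((u : R) * ((u⁻¹ : Rˣ) : R) : R) = 1 := by simp
      exact_mod_cast congrArg (fun r : R => (r : K)) h5
    have h2 : (ϖ₀ : K) ^ m * c = (((u⁻¹ : Rˣ) : R) : K) := by
      have hc2 : c⁻¹ * c = 1 := inv_mul_cancel₀ hc
      rw [h1] at hc2
      calc (ϖ₀ : K) ^ m * c = (((u : R) : K) * (((u⁻¹ : Rˣ) : R) : K)) * ((ϖ₀ : K) ^ m * c) := by
            rw [hu1, one_mul]
        _ = (((u⁻¹ : Rˣ) : R) : K) * (((u : R) : K) * (ϖ₀ : K) ^ m * c) := by ring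
        _ = _ := by rw [hc2, mul_one]
    rw [h2]
    exact Subtype.mem _

variable [Algebra ℚ K]

/-- **`harch`**: the Gauss valuation ring is archimedean for `ϖ`. -/
theorem harch_gaussVal (L : ℕ) [NeZero L] {ϖ₀ : R} (hϖ : Irreducible ϖ₀) (x : FK K L) :
    ∃ m : ℕ, H24TG.unifF K R L ϖ₀ ^ m * x ∈ H10FC.gaussVal R L := by
  by_cases hx0 : x = 0
  · exact ⟨0, by rw [hx0, mul_zero]; exact (H10FC.gaussVal R L).zero_mem⟩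
  have hx0' : (x : LaurentSeries K) ≠ 0 := fun h => hx0 (Subtype.ext h)
  obtain ⟨c, Y₁, Y₂, hc, hY₁, hY₂, hrel⟩ :=
    H3V3.nf_of_isQB (H3V3.isQB_of_mem_lbc R L _ x.2) hx0'
  obtain ⟨m, hm⟩ := exists_pow_mul_mem R hϖ c
  refine ⟨m, ?_⟩
  rw [H10FC.mem_gaussVal]
  have e : ((H24TG.unifF K R L ϖ₀ ^ m * x : FK K L) : LaurentSeries K) =
      HahnSeries.C ((ϖ₀ : K) ^ m) * (x : LaurentSeries K) := by
    rw [MulMemClass.coe_mul, SubmonoidClass.coe_pow, H24TG.coe_unifF, map_pow]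
  rw [e]
  have hrel' : HahnSeries.C ((ϖ₀ : K) ^ m) * (x : LaurentSeries K) * gvEps R Y₂ =
      HahnSeries.C ((ϖ₀ : K) ^ m * c) * gvEps R Y₁ := by
    rw [mul_assoc, hrel, ← mul_assoc, ← map_mul]
  exact (H3V3.inG_iff_of_nf hY₁ hY₂ hrel').2 hm

end Arch

section SeriesB

variable {K : Type} [Field K] (R : ValuationSubring K)
variable (q : ℕ) [NeZero q] [Fact q.Prime] [CharP (IsLocalRing.ResidueField R) q]

/-- `b = j(𝐪^{q²}) − j` over `R` -/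
def bR : LaurentSeries R := qExpand R (q * q) (jqModC R) - jqModC R

theorem rho_bR : rhoR R (bR R q) ≠ 0 := by
  unfold bR
  rw [map_sub]
  show coeffMap _ (qExpand R (q * q) (jqModC R)) - coeffMap _ (jqModC R) ≠ 0
  rw [coeffMap_qExpand, coeffMap_jqModC, ← qExpand_qExpand, h8pb_kronecker, map_pow,
    h8pb_kronecker, ← pow_mul, sub_ne_zero]
  exact fun h => h8pb_jq_ne_pow _ q h.symm

theorem eps_bR : gvEps R (bR R q) = qExpand K (q * q) (jqModC K) - jqModC K := by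
  unfold bR
  rw [map_sub]
  show coeffMap _ (qExpand R (q * q) (jqModC R)) - coeffMap _ (jqModC R) = _
  rw [coeffMap_qExpand, coeffMap_jqModC]

end SeriesB

section Uniq

variable {K₁ K₃ : IntermediateField ℚ Kbar} (R₁ : ValuationSubring ↥K₁)
  (R₃ : ValuationSubring ↥K₃) [IsDiscreteValuationRing R₁] [IsDiscreteValuationRing R₃]
variable (N L q : ℕ) [NeZero N] [NeZero L] [NeZero q]

/-- **`hb₁`**: `b = J₂ − J` is a unit of `V₁`. -/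
theorem b_val_V1 [Fact q.Prime] [CharP (IsLocalRing.ResidueField R₁) q] (hM2 : q ^ 2 ∣ L) :
    (H10FC.gaussVal R₁ L).valuation (H3V3.J2 L q K₁ hM2 - H3V3.J0 L K₁) = 1 := by
  haveI : NeZero (q ^ 2) := ⟨pow_ne_zero 2 (NeZero.ne q)⟩
  have e : ((H3V3.J2 L q K₁ hM2 - H3V3.J0 L K₁ : FK ↥K₁ L) : LaurentSeries ↥K₁) =
      gvEps R₁ (bR R₁ q) := by
    rw [AddSubgroupClass.coe_sub, H3V3.coe_J2, H3V3.coe_J0, gv_coeffEmb_qExpand, gv_coeffEmb_jq,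
      eps_bR]
    congr 1
    exact qExpand_congr (by ring) _
  have h1 : (H10FC.gaussVal R₁ L).valuation (H3V3.J2 L q K₁ hM2 - H3V3.J0 L K₁) ≤ 1 := by
    rw [ValuationSubring.valuation_le_one_iff, H10FC.mem_gaussVal, e]
    exact H10FC.inG_eps R₁ _
  have h2 : ¬ (H10FC.gaussVal R₁ L).valuation (H3V3.J2 L q K₁ hM2 - H3V3.J0 L K₁) < 1 := by
    rw [H10FC.gaussVal_lt_one, e]
    exact H10FC.not_inGm_eps R₁ (rho_bR R₁ q)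
  exact le_antisymm h1 (not_lt.mp h2)

/-- `V₁ ∩ V₃^ζ ⊆ V₃^{ζ'}` -/
theorem V3_inter_le (h13 : K₁ ≤ K₃)
    (hR : ∀ c : ↥K₁, c ∈ R₁ ↔ IntermediateField.inclusion h13 c ∈ R₃)
    (hq : q.Prime) [Fact q.Prime] [CharP (IsLocalRing.ResidueField R₁) q]
    (hunr : Irreducible ((q : ℕ) : R₁))
    (hNL : N ∣ L) (hqN : ¬ q ^ 2 ∣ N) (hqL : q * q ∣ L) (hM2 : q ^ 2 ∣ L) (hM3 : ¬ q ^ 3 ∣ L)
    (hspan : ∀ x : FK ↥K₁ L, ∃ c : Fin q → FK ↥K₁ N,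
      x = ∑ k : Fin q, H8TG.incl ↥K₁ N L hNL (c k) * H8TG.J2 ↥K₁ L q hqL ^ (k : ℕ))
    (ζ ζ' : (↥K₃)ˣ) (hζ : IsPrimitiveRoot ζ q) (hζ' : IsPrimitiveRoot ζ' q)
    (x : FK ↥K₁ L) (hx1 : x ∈ H10FC.gaussVal R₁ L)
    (hx3 : x ∈ H3V3.V3 R₃ L q h13 hq hM2 hM3 ζ hζ) :
    x ∈ H3V3.V3 R₃ L q h13 hq hM2 hM3 ζ' hζ' := by
  obtain ⟨c, hc⟩ := hspan x
  have hck := tg_split_V3 R₁ R₃ N L q h13 hR hq hunr hNL hqN hqL hM2 hM3 ζ hζ c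
    (by rw [← hc]; exact hx1) (by rw [← hc]; exact hx3)
  rw [hc]
  refine Subring.sum_mem _ (fun k _ => ?_)
  refine (H3V3.V3 R₃ L q h13 hq hM2 hM3 ζ' hζ').mul_mem _ _ ?_ ?_
  · exact (liesOver_V3 R₁ R₃ N L q h13 hR hq hNL hqN hM2 hM3 ζ' hζ' (c k)).2 (hck k)
  · refine (H3V3.V3 R₃ L q h13 hq hM2 hM3 ζ' hζ').pow_mem ?_ _
    rw [J2_eq L q hqL hM2]
    exact H3V3.J2_mem_V3 R₃ L q h13 hq hM2 hM3 ζ' hζ'

/-- `V₃.valuation q < 1` -/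
theorem V3_val_q_lt (h13 : K₁ ≤ K₃) (hq : q.Prime) (hM2 : q ^ 2 ∣ L) (hM3 : ¬ q ^ 3 ∣ L)
    (ζ : (↥K₃)ˣ) (hζ : IsPrimitiveRoot ζ q) (hqR : (q : ↥K₃) ∈ R₃.nonunits) :
    (H3V3.V3 R₃ L q h13 hq hM2 hM3 ζ hζ).valuation ((q : ℕ) : FK ↥K₁ L) < 1 := by
  rw [← H3V3.V3_unif_val R₃ L q h13 hq hM2 hM3 ζ hζ hqR, map_pow]
  have hb := H3V3.V3_unif_lt (K₁ := K₁) R₃ L q h13 hq hM2 hM3 ζ hζ hqR
  have h1 : 1 ≤ q - 1 := by have := hq.two_le; omega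
  exact pow_lt_one₀ zero_le hb (by omega)

/-- **(U1)**: the third valuation ring does not depend on the primitive `q`-th root of unity. -/
theorem V3_indep (h13 : K₁ ≤ K₃)
    (hR : ∀ c : ↥K₁, c ∈ R₁ ↔ IntermediateField.inclusion h13 c ∈ R₃)
    (hq : q.Prime) [Fact q.Prime] [CharP (IsLocalRing.ResidueField R₁) q]
    (hunr : Irreducible ((q : ℕ) : R₁))
    (hNL : N ∣ L) (hqN : ¬ q ^ 2 ∣ N) (hqL : q * q ∣ L) (hM2 : q ^ 2 ∣ L) (hM3 : ¬ q ^ 3 ∣ L)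
    (hspan : ∀ x : FK ↥K₁ L, ∃ c : Fin q → FK ↥K₁ N,
      x = ∑ k : Fin q, H8TG.incl ↥K₁ N L hNL (c k) * H8TG.J2 ↥K₁ L q hqL ^ (k : ℕ))
    (ζ ζ' : (↥K₃)ˣ) (hζ : IsPrimitiveRoot ζ q) (hζ' : IsPrimitiveRoot ζ' q) :
    H3V3.V3 R₃ L q h13 hq hM2 hM3 ζ hζ = H3V3.V3 R₃ L q h13 hq hM2 hM3 ζ' hζ' := by
  have hqR := q_mem_nonunits R₁ R₃ q h13 hR hunr
  have hϖ0 : ((q : ℕ) : FK ↥K₁ L) ≠ 0 := Nat.cast_ne_zero.2 hq.ne_zero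
  have hϖ₁ : (H10FC.gaussVal R₁ L).valuation ((q : ℕ) : FK ↥K₁ L) < 1 := by
    rw [← H24TG.unifF_natCast ↥K₁ R₁ L q]
    exact H24TG.unifF_lt_one ↥K₁ R₁ L hunr
  have harch : ∀ x : FK ↥K₁ L, ∃ m : ℕ, ((q : ℕ) : FK ↥K₁ L) ^ m * x ∈ H10FC.gaussVal R₁ L := by
    intro x
    obtain ⟨m, hm⟩ := harch_gaussVal R₁ L hunr x
    rw [H24TG.unifF_natCast] at hm
    exact ⟨m, hm⟩
  exact H13N3.eq_of_inter_le (H10FC.gaussVal R₁ L) _ _ ((q : ℕ) : FK ↥K₁ L)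
    (H3V3.J2 L q K₁ hM2 - H3V3.J0 L K₁) (q - 1) hϖ0 hϖ₁ (b_val_V1 R₁ L q hM2) harch
    (H3V3.V3_unif_val R₃ L q h13 hq hM2 hM3 ζ hζ hqR)
    (V3_val_q_lt R₃ L q h13 hq hM2 hM3 ζ hζ hqR)
    (H3V3.V3_unif_val R₃ L q h13 hq hM2 hM3 ζ' hζ' hqR)
    (V3_val_q_lt R₃ L q h13 hq hM2 hM3 ζ' hζ' hqR)
    (V3_inter_le R₁ R₃ N L q h13 hR hq hunr hNL hqN hqL hM2 hM3 hspan ζ ζ' hζ hζ')
    (V3_inter_le R₁ R₃ N L q h13 hR hq hunr hNL hqN hqL hM2 hM3 hspan ζ' ζ hζ' hζ)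

/-- **(U1), concrete**: at level `L = M q²` (`q ∤ M`), with helper8's (TG-SPAN). -/
theorem V3_indep_level (M : ℕ) [NeZero M] (h13 : K₁ ≤ K₃)
    (hR : ∀ c : ↥K₁, c ∈ R₁ ↔ IntermediateField.inclusion h13 c ∈ R₃)
    (hq : q.Prime) [Fact q.Prime] [CharP (IsLocalRing.ResidueField R₁) q]
    (hunr : Irreducible ((q : ℕ) : R₁)) (hqM : ¬ q ∣ M)
    (B : GVBasis R₁ (IsLocalRing.residue R₁) M)
    (hL : L = M * q * q) (hM2 : q ^ 2 ∣ L) (hM3 : ¬ q ^ 3 ∣ L)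
    (ζ ζ' : (↥K₃)ˣ) (hζ : IsPrimitiveRoot ζ q) (hζ' : IsPrimitiveRoot ζ' q) :
    H3V3.V3 R₃ L q h13 hq hM2 hM3 ζ hζ = H3V3.V3 R₃ L q h13 hq hM2 hM3 ζ' hζ' := by
  have h1 : M * q ∣ L := ⟨q, hL⟩
  have h2 : q * q ∣ L := ⟨M, by rw [hL]; ring⟩
  have hqN : ¬ q ^ 2 ∣ M * q := by
    intro h
    apply hqM
    have h3 : q * q ∣ M * q := by rwa [pow_two] at h
    exact Nat.dvd_of_mul_dvd_mul_right hq.pos h3
  exact V3_indep R₁ R₃ (M * q) L q h13 hR hq hunr h1 hqN h2 hM2 hM3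
    (H8TG.h8tg_spanFK K₁ R₁ M q hq hqM B L hL h1 h2) ζ ζ' hζ hζ'

end Uniq

end H24V3

end
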