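import Mathlib
import Fermat.Agent.S36.TGV3_helper24
import Fermat.Agent.S36.ALQ2_helper12

/-!
# Item 86 (S36), slice (V3-UNIQ), part (U2): `V₃` is stable under `W_{q²}` (helper24)

Level `L = M q q` (`q ∤ M`), `W = H12WQ.wq2KHom K₁ M q`.

* `iota3_wq2`  : `ι₃^{ζ} ∘ W_{q²} = tw_ζ ∘ ι₃^{ζ⁻¹}`;
* `mem_V3_wq2` : `W x ∈ V₃^{ζ} ↔ x ∈ V₃^{ζ⁻¹}`,  `val_V3_wq2` (maximal ideal form);
* `V3_comap_wq2` **(U2)** : `V₃.comap W_{q²} = V₃`  (with (U1), `H24V3.V3_indep_level`).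
-/

set_option autoImplicit false
set_option linter.unusedSectionVars false
set_option linter.style.longLine false
set_option linter.unusedVariables false
set_option linter.style.haveILetI false
set_option synthInstance.maxHeartbeats 400000

open ModularCurve RH24 H28S28 HahnSeries H28GV H8PB H3TAU H7S18

noncomputable section

namespace H24V3

section W

variable {K₁ K₃ : IntermediateField ℚ Kbar}
variable (M q : ℕ) [NeZero M] [NeZero q] [NeZero (M * q * q)]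

/-- `ι₃^ζ (W x) = tw_ζ (ι₃^{ζ'} x)` for `x` of level `M q` (`x = α x₁`) -/
theorem iota3_wq2_alpha (h13 : K₁ ≤ K₃) (hq : q.Prime) (hqM : ¬ q ∣ M)
    (hM2 : q ^ 2 ∣ M * q * q) (hM3 : ¬ q ^ 3 ∣ M * q * q)
    (ζ ζ' : (↥K₃)ˣ) (hζ : IsPrimitiveRoot ζ q) (hζ' : IsPrimitiveRoot ζ' q)
    (x : FK ↥K₁ (M * q * q)) (x₁ : FK ↥K₁ (M * q))
    (hx : (x : LaurentSeries ↥K₁) = (x₁ : LaurentSeries ↥K₁)) :
    H3V3.iota3 (M * q * q) q h13 hq hM2 hM3 ζ hζ (H12WQ.wq2KHom K₁ M q hq hqM x) =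
      tw ζ (H3V3.iota3 (M * q * q) q h13 hq hM2 hM3 ζ' hζ' x) := by
  have hqN : ¬ q ^ 2 ∣ M * q := by
    intro h
    apply hqM
    have h3 : q * q ∣ M * q := by rwa [pow_two] at h
    exact Nat.dvd_of_mul_dvd_mul_right hq.pos h3
  have hW : H12WQ.wq2KHom K₁ M q hq hqM x =
      H3V3.betaM (M * q * q) q M K₁ (dvd_refl _) (H12AL.wqKHom K₁ M q hq hqM x₁) := by
    apply Subtype.ext
    rw [H3V3.coe_betaM]
    exact H12WQ.coe_wq2KHom_of_level K₁ M q hq hqM x x₁ hx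
  rw [hW, H3V3.iota3_betaM (M * q * q) q M h13 hq hqM hM2 hM3 (dvd_refl _) ζ hζ,
    H12AL.wqKHom_invol,
    H3V3.iota3_of_level (M * q * q) q h13 hq hM2 hM3 ζ' hζ' (M * q) ⟨q, rfl⟩ hqN x
      (by rw [hx]; exact x₁.2), hx]

/-- `ι₃^ζ (W (β x₁)) = tw_ζ (ι₃^{ζ⁻¹} (β x₁))` -/
theorem iota3_wq2_beta (h13 : K₁ ≤ K₃) (hq : q.Prime) (hqM : ¬ q ∣ M)
    (hM2 : q ^ 2 ∣ M * q * q) (hM3 : ¬ q ^ 3 ∣ M * q * q)
    (ζ : (↥K₃)ˣ) (hζ : IsPrimitiveRoot ζ q) (hζi : IsPrimitiveRoot ζ⁻¹ q)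
    (x₁ : FK ↥K₁ (M * q)) :
    H3V3.iota3 (M * q * q) q h13 hq hM2 hM3 ζ hζ
        (H12WQ.wq2KHom K₁ M q hq hqM (H3V3.betaM (M * q * q) q M K₁ (dvd_refl _) x₁)) =
      tw ζ (H3V3.iota3 (M * q * q) q h13 hq hM2 hM3 ζ⁻¹ hζi
        (H3V3.betaM (M * q * q) q M K₁ (dvd_refl _) x₁)) := by
  have hqN : ¬ q ^ 2 ∣ M * q := by
    intro h
    apply hqM
    have h3 : q * q ∣ M * q := by rwa [pow_two] at h
    exact Nat.dvd_of_mul_dvd_mul_right hq.pos h3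
  have hW : ((H12WQ.wq2KHom K₁ M q hq hqM (H3V3.betaM (M * q * q) q M K₁ (dvd_refl _) x₁) :
      FK ↥K₁ (M * q * q)) : LaurentSeries ↥K₁) =
      ((H12AL.wqKHom K₁ M q hq hqM x₁ : FK ↥K₁ (M * q)) : LaurentSeries ↥K₁) :=
    H12WQ.coe_wq2KHom_qExpand K₁ M q hq hqM _ x₁ (H3V3.coe_betaM (M * q * q) q M (dvd_refl _) x₁)
  rw [H3V3.iota3_of_level (M * q * q) q h13 hq hM2 hM3 ζ hζ (M * q) ⟨q, rfl⟩ hqN _
      (by rw [hW]; exact (H12AL.wqKHom K₁ M q hq hqM x₁).2), hW,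
    H3V3.iota3_betaM (M * q * q) q M h13 hq hqM hM2 hM3 (dvd_refl _) ζ⁻¹ hζi]
  have h := H3V3.tw_inv_tw ζ⁻¹ (coeffMap (IntermediateField.inclusion h13 : ↥K₁ →+* ↥K₃)
    ((H12AL.wqKHom K₁ M q hq hqM x₁ : FK ↥K₁ (M * q)) : LaurentSeries ↥K₁))
  rw [inv_inv] at h
  exact h.symm

/-- **`ι₃^{ζ} ∘ W_{q²} = tw_ζ ∘ ι₃^{ζ⁻¹}`**. -/
theorem iota3_wq2 (h13 : K₁ ≤ K₃) (hq : q.Prime) (hqM : ¬ q ∣ M)
    (hM2 : q ^ 2 ∣ M * q * q) (hM3 : ¬ q ^ 3 ∣ M * q * q)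
    (ζ : (↥K₃)ˣ) (hζ : IsPrimitiveRoot ζ q) (hζi : IsPrimitiveRoot ζ⁻¹ q)
    (x : FK ↥K₁ (M * q * q)) :
    H3V3.iota3 (M * q * q) q h13 hq hM2 hM3 ζ hζ (H12WQ.wq2KHom K₁ M q hq hqM x) =
      tw ζ (H3V3.iota3 (M * q * q) q h13 hq hM2 hM3 ζ⁻¹ hζi x) := by
  let f : FK ↥K₁ (M * q * q) →+* LaurentSeries ↥K₃ :=
    (H3V3.iota3 (M * q * q) q h13 hq hM2 hM3 ζ hζ).comp (H12WQ.wq2KHom K₁ M q hq hqM)
  let g : FK ↥K₁ (M * q * q) →+* LaurentSeries ↥K₃ :=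
    (tw ζ).comp (H3V3.iota3 (M * q * q) q h13 hq hM2 hM3 ζ⁻¹ hζi)
  have hfg : f = g := by
    apply H3V3.ringHom_ext_FK
    · intro c
      show H3V3.iota3 (M * q * q) q h13 hq hM2 hM3 ζ hζ
          (H12WQ.wq2KHom K₁ M q hq hqM (algebraMap ↥K₁ _ c)) =
        tw ζ (H3V3.iota3 (M * q * q) q h13 hq hM2 hM3 ζ⁻¹ hζi (algebraMap ↥K₁ _ c))
      rw [H12WQ.wq2KHom_const, H3V3.iota3_const, H3V3.iota3_const]
      have h3 : algebraMap ↥K₃ (LaurentSeries ↥K₃) (IntermediateField.inclusion h13 c) =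
          qExpand ↥K₃ q (algebraMap ↥K₃ (LaurentSeries ↥K₃)
            (IntermediateField.inclusion h13 c)) := by
        rw [algebraMap_laurentSeries_eq_single, qExpand_single, mul_zero]
      rw [h3, H3V3.tw_qExpand ζ q hζ.pow_eq_one]
    · intro d
      haveI : NeZero d.1 := ⟨Dv_ne_zero d⟩
      show H3V3.iota3 (M * q * q) q h13 hq hM2 hM3 ζ hζ
          (H12WQ.wq2KHom K₁ M q hq hqM (H3V3.JgenK ↥K₁ d)) =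
        tw ζ (H3V3.iota3 (M * q * q) q h13 hq hM2 hM3 ζ⁻¹ hζi (H3V3.JgenK ↥K₁ d))
      by_cases hd : q ∣ d.1
      · -- `d = d₁ q`, `J_d = β J_{d₁}`
        obtain ⟨d₁, hd₁⟩ := hd
        have hd₁0 : d₁ ≠ 0 := by
          rintro rfl
          rw [mul_zero] at hd₁
          exact Dv_ne_zero d hd₁
        haveI : NeZero d₁ := ⟨hd₁0⟩
        have hd₁N : d₁ ∣ M * q := by
          have h2 : d₁ * q ∣ M * q * q := by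
            rw [mul_comm d₁ q, ← hd₁]
            exact d.2
          exact Nat.dvd_of_mul_dvd_mul_right hq.pos h2
        haveI : NeZero (d₁ * q) := ⟨Nat.mul_ne_zero hd₁0 hq.ne_zero⟩
        have hJ : H3V3.JgenK ↥K₁ d =
            H3V3.betaM (M * q * q) q M K₁ (dvd_refl _)
              (H3V3.JgenK ↥K₁ (⟨d₁, hd₁N⟩ : Dv (M * q))) := by
          apply Subtype.ext
          rw [H3V3.coe_betaM]
          have h1 := H3V3.coeffEmb_qExpand_mul q ↥K₁ d₁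
          show coeffEmb ↥K₁ (qExpand ℚ d.1 jq) = qExpand ↥K₁ q (coeffEmb ↥K₁ (qExpand ℚ d₁ jq))
          rw [h1]
          congr 1
          exact qExpand_congr (by rw [hd₁, mul_comm]) _
        rw [hJ]
        exact iota3_wq2_beta M q h13 hq hqM hM2 hM3 ζ hζ hζi _
      · -- `q ∤ d`: `d ∣ M`, `J_d` of level `M q`
        have hdM : d.1 ∣ M * q := by
          have hcop : Nat.Coprime d.1 q := (Nat.Coprime.symm ((Nat.Prime.coprime_iff_not_dvd hq).2 hd))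
          have h1 : d.1 ∣ M * q * q := d.2
          exact hcop.dvd_of_dvd_mul_right h1
        exact iota3_wq2_alpha M q h13 hq hqM hM2 hM3 ζ ζ⁻¹ hζ hζi (H3V3.JgenK ↥K₁ d)
          (H3V3.JgenK ↥K₁ (⟨d.1, hdM⟩ : Dv (M * q))) rfl
  exact congrArg (fun h : FK ↥K₁ (M * q * q) →+* LaurentSeries ↥K₃ => h x) hfg

end W

section U2

variable {K₁ K₃ : IntermediateField ℚ Kbar} (R₁ : ValuationSubring ↥K₁)
  (R₃ : ValuationSubring ↥K₃) [IsDiscreteValuationRing R₁] [IsDiscreteValuationRing R₃]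
variable (M q : ℕ) [NeZero M] [NeZero q] [NeZero (M * q * q)]

/-- `W x ∈ V₃^{ζ} ↔ x ∈ V₃^{ζ⁻¹}` -/
theorem mem_V3_wq2 (h13 : K₁ ≤ K₃) (hq : q.Prime) (hqM : ¬ q ∣ M)
    (hM2 : q ^ 2 ∣ M * q * q) (hM3 : ¬ q ^ 3 ∣ M * q * q)
    (ζ : (↥K₃)ˣ) (hζ : IsPrimitiveRoot ζ q) (hζi : IsPrimitiveRoot ζ⁻¹ q)
    (x : FK ↥K₁ (M * q * q)) :
    H12WQ.wq2KHom K₁ M q hq hqM x ∈ H3V3.V3 R₃ (M * q * q) q h13 hq hM2 hM3 ζ hζ ↔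
      x ∈ H3V3.V3 R₃ (M * q * q) q h13 hq hM2 hM3 ζ⁻¹ hζi := by
  rw [H3V3.mem_V3, H3V3.mem_V3, iota3_wq2 M q h13 hq hqM hM2 hM3 ζ hζ hζi,
    H3V3.inG_tw_iff _ ζ hq.pos hζ.pow_eq_one]

/-- `V₃^{ζ}(W x) < 1 ↔ V₃^{ζ⁻¹}(x) < 1` -/
theorem val_V3_wq2_lt (h13 : K₁ ≤ K₃) (hq : q.Prime) (hqM : ¬ q ∣ M)
    (hM2 : q ^ 2 ∣ M * q * q) (hM3 : ¬ q ^ 3 ∣ M * q * q)
    (ζ : (↥K₃)ˣ) (hζ : IsPrimitiveRoot ζ q) (hζi : IsPrimitiveRoot ζ⁻¹ q)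
    (x : FK ↥K₁ (M * q * q)) :
    (H3V3.V3 R₃ (M * q * q) q h13 hq hM2 hM3 ζ hζ).valuation
        (H12WQ.wq2KHom K₁ M q hq hqM x) < 1 ↔
      (H3V3.V3 R₃ (M * q * q) q h13 hq hM2 hM3 ζ⁻¹ hζi).valuation x < 1 := by
  rw [H3V3.valuation_V3_lt_one, H3V3.valuation_V3_lt_one,
    iota3_wq2 M q h13 hq hqM hM2 hM3 ζ hζ hζi, H3V3.inGm_tw_iff _ ζ hq.pos hζ.pow_eq_one]

/-- **(U2)**: the third valuation ring is stable under `W_{q²}`. -/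
theorem V3_comap_wq2 (h13 : K₁ ≤ K₃)
    (hR : ∀ c : ↥K₁, c ∈ R₁ ↔ IntermediateField.inclusion h13 c ∈ R₃)
    (hq : q.Prime) [Fact q.Prime] [CharP (IsLocalRing.ResidueField R₁) q]
    (hunr : Irreducible ((q : ℕ) : R₁)) (hqM : ¬ q ∣ M)
    (B : GVBasis R₁ (IsLocalRing.residue R₁) M)
    (hM2 : q ^ 2 ∣ M * q * q) (hM3 : ¬ q ^ 3 ∣ M * q * q)
    (ζ : (↥K₃)ˣ) (hζ : IsPrimitiveRoot ζ q) :
    (H3V3.V3 R₃ (M * q * q) q h13 hq hM2 hM3 ζ hζ).comap (H12WQ.wq2KHom K₁ M q hq hqM) =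
      H3V3.V3 R₃ (M * q * q) q h13 hq hM2 hM3 ζ hζ := by
  have hζi : IsPrimitiveRoot ζ⁻¹ q := hζ.inv
  ext x
  rw [ValuationSubring.mem_comap, mem_V3_wq2 R₃ M q h13 hq hqM hM2 hM3 ζ hζ hζi,
    V3_indep_level R₁ R₃ (M * q * q) q M h13 hR hq hunr hqM B rfl hM2 hM3 ζ⁻¹ ζ hζi hζ]

/-- **(U2)**, membership form: `W x ∈ V₃ ↔ x ∈ V₃`. -/
theorem wq2_mem_V3_iff (h13 : K₁ ≤ K₃)
    (hR : ∀ c : ↥K₁, c ∈ R₁ ↔ IntermediateField.inclusion h13 c ∈ R₃)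
    (hq : q.Prime) [Fact q.Prime] [CharP (IsLocalRing.ResidueField R₁) q]
    (hunr : Irreducible ((q : ℕ) : R₁)) (hqM : ¬ q ∣ M)
    (B : GVBasis R₁ (IsLocalRing.residue R₁) M)
    (hM2 : q ^ 2 ∣ M * q * q) (hM3 : ¬ q ^ 3 ∣ M * q * q)
    (ζ : (↥K₃)ˣ) (hζ : IsPrimitiveRoot ζ q) (x : FK ↥K₁ (M * q * q)) :
    H12WQ.wq2KHom K₁ M q hq hqM x ∈ H3V3.V3 R₃ (M * q * q) q h13 hq hM2 hM3 ζ hζ ↔
      x ∈ H3V3.V3 R₃ (M * q * q) q h13 hq hM2 hM3 ζ hζ := by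
  have hζi : IsPrimitiveRoot ζ⁻¹ q := hζ.inv
  rw [mem_V3_wq2 R₃ M q h13 hq hqM hM2 hM3 ζ hζ hζi,
    V3_indep_level R₁ R₃ (M * q * q) q M h13 hR hq hunr hqM B rfl hM2 hM3 ζ⁻¹ ζ hζi hζ]

/-- **(U2)**, maximal ideal form: `V₃(W x) < 1 ↔ V₃(x) < 1`. -/
theorem wq2_val_V3_lt_iff (h13 : K₁ ≤ K₃)
    (hR : ∀ c : ↥K₁, c ∈ R₁ ↔ IntermediateField.inclusion h13 c ∈ R₃)
    (hq : q.Prime) [Fact q.Prime] [CharP (IsLocalRing.ResidueField R₁) q]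
    (hunr : Irreducible ((q : ℕ) : R₁)) (hqM : ¬ q ∣ M)
    (B : GVBasis R₁ (IsLocalRing.residue R₁) M)
    (hM2 : q ^ 2 ∣ M * q * q) (hM3 : ¬ q ^ 3 ∣ M * q * q)
    (ζ : (↥K₃)ˣ) (hζ : IsPrimitiveRoot ζ q) (x : FK ↥K₁ (M * q * q)) :
    (H3V3.V3 R₃ (M * q * q) q h13 hq hM2 hM3 ζ hζ).valuation
        (H12WQ.wq2KHom K₁ M q hq hqM x) < 1 ↔
      (H3V3.V3 R₃ (M * q * q) q h13 hq hM2 hM3 ζ hζ).valuation x < 1 := by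
  have hζi : IsPrimitiveRoot ζ⁻¹ q := hζ.inv
  rw [val_V3_wq2_lt R₃ M q h13 hq hqM hM2 hM3 ζ hζ hζi,
    V3_indep_level R₁ R₃ (M * q * q) q M h13 hR hq hunr hqM B rfl hM2 hM3 ζ⁻¹ ζ hζi hζ]

end U2

end H24V3

end
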