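import Mathlib
import Fermat.Agent.S36.TripleDefs_helper4
import Fermat.Agent.S36.TGV3W_helper24

/-!
# Item 86 (S36): the `Triple` field `hβ₃` and (V3-UNIQ) for the CONCRETE objects (helper24)

Objects of `S36/TripleDefs_helper4.lean` (`cV1, cV2, cV3, cV1', cV2', cb3`), `φβ = heckeBetaBar`.

* `triple_hβ₃`      : `cV2'.valuation x < 1 ↔ cV3.valuation (φβ x) < 1`     (field `hβ₃`);
* `triple_hβ₃_mem`  : `x ∈ cV2' ↔ φβ x ∈ cV3`;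
* `cV3_indep`       : **(U1)** `cV3 … ζ hζ = cV3 … ζ' hζ'`;
* `cV3_comap_wq2`   : **(U2)** `(cV3 …).comap W_{q²} = cV3 …`, `cV3_wq2_mem_iff`, `cV3_wq2_lt_iff`.
-/

set_option autoImplicit false
set_option linter.unusedSectionVars false
set_option linter.style.longLine false
set_option linter.unusedVariables false
set_option linter.style.haveILetI false
set_option synthInstance.maxHeartbeats 400000

open ModularCurve RH24 H28S28 HahnSeries H28GV H8PB H3TAU H7S18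

noncomputable section

namespace H24V3

variable (K₁ : IntermediateField ℚ Kbar) (R₁ : ValuationSubring ↥K₁)
  [IsDiscreteValuationRing R₁]
variable (M q : ℕ) [NeZero M] [NeZero q] (hq : q.Prime) (hqM : ¬ q ∣ M)
variable (K₃ : IntermediateField ℚ Kbar) (R₃ : ValuationSubring ↥K₃) [IsDiscreteValuationRing R₃]
  (h13 : K₁ ≤ K₃) (hR : ∀ c : ↥K₁, c ∈ R₁ ↔ IntermediateField.inclusion h13 c ∈ R₃)

theorem heckeBetaBar_eq_betaM (x : FK ↥K₁ (M * q)) :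
    (heckeBetaBar ↥K₁ (M * q) q).toRingHom x =
      H3V3.betaM (M * q * q) q M K₁ (dvd_refl _) x := by
  apply Subtype.ext
  rw [H3V3.coe_betaM]
  rfl

include hR in
/-- **the `Triple` field `hβ₃`**: `V₃` lies over `V₂'` via `β`. -/
theorem triple_hβ₃ (ζ : (↥K₃)ˣ) (hζ : IsPrimitiveRoot ζ q) (x : FK ↥K₁ (M * q)) :
    (H4S36.cV2' K₁ R₁ M q hq hqM).valuation x < 1 ↔
      (H4S36.cV3 K₁ M q hq hqM K₃ R₃ h13 ζ hζ).valuation
        ((heckeBetaBar ↥K₁ (M * q) q).toRingHom x) < 1 := by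
  unfold H4S36.cV2' H4S36.cV3
  rw [H10FC.gaussVal2_lt_one, heckeBetaBar_eq_betaM]
  exact ((H3V3.V3_betaM (M * q * q) q M R₁ R₃ h13 hR hq hqM (H4S36.sq_dvd_level M q)
    (H4S36.cube_not_dvd_level M q hq hqM) (dvd_refl _) ζ hζ x).2).symm

include hR in
/-- membership form of `hβ₃` -/
theorem triple_hβ₃_mem (ζ : (↥K₃)ˣ) (hζ : IsPrimitiveRoot ζ q) (x : FK ↥K₁ (M * q)) :
    x ∈ H4S36.cV2' K₁ R₁ M q hq hqM ↔
      (heckeBetaBar ↥K₁ (M * q) q).toRingHom x ∈ H4S36.cV3 K₁ M q hq hqM K₃ R₃ h13 ζ hζ := by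
  unfold H4S36.cV2' H4S36.cV3
  rw [H10FC.mem_gaussVal2, heckeBetaBar_eq_betaM]
  exact ((H3V3.V3_betaM (M * q * q) q M R₁ R₃ h13 hR hq hqM (H4S36.sq_dvd_level M q)
    (H4S36.cube_not_dvd_level M q hq hqM) (dvd_refl _) ζ hζ x).1).symm

variable [Fact q.Prime] [CharP (IsLocalRing.ResidueField R₁) q]
  (hunr : Irreducible ((q : ℕ) : R₁)) (B : GVBasis R₁ (IsLocalRing.residue R₁) M)

include hR hunr B in
/-- **(U1)** for the concrete `cV3`. -/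
theorem cV3_indep (ζ ζ' : (↥K₃)ˣ) (hζ : IsPrimitiveRoot ζ q) (hζ' : IsPrimitiveRoot ζ' q) :
    H4S36.cV3 K₁ M q hq hqM K₃ R₃ h13 ζ hζ = H4S36.cV3 K₁ M q hq hqM K₃ R₃ h13 ζ' hζ' := by
  haveI : NeZero (M * q * q) := inferInstance
  exact V3_indep_level R₁ R₃ (M * q * q) q M h13 hR hq hunr hqM B rfl _ _ ζ ζ' hζ hζ'

include hR hunr B in
/-- **(U2)** for the concrete `cV3`. -/
theorem cV3_comap_wq2 (ζ : (↥K₃)ˣ) (hζ : IsPrimitiveRoot ζ q) :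
    (H4S36.cV3 K₁ M q hq hqM K₃ R₃ h13 ζ hζ).comap (H12WQ.wq2KHom K₁ M q hq hqM) =
      H4S36.cV3 K₁ M q hq hqM K₃ R₃ h13 ζ hζ :=
  V3_comap_wq2 R₁ R₃ M q h13 hR hq hunr hqM B _ _ ζ hζ

include hR hunr B in
theorem cV3_wq2_mem_iff (ζ : (↥K₃)ˣ) (hζ : IsPrimitiveRoot ζ q) (x : FK ↥K₁ (M * q * q)) :
    H12WQ.wq2KHom K₁ M q hq hqM x ∈ H4S36.cV3 K₁ M q hq hqM K₃ R₃ h13 ζ hζ ↔
      x ∈ H4S36.cV3 K₁ M q hq hqM K₃ R₃ h13 ζ hζ :=
  wq2_mem_V3_iff R₁ R₃ M q h13 hR hq hunr hqM B _ _ ζ hζ x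

include hR hunr B in
theorem cV3_wq2_lt_iff (ζ : (↥K₃)ˣ) (hζ : IsPrimitiveRoot ζ q) (x : FK ↥K₁ (M * q * q)) :
    (H4S36.cV3 K₁ M q hq hqM K₃ R₃ h13 ζ hζ).valuation (H12WQ.wq2KHom K₁ M q hq hqM x) < 1 ↔
      (H4S36.cV3 K₁ M q hq hqM K₃ R₃ h13 ζ hζ).valuation x < 1 :=
  wq2_val_V3_lt_iff R₁ R₃ M q h13 hR hq hunr hqM B _ _ ζ hζ x

end H24V3

end
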