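import Mathlib
import Fermat.Agent.S18.C6eConst_helper9
import Fermat.Agent.S34.DichComp_helper22
import Fermat.Agent.S36.Tor3Core_helper17
import Fermat.Agent.S35.FWSigVS_helper3

/-!
# Item 86 (S36, Carayol): the field `calg` of `H4S36.Triple` in Gauss form  (helper11)

"The residue field of `R` is algebraically closed in the residue field of the Gauss valuation":
a constant `c ∈ Rˣ` which is congruent to an `n`-th power `gⁿ` modulo the maximal ideal of the
Gauss ring is `dⁿ (1 + ϖ r)` with `d ∈ Rˣ`.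

* `H11CA.const_of_pow` : `xⁿ = C a` in `k((𝐪))`, `0 < n` ⟹ `x = C e`, `eⁿ = a`
  (`H9C6e.laurent_const`);
* `H11CA.calg_gauss` : `c : R`, `InG R g`, `InGm R (C c - gⁿ)` ⟹ `∃ d : R, res dⁿ = res c`;
* `H11CA.calg_dvr` : the same with the conclusion `c = dⁿ (1 + ϖ r)`, `d ∈ Rˣ` (`c ∈ Rˣ`,
  `ϖ` a uniformiser of the DVR `R`);
* `H11CA.calg_field` : the field `calg` for ANY valuation subring `V` of a field `F'` with an
  embedding `ι : F' →+* K((𝐪))` such that `V ⊆ ι⁻¹ (Gauss ring)`, `𝔪_V ⊆ ι⁻¹ (InGm)` and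
  `ι (algebraMap R F' r) = C r`;
* `H11CA.calg_gaussVS` : the field `calg` for `V₁' = H3SIG.gaussVS R N` (any level `N`), in the
  exact form of `H4S36.Triple.calg`.
-/

set_option autoImplicit false
set_option linter.unusedSectionVars false
set_option linter.unusedVariables false
set_option linter.style.haveILetI false

noncomputable section

open ModularCurve H28GV HahnSeries

namespace H11CA

/-- an `n`-th root in `k((𝐪))` of a constant is a constant -/
theorem const_of_pow {k : Type*} [Field k] (n : ℕ) (hn : 0 < n) (x : LaurentSeries k) (a : k)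
    (h : x ^ n = HahnSeries.C a) : ∃ e : k, x = HahnSeries.C e ∧ e ^ n = a := by
  have halg : IsAlgebraic k x := by
    refine ⟨Polynomial.X ^ n - Polynomial.C a, ?_, ?_⟩
    · exact Polynomial.X_pow_sub_C_ne_zero hn a
    · rw [map_sub, map_pow, Polynomial.aeval_X, Polynomial.aeval_C, h,
        algebraMap_laurentSeries_eq_single]
      exact sub_self _
  obtain ⟨e, he⟩ := H9C6e.laurent_const halg
  rw [algebraMap_laurentSeries_eq_single] at he
  refine ⟨e, he.symm, ?_⟩
  have h1 : (HahnSeries.C (e ^ n) : LaurentSeries k) = HahnSeries.C a := by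
    rw [map_pow, ← h, ← he]
    rfl
  exact HahnSeries.C_injective h1

section Gauss

variable {K : Type} [Field K] (R : ValuationSubring K)

/-- **(calg), Gauss form** -/
theorem calg_gauss (n : ℕ) (hn : 0 < n) (c : R) (g : LaurentSeries K) (hg : H8PB.InG R g)
    (h : H8PB.InGm R (HahnSeries.C (c : K) - g ^ n)) :
    ∃ d : R, IsLocalRing.residue R d ^ n = IsLocalRing.residue R c := by
  have hg' : g ∈ gvO R (H22DC.resR R) := (H22DC.inG_iff R g).1 hg
  obtain ⟨hmem, hred⟩ := (H22DC.inGm_iff R _).1 h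
  have hC : HahnSeries.C (c : K) ∈ gvO R (H22DC.resR R) := gv_C_mem R _ c
  have e1 : (⟨HahnSeries.C (c : K) - g ^ n, hmem⟩ : gvO R (H22DC.resR R)) =
      ⟨HahnSeries.C (c : K), hC⟩ - (⟨g, hg'⟩ : gvO R (H22DC.resR R)) ^ n := by
    apply Subtype.ext
    rfl
  rw [e1, map_sub, map_pow, gvRed_C, sub_eq_zero] at hred
  obtain ⟨e, -, he⟩ := const_of_pow n hn _ _ hred.symm
  obtain ⟨d, hd⟩ := IsLocalRing.residue_surjective (R := R) e
  exact ⟨d, by rw [hd]; exact he⟩

/-- **(calg), DVR form**: `c = dⁿ (1 + ϖ r)` -/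
theorem calg_dvr [IsDiscreteValuationRing R] (ϖ : R) (hϖ : Irreducible ϖ)
    (n : ℕ) (hn : 0 < n) (c : R) (hc : IsUnit c) (g : LaurentSeries K) (hg : H8PB.InG R g)
    (h : H8PB.InGm R (HahnSeries.C (c : K) - g ^ n)) :
    ∃ d r : R, IsUnit d ∧ c = d ^ n * (1 + ϖ * r) := by
  obtain ⟨d, hd⟩ := calg_gauss R n hn c g hg h
  have hdu : IsUnit d := by
    by_contra hnu
    have h0 : IsLocalRing.residue R d = 0 := by
      rw [IsLocalRing.residue_eq_zero_iff, IsLocalRing.mem_maximalIdeal, mem_nonunits_iff]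
      exact hnu
    rw [h0, zero_pow hn.ne'] at hd
    have hc0 : c ∈ IsLocalRing.maximalIdeal R :=
      (IsLocalRing.residue_eq_zero_iff c).1 hd.symm
    rw [IsLocalRing.mem_maximalIdeal, mem_nonunits_iff] at hc0
    exact hc0 hc
  have hdn : IsUnit (d ^ n) := hdu.pow n
  obtain ⟨u, hu⟩ := hdn
  have h1 : c - d ^ n ∈ IsLocalRing.maximalIdeal R := by
    rw [← IsLocalRing.residue_eq_zero_iff, map_sub, map_pow, hd, sub_self]
  rw [hϖ.maximalIdeal_eq, Ideal.mem_span_singleton] at h1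
  obtain ⟨s, hs⟩ := h1
  refine ⟨d, s * ((u⁻¹ : Rˣ) : R), hdu, ?_⟩
  have h2 : d ^ n * ((u⁻¹ : Rˣ) : R) = 1 := by rw [← hu]; exact u.mul_inv
  have h3 : c = d ^ n + ϖ * s := by rw [← hs]; ring
  rw [h3]
  calc d ^ n + ϖ * s = d ^ n + ϖ * s * (d ^ n * ((u⁻¹ : Rˣ) : R)) := by rw [h2, mul_one]
    _ = d ^ n * (1 + ϖ * (s * ((u⁻¹ : Rˣ) : R))) := by ring

/-- **the field `calg` of `H4S36.Triple`** for a valuation subring `V` of a field `F'` embedded
in `K((𝐪))` by `ι`, with `V ⊆ ι⁻¹ (InG)`, `𝔪_V ⊆ ι⁻¹ (InGm)`, `ι (algebraMap r) = C r`. -/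
theorem calg_field [IsDiscreteValuationRing R] (ϖ : R) (hϖ : Irreducible ϖ)
    {F' : Type} [Field F'] [Algebra R F'] (ι : F' →+* LaurentSeries K)
    (hι : ∀ r : R, ι (algebraMap R F' r) = HahnSeries.C (r : K))
    (V : ValuationSubring F') (hV : ∀ x : F', x ∈ V → H8PB.InG R (ι x))
    (hVm : ∀ x : F', V.valuation x < 1 → H8PB.InGm R (ι x))
    (n : ℕ) (hn : 0 < n) :
    ∀ c : R, IsUnit c → ∀ g : F', V.valuation g = 1 →
      H17T3.Cg V (algebraMap R F' c) (g ^ n) → ∃ d r : R, IsUnit d ∧ c = d ^ n * (1 + ϖ * r) := by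
  intro c hc g hg hcg
  have hgV : g ∈ V := (V.valuation_le_one_iff g).1 hg.le
  have h1 := hVm _ hcg
  rw [map_sub, map_pow, hι] at h1
  exact calg_dvr R ϖ hϖ n hn c hc (ι g) (hV g hgV) h1

/-- **the field `calg` of `H4S36.Triple` for the Gauss valuation subring** `H3SIG.gaussVS R N`
of `FK K N`. -/
theorem calg_gaussVS [IsDiscreteValuationRing R] [Algebra ℚ K] (N : ℕ) [NeZero N]
    [Algebra R (H7S18.FK K N)] [IsScalarTower R K (H7S18.FK K N)]
    (ϖ : R) (hϖ : Irreducible ϖ) (n : ℕ) (hn : 0 < n) :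
    ∀ c : R, IsUnit c → ∀ g : H7S18.FK K N, (H3SIG.gaussVS R N).valuation g = 1 →
      H17T3.Cg (H3SIG.gaussVS R N) (algebraMap R (H7S18.FK K N) c) (g ^ n) →
      ∃ d r : R, IsUnit d ∧ c = d ^ n * (1 + ϖ * r) := by
  refine calg_field R ϖ hϖ
    ((laurentBaseChange K (modularFunctionFieldFull N)).val.toRingHom) ?_
    (H3SIG.gaussVS R N) ?_ ?_ n hn
  · intro r
    rw [IsScalarTower.algebraMap_apply R K (H7S18.FK K N)]
    show ((algebraMap K (H7S18.FK K N) (algebraMap R K r) : H7S18.FK K N) : LaurentSeries K) = _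
    have : ((algebraMap K (H7S18.FK K N) (algebraMap R K r) : H7S18.FK K N) :
        LaurentSeries K) = algebraMap K (LaurentSeries K) (algebraMap R K r) := rfl
    rw [this, algebraMap_laurentSeries_eq_single]
    rfl
  · intro x hx
    exact (H3SIG.mem_gaussVS R N x).1 hx
  · intro x hx
    exact (H3SIG.valuation_gaussVS_lt_one_iff R N x).1 hx

end Gauss

end H11CA

end
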