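import Mathlib
import Fermat.Agent.S36.TripleDefs_helper4
import Fermat.Agent.S36.TGResV1_helper24
import Fermat.Agent.S36.CAlg_helper11

/-!
# Item 86 (S36, Carayol), slice (TRIPLE-ASM), part 1 (helper11): the elementary fields of the
concrete `H4S36.Triple`

Objects of `S36/TripleDefs_helper4.lean`: `cV1 cV2 cV3 cV1' cV2' cb3` for `R₁ ⊆ K₁` (DVR),
`R₃ ⊆ K₃ ⊇ K₁` (DVR, `R₃ ∩ K₁ = R₁`), level `M q q`.

* identifications with the other incarnations (`H3SIG.gaussVS`, `gaussVSw`);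
* `fld_hR₁ … fld_hR₂'` : `R ⊆ V`;
* `fld_hϖ₁ … fld_hϖ₂'` : `ϖ ∈ 𝔪(V)` for a uniformizer `ϖ` of `R₁`;
* `fld_hφα`, `fld_hφβ` : `φα`, `φβ` are `K₁`-linear;
* `fld_calg` : the field `calg` at `cV1'`.
-/

set_option autoImplicit false
set_option linter.unusedSectionVars false
set_option linter.unusedVariables false
set_option linter.style.haveILetI false
set_option linter.style.longLine false
set_option synthInstance.maxHeartbeats 400000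

noncomputable section

open IntermediateField AlgebraicCurve ModularCurve H7S18 RH24 HahnSeries H8PB

namespace H11TA

variable (K₁ : IntermediateField ℚ Kbar) (R₁ : ValuationSubring ↥K₁)
  [IsDiscreteValuationRing R₁]
variable (M q : ℕ) [NeZero M] [NeZero q] (hq : q.Prime) (hqM : ¬ q ∣ M)

/-! ### identifications -/

theorem cV1_eq : H4S36.cV1 K₁ R₁ M q = H3SIG.gaussVS R₁ (M * q * q) := by
  ext x
  exact Iff.rfl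

theorem cV2_eq : H4S36.cV2 K₁ R₁ M q hq hqM =
    H3SIG.gaussVSw R₁ (M * q * q) (H12WQ.wq2KHom K₁ M q hq hqM) := by
  ext x
  exact Iff.rfl

theorem cV1'_eq : H4S36.cV1' K₁ R₁ M q = H3SIG.gaussVS R₁ (M * q) := by
  ext x
  exact Iff.rfl

theorem cV2'_eq : H4S36.cV2' K₁ R₁ M q hq hqM =
    H3SIG.gaussVSw R₁ (M * q) (H12AL.wqKHom K₁ M q hq hqM) := by
  ext x
  exact Iff.rfl

theorem mem_cV1 (x : FK ↥K₁ (M * q * q)) :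
    x ∈ H4S36.cV1 K₁ R₁ M q ↔ InG R₁ (x : LaurentSeries ↥K₁) := Iff.rfl

theorem mem_cV2 (x : FK ↥K₁ (M * q * q)) :
    x ∈ H4S36.cV2 K₁ R₁ M q hq hqM ↔
      InG R₁ ((H12WQ.wq2KHom K₁ M q hq hqM x : FK ↥K₁ (M * q * q)) : LaurentSeries ↥K₁) :=
  Iff.rfl

theorem mem_cV1' (x : FK ↥K₁ (M * q)) :
    x ∈ H4S36.cV1' K₁ R₁ M q ↔ InG R₁ (x : LaurentSeries ↥K₁) := Iff.rfl

theorem mem_cV2' (x : FK ↥K₁ (M * q)) :
    x ∈ H4S36.cV2' K₁ R₁ M q hq hqM ↔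
      InG R₁ ((H12AL.wqKHom K₁ M q hq hqM x : FK ↥K₁ (M * q)) : LaurentSeries ↥K₁) :=
  Iff.rfl

theorem cV1_lt_one (x : FK ↥K₁ (M * q * q)) :
    (H4S36.cV1 K₁ R₁ M q).valuation x < 1 ↔ InGm R₁ (x : LaurentSeries ↥K₁) :=
  H10FC.gaussVal_lt_one R₁ (M * q * q) x

theorem cV2_lt_one (x : FK ↥K₁ (M * q * q)) :
    (H4S36.cV2 K₁ R₁ M q hq hqM).valuation x < 1 ↔
      InGm R₁ ((H12WQ.wq2KHom K₁ M q hq hqM x : FK ↥K₁ (M * q * q)) : LaurentSeries ↥K₁) := by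
  unfold H4S36.cV2
  rw [H10FC.comap_val_lt_one, H10FC.gaussVal_lt_one]

theorem cV1'_lt_one (x : FK ↥K₁ (M * q)) :
    (H4S36.cV1' K₁ R₁ M q).valuation x < 1 ↔ InGm R₁ (x : LaurentSeries ↥K₁) :=
  H10FC.gaussVal_lt_one R₁ (M * q) x

theorem cV2'_lt_one (x : FK ↥K₁ (M * q)) :
    (H4S36.cV2' K₁ R₁ M q hq hqM).valuation x < 1 ↔
      InGm R₁ ((H12AL.wqKHom K₁ M q hq hqM x : FK ↥K₁ (M * q)) : LaurentSeries ↥K₁) :=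
  H10FC.gaussVal2_lt_one M q hq hqM K₁ R₁ x

/-! ### constants -/

section Consts

variable (N : ℕ) [NeZero N] [Algebra ↥R₁ (FK ↥K₁ N)] [IsScalarTower ↥R₁ ↥K₁ (FK ↥K₁ N)]

theorem algebraMap_eq (r : R₁) :
    algebraMap ↥R₁ (FK ↥K₁ N) r = algebraMap ↥K₁ (FK ↥K₁ N) ((r : R₁) : ↥K₁) := by
  rw [IsScalarTower.algebraMap_apply ↥R₁ ↥K₁ (FK ↥K₁ N)]
  rfl

theorem coe_algebraMap (r : R₁) :
    ((algebraMap ↥R₁ (FK ↥K₁ N) r : FK ↥K₁ N) : LaurentSeries ↥K₁) =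
      HahnSeries.C ((r : R₁) : ↥K₁) := by
  rw [algebraMap_eq]
  show algebraMap ↥K₁ (LaurentSeries ↥K₁) _ = _
  rw [algebraMap_laurentSeries_eq_single]
  rfl

theorem inG_algebraMap (r : R₁) :
    InG R₁ ((algebraMap ↥R₁ (FK ↥K₁ N) r : FK ↥K₁ N) : LaurentSeries ↥K₁) := by
  rw [coe_algebraMap]
  exact H3SIG.inG_C (R := R₁) r

theorem inGm_algebraMap {ϖ : R₁} (hϖ : Irreducible ϖ) :
    InGm R₁ ((algebraMap ↥R₁ (FK ↥K₁ N) ϖ : FK ↥K₁ N) : LaurentSeries ↥K₁) := by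
  have h := H24TG.unifF_lt_one ↥K₁ R₁ N hϖ
  rw [H10FC.gaussVal_lt_one, H24TG.coe_unifF] at h
  rw [coe_algebraMap]
  exact h

end Consts

variable [Algebra ↥R₁ (FK ↥K₁ (M * q * q))] [IsScalarTower ↥R₁ ↥K₁ (FK ↥K₁ (M * q * q))]
  [Algebra ↥R₁ (FK ↥K₁ (M * q))] [IsScalarTower ↥R₁ ↥K₁ (FK ↥K₁ (M * q))]

/-! ### `R ⊆ V` -/

theorem fld_hR₁ (r : R₁) : algebraMap ↥R₁ (FK ↥K₁ (M * q * q)) r ∈ H4S36.cV1 K₁ R₁ M q :=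
  inG_algebraMap K₁ R₁ (M * q * q) r

theorem fld_hR₂ (r : R₁) :
    algebraMap ↥R₁ (FK ↥K₁ (M * q * q)) r ∈ H4S36.cV2 K₁ R₁ M q hq hqM := by
  rw [mem_cV2, algebraMap_eq, H12WQ.wq2KHom_const, ← algebraMap_eq]
  exact inG_algebraMap K₁ R₁ (M * q * q) r

theorem fld_hR₁' (r : R₁) : algebraMap ↥R₁ (FK ↥K₁ (M * q)) r ∈ H4S36.cV1' K₁ R₁ M q :=
  inG_algebraMap K₁ R₁ (M * q) r

theorem fld_hR₂' (r : R₁) :
    algebraMap ↥R₁ (FK ↥K₁ (M * q)) r ∈ H4S36.cV2' K₁ R₁ M q hq hqM := by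
  rw [mem_cV2', algebraMap_eq, H12AL.wqKHom_const, ← algebraMap_eq]
  exact inG_algebraMap K₁ R₁ (M * q) r

section V3

variable (K₃ : IntermediateField ℚ Kbar) (R₃ : ValuationSubring ↥K₃)
  [IsDiscreteValuationRing R₃] (h13 : K₁ ≤ K₃)
  (hR : ∀ c : ↥K₁, c ∈ R₁ ↔ IntermediateField.inclusion h13 c ∈ R₃)
  (ζ : (↥K₃)ˣ) (hζ : IsPrimitiveRoot ζ q)

theorem mem_cV3 (x : FK ↥K₁ (M * q * q)) :
    x ∈ H4S36.cV3 K₁ M q hq hqM K₃ R₃ h13 ζ hζ ↔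
      InG R₃ (H3V3.iota3 (M * q * q) q h13 hq (H4S36.sq_dvd_level M q)
        (H4S36.cube_not_dvd_level M q hq hqM) ζ hζ x) := Iff.rfl

theorem cV3_lt_one (x : FK ↥K₁ (M * q * q)) :
    (H4S36.cV3 K₁ M q hq hqM K₃ R₃ h13 ζ hζ).valuation x < 1 ↔
      InGm R₃ (H3V3.iota3 (M * q * q) q h13 hq (H4S36.sq_dvd_level M q)
        (H4S36.cube_not_dvd_level M q hq hqM) ζ hζ x) :=
  H3V3.valuation_V3_lt_one R₃ (M * q * q) q h13 hq _ _ ζ hζ x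

include hR in
theorem fld_hR₃ (r : R₁) :
    algebraMap ↥R₁ (FK ↥K₁ (M * q * q)) r ∈ H4S36.cV3 K₁ M q hq hqM K₃ R₃ h13 ζ hζ := by
  rw [mem_cV3, algebraMap_eq, H3V3.iota3_const, algebraMap_laurentSeries_eq_single]
  exact H3SIG.inG_C (R := R₃) ⟨IntermediateField.inclusion h13 (r : ↥K₁), (hR _).1 r.2⟩

end V3

/-! ### `ϖ ∈ 𝔪(V)` -/

theorem fld_hϖ₁ {ϖ : R₁} (hϖ : Irreducible ϖ) :
    (H4S36.cV1 K₁ R₁ M q).valuation (algebraMap ↥R₁ (FK ↥K₁ (M * q * q)) ϖ) < 1 := by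
  rw [cV1_lt_one]
  exact inGm_algebraMap K₁ R₁ (M * q * q) hϖ

theorem fld_hϖ₂ {ϖ : R₁} (hϖ : Irreducible ϖ) :
    (H4S36.cV2 K₁ R₁ M q hq hqM).valuation (algebraMap ↥R₁ (FK ↥K₁ (M * q * q)) ϖ) < 1 := by
  rw [cV2_lt_one, algebraMap_eq, H12WQ.wq2KHom_const, ← algebraMap_eq]
  exact inGm_algebraMap K₁ R₁ (M * q * q) hϖ

theorem fld_hϖ₁' {ϖ : R₁} (hϖ : Irreducible ϖ) :
    (H4S36.cV1' K₁ R₁ M q).valuation (algebraMap ↥R₁ (FK ↥K₁ (M * q)) ϖ) < 1 := by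
  rw [cV1'_lt_one]
  exact inGm_algebraMap K₁ R₁ (M * q) hϖ

theorem fld_hϖ₂' {ϖ : R₁} (hϖ : Irreducible ϖ) :
    (H4S36.cV2' K₁ R₁ M q hq hqM).valuation (algebraMap ↥R₁ (FK ↥K₁ (M * q)) ϖ) < 1 := by
  rw [cV2'_lt_one, algebraMap_eq, H12AL.wqKHom_const, ← algebraMap_eq]
  exact inGm_algebraMap K₁ R₁ (M * q) hϖ

theorem algebraMap_ne_zero {ϖ : R₁} (hϖ : Irreducible ϖ) (N : ℕ) [NeZero N]
    [Algebra ↥R₁ (FK ↥K₁ N)] [IsScalarTower ↥R₁ ↥K₁ (FK ↥K₁ N)] :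
    algebraMap ↥R₁ (FK ↥K₁ N) ϖ ≠ 0 := by
  rw [algebraMap_eq]
  exact H24TG.unifF_ne_zero ↥K₁ R₁ N hϖ

/-! ### `φα`, `φβ` are `K₁`-linear -/

theorem fld_hφα (c : ↥K₁) :
    (heckeAlphaBar ↥K₁ (M * q) q).toRingHom (algebraMap ↥K₁ (FK ↥K₁ (M * q)) c) =
      algebraMap ↥K₁ (FK ↥K₁ (M * q * q)) c :=
  (heckeAlphaBar ↥K₁ (M * q) q).commutes c

theorem fld_hφβ (c : ↥K₁) :
    (heckeBetaBar ↥K₁ (M * q) q).toRingHom (algebraMap ↥K₁ (FK ↥K₁ (M * q)) c) =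
      algebraMap ↥K₁ (FK ↥K₁ (M * q * q)) c :=
  (heckeBetaBar ↥K₁ (M * q) q).commutes c

/-! ### `calg` -/

theorem fld_calg {ϖ : R₁} (hϖ : Irreducible ϖ) (n : ℕ) (hn : 0 < n) :
    ∀ c : R₁, IsUnit c → ∀ g : FK ↥K₁ (M * q), (H4S36.cV1' K₁ R₁ M q).valuation g = 1 →
      H17T3.Cg (H4S36.cV1' K₁ R₁ M q) (algebraMap ↥R₁ (FK ↥K₁ (M * q)) c) (g ^ n) →
      ∃ d r : R₁, IsUnit d ∧ c = d ^ n * (1 + ϖ * r) := by
  rw [cV1'_eq]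
  exact H11CA.calg_gaussVS R₁ (M * q) ϖ hϖ n hn

end H11TA

end
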