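/-
helper27: item 86 (S36): the fields `wa`, `wg` of the architect's `H4S36.Triple`
(S36/InjGenDefs_helper4.lean) from the discreteness fields `hd₁ hd₂ hd₃`, the uniformizers
`ϖ, ϖ, b₃` and `V₁ ≠ V₂`, `V₁ ≠ V₃`, `V₂ ≠ V₃` (weak approximation, `H27WA`).
-/
import Fermat.Agent.S36.InjGenDefs_helper4
import Fermat.Agent.S36.WeakApprox_helper27

set_option autoImplicit false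

namespace H27WA

open H4S36 H17T3

variable {F : Type} [Field F] {V₁ V₂ V₃ : ValuationSubring F} {π₁ π₂ π₃ : F}

theorem isUnif_of_ordAt {V : ValuationSubring F} {π : F} (h0 : π ≠ 0) (hlt : V.valuation π < 1)
    (hd : ∀ x : F, x ≠ 0 → ∃ k : ℤ, OrdAt V π x k) : IsUnif V π :=
  ⟨hlt, h0, hd⟩

/-- the field `wa` of `H4S36.Triple`. -/
theorem triple_wa (h0₁ : π₁ ≠ 0) (h0₂ : π₂ ≠ 0) (h0₃ : π₃ ≠ 0)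
    (hlt₁ : V₁.valuation π₁ < 1) (hlt₂ : V₂.valuation π₂ < 1) (hlt₃ : V₃.valuation π₃ < 1)
    (hd₁ : ∀ x : F, x ≠ 0 → ∃ k : ℤ, OrdAt V₁ π₁ x k)
    (hd₂ : ∀ x : F, x ≠ 0 → ∃ k : ℤ, OrdAt V₂ π₂ x k)
    (hd₃ : ∀ x : F, x ≠ 0 → ∃ k : ℤ, OrdAt V₃ π₃ x k)
    (h12 : V₁ ≠ V₂) (h13 : V₁ ≠ V₃) (h23 : V₂ ≠ V₃) (k₁ k₂ k₃ : ℤ) :
    ∃ g : F, g ≠ 0 ∧ OrdAt V₁ π₁ g k₁ ∧ OrdAt V₂ π₂ g k₂ ∧ OrdAt V₃ π₃ g k₃ :=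
  wa3 (isUnif_of_ordAt h0₁ hlt₁ hd₁) (isUnif_of_ordAt h0₂ hlt₂ hd₂)
    (isUnif_of_ordAt h0₃ hlt₃ hd₃) h12 h13 h23 k₁ k₂ k₃

/-- the field `wg` of `H4S36.Triple` (no unit hypothesis on the `ψ i` is needed). -/
theorem triple_wg (h0₁ : π₁ ≠ 0) (h0₂ : π₂ ≠ 0) (h0₃ : π₃ ≠ 0)
    (hlt₁ : V₁.valuation π₁ < 1) (hlt₂ : V₂.valuation π₂ < 1) (hlt₃ : V₃.valuation π₃ < 1)
    (hd₁ : ∀ x : F, x ≠ 0 → ∃ k : ℤ, OrdAt V₁ π₁ x k)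
    (hd₂ : ∀ x : F, x ≠ 0 → ∃ k : ℤ, OrdAt V₂ π₂ x k)
    (hd₃ : ∀ x : F, x ≠ 0 → ∃ k : ℤ, OrdAt V₃ π₃ x k)
    (h12 : V₁ ≠ V₂) (h13 : V₁ ≠ V₃) (h23 : V₂ ≠ V₃) (ψ₁ ψ₂ ψ₃ : F) :
    ∃ Ψ : F, Cg V₁ Ψ ψ₁ ∧ Cg V₂ Ψ ψ₂ ∧ Cg V₃ Ψ ψ₃ :=
  wg3 (isUnif_of_ordAt h0₁ hlt₁ hd₁) (isUnif_of_ordAt h0₂ hlt₂ hd₂)
    (isUnif_of_ordAt h0₃ hlt₃ hd₃) h12 h13 h23 ψ₁ ψ₂ ψ₃

/-- distinctness from a separating element: `x ∈ 𝔪(V)`, `x ∉ 𝔪(W)`. -/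
theorem ne_of_val {V W : ValuationSubring F} (x : F) (h1 : V.valuation x < 1)
    (h2 : ¬ W.valuation x < 1) : V ≠ W := by
  rintro rfl
  exact h2 h1

end H27WA
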