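/-
helper27: item 86 (S36): the field `hJ` of the architect's `H4S36.Triple`
(`(𝔪₁ ∩ 𝔪₂ ∩ 𝔪₃)^q ⊆ ϖ O`) from `hO` (`O = V₁ ∩ V₂ ∩ V₃`), the uniformizers
`ϖ, ϖ, b₃`, discreteness and `ϖ = b₃^(q-1) · unit` at `V₃`.
-/
import Fermat.Agent.S36.TripleWA_helper27

set_option autoImplicit false

namespace H27WA

open H4S36 H17T3 H7S18

variable {F : Type} [Field F]

/-- `v x < 1`, `π` a uniformizer, `ϖ = π ^ e · unit`, `e ≤ q`, `ϖ ≠ 0`: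
then `v (x ^ q * ϖ⁻¹) ≤ 1`. -/
theorem val_pow_div_le {V : ValuationSubring F} {π ϖ x : F} (hU : IsUnif V π)
    (e q : ℕ) (heq : e ≤ q) (hϖ : V.valuation (ϖ * π ^ (-(e : ℤ))) = 1)
    (hx : V.valuation x < 1) : V.valuation (x ^ q * ϖ⁻¹) ≤ 1 := by
  have hπ0 := hU.val_ne_zero
  have hϖval : V.valuation ϖ = V.valuation π ^ e := by
    rw [map_mul, map_zpow₀, zpow_neg, zpow_natCast] at hϖ
    exact (mul_inv_eq_one₀ (pow_ne_zero _ hπ0)).mp hϖ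
  have h1 : V.valuation x ^ q ≤ V.valuation π ^ q :=
    pow_le_pow_left₀ zero_le (hU.le_of_lt_one hx) q
  have h2 : V.valuation π ^ q ≤ V.valuation π ^ e :=
    pow_le_pow_of_le_one zero_le hU.1.le heq
  rw [map_mul, map_pow, map_inv₀, hϖval]
  calc V.valuation x ^ q * (V.valuation π ^ e)⁻¹
      ≤ V.valuation π ^ e * (V.valuation π ^ e)⁻¹ := mul_le_mul' (h1.trans h2) le_rfl
    _ = 1 := mul_inv_cancel₀ (pow_ne_zero _ hπ0)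

/-- the field `hJ` of `H4S36.Triple`. -/
theorem triple_hJ {R : Type} [CommRing R] [Algebra R F] (ϖ : R) (t : F) (q : ℕ) (hq : 1 ≤ q)
    {V₁ V₂ V₃ : ValuationSubring F} {b₃ : F}
    (hO : ∀ x : F, GInt R ϖ t x ↔ x ∈ V₁ ∧ x ∈ V₂ ∧ x ∈ V₃)
    (hϖ0 : algebraMap R F ϖ ≠ 0) (hb0 : b₃ ≠ 0)
    (hϖ₁ : V₁.valuation (algebraMap R F ϖ) < 1)
    (hϖ₂ : V₂.valuation (algebraMap R F ϖ) < 1)
    (hb₃ : V₃.valuation b₃ < 1)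
    (he₃ : OrdAt V₃ b₃ (algebraMap R F ϖ) ((q : ℤ) - 1))
    (hd₁ : ∀ x : F, x ≠ 0 → ∃ k : ℤ, OrdAt V₁ (algebraMap R F ϖ) x k)
    (hd₂ : ∀ x : F, x ≠ 0 → ∃ k : ℤ, OrdAt V₂ (algebraMap R F ϖ) x k)
    (hd₃ : ∀ x : F, x ≠ 0 → ∃ k : ℤ, OrdAt V₃ b₃ x k)
    (x : F) (h₁ : V₁.valuation x < 1) (h₂ : V₂.valuation x < 1) (h₃ : V₃.valuation x < 1) :
    ModPi R ϖ t (x ^ q) 0 := by
  have hU₁ : IsUnif V₁ (algebraMap R F ϖ) := isUnif_of_ordAt hϖ0 hϖ₁ hd₁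
  have hU₂ : IsUnif V₂ (algebraMap R F ϖ) := isUnif_of_ordAt hϖ0 hϖ₂ hd₂
  have hU₃ : IsUnif V₃ b₃ := isUnif_of_ordAt hb0 hb₃ hd₃
  have hself : ∀ V : ValuationSubring F,
      V.valuation (algebraMap R F ϖ * algebraMap R F ϖ ^ (-((1 : ℕ) : ℤ))) = 1 := by
    intro V
    rw [Nat.cast_one, zpow_neg, zpow_one, mul_inv_cancel₀ hϖ0, map_one]
  have he₃' : V₃.valuation (algebraMap R F ϖ * b₃ ^ (-((q - 1 : ℕ) : ℤ))) = 1 := by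
    have : ((q - 1 : ℕ) : ℤ) = (q : ℤ) - 1 := by omega
    rw [this]
    exact he₃
  refine ⟨x ^ q * (algebraMap R F ϖ)⁻¹, (hO _).mpr ⟨?_, ?_, ?_⟩, ?_⟩
  · exact (V₁.valuation_le_one_iff _).mp (val_pow_div_le hU₁ 1 q hq (hself V₁) h₁)
  · exact (V₂.valuation_le_one_iff _).mp (val_pow_div_le hU₂ 1 q hq (hself V₂) h₂)
  · exact (V₃.valuation_le_one_iff _).mp
      (val_pow_div_le hU₃ (q - 1) q (Nat.sub_le q 1) he₃' h₃)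
  · rw [sub_zero, mul_comm (x ^ q), ← mul_assoc, mul_inv_cancel₀ hϖ0, one_mul]

end H27WA
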