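/-
helper27: item 86 (S36): the three CONCRETE Gauss valuation rings `cV1, cV2, cV3` of the
architect's `S36/TripleDefs_helper4.lean` are pairwise distinct, hence the fields `wa`, `wg` of
`H4S36.Triple` hold for them (weak approximation `H27WA.triple_wa`, `triple_wg`).

Separating elements:
* `b₃ = J₂ - J` (`H4S36.cb3`): a unit of `cV1` and of `cV2` (`W_{q²} b₃ = - b₃`), in the maximal
  ideal of `cV3`;
* `y = J₂ - J ^ (q q)`: in the maximal ideal of `cV1` (Kronecker twice), a unit of `cV2`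
  (`W_{q²} y = J - J₂ ^ (q q)`, of reduction `j - j ^ (q q q q) ≠ 0`).
-/
import Fermat.Agent.S36.TripleDefs_helper4
import Fermat.Agent.S36.TGV3_helper24
import Fermat.Agent.S36.TGFinal_helper8
import Fermat.Agent.S36.TripleWA_helper27
import Fermat.Agent.S36.TripleJ_helper27

set_option autoImplicit false
set_option linter.unusedSectionVars false
set_option linter.style.longLine false
set_option linter.unusedVariables false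
set_option linter.style.haveILetI false
set_option synthInstance.maxHeartbeats 400000

open ModularCurve RH24 H28S28 HahnSeries H28GV H8PB H3TAU H7S18

noncomputable section

namespace H27WA

open H4S36

section Series

variable {K : Type} [Field K] (R : ValuationSubring K)
variable (q : ℕ) [NeZero q] [Fact q.Prime] [CharP (IsLocalRing.ResidueField R) q]

/-- `j - j(𝐪^{q²}) ^ (q q)` over `R` -/
def wy2R : LaurentSeries R := jqModC R - (qExpand R (q * q) (jqModC R)) ^ (q * q)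

theorem jq_ne_pow4 (k : Type) [Field k] :
    jqModC k ≠ jqModC k ^ (q * q * (q * q)) := by
  intro h
  have h1 := congrArg HahnSeries.order h
  rw [HahnSeries.order_pow, h8pb_order_jq] at h1
  have hq : 2 ≤ q := (Fact.out : q.Prime).two_le
  have h2 : (16 : ℤ) ≤ ((q * q * (q * q) : ℕ) : ℤ) := by
    have h4 : 4 ≤ q * q := by nlinarith
    have : 16 ≤ q * q * (q * q) := by nlinarith
    exact_mod_cast this
  simp only [nsmul_eq_mul] at h1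
  linarith

theorem rho_wy2R : rhoR R (wy2R R q) ≠ 0 := by
  unfold wy2R
  rw [map_sub, map_pow]
  show coeffMap _ (jqModC R) - (coeffMap _ (qExpand R (q * q) (jqModC R))) ^ (q * q) ≠ 0
  rw [coeffMap_qExpand, coeffMap_jqModC, ← qExpand_qExpand, h8pb_kronecker, map_pow,
    h8pb_kronecker, ← pow_mul, ← pow_mul, sub_ne_zero]
  rw [← mul_assoc]
  exact jq_ne_pow4 q (IsLocalRing.ResidueField R)

theorem eps_wy2R : gvEps R (wy2R R q) =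
    jqModC K - (qExpand K (q * q) (jqModC K)) ^ (q * q) := by
  unfold wy2R
  rw [map_sub, map_pow]
  show coeffMap _ (jqModC R) - (coeffMap _ (qExpand R (q * q) (jqModC R))) ^ (q * q) = _
  rw [coeffMap_qExpand, coeffMap_jqModC]

end Series

section Concrete

variable (K₁ : IntermediateField ℚ Kbar) (R₁ : ValuationSubring ↥K₁)
  [IsDiscreteValuationRing R₁]
variable (M q : ℕ) [NeZero M] [NeZero q] (hq : q.Prime) (hqM : ¬ q ∣ M)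

theorem coe_cb3 : ((cb3 K₁ M q : FK ↥K₁ (M * q * q)) : LaurentSeries ↥K₁) =
    qExpand ↥K₁ (q * q) (jqModC ↥K₁) - jqModC ↥K₁ := rfl

/-- `W_{q²} J = J₂` -/
theorem wq2_J0 :
    H12WQ.wq2KHom K₁ M q hq hqM (H8TG.J0 ↥K₁ (M * q * q)) =
      H8TG.J2 ↥K₁ (M * q * q) q (qq_dvd_level M q) := by
  have h2 : H12WQ.wq2KHom K₁ M q hq hqM (H8TG.J2 ↥K₁ (M * q * q) q (qq_dvd_level M q)) =
      H8TG.J0 ↥K₁ (M * q * q) := by
    apply Subtype.ext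
    rw [H8TG.coe_J0]
    exact H8TG.h8tg_hW2 K₁ M q hq hqM
  rw [← h2, H12WQ.wq2KHom_invol]

/-- `W_{q²} J₂ = J` -/
theorem wq2_J2 :
    H12WQ.wq2KHom K₁ M q hq hqM (H8TG.J2 ↥K₁ (M * q * q) q (qq_dvd_level M q)) =
      H8TG.J0 ↥K₁ (M * q * q) := by
  apply Subtype.ext
  rw [H8TG.coe_J0]
  exact H8TG.h8tg_hW2 K₁ M q hq hqM

/-- `W_{q²} b₃ = - b₃` -/
theorem wq2_cb3 :
    H12WQ.wq2KHom K₁ M q hq hqM (cb3 K₁ M q) = - cb3 K₁ M q := by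
  unfold cb3
  rw [map_sub, wq2_J0, wq2_J2, neg_sub]

variable [Fact q.Prime] [CharP (IsLocalRing.ResidueField R₁) q]

/-- `b₃` is a unit of `cV1` -/
theorem cV1_val_cb3 : (cV1 K₁ R₁ M q).valuation (cb3 K₁ M q) = 1 := by
  have e : ((cb3 K₁ M q : FK ↥K₁ (M * q * q)) : LaurentSeries ↥K₁) =
      gvEps R₁ (H24V3.bR R₁ q) := by
    rw [coe_cb3, H24V3.eps_bR]
  have h1 : (cV1 K₁ R₁ M q).valuation (cb3 K₁ M q) ≤ 1 := by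
    unfold cV1
    rw [ValuationSubring.valuation_le_one_iff, H10FC.mem_gaussVal, e]
    exact H10FC.inG_eps R₁ _
  have h2 : ¬ (cV1 K₁ R₁ M q).valuation (cb3 K₁ M q) < 1 := by
    unfold cV1
    rw [H10FC.gaussVal_lt_one, e]
    exact H10FC.not_inGm_eps R₁ (H24V3.rho_bR R₁ q)
  exact le_antisymm h1 (not_lt.mp h2)

/-- the valuation of a pulled-back valuation ring -/
theorem comap_val_eq_one {F : Type*} [Field F] (V : ValuationSubring F) (f : F →+* F) (x : F) :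
    (V.comap f).valuation x = 1 ↔ V.valuation (f x) = 1 := by
  have h1 : (V.comap f).valuation x ≤ 1 ↔ V.valuation (f x) ≤ 1 := by
    rw [ValuationSubring.valuation_le_one_iff, ValuationSubring.valuation_le_one_iff,
      ValuationSubring.mem_comap]
  have h2 := H10FC.comap_val_lt_one V f x
  constructor
  · intro h
    exact le_antisymm (h1.1 h.le) (not_lt.1 (fun hlt => absurd h (ne_of_lt (h2.2 hlt))))
  · intro h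
    exact le_antisymm (h1.2 h.le) (not_lt.1 (fun hlt => absurd h (ne_of_lt (h2.1 hlt))))

/-- `b₃` is a unit of `cV2` -/
theorem cV2_val_cb3 : (cV2 K₁ R₁ M q hq hqM).valuation (cb3 K₁ M q) = 1 := by
  unfold cV2
  rw [comap_val_eq_one, wq2_cb3, Valuation.map_neg]
  exact cV1_val_cb3 K₁ R₁ M q

/-- `y = J₂ - J ^ (q q)` -/
def cy2 : FK ↥K₁ (M * q * q) :=
  H8TG.J2 ↥K₁ (M * q * q) q (qq_dvd_level M q) - H8TG.J0 ↥K₁ (M * q * q) ^ (q * q)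

theorem coe_cy2 : ((cy2 K₁ M q : FK ↥K₁ (M * q * q)) : LaurentSeries ↥K₁) =
    qExpand ↥K₁ (q * q) (jqModC ↥K₁) - jqModC ↥K₁ ^ (q * q) := rfl

theorem coe_wq2_cy2 :
    ((H12WQ.wq2KHom K₁ M q hq hqM (cy2 K₁ M q) : FK ↥K₁ (M * q * q)) : LaurentSeries ↥K₁) =
      jqModC ↥K₁ - (qExpand ↥K₁ (q * q) (jqModC ↥K₁)) ^ (q * q) := by
  unfold cy2
  rw [map_sub, map_pow, wq2_J0, wq2_J2]
  rfl

/-- `y ∈ 𝔪(cV1)` -/
theorem cV1_val_cy2 : (cV1 K₁ R₁ M q).valuation (cy2 K₁ M q) < 1 := by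
  unfold cV1
  rw [H10FC.gaussVal_lt_one, coe_cy2]
  exact H8TG.h8tg_kron2 R₁ q

/-- `y ∉ 𝔪(cV2)` -/
theorem cV2_val_cy2 : ¬ (cV2 K₁ R₁ M q hq hqM).valuation (cy2 K₁ M q) < 1 := by
  unfold cV2
  rw [H10FC.comap_val_lt_one, H10FC.gaussVal_lt_one, coe_wq2_cy2, ← eps_wy2R R₁ q]
  exact H10FC.not_inGm_eps R₁ (rho_wy2R R₁ q)

/-- **`cV1 ≠ cV2`** -/
theorem cV1_ne_cV2 : cV1 K₁ R₁ M q ≠ cV2 K₁ R₁ M q hq hqM :=
  ne_of_val (cy2 K₁ M q) (cV1_val_cy2 K₁ R₁ M q) (cV2_val_cy2 K₁ R₁ M q hq hqM)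

variable (K₃ : IntermediateField ℚ Kbar) (R₃ : ValuationSubring ↥K₃)
  [IsDiscreteValuationRing R₃] (h13 : K₁ ≤ K₃) (ζ : (↥K₃)ˣ) (hζ : IsPrimitiveRoot ζ q)

theorem cb3_eq : cb3 K₁ M q =
    H3V3.J2 (M * q * q) q K₁ (sq_dvd_level M q) - H3V3.J0 (M * q * q) K₁ := by
  haveI : NeZero (q ^ 2) := ⟨pow_ne_zero 2 (NeZero.ne q)⟩
  unfold cb3
  rw [H24V3.J2_eq (M * q * q) q (qq_dvd_level M q) (sq_dvd_level M q)]
  congr 1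
  apply Subtype.ext
  rw [H8TG.coe_J0, H3V3.coe_J0, gv_coeffEmb_jq]

/-- `b₃ ∈ 𝔪(cV3)` -/
theorem cV3_val_cb3 (hqR : ((q : ℕ) : ↥K₃) ∈ R₃.nonunits) :
    (cV3 K₁ M q hq hqM K₃ R₃ h13 ζ hζ).valuation (cb3 K₁ M q) < 1 := by
  unfold cV3
  rw [cb3_eq]
  exact H3V3.V3_unif_lt R₃ (M * q * q) q h13 hq (sq_dvd_level M q)
    (cube_not_dvd_level M q hq hqM) ζ hζ hqR

/-- **`cV1 ≠ cV3`** -/
theorem cV1_ne_cV3 (hqR : ((q : ℕ) : ↥K₃) ∈ R₃.nonunits) :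
    cV1 K₁ R₁ M q ≠ cV3 K₁ M q hq hqM K₃ R₃ h13 ζ hζ :=
  (ne_of_val (cb3 K₁ M q) (cV3_val_cb3 K₁ M q hq hqM K₃ R₃ h13 ζ hζ hqR)
    (by rw [cV1_val_cb3 K₁ R₁ M q]; exact lt_irrefl 1)).symm

/-- **`cV2 ≠ cV3`** -/
theorem cV2_ne_cV3 (hqR : ((q : ℕ) : ↥K₃) ∈ R₃.nonunits) :
    cV2 K₁ R₁ M q hq hqM ≠ cV3 K₁ M q hq hqM K₃ R₃ h13 ζ hζ :=
  (ne_of_val (cb3 K₁ M q) (cV3_val_cb3 K₁ M q hq hqM K₃ R₃ h13 ζ hζ hqR)
    (by rw [cV2_val_cb3 K₁ R₁ M q hq hqM]; exact lt_irrefl 1)).symm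

/-- **the field `wa`** of `H4S36.Triple` for the concrete objects (`π` = the image of the
uniformizer `ϖ` of `R₁`). -/
theorem c_wa (hqR : ((q : ℕ) : ↥K₃) ∈ R₃.nonunits) (π : FK ↥K₁ (M * q * q)) (hπ0 : π ≠ 0)
    (hπ₁ : (cV1 K₁ R₁ M q).valuation π < 1)
    (hπ₂ : (cV2 K₁ R₁ M q hq hqM).valuation π < 1)
    (hd₁ : ∀ x : FK ↥K₁ (M * q * q), x ≠ 0 → ∃ k : ℤ, OrdAt (cV1 K₁ R₁ M q) π x k)
    (hd₂ : ∀ x : FK ↥K₁ (M * q * q), x ≠ 0 → ∃ k : ℤ, OrdAt (cV2 K₁ R₁ M q hq hqM) π x k)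
    (hd₃ : ∀ x : FK ↥K₁ (M * q * q), x ≠ 0 →
      ∃ k : ℤ, OrdAt (cV3 K₁ M q hq hqM K₃ R₃ h13 ζ hζ) (cb3 K₁ M q) x k)
    (k₁ k₂ k₃ : ℤ) :
    ∃ g : FK ↥K₁ (M * q * q), g ≠ 0 ∧ OrdAt (cV1 K₁ R₁ M q) π g k₁ ∧
      OrdAt (cV2 K₁ R₁ M q hq hqM) π g k₂ ∧
      OrdAt (cV3 K₁ M q hq hqM K₃ R₃ h13 ζ hζ) (cb3 K₁ M q) g k₃ := by
  have hb0 : cb3 K₁ M q ≠ 0 := by
    intro h
    have := cV1_val_cb3 K₁ R₁ M q
    rw [h, Valuation.map_zero] at this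
    exact zero_ne_one this
  exact triple_wa hπ0 hπ0 hb0 hπ₁ hπ₂ (cV3_val_cb3 K₁ M q hq hqM K₃ R₃ h13 ζ hζ hqR)
    hd₁ hd₂ hd₃ (cV1_ne_cV2 K₁ R₁ M q hq hqM)
    (cV1_ne_cV3 K₁ R₁ M q hq hqM K₃ R₃ h13 ζ hζ hqR)
    (cV2_ne_cV3 K₁ R₁ M q hq hqM K₃ R₃ h13 ζ hζ hqR) k₁ k₂ k₃

/-- **the field `wg`** of `H4S36.Triple` for the concrete objects. -/
theorem c_wg (hqR : ((q : ℕ) : ↥K₃) ∈ R₃.nonunits) (π : FK ↥K₁ (M * q * q)) (hπ0 : π ≠ 0)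
    (hπ₁ : (cV1 K₁ R₁ M q).valuation π < 1)
    (hπ₂ : (cV2 K₁ R₁ M q hq hqM).valuation π < 1)
    (hd₁ : ∀ x : FK ↥K₁ (M * q * q), x ≠ 0 → ∃ k : ℤ, OrdAt (cV1 K₁ R₁ M q) π x k)
    (hd₂ : ∀ x : FK ↥K₁ (M * q * q), x ≠ 0 → ∃ k : ℤ, OrdAt (cV2 K₁ R₁ M q hq hqM) π x k)
    (hd₃ : ∀ x : FK ↥K₁ (M * q * q), x ≠ 0 →
      ∃ k : ℤ, OrdAt (cV3 K₁ M q hq hqM K₃ R₃ h13 ζ hζ) (cb3 K₁ M q) x k)
    (ψ₁ ψ₂ ψ₃ : FK ↥K₁ (M * q * q)) :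
    ∃ Ψ : FK ↥K₁ (M * q * q), H17T3.Cg (cV1 K₁ R₁ M q) Ψ ψ₁ ∧
      H17T3.Cg (cV2 K₁ R₁ M q hq hqM) Ψ ψ₂ ∧
      H17T3.Cg (cV3 K₁ M q hq hqM K₃ R₃ h13 ζ hζ) Ψ ψ₃ := by
  have hb0 : cb3 K₁ M q ≠ 0 := by
    intro h
    have := cV1_val_cb3 K₁ R₁ M q
    rw [h, Valuation.map_zero] at this
    exact zero_ne_one this
  exact triple_wg hπ0 hπ0 hb0 hπ₁ hπ₂ (cV3_val_cb3 K₁ M q hq hqM K₃ R₃ h13 ζ hζ hqR)
    hd₁ hd₂ hd₃ (cV1_ne_cV2 K₁ R₁ M q hq hqM)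
    (cV1_ne_cV3 K₁ R₁ M q hq hqM K₃ R₃ h13 ζ hζ hqR)
    (cV2_ne_cV3 K₁ R₁ M q hq hqM K₃ R₃ h13 ζ hζ hqR) ψ₁ ψ₂ ψ₃

end Concrete

end H27WA

end
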