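import Mathlib
import Fermat.Agent.S36.TripleDefs_helper4
import Fermat.Agent.S36.TGFinal_helper8

/-!
# Item 86 (S36), slice (TG): the (TG) fields of the concrete `H4S36.Triple` (helper8)

For the concrete objects of `S36/TripleDefs_helper4.lean`
(`cV1 cV2 cV3 cV1' cV2'`, `φα = heckeAlphaBar`, `φβ = heckeBetaBar`):

* `tg_hR1 tg_hR2 tg_hR3 tg_hR1' tg_hR2'` : `R ⊆ V`;
* `tg_hϖ1 tg_hϖ2 tg_hϖ1' tg_hϖ2'`       : a uniformizer of `R` is a non-unit of `V₁ V₂ V₁' V₂'`;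
* `tg_hα1 tg_hα2 tg_hβ1 tg_hβ2`          : lying over (valuation form), `tg_hα3` (helper3's
  `V3_of_level`);
* `tg_hO`                                  : `O = V₁ ∩ V₂ ∩ V₃` (`H8TG.h8tg_tripleGauss`).
-/

set_option autoImplicit false
set_option linter.unusedSectionVars false
set_option linter.style.longLine false
set_option linter.unusedVariables false
set_option linter.style.haveILetI false
set_option synthInstance.maxHeartbeats 400000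

open ModularCurve HahnSeries H28GV H12AL RH24 H7S18 H8PB H3SIG H4S36 H10FC

noncomputable section

namespace H8TG

section Fields

variable (K₁ : IntermediateField ℚ Kbar) (R₁ : ValuationSubring ↥K₁)
  [IsDiscreteValuationRing R₁]
variable (M q : ℕ) [NeZero M] [NeZero q] (hq : q.Prime) (hqM : ¬ q ∣ M)

section General

variable (N : ℕ) [NeZero N] [Algebra ↥R₁ (FK ↥K₁ N)] [IsScalarTower ↥R₁ ↥K₁ (FK ↥K₁ N)]

theorem tg_coe_algebraMap (r : R₁) :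
    ((algebraMap ↥R₁ (FK ↥K₁ N) r : FK ↥K₁ N) : LaurentSeries ↥K₁) =
      HahnSeries.C ((r : R₁) : ↥K₁) := by
  rw [IsScalarTower.algebraMap_apply ↥R₁ ↥K₁ (FK ↥K₁ N)]
  show algebraMap ↥K₁ (LaurentSeries ↥K₁) (algebraMap ↥R₁ ↥K₁ r) = _
  rw [algebraMap_laurentSeries_eq_single]
  rfl

/-- `R ⊆` the Gauss ring -/
theorem tg_hR_gauss (r : R₁) : algebraMap ↥R₁ (FK ↥K₁ N) r ∈ gaussVal R₁ N := by
  rw [mem_gaussVal, tg_coe_algebraMap]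
  exact H3SIG.inG_C r

/-- a uniformizer of `R` is a non-unit of the Gauss ring -/
theorem tg_hϖ_gauss {ϖ : R₁} (hϖ : Irreducible ϖ) :
    (gaussVal R₁ N).valuation (algebraMap ↥R₁ (FK ↥K₁ N) ϖ) < 1 := by
  have h := H24TG.unifF_lt_one ↥K₁ R₁ N hϖ
  have e : algebraMap ↥R₁ (FK ↥K₁ N) ϖ = H24TG.unifF ↥K₁ R₁ N ϖ := by
    rw [IsScalarTower.algebraMap_apply ↥R₁ ↥K₁ (FK ↥K₁ N)]
    rfl
  rw [e]
  exact h

end General

variable [Algebra ↥R₁ (FK ↥K₁ (M * q * q))] [IsScalarTower ↥R₁ ↥K₁ (FK ↥K₁ (M * q * q))]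
variable [Algebra ↥R₁ (FK ↥K₁ (M * q))] [IsScalarTower ↥R₁ ↥K₁ (FK ↥K₁ (M * q))]

theorem tg_W_algebraMap (r : R₁) :
    H12WQ.wq2KHom K₁ M q hq hqM (algebraMap ↥R₁ (FK ↥K₁ (M * q * q)) r) =
      algebraMap ↥R₁ (FK ↥K₁ (M * q * q)) r := by
  rw [IsScalarTower.algebraMap_apply ↥R₁ ↥K₁ (FK ↥K₁ (M * q * q))]
  exact H12WQ.wq2KHom_const K₁ M q hq hqM _

theorem tg_hR1 (r : R₁) : algebraMap ↥R₁ (FK ↥K₁ (M * q * q)) r ∈ cV1 K₁ R₁ M q :=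
  tg_hR_gauss K₁ R₁ (M * q * q) r

theorem tg_hR2 (r : R₁) : algebraMap ↥R₁ (FK ↥K₁ (M * q * q)) r ∈ cV2 K₁ R₁ M q hq hqM := by
  unfold cV2
  rw [ValuationSubring.mem_comap, tg_W_algebraMap]
  exact tg_hR_gauss K₁ R₁ (M * q * q) r

theorem tg_hR1' (r : R₁) : algebraMap ↥R₁ (FK ↥K₁ (M * q)) r ∈ cV1' K₁ R₁ M q :=
  tg_hR_gauss K₁ R₁ (M * q) r

theorem tg_hR2' (r : R₁) : algebraMap ↥R₁ (FK ↥K₁ (M * q)) r ∈ cV2' K₁ R₁ M q hq hqM := by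
  unfold cV2'
  rw [mem_gaussVal2, w_algebraMap]
  exact tg_hR_gauss K₁ R₁ (M * q) r

theorem tg_hϖ1 {ϖ : R₁} (hϖ : Irreducible ϖ) :
    (cV1 K₁ R₁ M q).valuation (algebraMap ↥R₁ (FK ↥K₁ (M * q * q)) ϖ) < 1 :=
  tg_hϖ_gauss K₁ R₁ (M * q * q) hϖ

theorem tg_hϖ2 {ϖ : R₁} (hϖ : Irreducible ϖ) :
    (cV2 K₁ R₁ M q hq hqM).valuation (algebraMap ↥R₁ (FK ↥K₁ (M * q * q)) ϖ) < 1 := by
  unfold cV2
  rw [comap_val_lt_one, tg_W_algebraMap]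
  exact tg_hϖ_gauss K₁ R₁ (M * q * q) hϖ

theorem tg_hϖ1' {ϖ : R₁} (hϖ : Irreducible ϖ) :
    (cV1' K₁ R₁ M q).valuation (algebraMap ↥R₁ (FK ↥K₁ (M * q)) ϖ) < 1 :=
  tg_hϖ_gauss K₁ R₁ (M * q) hϖ

theorem tg_hϖ2' {ϖ : R₁} (hϖ : Irreducible ϖ) :
    (cV2' K₁ R₁ M q hq hqM).valuation (algebraMap ↥R₁ (FK ↥K₁ (M * q)) ϖ) < 1 := by
  unfold cV2'
  rw [gaussVal2_lt_one, w_algebraMap, ← gaussVal_lt_one]
  exact tg_hϖ_gauss K₁ R₁ (M * q) hϖ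

end Fields

section LyingOver

variable (K₁ : IntermediateField ℚ Kbar) (R₁ : ValuationSubring ↥K₁)
  [IsDiscreteValuationRing R₁]
variable (M q : ℕ) [NeZero M] [NeZero q] (hq : q.Prime) (hqM : ¬ q ∣ M)
variable [CharP (IsLocalRing.ResidueField ↥R₁) q]

/-- `InGm (y(𝐪^q)) ↔ InGm y` for `y` in a modular function field -/
theorem tg_inGm_qExpand_iff (N : ℕ) [NeZero N] (y : LaurentSeries ↥K₁)
    (hy : y ∈ modularFunctionFieldFullC ↥K₁ N) :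
    InGm R₁ (qExpand ↥K₁ q y) ↔ InGm R₁ y := by
  constructor
  · intro h
    have h1 : InG R₁ y := (h8tg_inG_qExpand_iff K₁ R₁ q N y hy).mp (H3SIG.inGm_inG h)
    exact (h8tg_inGm_qExpand_iff R₁ q y h1).mp h
  · intro h
    exact (h8tg_inGm_qExpand_iff R₁ q y (H3SIG.inGm_inG h)).mpr h

theorem tg_hα1 (x : FK ↥K₁ (M * q)) :
    (cV1' K₁ R₁ M q).valuation x < 1 ↔
      (cV1 K₁ R₁ M q).valuation ((heckeAlphaBar ↥K₁ (M * q) q).toRingHom x) < 1 := by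
  unfold cV1' cV1
  rw [gaussVal_lt_one, gaussVal_lt_one]
  show _ ↔ InGm R₁ ((heckeAlphaBar ↥K₁ (M * q) q x : FK ↥K₁ (M * q * q)) : LaurentSeries ↥K₁)
  rw [coe_heckeAlphaBar]

theorem tg_hβ1 (x : FK ↥K₁ (M * q)) :
    (cV1' K₁ R₁ M q).valuation x < 1 ↔
      (cV1 K₁ R₁ M q).valuation ((heckeBetaBar ↥K₁ (M * q) q).toRingHom x) < 1 := by
  unfold cV1' cV1
  rw [gaussVal_lt_one, gaussVal_lt_one]
  show _ ↔ InGm R₁ ((heckeBetaBar ↥K₁ (M * q) q x : FK ↥K₁ (M * q * q)) : LaurentSeries ↥K₁)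
  rw [coe_heckeBetaBar]
  exact (tg_inGm_qExpand_iff K₁ R₁ q (M * q) _ (gv_coe_mem_full (M * q) x)).symm

theorem tg_hα2 (x : FK ↥K₁ (M * q)) :
    (cV2' K₁ R₁ M q hq hqM).valuation x < 1 ↔
      (cV2 K₁ R₁ M q hq hqM).valuation ((heckeAlphaBar ↥K₁ (M * q) q).toRingHom x) < 1 := by
  unfold cV2' cV2
  rw [gaussVal2_lt_one, comap_val_lt_one, gaussVal_lt_one]
  have h := H12WQ.coe_wq2KHom_of_level K₁ M q hq hqM (heckeAlphaBar ↥K₁ (M * q) q x) x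
    (coe_heckeAlphaBar _ _ x)
  show _ ↔ InGm R₁ ((H12WQ.wq2KHom K₁ M q hq hqM (heckeAlphaBar ↥K₁ (M * q) q x) :
    FK ↥K₁ (M * q * q)) : LaurentSeries ↥K₁)
  rw [h]
  exact (tg_inGm_qExpand_iff K₁ R₁ q (M * q) _ (gv_coe_mem_full (M * q) _)).symm

theorem tg_hβ2 (x : FK ↥K₁ (M * q)) :
    (cV2' K₁ R₁ M q hq hqM).valuation x < 1 ↔
      (cV2 K₁ R₁ M q hq hqM).valuation ((heckeBetaBar ↥K₁ (M * q) q).toRingHom x) < 1 := by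
  unfold cV2' cV2
  rw [gaussVal2_lt_one, comap_val_lt_one, gaussVal_lt_one]
  have h := H12WQ.coe_wq2KHom_qExpand K₁ M q hq hqM (heckeBetaBar ↥K₁ (M * q) q x) x
    (coe_heckeBetaBar _ _ x)
  show _ ↔ InGm R₁ ((H12WQ.wq2KHom K₁ M q hq hqM (heckeBetaBar ↥K₁ (M * q) q x) :
    FK ↥K₁ (M * q * q)) : LaurentSeries ↥K₁)
  rw [h]

end LyingOver

section ResDeg

open H17T3

variable (K₁ : IntermediateField ℚ Kbar) (R₁ : ValuationSubring ↥K₁)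
  [IsDiscreteValuationRing R₁]
variable (M q : ℕ) [NeZero M] [NeZero q] (hq : q.Prime) (hqM : ¬ q ∣ M)

/-- `W_{q²} ∘ α = β ∘ w_q` -/
theorem tg_W_alpha (x : FK ↥K₁ (M * q)) :
    H12WQ.wq2KHom K₁ M q hq hqM ((heckeAlphaBar ↥K₁ (M * q) q).toRingHom x) =
      (heckeBetaBar ↥K₁ (M * q) q).toRingHom (wqKHom K₁ M q hq hqM x) := by
  apply Subtype.ext
  have h := H12WQ.coe_wq2KHom_of_level K₁ M q hq hqM (heckeAlphaBar ↥K₁ (M * q) q x) x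
    (coe_heckeAlphaBar _ _ x)
  exact h.trans (coe_heckeBetaBar _ _ _).symm

/-- `W_{q²} ∘ β = α ∘ w_q` -/
theorem tg_W_beta (x : FK ↥K₁ (M * q)) :
    H12WQ.wq2KHom K₁ M q hq hqM ((heckeBetaBar ↥K₁ (M * q) q).toRingHom x) =
      (heckeAlphaBar ↥K₁ (M * q) q).toRingHom (wqKHom K₁ M q hq hqM x) := by
  apply Subtype.ext
  have h := H12WQ.coe_wq2KHom_qExpand K₁ M q hq hqM (heckeBetaBar ↥K₁ (M * q) q x) x
    (coe_heckeBetaBar _ _ x)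
  exact h.trans (coe_heckeAlphaBar _ _ _).symm

/-- **`f₂β` from `f₁α`** (transport by `W_{q²}`). -/
theorem tg_f2β_of_f1α
    (f1α : ∀ x : FK ↥K₁ (M * q * q), x ∈ cV1 K₁ R₁ M q →
      ∃ p : FK ↥K₁ (M * q), p ∈ cV1' K₁ R₁ M q ∧
        Cg (cV1 K₁ R₁ M q) x ((heckeAlphaBar ↥K₁ (M * q) q).toRingHom p))
    (x : FK ↥K₁ (M * q * q)) (hx : x ∈ cV2 K₁ R₁ M q hq hqM) :
    ∃ p : FK ↥K₁ (M * q), p ∈ cV2' K₁ R₁ M q hq hqM ∧
      Cg (cV2 K₁ R₁ M q hq hqM) x ((heckeBetaBar ↥K₁ (M * q) q).toRingHom p) := by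
  obtain ⟨p', hp', hcg⟩ := f1α (H12WQ.wq2KHom K₁ M q hq hqM x) hx
  refine ⟨wqKHom K₁ M q hq hqM p', ?_, ?_⟩
  · unfold cV2'
    rw [mem_gaussVal2, wqKHom_invol]
    exact hp'
  · unfold Cg cV2
    rw [comap_val_lt_one, map_sub, ← tg_W_alpha, H12WQ.wq2KHom_invol]
    exact hcg

/-- **`f₃β` from `f₃α`** (transport by `W_{q²}`; `V₃` is `W`-stable: (U2)). -/
theorem tg_f3β_of_f3α (V3 : ValuationSubring (FK ↥K₁ (M * q * q)))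
    (hU2 : V3.comap (H12WQ.wq2KHom K₁ M q hq hqM) = V3)
    (f3α : ∀ x : FK ↥K₁ (M * q * q), x ∈ V3 →
      ∃ a : FK ↥K₁ (M * q), a ∈ cV1' K₁ R₁ M q ∧
        Cg V3 x ((heckeAlphaBar ↥K₁ (M * q) q).toRingHom a))
    (x : FK ↥K₁ (M * q * q)) (hx : x ∈ V3) :
    ∃ a : FK ↥K₁ (M * q), a ∈ cV2' K₁ R₁ M q hq hqM ∧
      Cg V3 x ((heckeBetaBar ↥K₁ (M * q) q).toRingHom a) := by
  have hWx : H12WQ.wq2KHom K₁ M q hq hqM x ∈ V3 := by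
    have h : x ∈ V3.comap (H12WQ.wq2KHom K₁ M q hq hqM) := by rw [hU2]; exact hx
    exact h
  obtain ⟨a', ha', hcg⟩ := f3α _ hWx
  refine ⟨wqKHom K₁ M q hq hqM a', ?_, ?_⟩
  · unfold cV2'
    rw [mem_gaussVal2, wqKHom_invol]
    exact ha'
  · unfold Cg at hcg ⊢
    rw [← hU2, comap_val_lt_one, map_sub, ← tg_W_alpha, H12WQ.wq2KHom_invol]
    exact hcg

end ResDeg

section HO

/-- **`hO`** for the concrete objects: `O = V₁ ∩ V₂ ∩ V₃`. -/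
theorem tg_hO (M : ℕ) [NeZero M] (q : ℕ) [NeZero q] (hq : q.Prime) (hqM : ¬ q ∣ M)
    (hT : TameLevel q M)
    (A : ValuationSubring (AlgebraicClosure ℚ)) (hA : A.LiesOverPrime q)
    (K₁ : IntermediateField ℚ (AlgebraicClosure ℚ)) (hK₁ : FiniteDimensional ℚ K₁)
    (hunr : Irreducible ((q : ℕ) : ↥(descVal A K₁)))
    (K₃ : IntermediateField ℚ (AlgebraicClosure ℚ)) (hK₃ : FiniteDimensional ℚ K₃)
    (h13 : K₁ ≤ K₃) (ζ : (↥K₃)ˣ) (hζ : IsPrimitiveRoot ζ q)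
    [IsDiscreteValuationRing ↥(descVal A K₁)] [IsDiscreteValuationRing ↥(descVal A K₃)]
    [Algebra ↥(descVal A K₁) (FK K₁ (M * q * q))]
    [IsScalarTower ↥(descVal A K₁) K₁ (FK K₁ (M * q * q))]
    (t₀ : LaurentSeries ℚ) (ht₀ : IsBase (baseKind q) t₀)
    (t : FK K₁ (M * q * q)) (ht : (t : LaurentSeries K₁) = coeffEmb K₁ t₀)
    (x : FK K₁ (M * q * q)) :
    GInt ↥(descVal A K₁) ((q : ℕ) : ↥(descVal A K₁)) t x ↔
      x ∈ cV1 K₁ (descVal A K₁) M q ∧ x ∈ cV2 K₁ (descVal A K₁) M q hq hqM ∧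
        x ∈ cV3 K₁ M q hq hqM K₃ (descVal A K₃) h13 ζ hζ :=
  (h8tg_tripleGauss M q hq hqM hT A hA K₁ hK₁ hunr K₃ hK₃ h13 ζ hζ t₀ ht₀ t ht x).1

end HO

end H8TG

end
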