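/-
Item 86 (S36), slice **V3** (helper3), part 7: Kronecker's congruences at the third valuation.

`J0 = j(𝐪)`, `J1 = j(𝐪^q)`, `J2 = j(𝐪^{q²})` in `F_{K₁}(M)`, `q² ∥ M`.  At `V₃`:

* `V3_kron_low`  : `J1 ≡ J0 ^ q`   (`V₃.valuation (J1 - J0 ^ q) < 1`);
* `V3_kron_high` : `J1 ≡ J2 ^ q`   (`V₃.valuation (J1 - J2 ^ q) < 1`);
* (`V3_unif_lt`  : `J2 ≡ J0`, in `S36/V3Unif_helper3.lean`).
-/
import Mathlib
import Fermat.Agent.S36.V3Extra_helper3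
import Fermat.Agent.S34.PairBasisCore_helper8

set_option autoImplicit false
set_option synthInstance.maxHeartbeats 400000
set_option linter.style.longLine false
set_option linter.unusedVariables false
set_option linter.unusedSectionVars false
set_option linter.style.haveILetI false

noncomputable section

open ModularCurve RH24 H28S28 H7S18 HahnSeries H28GV H8PB H3TAU H3SIG

namespace H3V3

section Series

variable {K : Type} [Field K] (R : ValuationSubring K)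
variable (q : ℕ) [NeZero q] [Fact q.Prime] [CharP (IsLocalRing.ResidueField R) q]

/-- Kronecker: `j(𝐪^q) ≡ j(𝐪)^q` modulo the Gauss maximal ideal -/
theorem inGm_kron : InGm R (qExpand K q (jqModC K) - jqModC K ^ q) := by
  have h1 : gvEps R (qExpand R q (jqModC R) - jqModC R ^ q) =
      qExpand K q (jqModC K) - jqModC K ^ q := by
    rw [map_sub, map_pow]
    show coeffMap _ (qExpand R q (jqModC R)) - (coeffMap _ (jqModC R)) ^ q = _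
    rw [coeffMap_qExpand, coeffMap_jqModC]
  have h2 : rhoR R (qExpand R q (jqModC R) - jqModC R ^ q) = 0 := by
    rw [map_sub, map_pow]
    show coeffMap _ (qExpand R q (jqModC R)) - (coeffMap _ (jqModC R)) ^ q = 0
    rw [coeffMap_qExpand, coeffMap_jqModC, h8pb_kronecker, sub_self]
  rw [← h1, h3v_inGm_iff]
  exact ⟨_, 1, by rw [map_one]; exact one_ne_zero, h2, by rw [map_one, mul_one]⟩

end Series

section Kron

variable {K₁ K₃ : IntermediateField ℚ Kbar} (R₃ : ValuationSubring ↥K₃)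
  [IsDiscreteValuationRing R₃]
variable (M : ℕ) [NeZero M] (q : ℕ) [NeZero q] [Fact q.Prime]
  [CharP (IsLocalRing.ResidueField R₃) q]

/-- `j(𝐪^q)` as an element of `F_{K₁}(M)`, `q ∣ M` -/
def J1 (K₁ : IntermediateField ℚ Kbar) (hM1 : q ∣ M) : FK ↥K₁ M :=
  JgenK ↥K₁ (⟨q, hM1⟩ : Dv M)

theorem coe_J1 (hM1 : q ∣ M) :
    ((J1 M q K₁ hM1 : FK ↥K₁ M) : LaurentSeries ↥K₁) = coeffEmb ↥K₁ (qExpand ℚ q jq) := rfl

theorem iota3_J1 (h13 : K₁ ≤ K₃) (hq : q.Prime) (hM2 : q ^ 2 ∣ M) (hM3 : ¬ q ^ 3 ∣ M)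
    (ζ : (↥K₃)ˣ) (hζ : IsPrimitiveRoot ζ q) (hM1 : q ∣ M) :
    iota3 M q h13 hq hM2 hM3 ζ hζ (J1 M q K₁ hM1) = qExpand ↥K₃ q (jqModC ↥K₃) := by
  have h1 : ¬ q ^ 2 ∣ (⟨q, hM1⟩ : Dv M).1 := by
    intro h
    have h2 : q * q ∣ q * 1 := by rwa [mul_one, ← pow_two]
    have h3 := (Nat.mul_dvd_mul_iff_left hq.pos).1 h2
    exact hq.one_lt.ne' (Nat.dvd_one.1 h3)
  rw [J1, iota3_Jlow M q h13 hq hM2 hM3 ζ hζ _ h1, gv_coeffEmb_qExpand, gv_coeffEmb_jq]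

theorem iota3_J0 (h13 : K₁ ≤ K₃) (hq : q.Prime) (hM2 : q ^ 2 ∣ M) (hM3 : ¬ q ^ 3 ∣ M)
    (ζ : (↥K₃)ˣ) (hζ : IsPrimitiveRoot ζ q) :
    iota3 M q h13 hq hM2 hM3 ζ hζ (J0 M K₁) = jqModC ↥K₃ := by
  have h1 : ¬ q ^ 2 ∣ (⟨1, one_dvd M⟩ : Dv M).1 := by
    intro h
    have h2 : q ^ 2 = 1 := Nat.dvd_one.1 h
    have h3 : 1 < q ^ 2 := Nat.one_lt_pow (by norm_num) hq.one_lt
    omega
  haveI : NeZero (⟨1, one_dvd M⟩ : Dv M).1 := ⟨one_ne_zero⟩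
  rw [J0, iota3_Jlow M q h13 hq hM2 hM3 ζ hζ _ h1, qExpand_one_apply, gv_coeffEmb_jq]

theorem iota3_J2 (h13 : K₁ ≤ K₃) (hq : q.Prime) (hM2 : q ^ 2 ∣ M) (hM3 : ¬ q ^ 3 ∣ M)
    (ζ : (↥K₃)ˣ) (hζ : IsPrimitiveRoot ζ q) :
    iota3 M q h13 hq hM2 hM3 ζ hζ (J2 M q K₁ hM2) = tw ζ (jqModC ↥K₃) := by
  rw [J2, iota3_Jhigh M q h13 hq hM2 hM3 ζ hζ (⟨q ^ 2, hM2⟩ : Dv M) 1 (by simp),
    qExpand_one_apply, gv_coeffEmb_jq]

/-- **Kronecker at `V₃`, low**: `J1 ≡ J0 ^ q`. -/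
theorem V3_kron_low (h13 : K₁ ≤ K₃) (hq : q.Prime) (hM2 : q ^ 2 ∣ M) (hM3 : ¬ q ^ 3 ∣ M)
    (ζ : (↥K₃)ˣ) (hζ : IsPrimitiveRoot ζ q) (hM1 : q ∣ M) :
    (V3 R₃ M q h13 hq hM2 hM3 ζ hζ).valuation (J1 M q K₁ hM1 - J0 M K₁ ^ q) < 1 := by
  rw [valuation_V3_lt_one, map_sub, map_pow, iota3_J1, iota3_J0]
  exact inGm_kron R₃ q

/-- **Kronecker at `V₃`, high**: `J1 ≡ J2 ^ q`. -/
theorem V3_kron_high (h13 : K₁ ≤ K₃) (hq : q.Prime) (hM2 : q ^ 2 ∣ M) (hM3 : ¬ q ^ 3 ∣ M)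
    (ζ : (↥K₃)ˣ) (hζ : IsPrimitiveRoot ζ q) (hM1 : q ∣ M) :
    (V3 R₃ M q h13 hq hM2 hM3 ζ hζ).valuation (J1 M q K₁ hM1 - J2 M q K₁ hM2 ^ q) < 1 := by
  rw [valuation_V3_lt_one, map_sub, map_pow, iota3_J1, iota3_J2]
  have h1 : qExpand ↥K₃ q (jqModC ↥K₃) - (tw ζ (jqModC ↥K₃)) ^ q =
      tw ζ (qExpand ↥K₃ q (jqModC ↥K₃) - jqModC ↥K₃ ^ q) := by
    rw [map_sub, map_pow, tw_qExpand ζ q hζ.pow_eq_one]
  rw [h1]
  exact inGm_tw (inGm_kron R₃ q) ζ hq.pos hζ.pow_eq_one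

end Kron

end H3V3

end
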