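/-
Item 86 (S36), slice **V3** (helper3), part 8 (V3-DISC): discreteness of the third valuation,
`b = j(𝐪^{q²}) - j(𝐪)` is a uniformizer of `V₃`.

* `val_sum_zpow` (generic, Eisenstein): `v π < 1`, `S ⊆ L` with `v (S ∖ 0) ⊆ (v π)^{e ℤ}`;  then
  every nonzero `∑_{i<e} a_i π^i`, `a_i ∈ S`, has `v = (v π)^m`, `m ∈ ℤ`;
* `IsGU R z` : `z` is a Gauss unit;
* `V3_disc` : every `x ≠ 0` of `F_{K₁}(M)` is `b^m · unit` at `V₃`
  (hypotheses: `K₃ = K₁(ζ)` in the form `hK₃`, `q` unramified in `K₁` in the form `hunr`).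
-/
import Mathlib
import Fermat.Agent.S36.V3Kron_helper3

set_option autoImplicit false
set_option synthInstance.maxHeartbeats 400000
set_option linter.style.longLine false
set_option linter.unusedVariables false
set_option linter.unusedSectionVars false
set_option linter.style.haveILetI false

noncomputable section

open ModularCurve RH24 H28S28 H7S18 HahnSeries H28GV H8PB H3TAU H3SIG

namespace H3V3

/-! ### The Eisenstein argument -/

section Eis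

variable {L : Type*} [Field L] {Γ₀ : Type*} [LinearOrderedCommGroupWithZero Γ₀]
  (v : Valuation L Γ₀)

theorem zpow_inj_of_lt_one {g : Γ₀} (h0 : g ≠ 0) (h1 : g < 1) {m n : ℤ} (h : g ^ m = g ^ n) :
    m = n := by
  by_contra hne
  rcases lt_or_gt_of_ne hne with hlt | hlt
  · have := zpow_lt_zpow_right_of_lt_one₀ (zero_lt_iff.2 h0) h1 hlt
    rw [h] at this
    exact lt_irrefl _ this
  · have := zpow_lt_zpow_right_of_lt_one₀ (zero_lt_iff.2 h0) h1 hlt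
    rw [h] at this
    exact lt_irrefl _ this

/-- **Eisenstein**: a nonzero `∑_{i<e} a_i π^i` with `v a_i ∈ (v π)^{e ℤ}` has `v ∈ (v π)^ℤ`. -/
theorem val_sum_zpow (π : L) (hπ0 : v π ≠ 0) (hπ1 : v π < 1) (e : ℕ) (S : Set L)
    (hS : ∀ a ∈ S, a ≠ 0 → ∃ k : ℤ, v a = v π ^ ((e : ℤ) * k))
    (a : Fin e → L) (ha : ∀ i, a i ∈ S) (hc : ∑ i : Fin e, a i * π ^ (i : ℕ) ≠ 0) :
    ∃ m : ℤ, v (∑ i : Fin e, a i * π ^ (i : ℕ)) = v π ^ m := by
  classical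
  -- the valuation of each nonzero term
  have hterm : ∀ i : Fin e, a i ≠ 0 → ∃ k : ℤ, v (a i * π ^ (i : ℕ)) = v π ^ ((e : ℤ) * k + i) := by
    intro i hi
    obtain ⟨k, hk⟩ := hS (a i) (ha i) hi
    refine ⟨k, ?_⟩
    rw [map_mul, map_pow, hk, zpow_add₀ hπ0, zpow_natCast]
  -- some term is nonzero
  have hex : ∃ i : Fin e, a i ≠ 0 := by
    by_contra h
    push Not at h
    apply hc
    apply Finset.sum_eq_zero
    intro i _
    rw [h i, zero_mul]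
  -- choose a term of maximal valuation
  obtain ⟨j, -, hj⟩ := Finset.exists_max_image Finset.univ (fun i : Fin e => v (a i * π ^ (i : ℕ)))
    ⟨hex.choose, Finset.mem_univ _⟩
  have hj0 : a j ≠ 0 := by
    intro h0
    obtain ⟨i, hi⟩ := hex
    have h1 := hj i (Finset.mem_univ _)
    rw [h0, zero_mul, map_zero] at h1
    have h2 : v (a i * π ^ (i : ℕ)) = 0 := le_antisymm h1 zero_le
    rw [map_mul, map_pow] at h2
    rcases mul_eq_zero.1 h2 with h3 | h3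
    · exact hi ((map_eq_zero v).1 h3)
    · exact hπ0 (eq_zero_of_pow_eq_zero h3)
  obtain ⟨kj, hkj⟩ := hterm j hj0
  refine ⟨(e : ℤ) * kj + j, ?_⟩
  rw [← hkj]
  apply Valuation.map_sum_eq_of_lt v (Finset.mem_univ j)
  intro i hi
  have hij : i ≠ j := by
    intro h
    rw [h] at hi
    simp at hi
  rcases eq_or_ne (a i) 0 with h0 | h0
  · rw [h0, zero_mul, map_zero, hkj]
    exact zero_lt_iff.2 (zpow_ne_zero _ hπ0)
  · refine lt_of_le_of_ne (hj i (Finset.mem_univ _)) ?_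
    obtain ⟨ki, hki⟩ := hterm i h0
    rw [hki, hkj]
    intro h
    have h1 := zpow_inj_of_lt_one hπ0 hπ1 h
    apply hij
    apply Fin.ext
    have hi' := i.2
    have hj' := j.2
    have h2 : ((i : ℕ) : ℤ) % (e : ℤ) = ((j : ℕ) : ℤ) % (e : ℤ) := by
      have h3 : ((e : ℤ) * ki + i) % (e : ℤ) = ((e : ℤ) * kj + j) % (e : ℤ) := by rw [h1]
      rwa [add_comm ((e : ℤ) * ki), add_comm ((e : ℤ) * kj), Int.add_mul_emod_self_left,
        Int.add_mul_emod_self_left] at h3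
    rw [Int.emod_eq_of_lt (by positivity) (by exact_mod_cast hi'),
      Int.emod_eq_of_lt (by positivity) (by exact_mod_cast hj')] at h2
    exact_mod_cast h2

end Eis

/-! ### Gauss units -/

section GU

variable {K : Type} [Field K] (R : ValuationSubring K)

/-- `z` is a unit of the Gauss ring -/
def IsGU (z : LaurentSeries K) : Prop := InG R z ∧ InG R z⁻¹

variable {R}

theorem IsGU.mul {x y : LaurentSeries K} (hx : IsGU R x) (hy : IsGU R y) : IsGU R (x * y) :=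
  ⟨inG_mul hx.1 hy.1, by rw [mul_inv]; exact inG_mul hx.2 hy.2⟩

theorem IsGU.inv {x : LaurentSeries K} (hx : IsGU R x) : IsGU R x⁻¹ :=
  ⟨hx.2, by rw [inv_inv]; exact hx.1⟩

theorem IsGU.one : IsGU R (1 : LaurentSeries K) :=
  ⟨inG_one R, by rw [inv_one]; exact inG_one R⟩

theorem IsGU.pow {x : LaurentSeries K} (hx : IsGU R x) (n : ℕ) : IsGU R (x ^ n) := by
  induction n with
  | zero => rw [pow_zero]; exact IsGU.one
  | succ n ih => rw [pow_succ]; exact ih.mul hx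

theorem IsGU.zpow {x : LaurentSeries K} (hx : IsGU R x) (m : ℤ) : IsGU R (x ^ m) := by
  cases m with
  | ofNat n => rw [Int.ofNat_eq_natCast, zpow_natCast]; exact hx.pow n
  | negSucc n => rw [zpow_negSucc]; exact (hx.pow _).inv

theorem isGU_eps {Y : LaurentSeries ↥R} (hY : rhoR R Y ≠ 0) : IsGU R (gvEps R Y) := by
  refine ⟨inG_eps R Y, ?_⟩
  rw [h3v_inG_iff]
  refine ⟨1, Y, hY, ?_⟩
  rw [inv_mul_cancel₀ (gvEps_ne_zero hY), map_one]

theorem isGU_C {c : K} (hc : c ∈ R) (hc' : c⁻¹ ∈ R) : IsGU R (HahnSeries.C c : LaurentSeries K) := by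
  refine ⟨inG_C ⟨c, hc⟩, ?_⟩
  rw [← map_inv₀]
  exact inG_C ⟨c⁻¹, hc'⟩

end GU

/-! ### `π = ζ - 1` -/

section Pi

variable {K : Type} [Field K] (R : ValuationSubring K)

theorem pi_facts (q : ℕ) (hq : q.Prime) (hqR : (q : K) ∈ R.nonunits)
    (ζ : Kˣ) (hζ : IsPrimitiveRoot (ζ : K) q) :
    R.valuation ((ζ : K) - 1) < 1 ∧ R.valuation ((ζ : K) - 1) ≠ 0 ∧
      R.valuation ((ζ : K) - 1) ^ (q - 1) = R.valuation (q : K) := by
  have hsum : ∑ i ∈ Finset.range q, (ζ : K) ^ i = 0 := hζ.geom_sum_eq_zero hq.one_lt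
  have hζR : (ζ : K) ∈ R := unit_mem_of_pow_eq_one R ζ hq.pos (by
    apply Units.ext
    rw [Units.val_pow_eq_pow_val, hζ.pow_eq_one, Units.val_one])
  let ζR : ↥R := ⟨(ζ : K), hζR⟩
  have hsumR : ∑ i ∈ Finset.range q, ζR ^ i = 0 := by
    apply Subtype.ext
    have : ((∑ i ∈ Finset.range q, ζR ^ i : ↥R) : K) = ∑ i ∈ Finset.range q, (ζ : K) ^ i := by
      push_cast
      rfl
    rw [this, hsum]
    rfl
  obtain ⟨c, hc⟩ := H25TW.cyclo_pow q hq ζR hsumR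
  have hqm : ((q : ℕ) : ↥R) ∈ IsLocalRing.maximalIdeal ↥R := by
    have h1 : (((q : ℕ) : ↥R) : K) ∈ R.nonunits := by
      have : (((q : ℕ) : ↥R) : K) = (q : K) := by push_cast; rfl
      rw [this]
      exact hqR
    rwa [ValuationSubring.coe_mem_nonunits_iff] at h1
  have hπ : ζR - 1 ∈ IsLocalRing.maximalIdeal ↥R := by
    have h1 : (ζR - 1) ^ (q - 1) ∈ IsLocalRing.maximalIdeal ↥R := by
      rw [hc]
      exact Ideal.neg_mem_iff _ |>.2 (Ideal.mul_mem_right _ _ hqm)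
    exact (IsLocalRing.maximalIdeal.isMaximal ↥R).isPrime.mem_of_pow_mem _ h1
  have hπlt : R.valuation ((ζ : K) - 1) < 1 := by
    have h1 : ((ζR - 1 : ↥R) : K) ∈ R.nonunits := by
      rw [ValuationSubring.coe_mem_nonunits_iff]
      exact hπ
    rw [ValuationSubring.mem_nonunits_iff] at h1
    exact h1
  have hπ0 : (ζ : K) - 1 ≠ 0 := by
    intro h
    have h1 : (ζ : K) = 1 := sub_eq_zero.1 h
    have h2 := hζ.eq_orderOf
    rw [h1, orderOf_one] at h2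
    exact hq.one_lt.ne' h2
  refine ⟨hπlt, (map_ne_zero _).2 hπ0, ?_⟩
  -- `(1 + π c)` is a unit
  have hu : IsUnit (1 + (ζR - 1) * c) := by
    by_contra h
    have h1 : 1 + (ζR - 1) * c ∈ IsLocalRing.maximalIdeal ↥R :=
      (IsLocalRing.mem_maximalIdeal _).2 h
    have h2 : (1 : ↥R) ∈ IsLocalRing.maximalIdeal ↥R := by
      have := Ideal.sub_mem _ h1 (Ideal.mul_mem_right c _ hπ)
      rwa [add_sub_cancel_right] at this
    exact (IsLocalRing.maximalIdeal.isMaximal ↥R).ne_top ((Ideal.eq_top_iff_one _).2 h2)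
  have hval : R.valuation (((1 + (ζR - 1) * c : ↥R)) : K) = 1 :=
    (ValuationSubring.valuation_eq_one_iff R _).1 hu
  have hcK : R.valuation ((((ζR - 1) ^ (q - 1) : ↥R)) : K) =
      R.valuation ((-(((q : ℕ) : ↥R) * (1 + (ζR - 1) * c)) : ↥R) : K) := by rw [hc]
  have e1 : (((ζR - 1) ^ (q - 1) : ↥R) : K) = ((ζ : K) - 1) ^ (q - 1) := by
    push_cast
    rfl
  have e2 : ((-(((q : ℕ) : ↥R) * (1 + (ζR - 1) * c)) : ↥R) : K) =
      -((q : K) * ((1 + (ζR - 1) * c : ↥R) : K)) := by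
    push_cast
    rfl
  rw [e1, e2, map_pow, Valuation.map_neg, map_mul, hval, mul_one] at hcK
  exact hcK

end Pi

/-! ### Discreteness of `V₃` -/

section Disc

variable {K₁ K₃ : IntermediateField ℚ Kbar} (R₃ : ValuationSubring ↥K₃)
  [IsDiscreteValuationRing R₃]
variable (M : ℕ) [NeZero M] (q : ℕ)

/-- `ι₃ b = (ζ - 1) · ε Y`, `Y` primitive. -/
theorem iota3_b_factor (h13 : K₁ ≤ K₃) (hq : q.Prime) (hM2 : q ^ 2 ∣ M) (hM3 : ¬ q ^ 3 ∣ M)
    (ζ : (↥K₃)ˣ) (hζ : IsPrimitiveRoot ζ q) (hqR : (q : ↥K₃) ∈ R₃.nonunits) :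
    ∃ Y : LaurentSeries ↥R₃, rhoR R₃ Y ≠ 0 ∧
      iota3 M q h13 hq hM2 hM3 ζ hζ (J2 M q K₁ hM2 - J0 M K₁) =
        HahnSeries.C ((ζ : ↥K₃) - 1) * gvEps R₃ Y := by
  obtain ⟨g, hg⟩ := H25TW.tw_sub_self (unitR R₃ ζ hq.pos hζ.pow_eq_one) (jqModC ↥R₃)
  have hζ' : IsPrimitiveRoot (ζ : ↥K₃) q := IsPrimitiveRoot.coe_units_iff.2 hζ
  obtain ⟨hlt, -, -⟩ := pi_facts R₃ q hq hqR ζ hζ'
  have hπ : ((unitR R₃ ζ hq.pos hζ.pow_eq_one : (↥R₃)ˣ) : ↥R₃) - 1 ∈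
      IsLocalRing.maximalIdeal ↥R₃ := by
    have h1 : ((((unitR R₃ ζ hq.pos hζ.pow_eq_one : (↥R₃)ˣ) : ↥R₃) - 1 : ↥R₃) : ↥K₃) ∈
        R₃.nonunits := by
      rw [ValuationSubring.mem_nonunits_iff]
      exact hlt
    rwa [ValuationSubring.coe_mem_nonunits_iff] at h1
  have h0 : rhoR R₃ (HahnSeries.C (((unitR R₃ ζ hq.pos hζ.pow_eq_one : (↥R₃)ˣ) : ↥R₃) - 1)) = 0 := by
    rw [h3b_rho_eq_zero_iff]
    intro n
    by_cases hn : n = 0
    · subst hn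
      rw [HahnSeries.C_apply, HahnSeries.coeff_single_same]
      exact (IsLocalRing.mem_maximalIdeal _).1 hπ
    · rw [HahnSeries.C_apply, HahnSeries.coeff_single_of_ne hn]
      exact not_isUnit_zero
  refine ⟨H25TW.thetaLS (jqModC ↥R₃) +
    HahnSeries.C (((unitR R₃ ζ hq.pos hζ.pow_eq_one : (↥R₃)ˣ) : ↥R₃) - 1) * g, ?_, ?_⟩
  · rw [map_add, map_mul, h0, zero_mul, add_zero]
    exact rho_theta_jq_ne_zero R₃
  · rw [iota3_b R₃ M q h13 hq hM2 hM3 ζ hζ, hg, map_mul, gvEps_C]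
    rfl

/-- **(V3-DISC)**: every `x ≠ 0` of `F_{K₁}(M)` is `b^m · unit` at `V₃`, `b = J2 - J0`.
`hK₃`: `K₃ = K₁(ζ)`;  `hunr`: `q` is unramified in `K₁`. -/
theorem V3_disc (h13 : K₁ ≤ K₃) (hq : q.Prime) (hM2 : q ^ 2 ∣ M) (hM3 : ¬ q ^ 3 ∣ M)
    (ζ : (↥K₃)ˣ) (hζ : IsPrimitiveRoot ζ q) (hqR : (q : ↥K₃) ∈ R₃.nonunits)
    (hK₃ : ∀ c : ↥K₃, ∃ a : Fin (q - 1) → ↥K₁,
      c = ∑ i : Fin (q - 1), IntermediateField.inclusion h13 (a i) * ((ζ : ↥K₃) - 1) ^ (i : ℕ))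
    (hunr : ∀ a : ↥K₁, a ≠ 0 → ∃ k : ℤ,
      R₃.valuation (IntermediateField.inclusion h13 a) = R₃.valuation (q : ↥K₃) ^ k)
    (x : FK ↥K₁ M) (hx : x ≠ 0) :
    ∃ m : ℤ, (V3 R₃ M q h13 hq hM2 hM3 ζ hζ).valuation
      (x * (J2 M q K₁ hM2 - J0 M K₁) ^ (-m)) = 1 := by
  have hζ' : IsPrimitiveRoot (ζ : ↥K₃) q := IsPrimitiveRoot.coe_units_iff.2 hζ
  obtain ⟨hπlt, hπ0, hπq⟩ := pi_facts R₃ q hq hqR ζ hζ'
  have hπne : (ζ : ↥K₃) - 1 ≠ 0 := (map_ne_zero R₃.valuation).1 hπ0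
  -- normal form of `ι₃ x`
  have hιx : iota3 M q h13 hq hM2 hM3 ζ hζ x ≠ 0 :=
    (map_ne_zero_iff _ (iota3 M q h13 hq hM2 hM3 ζ hζ).injective).2 hx
  obtain ⟨c, Y₁, Y₂, hc, hY₁, hY₂, hrel⟩ :=
    nf_of_isQB (iota3_isQB R₃ M q h13 hq hM2 hM3 ζ hζ x) hιx
  -- the valuation of `c`
  obtain ⟨a, ha⟩ := hK₃ c
  have hS : ∀ y ∈ Set.range (IntermediateField.inclusion h13 : ↥K₁ → ↥K₃), y ≠ 0 →
      ∃ k : ℤ, R₃.valuation y = R₃.valuation ((ζ : ↥K₃) - 1) ^ (((q - 1 : ℕ) : ℤ) * k) := by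
    rintro y ⟨a', rfl⟩ hy
    have ha' : a' ≠ 0 := by
      rintro rfl
      exact hy (map_zero _)
    obtain ⟨k, hk⟩ := hunr a' ha'
    refine ⟨k, ?_⟩
    rw [hk, ← hπq, zpow_mul, zpow_natCast]
  have hcsum : ∑ i : Fin (q - 1), IntermediateField.inclusion h13 (a i) *
      ((ζ : ↥K₃) - 1) ^ (i : ℕ) ≠ 0 := by
    rw [← ha]
    exact hc
  obtain ⟨m, hm⟩ := val_sum_zpow R₃.valuation ((ζ : ↥K₃) - 1) hπ0 hπlt (q - 1) _ hS
    (fun i => IntermediateField.inclusion h13 (a i)) (fun i => ⟨a i, rfl⟩) hcsum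
  rw [← ha] at hm
  -- `c π^{-m}` is a unit of `R₃`
  have hu : R₃.valuation (c * ((ζ : ↥K₃) - 1) ^ (-m)) = 1 := by
    rw [map_mul, map_zpow₀, hm, ← zpow_add₀ hπ0, add_neg_cancel, zpow_zero]
  have hu1 : c * ((ζ : ↥K₃) - 1) ^ (-m) ∈ R₃ := (R₃.valuation_le_one_iff _).1 hu.le
  have hu2 : (c * ((ζ : ↥K₃) - 1) ^ (-m))⁻¹ ∈ R₃ := by
    rw [← R₃.valuation_le_one_iff, map_inv₀, hu, inv_one]
  -- `ι₃ b`
  obtain ⟨Yb, hYb, hb⟩ := iota3_b_factor R₃ M q h13 hq hM2 hM3 ζ hζ hqR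
  refine ⟨m, ?_⟩
  have hY₂0 := gvEps_ne_zero hY₂
  have hYb0 := gvEps_ne_zero hYb
  have hCπ : (HahnSeries.C ((ζ : ↥K₃) - 1) : LaurentSeries ↥K₃) ≠ 0 := by
    intro h0
    have := congrArg (fun z : LaurentSeries ↥K₃ => z.coeff 0) h0
    simp only [HahnSeries.C_apply, HahnSeries.coeff_single_same, HahnSeries.coeff_zero] at this
    exact hπne this
  have hkey : iota3 M q h13 hq hM2 hM3 ζ hζ (x * (J2 M q K₁ hM2 - J0 M K₁) ^ (-m)) =
      HahnSeries.C (c * ((ζ : ↥K₃) - 1) ^ (-m)) *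
        (gvEps R₃ Y₁ * (gvEps R₃ Y₂)⁻¹ * (gvEps R₃ Yb) ^ (-m)) := by
    have hx' : iota3 M q h13 hq hM2 hM3 ζ hζ x =
        HahnSeries.C c * gvEps R₃ Y₁ * (gvEps R₃ Y₂)⁻¹ := by
      rw [← hrel, mul_assoc, mul_inv_cancel₀ hY₂0, mul_one]
    rw [map_mul, map_zpow₀, hb, hx', mul_zpow, map_mul, map_zpow₀]
    ring
  have hgu : IsGU R₃ (iota3 M q h13 hq hM2 hM3 ζ hζ
      (x * (J2 M q K₁ hM2 - J0 M K₁) ^ (-m))) := by
    rw [hkey]
    exact (isGU_C hu1 hu2).mul (((isGU_eps hY₁).mul (isGU_eps hY₂).inv).mul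
      ((isGU_eps hYb).zpow _))
  have h1 : (V3 R₃ M q h13 hq hM2 hM3 ζ hζ).valuation
      (x * (J2 M q K₁ hM2 - J0 M K₁) ^ (-m)) ≤ 1 := by
    rw [valuation_V3_le_one]
    exact hgu.1
  have h2 : (V3 R₃ M q h13 hq hM2 hM3 ζ hζ).valuation
      (x * (J2 M q K₁ hM2 - J0 M K₁) ^ (-m))⁻¹ ≤ 1 := by
    rw [valuation_V3_le_one, map_inv₀]
    exact hgu.2
  have hne : x * (J2 M q K₁ hM2 - J0 M K₁) ^ (-m) ≠ 0 := by
    intro h0
    rw [h0, map_zero] at hkey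
    have h3 : IsGU R₃ (0 : LaurentSeries ↥K₃) := by
      have := hgu
      rwa [h0, map_zero] at this
    -- `0` is not a Gauss unit: use `hkey` instead
    have h4 := hkey.symm
    rcases mul_eq_zero.1 h4 with h5 | h5
    · have := congrArg (fun z : LaurentSeries ↥K₃ => z.coeff 0) h5
      simp only [HahnSeries.C_apply, HahnSeries.coeff_single_same, HahnSeries.coeff_zero] at this
      rw [this, map_zero] at hu
      exact zero_ne_one hu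
    · rcases mul_eq_zero.1 h5 with h6 | h6
      · rcases mul_eq_zero.1 h6 with h7 | h7
        · exact gvEps_ne_zero hY₁ h7
        · exact inv_ne_zero hY₂0 h7
      · exact zpow_ne_zero _ hYb0 h6
  have hmul : (V3 R₃ M q h13 hq hM2 hM3 ζ hζ).valuation
      (x * (J2 M q K₁ hM2 - J0 M K₁) ^ (-m)) *
      (V3 R₃ M q h13 hq hM2 hM3 ζ hζ).valuation
      (x * (J2 M q K₁ hM2 - J0 M K₁) ^ (-m))⁻¹ = 1 := by
    rw [← map_mul, mul_inv_cancel₀ hne, map_one]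
  apply le_antisymm h1
  calc (1 : _) = _ := hmul.symm
    _ ≤ (V3 R₃ M q h13 hq hM2 hM3 ζ hζ).valuation
        (x * (J2 M q K₁ hM2 - J0 M K₁) ^ (-m)) * 1 := mul_le_mul_right h2 _
    _ = _ := mul_one _

end Disc

end H3V3

end
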