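/-
Item 86 (S36), slice **V3** (helper3), part 9: the coefficient field `K₃ = K₁(ζ)` and the
hypotheses `hK₃`, `hunr` of `H3V3.V3_disc`.

* `K3 K₁ ζ₀ : IntermediateField ℚ ℚ̄`  (`= K₁(ζ₀)`), `le_K3`, `zeta_mem_K3`, `zetaU` (the unit of
  `K3`), `finiteDimensional_K3`;
* `hK3_K3`  : every element of `K₁(ζ₀)` is `∑_{i < q-1} a_i (ζ₀ - 1)^i`, `a_i ∈ K₁`;
* `hunr_of_irreducible` : `q` a uniformizer of `R₁ = R₃ ∩ K₁`  ⟹  the valuations of `K₁ˣ` are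
  powers of `v₃(q)`.
-/
import Mathlib
import Fermat.Agent.S36.V3Disc_helper3

set_option autoImplicit false
set_option synthInstance.maxHeartbeats 400000
set_option linter.style.longLine false
set_option linter.unusedVariables false
set_option linter.unusedSectionVars false
set_option linter.style.haveILetI false

noncomputable section

open ModularCurve RH24 H7S18 Polynomial

namespace H3V3

section K3

variable (K₁ : IntermediateField ℚ Kbar) (ζ₀ : Kbar)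

/-- `K₃ = K₁(ζ₀)` -/
def K3 : IntermediateField ℚ Kbar :=
  (IntermediateField.adjoin ↥K₁ ({ζ₀} : Set Kbar)).restrictScalars ℚ

theorem mem_K3 {c : Kbar} : c ∈ K3 K₁ ζ₀ ↔ c ∈ IntermediateField.adjoin ↥K₁ ({ζ₀} : Set Kbar) :=
  Iff.rfl

theorem le_K3 : K₁ ≤ K3 K₁ ζ₀ := by
  intro x hx
  rw [mem_K3]
  exact (IntermediateField.adjoin ↥K₁ ({ζ₀} : Set Kbar)).algebraMap_mem ⟨x, hx⟩

theorem zeta_mem_K3 : ζ₀ ∈ K3 K₁ ζ₀ := by
  rw [mem_K3]
  exact IntermediateField.mem_adjoin_simple_self _ _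

theorem isIntegral_zeta {q : ℕ} (hq : 0 < q) (hζ : ζ₀ ^ q = 1) : IsIntegral ↥K₁ ζ₀ := by
  refine ⟨X ^ q - 1, monic_X_pow_sub_C 1 hq.ne', ?_⟩
  simp [hζ]

theorem finiteDimensional_K3 [FiniteDimensional ℚ ↥K₁] {q : ℕ} (hq : 0 < q) (hζ : ζ₀ ^ q = 1) :
    FiniteDimensional ℚ ↥(K3 K₁ ζ₀) := by
  haveI : FiniteDimensional ↥K₁ ↥(IntermediateField.adjoin ↥K₁ ({ζ₀} : Set Kbar)) :=
    IntermediateField.adjoin.finiteDimensional (isIntegral_zeta K₁ ζ₀ hq hζ)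
  have h : FiniteDimensional ℚ ↥(IntermediateField.adjoin ↥K₁ ({ζ₀} : Set Kbar)) :=
    FiniteDimensional.trans ℚ ↥K₁ _
  exact h

/-- `ζ₀` as a unit of `K₃` -/
def zetaU {q : ℕ} (hq : 0 < q) (hζ : ζ₀ ^ q = 1) : (↥(K3 K₁ ζ₀))ˣ :=
  Units.mk0 ⟨ζ₀, zeta_mem_K3 K₁ ζ₀⟩ (by
    intro h
    have h1 : ζ₀ = 0 := congrArg Subtype.val h
    rw [h1, zero_pow hq.ne'] at hζ
    exact zero_ne_one hζ)

theorem coe_zetaU {q : ℕ} (hq : 0 < q) (hζ : ζ₀ ^ q = 1) :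
    (((zetaU K₁ ζ₀ hq hζ : (↥(K3 K₁ ζ₀))ˣ) : ↥(K3 K₁ ζ₀)) : Kbar) = ζ₀ := rfl

theorem isPrimitiveRoot_zetaU {q : ℕ} (hq : 0 < q) (hζ : IsPrimitiveRoot ζ₀ q) :
    IsPrimitiveRoot (zetaU K₁ ζ₀ hq hζ.pow_eq_one) q := by
  rw [← IsPrimitiveRoot.coe_units_iff]
  exact IsPrimitiveRoot.of_map_of_injective
    (f := (algebraMap ↥(K3 K₁ ζ₀) Kbar)) (by exact hζ) (algebraMap ↥(K3 K₁ ζ₀) Kbar).injective

/-- every element of `K₁(ζ₀)` is a polynomial in `ζ₀ - 1` of degree `< q - 1` over `K₁` -/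
theorem exists_poly_K3 {q : ℕ} (hq : q.Prime) (hζ : IsPrimitiveRoot ζ₀ q) (c : Kbar)
    (hc : c ∈ K3 K₁ ζ₀) :
    ∃ a : Fin (q - 1) → ↥K₁, c = ∑ i : Fin (q - 1), ((a i : ↥K₁) : Kbar) * (ζ₀ - 1) ^ (i : ℕ) := by
  rw [mem_K3] at hc
  have hint := isIntegral_zeta K₁ ζ₀ hq.pos hζ.pow_eq_one
  have h1 : c ∈ (IntermediateField.adjoin ↥K₁ ({ζ₀} : Set Kbar)).toSubalgebra := hc
  rw [IntermediateField.adjoin_simple_toSubalgebra_of_isAlgebraic hint.isAlgebraic,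
    Algebra.adjoin_singleton_eq_range_aeval] at h1
  obtain ⟨P, hP⟩ := h1
  -- shift and reduce modulo the shifted cyclotomic polynomial
  let G : Polynomial ↥K₁ := (cyclotomic q ↥K₁).comp (X + C 1)
  have hXC : (X + C (1 : ↥K₁)).natDegree = 1 := natDegree_X_add_C 1
  have hGm : G.Monic :=
    (cyclotomic.monic q ↥K₁).comp (monic_X_add_C 1) (by rw [hXC]; exact one_ne_zero)
  have hGd : G.natDegree = q - 1 := by
    show ((cyclotomic q ↥K₁).comp (X + C 1)).natDegree = q - 1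
    rw [natDegree_comp, hXC, mul_one, natDegree_cyclotomic, Nat.totient_prime hq]
  have hq2 : 2 ≤ q := hq.two_le
  have hG1 : G ≠ 1 := by
    intro h
    have h2 := hGd
    rw [h, natDegree_one] at h2
    omega
  have hGπ : aeval (ζ₀ - 1) G = 0 := by
    show aeval (ζ₀ - 1) ((cyclotomic q ↥K₁).comp (X + C 1)) = 0
    rw [aeval_comp]
    have h2 : aeval (ζ₀ - 1) (X + C (1 : ↥K₁)) = ζ₀ := by
      simp
    rw [h2]
    have h3 : IsRoot (cyclotomic q Kbar) ζ₀ := hζ.isRoot_cyclotomic hq.pos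
    have h4 : aeval ζ₀ (cyclotomic q ↥K₁) = (cyclotomic q Kbar).eval ζ₀ := by
      rw [← map_cyclotomic q (algebraMap ↥K₁ Kbar), eval_map, aeval_def]
    rw [h4]
    exact h3
  let P₁ : Polynomial ↥K₁ := P.comp (X + C 1)
  have hP₁ : aeval (ζ₀ - 1) P₁ = c := by
    show aeval (ζ₀ - 1) (P.comp (X + C 1)) = c
    rw [aeval_comp]
    have h2 : aeval (ζ₀ - 1) (X + C (1 : ↥K₁)) = ζ₀ := by
      simp
    rw [h2]
    exact hP
  let r : Polynomial ↥K₁ := P₁ %ₘ G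
  have hr : aeval (ζ₀ - 1) r = c := by
    have h2 := modByMonic_add_div P₁ G
    have h3 := congrArg (aeval (ζ₀ - 1)) h2
    rw [map_add, map_mul, hGπ, zero_mul, add_zero, hP₁] at h3
    exact h3
  have hrd : r.natDegree < q - 1 := by
    rw [← hGd]
    exact natDegree_modByMonic_lt P₁ hGm hG1
  refine ⟨fun i => r.coeff (i : ℕ), ?_⟩
  rw [← hr, aeval_eq_sum_range' hrd, Finset.sum_range]
  refine Finset.sum_congr rfl fun i _ => ?_
  rw [Algebra.smul_def]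
  rfl

/-- `hK₃` of `V3_disc` for `K₃ = K₁(ζ₀)`. -/
theorem hK3_K3 {q : ℕ} (hq : q.Prime) (hζ : IsPrimitiveRoot ζ₀ q) (c : ↥(K3 K₁ ζ₀)) :
    ∃ a : Fin (q - 1) → ↥K₁,
      c = ∑ i : Fin (q - 1), IntermediateField.inclusion (le_K3 K₁ ζ₀) (a i) *
        (((zetaU K₁ ζ₀ hq.pos hζ.pow_eq_one : (↥(K3 K₁ ζ₀))ˣ) : ↥(K3 K₁ ζ₀)) - 1) ^ (i : ℕ) := by
  obtain ⟨a, ha⟩ := exists_poly_K3 K₁ ζ₀ hq hζ (c : Kbar) c.2
  refine ⟨a, Subtype.ext ?_⟩
  rw [ha]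
  push_cast
  rfl

end K3

/-! ### Unramifiedness -/

section Unr

variable {K₁ K₃ : IntermediateField ℚ Kbar} (R₁ : ValuationSubring ↥K₁)
  (R₃ : ValuationSubring ↥K₃) [IsDiscreteValuationRing R₁]

/-- if `q` is a uniformizer of `R₁ = R₃ ∩ K₁`, the `R₃`-valuations of `K₁ˣ` are powers of
`v₃ (q)`. -/
theorem hunr_of_irreducible (h13 : K₁ ≤ K₃)
    (hR : ∀ c : ↥K₁, c ∈ R₁ ↔ IntermediateField.inclusion h13 c ∈ R₃)
    (q : ℕ) (hirr : Irreducible ((q : ℕ) : ↥R₁)) (a : ↥K₁) (ha : a ≠ 0) :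
    ∃ k : ℤ, R₃.valuation (IntermediateField.inclusion h13 a) = R₃.valuation (q : ↥K₃) ^ k := by
  -- units of `R₁` have `R₃`-valuation one
  have hunit : ∀ u : (↥R₁)ˣ,
      R₃.valuation (IntermediateField.inclusion h13 ((u : ↥R₁) : ↥K₁)) = 1 := by
    intro u
    have h1 : IntermediateField.inclusion h13 ((u : ↥R₁) : ↥K₁) ∈ R₃ := (hR _).1 (Subtype.mem _)
    have h2 : IntermediateField.inclusion h13 (((u⁻¹ : (↥R₁)ˣ) : ↥R₁) : ↥K₁) ∈ R₃ :=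
      (hR _).1 (Subtype.mem _)
    have h3 : IntermediateField.inclusion h13 ((u : ↥R₁) : ↥K₁) *
        IntermediateField.inclusion h13 (((u⁻¹ : (↥R₁)ˣ) : ↥R₁) : ↥K₁) = 1 := by
      rw [← map_mul]
      have : ((u : ↥R₁) : ↥K₁) * (((u⁻¹ : (↥R₁)ˣ) : ↥R₁) : ↥K₁) = 1 := by
        have h5 : ((u : ↥R₁) * ((u⁻¹ : (↥R₁)ˣ) : ↥R₁) : ↥R₁) = 1 := by simp
        exact_mod_cast congrArg (fun r : ↥R₁ => (r : ↥K₁)) h5
      rw [this, map_one]
    have h4 := congrArg R₃.valuation h3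
    rw [map_mul, map_one] at h4
    have hle1 := (R₃.valuation_le_one_iff _).2 h1
    have hle2 := (R₃.valuation_le_one_iff _).2 h2
    apply le_antisymm hle1
    calc (1 : _) = _ := h4.symm
      _ ≤ R₃.valuation (IntermediateField.inclusion h13 ((u : ↥R₁) : ↥K₁)) * 1 :=
        mul_le_mul_right hle2 _
      _ = _ := mul_one _
  have hqmap : IntermediateField.inclusion h13 ((((q : ℕ) : ↥R₁) : ↥K₁)) = (q : ↥K₃) := by
    have : ((((q : ℕ) : ↥R₁) : ↥K₁)) = ((q : ℕ) : ↥K₁) := by push_cast; rfl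
    rw [this, map_natCast]
  -- the case `a ∈ R₁`
  have key : ∀ r : ↥R₁, r ≠ 0 → ∃ n : ℕ,
      R₃.valuation (IntermediateField.inclusion h13 (r : ↥K₁)) = R₃.valuation (q : ↥K₃) ^ n := by
    intro r hr
    obtain ⟨n, u, hu⟩ := IsDiscreteValuationRing.eq_unit_mul_pow_irreducible hr hirr
    refine ⟨n, ?_⟩
    rw [hu]
    push_cast
    rw [map_mul, map_mul, hunit u, one_mul, map_pow, map_pow]
    congr 1
  rcases R₁.mem_or_inv_mem a with h | h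
  · obtain ⟨n, hn⟩ := key ⟨a, h⟩ (fun h0 => ha (congrArg Subtype.val h0))
    exact ⟨n, by rw [zpow_natCast]; exact hn⟩
  · obtain ⟨n, hn⟩ := key ⟨a⁻¹, h⟩ (fun h0 => inv_ne_zero ha (congrArg Subtype.val h0))
    refine ⟨-n, ?_⟩
    have h1 : R₃.valuation (IntermediateField.inclusion h13 a) =
        (R₃.valuation (IntermediateField.inclusion h13 a⁻¹))⁻¹ := by
      rw [map_inv₀, map_inv₀, inv_inv]
    rw [h1, zpow_neg, zpow_natCast]
    congr 1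

end Unr

end H3V3

end
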