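import Fermat.Agent.S36.V3Disc_helper3
import Fermat.Agent.S36.V3K3_helper3
import Fermat.Agent.S36.V3Extra_helper3
import Fermat.Agent.S36.TripleDefs_helper4
import Fermat.Agent.S36.InjGenDefs_helper4
import Fermat.Agent.S36.TGFinal_helper8

/-!
# Item 86 (S36), slice (V3), part 9 (helper3): the `V₃`-fields of `H4S36.Triple`, CONCRETE

For the concrete objects of `S36/TripleDefs_helper4.lean` (`H4S36.cV3`, `H4S36.cb3`,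
`H4S36.cV1'`, `H4S36.cV2'`), `K₁ ≤ K₃`, `R₁ = R₃ ∩ K₁` DVRs, `q ∈ 𝔪(R₃)`, `q ∤ M`:

* `H3V3.tri_hR₃`  : `R₁ ⊆ V₃`;
* `H3V3.tri_hb₃`  : `v₃ (b₃) < 1`;
* `H3V3.tri_he₃`  : `ϖ = b₃^(q-1) · unit` at `V₃` (`q` a uniformizer of `R₁`, `ϖ` irreducible);
* `H3V3.tri_hd₃`  : every `x ≠ 0` is `b₃^k · unit` at `V₃` (`K₃ = K₁(ζ)`; `q` a uniformizer of `R₁`);
* `H3V3.tri_hα₃`  : `V₃ | V₁'` via `α`;
* `H3V3.tri_hβ₃`  : `V₃ | V₂'` via `β`.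
-/

set_option autoImplicit false
set_option linter.unusedSectionVars false
set_option linter.unusedVariables false
set_option linter.style.longLine false
set_option synthInstance.maxHeartbeats 400000

noncomputable section

open AlgebraicCurve IntermediateField ModularCurve RH24 H28S28 HahnSeries H7S18 H28GV H8PB H3SIG
  H3TAU H4S36

namespace H3V3

/-! ### constants at `V₃` (generic level) -/

section Const

variable {K₁ K₃ : IntermediateField ℚ Kbar}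
  (R₃ : ValuationSubring ↥K₃) [IsDiscreteValuationRing R₃]
  (M q : ℕ) [NeZero M]

theorem iota3_const_nf (h13 : K₁ ≤ K₃) (hq : q.Prime) (hM2 : q ^ 2 ∣ M) (hM3 : ¬ q ^ 3 ∣ M)
    (ζ : (↥K₃)ˣ) (hζ : IsPrimitiveRoot ζ q) (c : ↥K₁) :
    iota3 M q h13 hq hM2 hM3 ζ hζ (algebraMap ↥K₁ (FK ↥K₁ M) c) * gvEps R₃ 1 =
      HahnSeries.C (IntermediateField.inclusion h13 c) * gvEps R₃ 1 := by
  rw [iota3_const, algebraMap_laurentSeries_eq_single]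
  rfl

/-- a constant `c ∈ K₁` is in `V₃` iff `c ∈ R₃`. -/
theorem V3_const_mem (h13 : K₁ ≤ K₃) (hq : q.Prime) (hM2 : q ^ 2 ∣ M) (hM3 : ¬ q ^ 3 ∣ M)
    (ζ : (↥K₃)ˣ) (hζ : IsPrimitiveRoot ζ q) (c : ↥K₁) :
    algebraMap ↥K₁ (FK ↥K₁ M) c ∈ V3 R₃ M q h13 hq hM2 hM3 ζ hζ ↔
      IntermediateField.inclusion h13 c ∈ R₃ := by
  have hone : rhoR R₃ (1 : LaurentSeries ↥R₃) ≠ 0 := by
    rw [map_one]
    exact one_ne_zero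
  rw [mem_V3]
  exact inG_iff_of_nf hone hone (iota3_const_nf R₃ M q h13 hq hM2 hM3 ζ hζ c)

/-- a constant `c ∈ K₁` is in `𝔪(V₃)` iff `c ∈ 𝔪(R₃)`. -/
theorem V3_const_lt (h13 : K₁ ≤ K₃) (hq : q.Prime) (hM2 : q ^ 2 ∣ M) (hM3 : ¬ q ^ 3 ∣ M)
    (ζ : (↥K₃)ˣ) (hζ : IsPrimitiveRoot ζ q) (c : ↥K₁) :
    (V3 R₃ M q h13 hq hM2 hM3 ζ hζ).valuation (algebraMap ↥K₁ (FK ↥K₁ M) c) < 1 ↔
      IntermediateField.inclusion h13 c ∈ R₃.nonunits := by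
  have hone : rhoR R₃ (1 : LaurentSeries ↥R₃) ≠ 0 := by
    rw [map_one]
    exact one_ne_zero
  rw [valuation_V3_lt_one]
  exact inGm_iff_of_nf hone hone (iota3_const_nf R₃ M q h13 hq hM2 hM3 ζ hζ c)

/-- a constant `c ∈ K₁` is a unit at `V₃` iff it is a unit at `R₃`. -/
theorem V3_const_unit (h13 : K₁ ≤ K₃) (hq : q.Prime) (hM2 : q ^ 2 ∣ M) (hM3 : ¬ q ^ 3 ∣ M)
    (ζ : (↥K₃)ˣ) (hζ : IsPrimitiveRoot ζ q) (c : ↥K₁) :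
    (V3 R₃ M q h13 hq hM2 hM3 ζ hζ).valuation (algebraMap ↥K₁ (FK ↥K₁ M) c) = 1 ↔
      R₃.valuation (IntermediateField.inclusion h13 c) = 1 := by
  have h1 := V3_const_mem R₃ M q h13 hq hM2 hM3 ζ hζ c
  have h2 := V3_const_lt R₃ M q h13 hq hM2 hM3 ζ hζ c
  rw [← ValuationSubring.valuation_le_one_iff, ← ValuationSubring.valuation_le_one_iff] at h1
  rw [ValuationSubring.mem_nonunits_iff] at h2
  constructor
  · intro h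
    exact le_antisymm (h1.1 h.le) (not_lt.1 fun hlt => absurd (h2.2 hlt) (by rw [h]; exact lt_irrefl _))
  · intro h
    exact le_antisymm (h1.2 h.le) (not_lt.1 fun hlt => absurd (h2.1 hlt) (by rw [h]; exact lt_irrefl _))

end Const

/-! ### the concrete fields -/

section Tri

variable (K₁ K₃ : IntermediateField ℚ Kbar) (R₁ : ValuationSubring ↥K₁)
  (R₃ : ValuationSubring ↥K₃) [IsDiscreteValuationRing R₁] [IsDiscreteValuationRing R₃]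
  (M q : ℕ) [NeZero M] [NeZero q] (hq : q.Prime) (hqM : ¬ q ∣ M)
  (h13 : K₁ ≤ K₃) (ζ : (↥K₃)ˣ) (hζ : IsPrimitiveRoot ζ q)

theorem cb3_eq : cb3 K₁ M q =
    J2 (M * q * q) q K₁ (sq_dvd_level M q) - J0 (M * q * q) K₁ := by
  unfold cb3
  rw [H8TG.h8tg_J2_eq]
  congr 1
  apply Subtype.ext
  rw [H3V3.coe_J0, H8TG.coe_J0, H8TG.h8tg_coeffEmb_jq]

/-- **field `hb₃`** -/
theorem tri_hb₃ (hqR : (q : ↥K₃) ∈ R₃.nonunits) :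
    (cV3 K₁ M q hq hqM K₃ R₃ h13 ζ hζ).valuation (cb3 K₁ M q) < 1 := by
  rw [cb3_eq]
  exact V3_unif_lt R₃ (M * q * q) q h13 hq _ _ ζ hζ hqR

/-- **field `hR₃`**: `R₁ ⊆ V₃`. -/
theorem tri_hR₃ [Algebra ↥R₁ (FK ↥K₁ (M * q * q))]
    [IsScalarTower ↥R₁ ↥K₁ (FK ↥K₁ (M * q * q))]
    (hR : ∀ c : ↥K₁, c ∈ R₁ ↔ IntermediateField.inclusion h13 c ∈ R₃) (r : ↥R₁) :
    algebraMap ↥R₁ (FK ↥K₁ (M * q * q)) r ∈ cV3 K₁ M q hq hqM K₃ R₃ h13 ζ hζ := by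
  rw [IsScalarTower.algebraMap_apply ↥R₁ ↥K₁ (FK ↥K₁ (M * q * q))]
  exact (V3_const_mem R₃ (M * q * q) q h13 hq _ _ ζ hζ _).2 ((hR _).1 r.2)

/-- units of `R₁` are units at `V₃`. -/
theorem tri_unit₃ [Algebra ↥R₁ (FK ↥K₁ (M * q * q))]
    [IsScalarTower ↥R₁ ↥K₁ (FK ↥K₁ (M * q * q))]
    (hR : ∀ c : ↥K₁, c ∈ R₁ ↔ IntermediateField.inclusion h13 c ∈ R₃) (u : (↥R₁)ˣ) :
    (cV3 K₁ M q hq hqM K₃ R₃ h13 ζ hζ).valuation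
      (algebraMap ↥R₁ (FK ↥K₁ (M * q * q)) (u : ↥R₁)) = 1 := by
  have h1 := tri_hR₃ K₁ K₃ R₁ R₃ M q hq hqM h13 ζ hζ hR (u : ↥R₁)
  have h2 := tri_hR₃ K₁ K₃ R₁ R₃ M q hq hqM h13 ζ hζ hR ((u⁻¹ : (↥R₁)ˣ) : ↥R₁)
  rw [← ValuationSubring.valuation_le_one_iff] at h1 h2
  have h3 : algebraMap ↥R₁ (FK ↥K₁ (M * q * q)) (u : ↥R₁) *
      algebraMap ↥R₁ (FK ↥K₁ (M * q * q)) ((u⁻¹ : (↥R₁)ˣ) : ↥R₁) = 1 := by
    rw [← map_mul, Units.mul_inv, map_one]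
  have h4 := congrArg (cV3 K₁ M q hq hqM K₃ R₃ h13 ζ hζ).valuation h3
  rw [map_mul, map_one] at h4
  apply le_antisymm h1
  calc (1 : _) = _ := h4.symm
    _ ≤ (cV3 K₁ M q hq hqM K₃ R₃ h13 ζ hζ).valuation
        (algebraMap ↥R₁ (FK ↥K₁ (M * q * q)) (u : ↥R₁)) * 1 := mul_le_mul_right h2 _
    _ = _ := mul_one _

/-- **field `he₃`**: `ϖ = b₃^(q-1) · unit` at `V₃`, for `q` a uniformizer of `R₁`. -/
theorem tri_he₃ [Algebra ↥R₁ (FK ↥K₁ (M * q * q))]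
    [IsScalarTower ↥R₁ ↥K₁ (FK ↥K₁ (M * q * q))]
    (hR : ∀ c : ↥K₁, c ∈ R₁ ↔ IntermediateField.inclusion h13 c ∈ R₃)
    (hqR : (q : ↥K₃) ∈ R₃.nonunits)
    (hirr : Irreducible ((q : ℕ) : ↥R₁)) (ϖ : ↥R₁) (hϖ : Irreducible ϖ) :
    OrdAt (cV3 K₁ M q hq hqM K₃ R₃ h13 ζ hζ) (cb3 K₁ M q)
      (algebraMap ↥R₁ (FK ↥K₁ (M * q * q)) ϖ) ((q : ℤ) - 1) := by
  unfold OrdAt
  obtain ⟨u, hu⟩ := (IsDiscreteValuationRing.associated_of_irreducible _ hirr hϖ)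
  -- `ϖ = q · u`
  have hϖ' : algebraMap ↥R₁ (FK ↥K₁ (M * q * q)) ϖ =
      ((q : ℕ) : FK ↥K₁ (M * q * q)) * algebraMap ↥R₁ (FK ↥K₁ (M * q * q)) (u : ↥R₁) := by
    rw [← hu, RingHom.map_mul, map_natCast]
  have hU := tri_unit₃ K₁ K₃ R₁ R₃ M q hq hqM h13 ζ hζ hR u
  have hval : (cV3 K₁ M q hq hqM K₃ R₃ h13 ζ hζ).valuation
      (cb3 K₁ M q ^ (q - 1) / ((q : ℕ) : FK ↥K₁ (M * q * q))) = 1 := by
    rw [cb3_eq]
    exact V3_unif_unit R₃ (M * q * q) q h13 hq (sq_dvd_level M q)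
      (cube_not_dvd_level M q hq hqM) ζ hζ hqR
  have hb0 : cb3 K₁ M q ≠ 0 := by
    intro h0
    rw [h0, zero_pow (Nat.sub_ne_zero_of_lt hq.one_lt), zero_div, Valuation.map_zero] at hval
    exact zero_ne_one hval
  have hq0 : ((q : ℕ) : FK ↥K₁ (M * q * q)) ≠ 0 := Nat.cast_ne_zero.2 hq.ne_zero
  have hexp : ((q : ℤ) - 1) = ((q - 1 : ℕ) : ℤ) := by
    rw [Nat.cast_sub hq.one_lt.le]
    simp
  have hinv : algebraMap ↥R₁ (FK ↥K₁ (M * q * q)) ϖ * cb3 K₁ M q ^ (-((q : ℤ) - 1)) =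
      algebraMap ↥R₁ (FK ↥K₁ (M * q * q)) (u : ↥R₁) *
        (cb3 K₁ M q ^ (q - 1) / ((q : ℕ) : FK ↥K₁ (M * q * q)))⁻¹ := by
    rw [hϖ', hexp, zpow_neg, zpow_natCast, inv_div, div_eq_mul_inv]
    ring
  rw [hinv, Valuation.map_mul, hU, one_mul, map_inv₀, hval, inv_one]

/-- **field `hd₃`** (generic `K₃`): every `x ≠ 0` is `b₃^k · unit` at `V₃`, if `K₃ = K₁(ζ)` and
`q` is a uniformizer of `R₁`. -/
theorem tri_hd₃_gen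
    (hR : ∀ c : ↥K₁, c ∈ R₁ ↔ IntermediateField.inclusion h13 c ∈ R₃)
    (hqR : (q : ↥K₃) ∈ R₃.nonunits)
    (hirr : Irreducible ((q : ℕ) : ↥R₁))
    (hK₃ : ∀ c : ↥K₃, ∃ a : Fin (q - 1) → ↥K₁,
      c = ∑ i : Fin (q - 1), IntermediateField.inclusion h13 (a i) * ((ζ : ↥K₃) - 1) ^ (i : ℕ))
    (x : FK ↥K₁ (M * q * q)) (hx : x ≠ 0) :
    ∃ k : ℤ, OrdAt (cV3 K₁ M q hq hqM K₃ R₃ h13 ζ hζ) (cb3 K₁ M q) x k := by
  unfold OrdAt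
  rw [cb3_eq]
  exact V3_disc R₃ (M * q * q) q h13 hq (sq_dvd_level M q) (cube_not_dvd_level M q hq hqM) ζ hζ
    hqR hK₃ (hunr_of_irreducible R₁ R₃ h13 hR q hirr) x hx

/-- **field `hα₃`**: `V₃ | V₁'` via `α`. -/
theorem tri_hα₃
    (hR : ∀ c : ↥K₁, c ∈ R₁ ↔ IntermediateField.inclusion h13 c ∈ R₃)
    (x : FK ↥K₁ (M * q)) :
    (cV1' K₁ R₁ M q).valuation x < 1 ↔
      (cV3 K₁ M q hq hqM K₃ R₃ h13 ζ hζ).valuation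
        ((heckeAlphaBar ↥K₁ (M * q) q).toRingHom x) < 1 := by
  have hqN₁ : ¬ q ^ 2 ∣ M * q := by
    intro h
    apply hqM
    have h1 : q * q ∣ q * M := by
      have e1 : q ^ 2 = q * q := by ring
      have e2 : M * q = q * M := by ring
      rwa [e1, e2] at h
    exact Nat.dvd_of_mul_dvd_mul_left hq.pos h1
  have hx : ((heckeAlphaBar ↥K₁ (M * q) q x : FK ↥K₁ (M * q * q)) : LaurentSeries ↥K₁) ∈
      laurentBaseChange ↥K₁ (modularFunctionFieldFull (M * q)) := by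
    rw [coe_heckeAlphaBar]
    exact x.2
  have h := (V3_of_level R₁ R₃ (M * q * q) q h13 hR hq (sq_dvd_level M q)
    (cube_not_dvd_level M q hq hqM) ζ hζ (M * q) (Dvd.intro _ rfl) hqN₁
    (heckeAlphaBar ↥K₁ (M * q) q x) hx).2
  rw [coe_heckeAlphaBar] at h
  unfold cV1'
  rw [H10FC.gaussVal_lt_one]
  exact h.symm

/-- **field `hβ₃`**: `V₃ | V₂'` via `β`. -/
theorem tri_hβ₃
    (hR : ∀ c : ↥K₁, c ∈ R₁ ↔ IntermediateField.inclusion h13 c ∈ R₃)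
    (x : FK ↥K₁ (M * q)) :
    (cV2' K₁ R₁ M q hq hqM).valuation x < 1 ↔
      (cV3 K₁ M q hq hqM K₃ R₃ h13 ζ hζ).valuation
        ((heckeBetaBar ↥K₁ (M * q) q).toRingHom x) < 1 := by
  have h := (V3_betaM (M * q * q) q M R₁ R₃ h13 hR hq hqM (sq_dvd_level M q)
    (cube_not_dvd_level M q hq hqM) dvd_rfl ζ hζ x).2
  have hb : betaM (M * q * q) q M K₁ dvd_rfl x = heckeBetaBar ↥K₁ (M * q) q x := by
    apply Subtype.ext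
    rfl
  rw [hb] at h
  unfold cV2'
  rw [H10FC.gaussVal2_lt_one]
  exact h.symm

end Tri

/-! ### the field `hd₃` for `K₃ = K₁(ζ₀)` -/

section TriK3

variable (K₁ : IntermediateField ℚ Kbar) (R₁ : ValuationSubring ↥K₁)
  [IsDiscreteValuationRing R₁]
  (M q : ℕ) [NeZero M] [NeZero q] (hq : q.Prime) (hqM : ¬ q ∣ M)
  (ζ₀ : Kbar) (hζ₀ : IsPrimitiveRoot ζ₀ q)
  (R₃ : ValuationSubring ↥(K3 K₁ ζ₀)) [IsDiscreteValuationRing R₃]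

/-- **field `hd₃`** for `K₃ = K₁(ζ₀)`, `ζ = ζ₀`. -/
theorem tri_hd₃
    (hR : ∀ c : ↥K₁, c ∈ R₁ ↔ IntermediateField.inclusion (le_K3 K₁ ζ₀) c ∈ R₃)
    (hqR : (q : ↥(K3 K₁ ζ₀)) ∈ R₃.nonunits)
    (hirr : Irreducible ((q : ℕ) : ↥R₁))
    (x : FK ↥K₁ (M * q * q)) (hx : x ≠ 0) :
    ∃ k : ℤ, OrdAt (cV3 K₁ M q hq hqM (K3 K₁ ζ₀) R₃ (le_K3 K₁ ζ₀)
      (zetaU K₁ ζ₀ hq.pos hζ₀.pow_eq_one) (isPrimitiveRoot_zetaU K₁ ζ₀ hq.pos hζ₀))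
      (cb3 K₁ M q) x k :=
  tri_hd₃_gen K₁ (K3 K₁ ζ₀) R₁ R₃ M q hq hqM (le_K3 K₁ ζ₀) _ _ hR hqR hirr
    (hK3_K3 K₁ ζ₀ hq hζ₀) x hx

end TriK3

end H3V3

end
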