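import Mathlib
import Fermat.Agent.S36.TripleEasy_helper11
import Fermat.Agent.S36.TripleTG_helper8
import Fermat.Agent.S36.TripleSep_helper27
import Fermat.Agent.S36.TripleJ_helper27
import Fermat.Agent.S36.TripleBeta3_helper24
import Fermat.Agent.S36.TripHd_helper25
import Fermat.Agent.S36.V3Tri_helper3
import Fermat.Agent.S36.NormConst_helper13
import Fermat.Agent.S36.ResFieldTG_helper9
import Fermat.Agent.S36.InjUDefs_helper4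

/-!
# Item 86 (S36, Carayol), slice (TRIPLE-ASM), part 2 (helper11): the concrete `H4S36.Triple`

Context: `q` prime, `q ∤ M`, `TameLevel q M`; `A ⊆ ℚ̄` over `q`; `K₁ ⊆ ℚ̄` finite, unramified at `A`
(`q` is a uniformizer of `R₁ = descVal A K₁`); `K₃ ⊇ K₁` finite with a primitive `q`-th root of
unity `ζ`, `K₃ = K₁(ζ)`, `R₃ = descVal A K₃`.  Objects `cV1 cV2 cV3 cV1' cV2' cb3` of
`S36/TripleDefs_helper4.lean`.

* `H11TA.triple_of_norm` : all fields of `H4S36.Triple` except the eight (NORM) fields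
  `vN*`, `cN*` (hypotheses), from the lemmas of the field owners
  (helper8 TG, helper27 wa/wg/hJ, helper25 hd, helper3 V₃, helper24 (U2), helper9 f₁α/f₃α,
  helper13 norms of constants, helper11 easy fields + calg).
-/

set_option autoImplicit false
set_option linter.unusedSectionVars false
set_option linter.unusedVariables false
set_option linter.style.haveILetI false
set_option linter.style.longLine false
set_option synthInstance.maxHeartbeats 400000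
set_option maxHeartbeats 1000000

noncomputable section

open IntermediateField AlgebraicCurve ModularCurve H7S18 RH24 HahnSeries H8PB H4S36 H17T3 H4S34
  H1FW

namespace H11TA

section concrete

variable (M : ℕ) [NeZero M] (q : ℕ) [NeZero q] (hq : q.Prime) (hqM : ¬ q ∣ M)
  (hT : TameLevel q M)
  (A : ValuationSubring (AlgebraicClosure ℚ)) (hA : A.LiesOverPrime q)
  (K₁ : IntermediateField ℚ (AlgebraicClosure ℚ)) (hfin : FiniteDimensional ℚ K₁)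
  (hunr : Irreducible ((q : ℕ) : ↥(descVal A K₁)))
  (K₃ : IntermediateField ℚ (AlgebraicClosure ℚ)) (hfin₃ : FiniteDimensional ℚ K₃)
  (h13 : K₁ ≤ K₃) (ζ : (↥K₃)ˣ) (hζ : IsPrimitiveRoot ζ q)
  (hK₃ : ∀ c : ↥K₃, ∃ a : Fin (q - 1) → ↥K₁,
    c = ∑ i : Fin (q - 1), IntermediateField.inclusion h13 (a i) * ((ζ : ↥K₃) - 1) ^ (i : ℕ))
  [IsDiscreteValuationRing ↥(descVal A K₁)] [IsDiscreteValuationRing ↥(descVal A K₃)]
  [Fact q.Prime] [CharP (IsLocalRing.ResidueField ↥(descVal A K₁)) q]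
  (B : H28GV.GVBasis (descVal A K₁) (IsLocalRing.residue ↥(descVal A K₁)) M)
  [Algebra ↥(descVal A K₁) (FK K₁ (M * q * q))]
  [IsScalarTower ↥(descVal A K₁) K₁ (FK K₁ (M * q * q))]
  [Algebra ↥(descVal A K₁) (FK K₁ (M * q))]
  [IsScalarTower ↥(descVal A K₁) K₁ (FK K₁ (M * q))]

/-- `R₃ ∩ K₁ = R₁` -/
theorem hR_desc : ∀ c : ↥K₁, c ∈ descVal A K₁ ↔ IntermediateField.inclusion h13 c ∈ descVal A K₃ :=
  fun _ => Iff.rfl

include hT hA hfin hunr hfin₃ hK₃ B in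
set_option maxHeartbeats 4000000 in
/-- **the concrete `Triple`, up to the (NORM) fields**. -/
theorem triple_of_norm (n : ℕ) (hn : 0 < n)
    (t₀ : LaurentSeries ℚ) (ht₀ : IsBase (baseKind q) t₀)
    (t : FK K₁ (M * q * q)) (ht : (t : LaurentSeries K₁) = coeffEmb K₁ t₀)
    (vNα₁ : ∀ (x : FK K₁ (M * q * q)) (a c : ℤ),
      OrdAt (cV1 K₁ (descVal A K₁) M q)
        (algebraMap ↥(descVal A K₁) (FK K₁ (M * q * q)) ((q : ℕ) : ↥(descVal A K₁))) x a →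
      OrdAt (cV3 K₁ M q hq hqM K₃ (descVal A K₃) h13 ζ hζ) (cb3 K₁ M q) x c →
      OrdAt (cV1' K₁ (descVal A K₁) M q)
        (algebraMap ↥(descVal A K₁) (FK K₁ (M * q)) ((q : ℕ) : ↥(descVal A K₁)))
        (normAKH K₁ M q x) (a + c))
    (vNα₂ : ∀ (x : FK K₁ (M * q * q)) (a : ℤ),
      OrdAt (cV2 K₁ (descVal A K₁) M q hq hqM)
        (algebraMap ↥(descVal A K₁) (FK K₁ (M * q * q)) ((q : ℕ) : ↥(descVal A K₁))) x a →
      OrdAt (cV2' K₁ (descVal A K₁) M q hq hqM)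
        (algebraMap ↥(descVal A K₁) (FK K₁ (M * q)) ((q : ℕ) : ↥(descVal A K₁)))
        (normAKH K₁ M q x) (q * a))
    (vNβ₁ : ∀ (x : FK K₁ (M * q * q)) (a : ℤ),
      OrdAt (cV1 K₁ (descVal A K₁) M q)
        (algebraMap ↥(descVal A K₁) (FK K₁ (M * q * q)) ((q : ℕ) : ↥(descVal A K₁))) x a →
      OrdAt (cV1' K₁ (descVal A K₁) M q)
        (algebraMap ↥(descVal A K₁) (FK K₁ (M * q)) ((q : ℕ) : ↥(descVal A K₁)))
        (normBKH K₁ M q x) (q * a))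
    (vNβ₂ : ∀ (x : FK K₁ (M * q * q)) (a c : ℤ),
      OrdAt (cV2 K₁ (descVal A K₁) M q hq hqM)
        (algebraMap ↥(descVal A K₁) (FK K₁ (M * q * q)) ((q : ℕ) : ↥(descVal A K₁))) x a →
      OrdAt (cV3 K₁ M q hq hqM K₃ (descVal A K₃) h13 ζ hζ) (cb3 K₁ M q) x c →
      OrdAt (cV2' K₁ (descVal A K₁) M q hq hqM)
        (algebraMap ↥(descVal A K₁) (FK K₁ (M * q)) ((q : ℕ) : ↥(descVal A K₁)))
        (normBKH K₁ M q x) (a + c))
    (cNα₁ : ∀ x : FK K₁ (M * q * q), (cV1 K₁ (descVal A K₁) M q).valuation x = 1 →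
      (cV3 K₁ M q hq hqM K₃ (descVal A K₃) h13 ζ hζ).valuation x = 1 →
      ∀ a : FK K₁ (M * q), a ∈ cV1' K₁ (descVal A K₁) M q →
      Cg (cV3 K₁ M q hq hqM K₃ (descVal A K₃) h13 ζ hζ) x
        ((heckeAlphaBar ↥K₁ (M * q) q).toRingHom a) →
      Cg (cV1 K₁ (descVal A K₁) M q)
        ((heckeAlphaBar ↥K₁ (M * q) q).toRingHom (normAKH K₁ M q x))
        (x * (heckeAlphaBar ↥K₁ (M * q) q).toRingHom a ^ (q - 1)))
    (cNα₂ : ∀ x : FK K₁ (M * q * q), (cV2 K₁ (descVal A K₁) M q hq hqM).valuation x = 1 →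
      Cg (cV2 K₁ (descVal A K₁) M q hq hqM)
        ((heckeAlphaBar ↥K₁ (M * q) q).toRingHom (normAKH K₁ M q x)) (x ^ q))
    (cNβ₂ : ∀ x : FK K₁ (M * q * q), (cV2 K₁ (descVal A K₁) M q hq hqM).valuation x = 1 →
      (cV3 K₁ M q hq hqM K₃ (descVal A K₃) h13 ζ hζ).valuation x = 1 →
      ∀ a : FK K₁ (M * q), a ∈ cV2' K₁ (descVal A K₁) M q hq hqM →
      Cg (cV3 K₁ M q hq hqM K₃ (descVal A K₃) h13 ζ hζ) x
        ((heckeBetaBar ↥K₁ (M * q) q).toRingHom a) →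
      Cg (cV2 K₁ (descVal A K₁) M q hq hqM)
        ((heckeBetaBar ↥K₁ (M * q) q).toRingHom (normBKH K₁ M q x))
        (x * (heckeBetaBar ↥K₁ (M * q) q).toRingHom a ^ (q - 1)))
    (cNβ₁ : ∀ x : FK K₁ (M * q * q), (cV1 K₁ (descVal A K₁) M q).valuation x = 1 →
      Cg (cV1 K₁ (descVal A K₁) M q)
        ((heckeBetaBar ↥K₁ (M * q) q).toRingHom (normBKH K₁ M q x)) (x ^ q)) :
    Triple ↥(descVal A K₁) K₁ (FK K₁ (M * q * q)) (FK K₁ (M * q))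
      ((q : ℕ) : ↥(descVal A K₁)) t q n
      (heckeAlphaBar ↥K₁ (M * q) q).toRingHom (heckeBetaBar ↥K₁ (M * q) q).toRingHom
      (normAKH K₁ M q) (normBKH K₁ M q)
      (cV1 K₁ (descVal A K₁) M q) (cV2 K₁ (descVal A K₁) M q hq hqM)
      (cV3 K₁ M q hq hqM K₃ (descVal A K₃) h13 ζ hζ)
      (cV1' K₁ (descVal A K₁) M q) (cV2' K₁ (descVal A K₁) M q hq hqM) (cb3 K₁ M q) := by
  have hR := hR_desc A K₁ K₃ h13
  have hqR : ((q : ℕ) : ↥K₃) ∈ (descVal A K₃).nonunits := H8TG.h8tg_hqR q A hA K₃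
  have hO := H8TG.tg_hO M q hq hqM hT A hA K₁ hfin hunr K₃ hfin₃ h13 ζ hζ t₀ ht₀ t ht
  have hϖ0 : algebraMap ↥(descVal A K₁) (FK K₁ (M * q * q)) ((q : ℕ) : ↥(descVal A K₁)) ≠ 0 :=
    algebraMap_ne_zero K₁ (descVal A K₁) hunr (M * q * q)
  have hϖ₁ := fld_hϖ₁ K₁ (descVal A K₁) M q hunr
  have hϖ₂ := fld_hϖ₂ K₁ (descVal A K₁) M q hq hqM hunr
  have hb₃ := H3V3.tri_hb₃ K₁ K₃ (descVal A K₃) M q hq hqM h13 ζ hζ hqR
  have he₃ := H3V3.tri_he₃ K₁ K₃ (descVal A K₁) (descVal A K₃) M q hq hqM h13 ζ hζ hR hqR hunr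
    ((q : ℕ) : ↥(descVal A K₁)) hunr
  have hd₁ := H25HD.hd_cV1 K₁ (descVal A K₁) M q ((q : ℕ) : ↥(descVal A K₁)) hunr
  have hd₂ := H25HD.hd_cV2 K₁ (descVal A K₁) M q hq hqM ((q : ℕ) : ↥(descVal A K₁)) hunr
  have hd₃ := H3V3.tri_hd₃_gen K₁ K₃ (descVal A K₁) (descVal A K₃) M q hq hqM h13 ζ hζ hR hqR
    hunr hK₃
  have hb0 : cb3 K₁ M q ≠ 0 := by
    intro h
    have := H27WA.cV1_val_cb3 K₁ (descVal A K₁) M q
    rw [h, Valuation.map_zero] at this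
    exact zero_ne_one this
  have wg : ∀ ψ₁ ψ₂ ψ₃ : FK K₁ (M * q * q),
      (cV1 K₁ (descVal A K₁) M q).valuation ψ₁ = 1 →
      (cV2 K₁ (descVal A K₁) M q hq hqM).valuation ψ₂ = 1 →
      (cV3 K₁ M q hq hqM K₃ (descVal A K₃) h13 ζ hζ).valuation ψ₃ = 1 →
      ∃ Ψ : FK K₁ (M * q * q), Cg (cV1 K₁ (descVal A K₁) M q) Ψ ψ₁ ∧
        Cg (cV2 K₁ (descVal A K₁) M q hq hqM) Ψ ψ₂ ∧
        Cg (cV3 K₁ M q hq hqM K₃ (descVal A K₃) h13 ζ hζ) Ψ ψ₃ :=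
    fun ψ₁ ψ₂ ψ₃ _ _ _ =>
      H27WA.c_wg K₁ (descVal A K₁) M q hq hqM K₃ (descVal A K₃) h13 ζ hζ hqR _ hϖ0 hϖ₁ hϖ₂
        hd₁ hd₂ hd₃ ψ₁ ψ₂ ψ₃
  have f₁α := H9CU.triple_f1α M q hq hqM hT A hA K₁ hfin hunr K₃ hfin₃ h13 ζ hζ t₀ ht₀ t ht wg
  have f₃α := H9CU.triple_f3α M q hq hqM hT A hA K₁ hfin hunr K₃ hfin₃ h13 ζ hζ t₀ ht₀ t ht wg
  have hU2 := H24V3.cV3_comap_wq2 K₁ (descVal A K₁) M q hq hqM K₃ (descVal A K₃) h13 hR hunr B
    ζ hζ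
  exact
    { hO := hO
      hJ := H27WA.triple_hJ ((q : ℕ) : ↥(descVal A K₁)) t q hq.one_le hO hϖ0 hb0 hϖ₁ hϖ₂ hb₃
        he₃ hd₁ hd₂ hd₃
      hR₁ := fld_hR₁ K₁ (descVal A K₁) M q
      hR₂ := fld_hR₂ K₁ (descVal A K₁) M q hq hqM
      hR₃ := H3V3.tri_hR₃ K₁ K₃ (descVal A K₁) (descVal A K₃) M q hq hqM h13 ζ hζ hR
      hR₁' := fld_hR₁' K₁ (descVal A K₁) M q
      hR₂' := fld_hR₂' K₁ (descVal A K₁) M q hq hqM
      hϖ₁ := hϖ₁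
      hϖ₂ := hϖ₂
      hb₃ := hb₃
      he₃ := he₃
      hϖ₁' := fld_hϖ₁' K₁ (descVal A K₁) M q hunr
      hϖ₂' := fld_hϖ₂' K₁ (descVal A K₁) M q hq hqM hunr
      hd₁ := hd₁
      hd₂ := hd₂
      hd₃ := hd₃
      hd₁' := H25HD.hd_cV1' K₁ (descVal A K₁) M q ((q : ℕ) : ↥(descVal A K₁)) hunr
      hd₂' := H25HD.hd_cV2' K₁ (descVal A K₁) M q hq hqM ((q : ℕ) : ↥(descVal A K₁)) hunr
      wa := H27WA.c_wa K₁ (descVal A K₁) M q hq hqM K₃ (descVal A K₃) h13 ζ hζ hqR _ hϖ0 hϖ₁ hϖ₂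
        hd₁ hd₂ hd₃
      wg := wg
      hφα := fld_hφα K₁ M q
      hφβ := fld_hφβ K₁ M q
      hNαc := fun c => H13N3.normAK_const K₁ M q hq c
      hNβc := fun c => H13N3.normBK_const K₁ M q hq hqM c
      hα₁ := H8TG.tg_hα1 K₁ (descVal A K₁) M q
      hα₃ := H3V3.tri_hα₃ K₁ K₃ (descVal A K₁) (descVal A K₃) M q hq hqM h13 ζ hζ hR
      hα₂ := H8TG.tg_hα2 K₁ (descVal A K₁) M q hq hqM
      hβ₁ := H8TG.tg_hβ1 K₁ (descVal A K₁) M q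
      hβ₃ := H3V3.tri_hβ₃ K₁ K₃ (descVal A K₁) (descVal A K₃) M q hq hqM h13 ζ hζ hR
      hβ₂ := H8TG.tg_hβ2 K₁ (descVal A K₁) M q hq hqM
      vNα₁ := vNα₁
      vNα₂ := vNα₂
      vNβ₁ := vNβ₁
      vNβ₂ := vNβ₂
      cNα₁ := cNα₁
      cNα₂ := cNα₂
      cNβ₂ := cNβ₂
      cNβ₁ := cNβ₁
      f₃α := f₃α
      f₃β := H8TG.tg_f3β_of_f3α K₁ (descVal A K₁) M q hq hqM _ hU2 f₃α
      f₁α := f₁α
      f₂β := H8TG.tg_f2β_of_f1α K₁ (descVal A K₁) M q hq hqM f₁α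
      calg := fld_calg K₁ (descVal A K₁) M q hunr n hn }

end concrete

end H11TA

end
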