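import Mathlib
import Fermat.Agent.S36.TripleAsm_helper11
import Fermat.Agent.S36.V3K3_helper3
import Fermat.Agent.S36.GlueBase_helper4
import Fermat.Agent.S36.LevelChangeRigid_helper28
import Fermat.Agent.S18.C7a_helper1
import Fermat.Agent.S18.GVBasisGen_helper28

/-!
# Item 86 (S36, Carayol), architect file (helper4): the FINAL GLUE, concrete context

Context at a field `L` (finite over `ℚ`, `q` a uniformizer of `R = A ∩ L`):
`K₃ = L(ζ_q)`, `R₃ = A ∩ K₃`, the objects `cV1 cV2 cV3 cV1' cV2' cb3` of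
`S36/TripleDefs_helper4.lean`.

* `NormFields …` : the eight (NORM) fields of `Triple` (owner helper13);
* `ConcNormAt`, `ConcMLocAt M q hq hqM A n L` : the two concrete leaves at ONE field `L`, in the
  context of `H11TA.triple_of_norm` (every admissible `K₃`, `ζ`);
* `concTriple_of_norm` : the concrete `Triple` from `ConcNormAt` (`H11TA.triple_of_norm`);
* `tripleLeafAt_of_conc` : `ConcNormAt + ConcMLocAt ⟹ TripleLeafAt` (choice of `K₃ = H3V3.K3 L ζ₀`);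
* `ConcNormStatement`, `ConcMLocStatement` (`U`-forms at the rigid tame levels) and
  `tripleUAt_of_conc`.
-/

set_option autoImplicit false
set_option linter.unusedSectionVars false
set_option linter.unusedVariables false
set_option linter.style.haveILetI false
set_option linter.style.longLine false
set_option synthInstance.maxHeartbeats 400000
set_option maxHeartbeats 4000000

noncomputable section

open IntermediateField AlgebraicCurve ModularCurve H7S18 H4S34 H1FW H1G3 H17T3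

namespace H4S36

local notation "Qb" => AlgebraicClosure ℚ

/-- the eight (NORM) fields of `H4S36.Triple`. -/
structure NormFields (R : Type) [CommRing R] (F : Type) [Field F] [Algebra R F]
    (F' : Type) [Field F'] [Algebra R F']
    (ϖ : R) (q : ℕ) (φα φβ : F' →+* F) (Nα Nβ : F →* F')
    (V₁ V₂ V₃ : ValuationSubring F) (V₁' V₂' : ValuationSubring F') (b₃ : F) : Prop where
  vNα₁ : ∀ (x : F) (a c : ℤ), OrdAt V₁ (algebraMap R F ϖ) x a → OrdAt V₃ b₃ x c →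
    OrdAt V₁' (algebraMap R F' ϖ) (Nα x) (a + c)
  vNα₂ : ∀ (x : F) (a : ℤ), OrdAt V₂ (algebraMap R F ϖ) x a →
    OrdAt V₂' (algebraMap R F' ϖ) (Nα x) (q * a)
  vNβ₁ : ∀ (x : F) (a : ℤ), OrdAt V₁ (algebraMap R F ϖ) x a →
    OrdAt V₁' (algebraMap R F' ϖ) (Nβ x) (q * a)
  vNβ₂ : ∀ (x : F) (a c : ℤ), OrdAt V₂ (algebraMap R F ϖ) x a → OrdAt V₃ b₃ x c →
    OrdAt V₂' (algebraMap R F' ϖ) (Nβ x) (a + c)
  cNα₁ : ∀ x : F, V₁.valuation x = 1 → V₃.valuation x = 1 → ∀ a : F', a ∈ V₁' →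
    Cg V₃ x (φα a) → Cg V₁ (φα (Nα x)) (x * φα a ^ (q - 1))
  cNα₂ : ∀ x : F, V₂.valuation x = 1 → Cg V₂ (φα (Nα x)) (x ^ q)
  cNβ₂ : ∀ x : F, V₂.valuation x = 1 → V₃.valuation x = 1 → ∀ a : F', a ∈ V₂' →
    Cg V₃ x (φβ a) → Cg V₂ (φβ (Nβ x)) (x * φβ a ^ (q - 1))
  cNβ₁ : ∀ x : F, V₁.valuation x = 1 → Cg V₁ (φβ (Nβ x)) (x ^ q)

section Conc

variable (M : ℕ) [NeZero M] (q : ℕ) [NeZero q] [NeZero (M * q)] [NeZero (M * q * q)]
  (hq : q.Prime) (hqM : ¬ q ∣ M)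

/-- the (NORM) leaf at ONE field `L`, for every admissible `K₃ = L(ζ)`. -/
def ConcNormAt (A : ValuationSubring Qb) (L : IntermediateField ℚ Qb) : Prop :=
  ∀ (K₃ : IntermediateField ℚ Qb) (_ : FiniteDimensional ℚ K₃) (h13 : L ≤ K₃)
    (ζ : (↥K₃)ˣ) (hζ : IsPrimitiveRoot ζ q)
    (_ : ∀ c : ↥K₃, ∃ a : Fin (q - 1) → ↥L,
      c = ∑ i : Fin (q - 1), IntermediateField.inclusion h13 (a i) * ((ζ : ↥K₃) - 1) ^ (i : ℕ))
    [IsDiscreteValuationRing ↥(descVal A L)] [IsDiscreteValuationRing ↥(descVal A K₃)]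
    [Algebra ↥(descVal A L) (FK L (M * q * q))]
    [IsScalarTower ↥(descVal A L) L (FK L (M * q * q))]
    [Algebra ↥(descVal A L) (FK L (M * q))]
    [IsScalarTower ↥(descVal A L) L (FK L (M * q))],
    NormFields ↥(descVal A L) (FK L (M * q * q)) (FK L (M * q))
      ((q : ℕ) : ↥(descVal A L)) q
      (heckeAlphaBar L (M * q) q).toRingHom (heckeBetaBar L (M * q) q).toRingHom
      (normAKH L M q) (normBKH L M q)
      (cV1 L (descVal A L) M q) (cV2 L (descVal A L) M q hq hqM)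
      (cV3 L M q hq hqM K₃ (descVal A K₃) h13 ζ hζ)
      (cV1' L (descVal A L) M q) (cV2' L (descVal A L) M q hq hqM) (cb3 L M q)

/-- the (MLOC) leaf at ONE field `L`, for every admissible `K₃ = L(ζ)`: the concrete `Triple`
gives the concrete `MLocLeaf`. -/
def ConcMLocAt (A : ValuationSubring Qb) (n : ℕ) (L : IntermediateField ℚ Qb) : Prop :=
  ∀ (K₃ : IntermediateField ℚ Qb) (_ : FiniteDimensional ℚ K₃) (h13 : L ≤ K₃)
    (ζ : (↥K₃)ˣ) (hζ : IsPrimitiveRoot ζ q)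
    (_ : ∀ c : ↥K₃, ∃ a : Fin (q - 1) → ↥L,
      c = ∑ i : Fin (q - 1), IntermediateField.inclusion h13 (a i) * ((ζ : ↥K₃) - 1) ^ (i : ℕ))
    [IsDiscreteValuationRing ↥(descVal A L)] [IsDiscreteValuationRing ↥(descVal A K₃)]
    [Algebra ↥(descVal A L) (FK L (M * q * q))]
    [IsScalarTower ↥(descVal A L) L (FK L (M * q * q))]
    [Algebra ↥(descVal A L) (FK L (M * q))]
    [IsScalarTower ↥(descVal A L) L (FK L (M * q))]
    (t₀ : LaurentSeries ℚ) (_ : IsBase (baseKind q) t₀)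
    (t : FK L (M * q * q)) (_ : (t : LaurentSeries L) = coeffEmb L t₀),
    Triple ↥(descVal A L) L (FK L (M * q * q)) (FK L (M * q))
      ((q : ℕ) : ↥(descVal A L)) t q n
      (heckeAlphaBar L (M * q) q).toRingHom (heckeBetaBar L (M * q) q).toRingHom
      (normAKH L M q) (normBKH L M q)
      (cV1 L (descVal A L) M q) (cV2 L (descVal A L) M q hq hqM)
      (cV3 L M q hq hqM K₃ (descVal A K₃) h13 ζ hζ)
      (cV1' L (descVal A L) M q) (cV2' L (descVal A L) M q hq hqM) (cb3 L M q) →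
    MLocLeaf ↥(descVal A L) L (FK L (M * q * q)) (FK L (M * q))
      ((q : ℕ) : ↥(descVal A L)) t q n (normAKH L M q) (normBKH L M q)
      (cV1 L (descVal A L) M q) (cV2 L (descVal A L) M q hq hqM)
      (cV3 L M q hq hqM K₃ (descVal A K₃) h13 ζ hζ)

/-- **the concrete `Triple`** from the (NORM) leaf. -/
theorem concTriple_of_norm (hT : TameLevel q M)
    (A : ValuationSubring Qb) (hA : A.LiesOverPrime q)
    (L : IntermediateField ℚ Qb) (hfin : FiniteDimensional ℚ L)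
    (hunr : Irreducible ((q : ℕ) : ↥(descVal A L)))
    (hN : ConcNormAt M q hq hqM A L)
    (K₃ : IntermediateField ℚ Qb) (hfin₃ : FiniteDimensional ℚ K₃) (h13 : L ≤ K₃)
    (ζ : (↥K₃)ˣ) (hζ : IsPrimitiveRoot ζ q)
    (hK₃ : ∀ c : ↥K₃, ∃ a : Fin (q - 1) → ↥L,
      c = ∑ i : Fin (q - 1), IntermediateField.inclusion h13 (a i) * ((ζ : ↥K₃) - 1) ^ (i : ℕ))
    [IsDiscreteValuationRing ↥(descVal A L)] [IsDiscreteValuationRing ↥(descVal A K₃)]
    [Algebra ↥(descVal A L) (FK L (M * q * q))]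
    [IsScalarTower ↥(descVal A L) L (FK L (M * q * q))]
    [Algebra ↥(descVal A L) (FK L (M * q))]
    [IsScalarTower ↥(descVal A L) L (FK L (M * q))]
    (n : ℕ) (hn : 0 < n)
    (t₀ : LaurentSeries ℚ) (ht₀ : IsBase (baseKind q) t₀)
    (t : FK L (M * q * q)) (ht : (t : LaurentSeries L) = coeffEmb L t₀) :
    Triple ↥(descVal A L) L (FK L (M * q * q)) (FK L (M * q))
      ((q : ℕ) : ↥(descVal A L)) t q n
      (heckeAlphaBar L (M * q) q).toRingHom (heckeBetaBar L (M * q) q).toRingHom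
      (normAKH L M q) (normBKH L M q)
      (cV1 L (descVal A L) M q) (cV2 L (descVal A L) M q hq hqM)
      (cV3 L M q hq hqM K₃ (descVal A K₃) h13 ζ hζ)
      (cV1' L (descVal A L) M q) (cV2' L (descVal A L) M q hq hqM) (cb3 L M q) := by
  haveI hqF : Fact q.Prime := ⟨hq⟩
  obtain ⟨-, hcharp⟩ := H1S18.c7Perfect q A hA L
  haveI := hcharp
  have hchar : ∀ r : ℕ, r.Prime → r ∣ M →
      (r : IsLocalRing.ResidueField ↥(descVal A L)) ≠ 0 := by
    intro r hr hrM h0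
    have h1 := (CharP.cast_eq_zero_iff (IsLocalRing.ResidueField ↥(descVal A L)) q r).mp h0
    have h2 : q = r := (Nat.prime_dvd_prime_iff_eq hq hr).mp h1
    exact hqM (h2 ▸ hrM)
  obtain ⟨B⟩ := H28GV.gv_basis_nonempty_gen (descVal A L)
    (IsLocalRing.residue ↥(descVal A L)) M hchar
  have hNF := hN K₃ hfin₃ h13 ζ hζ hK₃
  exact H11TA.triple_of_norm M q hq hqM hT A hA L hfin hunr K₃ hfin₃ h13 ζ hζ hK₃ B n hn
    t₀ ht₀ t ht hNF.vNα₁ hNF.vNα₂ hNF.vNβ₁ hNF.vNβ₂ hNF.cNα₁ hNF.cNα₂ hNF.cNβ₂ hNF.cNβ₁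

/-- **the concrete leaf at ONE field** from the (NORM) and (MLOC) leaves. -/
theorem tripleLeafAt_of_conc (hT : TameLevel q M)
    (A : ValuationSubring Qb) (hA : A.LiesOverPrime q) (n : ℕ) (hn : 0 < n)
    (L : IntermediateField ℚ Qb) (hfin : FiniteDimensional ℚ L)
    (hunr : Irreducible ((q : ℕ) : ↥(descVal A L)))
    (hN : ConcNormAt M q hq hqM A L) (hML : ConcMLocAt M q hq hqM A n L) :
    TripleLeafAt M q A n L := by
  classical
  haveI hqF : Fact q.Prime := ⟨hq⟩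
  intro algRF towRF algRF' towRF' t₀ ht₀ t ht
  -- `K₃ = L(ζ₀)`
  haveI : NeZero q := ⟨hq.ne_zero⟩
  obtain ⟨ζ₀, hζ₀⟩ := HasEnoughRootsOfUnity.exists_primitiveRoot Qb q
  haveI := hfin
  have hfin₃ : FiniteDimensional ℚ ↥(H3V3.K3 L ζ₀) :=
    H3V3.finiteDimensional_K3 L ζ₀ hq.pos hζ₀.pow_eq_one
  -- the DVRs
  obtain ⟨hdvr, -, -⟩ := H4DVR.dvrStatement q A hA L hfin
  obtain ⟨hdvr₃, -, -⟩ := H4DVR.dvrStatement q A hA (H3V3.K3 L ζ₀) hfin₃
  haveI := hdvr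
  haveI := hdvr₃
  have hTri := concTriple_of_norm M q hq hqM hT A hA L hfin hunr hN (H3V3.K3 L ζ₀) hfin₃
    (H3V3.le_K3 L ζ₀) (H3V3.zetaU L ζ₀ hq.pos hζ₀.pow_eq_one)
    (H3V3.isPrimitiveRoot_zetaU L ζ₀ hq.pos hζ₀) (H3V3.hK3_K3 L ζ₀ hq hζ₀) n hn t₀ ht₀ t ht
  exact ⟨_, _, _, _, _, _, hTri,
    hML (H3V3.K3 L ζ₀) hfin₃ (H3V3.le_K3 L ζ₀) (H3V3.zetaU L ζ₀ hq.pos hζ₀.pow_eq_one)
      (H3V3.isPrimitiveRoot_zetaU L ζ₀ hq.pos hζ₀) (H3V3.hK3_K3 L ζ₀ hq hζ₀) t₀ ht₀ t ht hTri⟩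

/-- **the concrete leaf in `U`-form** from the (NORM) and (MLOC) leaves in `U`-form. -/
theorem tripleUAt_of_conc (hT : TameLevel q M)
    (hN : UForm q (fun A _ L => ConcNormAt M q hq hqM A L))
    (hML : UForm q (fun A n L => ConcMLocAt M q hq hqM A n L)) :
    TripleUAt M q := by
  intro A hA n hn hqn
  obtain ⟨K₀, hK₀, h1⟩ := hN A hA n hn hqn
  obtain ⟨K₀', hK₀', h2⟩ := hML A hA n hn hqn
  haveI := hK₀
  haveI := hK₀'
  refine ⟨K₀ ⊔ K₀', IntermediateField.finiteDimensional_sup K₀ K₀', ?_⟩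
  intro K₁ hK₁ hnor hle hζ
  haveI := hK₁
  exact @tripleLeafAt_of_conc M _ q _ _ _ hq hqM hT A hA n hn (H29DU.unrPart A K₁)
    (H29DU.finiteDimensional_unrPart A K₁) (H29DU.irreducible_unrPart A K₁ q hq hA)
    (h1 K₁ hK₁ hnor (le_sup_left.trans hle) hζ) (h2 K₁ hK₁ hnor (le_sup_right.trans hle) hζ)

end Conc

/-- **(NORM) leaf**, all levels. -/
def ConcNormStatement : Prop :=
  ∀ (M q : ℕ) [NeZero M] [NeZero q] [NeZero (M * q)] [NeZero (M * q * q)]
    (hq : q.Prime) (hqM : ¬ q ∣ M), H28LC.RigidTame q M →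
    UForm q (fun A _ L => ConcNormAt M q hq hqM A L)

/-- **(MLOC) leaf**, all levels. -/
def ConcMLocStatement : Prop :=
  ∀ (M q : ℕ) [NeZero M] [NeZero q] [NeZero (M * q)] [NeZero (M * q * q)]
    (hq : q.Prime) (hqM : ¬ q ∣ M), H28LC.RigidTame q M →
    UForm q (fun A n L => ConcMLocAt M q hq hqM A n L)

end H4S36

end
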