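import Fermat.Agent.S36.NormB3_helper13

/-!
# Item 86 (S36), slice (NORM), part 9 (helper13): `b₃ = J₂ - J` is a unit at `V₁` and at `V₂`

* `H13N3.b3K_val_V1` : `V₁.valuation b₃ = 1`, `V₁ = H3SIG.gaussVS R₁ (M q q)`;
* `H13N3.b3K_val_V2` : `V₂.valuation b₃ = 1`, `V₂ = H3SIG.gaussVSw R₁ (M q q) W_{q²}`
  (the inputs `hb₁` of helper28's `H28VN.triple_vN_split`).
-/

set_option autoImplicit false
set_option linter.style.haveILetI false
set_option linter.unusedSectionVars false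
set_option linter.unusedVariables false
set_option synthInstance.maxHeartbeats 400000
set_option maxHeartbeats 1600000

noncomputable section

open AlgebraicCurve IntermediateField
open ModularCurve RH24 H28S28 HahnSeries H7S18 H28GV H13AB H17T3 H3SIG H3TAU H8PB

namespace H13N3

variable {K₁ K₃ : IntermediateField ℚ Kbar} (h13 : K₁ ≤ K₃)
  (R₁ : ValuationSubring ↥K₁) (R₃ : ValuationSubring ↥K₃)
  [IsDiscreteValuationRing R₁] [IsDiscreteValuationRing R₃]
  (hR : ∀ c : ↥K₁, c ∈ R₁ ↔ IntermediateField.inclusion h13 c ∈ R₃)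
  (M q : ℕ) [NeZero M] [NeZero q]

include hR in
/-- `b₃` is a unit at `V₁`. -/
theorem b3K_val_V1 (hq : q.Prime) (hqR : (q : ↥K₃) ∈ R₃.nonunits) :
    (gaussVS R₁ (M * q * q)).valuation (b3K M q K₁) = 1 := by
  haveI : Fact q.Prime := ⟨hq⟩
  haveI := charP_res R₃ q hq hqR
  exact val_eq_one_of_incK h13 R₁ R₃ hR (M * q * q) _ (H24V3.bR R₃ q) (H24V3.rho_bR R₃ q)
    (incK_b3K h13 R₃ M q hq hqR)

include hR in
/-- `b₃` is a unit at `V₂`. -/
theorem b3K_val_V2 (hq : q.Prime) (hqM : ¬ q ∣ M) (hqR : (q : ↥K₃) ∈ R₃.nonunits) :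
    (gaussVSw R₁ (M * q * q) (H12WQ.wq2KHom K₁ M q hq hqM)).valuation (b3K M q K₁) = 1 := by
  have h1 : (gaussVS R₁ (M * q * q)).valuation
      (H12WQ.wq2KHom K₁ M q hq hqM (b3K M q K₁)) = 1 := by
    rw [wq2KHom_b3K, Valuation.map_neg]
    exact b3K_val_V1 h13 R₁ R₃ hR M q hq hqR
  refine le_antisymm ((ValuationSubring.valuation_le_one_iff _ _).mpr ?_)
    (not_lt.mp (fun hlt => ?_))
  · exact (mem_gaussVSw R₁ (M * q * q) _ _).mpr
      ((mem_gaussVS R₁ (M * q * q) _).mp ((ValuationSubring.valuation_le_one_iff _ _).mp h1.le))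
  · have h2 := (valuation_gaussVSw_lt_one_iff R₁ (M * q * q) _ _).mp hlt
    have h3 := (valuation_gaussVS_lt_one_iff R₁ (M * q * q) _).mpr h2
    rw [h1] at h3
    exact lt_irrefl _ h3

end H13N3

end
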