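import Fermat.Agent.S36.NormCg_helper13
import Fermat.Agent.S36.NormConst_helper13
import Fermat.Agent.S36.TGV3_helper24
import Fermat.Agent.S36.InjGenDefs_helper4

/-!
# Item 86 (S36), slice (NORM), part 8 (helper13): the norm of the uniformizer `b₃ = J₂ - J`

* `H13N3.prod_tw_sub` (series): `∏_{0<b<q} (tw (ζ^b) j - j) = q · U`, `U` primitive;
* `H13N3.incK_normAK_b3` : `c (N_α (J₂ - J)) = q · ε(Y)`, `Y` primitive;
* `H13N3.ordAt_normAK_b3` : `OrdAt V₁' q (N_α (J₂ - J)) 1`;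
* `H13N3.ordAt_normBK_b3` : `OrdAt V₂' q (N_β (J₂ - J)) 1`
  (the inputs `hNb` of helper28's (VN-GEN), lemma (D)).
-/

set_option autoImplicit false
set_option linter.style.haveILetI false
set_option linter.unusedSectionVars false
set_option linter.unusedVariables false
set_option synthInstance.maxHeartbeats 400000
set_option maxHeartbeats 1600000

noncomputable section

open AlgebraicCurve IntermediateField
open ModularCurve RH24 H28S28 HahnSeries H7S18 H28GV H13AB H17T3 H3SIG H3TAU H8PB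

namespace H13N3

section Series

variable {K : Type} [Field K] (R : ValuationSubring K)

theorem rho_C_eq_zero {c : R} (hc : IsLocalRing.residue R c = 0) :
    rhoR R (HahnSeries.C c) = 0 := by
  rw [h3b_rho_eq_zero_iff]
  intro n
  by_cases hn : n = 0
  · subst hn
    rw [HahnSeries.C_apply, HahnSeries.coeff_single_same]
    exact (IsLocalRing.residue_eq_zero_iff c).mp hc
  · rw [HahnSeries.C_apply, HahnSeries.coeff_single_of_ne hn]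
    exact not_isUnit_zero

theorem rho_C_unit {c : R} (hc : IsUnit c) : rhoR R (HahnSeries.C c) ≠ 0 := by
  rw [h3b_rho_ne_zero_iff]
  refine ⟨0, ?_⟩
  rw [HahnSeries.C_apply, HahnSeries.coeff_single_same]
  exact hc

theorem prod_pow_sub_one (q : ℕ) (hq : q.Prime) (ζ₀ : R) (hζ : IsPrimitiveRoot ζ₀ q) :
    ∏ b ∈ Finset.Ico 1 q, (ζ₀ ^ b - 1) = (-1) ^ (q - 1) * (q : R) := by
  have hq1 : q - 1 + 1 = q := Nat.sub_add_cancel hq.pos
  have hμ : IsPrimitiveRoot ζ₀ (q - 1 + 1) := by rw [hq1]; exact hζ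
  have h := hμ.prod_pow_sub_one_eq_order
  rw [Finset.prod_Ico_eq_prod_range]
  have e : ∏ k ∈ Finset.range (q - 1), (ζ₀ ^ (1 + k) - 1) =
      ∏ k ∈ Finset.range (q - 1), (ζ₀ ^ (k + 1) - 1) :=
    Finset.prod_congr rfl (fun k _ => by rw [add_comm])
  rw [e]
  have hc : (((q - 1 : ℕ) : R) + 1) = (q : R) := by
    have : ((q - 1 + 1 : ℕ) : R) = (q : R) := by rw [hq1]
    rw [← this]
    push_cast
    ring
  rw [hc] at h
  rw [← h, ← mul_assoc, ← _root_.pow_add, ← two_mul, pow_mul, neg_one_sq, one_pow, one_mul]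

/-- `∏_{0<b<q} (tw (ζ^b) j - j) = q · U` with `U` primitive. -/
theorem prod_tw_sub (q : ℕ) (hq : q.Prime) (ζ₀ : (↥R)ˣ) (hζ : IsPrimitiveRoot (ζ₀ : ↥R) q)
    (hres : IsLocalRing.residue R (ζ₀ : ↥R) = 1) :
    ∃ U : LaurentSeries ↥R, rhoR R U ≠ 0 ∧
      ∏ b ∈ Finset.Ico 1 q, (tw (ζ₀ ^ b) (jqModC ↥R) - jqModC ↥R) =
        HahnSeries.C ((q : ℕ) : ↥R) * U := by
  choose g hg using fun b : ℕ => H25TW.tw_sub_self (ζ₀ ^ b) (jqModC ↥R)
  have hres' : ∀ b : ℕ, IsLocalRing.residue R ((((ζ₀ ^ b : (↥R)ˣ) : ↥R)) - 1) = 0 := by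
    intro b
    rw [map_sub, Units.val_pow_eq_pow_val, map_pow, hres, one_pow, map_one, sub_self]
  refine ⟨HahnSeries.C ((-1 : ↥R) ^ (q - 1)) *
    ∏ b ∈ Finset.Ico 1 q, (H25TW.thetaLS (jqModC ↥R) +
      HahnSeries.C ((((ζ₀ ^ b : (↥R)ˣ) : ↥R)) - 1) * g b), ?_, ?_⟩
  · rw [map_mul, map_prod]
    refine mul_ne_zero (rho_C_unit R ((isUnit_neg_one (α := ↥R)).pow _)) ?_
    rw [Finset.prod_ne_zero_iff]
    intro b _
    rw [map_add, map_mul, rho_C_eq_zero R (hres' b), zero_mul, add_zero]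
    exact H3V3.rho_theta_jq_ne_zero R
  · have h1 : ∏ b ∈ Finset.Ico 1 q, (tw (ζ₀ ^ b) (jqModC ↥R) - jqModC ↥R) =
        ∏ b ∈ Finset.Ico 1 q, (HahnSeries.C ((((ζ₀ ^ b : (↥R)ˣ) : ↥R)) - 1) *
          (H25TW.thetaLS (jqModC ↥R) + HahnSeries.C ((((ζ₀ ^ b : (↥R)ˣ) : ↥R)) - 1) * g b)) :=
      Finset.prod_congr rfl (fun b _ => hg b)
    rw [h1, Finset.prod_mul_distrib, ← map_prod]
    have h2 : ∏ b ∈ Finset.Ico 1 q, ((((ζ₀ ^ b : (↥R)ˣ) : ↥R)) - 1) =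
        (-1) ^ (q - 1) * ((q : ℕ) : ↥R) := by
      rw [← prod_pow_sub_one R q hq (ζ₀ : ↥R) hζ]
      exact Finset.prod_congr rfl (fun b _ => by rw [Units.val_pow_eq_pow_val])
    rw [h2, map_mul]
    ring

end Series

section Concrete

variable {K₁ K₃ : IntermediateField ℚ Kbar} (h13 : K₁ ≤ K₃)
  (R₁ : ValuationSubring ↥K₁) (R₃ : ValuationSubring ↥K₃)
  [IsDiscreteValuationRing R₁] [IsDiscreteValuationRing R₃]
  (hR : ∀ c : ↥K₁, c ∈ R₁ ↔ IntermediateField.inclusion h13 c ∈ R₃)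
  (M q : ℕ) [NeZero M] [NeZero q]

/-- the uniformizer `b₃ = J₂ - J` of `V₃` -/
def b3K (K₁ : IntermediateField ℚ Kbar) : FK ↥K₁ (M * q * q) :=
  J2K M q - J1K (M * q * q)

theorem b3K_eq (K₁ : IntermediateField ℚ Kbar) :
    b3K M q K₁ = H3V3.J2 (M * q * q) q K₁ (sq_dvd_level M q) - H3V3.J0 (M * q * q) K₁ := rfl

omit [IsDiscreteValuationRing R₃] [NeZero q] in
theorem unitR_pow (hq : q.Prime) (ζ : (↥K₃)ˣ) (hζ : ζ ^ q = 1) (b : ℕ) (hb : (ζ ^ b) ^ q = 1) :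
    H3V3.unitR R₃ (ζ ^ b) hq.pos hb = (H3V3.unitR R₃ ζ hq.pos hζ) ^ b := by
  apply Units.ext
  apply Subtype.ext
  rw [Units.val_pow_eq_pow_val]
  show ((ζ ^ b : (↥K₃)ˣ) : ↥K₃) = ((⟨(ζ : ↥K₃), _⟩ : ↥R₃) ^ b : ↥R₃)
  rw [Units.val_pow_eq_pow_val]
  rfl

omit [IsDiscreteValuationRing R₃] [NeZero q] in
theorem charP_res (hq : q.Prime) (hqR : (q : ↥K₃) ∈ R₃.nonunits) :
    CharP (IsLocalRing.ResidueField ↥R₃) q := by
  have hqm : ((q : ℕ) : ↥R₃) ∈ IsLocalRing.maximalIdeal ↥R₃ := by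
    have h1 : (((q : ℕ) : ↥R₃) : ↥K₃) ∈ R₃.nonunits := by
      have : (((q : ℕ) : ↥R₃) : ↥K₃) = (q : ↥K₃) := by push_cast; rfl
      rw [this]
      exact hqR
    rwa [ValuationSubring.coe_mem_nonunits_iff] at h1
  exact (CharP.charP_iff_prime_eq_zero hq).mpr (by
    have := (IsLocalRing.residue_eq_zero_iff _).mpr hqm
    rwa [map_natCast] at this)

theorem incK_b3K (hq : q.Prime) (hqR : (q : ↥K₃) ∈ R₃.nonunits) :
    haveI : Fact q.Prime := ⟨hq⟩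
    haveI := charP_res R₃ q hq hqR
    incK h13 (M * q * q) (b3K M q K₁) = gvEps R₃ (H24V3.bR R₃ q) := by
  haveI : Fact q.Prime := ⟨hq⟩
  haveI := charP_res R₃ q hq hqR
  haveI : NeZero (q ^ 2) := ⟨pow_ne_zero 2 (NeZero.ne q)⟩
  rw [b3K, map_sub, incK_J2K, incK_J1K, H24V3.eps_bR]
  congr 1
  exact qExpand_congr (by ring) _

/-- `c (N_α b₃) = q · ε(Y)` with `Y` primitive. -/
theorem incK_normAK_b3 (hq : q.Prime) (hqM : ¬ q ∣ M) (hqR : (q : ↥K₃) ∈ R₃.nonunits)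
    (ζ : (↥K₃)ˣ) (hζ : IsPrimitiveRoot ζ q) :
    ∃ Y : LaurentSeries ↥R₃, rhoR R₃ Y ≠ 0 ∧
      incK h13 (M * q) (normAK K₁ M q (b3K M q K₁)) =
        HahnSeries.C ((q : ℕ) : ↥K₃) * gvEps R₃ Y := by
  haveI : Fact q.Prime := ⟨hq⟩
  haveI := charP_res R₃ q hq hqR
  set ζ₀ := H3V3.unitR R₃ ζ hq.pos hζ.pow_eq_one with hζ₀
  obtain ⟨U, hU, hprod⟩ := prod_tw_sub R₃ q hq ζ₀ (H3V3.isPrimitiveRoot_unitR R₃ q hq ζ hζ)
    (res_unitR R₃ q hq hqR ζ hζ.pow_eq_one)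
  refine ⟨H24V3.bR R₃ q * U, ?_, ?_⟩
  · rw [map_mul]
    exact mul_ne_zero (H24V3.rho_bR R₃ q) hU
  · rw [normK_alpha_iota' h13 M q hq hqM ζ hζ, incK_b3K h13 R₃ M q hq hqR]
    have h1 : ∏ b ∈ Finset.Ico 1 q, iotaB h13 M q hq hqM ζ b (b3K M q K₁) =
        ∏ b ∈ Finset.Ico 1 q, gvEps R₃ (tw (ζ₀ ^ b) (jqModC ↥R₃) - jqModC ↥R₃) := by
      refine Finset.prod_congr rfl (fun b hb => ?_)
      rw [Finset.mem_Ico] at hb
      have hp := prim_pow q hq ζ hζ b (Nat.one_le_iff_ne_zero.mp hb.1) hb.2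
      rw [iotaB_of_prim h13 M q hq hqM ζ b hp, b3K_eq,
        H3V3.iota3_b R₃ (M * q * q) q h13 hq (sq_dvd_level M q) (not_cube_dvd_level M q hq hqM)
          (ζ ^ b) hp, unitR_pow R₃ q hq ζ hζ.pow_eq_one b hp.pow_eq_one]
    have h2 : ((((q : ℕ) : ↥R₃) : ↥R₃) : ↥K₃) = ((q : ℕ) : ↥K₃) := by push_cast; rfl
    rw [h1, ← map_prod, hprod, map_mul, map_mul, gvEps_C, h2]
    ring

omit [IsDiscreteValuationRing R₃] in
theorem natCast_series_ne_zero (hq : q.Prime) :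
    (HahnSeries.C ((q : ℕ) : ↥K₃) : LaurentSeries ↥K₃) ≠ 0 := by
  intro h0
  have := congrArg (fun z : LaurentSeries ↥K₃ => z.coeff 0) h0
  simp only [HahnSeries.C_apply, HahnSeries.coeff_single_same, HahnSeries.coeff_zero] at this
  exact (Nat.cast_ne_zero.2 hq.ne_zero : ((q : ℕ) : ↥K₃) ≠ 0) this

omit [IsDiscreteValuationRing R₃] in
theorem incK_natCast (N : ℕ) [NeZero N] (n : ℕ) :
    incK h13 N ((n : ℕ) : FK ↥K₁ N) = HahnSeries.C ((n : ℕ) : ↥K₃) := by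
  rw [map_natCast]
  have : ((n : ℕ) : LaurentSeries ↥K₃) = HahnSeries.C ((n : ℕ) : ↥K₃) := by
    rw [map_natCast]
  exact this

include hR in
/-- a series-level criterion for a unit of the Gauss valuation ring of `F_{K₁}(N)` -/
theorem val_eq_one_of_incK (N : ℕ) [NeZero N] (w : FK ↥K₁ N) (Y : LaurentSeries ↥R₃)
    (hY : rhoR R₃ Y ≠ 0) (hw : incK h13 N w = gvEps R₃ Y) :
    (gaussVS R₁ N).valuation w = 1 := by
  have hG : H8PB.InG R₁ (w : LaurentSeries ↥K₁) := by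
    rw [← inG_incK h13 R₁ R₃ hR N w, hw]
    exact H10FC.inG_eps R₃ Y
  have hnG : ¬ H8PB.InGm R₁ (w : LaurentSeries ↥K₁) := by
    rw [← inGm_incK h13 R₁ R₃ hR N w, hw]
    exact H10FC.not_inGm_eps R₃ hY
  refine le_antisymm ((ValuationSubring.valuation_le_one_iff _ _).mpr
    ((mem_gaussVS R₁ N w).mpr hG)) (not_lt.mp (fun hlt => hnG ?_))
  exact (valuation_gaussVS_lt_one_iff R₁ N w).mp hlt

include hR in
/-- **`hNb` for `α`**: `N_α (J₂ - J) = q · unit` at `V₁'`. -/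
theorem ordAt_normAK_b3 (hq : q.Prime) (hqM : ¬ q ∣ M) (hqR : (q : ↥K₃) ∈ R₃.nonunits)
    (ζ : (↥K₃)ˣ) (hζ : IsPrimitiveRoot ζ q) :
    H4S36.OrdAt (gaussVS R₁ (M * q)) ((q : ℕ) : FK ↥K₁ (M * q))
      (normAK K₁ M q (b3K M q K₁)) 1 := by
  obtain ⟨Y, hY, hrel⟩ := incK_normAK_b3 h13 R₃ M q hq hqM hqR ζ hζ (K₁ := K₁)
  unfold H4S36.OrdAt
  refine val_eq_one_of_incK h13 R₁ R₃ hR (M * q) _ Y hY ?_
  rw [map_mul, map_zpow₀, hrel, incK_natCast, zpow_neg, zpow_one, mul_comm, ← mul_assoc,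
    inv_mul_cancel₀ (natCast_series_ne_zero q hq), one_mul]

/-- `W_{q²} J = J₂` -/
theorem wq2KHom_J1K (hq : q.Prime) (hqM : ¬ q ∣ M) :
    H12WQ.wq2KHom K₁ M q hq hqM (J1K (M * q * q)) = J2K M q := by
  haveI : NeZero (q ^ 2) := ⟨pow_ne_zero 2 (NeZero.ne q)⟩
  haveI h1 : NeZero (⟨1, one_dvd M⟩ : Dv M).1 := ⟨one_ne_zero⟩
  apply Subtype.ext
  rw [H12WQ.coe_wq2KHom_of_level_M K₁ M q hq hqM (J1K (M * q * q)) (J1K (M * q)) rfl
    (H3V3.JgenK ↥K₁ (⟨1, one_dvd M⟩ : Dv M)).2]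
  show qExpand ↥K₁ q (qExpand ↥K₁ q (coeffEmb ↥K₁ (qExpand ℚ 1 jq))) =
    coeffEmb ↥K₁ (qExpand ℚ (q ^ 2) jq)
  rw [qExpand_one_apply, H28GV.gv_coeffEmb_qExpand, qExpand_qExpand]
  exact qExpand_congr (by ring) _

/-- `W_{q²} J₂ = J` -/
theorem wq2KHom_J2K (hq : q.Prime) (hqM : ¬ q ∣ M) :
    H12WQ.wq2KHom K₁ M q hq hqM (J2K M q) = J1K (M * q * q) := by
  rw [← wq2KHom_J1K M q hq hqM, H12WQ.wq2KHom_invol]

/-- `W_{q²} b₃ = - b₃` -/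
theorem wq2KHom_b3K (hq : q.Prime) (hqM : ¬ q ∣ M) :
    H12WQ.wq2KHom K₁ M q hq hqM (b3K M q K₁) = - b3K M q K₁ := by
  rw [b3K, map_sub, wq2KHom_J1K, wq2KHom_J2K, neg_sub]

/-- `W_q (N_β b₃) = (-1)^q · N_α b₃` -/
theorem wqKHom_normBK_b3 (hq : q.Prime) (hqM : ¬ q ∣ M) :
    H12AL.wqKHom K₁ M q hq hqM (normBK K₁ M q (b3K M q K₁)) =
      (-1) ^ q * normAK K₁ M q (b3K M q K₁) := by
  rw [← normAK_wq2K, wq2KHom_b3K, neg_eq_neg_one_mul, normAK_mul]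
  congr 1
  have h := normAK_const K₁ M q hq (-1 : ↥K₁)
  rwa [map_neg, map_one, map_neg, map_one] at h

include hR in
/-- **`hNb` for `β`**: `N_β (J₂ - J) = q · unit` at `V₂'`. -/
theorem ordAt_normBK_b3 (hq : q.Prime) (hqM : ¬ q ∣ M) (hqR : (q : ↥K₃) ∈ R₃.nonunits)
    (ζ : (↥K₃)ˣ) (hζ : IsPrimitiveRoot ζ q) :
    H4S36.OrdAt (gaussVSw R₁ (M * q) (H12AL.wqKHom K₁ M q hq hqM)) ((q : ℕ) : FK ↥K₁ (M * q))
      (normBK K₁ M q (b3K M q K₁)) 1 := by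
  obtain ⟨Y, hY, hrel⟩ := incK_normAK_b3 h13 R₃ M q hq hqM hqR ζ hζ (K₁ := K₁)
  unfold H4S36.OrdAt
  have hcomap : ∀ y : FK ↥K₁ (M * q),
      (gaussVS R₁ (M * q)).valuation (H12AL.wqKHom K₁ M q hq hqM y) = 1 →
      (gaussVSw R₁ (M * q) (H12AL.wqKHom K₁ M q hq hqM)).valuation y = 1 := by
    intro y hy
    refine le_antisymm ((ValuationSubring.valuation_le_one_iff _ _).mpr ?_)
      (not_lt.mp (fun hlt => ?_))
    · exact (mem_gaussVSw R₁ (M * q) _ y).mpr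
        ((mem_gaussVS R₁ (M * q) _).mp ((ValuationSubring.valuation_le_one_iff _ _).mp hy.le))
    · have h1 := (valuation_gaussVSw_lt_one_iff R₁ (M * q) _ y).mp hlt
      have h2 := (valuation_gaussVS_lt_one_iff R₁ (M * q) _).mpr h1
      rw [hy] at h2
      exact lt_irrefl _ h2
  apply hcomap
  refine val_eq_one_of_incK h13 R₁ R₃ hR (M * q) _ (HahnSeries.C ((-1 : ↥R₃) ^ q) * Y) ?_ ?_
  · rw [map_mul]
    exact mul_ne_zero (rho_C_unit R₃ ((isUnit_neg_one (α := ↥R₃)).pow _)) hY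
  · have e1 : H12AL.wqKHom K₁ M q hq hqM
        (normBK K₁ M q (b3K M q K₁) * ((q : ℕ) : FK ↥K₁ (M * q)) ^ (-(1 : ℤ))) =
        (-1) ^ q * normAK K₁ M q (b3K M q K₁) * ((q : ℕ) : FK ↥K₁ (M * q)) ^ (-(1 : ℤ)) := by
      rw [map_mul, map_zpow₀, map_natCast, wqKHom_normBK_b3]
    have e2 : gvEps R₃ (HahnSeries.C ((-1 : ↥R₃) ^ q) * Y) =
        (-1) ^ q * gvEps R₃ Y := by
      rw [map_mul, map_pow, map_neg, map_one, map_pow, map_neg, map_one]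
    have hne := natCast_series_ne_zero (K₃ := K₃) q hq
    rw [e1, e2, map_mul, map_mul, map_pow, map_neg, map_one, map_zpow₀, incK_natCast, hrel,
      zpow_neg, zpow_one]
    field_simp

end Concrete

end H13N3

end
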