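import Mathlib
import Fermat.Agent.S36.InjGenDefs_helper4

/-!
# Item 86 (S36), slice (VN-GEN): the valuations of the norms from the congruences (helper28)

Generic (Mathlib + `H4S36.OrdAt`, `H17T3.Cg`): `F`, `F'` fields, `φ : F' →+* F`,
`Nm : F →* F'`.  The four fields `vNα₁ vNα₂ vNβ₁ vNβ₂` of `H4S36.Triple` follow formally from the
congruences `cN*`, the lying-over fields and residue degree one:

* `H28VN.ordAt_norm_simple` (S): `V | V'` inert (`φ (Nm x) ≡ x ^ q` at `V` for units `x`):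
  `OrdAt V ϖ x a → OrdAt V' ϖ' (Nm x) (q * a)`;
* `H28VN.ordAt_norm_split` (D): `V₁, V₃ | V'` (`φ (Nm x) ≡ x · φ a ^ (q - 1)` at `V₁` for units
  `x ≡ φ a` at `V₃`): `OrdAt V₁ ϖ x a → OrdAt V₃ b₃ x c → OrdAt V' ϖ' (Nm x) (a + c)`.
-/

set_option autoImplicit false
set_option linter.unusedSectionVars false
set_option linter.unusedVariables false
set_option linter.style.longLine false

noncomputable section

open H4S36 H17T3

namespace H28VN

section basics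

variable {F : Type} [Field F] {F' : Type} [Field F']

/-- a monoid homomorphism between fields commutes with inverses -/
theorem map_inv_hom (Nm : F →* F') (x : F) : Nm x⁻¹ = (Nm x)⁻¹ := by
  rcases eq_or_ne x 0 with rfl | hx
  · rw [inv_zero]
    have h0 : Nm 0 * Nm 0 = Nm 0 := by rw [← map_mul, mul_zero]
    rcases eq_or_ne (Nm 0) 0 with h | h
    · rw [h, inv_zero]
    · have h1 : Nm 0 = 1 := by
        have := mul_right_cancel₀ h (h0.trans (one_mul _).symm)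
        exact this
      rw [h1, inv_one]
  · have h1 : Nm x * Nm x⁻¹ = 1 := by rw [← map_mul, mul_inv_cancel₀ hx, map_one]
    exact eq_inv_of_mul_eq_one_right h1

theorem map_zpow_hom (Nm : F →* F') (x : F) (k : ℤ) : Nm (x ^ k) = Nm x ^ k :=
  map_zpow' Nm (map_inv_hom Nm) x k

/-- a congruence to a unit is a unit -/
theorem val_eq_one_of_cg (V : ValuationSubring F) {x y : F} (h : Cg V x y)
    (hy : V.valuation y = 1) : V.valuation x = 1 := by
  have h1 : V.valuation (x - y) < V.valuation y := by rw [hy]; exact h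
  have h2 := Valuation.map_add_eq_of_lt_right V.valuation h1
  rw [sub_add_cancel] at h2
  rw [h2, hy]

theorem val_eq_one_of_cg' (V : ValuationSubring F) {x y : F} (h : Cg V x y)
    (hx : V.valuation x = 1) : V.valuation y = 1 := by
  have h' : Cg V y x := by
    unfold Cg at h ⊢
    rwa [Valuation.map_sub_swap]
  exact val_eq_one_of_cg V h' hx

/-- lying over, for units (up) -/
theorem val_eq_one_down (V : ValuationSubring F) (V' : ValuationSubring F') (φ : F' →+* F)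
    (hlo : ∀ x : F', V'.valuation x < 1 ↔ V.valuation (φ x) < 1) {y : F'}
    (hy : V.valuation (φ y) = 1) : V'.valuation y = 1 := by
  have hy0 : y ≠ 0 := by
    rintro rfl
    rw [map_zero, map_zero] at hy
    exact zero_ne_one hy
  have hv0 : V'.valuation y ≠ 0 := (Valuation.ne_zero_iff _).2 hy0
  apply le_antisymm
  · have h1 : ¬ V'.valuation y⁻¹ < 1 := by
      rw [hlo, map_inv₀, map_inv₀, hy, inv_one]
      exact lt_irrefl _
    rw [not_lt, map_inv₀] at h1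
    exact (one_le_inv₀ (zero_lt_iff.2 hv0)).1 h1
  · have h1 : ¬ V'.valuation y < 1 := by
      rw [hlo, hy]
      exact lt_irrefl _
    exact not_lt.1 h1

/-- lying over, for units (down) -/
theorem val_eq_one_up (V : ValuationSubring F) (V' : ValuationSubring F') (φ : F' →+* F)
    (hlo : ∀ x : F', V'.valuation x < 1 ↔ V.valuation (φ x) < 1) {y : F'}
    (hy : V'.valuation y = 1) : V.valuation (φ y) = 1 := by
  have hy0 : y ≠ 0 := by
    rintro rfl
    rw [map_zero] at hy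
    exact zero_ne_one hy
  have hφ0 : φ y ≠ 0 := (map_ne_zero φ).2 hy0
  have hv0 : V.valuation (φ y) ≠ 0 := (Valuation.ne_zero_iff _).2 hφ0
  apply le_antisymm
  · have h1 : ¬ V.valuation (φ y⁻¹) < 1 := by
      rw [← hlo, map_inv₀, hy, inv_one]
      exact lt_irrefl _
    rw [not_lt, map_inv₀, map_inv₀] at h1
    exact (one_le_inv₀ (zero_lt_iff.2 hv0)).1 h1
  · have h1 : ¬ V.valuation (φ y) < 1 := by
      rw [← hlo, hy]
      exact lt_irrefl _
    exact not_lt.1 h1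

end basics

section main

variable {F : Type} [Field F] {F' : Type} [Field F']

/-- **(S)** the inert case: `e = 1`, `f = q`. -/
theorem ordAt_norm_simple (φ : F' →+* F) (Nm : F →* F')
    (V : ValuationSubring F) (V' : ValuationSubring F') (ϖ : F) (ϖ' : F') (q : ℕ)
    (hlo : ∀ x : F', V'.valuation x < 1 ↔ V.valuation (φ x) < 1)
    (hNϖ : Nm ϖ = ϖ' ^ q)
    (hc : ∀ x : F, V.valuation x = 1 → Cg V (φ (Nm x)) (x ^ q))
    (x : F) (a : ℤ) (hx : OrdAt V ϖ x a) : OrdAt V' ϖ' (Nm x) (q * a) := by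
  unfold OrdAt at hx ⊢
  have h1 := hc _ hx
  have h2 : V.valuation ((x * ϖ ^ (-a)) ^ q) = 1 := by rw [map_pow, hx, one_pow]
  have h3 : V.valuation (φ (Nm (x * ϖ ^ (-a)))) = 1 := val_eq_one_of_cg V h1 h2
  have h4 : V'.valuation (Nm (x * ϖ ^ (-a))) = 1 := val_eq_one_down V V' φ hlo h3
  have e : Nm (x * ϖ ^ (-a)) = Nm x * ϖ' ^ (-((q : ℤ) * a)) := by
    rw [map_mul, map_zpow_hom, hNϖ, ← zpow_natCast ϖ' q, ← zpow_mul, mul_neg]
  rw [← e]
  exact h4

/-- **(D)** the split case: `V₁` (`e = f = 1`) and `V₃` (`e = q - 1`, `f = 1`) over `V'`. -/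
theorem ordAt_norm_split (φ : F' →+* F) (Nm : F →* F')
    (V₁ V₃ : ValuationSubring F) (V' : ValuationSubring F') (ϖ b₃ : F) (ϖ' : F') (q : ℕ)
    (hϖ' : ϖ' ≠ 0) (hϖ : ϖ ≠ 0)
    (hlo₁ : ∀ x : F', V'.valuation x < 1 ↔ V₁.valuation (φ x) < 1)
    (hlo₃ : ∀ x : F', V'.valuation x < 1 ↔ V₃.valuation (φ x) < 1)
    (hNϖ : Nm ϖ = ϖ' ^ q)
    (hb₁ : V₁.valuation b₃ = 1)
    (he₃ : OrdAt V₃ b₃ ϖ ((q : ℤ) - 1))
    (hNb : OrdAt V' ϖ' (Nm b₃) 1)
    (f₃ : ∀ x : F, x ∈ V₃ → ∃ a : F', a ∈ V' ∧ Cg V₃ x (φ a))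
    (hc : ∀ x : F, V₁.valuation x = 1 → V₃.valuation x = 1 → ∀ a : F', a ∈ V' →
      Cg V₃ x (φ a) → Cg V₁ (φ (Nm x)) (x * φ a ^ (q - 1)))
    (x : F) (a c : ℤ) (hx₁ : OrdAt V₁ ϖ x a) (hx₃ : OrdAt V₃ b₃ x c) :
    OrdAt V' ϖ' (Nm x) (a + c) := by
  unfold OrdAt at hx₁ hx₃ he₃ hNb ⊢
  have hb0 : b₃ ≠ 0 := by
    rintro rfl
    rw [map_zero] at hb₁
    exact zero_ne_one hb₁
  set m : ℤ := c - ((q : ℤ) - 1) * a with hm
  set u : F := x * ϖ ^ (-a) * b₃ ^ (-m) with hu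
  -- `u` is a unit at `V₁`
  have hu₁ : V₁.valuation u = 1 := by
    rw [hu, map_mul, hx₁, one_mul, map_zpow₀, hb₁, one_zpow]
  -- `u` is a unit at `V₃`
  have hu₃ : V₃.valuation u = 1 := by
    have e : u = (x * b₃ ^ (-c)) * (ϖ * b₃ ^ (-((q : ℤ) - 1))) ^ (-a) := by
      rw [hu, mul_zpow, ← zpow_mul, hm]
      have e1 : b₃ ^ (-(c - ((q : ℤ) - 1) * a)) = b₃ ^ (-c) * b₃ ^ (-((q : ℤ) - 1) * -a) := by
        rw [← zpow_add₀ hb0]
        congr 1
        ring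
      rw [e1]
      ring
    rw [e, map_mul, hx₃, one_mul, map_zpow₀, he₃, one_zpow]
  -- the residue of `u` at `V₃` comes from `V'`
  obtain ⟨a₀, ha₀, hcg⟩ := f₃ u ((V₃.valuation_le_one_iff u).1 (le_of_eq hu₃))
  have h3 : V₃.valuation (φ a₀) = 1 := val_eq_one_of_cg' V₃ hcg hu₃
  have h4 : V'.valuation a₀ = 1 := val_eq_one_down V₃ V' φ hlo₃ h3
  have h5 : V₁.valuation (φ a₀) = 1 := val_eq_one_up V₁ V' φ hlo₁ h4
  have h6 := hc u hu₁ hu₃ a₀ ha₀ hcg
  have h7 : V₁.valuation (u * φ a₀ ^ (q - 1)) = 1 := by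
    rw [map_mul, hu₁, one_mul, map_pow, h5, one_pow]
  have h8 : V₁.valuation (φ (Nm u)) = 1 := val_eq_one_of_cg V₁ h6 h7
  have h9 : V'.valuation (Nm u) = 1 := val_eq_one_down V₁ V' φ hlo₁ h8
  -- the norm of `u`
  have hNu : Nm u = Nm x * ϖ' ^ (-((q : ℤ) * a)) * Nm b₃ ^ (-m) := by
    rw [hu, map_mul, map_mul, map_zpow_hom, map_zpow_hom, hNϖ, ← zpow_natCast ϖ' q, ← zpow_mul,
      mul_neg]
  have e : Nm x * ϖ' ^ (-(a + c)) = Nm u * (Nm b₃ * ϖ' ^ (-1 : ℤ)) ^ m := by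
    have hNb0 : Nm b₃ ≠ 0 := by
      intro h0
      rw [h0, zero_mul, map_zero] at hNb
      exact zero_ne_one hNb
    rw [hNu, mul_zpow, ← zpow_mul]
    have e1 : Nm x * ϖ' ^ (-((q : ℤ) * a)) * Nm b₃ ^ (-m) * (Nm b₃ ^ m * ϖ' ^ (-1 * m)) =
        Nm x * (ϖ' ^ (-((q : ℤ) * a)) * ϖ' ^ (-1 * m)) * (Nm b₃ ^ (-m) * Nm b₃ ^ m) := by ring
    rw [e1, ← zpow_add₀ hϖ', ← zpow_add₀ hNb0, neg_add_cancel, zpow_zero, mul_one]
    congr 2
    rw [hm]
    ring
  rw [e, map_mul, h9, one_mul, map_zpow₀, hNb, one_zpow]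

end main

/-! ### the four fields of `H4S36.Triple` -/

section triple

variable (R : Type) [CommRing R] (K : Type) [Field K] [Algebra R K]
  (F : Type) [Field F] [Algebra K F] [Algebra R F] [IsScalarTower R K F]
  (F' : Type) [Field F'] [Algebra K F'] [Algebra R F'] [IsScalarTower R K F']

/-- the norm of the uniformizer, from the norm of the constants -/
theorem norm_unif (ϖ : R) (q : ℕ) (Nm : F →* F')
    (hNc : ∀ c : K, Nm (algebraMap K F c) = algebraMap K F' c ^ q) :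
    Nm (algebraMap R F ϖ) = algebraMap R F' ϖ ^ q := by
  rw [IsScalarTower.algebraMap_apply R K F, hNc, ← IsScalarTower.algebraMap_apply R K F']

/-- **`vNα₂` / `vNβ₁`** (inert case) in the form of `H4S36.Triple` -/
theorem triple_vN_simple (ϖ : R) (q : ℕ) (φ : F' →+* F) (Nm : F →* F')
    (V : ValuationSubring F) (V' : ValuationSubring F')
    (hNc : ∀ c : K, Nm (algebraMap K F c) = algebraMap K F' c ^ q)
    (hlo : ∀ x : F', V'.valuation x < 1 ↔ V.valuation (φ x) < 1)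
    (hc : ∀ x : F, V.valuation x = 1 → Cg V (φ (Nm x)) (x ^ q)) :
    ∀ (x : F) (a : ℤ), OrdAt V (algebraMap R F ϖ) x a →
      OrdAt V' (algebraMap R F' ϖ) (Nm x) (q * a) :=
  fun x a hx => ordAt_norm_simple φ Nm V V' (algebraMap R F ϖ) (algebraMap R F' ϖ) q hlo
    (norm_unif R K F F' ϖ q Nm hNc) hc x a hx

/-- **`vNα₁` / `vNβ₂`** (split case) in the form of `H4S36.Triple`; the two extra inputs are
`b₃` unit at `V₁` and `Nm b₃` a uniformizer of `V'`. -/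
theorem triple_vN_split (ϖ : R) (q : ℕ) (φ : F' →+* F) (Nm : F →* F')
    (V₁ V₃ : ValuationSubring F) (V' : ValuationSubring F') (b₃ : F)
    (hϖ' : algebraMap R F' ϖ ≠ 0) (hϖ : algebraMap R F ϖ ≠ 0)
    (hNc : ∀ c : K, Nm (algebraMap K F c) = algebraMap K F' c ^ q)
    (hlo₁ : ∀ x : F', V'.valuation x < 1 ↔ V₁.valuation (φ x) < 1)
    (hlo₃ : ∀ x : F', V'.valuation x < 1 ↔ V₃.valuation (φ x) < 1)
    (hb₁ : V₁.valuation b₃ = 1)
    (he₃ : OrdAt V₃ b₃ (algebraMap R F ϖ) ((q : ℤ) - 1))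
    (hNb : OrdAt V' (algebraMap R F' ϖ) (Nm b₃) 1)
    (f₃ : ∀ x : F, x ∈ V₃ → ∃ a : F', a ∈ V' ∧ Cg V₃ x (φ a))
    (hc : ∀ x : F, V₁.valuation x = 1 → V₃.valuation x = 1 → ∀ a : F', a ∈ V' →
      Cg V₃ x (φ a) → Cg V₁ (φ (Nm x)) (x * φ a ^ (q - 1))) :
    ∀ (x : F) (a c : ℤ), OrdAt V₁ (algebraMap R F ϖ) x a → OrdAt V₃ b₃ x c →
      OrdAt V' (algebraMap R F' ϖ) (Nm x) (a + c) :=
  fun x a c hx₁ hx₃ => ordAt_norm_split φ Nm V₁ V₃ V' (algebraMap R F ϖ) b₃ (algebraMap R F' ϖ) q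
    hϖ' hϖ hlo₁ hlo₃ (norm_unif R K F F' ϖ q Nm hNc) hb₁ he₃ hNb f₃ hc x a c hx₁ hx₃

end triple

end H28VN

end
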