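import Fermat.Agent.S36.NormCg_helper13
import Fermat.Agent.S36.Tor3Core_helper17
import Fermat.Agent.S35.FWSigVS_helper3

/-!
# Item 86 (S36), slice (NORM), part 6 (helper13): the (NORM) congruence fields of `H4S36.Triple`

Concrete data (`K₁ ≤ K₃`, `R₁ = R₃ ∩ K₁` DVRs, `q ∈ 𝔪(R₃)`, `q` prime, `q ∤ M`, `ζ ∈ K₃` a primitive
`q`-th root of unity), `F = FK K₁ (M q q)`, `F' = FK K₁ (M q)`:

* `V₁  = H3SIG.gaussVS R₁ (M q q)`,  `V₂  = H3SIG.gaussVSw R₁ (M q q) W_{q²}`,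
  `V₃  = H3V3.V3 R₃ (M q q) q … ζ hζ`,
  `V₁' = H3SIG.gaussVS R₁ (M q)`,    `V₂' = H3SIG.gaussVSw R₁ (M q) W_q`;
* `φα = heckeAlphaBar K₁ (M q) q`, `φβ = heckeBetaBar K₁ (M q) q`, `Nα = normAK`, `Nβ = normBK`.

* `H13N3.tri_cNβ₁`, `H13N3.tri_cNα₂` : unconditional;
* `H13N3.tri_cNα₁` : needs (U1) `V₃` independent of `ζ` (helper24: `H24V3.V3_indep_level`);
* `H13N3.tri_cNβ₂` : needs (U1) and (U2) `V₃ ∘ W_{q²} = V₃`.
-/

set_option autoImplicit false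
set_option linter.style.haveILetI false
set_option linter.unusedSectionVars false
set_option linter.unusedVariables false

noncomputable section

open AlgebraicCurve IntermediateField
open ModularCurve RH24 H28S28 HahnSeries H7S18 H28GV H13AB H17T3 H3SIG

namespace H13N3

theorem mem_of_val_eq_one {F : Type*} [Field F] {V : ValuationSubring F} {x : F}
    (h : V.valuation x = 1) : x ∈ V :=
  (ValuationSubring.valuation_le_one_iff V x).mp h.le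

variable {K₁ K₃ : IntermediateField ℚ Kbar} (h13 : K₁ ≤ K₃)
  (R₁ : ValuationSubring ↥K₁) (R₃ : ValuationSubring ↥K₃)
  [IsDiscreteValuationRing R₁] [IsDiscreteValuationRing R₃]
  (hR : ∀ c : ↥K₁, c ∈ R₁ ↔ IntermediateField.inclusion h13 c ∈ R₃)
  (M q : ℕ) [NeZero M] [NeZero q]

include hR in
/-- **field `cNβ₁`**: `x` a unit at `V₁` ⟹ `β (N_β x) ≡ x^q` at `V₁`. -/
theorem tri_cNβ₁ (hq : q.Prime) (hqM : ¬ q ∣ M) (hqR : (q : ↥K₃) ∈ R₃.nonunits)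
    (ζ : (↥K₃)ˣ) (hζ : IsPrimitiveRoot ζ q) (x : FK ↥K₁ (M * q * q))
    (hx : (gaussVS R₁ (M * q * q)).valuation x = 1) :
    Cg (gaussVS R₁ (M * q * q)) (heckeBetaBar ↥K₁ (M * q) q (normBK K₁ M q x)) (x ^ q) := by
  unfold Cg
  rw [valuation_gaussVS_lt_one_iff]
  exact cg_beta1 h13 R₁ R₃ hR M q hq hqM hqR ζ hζ x
    ((mem_gaussVS R₁ (M * q * q) x).mp (mem_of_val_eq_one hx))

include hR in
/-- **field `cNα₂`**: `x` a unit at `V₂` ⟹ `α (N_α x) ≡ x^q` at `V₂`. -/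
theorem tri_cNα₂ (hq : q.Prime) (hqM : ¬ q ∣ M) (hqR : (q : ↥K₃) ∈ R₃.nonunits)
    (ζ : (↥K₃)ˣ) (hζ : IsPrimitiveRoot ζ q) (x : FK ↥K₁ (M * q * q))
    (hx : (gaussVSw R₁ (M * q * q) (H12WQ.wq2KHom K₁ M q hq hqM)).valuation x = 1) :
    Cg (gaussVSw R₁ (M * q * q) (H12WQ.wq2KHom K₁ M q hq hqM))
      (heckeAlphaBar ↥K₁ (M * q) q (normAK K₁ M q x)) (x ^ q) := by
  unfold Cg
  rw [valuation_gaussVSw_lt_one_iff, map_sub, map_pow, wq2KHom_alpha, ← normBK_wq2K]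
  exact cg_beta1 h13 R₁ R₃ hR M q hq hqM hqR ζ hζ (H12WQ.wq2KHom K₁ M q hq hqM x)
    ((mem_gaussVSw R₁ (M * q * q) _ x).mp (mem_of_val_eq_one hx))

/-- (U1) in the form used here: the third valuation does not depend on the primitive root -/
def U1 (hq : q.Prime) (hqM : ¬ q ∣ M) (ζ : (↥K₃)ˣ) (hζ : IsPrimitiveRoot ζ q) : Prop :=
  ∀ (ζ' : (↥K₃)ˣ) (hζ' : IsPrimitiveRoot ζ' q),
    H3V3.V3 R₃ (M * q * q) q h13 hq (sq_dvd_level M q) (not_cube_dvd_level M q hq hqM) ζ' hζ' =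
      H3V3.V3 R₃ (M * q * q) q h13 hq (sq_dvd_level M q) (not_cube_dvd_level M q hq hqM) ζ hζ

/-- (U2) in the form used here: the third valuation is stable under `W_{q²}` -/
def U2 (hq : q.Prime) (hqM : ¬ q ∣ M) (ζ : (↥K₃)ˣ) (hζ : IsPrimitiveRoot ζ q) : Prop :=
  ∀ z : FK ↥K₁ (M * q * q),
    (H3V3.V3 R₃ (M * q * q) q h13 hq (sq_dvd_level M q) (not_cube_dvd_level M q hq hqM)
      ζ hζ).valuation (H12WQ.wq2KHom K₁ M q hq hqM z) < 1 ↔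
    (H3V3.V3 R₃ (M * q * q) q h13 hq (sq_dvd_level M q) (not_cube_dvd_level M q hq hqM)
      ζ hζ).valuation z < 1

omit [IsDiscreteValuationRing R₁] in
/-- from a congruence at `V₃` to congruences for all the conjugate embeddings -/
theorem iotaB_of_cgV3 (hq : q.Prime) (hqM : ¬ q ∣ M) (ζ : (↥K₃)ˣ) (hζ : IsPrimitiveRoot ζ q)
    (hU1 : U1 h13 R₃ M q hq hqM ζ hζ)
    (x : FK ↥K₁ (M * q * q)) (a : FK ↥K₁ (M * q))
    (h : Cg (H3V3.V3 R₃ (M * q * q) q h13 hq (sq_dvd_level M q)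
      (not_cube_dvd_level M q hq hqM) ζ hζ) x (heckeAlphaBar ↥K₁ (M * q) q a)) :
    ∀ b ∈ Finset.Ico 1 q,
      H8PB.InGm R₃ (iotaB h13 M q hq hqM ζ b x - incK h13 (M * q) a) := by
  intro b hb
  rw [Finset.mem_Ico] at hb
  have hp := prim_pow q hq ζ hζ b (Nat.one_le_iff_ne_zero.mp hb.1) hb.2
  unfold Cg at h
  rw [← hU1 (ζ ^ b) hp, H3V3.valuation_V3_lt_one, map_sub] at h
  rw [← iotaB_alpha h13 M q hq hqM ζ b a, iotaB_of_prim h13 M q hq hqM ζ b hp]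
  exact h

include hR in
/-- **field `cNα₁`**: `x` a unit at `V₁` (and `V₃`), `x ≡ α a` at `V₃` ⟹
`α (N_α x) ≡ x · α(a)^(q-1)` at `V₁`. -/
theorem tri_cNα₁ (hq : q.Prime) (hqM : ¬ q ∣ M)
    (ζ : (↥K₃)ˣ) (hζ : IsPrimitiveRoot ζ q) (hU1 : U1 h13 R₃ M q hq hqM ζ hζ)
    (x : FK ↥K₁ (M * q * q))
    (hx : (gaussVS R₁ (M * q * q)).valuation x = 1)
    (a : FK ↥K₁ (M * q)) (ha : a ∈ gaussVS R₁ (M * q))
    (h : Cg (H3V3.V3 R₃ (M * q * q) q h13 hq (sq_dvd_level M q)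
      (not_cube_dvd_level M q hq hqM) ζ hζ) x (heckeAlphaBar ↥K₁ (M * q) q a)) :
    Cg (gaussVS R₁ (M * q * q)) (heckeAlphaBar ↥K₁ (M * q) q (normAK K₁ M q x))
      (x * heckeAlphaBar ↥K₁ (M * q) q a ^ (q - 1)) := by
  unfold Cg
  rw [valuation_gaussVS_lt_one_iff]
  exact cg_alpha1 h13 R₁ R₃ hR M q hq hqM ζ hζ x a
    ((mem_gaussVS R₁ (M * q * q) x).mp (mem_of_val_eq_one hx))
    ((mem_gaussVS R₁ (M * q) a).mp ha)
    (iotaB_of_cgV3 h13 R₃ M q hq hqM ζ hζ hU1 x a h)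

include hR in
/-- **field `cNβ₂`**: `x` a unit at `V₂` (and `V₃`), `x ≡ β a` at `V₃` ⟹
`β (N_β x) ≡ x · β(a)^(q-1)` at `V₂`. -/
theorem tri_cNβ₂ (hq : q.Prime) (hqM : ¬ q ∣ M)
    (ζ : (↥K₃)ˣ) (hζ : IsPrimitiveRoot ζ q) (hU1 : U1 h13 R₃ M q hq hqM ζ hζ)
    (hU2 : U2 h13 R₃ M q hq hqM ζ hζ)
    (x : FK ↥K₁ (M * q * q))
    (hx : (gaussVSw R₁ (M * q * q) (H12WQ.wq2KHom K₁ M q hq hqM)).valuation x = 1)
    (a : FK ↥K₁ (M * q)) (ha : a ∈ gaussVSw R₁ (M * q) (H12AL.wqKHom K₁ M q hq hqM))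
    (h : Cg (H3V3.V3 R₃ (M * q * q) q h13 hq (sq_dvd_level M q)
      (not_cube_dvd_level M q hq hqM) ζ hζ) x (heckeBetaBar ↥K₁ (M * q) q a)) :
    Cg (gaussVSw R₁ (M * q * q) (H12WQ.wq2KHom K₁ M q hq hqM))
      (heckeBetaBar ↥K₁ (M * q) q (normBK K₁ M q x))
      (x * heckeBetaBar ↥K₁ (M * q) q a ^ (q - 1)) := by
  unfold Cg
  rw [valuation_gaussVSw_lt_one_iff, map_sub, map_mul, map_pow, wq2KHom_beta, wq2KHom_beta,
    ← normAK_wq2K]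
  have h' : Cg (H3V3.V3 R₃ (M * q * q) q h13 hq (sq_dvd_level M q)
      (not_cube_dvd_level M q hq hqM) ζ hζ) (H12WQ.wq2KHom K₁ M q hq hqM x)
      (heckeAlphaBar ↥K₁ (M * q) q (H12AL.wqKHom K₁ M q hq hqM a)) := by
    unfold Cg at h ⊢
    rw [← wq2KHom_beta, ← map_sub, hU2]
    exact h
  exact cg_alpha1 h13 R₁ R₃ hR M q hq hqM ζ hζ (H12WQ.wq2KHom K₁ M q hq hqM x)
    (H12AL.wqKHom K₁ M q hq hqM a)
    ((mem_gaussVSw R₁ (M * q * q) _ x).mp (mem_of_val_eq_one hx))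
    ((mem_gaussVSw R₁ (M * q) _ a).mp ha)
    (iotaB_of_cgV3 h13 R₃ M q hq hqM ζ hζ hU1 _ _ h')

end H13N3

end
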