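import Mathlib
import Fermat.Agent.S36.NormTri_helper13
import Fermat.Agent.S36.TGV3W_helper24

/-!
# Item 86 (S36): (V3-UNIQ) in the exact form `H13N3.U1`, `H13N3.U2` of helper13's NORM (helper24)

* `u1_of` : `H13N3.U1 h13 R₃ M q hq hqM ζ hζ`;
* `u2_of` : `H13N3.U2 h13 R₃ M q hq hqM ζ hζ`.

Hypotheses: `R₃ ∩ K₁ = R₁` (`hR`), `R₁` a DVR unramified at `q` (`hunr : Irreducible (q : R₁)`),
residue characteristic `q`, `q ∤ M`, a Gauss basis `B` at level `M`.
-/

set_option autoImplicit false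
set_option linter.unusedSectionVars false
set_option linter.style.longLine false
set_option linter.unusedVariables false
set_option linter.style.haveILetI false
set_option synthInstance.maxHeartbeats 400000

open ModularCurve RH24 H28S28 HahnSeries H28GV H8PB H3TAU H7S18

noncomputable section

namespace H24V3

variable {K₁ K₃ : IntermediateField ℚ Kbar} (h13 : K₁ ≤ K₃)
  (R₁ : ValuationSubring ↥K₁) (R₃ : ValuationSubring ↥K₃)
  [IsDiscreteValuationRing R₁] [IsDiscreteValuationRing R₃]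
  (hR : ∀ c : ↥K₁, c ∈ R₁ ↔ IntermediateField.inclusion h13 c ∈ R₃)
variable (M q : ℕ) [NeZero M] [NeZero q] [NeZero (M * q * q)]
  (hq : q.Prime) (hqM : ¬ q ∣ M)
variable [Fact q.Prime] [CharP (IsLocalRing.ResidueField R₁) q]
  (hunr : Irreducible ((q : ℕ) : R₁)) (B : GVBasis R₁ (IsLocalRing.residue R₁) M)

include hR hunr B in
theorem u1_of (ζ : (↥K₃)ˣ) (hζ : IsPrimitiveRoot ζ q) : H13N3.U1 h13 R₃ M q hq hqM ζ hζ :=
  fun ζ' hζ' => V3_indep_level R₁ R₃ (M * q * q) q M h13 hR hq hunr hqM B rfl _ _ ζ' ζ hζ' hζ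

include hR hunr B in
theorem u2_of (ζ : (↥K₃)ˣ) (hζ : IsPrimitiveRoot ζ q) : H13N3.U2 h13 R₃ M q hq hqM ζ hζ :=
  fun z => wq2_val_V3_lt_iff R₁ R₃ M q h13 hR hq hunr hqM B _ _ ζ hζ z

end H24V3

end
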