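import Fermat.Agent.S36.NormB3V_helper13
import Fermat.Agent.S36.NormVN_helper28
import Fermat.Agent.S36.V3UniqNorm_helper24
import Fermat.Agent.S36.TripleEasy_helper11
import Fermat.Agent.S36.TripleSep_helper27
import Fermat.Agent.S36.TripleTG_helper8
import Fermat.Agent.S36.V3Tri_helper3

/-!
# Item 86 (S36), slice (TRIPLE-ASM), the (NORM) fields on helper4's concrete objects (helper13)

Objects of `S36/TripleDefs_helper4.lean`: `cV1 cV2 cV3 cV1' cV2' cb3`, `φα = (heckeAlphaBar …).toRingHom`,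
`φβ = (heckeBetaBar …).toRingHom`, `Nα = H4S36.normAKH`, `Nβ = H4S36.normBKH`, `ϖ` ANY uniformizer of
`R₁` (`q` unramified in `R₁`: `hunr`).

Hypotheses: `K₁ ≤ K₃`, `R₁ R₃` DVRs, `hR : R₃ ∩ K₁ = R₁`, `q` prime, `q ∤ M`,
`hunr : Irreducible (q : R₁)`, `B : GVBasis R₁ (residue R₁) M`, `ζ ∈ K₃` primitive `q`-th root of `1`.

* `H13TN.fld_hNαc`, `fld_hNβc`                         : fields `hNαc`, `hNβc`;
* `H13TN.fld_cNα₁`, `fld_cNα₂`, `fld_cNβ₂`, `fld_cNβ₁` : fields `cN*` (unconditional);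
* `H13TN.fld_hNbα`, `fld_hNbβ`                         : `N b₃` is a uniformizer at `V₁'`, `V₂'`;
* `H13TN.fld_vNα₂`, `fld_vNβ₁`                         : fields `vNα₂`, `vNβ₁` (unconditional);
* `H13TN.fld_vNα₁`, `fld_vNβ₂`                         : fields `vNα₁`, `vNβ₂` from the fields
  `f₃α`, resp. `f₃β` (helper9 `H9CU.triple_f3α`, helper8 `H8TG.triple_f3β`).
-/

set_option autoImplicit false
set_option linter.style.haveILetI false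
set_option linter.unusedSectionVars false
set_option linter.unusedVariables false
set_option linter.style.longLine false
set_option synthInstance.maxHeartbeats 400000
set_option maxHeartbeats 1600000

noncomputable section

open AlgebraicCurve IntermediateField
open ModularCurve RH24 H28S28 HahnSeries H7S18 H28GV H17T3 H3SIG H8PB H4S36

namespace H13TN

variable {K₁ K₃ : IntermediateField ℚ Kbar} (h13 : K₁ ≤ K₃)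
  (R₁ : ValuationSubring ↥K₁) (R₃ : ValuationSubring ↥K₃)
  [IsDiscreteValuationRing R₁] [IsDiscreteValuationRing R₃]
  (hR : ∀ c : ↥K₁, c ∈ R₁ ↔ IntermediateField.inclusion h13 c ∈ R₃)
  (M q : ℕ) [NeZero M] [NeZero q] (hq : q.Prime) (hqM : ¬ q ∣ M)
  (hunr : Irreducible ((q : ℕ) : R₁)) (B : GVBasis R₁ (IsLocalRing.residue R₁) M)
  (ζ : (↥K₃)ˣ) (hζ : IsPrimitiveRoot ζ q)

include hq hunr in
/-- the residue field of `R₁` has characteristic `q` -/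
theorem charP_of_unr : CharP (IsLocalRing.ResidueField ↥R₁) q := by
  have hqm : ((q : ℕ) : ↥R₁) ∈ IsLocalRing.maximalIdeal ↥R₁ := by
    rw [IsLocalRing.mem_maximalIdeal, mem_nonunits_iff]
    exact hunr.not_isUnit
  exact (CharP.charP_iff_prime_eq_zero hq).mpr (by
    have := (IsLocalRing.residue_eq_zero_iff _).mpr hqm
    rwa [map_natCast] at this)

/-! ### norms of constants -/

include hq in
/-- **field `hNαc`** -/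
theorem fld_hNαc (c : ↥K₁) :
    normAKH K₁ M q (algebraMap ↥K₁ (FK ↥K₁ (M * q * q)) c) =
      algebraMap ↥K₁ (FK ↥K₁ (M * q)) c ^ q :=
  H13N3.normAK_const K₁ M q hq c

include hq hqM in
/-- **field `hNβc`** -/
theorem fld_hNβc (c : ↥K₁) :
    normBKH K₁ M q (algebraMap ↥K₁ (FK ↥K₁ (M * q * q)) c) =
      algebraMap ↥K₁ (FK ↥K₁ (M * q)) c ^ q :=
  H13N3.normBK_const K₁ M q hq hqM c

/-! ### the congruences `cN*` -/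

include hR hq hqM hunr hζ in
/-- **field `cNβ₁`** -/
theorem fld_cNβ₁ (x : FK ↥K₁ (M * q * q)) (hx : (cV1 K₁ R₁ M q).valuation x = 1) :
    Cg (cV1 K₁ R₁ M q) ((heckeBetaBar ↥K₁ (M * q) q).toRingHom (normBKH K₁ M q x)) (x ^ q) := by
  have hqR := H24V3.q_mem_nonunits R₁ R₃ q h13 hR hunr
  rw [H11TA.cV1_eq] at hx ⊢
  exact H13N3.tri_cNβ₁ h13 R₁ R₃ hR M q hq hqM hqR ζ hζ x hx

include hR hq hqM hunr hζ in
/-- **field `cNα₂`** -/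
theorem fld_cNα₂ (x : FK ↥K₁ (M * q * q)) (hx : (cV2 K₁ R₁ M q hq hqM).valuation x = 1) :
    Cg (cV2 K₁ R₁ M q hq hqM) ((heckeAlphaBar ↥K₁ (M * q) q).toRingHom (normAKH K₁ M q x))
      (x ^ q) := by
  have hqR := H24V3.q_mem_nonunits R₁ R₃ q h13 hR hunr
  rw [H11TA.cV2_eq] at hx ⊢
  exact H13N3.tri_cNα₂ h13 R₁ R₃ hR M q hq hqM hqR ζ hζ x hx

include hR hq hqM hunr B hζ in
/-- **field `cNα₁`** -/
theorem fld_cNα₁ (x : FK ↥K₁ (M * q * q)) (hx : (cV1 K₁ R₁ M q).valuation x = 1)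
    (hx₃ : (cV3 K₁ M q hq hqM K₃ R₃ h13 ζ hζ).valuation x = 1)
    (a : FK ↥K₁ (M * q)) (ha : a ∈ cV1' K₁ R₁ M q)
    (h : Cg (cV3 K₁ M q hq hqM K₃ R₃ h13 ζ hζ) x ((heckeAlphaBar ↥K₁ (M * q) q).toRingHom a)) :
    Cg (cV1 K₁ R₁ M q) ((heckeAlphaBar ↥K₁ (M * q) q).toRingHom (normAKH K₁ M q x))
      (x * (heckeAlphaBar ↥K₁ (M * q) q).toRingHom a ^ (q - 1)) := by
  haveI : Fact q.Prime := ⟨hq⟩
  haveI := charP_of_unr R₁ q hq hunr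
  have hU1 := H24V3.u1_of h13 R₁ R₃ hR M q hq hqM hunr B ζ hζ
  rw [H11TA.cV1_eq] at hx ⊢
  rw [H11TA.cV1'_eq] at ha
  exact H13N3.tri_cNα₁ h13 R₁ R₃ hR M q hq hqM ζ hζ hU1 x hx a ha h

include hR hq hqM hunr B hζ in
/-- **field `cNβ₂`** -/
theorem fld_cNβ₂ (x : FK ↥K₁ (M * q * q)) (hx : (cV2 K₁ R₁ M q hq hqM).valuation x = 1)
    (hx₃ : (cV3 K₁ M q hq hqM K₃ R₃ h13 ζ hζ).valuation x = 1)
    (a : FK ↥K₁ (M * q)) (ha : a ∈ cV2' K₁ R₁ M q hq hqM)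
    (h : Cg (cV3 K₁ M q hq hqM K₃ R₃ h13 ζ hζ) x ((heckeBetaBar ↥K₁ (M * q) q).toRingHom a)) :
    Cg (cV2 K₁ R₁ M q hq hqM) ((heckeBetaBar ↥K₁ (M * q) q).toRingHom (normBKH K₁ M q x))
      (x * (heckeBetaBar ↥K₁ (M * q) q).toRingHom a ^ (q - 1)) := by
  haveI : Fact q.Prime := ⟨hq⟩
  haveI := charP_of_unr R₁ q hq hunr
  have hU1 := H24V3.u1_of h13 R₁ R₃ hR M q hq hqM hunr B ζ hζ
  have hU2 := H24V3.u2_of h13 R₁ R₃ hR M q hq hqM hunr B ζ hζ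
  rw [H11TA.cV2_eq] at hx ⊢
  rw [H11TA.cV2'_eq] at ha
  exact H13N3.tri_cNβ₂ h13 R₁ R₃ hR M q hq hqM ζ hζ hU1 hU2 x hx a ha h

/-! ### `N b₃` is a uniformizer downstairs -/

section Ord

variable [Algebra ↥R₁ (FK ↥K₁ (M * q * q))] [IsScalarTower ↥R₁ ↥K₁ (FK ↥K₁ (M * q * q))]
  [Algebra ↥R₁ (FK ↥K₁ (M * q))] [IsScalarTower ↥R₁ ↥K₁ (FK ↥K₁ (M * q))]

/-- change of uniformizer in `OrdAt` (exponent `1`): `π = π' · unit`. -/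
theorem ordAt_one_of_assoc {F : Type} [Field F] (V : ValuationSubring F) (π π' x u : F)
    (hu : V.valuation u = 1) (hπ : π = π' * u) (hπ' : π' ≠ 0)
    (h : OrdAt V π x 1) : OrdAt V π' x 1 := by
  unfold OrdAt at h ⊢
  have hu0 : u ≠ 0 := by
    intro h0
    rw [h0, map_zero] at hu
    exact zero_ne_one hu
  have e : x * π' ^ (-(1 : ℤ)) = x * π ^ (-(1 : ℤ)) * u := by
    rw [hπ, zpow_neg_one, zpow_neg_one, mul_inv]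
    field_simp
  rw [e, map_mul, h, hu, one_mul]

include hunr in
/-- `q = ϖ · unit` in `R₁` -/
theorem exists_unit_of_unr {ϖ : R₁} (hϖ : Irreducible ϖ) :
    ∃ u : R₁, IsUnit u ∧ ((q : ℕ) : R₁) = ϖ * u := by
  have h1 : Associated ϖ ((q : ℕ) : R₁) :=
    IsDiscreteValuationRing.associated_of_irreducible ↥R₁ hϖ hunr
  obtain ⟨u, hu⟩ := h1
  exact ⟨u, u.isUnit, hu.symm⟩

/-- a unit of `R₁` is a unit at a valuation ring containing the image of `R₁` -/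
theorem val_unit_eq_one (N : ℕ) [NeZero N] [Algebra ↥R₁ (FK ↥K₁ N)]
    (V : ValuationSubring (FK ↥K₁ N))
    (hRV : ∀ r : R₁, algebraMap ↥R₁ (FK ↥K₁ N) r ∈ V) {u : R₁} (hu : IsUnit u) :
    V.valuation (algebraMap ↥R₁ (FK ↥K₁ N) u) = 1 := by
  obtain ⟨v, hv⟩ := hu.exists_right_inv
  have h1 : V.valuation (algebraMap ↥R₁ (FK ↥K₁ N) u) ≤ 1 :=
    (ValuationSubring.valuation_le_one_iff V _).mpr (hRV u)
  have h2 : V.valuation (algebraMap ↥R₁ (FK ↥K₁ N) v) ≤ 1 :=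
    (ValuationSubring.valuation_le_one_iff V _).mpr (hRV v)
  have h3 : V.valuation (algebraMap ↥R₁ (FK ↥K₁ N) u) *
      V.valuation (algebraMap ↥R₁ (FK ↥K₁ N) v) = 1 := by
    rw [← map_mul, ← map_mul, hv, map_one, map_one]
  refine le_antisymm h1 ?_
  by_contra hlt
  rw [not_le] at hlt
  have h4 : V.valuation (algebraMap ↥R₁ (FK ↥K₁ N) u) *
      V.valuation (algebraMap ↥R₁ (FK ↥K₁ N) v) < 1 := by
    calc V.valuation (algebraMap ↥R₁ (FK ↥K₁ N) u) * V.valuation (algebraMap ↥R₁ (FK ↥K₁ N) v)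
        ≤ V.valuation (algebraMap ↥R₁ (FK ↥K₁ N) u) * 1 := by gcongr
      _ < 1 := by rwa [mul_one]
  rw [h3] at h4
  exact lt_irrefl _ h4

include hR hq hqM hunr hζ in
/-- `N_α b₃` is a uniformizer of `V₁'` -/
theorem fld_hNbα {ϖ : R₁} (hϖ : Irreducible ϖ) :
    OrdAt (cV1' K₁ R₁ M q) (algebraMap ↥R₁ (FK ↥K₁ (M * q)) ϖ) (normAKH K₁ M q (cb3 K₁ M q)) 1 := by
  have hqR := H24V3.q_mem_nonunits R₁ R₃ q h13 hR hunr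
  have h := H13N3.ordAt_normAK_b3 h13 R₁ R₃ hR M q hq hqM hqR ζ hζ
  rw [H13N3.b3K_eq, ← H3V3.cb3_eq, ← H11TA.cV1'_eq] at h
  obtain ⟨u, hu, hqu⟩ := exists_unit_of_unr R₁ q hunr hϖ
  refine ordAt_one_of_assoc (cV1' K₁ R₁ M q) _ _ _ (algebraMap ↥R₁ (FK ↥K₁ (M * q)) u)
    (val_unit_eq_one R₁ (M * q) _ (H11TA.fld_hR₁' K₁ R₁ M q) hu) ?_
    (H11TA.algebraMap_ne_zero K₁ R₁ hϖ (M * q)) h
  rw [← map_mul, ← hqu, map_natCast]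

include hR hq hqM hunr hζ in
/-- `N_β b₃` is a uniformizer of `V₂'` -/
theorem fld_hNbβ {ϖ : R₁} (hϖ : Irreducible ϖ) :
    OrdAt (cV2' K₁ R₁ M q hq hqM) (algebraMap ↥R₁ (FK ↥K₁ (M * q)) ϖ)
      (normBKH K₁ M q (cb3 K₁ M q)) 1 := by
  have hqR := H24V3.q_mem_nonunits R₁ R₃ q h13 hR hunr
  have h := H13N3.ordAt_normBK_b3 h13 R₁ R₃ hR M q hq hqM hqR ζ hζ
  rw [H13N3.b3K_eq, ← H3V3.cb3_eq, ← H11TA.cV2'_eq] at h
  obtain ⟨u, hu, hqu⟩ := exists_unit_of_unr R₁ q hunr hϖ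
  refine ordAt_one_of_assoc (cV2' K₁ R₁ M q hq hqM) _ _ _ (algebraMap ↥R₁ (FK ↥K₁ (M * q)) u)
    (val_unit_eq_one R₁ (M * q) _ (H11TA.fld_hR₂' K₁ R₁ M q hq hqM) hu) ?_
    (H11TA.algebraMap_ne_zero K₁ R₁ hϖ (M * q)) h
  rw [← map_mul, ← hqu, map_natCast]

/-! ### the valuations of the norms `vN*` -/

include hR hq hqM hunr hζ in
/-- **field `vNα₂`** -/
theorem fld_vNα₂ (ϖ : R₁) (x : FK ↥K₁ (M * q * q)) (a : ℤ)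
    (hx : OrdAt (cV2 K₁ R₁ M q hq hqM) (algebraMap ↥R₁ (FK ↥K₁ (M * q * q)) ϖ) x a) :
    OrdAt (cV2' K₁ R₁ M q hq hqM) (algebraMap ↥R₁ (FK ↥K₁ (M * q)) ϖ) (normAKH K₁ M q x)
      (q * a) := by
  haveI := charP_of_unr R₁ q hq hunr
  exact H28VN.triple_vN_simple ↥R₁ ↥K₁ (FK ↥K₁ (M * q * q)) (FK ↥K₁ (M * q)) ϖ q
    (heckeAlphaBar ↥K₁ (M * q) q).toRingHom (normAKH K₁ M q)
    (cV2 K₁ R₁ M q hq hqM) (cV2' K₁ R₁ M q hq hqM)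
    (fld_hNαc M q hq) (H8TG.tg_hα2 K₁ R₁ M q hq hqM)
    (fld_cNα₂ h13 R₁ R₃ hR M q hq hqM hunr ζ hζ) x a hx

include hR hq hqM hunr hζ in
/-- **field `vNβ₁`** -/
theorem fld_vNβ₁ (ϖ : R₁) (x : FK ↥K₁ (M * q * q)) (a : ℤ)
    (hx : OrdAt (cV1 K₁ R₁ M q) (algebraMap ↥R₁ (FK ↥K₁ (M * q * q)) ϖ) x a) :
    OrdAt (cV1' K₁ R₁ M q) (algebraMap ↥R₁ (FK ↥K₁ (M * q)) ϖ) (normBKH K₁ M q x)
      (q * a) := by
  haveI := charP_of_unr R₁ q hq hunr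
  exact H28VN.triple_vN_simple ↥R₁ ↥K₁ (FK ↥K₁ (M * q * q)) (FK ↥K₁ (M * q)) ϖ q
    (heckeBetaBar ↥K₁ (M * q) q).toRingHom (normBKH K₁ M q)
    (cV1 K₁ R₁ M q) (cV1' K₁ R₁ M q)
    (fld_hNβc M q hq hqM) (H8TG.tg_hβ1 K₁ R₁ M q)
    (fld_cNβ₁ h13 R₁ R₃ hR M q hq hqM hunr ζ hζ) x a hx

include hR hq hqM hunr B hζ in
/-- **field `vNα₁`**, from the field `f₃α` -/
theorem fld_vNα₁ {ϖ : R₁} (hϖ : Irreducible ϖ)
    (f₃α : ∀ x : FK ↥K₁ (M * q * q), x ∈ cV3 K₁ M q hq hqM K₃ R₃ h13 ζ hζ →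
      ∃ a : FK ↥K₁ (M * q), a ∈ cV1' K₁ R₁ M q ∧
        Cg (cV3 K₁ M q hq hqM K₃ R₃ h13 ζ hζ) x ((heckeAlphaBar ↥K₁ (M * q) q).toRingHom a))
    (x : FK ↥K₁ (M * q * q)) (a c : ℤ)
    (hx : OrdAt (cV1 K₁ R₁ M q) (algebraMap ↥R₁ (FK ↥K₁ (M * q * q)) ϖ) x a)
    (hx₃ : OrdAt (cV3 K₁ M q hq hqM K₃ R₃ h13 ζ hζ) (cb3 K₁ M q) x c) :
    OrdAt (cV1' K₁ R₁ M q) (algebraMap ↥R₁ (FK ↥K₁ (M * q)) ϖ) (normAKH K₁ M q x)
      (a + c) := by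
  haveI : Fact q.Prime := ⟨hq⟩
  haveI := charP_of_unr R₁ q hq hunr
  have hqR := H24V3.q_mem_nonunits R₁ R₃ q h13 hR hunr
  exact H28VN.triple_vN_split ↥R₁ ↥K₁ (FK ↥K₁ (M * q * q)) (FK ↥K₁ (M * q)) ϖ q
    (heckeAlphaBar ↥K₁ (M * q) q).toRingHom (normAKH K₁ M q)
    (cV1 K₁ R₁ M q) (cV3 K₁ M q hq hqM K₃ R₃ h13 ζ hζ) (cV1' K₁ R₁ M q) (cb3 K₁ M q)
    (H11TA.algebraMap_ne_zero K₁ R₁ hϖ (M * q)) (H11TA.algebraMap_ne_zero K₁ R₁ hϖ (M * q * q))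
    (fld_hNαc M q hq) (H8TG.tg_hα1 K₁ R₁ M q)
    (H3V3.tri_hα₃ K₁ K₃ R₁ R₃ M q hq hqM h13 ζ hζ hR)
    (H27WA.cV1_val_cb3 K₁ R₁ M q)
    (H3V3.tri_he₃ K₁ K₃ R₁ R₃ M q hq hqM h13 ζ hζ hR hqR hunr ϖ hϖ)
    (fld_hNbα h13 R₁ R₃ hR M q hq hqM hunr ζ hζ hϖ) f₃α
    (fld_cNα₁ h13 R₁ R₃ hR M q hq hqM hunr B ζ hζ) x a c hx hx₃

include hR hq hqM hunr B hζ in
/-- **field `vNβ₂`**, from the field `f₃β` -/
theorem fld_vNβ₂ {ϖ : R₁} (hϖ : Irreducible ϖ)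
    (f₃β : ∀ x : FK ↥K₁ (M * q * q), x ∈ cV3 K₁ M q hq hqM K₃ R₃ h13 ζ hζ →
      ∃ a : FK ↥K₁ (M * q), a ∈ cV2' K₁ R₁ M q hq hqM ∧
        Cg (cV3 K₁ M q hq hqM K₃ R₃ h13 ζ hζ) x ((heckeBetaBar ↥K₁ (M * q) q).toRingHom a))
    (x : FK ↥K₁ (M * q * q)) (a c : ℤ)
    (hx : OrdAt (cV2 K₁ R₁ M q hq hqM) (algebraMap ↥R₁ (FK ↥K₁ (M * q * q)) ϖ) x a)
    (hx₃ : OrdAt (cV3 K₁ M q hq hqM K₃ R₃ h13 ζ hζ) (cb3 K₁ M q) x c) :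
    OrdAt (cV2' K₁ R₁ M q hq hqM) (algebraMap ↥R₁ (FK ↥K₁ (M * q)) ϖ) (normBKH K₁ M q x)
      (a + c) := by
  haveI : Fact q.Prime := ⟨hq⟩
  haveI := charP_of_unr R₁ q hq hunr
  have hqR := H24V3.q_mem_nonunits R₁ R₃ q h13 hR hunr
  exact H28VN.triple_vN_split ↥R₁ ↥K₁ (FK ↥K₁ (M * q * q)) (FK ↥K₁ (M * q)) ϖ q
    (heckeBetaBar ↥K₁ (M * q) q).toRingHom (normBKH K₁ M q)
    (cV2 K₁ R₁ M q hq hqM) (cV3 K₁ M q hq hqM K₃ R₃ h13 ζ hζ) (cV2' K₁ R₁ M q hq hqM)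
    (cb3 K₁ M q)
    (H11TA.algebraMap_ne_zero K₁ R₁ hϖ (M * q)) (H11TA.algebraMap_ne_zero K₁ R₁ hϖ (M * q * q))
    (fld_hNβc M q hq hqM) (H8TG.tg_hβ2 K₁ R₁ M q hq hqM)
    (H3V3.tri_hβ₃ K₁ K₃ R₁ R₃ M q hq hqM h13 ζ hζ hR)
    (H27WA.cV2_val_cb3 K₁ R₁ M q hq hqM)
    (H3V3.tri_he₃ K₁ K₃ R₁ R₃ M q hq hqM h13 ζ hζ hR hqR hunr ϖ hϖ)
    (fld_hNbβ h13 R₁ R₃ hR M q hq hqM hunr ζ hζ hϖ) f₃β
    (fld_cNβ₂ h13 R₁ R₃ hR M q hq hqM hunr B ζ hζ) x a c hx hx₃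

end Ord

end H13TN

end
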