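import Fermat.Agent.S36.V3Tri_helper3
import Fermat.Agent.S18.C6b_helper4

/-!
# Item 86 (S36), slice (V3), part 10 (helper3): the `V₃`-package at `R₁ = A ∩ L`

For TRIPLE-ASM: `L ⊆ ℚ̄` a number field, `A` a valuation ring of `ℚ̄` over `q`,
`ζ₀ ∈ ℚ̄` a primitive `q`-th root of unity, `K₃ := H3V3.K3 L ζ₀ = L(ζ₀)`, `R₃ := A ∩ K₃`.

* `H3V3.exists_zeta0`        : a primitive `q`-th root of unity in `ℚ̄`;
* `H3V3.isDVR_descVal_K3`    : `A ∩ L(ζ₀)` is a DVR;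
* `H3V3.hR_descVal`          : `c ∈ A ∩ K₁ ↔ c ∈ A ∩ K₃` (`K₁ ≤ K₃`);
* `H3V3.hqR_descVal`         : `q ∈ 𝔪(A ∩ K₃)`;
* `H3V3.dtri_hR₃ … dtri_hβ₃` : the `V₃`-fields of `H4S36.Triple` for `R = descVal A L`,
  `V₃ = cV3 L M q hq hqM (K3 L ζ₀) (descVal A (K3 L ζ₀)) …`.
-/

set_option autoImplicit false
set_option linter.unusedSectionVars false
set_option linter.unusedVariables false
set_option linter.style.longLine false
set_option linter.style.haveILetI false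
set_option synthInstance.maxHeartbeats 400000

noncomputable section

open AlgebraicCurve IntermediateField ModularCurve RH24 H28S28 HahnSeries H7S18 H28GV H8PB H3SIG
  H3TAU H4S36

namespace H3V3

/-- a primitive `q`-th root of unity in `ℚ̄`. -/
theorem exists_zeta0 (q : ℕ) [NeZero q] : ∃ ζ₀ : Kbar, IsPrimitiveRoot ζ₀ q := by
  haveI : NeZero ((q : ℕ) : Kbar) := ⟨Nat.cast_ne_zero.2 (NeZero.ne q)⟩
  exact HasEnoughRootsOfUnity.exists_primitiveRoot Kbar q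

theorem hR_descVal (A : ValuationSubring Kbar) {K₁ K₃ : IntermediateField ℚ Kbar}
    (h13 : K₁ ≤ K₃) (c : ↥K₁) :
    c ∈ descVal A K₁ ↔ IntermediateField.inclusion h13 c ∈ descVal A K₃ := Iff.rfl

section Desc

variable (A : ValuationSubring Kbar) (L : IntermediateField ℚ Kbar)
  (M q : ℕ) [NeZero M] [NeZero q] (hq : q.Prime) (hqM : ¬ q ∣ M)
  (ζ₀ : Kbar) (hζ₀ : IsPrimitiveRoot ζ₀ q)

include hq in
/-- `A ∩ K` is a DVR for every number field `K` (`A` over `q`). -/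
theorem isDVR_descVal (hA : A.LiesOverPrime q) (K : IntermediateField ℚ Kbar)
    [FiniteDimensional ℚ K] : IsDiscreteValuationRing ↥(descVal A K) := by
  haveI : Fact q.Prime := ⟨hq⟩
  exact (H4DVR.dvrStatement q A hA K inferInstance).1

include hq hζ₀ in
/-- `A ∩ L(ζ₀)` is a DVR. -/
theorem isDVR_descVal_K3 (hA : A.LiesOverPrime q) [FiniteDimensional ℚ L] :
    IsDiscreteValuationRing ↥(descVal A (K3 L ζ₀)) := by
  haveI := finiteDimensional_K3 L ζ₀ hq.pos hζ₀.pow_eq_one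
  exact isDVR_descVal A q hq hA (K3 L ζ₀)

include hq in
/-- `q ∈ 𝔪(A ∩ K)`. -/
theorem hqR_descVal (hA : A.LiesOverPrime q) (K : IntermediateField ℚ Kbar) :
    ((q : ℕ) : ↥K) ∈ (descVal A K).nonunits := by
  haveI : Fact q.Prime := ⟨hq⟩
  exact H8TG.h8tg_hqR q A hA K

variable [IsDiscreteValuationRing ↥(descVal A L)]
  [IsDiscreteValuationRing ↥(descVal A (K3 L ζ₀))]

/-- the third valuation ring of `F_L(M q q)` attached to `A` (`K₃ = L(ζ₀)`, `R₃ = A ∩ K₃`). -/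
abbrev dV3 : ValuationSubring (FK ↥L (M * q * q)) :=
  cV3 L M q hq hqM (K3 L ζ₀) (descVal A (K3 L ζ₀)) (le_K3 L ζ₀)
    (zetaU L ζ₀ hq.pos hζ₀.pow_eq_one) (isPrimitiveRoot_zetaU L ζ₀ hq.pos hζ₀)

/-- **field `hR₃`** at `R = A ∩ L`. -/
theorem dtri_hR₃ [Algebra ↥(descVal A L) (FK ↥L (M * q * q))]
    [IsScalarTower ↥(descVal A L) ↥L (FK ↥L (M * q * q))] (r : ↥(descVal A L)) :
    algebraMap ↥(descVal A L) (FK ↥L (M * q * q)) r ∈ dV3 A L M q hq hqM ζ₀ hζ₀ :=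
  tri_hR₃ L (K3 L ζ₀) (descVal A L) (descVal A (K3 L ζ₀)) M q hq hqM (le_K3 L ζ₀) _ _
    (hR_descVal A (le_K3 L ζ₀)) r

/-- **field `hb₃`** at `R = A ∩ L`. -/
theorem dtri_hb₃ (hA : A.LiesOverPrime q) :
    (dV3 A L M q hq hqM ζ₀ hζ₀).valuation (cb3 L M q) < 1 :=
  tri_hb₃ L (K3 L ζ₀) (descVal A (K3 L ζ₀)) M q hq hqM (le_K3 L ζ₀) _ _
    (hqR_descVal A q hq hA (K3 L ζ₀))

/-- **field `he₃`** at `R = A ∩ L`, `L` unramified at `A`. -/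
theorem dtri_he₃ [Algebra ↥(descVal A L) (FK ↥L (M * q * q))]
    [IsScalarTower ↥(descVal A L) ↥L (FK ↥L (M * q * q))] (hA : A.LiesOverPrime q)
    (hirr : Irreducible ((q : ℕ) : ↥(descVal A L))) (ϖ : ↥(descVal A L)) (hϖ : Irreducible ϖ) :
    OrdAt (dV3 A L M q hq hqM ζ₀ hζ₀) (cb3 L M q)
      (algebraMap ↥(descVal A L) (FK ↥L (M * q * q)) ϖ) ((q : ℤ) - 1) :=
  tri_he₃ L (K3 L ζ₀) (descVal A L) (descVal A (K3 L ζ₀)) M q hq hqM (le_K3 L ζ₀) _ _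
    (hR_descVal A (le_K3 L ζ₀)) (hqR_descVal A q hq hA (K3 L ζ₀)) hirr ϖ hϖ

/-- **field `hd₃`** at `R = A ∩ L`, `L` unramified at `A`. -/
theorem dtri_hd₃ (hA : A.LiesOverPrime q)
    (hirr : Irreducible ((q : ℕ) : ↥(descVal A L)))
    (x : FK ↥L (M * q * q)) (hx : x ≠ 0) :
    ∃ k : ℤ, OrdAt (dV3 A L M q hq hqM ζ₀ hζ₀) (cb3 L M q) x k :=
  tri_hd₃ L (descVal A L) M q hq hqM ζ₀ hζ₀ (descVal A (K3 L ζ₀))
    (hR_descVal A (le_K3 L ζ₀)) (hqR_descVal A q hq hA (K3 L ζ₀)) hirr x hx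

/-- **field `hα₃`** at `R = A ∩ L`. -/
theorem dtri_hα₃ (x : FK ↥L (M * q)) :
    (cV1' L (descVal A L) M q).valuation x < 1 ↔
      (dV3 A L M q hq hqM ζ₀ hζ₀).valuation ((heckeAlphaBar ↥L (M * q) q).toRingHom x) < 1 :=
  tri_hα₃ L (K3 L ζ₀) (descVal A L) (descVal A (K3 L ζ₀)) M q hq hqM (le_K3 L ζ₀) _ _
    (hR_descVal A (le_K3 L ζ₀)) x

/-- **field `hβ₃`** at `R = A ∩ L`. -/
theorem dtri_hβ₃ (x : FK ↥L (M * q)) :
    (cV2' L (descVal A L) M q hq hqM).valuation x < 1 ↔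
      (dV3 A L M q hq hqM ζ₀ hζ₀).valuation ((heckeBetaBar ↥L (M * q) q).toRingHom x) < 1 :=
  tri_hβ₃ L (K3 L ζ₀) (descVal A L) (descVal A (K3 L ζ₀)) M q hq hqM (le_K3 L ζ₀) _ _
    (hR_descVal A (le_K3 L ζ₀)) x

end Desc

end H3V3

end
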