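import Mathlib
import Fermat.Agent.S36.TripleAsm_helper11
import Fermat.Agent.S36.V3Desc_helper3
import Fermat.Agent.S36.NormVN_helper28
import Fermat.Agent.S36.NormB3_helper13
import Fermat.Agent.S36.NormB3V_helper13
import Fermat.Agent.S36.TripleNorm_helper13

/-!
# Item 86 (S36, Carayol), slice (TRIPLE-ASM), part 3 (helper11): the concrete `Triple` at
`R = descVal A L`, `V₃ = H3V3.dV3` (`K₃ = L(ζ₀)`)

* `H11TA.triple_of_cN` : the `vN*` fields from the `cN*` fields (generic `H28VN` lemmas);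
* `H11TA.triple_concrete_gen` : the concrete `Triple`, generic `K₃ = K₁(ζ)`;
* `H11TA.triple_concrete` : `H4S36.Triple` for `cV1 cV2 dV3 cV1' cV2' cb3` under the only
  hypotheses `FiniteDimensional ℚ L`, `Irreducible (q : descVal A L)`, `TameLevel q M`.
-/

set_option autoImplicit false
set_option linter.unusedSectionVars false
set_option linter.unusedVariables false
set_option linter.style.haveILetI false
set_option linter.style.longLine false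
set_option synthInstance.maxHeartbeats 400000
set_option maxHeartbeats 1000000

noncomputable section

open IntermediateField AlgebraicCurve ModularCurve H7S18 RH24 HahnSeries H8PB H4S36 H17T3 H4S34
  H1FW

namespace H11TA

section vn

variable (M : ℕ) [NeZero M] (q : ℕ) [NeZero q] (hq : q.Prime) (hqM : ¬ q ∣ M)
  (hT : TameLevel q M)
  (A : ValuationSubring (AlgebraicClosure ℚ)) (hA : A.LiesOverPrime q)
  (K₁ : IntermediateField ℚ (AlgebraicClosure ℚ)) (hfin : FiniteDimensional ℚ K₁)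
  (hunr : Irreducible ((q : ℕ) : ↥(descVal A K₁)))
  (K₃ : IntermediateField ℚ (AlgebraicClosure ℚ)) (hfin₃ : FiniteDimensional ℚ K₃)
  (h13 : K₁ ≤ K₃) (ζ : (↥K₃)ˣ) (hζ : IsPrimitiveRoot ζ q)
  (hK₃ : ∀ c : ↥K₃, ∃ a : Fin (q - 1) → ↥K₁,
    c = ∑ i : Fin (q - 1), IntermediateField.inclusion h13 (a i) * ((ζ : ↥K₃) - 1) ^ (i : ℕ))
  [IsDiscreteValuationRing ↥(descVal A K₁)] [IsDiscreteValuationRing ↥(descVal A K₃)]
  [Fact q.Prime] [CharP (IsLocalRing.ResidueField ↥(descVal A K₁)) q]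
  (B : H28GV.GVBasis (descVal A K₁) (IsLocalRing.residue ↥(descVal A K₁)) M)
  [Algebra ↥(descVal A K₁) (FK K₁ (M * q * q))]
  [IsScalarTower ↥(descVal A K₁) K₁ (FK K₁ (M * q * q))]
  [Algebra ↥(descVal A K₁) (FK K₁ (M * q))]
  [IsScalarTower ↥(descVal A K₁) K₁ (FK K₁ (M * q))]

theorem cb3_eq_b3K : cb3 K₁ M q = H13N3.b3K M q K₁ := H3V3.cb3_eq K₁ M q

include hq hqM hA h13 hζ in
/-- `hNb` for `α` in the form of the `Triple` -/
theorem fld_hNbα :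
    OrdAt (cV1' K₁ (descVal A K₁) M q)
      (algebraMap ↥(descVal A K₁) (FK K₁ (M * q)) ((q : ℕ) : ↥(descVal A K₁)))
      (normAKH K₁ M q (cb3 K₁ M q)) 1 := by
  have h := H13N3.ordAt_normAK_b3 h13 (descVal A K₁) (descVal A K₃) (hR_desc A K₁ K₃ h13) M q
    hq hqM (H8TG.h8tg_hqR q A hA K₃) ζ hζ
  rw [cV1'_eq, map_natCast, cb3_eq_b3K]
  exact h

include hq hqM hA h13 hζ in
/-- `hNb` for `β` in the form of the `Triple` -/
theorem fld_hNbβ :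
    OrdAt (cV2' K₁ (descVal A K₁) M q hq hqM)
      (algebraMap ↥(descVal A K₁) (FK K₁ (M * q)) ((q : ℕ) : ↥(descVal A K₁)))
      (normBKH K₁ M q (cb3 K₁ M q)) 1 := by
  have h := H13N3.ordAt_normBK_b3 h13 (descVal A K₁) (descVal A K₃) (hR_desc A K₁ K₃ h13) M q
    hq hqM (H8TG.h8tg_hqR q A hA K₃) ζ hζ
  rw [cV2'_eq, map_natCast, cb3_eq_b3K]
  exact h

include hT hA hfin hunr hfin₃ hK₃ B in
set_option maxHeartbeats 4000000 in
/-- **the concrete `Triple`, up to the four congruence fields `cN*`**. -/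
theorem triple_of_cN (n : ℕ) (hn : 0 < n)
    (t₀ : LaurentSeries ℚ) (ht₀ : IsBase (baseKind q) t₀)
    (t : FK K₁ (M * q * q)) (ht : (t : LaurentSeries K₁) = coeffEmb K₁ t₀)
    (cNα₁ : ∀ x : FK K₁ (M * q * q), (cV1 K₁ (descVal A K₁) M q).valuation x = 1 →
      (cV3 K₁ M q hq hqM K₃ (descVal A K₃) h13 ζ hζ).valuation x = 1 →
      ∀ a : FK K₁ (M * q), a ∈ cV1' K₁ (descVal A K₁) M q →
      Cg (cV3 K₁ M q hq hqM K₃ (descVal A K₃) h13 ζ hζ) x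
        ((heckeAlphaBar ↥K₁ (M * q) q).toRingHom a) →
      Cg (cV1 K₁ (descVal A K₁) M q)
        ((heckeAlphaBar ↥K₁ (M * q) q).toRingHom (normAKH K₁ M q x))
        (x * (heckeAlphaBar ↥K₁ (M * q) q).toRingHom a ^ (q - 1)))
    (cNα₂ : ∀ x : FK K₁ (M * q * q), (cV2 K₁ (descVal A K₁) M q hq hqM).valuation x = 1 →
      Cg (cV2 K₁ (descVal A K₁) M q hq hqM)
        ((heckeAlphaBar ↥K₁ (M * q) q).toRingHom (normAKH K₁ M q x)) (x ^ q))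
    (cNβ₂ : ∀ x : FK K₁ (M * q * q), (cV2 K₁ (descVal A K₁) M q hq hqM).valuation x = 1 →
      (cV3 K₁ M q hq hqM K₃ (descVal A K₃) h13 ζ hζ).valuation x = 1 →
      ∀ a : FK K₁ (M * q), a ∈ cV2' K₁ (descVal A K₁) M q hq hqM →
      Cg (cV3 K₁ M q hq hqM K₃ (descVal A K₃) h13 ζ hζ) x
        ((heckeBetaBar ↥K₁ (M * q) q).toRingHom a) →
      Cg (cV2 K₁ (descVal A K₁) M q hq hqM)
        ((heckeBetaBar ↥K₁ (M * q) q).toRingHom (normBKH K₁ M q x))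
        (x * (heckeBetaBar ↥K₁ (M * q) q).toRingHom a ^ (q - 1)))
    (cNβ₁ : ∀ x : FK K₁ (M * q * q), (cV1 K₁ (descVal A K₁) M q).valuation x = 1 →
      Cg (cV1 K₁ (descVal A K₁) M q)
        ((heckeBetaBar ↥K₁ (M * q) q).toRingHom (normBKH K₁ M q x)) (x ^ q)) :
    Triple ↥(descVal A K₁) K₁ (FK K₁ (M * q * q)) (FK K₁ (M * q))
      ((q : ℕ) : ↥(descVal A K₁)) t q n
      (heckeAlphaBar ↥K₁ (M * q) q).toRingHom (heckeBetaBar ↥K₁ (M * q) q).toRingHom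
      (normAKH K₁ M q) (normBKH K₁ M q)
      (cV1 K₁ (descVal A K₁) M q) (cV2 K₁ (descVal A K₁) M q hq hqM)
      (cV3 K₁ M q hq hqM K₃ (descVal A K₃) h13 ζ hζ)
      (cV1' K₁ (descVal A K₁) M q) (cV2' K₁ (descVal A K₁) M q hq hqM) (cb3 K₁ M q) := by
  have hR := hR_desc A K₁ K₃ h13
  have hqR : ((q : ℕ) : ↥K₃) ∈ (descVal A K₃).nonunits := H8TG.h8tg_hqR q A hA K₃
  have hϖ0 : algebraMap ↥(descVal A K₁) (FK K₁ (M * q * q)) ((q : ℕ) : ↥(descVal A K₁)) ≠ 0 :=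
    algebraMap_ne_zero K₁ (descVal A K₁) hunr (M * q * q)
  have hϖ0' : algebraMap ↥(descVal A K₁) (FK K₁ (M * q)) ((q : ℕ) : ↥(descVal A K₁)) ≠ 0 :=
    algebraMap_ne_zero K₁ (descVal A K₁) hunr (M * q)
  have hϖ₁ := fld_hϖ₁ K₁ (descVal A K₁) M q hunr
  have hϖ₂ := fld_hϖ₂ K₁ (descVal A K₁) M q hq hqM hunr
  have he₃ := H3V3.tri_he₃ K₁ K₃ (descVal A K₁) (descVal A K₃) M q hq hqM h13 ζ hζ hR hqR hunr
    ((q : ℕ) : ↥(descVal A K₁)) hunr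
  have hd₁ := H25HD.hd_cV1 K₁ (descVal A K₁) M q ((q : ℕ) : ↥(descVal A K₁)) hunr
  have hd₂ := H25HD.hd_cV2 K₁ (descVal A K₁) M q hq hqM ((q : ℕ) : ↥(descVal A K₁)) hunr
  have hd₃ := H3V3.tri_hd₃_gen K₁ K₃ (descVal A K₁) (descVal A K₃) M q hq hqM h13 ζ hζ hR hqR
    hunr hK₃
  have wg : ∀ ψ₁ ψ₂ ψ₃ : FK K₁ (M * q * q),
      (cV1 K₁ (descVal A K₁) M q).valuation ψ₁ = 1 →
      (cV2 K₁ (descVal A K₁) M q hq hqM).valuation ψ₂ = 1 →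
      (cV3 K₁ M q hq hqM K₃ (descVal A K₃) h13 ζ hζ).valuation ψ₃ = 1 →
      ∃ Ψ : FK K₁ (M * q * q), Cg (cV1 K₁ (descVal A K₁) M q) Ψ ψ₁ ∧
        Cg (cV2 K₁ (descVal A K₁) M q hq hqM) Ψ ψ₂ ∧
        Cg (cV3 K₁ M q hq hqM K₃ (descVal A K₃) h13 ζ hζ) Ψ ψ₃ :=
    fun ψ₁ ψ₂ ψ₃ _ _ _ =>
      H27WA.c_wg K₁ (descVal A K₁) M q hq hqM K₃ (descVal A K₃) h13 ζ hζ hqR _ hϖ0 hϖ₁ hϖ₂
        hd₁ hd₂ hd₃ ψ₁ ψ₂ ψ₃
  have f₃α := H9CU.triple_f3α M q hq hqM hT A hA K₁ hfin hunr K₃ hfin₃ h13 ζ hζ t₀ ht₀ t ht wg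
  have hU2 := H24V3.cV3_comap_wq2 K₁ (descVal A K₁) M q hq hqM K₃ (descVal A K₃) h13 hR hunr B
    ζ hζ
  have f₃β := H8TG.tg_f3β_of_f3α K₁ (descVal A K₁) M q hq hqM _ hU2 f₃α
  have hNαc : ∀ c : ↥K₁, normAKH K₁ M q (algebraMap ↥K₁ (FK K₁ (M * q * q)) c) =
      algebraMap ↥K₁ (FK K₁ (M * q)) c ^ q := fun c => H13N3.normAK_const K₁ M q hq c
  have hNβc : ∀ c : ↥K₁, normBKH K₁ M q (algebraMap ↥K₁ (FK K₁ (M * q * q)) c) =
      algebraMap ↥K₁ (FK K₁ (M * q)) c ^ q := fun c => H13N3.normBK_const K₁ M q hq hqM c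
  have hα₁ := H8TG.tg_hα1 K₁ (descVal A K₁) M q
  have hα₂ := H8TG.tg_hα2 K₁ (descVal A K₁) M q hq hqM
  have hα₃ := H3V3.tri_hα₃ K₁ K₃ (descVal A K₁) (descVal A K₃) M q hq hqM h13 ζ hζ hR
  have hβ₁ := H8TG.tg_hβ1 K₁ (descVal A K₁) M q
  have hβ₂ := H8TG.tg_hβ2 K₁ (descVal A K₁) M q hq hqM
  have hβ₃ := H3V3.tri_hβ₃ K₁ K₃ (descVal A K₁) (descVal A K₃) M q hq hqM h13 ζ hζ hR
  refine triple_of_norm M q hq hqM hT A hA K₁ hfin hunr K₃ hfin₃ h13 ζ hζ hK₃ B n hn t₀ ht₀ t ht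
    ?_ ?_ ?_ ?_ cNα₁ cNα₂ cNβ₂ cNβ₁
  · exact H28VN.triple_vN_split ↥(descVal A K₁) ↥K₁ (FK K₁ (M * q * q)) (FK K₁ (M * q))
      ((q : ℕ) : ↥(descVal A K₁)) q (heckeAlphaBar ↥K₁ (M * q) q).toRingHom (normAKH K₁ M q)
      (cV1 K₁ (descVal A K₁) M q) (cV3 K₁ M q hq hqM K₃ (descVal A K₃) h13 ζ hζ)
      (cV1' K₁ (descVal A K₁) M q) (cb3 K₁ M q) hϖ0' hϖ0 hNαc hα₁ hα₃
      (H27WA.cV1_val_cb3 K₁ (descVal A K₁) M q) he₃
      (fld_hNbα M q hq hqM A hA K₁ K₃ h13 ζ hζ) f₃α cNα₁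
  · exact H28VN.triple_vN_simple ↥(descVal A K₁) ↥K₁ (FK K₁ (M * q * q)) (FK K₁ (M * q))
      ((q : ℕ) : ↥(descVal A K₁)) q (heckeAlphaBar ↥K₁ (M * q) q).toRingHom (normAKH K₁ M q)
      (cV2 K₁ (descVal A K₁) M q hq hqM) (cV2' K₁ (descVal A K₁) M q hq hqM) hNαc hα₂ cNα₂
  · exact H28VN.triple_vN_simple ↥(descVal A K₁) ↥K₁ (FK K₁ (M * q * q)) (FK K₁ (M * q))
      ((q : ℕ) : ↥(descVal A K₁)) q (heckeBetaBar ↥K₁ (M * q) q).toRingHom (normBKH K₁ M q)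
      (cV1 K₁ (descVal A K₁) M q) (cV1' K₁ (descVal A K₁) M q) hNβc hβ₁ cNβ₁
  · exact H28VN.triple_vN_split ↥(descVal A K₁) ↥K₁ (FK K₁ (M * q * q)) (FK K₁ (M * q))
      ((q : ℕ) : ↥(descVal A K₁)) q (heckeBetaBar ↥K₁ (M * q) q).toRingHom (normBKH K₁ M q)
      (cV2 K₁ (descVal A K₁) M q hq hqM) (cV3 K₁ M q hq hqM K₃ (descVal A K₃) h13 ζ hζ)
      (cV2' K₁ (descVal A K₁) M q hq hqM) (cb3 K₁ M q) hϖ0' hϖ0 hNβc hβ₂ hβ₃
      (H27WA.cV2_val_cb3 K₁ (descVal A K₁) M q hq hqM) he₃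
      (fld_hNbβ M q hq hqM A hA K₁ K₃ h13 ζ hζ) f₃β cNβ₂

include hT hA hfin hunr hfin₃ hK₃ B in
/-- **the concrete `Triple`** (generic `K₃ = K₁(ζ)`, `R₃ = A ∩ K₃`). -/
theorem triple_concrete_gen (n : ℕ) (hn : 0 < n)
    (t₀ : LaurentSeries ℚ) (ht₀ : IsBase (baseKind q) t₀)
    (t : FK K₁ (M * q * q)) (ht : (t : LaurentSeries K₁) = coeffEmb K₁ t₀) :
    Triple ↥(descVal A K₁) K₁ (FK K₁ (M * q * q)) (FK K₁ (M * q))
      ((q : ℕ) : ↥(descVal A K₁)) t q n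
      (heckeAlphaBar ↥K₁ (M * q) q).toRingHom (heckeBetaBar ↥K₁ (M * q) q).toRingHom
      (normAKH K₁ M q) (normBKH K₁ M q)
      (cV1 K₁ (descVal A K₁) M q) (cV2 K₁ (descVal A K₁) M q hq hqM)
      (cV3 K₁ M q hq hqM K₃ (descVal A K₃) h13 ζ hζ)
      (cV1' K₁ (descVal A K₁) M q) (cV2' K₁ (descVal A K₁) M q hq hqM) (cb3 K₁ M q) :=
  triple_of_cN M q hq hqM hT A hA K₁ hfin hunr K₃ hfin₃ h13 ζ hζ hK₃ B n hn t₀ ht₀ t ht
    (H13TN.fld_cNα₁ h13 (descVal A K₁) (descVal A K₃) (hR_desc A K₁ K₃ h13) M q hq hqM hunr B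
      ζ hζ)
    (H13TN.fld_cNα₂ h13 (descVal A K₁) (descVal A K₃) (hR_desc A K₁ K₃ h13) M q hq hqM hunr
      ζ hζ)
    (H13TN.fld_cNβ₂ h13 (descVal A K₁) (descVal A K₃) (hR_desc A K₁ K₃ h13) M q hq hqM hunr B
      ζ hζ)
    (H13TN.fld_cNβ₁ h13 (descVal A K₁) (descVal A K₃) (hR_desc A K₁ K₃ h13) M q hq hqM hunr
      ζ hζ)

end vn

section final

variable (M : ℕ) [NeZero M] (q : ℕ) [NeZero q] (hq : q.Prime) (hqM : ¬ q ∣ M)
  (hT : TameLevel q M)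
  (A : ValuationSubring (AlgebraicClosure ℚ)) (hA : A.LiesOverPrime q)
  (L : IntermediateField ℚ (AlgebraicClosure ℚ)) (hfin : FiniteDimensional ℚ L)
  (hirr : Irreducible ((q : ℕ) : ↥(descVal A L)))
  (ζ₀ : AlgebraicClosure ℚ) (hζ₀ : IsPrimitiveRoot ζ₀ q)
  [IsDiscreteValuationRing ↥(descVal A L)]
  [IsDiscreteValuationRing ↥(descVal A (H3V3.K3 L ζ₀))]
  [Algebra ↥(descVal A L) (FK L (M * q * q))]
  [IsScalarTower ↥(descVal A L) L (FK L (M * q * q))]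
  [Algebra ↥(descVal A L) (FK L (M * q))]
  [IsScalarTower ↥(descVal A L) L (FK L (M * q))]

include hq hA in
/-- the residue field of `A ∩ L` has characteristic `q` -/
theorem charP_descVal : CharP (IsLocalRing.ResidueField ↥(descVal A L)) q := by
  haveI : Fact q.Prime := ⟨hq⟩
  exact (H1S18.c7Perfect q A hA L).2

include hq hqM hA in
/-- an orthonormal basis of level `M` over `A ∩ L` -/
theorem nonempty_gvBasis :
    Nonempty (H28GV.GVBasis (descVal A L) (IsLocalRing.residue ↥(descVal A L)) M) := by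
  haveI := charP_descVal q hq A hA L
  refine H28GV.gv_basis_nonempty_gen (descVal A L) (IsLocalRing.residue ↥(descVal A L)) M ?_
  intro r hr hrM h0
  have h1 := (CharP.cast_eq_zero_iff (IsLocalRing.ResidueField ↥(descVal A L)) q r).mp h0
  have h2 : q = r := (Nat.prime_dvd_prime_iff_eq hq hr).mp h1
  exact hqM (h2 ▸ hrM)

include hT hA hfin hirr in
/-- **THE CONCRETE `Triple`** at `R = A ∩ L`, `V₃ = H3V3.dV3` (`K₃ = L(ζ₀)`): hypotheses on `L`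
are only `FiniteDimensional ℚ L` and `Irreducible (q : A ∩ L)`. -/
theorem triple_concrete (n : ℕ) (hn : 0 < n)
    (t₀ : LaurentSeries ℚ) (ht₀ : IsBase (baseKind q) t₀)
    (t : FK L (M * q * q)) (ht : (t : LaurentSeries L) = coeffEmb L t₀) :
    Triple ↥(descVal A L) L (FK L (M * q * q)) (FK L (M * q))
      ((q : ℕ) : ↥(descVal A L)) t q n
      (heckeAlphaBar ↥L (M * q) q).toRingHom (heckeBetaBar ↥L (M * q) q).toRingHom
      (normAKH L M q) (normBKH L M q)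
      (cV1 L (descVal A L) M q) (cV2 L (descVal A L) M q hq hqM)
      (H3V3.dV3 A L M q hq hqM ζ₀ hζ₀)
      (cV1' L (descVal A L) M q) (cV2' L (descVal A L) M q hq hqM) (cb3 L M q) := by
  haveI : Fact q.Prime := ⟨hq⟩
  haveI := charP_descVal q hq A hA L
  obtain ⟨B⟩ := nonempty_gvBasis M q hq hqM A hA L
  haveI := hfin
  have hfin₃ : FiniteDimensional ℚ ↥(H3V3.K3 L ζ₀) :=
    H3V3.finiteDimensional_K3 L ζ₀ hq.pos hζ₀.pow_eq_one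
  exact triple_concrete_gen M q hq hqM hT A hA L hfin hirr (H3V3.K3 L ζ₀) hfin₃
    (H3V3.le_K3 L ζ₀) (H3V3.zetaU L ζ₀ hq.pos hζ₀.pow_eq_one)
    (H3V3.isPrimitiveRoot_zetaU L ζ₀ hq.pos hζ₀) (H3V3.hK3_K3 L ζ₀ hq hζ₀) B n hn t₀ ht₀ t ht

end final

end H11TA

end
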