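import Mathlib
import Fermat.Agent.S36.ConcGlue_helper4
import Fermat.Agent.S36.TripleFinal_helper11
import Fermat.Agent.S36.Chain_helper4

/-!
# Item 86 (S36, Carayol), architect file (helper4): the FINAL GLUE, with the concrete `Triple`
plugged in (`H11TA.triple_concrete_gen`, helper11 + field owners)

* `tripleLeafAt_of_mloc` : `ConcMLocAt M q hq hqM A n L ⟹ TripleLeafAt M q A n L`;
* `tripleUAt_of_mloc` : the same in `U`-form;
* `tripleUStatement_of_mloc : ConcMLocStatement → TripleUStatement`.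

So `Fermat.Agent.S36.result` needs ONLY `H4S36.ConcMLocStatement`: at the rigid tame levels, in
`U`-form (`L = unrPart A K₁`, `K₁ ⊇ K₀` finite normal, `K₀` chosen by the prover), for every
`K₃ = L(ζ)`: the concrete `Triple` gives the concrete `MLocLeaf` (LOC-ASM, helper19).
-/

set_option autoImplicit false
set_option linter.unusedSectionVars false
set_option linter.unusedVariables false
set_option linter.style.haveILetI false
set_option linter.style.longLine false
set_option synthInstance.maxHeartbeats 400000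
set_option maxHeartbeats 4000000

noncomputable section

open IntermediateField AlgebraicCurve ModularCurve H7S18 H4S34 H1FW H1G3 H17T3

namespace H4S36

local notation "Qb" => AlgebraicClosure ℚ

section Conc

variable (M : ℕ) [NeZero M] (q : ℕ) [NeZero q] [NeZero (M * q)] [NeZero (M * q * q)]
  (hq : q.Prime) (hqM : ¬ q ∣ M)

/-- **the concrete leaf at ONE field** from the (MLOC) leaf. -/
theorem tripleLeafAt_of_mloc (hT : TameLevel q M)
    (A : ValuationSubring Qb) (hA : A.LiesOverPrime q) (n : ℕ) (hn : 0 < n)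
    (L : IntermediateField ℚ Qb) (hfin : FiniteDimensional ℚ L)
    (hunr : Irreducible ((q : ℕ) : ↥(descVal A L)))
    (hML : ConcMLocAt M q hq hqM A n L) :
    TripleLeafAt M q A n L := by
  classical
  haveI hqF : Fact q.Prime := ⟨hq⟩
  intro algRF towRF algRF' towRF' t₀ ht₀ t ht
  -- `K₃ = L(ζ₀)`
  obtain ⟨ζ₀, hζ₀⟩ := HasEnoughRootsOfUnity.exists_primitiveRoot Qb q
  haveI := hfin
  have hfin₃ : FiniteDimensional ℚ ↥(H3V3.K3 L ζ₀) :=
    H3V3.finiteDimensional_K3 L ζ₀ hq.pos hζ₀.pow_eq_one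
  -- the DVRs
  obtain ⟨hdvr, -, -⟩ := H4DVR.dvrStatement q A hA L hfin
  obtain ⟨hdvr₃, -, -⟩ := H4DVR.dvrStatement q A hA (H3V3.K3 L ζ₀) hfin₃
  haveI := hdvr
  haveI := hdvr₃
  haveI := H11TA.charP_descVal q hq A hA L
  obtain ⟨B⟩ := H11TA.nonempty_gvBasis M q hq hqM A hA L
  have hTri := H11TA.triple_concrete_gen M q hq hqM hT A hA L hfin hunr (H3V3.K3 L ζ₀) hfin₃
    (H3V3.le_K3 L ζ₀) (H3V3.zetaU L ζ₀ hq.pos hζ₀.pow_eq_one)
    (H3V3.isPrimitiveRoot_zetaU L ζ₀ hq.pos hζ₀) (H3V3.hK3_K3 L ζ₀ hq hζ₀) B n hn t₀ ht₀ t ht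
  exact ⟨_, _, _, _, _, _, hTri,
    hML (H3V3.K3 L ζ₀) hfin₃ (H3V3.le_K3 L ζ₀) (H3V3.zetaU L ζ₀ hq.pos hζ₀.pow_eq_one)
      (H3V3.isPrimitiveRoot_zetaU L ζ₀ hq.pos hζ₀) (H3V3.hK3_K3 L ζ₀ hq hζ₀) t₀ ht₀ t ht hTri⟩

/-- **the concrete leaf in `U`-form** from the (MLOC) leaf in `U`-form. -/
theorem tripleUAt_of_mloc (hT : TameLevel q M)
    (hML : UForm q (fun A n L => ConcMLocAt M q hq hqM A n L)) :
    TripleUAt M q := by
  intro A hA n hn hqn
  obtain ⟨K₀, hK₀, h2⟩ := hML A hA n hn hqn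
  refine ⟨K₀, hK₀, ?_⟩
  intro K₁ hK₁ hnor hle hζ
  haveI := hK₁
  exact @tripleLeafAt_of_mloc M _ q _ _ _ hq hqM hT A hA n hn (H29DU.unrPart A K₁)
    (H29DU.finiteDimensional_unrPart A K₁) (H29DU.irreducible_unrPart A K₁ q hq hA)
    (h2 K₁ hK₁ hnor hle hζ)

end Conc

/-- **the concrete leaf of the middle chain** from the (MLOC) leaf. -/
theorem tripleUStatement_of_mloc (h : ConcMLocStatement) : TripleUStatement :=
  fun M q _ _ _ _ hq hqM hRT => tripleUAt_of_mloc M q hq hqM hRT.2.1 (h M q hq hqM hRT)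

end H4S36

end
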