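/-
helper9: item 86 (S36): **branch roots** (hBR), global form, for a component cut out by a
valuation subring `V` which is residually of the lower level `F`:

  `z ∈ E`, `a ∈ M₀ = Chart R c`, `v(zⁿ - a) < 1`  ⟹  `∃ d ∈ M₀, v(z - d) < 1`

(`M₀ / P_V` is `n`-root closed in `κ(V)`).  Hypotheses:
* `hRDf` : residue degree one at the FIELD level: every `x ∈ V` is congruent to an element of
           `F ∩ V`;
* `hLN`  : normality at the level `F`.
Proof: `z ≡ y` with `y ∈ F`; `a` is a root of a monic `P₀` over `R[c]`, so `y` is a root modulo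
`𝔪(V)` of the monic `P₀(Xⁿ)`; by `hLN`, `y ≡ d` with `d ∈ F` integral over `R[c]`.

* `H9CU.hBR_vs`      : abstract form (`F → E` fields, `c = algebraMap F E cF`);
* `H9CU.hBR_vs_gen`  : generic Laurent form (`F ≤ E ≤ K((𝐪))`, Gauss language at the level `F`).
-/
import Mathlib
import Fermat.Agent.S36.CompUnifV3_helper9

set_option autoImplicit false
set_option synthInstance.maxHeartbeats 400000
set_option maxHeartbeats 4000000
set_option linter.unusedSectionVars false
set_option linter.unusedVariables false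
set_option linter.style.haveILetI false

noncomputable section

open Polynomial IntermediateField ModularCurve H7S18 H4S34 H26DI H28GV

namespace H9CU

section vsroot

variable {E : Type} [Field E] (V : ValuationSubring E)

theorem vs_mem_of_pow_mem {z : E} {n : ℕ} (hn : 0 < n) (h : z ^ n ∈ V) : z ∈ V := by
  rw [← V.valuation_le_one_iff] at h ⊢
  rw [map_pow] at h
  by_contra hlt
  push Not at hlt
  exact absurd h (not_le.mpr (one_lt_pow₀ hlt hn.ne'))

end vsroot

section abs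

variable (R : Type) [CommRing R] [IsDomain R] [IsDiscreteValuationRing R]
  {E : Type} [Field E] [Algebra R E]
  {F : Type} [Field F] [Algebra R F] [Algebra F E] [IsScalarTower R F E]
  (cF : F) (V : ValuationSubring E)

/-- **branch roots**, abstract form -/
theorem hBR_vs (n : ℕ) (hn : 0 < n)
    (hRV : ∀ r : R, algebraMap R E r ∈ V) (hcV : algebraMap F E cF ∈ V)
    (hRDf : ∀ x : E, x ∈ V → ∃ y : F, algebraMap F E y ∈ V ∧
      V.valuation (x - algebraMap F E y) < 1)
    (hLN : ∀ (y : F) (n : ℕ) (cf : ℕ → F),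
      (∀ i, cf i ∈ Algebra.adjoin R {cF}) → algebraMap F E y ∈ V →
      V.valuation (algebraMap F E (y ^ n + ∑ i ∈ Finset.range n, cf i * y ^ i)) < 1 →
      ∃ d : F, IsInt R cF d ∧ V.valuation (algebraMap F E (y - d)) < 1)
    (z : E) (a : Chart R (algebraMap F E cF)) (hza : V.valuation (z ^ n - (a : E)) < 1) :
    ∃ d : Chart R (algebraMap F E cF), V.valuation (z - (d : E)) < 1 := by
  have hmem : ∀ y : Chart R (algebraMap F E cF), (y : E) ∈ V.toSubring :=
    fun y => chart_mem_vs R V _ hRV hcV y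
  let red : ↥V.toSubring →+* IsLocalRing.ResidueField ↥V := IsLocalRing.residue ↥V
  have hred0 : ∀ (x : E) (hx : x ∈ V.toSubring), red ⟨x, hx⟩ = 0 ↔ V.valuation x < 1 :=
    fun x hx => vs_residue_eq_zero_iff V ⟨x, hx⟩
  have hredeq : ∀ (x y : E) (hx : x ∈ V.toSubring) (hy : y ∈ V.toSubring),
      red ⟨x, hx⟩ = red ⟨y, hy⟩ ↔ V.valuation (x - y) < 1 := by
    intro x y hx hy
    rw [← hred0 (x - y) (V.toSubring.sub_mem hx hy), ← sub_eq_zero, ← map_sub]
    rfl
  have hLN' : ∀ (y : F) (hy : algebraMap F E y ∈ V.toSubring) (n : ℕ) (cf : ℕ → F),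
      (∀ i, cf i ∈ Algebra.adjoin R {cF}) →
      ∀ hG : algebraMap F E (y ^ n + ∑ i ∈ Finset.range n, cf i * y ^ i) ∈ V.toSubring,
      red ⟨_, hG⟩ = 0 →
      ∃ d : F, IsInt R cF d ∧ ∃ hd : algebraMap F E d ∈ V.toSubring,
        red ⟨_, hd⟩ = red ⟨_, hy⟩ := by
    intro y hy n cf hcf hG h0
    rw [hred0] at h0
    obtain ⟨d, hd, hdv⟩ := hLN y n cf hcf hy h0
    have hdV : algebraMap F E d ∈ V.toSubring := by
      have : algebraMap F E d = algebraMap F E y - algebraMap F E (y - d) := by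
        rw [map_sub]; ring
      rw [this]
      exact V.toSubring.sub_mem hy (vs_mem_of_lt_one V hdv)
    refine ⟨d, hd, hdV, ?_⟩
    rw [hredeq]
    have : algebraMap F E d - algebraMap F E y = -(algebraMap F E (y - d)) := by
      rw [map_sub]; ring
    rw [this, Valuation.map_neg]
    exact hdv
  -- `z ∈ V`
  have haV : (a : E) ∈ V := hmem a
  have hznV : z ^ n ∈ V := by
    have : z ^ n = (z ^ n - (a : E)) + (a : E) := by ring
    rw [this]
    exact V.add_mem _ _ (vs_mem_of_lt_one V hza) haV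
  have hzV : z ∈ V := vs_mem_of_pow_mem V hn hznV
  obtain ⟨y, hyV, hzy⟩ := hRDf z hzV
  -- the monic polynomial
  obtain ⟨P₀, hP₀, hP₀a⟩ := a.2
  set p : (Algebra.adjoin R {algebraMap F E cF})[X] := P₀.comp (X ^ n) with hp
  have hpm : p.Monic := by
    refine hP₀.comp (monic_X_pow n) ?_
    rw [natDegree_X_pow]
    exact hn.ne'
  set ιA : Algebra.adjoin R {algebraMap F E cF} →+* ↥V.toSubring :=
    (toG R cF V.toSubring hmem).comp
      (algebraMap (Algebra.adjoin R {algebraMap F E cF}) (Chart R (algebraMap F E cF))) with hιA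
  have hyn : red ⟨algebraMap F E y, hyV⟩ ^ n = red ⟨(a : E), haV⟩ := by
    rw [← map_pow]
    have e : (⟨algebraMap F E y, hyV⟩ : ↥V.toSubring) ^ n =
        ⟨(algebraMap F E y) ^ n, V.toSubring.pow_mem hyV n⟩ := rfl
    rw [e, hredeq]
    have h1 : V.valuation ((algebraMap F E y) ^ n - z ^ n) < 1 := by
      have hzy' : red ⟨algebraMap F E y, hyV⟩ = red ⟨z, hzV⟩ := by
        rw [hredeq]
        have : algebraMap F E y - z = -(z - algebraMap F E y) := by ring
        rw [this, Valuation.map_neg]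
        exact hzy
      have h2 : red (⟨algebraMap F E y, hyV⟩ ^ n) = red (⟨z, hzV⟩ ^ n) := by
        rw [map_pow, map_pow, hzy']
      have e1 : (⟨algebraMap F E y, hyV⟩ : ↥V.toSubring) ^ n =
          ⟨(algebraMap F E y) ^ n, V.toSubring.pow_mem hyV n⟩ := rfl
      have e2 : (⟨z, hzV⟩ : ↥V.toSubring) ^ n = ⟨z ^ n, hznV⟩ := rfl
      rw [e1, e2, hredeq] at h2
      exact h2
    have : (algebraMap F E y) ^ n - (a : E) =
        ((algebraMap F E y) ^ n - z ^ n) + (z ^ n - (a : E)) := by ring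
    rw [this]
    exact vs_lt_one_add V h1 hza
  have hsum : (∑ i ∈ Finset.range (p.natDegree + 1),
      red (toG R cF V.toSubring hmem
        (algebraMap (Algebra.adjoin R {algebraMap F E cF}) (Chart R (algebraMap F E cF))
          (p.coeff i))) * red ⟨algebraMap F E y, hyV⟩ ^ i) = 0 := by
    have h1 : (∑ i ∈ Finset.range (p.natDegree + 1),
        red (toG R cF V.toSubring hmem
          (algebraMap (Algebra.adjoin R {algebraMap F E cF}) (Chart R (algebraMap F E cF))
            (p.coeff i))) * red ⟨algebraMap F E y, hyV⟩ ^ i) =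
        Polynomial.eval₂ (red.comp ιA) (red ⟨algebraMap F E y, hyV⟩) p := by
      rw [Polynomial.eval₂_eq_sum_range]
      rfl
    rw [h1, hp, Polynomial.eval₂_comp, Polynomial.eval₂_pow, Polynomial.eval₂_X, hyn]
    -- `P₀(a) = 0`
    have h2 : Polynomial.eval₂ (red.comp ιA) (red ⟨(a : E), haV⟩) P₀ =
        red (Polynomial.eval₂ ιA ⟨(a : E), haV⟩ P₀) := by
      rw [Polynomial.hom_eval₂]
    rw [h2]
    have h3 : Polynomial.eval₂ ιA (⟨(a : E), haV⟩ : ↥V.toSubring) P₀ = 0 := by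
      apply Subtype.ext
      have h4 : ((Polynomial.eval₂ ιA (⟨(a : E), haV⟩ : ↥V.toSubring) P₀ : ↥V.toSubring) : E) =
          Polynomial.eval₂ (algebraMap (Algebra.adjoin R {algebraMap F E cF}) E) (a : E) P₀ := by
        have := Polynomial.hom_eval₂ P₀ ιA V.toSubring.subtype (⟨(a : E), haV⟩ : ↥V.toSubring)
        rw [show (V.toSubring.subtype (Polynomial.eval₂ ιA (⟨(a : E), haV⟩ : ↥V.toSubring) P₀)) =
          ((Polynomial.eval₂ ιA (⟨(a : E), haV⟩ : ↥V.toSubring) P₀ : ↥V.toSubring) : E)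
          from rfl] at this
        rw [this]
        rfl
      rw [h4, hP₀a]
      rfl
    rw [h3, map_zero]
  obtain ⟨d, -, hd⟩ := transfer_val R cF V.toSubring red hmem hLN'
    ⟨algebraMap F E y, hyV⟩ ⟨y, rfl⟩ p hpm hsum
  refine ⟨d, ?_⟩
  have hd' : V.valuation ((d : E) - algebraMap F E y) < 1 := (hredeq _ _ (hmem d) hyV).mp hd
  have : z - (d : E) = (z - algebraMap F E y) + -((d : E) - algebraMap F E y) := by ring
  rw [this]
  refine vs_lt_one_add V hzy ?_
  rw [Valuation.map_neg]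
  exact hd'

/-- `H9CU.hBR_vs` for a chart parameter `c` given with `algebraMap F E cF = c` -/
theorem hBR_vs' (c : E) (hcE : algebraMap F E cF = c) (n : ℕ) (hn : 0 < n)
    (hRV : ∀ r : R, algebraMap R E r ∈ V) (hcV : c ∈ V)
    (hRDf : ∀ x : E, x ∈ V → ∃ y : F, algebraMap F E y ∈ V ∧
      V.valuation (x - algebraMap F E y) < 1)
    (hLN : ∀ (y : F) (n : ℕ) (cf : ℕ → F),
      (∀ i, cf i ∈ Algebra.adjoin R {cF}) → algebraMap F E y ∈ V →
      V.valuation (algebraMap F E (y ^ n + ∑ i ∈ Finset.range n, cf i * y ^ i)) < 1 →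
      ∃ d : F, IsInt R cF d ∧ V.valuation (algebraMap F E (y - d)) < 1)
    (z : E) (a : Chart R c) (hza : V.valuation (z ^ n - (a : E)) < 1) :
    ∃ d : Chart R c, V.valuation (z - (d : E)) < 1 := by
  subst hcE
  exact hBR_vs R cF V n hn hRV hcV hRDf hLN z a hza

end abs

section gen

variable {K : Type} [Field K] [CharZero K] (R : ValuationSubring K)
  [IsDiscreteValuationRing ↥R]
  (F E : IntermediateField K (LaurentSeries K)) (h : F ≤ E)
  [Algebra ↥R ↥F] [IsScalarTower ↥R K ↥F] [Algebra ↥R ↥E] [IsScalarTower ↥R K ↥E]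
  (ϖ : ↥R) (hϖ : Irreducible ϖ) (t c : ↥E) (hc : c = t ∨ c = t⁻¹)
  (htr : Transcendental K t)
  (V : ValuationSubring ↥E)

include h hϖ hc htr in
/-- **branch roots**, generic Laurent form -/
theorem hBR_vs_gen (hcF : (c : LaurentSeries K) ∈ F)
    (hVF : ∀ x : ↥E, (x : LaurentSeries K) ∈ F →
      (x ∈ V ↔ H8PB.InG R (x : LaurentSeries K)) ∧
      (V.valuation x < 1 ↔ H8PB.InGm R (x : LaurentSeries K)))
    (hG : ∀ x : ↥E, GInt ↥R ϖ t x → H8PB.InG R (x : LaurentSeries K))
    (hRDf : ∀ x : ↥E, x ∈ V →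
      ∃ z : ↥E, (z : LaurentSeries K) ∈ F ∧ z ∈ V ∧ V.valuation (x - z) < 1)
    (hLN : ∀ (y : ↥F) (n : ℕ) (cf : ℕ → ↥F),
      (∀ i, cf i ∈ Algebra.adjoin ↥R {(⟨(c : LaurentSeries K), hcF⟩ : ↥F)}) →
      H8PB.InG R (y : LaurentSeries K) →
      H8PB.InGm R (((y ^ n + ∑ i ∈ Finset.range n, cf i * y ^ i : ↥F)) : LaurentSeries K) →
      ∃ d : ↥F, IsInt ↥R (⟨(c : LaurentSeries K), hcF⟩ : ↥F) d ∧
        H8PB.InGm R (((y - d : ↥F)) : LaurentSeries K))
    (n : ℕ) (hn : 0 < n)
    (z : ↥E) (a : Chart ↥R c) (hza : V.valuation (z ^ n - (a : ↥E)) < 1) :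
    ∃ d : Chart ↥R c, V.valuation (z - (d : ↥E)) < 1 := by
  letI algFE : Algebra ↥F ↥E := (IntermediateField.inclusion h).toRingHom.toAlgebra
  haveI towFE : IsScalarTower ↥R ↥F ↥E := IsScalarTower.of_algebraMap_eq (fun r => by
    rw [IsScalarTower.algebraMap_apply ↥R K ↥E, IsScalarTower.algebraMap_apply ↥R K ↥F]
    exact ((IntermediateField.inclusion h).commutes _).symm)
  have hcoe : ∀ z : ↥F, ((algebraMap ↥F ↥E z : ↥E) : LaurentSeries K) = (z : LaurentSeries K) :=
    fun z => rfl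
  have hcFE : algebraMap ↥F ↥E (⟨(c : LaurentSeries K), hcF⟩ : ↥F) = c := Subtype.ext rfl
  have hgi := gint_of_chart R E ϖ hϖ t c hc htr
  have hlev : ∀ z : ↥F, ((algebraMap ↥F ↥E z : ↥E) : LaurentSeries K) ∈ F := fun z => z.2
  have hRV : ∀ r : ↥R, algebraMap ↥R ↥E r ∈ V := by
    intro r
    have h1 : ((algebraMap ↥R ↥E r : ↥E) : LaurentSeries K) ∈ F :=
      adjoin_level R F E c hcF _ (Subalgebra.algebraMap_mem _ r)
    rw [(hVF _ h1).1]
    exact hG _ (hgi ⟨_, chart_const_mem9 ↥R c r⟩)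
  have hcV : c ∈ V := by
    rw [(hVF _ hcF).1]
    exact hG _ (hgi ⟨_, chart_self_mem9 ↥R c⟩)
  refine hBR_vs' ↥R (⟨(c : LaurentSeries K), hcF⟩ : ↥F) V c hcFE n hn hRV hcV ?_ ?_ z a hza
  · intro x hx
    obtain ⟨z, hzF, hzV, hzx⟩ := hRDf x hx
    have e : algebraMap ↥F ↥E ⟨(z : LaurentSeries K), hzF⟩ = z := Subtype.ext rfl
    refine ⟨⟨(z : LaurentSeries K), hzF⟩, ?_, ?_⟩
    · rw [e]; exact hzV
    · rw [e]; exact hzx
  · intro y n cf hcf hyV hval
    have hyG : H8PB.InG R (y : LaurentSeries K) := by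
      have := (hVF _ (hlev y)).1.mp hyV
      rwa [hcoe] at this
    have hrel : H8PB.InGm R
        (((y ^ n + ∑ i ∈ Finset.range n, cf i * y ^ i : ↥F)) : LaurentSeries K) := by
      have := (hVF _ (hlev _)).2.mp hval
      rwa [hcoe] at this
    obtain ⟨d, hd, hdm⟩ := hLN y n cf hcf hyG hrel
    refine ⟨d, hd, ?_⟩
    rw [(hVF _ (hlev _)).2, hcoe]
    exact hdm

end gen

end H9CU

end
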