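/-
helper9: item 86 (S36): **branch roots** (hBR), global form, for the concrete components
`H4S36.cV1` and `H4S36.cV3` at the level `M q q`, both charts `c ∈ {t, t⁻¹}`:

  `z ∈ F`, `a ∈ Chart R c`, `v(zⁿ - a) < 1`  ⟹  `∃ d ∈ Chart R c, v(z - d) < 1`.

Inputs: TripleGauss (`H8TG.h8tg_tripleGauss`), weak approximation `wg` (field of `H4S36.Triple`),
level normality at the level `M` (`K₁ ∋ ζ_{e₀}`).

* `H9CU.resfield1`, `H9CU.resfield3` : residue degree one of `V₁`, `V₃` over the level `M` at the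
  field level;
* `H9CU.hBR1_qq`, `H9CU.hBR3_qq`.
-/
import Mathlib
import Fermat.Agent.S36.BranchRoot_helper9
import Fermat.Agent.S36.ResFieldTG_helper9

set_option autoImplicit false
set_option synthInstance.maxHeartbeats 400000
set_option maxHeartbeats 4000000
set_option linter.unusedSectionVars false
set_option linter.unusedVariables false
set_option linter.style.haveILetI false

noncomputable section

open Polynomial IntermediateField ModularCurve H7S18 H4S34 H26DI H28GV H17T3 H8TG H4S36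

namespace H9CU

section concrete

variable (M : ℕ) [NeZero M] (q : ℕ) [NeZero q] (hq : q.Prime) (hqM : ¬ q ∣ M)
  (hT : TameLevel q M)
  (A : ValuationSubring (AlgebraicClosure ℚ)) (hA : A.LiesOverPrime q)
  (K₁ : IntermediateField ℚ (AlgebraicClosure ℚ)) (hfin : FiniteDimensional ℚ K₁)
  (hunr : Irreducible ((q : ℕ) : ↥(descVal A K₁)))
  (hζe : ∃ ζ' : K₁, IsPrimitiveRoot ζ' (branchIndex (baseKind q) M))
  (K₃ : IntermediateField ℚ (AlgebraicClosure ℚ)) (hfin₃ : FiniteDimensional ℚ K₃)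
  (h13 : K₁ ≤ K₃) (ζ : (↥K₃)ˣ) (hζ : IsPrimitiveRoot ζ q)
  [IsDiscreteValuationRing ↥(descVal A K₁)] [IsDiscreteValuationRing ↥(descVal A K₃)]
  [Algebra ↥(descVal A K₁) (FK K₁ (M * q * q))]
  [IsScalarTower ↥(descVal A K₁) K₁ (FK K₁ (M * q * q))]
  (t₀ : LaurentSeries ℚ) (ht₀ : IsBase (baseKind q) t₀)
  (t : FK K₁ (M * q * q)) (ht : (t : LaurentSeries K₁) = coeffEmb K₁ t₀)
  (wg : ∀ ψ₁ ψ₂ ψ₃ : FK K₁ (M * q * q),
    (cV1 K₁ (descVal A K₁) M q).valuation ψ₁ = 1 →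
    (cV2 K₁ (descVal A K₁) M q hq hqM).valuation ψ₂ = 1 →
    (cV3 K₁ M q hq hqM K₃ (descVal A K₃) h13 ζ hζ).valuation ψ₃ = 1 →
    ∃ Ψ : FK K₁ (M * q * q), Cg (cV1 K₁ (descVal A K₁) M q) Ψ ψ₁ ∧
      Cg (cV2 K₁ (descVal A K₁) M q hq hqM) Ψ ψ₂ ∧
      Cg (cV3 K₁ M q hq hqM K₃ (descVal A K₃) h13 ζ hζ) Ψ ψ₃)

include hT hA hfin hunr hfin₃ ht₀ ht wg in
/-- residue degree one of `V₁` over the level `M`, field level -/
theorem resfield1 (x : FK K₁ (M * q * q)) (hx : x ∈ cV1 K₁ (descVal A K₁) M q) :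
    ∃ z : FK K₁ (M * q * q),
      (z : LaurentSeries K₁) ∈ laurentBaseChange K₁ (modularFunctionFieldFull M) ∧
      z ∈ cV1 K₁ (descVal A K₁) M q ∧ (cV1 K₁ (descVal A K₁) M q).valuation (x - z) < 1 := by
  have hFE : laurentBaseChange K₁ (modularFunctionFieldFull M) ≤
      laurentBaseChange K₁ (modularFunctionFieldFull (M * q * q)) :=
    H28PL.laurentBaseChange_le K₁ (full_degeneracy_le ⟨q * q, by ring⟩)
  have key := resfield_of_O (cV1 K₁ (descVal A K₁) M q) (cV2 K₁ (descVal A K₁) M q hq hqM)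
    (cV3 K₁ M q hq hqM K₃ (descVal A K₃) h13 ζ hζ) ?_
    (fun a => (a : LaurentSeries K₁) ∈ laurentBaseChange K₁ (modularFunctionFieldFull M) ∧
      a ∈ cV1 K₁ (descVal A K₁) M q)
    ⟨(laurentBaseChange K₁ (modularFunctionFieldFull M)).zero_mem, zero_mem _⟩ ?_ x hx
  · obtain ⟨a, ⟨h1, h2⟩, h3⟩ := key
    exact ⟨a, h1, h2, h3⟩
  · intro ψ hψ
    obtain ⟨Ψ, h1, h2, h3⟩ := wg ψ 1 1 hψ (map_one _) (map_one _)
    exact ⟨Ψ, h1, cg_mem h2 (one_mem _), cg_mem h3 (one_mem _)⟩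
  · intro x h1 h2 h3
    obtain ⟨z, hzM, hzG, hzm⟩ := res1_O M q hq hqM hT A hA K₁ hfin hunr K₃ hfin₃ h13 ζ hζ
      t₀ ht₀ t ht x h1 h2 h3
    refine ⟨⟨z, hFE hzM⟩, ⟨hzM, hzG⟩, ?_⟩
    show (cV1 K₁ (descVal A K₁) M q).valuation _ < 1
    unfold cV1
    rw [H10FC.gaussVal_lt_one]
    exact hzm

include hT hA hfin hunr hfin₃ ht₀ ht wg in
/-- residue degree one of `V₃` over the level `M`, field level -/
theorem resfield3 (x : FK K₁ (M * q * q))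
    (hx : x ∈ cV3 K₁ M q hq hqM K₃ (descVal A K₃) h13 ζ hζ) :
    ∃ z : FK K₁ (M * q * q),
      (z : LaurentSeries K₁) ∈ laurentBaseChange K₁ (modularFunctionFieldFull M) ∧
      z ∈ cV3 K₁ M q hq hqM K₃ (descVal A K₃) h13 ζ hζ ∧
      (cV3 K₁ M q hq hqM K₃ (descVal A K₃) h13 ζ hζ).valuation (x - z) < 1 := by
  have key := resfield_of_O (cV3 K₁ M q hq hqM K₃ (descVal A K₃) h13 ζ hζ)
    (cV1 K₁ (descVal A K₁) M q) (cV2 K₁ (descVal A K₁) M q hq hqM) ?_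
    (fun a => (a : LaurentSeries K₁) ∈ laurentBaseChange K₁ (modularFunctionFieldFull M) ∧
      a ∈ cV3 K₁ M q hq hqM K₃ (descVal A K₃) h13 ζ hζ)
    ⟨(laurentBaseChange K₁ (modularFunctionFieldFull M)).zero_mem, zero_mem _⟩ ?_ x hx
  · obtain ⟨a, ⟨h1, h2⟩, h3⟩ := key
    exact ⟨a, h1, h2, h3⟩
  · intro ψ hψ
    obtain ⟨Ψ, h1, h2, h3⟩ := wg 1 1 ψ (map_one _) (map_one _) hψ
    exact ⟨Ψ, h3, cg_mem h1 (one_mem _), cg_mem h2 (one_mem _)⟩
  · intro x h3 h1 h2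
    obtain ⟨z, hzM, hzV, hzv⟩ := res3_O M q hq hqM hT A hA K₁ hfin hunr K₃ hfin₃ h13 ζ hζ
      t₀ ht₀ t ht x h1 h2 h3
    exact ⟨z, ⟨hzM, hzV⟩, hzv⟩

include hT hA hfin hunr hζe hfin₃ ht₀ ht wg in
/-- **branch roots on `C₁`** (global form, both charts) -/
theorem hBR1_qq (c : FK K₁ (M * q * q)) (hc : c = t ∨ c = t⁻¹) (n : ℕ) (hn : 0 < n)
    (z : FK K₁ (M * q * q)) (a : Chart ↥(descVal A K₁) c)
    (hza : (cV1 K₁ (descVal A K₁) M q).valuation (z ^ n - (a : FK K₁ (M * q * q))) < 1) :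
    ∃ d : Chart ↥(descVal A K₁) c,
      (cV1 K₁ (descVal A K₁) M q).valuation (z - (d : FK K₁ (M * q * q))) < 1 := by
  obtain ⟨htr, hcfin, hFE, tM, htM, hcF, hcM⟩ :=
    sq_basics M q hT K₁ (M * q * q) ⟨q * q, by ring⟩ t₀ ht₀ t ht c hc
  letI algRF : Algebra ↥(descVal A K₁) (FK K₁ M) :=
    ((algebraMap K₁ (FK K₁ M)).comp (algebraMap ↥(descVal A K₁) K₁)).toAlgebra
  haveI towRF : IsScalarTower ↥(descVal A K₁) K₁ (FK K₁ M) :=
    IsScalarTower.of_algebraMap_eq (fun _ => rfl)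
  refine hBR_vs_gen (descVal A K₁) (laurentBaseChange K₁ (modularFunctionFieldFull M))
    (laurentBaseChange K₁ (modularFunctionFieldFull (M * q * q))) hFE
    ((q : ℕ) : ↥(descVal A K₁)) hunr t c hc htr (cV1 K₁ (descVal A K₁) M q) hcF
    (fun x _ => ⟨Iff.rfl, H10FC.gaussVal_lt_one _ _ x⟩) ?_ ?_ ?_ n hn z a hza
  · intro x hx
    exact (((h8tg_tripleGauss M q hq hqM hT A hA K₁ hfin hunr K₃ hfin₃ h13 ζ hζ
      t₀ ht₀ t ht x).1).mp hx).1
  · exact resfield1 M q hq hqM hT A hA K₁ hfin hunr K₃ hfin₃ h13 ζ hζ t₀ ht₀ t ht wg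
  · exact fun y n cf hcf hy hrel =>
      levelNormal_at M q hq hqM hT A hA K₁ hfin hζe _ hunr t₀ ht₀ tM htM ⟨_, hcF⟩ hcM
        y n cf hcf hy hrel

include hT hA hfin hunr hζe hfin₃ ht₀ ht wg in
/-- **branch roots on `C₃`** (global form, both charts) -/
theorem hBR3_qq (c : FK K₁ (M * q * q)) (hc : c = t ∨ c = t⁻¹) (n : ℕ) (hn : 0 < n)
    (z : FK K₁ (M * q * q)) (a : Chart ↥(descVal A K₁) c)
    (hza : (cV3 K₁ M q hq hqM K₃ (descVal A K₃) h13 ζ hζ).valuation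
      (z ^ n - (a : FK K₁ (M * q * q))) < 1) :
    ∃ d : Chart ↥(descVal A K₁) c,
      (cV3 K₁ M q hq hqM K₃ (descVal A K₃) h13 ζ hζ).valuation
        (z - (d : FK K₁ (M * q * q))) < 1 := by
  obtain ⟨htr, hcfin, hFE, tM, htM, hcF, hcM⟩ :=
    sq_basics M q hT K₁ (M * q * q) ⟨q * q, by ring⟩ t₀ ht₀ t ht c hc
  have hFF' : laurentBaseChange K₁ (modularFunctionFieldFull M) ≤
      laurentBaseChange K₁ (modularFunctionFieldFull (M * q)) :=
    H28PL.laurentBaseChange_le K₁ (full_degeneracy_le (Dvd.intro q rfl))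
  letI algRF : Algebra ↥(descVal A K₁) (FK K₁ M) :=
    ((algebraMap K₁ (FK K₁ M)).comp (algebraMap ↥(descVal A K₁) K₁)).toAlgebra
  haveI towRF : IsScalarTower ↥(descVal A K₁) K₁ (FK K₁ M) :=
    IsScalarTower.of_algebraMap_eq (fun _ => rfl)
  refine hBR_vs_gen (descVal A K₁) (laurentBaseChange K₁ (modularFunctionFieldFull M))
    (laurentBaseChange K₁ (modularFunctionFieldFull (M * q * q))) hFE
    ((q : ℕ) : ↥(descVal A K₁)) hunr t c hc htr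
    (cV3 K₁ M q hq hqM K₃ (descVal A K₃) h13 ζ hζ) hcF
    (fun x hx => h3lev_cV3 M q hq hqM A K₁ K₃ h13 ζ hζ x (hFF' hx)) ?_ ?_ ?_ n hn z a hza
  · intro x hx
    exact (((h8tg_tripleGauss M q hq hqM hT A hA K₁ hfin hunr K₃ hfin₃ h13 ζ hζ
      t₀ ht₀ t ht x).1).mp hx).1
  · exact resfield3 M q hq hqM hT A hA K₁ hfin hunr K₃ hfin₃ h13 ζ hζ t₀ ht₀ t ht wg
  · exact fun y n cf hcf hy hrel =>
      levelNormal_at M q hq hqM hT A hA K₁ hfin hζe _ hunr t₀ ht₀ tM htM ⟨_, hcF⟩ hcM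
        y n cf hcf hy hrel

end concrete

end H9CU

end
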