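import Mathlib

/-!
# Item 86 (S36), slice (GEN3), part A (helper10): the local root lemma (Nakayama)

`C` a local ring, `C' = C[z]` a `C`-algebra generated by one element `z` with `z ^ n = e ∈ Cˣ`,
`n ∈ Cˣ`.  If `z ≡ ρ` modulo the Jacobson radical of `C'` for some `ρ ∈ C`
(i.e. `z` has the same residue `ρ` at every maximal ideal of `C'`: "the branch roots agree at
the point"), then `z ∈ C`.

No transversality, no regularity, no reducedness, any number of branches.

* `H10G3.locRoot_unit_add`   : unit + element of the Jacobson radical is a unit;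
* `H10G3.locRoot`            : the lemma (Nakayama form);
* `H10G3.rootGlue2`, `H10G3.rootGlue` : IDEAL form (generalised CRT for `n`-th roots):
  `B` local, `n, e ∈ Bˣ`, ideals `I_k ≠ ⊤`, `b_k ^ n ≡ e mod I_k`, `b_k ≡ ρ mod 𝔪_B`
  `⟹ ∃ η, η ≡ b_k mod I_k` for all `k` (NO comaximality / transversality of the `I_k`);
* `H10G3.locGlueVal`, `H10G3.locGlueVal_h` : VALUATION form, for a finite set `𝒱` of valuation
  rings of `F` containing the image of the local ring `B`:
  `v = ε yⁿ ≡ 1` at every `V ∈ 𝒱`, `y ≡ b_V` at `V` with `b_V ≡ ρ mod 𝔪_B`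
  `⟹ ∃ h ≡ 1` at every `V ∈ 𝒱` with `v hⁿ ∈ Bˣ`.
-/

set_option autoImplicit false
set_option linter.unusedSectionVars false

namespace H10G3

theorem locRoot_unit_add {A : Type*} [CommRing A] {x j : A} (hx : IsUnit x)
    (hj : j ∈ (⊥ : Ideal A).jacobson) : IsUnit (x + j) := by
  obtain ⟨u, rfl⟩ := hx
  have h1 : IsUnit (j * (↑u⁻¹ : A) + 1) := (Ideal.mem_jacobson_bot.mp hj) _
  have h2 : (u : A) + j = u * (j * (↑u⁻¹ : A) + 1) := by
    have : (u : A) * (↑u⁻¹ : A) = 1 := Units.mul_inv u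
    linear_combination (-j) * this
  rw [h2]
  exact u.isUnit.mul h1

/-- **the local root lemma** -/
theorem locRoot {C C' : Type*} [CommRing C] [IsLocalRing C] [CommRing C'] [Algebra C C']
    (n : ℕ) (hn : IsUnit (n : C)) (z : C') (hgen : Algebra.adjoin C {z} = ⊤)
    (e : C) (he : IsUnit e) (hz : z ^ n = algebraMap C C' e)
    (ρ : C) (hρ : z - algebraMap C C' ρ ∈ (⊥ : Ideal C').jacobson) :
    ∃ c : C, algebraMap C C' c = z := by
  classical
  have hn0 : n ≠ 0 := by
    rintro rfl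
    rw [Nat.cast_zero] at hn
    exact not_isUnit_zero hn
  set ρ' : C' := algebraMap C C' ρ with hρ'
  set w : C' := z - ρ' with hw
  set S : C' := ∑ i ∈ Finset.range n, z ^ i * ρ' ^ (n - 1 - i) with hS
  have hSw : S * w = algebraMap C C' (e - ρ ^ n) := by
    rw [hS, hw, geom_sum₂_mul, hz, map_sub, map_pow]
  -- `z`, `ρ'` are units
  have hzu : IsUnit z := by
    have : IsUnit (z ^ n) := by rw [hz]; exact he.map _
    exact (isUnit_pow_iff hn0).mp this
  have hρu : IsUnit ρ' := by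
    have h1 : ρ' = z + (-w) := by rw [hw]; ring
    rw [h1]
    exact locRoot_unit_add hzu (Ideal.neg_mem_iff _ |>.mpr hρ)
  -- `S` is a unit
  have hSu : IsUnit S := by
    have h1 : S - (n : C') * ρ' ^ (n - 1) ∈ (⊥ : Ideal C').jacobson := by
      have h2 : S - (n : C') * ρ' ^ (n - 1) =
          ∑ i ∈ Finset.range n, (z ^ i - ρ' ^ i) * ρ' ^ (n - 1 - i) := by
        rw [hS]
        have h3 : ∀ i ∈ Finset.range n, (z ^ i - ρ' ^ i) * ρ' ^ (n - 1 - i) =
            z ^ i * ρ' ^ (n - 1 - i) - ρ' ^ (n - 1) := by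
          intro i hi
          have hi' : i ≤ n - 1 := by
            have := Finset.mem_range.mp hi
            omega
          rw [sub_mul, ← pow_add, Nat.add_sub_cancel' hi']
        rw [Finset.sum_congr rfl h3, Finset.sum_sub_distrib, Finset.sum_const, Finset.card_range,
          nsmul_eq_mul]
      rw [h2]
      refine Ideal.sum_mem _ fun i _ => ?_
      obtain ⟨d, hd⟩ := sub_dvd_pow_sub_pow z ρ' i
      rw [hd]
      have : (z - ρ') * d * ρ' ^ (n - 1 - i) = (d * ρ' ^ (n - 1 - i)) * (z - ρ') := by ring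
      rw [this]
      exact Ideal.mul_mem_left _ _ hρ
    have h4 : IsUnit ((n : C') * ρ' ^ (n - 1)) := by
      have hnC' : IsUnit (n : C') := by
        have := hn.map (algebraMap C C')
        rwa [map_natCast] at this
      exact hnC'.mul (hρu.pow _)
    have h5 : S = (n : C') * ρ' ^ (n - 1) + (S - (n : C') * ρ' ^ (n - 1)) := by ring
    rw [h5]
    exact locRoot_unit_add h4 h1
  obtain ⟨Su, hSu'⟩ := hSu
  have hw' : w = (↑Su⁻¹ : C') * algebraMap C C' (e - ρ ^ n) := by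
    rw [← hSw, ← hSu', ← mul_assoc, Units.inv_mul, one_mul]
  by_cases hm : IsUnit (e - ρ ^ n)
  · -- then `C'` is the zero ring
    have hwu : IsUnit w := by
      rw [hw']
      exact Su⁻¹.isUnit.mul (hm.map _)
    obtain ⟨wu, hwu'⟩ := hwu
    have h1 := (Ideal.mem_jacobson_bot.mp hρ) (-(↑wu⁻¹ : C'))
    have h2 : w * (-(↑wu⁻¹ : C')) + 1 = 0 := by
      rw [← hwu', mul_neg, Units.mul_inv, neg_add_cancel]
    rw [h2] at h1
    have h3 : (0 : C') = 1 := by
      obtain ⟨u0, hu0⟩ := h1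
      have := u0.inv_mul
      rw [hu0, mul_zero] at this
      exact this
    have : Subsingleton C' := subsingleton_of_zero_eq_one h3
    exact ⟨0, Subsingleton.elim _ _⟩
  · have hmm : e - ρ ^ n ∈ IsLocalRing.maximalIdeal C := (IsLocalRing.mem_maximalIdeal _).mpr hm
    set I' : Ideal C' := Ideal.map (algebraMap C C') (IsLocalRing.maximalIdeal C) with hI'
    have hwI : w ∈ I' := by
      rw [hw']
      exact Ideal.mul_mem_left _ _ (Ideal.mem_map_of_mem _ hmm)
    -- every element is congruent to a constant modulo `𝔪 C'`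
    have hall : ∀ x : C', ∃ c : C, x - algebraMap C C' c ∈ I' := by
      intro x
      have hx : x ∈ Algebra.adjoin C {z} := by rw [hgen]; trivial
      induction hx using Algebra.adjoin_induction with
      | mem x hx =>
        rw [Set.mem_singleton_iff] at hx
        subst hx
        exact ⟨ρ, hwI⟩
      | algebraMap r => exact ⟨r, by rw [sub_self]; exact I'.zero_mem⟩
      | add x y _ _ hx hy =>
        obtain ⟨c, hc⟩ := hx
        obtain ⟨d, hd⟩ := hy
        refine ⟨c + d, ?_⟩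
        have := I'.add_mem hc hd
        rw [map_add]
        convert this using 1
        ring
      | mul x y _ _ hx hy =>
        obtain ⟨c, hc⟩ := hx
        obtain ⟨d, hd⟩ := hy
        refine ⟨c * d, ?_⟩
        have h1 := I'.mul_mem_right y hc
        have h2 := I'.mul_mem_left (algebraMap C C' c) hd
        have := I'.add_mem h1 h2
        rw [map_mul]
        convert this using 1
        ring
    -- Nakayama
    have hfg : (⊤ : Submodule C C').FG := by
      have hint : IsIntegral C z :=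
        ⟨Polynomial.X ^ n - Polynomial.C e, Polynomial.monic_X_pow_sub_C e hn0, by simp [hz]⟩
      have := hint.fg_adjoin_singleton
      rwa [hgen, Algebra.top_toSubmodule] at this
    have hle : (⊤ : Submodule C C') ≤ LinearMap.range (Algebra.linearMap C C') ⊔
        (IsLocalRing.maximalIdeal C) • (⊤ : Submodule C C') := by
      intro x _
      obtain ⟨c, hc⟩ := hall x
      rw [Submodule.mem_sup]
      refine ⟨algebraMap C C' c, ⟨c, rfl⟩, x - algebraMap C C' c, ?_, by ring⟩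
      rw [Ideal.smul_top_eq_map]
      exact hc
    have hjac : IsLocalRing.maximalIdeal C ≤ (⊥ : Ideal C).jacobson := by
      rw [IsLocalRing.jacobson_eq_maximalIdeal ⊥ bot_ne_top]
    have hfin := Submodule.le_of_le_smul_of_le_jacobson_bot hfg hjac hle
    obtain ⟨c, hc⟩ := hfin (Submodule.mem_top : z ∈ ⊤)
    exact ⟨c, hc⟩

/-! ## Ideal form -/

section Ideal

variable {B : Type*} [CommRing B] [IsLocalRing B]

/-- two ideals -/
theorem rootGlue2 (n : ℕ) (hn : IsUnit (n : B)) (e : B) (he : IsUnit e) (ρ : B)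
    (I₁ I₂ : Ideal B) (hI₁ : I₁ ≠ ⊤) (b₁ b₂ : B) (h₁ : b₁ ^ n - e ∈ I₁) (h₂ : b₂ ^ n - e ∈ I₂)
    (hρ₁ : b₁ - ρ ∈ IsLocalRing.maximalIdeal B) (hρ₂ : b₂ - ρ ∈ IsLocalRing.maximalIdeal B) :
    ∃ η : B, η - b₁ ∈ I₁ ∧ η - b₂ ∈ I₂ := by
  classical
  have hn0 : n ≠ 0 := by
    rintro rfl
    rw [Nat.cast_zero] at hn
    exact not_isUnit_zero hn
  set 𝔪 := IsLocalRing.maximalIdeal B with h𝔪
  have hI₁m : I₁ ≤ 𝔪 := IsLocalRing.le_maximalIdeal hI₁
  have hpow : ∀ (x : B) (i : ℕ), x - ρ ∈ 𝔪 → x ^ i - ρ ^ i ∈ 𝔪 := by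
    intro x i hx
    obtain ⟨d, hd⟩ := sub_dvd_pow_sub_pow x ρ i
    rw [hd]
    exact 𝔪.mul_mem_right _ hx
  -- `ρ` is a unit
  have hρu : IsUnit ρ := by
    have h3 : ρ ^ n - e ∈ 𝔪 := by
      have h4 : ρ ^ n - e = (b₁ ^ n - e) - (b₁ ^ n - ρ ^ n) := by ring
      rw [h4]
      exact 𝔪.sub_mem (hI₁m h₁) (hpow b₁ n hρ₁)
    have h5 : IsUnit (ρ ^ n) := by
      by_contra hc
      have h6 : ρ ^ n ∈ 𝔪 := (IsLocalRing.mem_maximalIdeal _).mpr hc
      have h7 : e ∈ 𝔪 := by
        have : e = ρ ^ n - (ρ ^ n - e) := by ring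
        rw [this]
        exact 𝔪.sub_mem h6 h3
      exact (IsLocalRing.mem_maximalIdeal _).mp h7 he
    exact (isUnit_pow_iff hn0).mp h5
  set S : B := ∑ i ∈ Finset.range n, b₁ ^ i * b₂ ^ (n - 1 - i) with hS
  have hSw : S * (b₁ - b₂) = (b₁ ^ n - e) - (b₂ ^ n - e) := by
    rw [hS, geom_sum₂_mul]; ring
  have hSu : IsUnit S := by
    have h1 : S - (n : B) * ρ ^ (n - 1) ∈ 𝔪 := by
      have h2 : S - (n : B) * ρ ^ (n - 1) =
          ∑ i ∈ Finset.range n, (b₁ ^ i * b₂ ^ (n - 1 - i) - ρ ^ (n - 1)) := by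
        rw [hS, Finset.sum_sub_distrib, Finset.sum_const, Finset.card_range, nsmul_eq_mul]
      rw [h2]
      refine Ideal.sum_mem _ fun i hi => ?_
      have hi' : i ≤ n - 1 := by
        have := Finset.mem_range.mp hi
        omega
      have h3 : b₁ ^ i * b₂ ^ (n - 1 - i) - ρ ^ (n - 1) =
          (b₁ ^ i - ρ ^ i) * b₂ ^ (n - 1 - i) + ρ ^ i * (b₂ ^ (n - 1 - i) - ρ ^ (n - 1 - i)) := by
        have : ρ ^ (n - 1) = ρ ^ i * ρ ^ (n - 1 - i) := by
          rw [← pow_add, Nat.add_sub_cancel' hi']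
        rw [this]; ring
      rw [h3]
      exact 𝔪.add_mem (𝔪.mul_mem_right _ (hpow b₁ i hρ₁)) (𝔪.mul_mem_left _ (hpow b₂ _ hρ₂))
    have h4 : IsUnit ((n : B) * ρ ^ (n - 1)) := hn.mul (hρu.pow _)
    by_contra hc
    have h5 : S ∈ 𝔪 := (IsLocalRing.mem_maximalIdeal _).mpr hc
    have h6 : (n : B) * ρ ^ (n - 1) ∈ 𝔪 := by
      have : (n : B) * ρ ^ (n - 1) = S - (S - (n : B) * ρ ^ (n - 1)) := by ring
      rw [this]
      exact 𝔪.sub_mem h5 h1
    exact (IsLocalRing.mem_maximalIdeal _).mp h6 h4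
  obtain ⟨Su, hSu'⟩ := hSu
  refine ⟨b₁ - (↑Su⁻¹ : B) * (b₁ ^ n - e), ?_, ?_⟩
  · have : b₁ - (↑Su⁻¹ : B) * (b₁ ^ n - e) - b₁ = -((↑Su⁻¹ : B) * (b₁ ^ n - e)) := by ring
    rw [this]
    exact I₁.neg_mem (I₁.mul_mem_left _ h₁)
  · have h8 : (↑Su⁻¹ : B) * S = 1 := by rw [← hSu', Units.inv_mul]
    have : b₁ - (↑Su⁻¹ : B) * (b₁ ^ n - e) - b₂ = -((↑Su⁻¹ : B) * (b₂ ^ n - e)) := by
      linear_combination (-(b₁ - b₂)) * h8 + (↑Su⁻¹ : B) * hSw
    rw [this]
    exact I₂.neg_mem (I₂.mul_mem_left _ h₂)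

/-- **generalised CRT for `n`-th roots** (finite family of proper ideals, no comaximality) -/
theorem rootGlue (n : ℕ) (hn : IsUnit (n : B)) (e : B) (he : IsUnit e) (ρ : B)
    {ι : Type*} (s : Finset ι) (I : ι → Ideal B) (b : ι → B)
    (hI : ∀ k ∈ s, I k ≠ ⊤) (hb : ∀ k ∈ s, b k ^ n - e ∈ I k)
    (hρ : ∀ k ∈ s, b k - ρ ∈ IsLocalRing.maximalIdeal B) :
    ∃ η : B, (∀ k ∈ s, η - b k ∈ I k) ∧ η - ρ ∈ IsLocalRing.maximalIdeal B := by
  classical
  induction s using Finset.induction_on with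
  | empty =>
    exact ⟨ρ, fun k hk => absurd hk (Finset.notMem_empty k), by rw [sub_self]; exact Ideal.zero_mem _⟩
  | insert a s' ha ih =>
    obtain ⟨η', hη', hη'ρ⟩ := ih (fun k hk => hI k (Finset.mem_insert_of_mem hk))
      (fun k hk => hb k (Finset.mem_insert_of_mem hk))
      (fun k hk => hρ k (Finset.mem_insert_of_mem hk))
    set J : Ideal B := s'.inf I with hJ
    have hJmem : ∀ x : B, x ∈ J ↔ ∀ k ∈ s', x ∈ I k := by
      intro x
      rw [hJ, Submodule.mem_finsetInf]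
    have h2 : η' ^ n - e ∈ J := by
      rw [hJmem]
      intro k hk
      have h3 : η' ^ n - e = (η' ^ n - b k ^ n) + (b k ^ n - e) := by ring
      rw [h3]
      refine (I k).add_mem ?_ (hb k (Finset.mem_insert_of_mem hk))
      obtain ⟨d, hd⟩ := sub_dvd_pow_sub_pow η' (b k) n
      rw [hd]
      exact (I k).mul_mem_right _ (hη' k hk)
    obtain ⟨η, hη1, hη2⟩ := rootGlue2 n hn e he ρ (I a) J (hI a (Finset.mem_insert_self a s'))
      (b a) η' (hb a (Finset.mem_insert_self a s')) h2 (hρ a (Finset.mem_insert_self a s')) hη'ρ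
    refine ⟨η, ?_, ?_⟩
    · intro k hk
      rcases Finset.mem_insert.mp hk with rfl | hk'
      · exact hη1
      · have : η - b k = (η - η') + (η' - b k) := by ring
        rw [this]
        exact (I k).add_mem ((hJmem _).mp hη2 k hk') (hη' k hk')
    · have : η - ρ = (η - b a) + (b a - ρ) := by ring
      rw [this]
      exact Ideal.add_mem _
        (IsLocalRing.le_maximalIdeal (hI a (Finset.mem_insert_self a s')) hη1)
        (hρ a (Finset.mem_insert_self a s'))

end Ideal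

/-! ## Valuation form -/

section Val

variable {F : Type*} [Field F] {B : Type*} [CommRing B] [IsLocalRing B]

/-- the centre on `B` of a valuation ring (an ideal without any hypothesis on `V`) -/
def centre (φ : B →+* F) (V : ValuationSubring F) : Ideal B where
  carrier := {b | ∀ c : B, V.valuation (φ (c * b)) < 1}
  add_mem' := fun {a b} ha hb c => by
    rw [mul_add, map_add]
    exact lt_of_le_of_lt (Valuation.map_add _ _ _) (max_lt (ha c) (hb c))
  zero_mem' := fun c => by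
    rw [mul_zero, map_zero, Valuation.map_zero]; exact zero_lt_one
  smul_mem' := fun c' {b} hb c => by
    rw [smul_eq_mul, ← mul_assoc]
    exact hb (c * c')

theorem mem_centre (φ : B →+* F) (V : ValuationSubring F) (hBV : ∀ b : B, φ b ∈ V) (b : B) :
    b ∈ centre φ V ↔ V.valuation (φ b) < 1 := by
  constructor
  · intro h
    have := h 1
    rwa [one_mul] at this
  · intro h c
    rw [map_mul, Valuation.map_mul]
    have hc : V.valuation (φ c) ≤ 1 := (V.valuation_le_one_iff _).mpr (hBV c)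
    calc V.valuation (φ c) * V.valuation (φ b) ≤ 1 * V.valuation (φ b) := by gcongr
      _ < 1 := by rw [one_mul]; exact h

theorem centre_ne_top (φ : B →+* F) (V : ValuationSubring F) : centre φ V ≠ ⊤ := by
  intro h
  have h1 : (1 : B) ∈ centre φ V := by rw [h]; trivial
  have := h1 1
  rw [one_mul, map_one, Valuation.map_one] at this
  exact lt_irrefl _ this

theorem val_pow_sub_pow_lt (V : ValuationSubring F) {y β : F} (hy : y ∈ V) (hβ : β ∈ V)
    (h : V.valuation (y - β) < 1) (n : ℕ) : V.valuation (y ^ n - β ^ n) < 1 := by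
  rw [← geom_sum₂_mul, Valuation.map_mul]
  have h1 : (∑ i ∈ Finset.range n, y ^ i * β ^ (n - 1 - i)) ∈ V :=
    V.toSubring.sum_mem fun i _ => V.mul_mem _ _ (V.pow_mem hy i) (V.pow_mem hβ _)
  have h2 : V.valuation (∑ i ∈ Finset.range n, y ^ i * β ^ (n - 1 - i)) ≤ 1 :=
    (V.valuation_le_one_iff _).mpr h1
  calc V.valuation (∑ i ∈ Finset.range n, y ^ i * β ^ (n - 1 - i)) * V.valuation (y - β)
      ≤ 1 * V.valuation (y - β) := by gcongr
    _ < 1 := by rw [one_mul]; exact h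

theorem val_mul_lt_of_mem (V : ValuationSubring F) {a x : F} (ha : a ∈ V)
    (hx : V.valuation x < 1) : V.valuation (a * x) < 1 := by
  rw [Valuation.map_mul]
  have h1 : V.valuation a ≤ 1 := (V.valuation_le_one_iff _).mpr ha
  calc V.valuation a * V.valuation x ≤ 1 * V.valuation x := by gcongr
    _ < 1 := by rw [one_mul]; exact hx

theorem val_add_lt (V : ValuationSubring F) {x y : F} (hx : V.valuation x < 1)
    (hy : V.valuation y < 1) : V.valuation (x + y) < 1 :=
  lt_of_le_of_lt (Valuation.map_add _ _ _) (max_lt hx hy)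

theorem val_sub_lt (V : ValuationSubring F) {x y : F} (hx : V.valuation x < 1)
    (hy : V.valuation y < 1) : V.valuation (x - y) < 1 := by
  rw [sub_eq_add_neg]
  exact val_add_lt V hx (by rw [Valuation.map_neg]; exact hy)

/-- **the local gluing lemma, valuation form.** -/
theorem locGlueVal (φ : B →+* F) (𝒱 : Finset (ValuationSubring F))
    (hBV : ∀ V ∈ 𝒱, ∀ b : B, φ b ∈ V)
    (n : ℕ) (hn : IsUnit (n : B)) (ε : B) (hε : IsUnit ε) (y : F)
    (hy : ∀ V ∈ 𝒱, V.valuation (φ ε * y ^ n - 1) < 1) (ρ : B)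
    (hb : ∀ V ∈ 𝒱, ∃ b : B, V.valuation (y - φ b) < 1 ∧ b - ρ ∈ IsLocalRing.maximalIdeal B) :
    ∃ η : B, (∀ V ∈ 𝒱, V.valuation (y - φ η) < 1) ∧ η - ρ ∈ IsLocalRing.maximalIdeal B := by
  classical
  obtain ⟨εu, rfl⟩ := hε
  -- the chosen branch roots
  have hch : ∀ V : ValuationSubring F, ∃ b : B, V ∈ 𝒱 →
      (V.valuation (y - φ b) < 1 ∧ b - ρ ∈ IsLocalRing.maximalIdeal B) := by
    intro V
    by_cases hV : V ∈ 𝒱
    · obtain ⟨b, hb1, hb2⟩ := hb V hV
      exact ⟨b, fun _ => ⟨hb1, hb2⟩⟩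
    · exact ⟨0, fun h => absurd h hV⟩
  choose b hbV using hch
  have hyV : ∀ V ∈ 𝒱, y ∈ V := by
    intro V hV
    obtain ⟨hb1, -⟩ := hbV V hV
    have h1 : y - φ (b V) ∈ V := (V.valuation_le_one_iff _).mp hb1.le
    have : y = (y - φ (b V)) + φ (b V) := by ring
    rw [this]
    exact V.add_mem _ _ h1 (hBV V hV _)
  have key : ∀ V ∈ 𝒱, b V ^ n - (↑εu⁻¹ : B) ∈ centre φ V := by
    intro V hV
    rw [mem_centre φ V (hBV V hV)]
    obtain ⟨hb1, -⟩ := hbV V hV
    have h2 := val_pow_sub_pow_lt V (hyV V hV) (hBV V hV (b V)) hb1 n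
    have h3 : V.valuation (φ (εu : B) * φ (b V) ^ n - 1) < 1 := by
      have : φ (εu : B) * φ (b V) ^ n - 1 =
          (φ (εu : B) * y ^ n - 1) - φ (εu : B) * (y ^ n - φ (b V) ^ n) := by ring
      rw [this]
      exact val_sub_lt V (hy V hV) (val_mul_lt_of_mem V (hBV V hV _) h2)
    have h4 : φ (b V ^ n - (↑εu⁻¹ : B)) =
        φ ((↑εu⁻¹ : B)) * (φ (εu : B) * φ (b V) ^ n - 1) := by
      have h5 : φ ((↑εu⁻¹ : B)) * φ (εu : B) = 1 := by
        rw [← map_mul, Units.inv_mul, map_one]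
      rw [map_sub, map_pow]
      linear_combination (-(φ (b V) ^ n)) * h5
    rw [h4]
    exact val_mul_lt_of_mem V (hBV V hV _) h3
  obtain ⟨η, hη, hηρ⟩ := rootGlue n hn (↑εu⁻¹ : B) εu⁻¹.isUnit ρ 𝒱 (centre φ) b
    (fun V _ => centre_ne_top φ V) key (fun V hV => (hbV V hV).2)
  refine ⟨η, fun V hV => ?_, hηρ⟩
  have h1 := (mem_centre φ V (hBV V hV) _).mp (hη V hV)
  rw [map_sub] at h1
  have : y - φ η = (y - φ (b V)) - (φ η - φ (b V)) := by ring
  rw [this]
  exact val_sub_lt V (hbV V hV).1 h1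

/-- **the local gluing lemma, final form**: `v = ε yⁿ ≡ 1` at every `V ∈ 𝒱`, branch roots
`y ≡ b_V` at `V` with a common residue `ρ`.  Then there is `h ≡ 1` at every `V ∈ 𝒱` with
`v hⁿ ∈ Bˣ`. -/
theorem locGlueVal_h (φ : B →+* F) (𝒱 : Finset (ValuationSubring F))
    (hBV : ∀ V ∈ 𝒱, ∀ b : B, φ b ∈ V)
    (n : ℕ) (hn : IsUnit (n : B)) (ε : B) (hε : IsUnit ε) (v y : F) (hy0 : y ≠ 0)
    (hv : v = φ ε * y ^ n)
    (hv1 : ∀ V ∈ 𝒱, V.valuation (v - 1) < 1) (ρ : B) (hρ : IsUnit ρ)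
    (hb : ∀ V ∈ 𝒱, ∃ b : B, V.valuation (y - φ b) < 1 ∧ b - ρ ∈ IsLocalRing.maximalIdeal B) :
    ∃ h : F, (∀ V ∈ 𝒱, V.valuation (h - 1) < 1) ∧ ∃ w : B, IsUnit w ∧ v * h ^ n = φ w := by
  obtain ⟨η, hη, hηρ⟩ := locGlueVal φ 𝒱 hBV n hn ε hε y
    (fun V hV => by rw [← hv]; exact hv1 V hV) ρ hb
  -- `η` is a unit
  have hηu : IsUnit η := by
    by_contra hc
    have h1 : η ∈ IsLocalRing.maximalIdeal B := (IsLocalRing.mem_maximalIdeal _).mpr hc
    have h2 : ρ ∈ IsLocalRing.maximalIdeal B := by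
      have : ρ = η - (η - ρ) := by ring
      rw [this]
      exact Ideal.sub_mem _ h1 hηρ
    exact (IsLocalRing.mem_maximalIdeal _).mp h2 hρ
  obtain ⟨ηu, rfl⟩ := hηu
  have hφη : φ ((↑ηu⁻¹ : B)) * φ (ηu : B) = 1 := by rw [← map_mul, Units.inv_mul, map_one]
  have hφη0 : φ (ηu : B) ≠ 0 := right_ne_zero_of_mul_eq_one hφη
  refine ⟨φ (ηu : B) * y⁻¹, fun V hV => ?_, ε * (ηu : B) ^ n, hε.mul (ηu.isUnit.pow n), ?_⟩
  · -- `h - 1 = -(y - φ η) * y⁻¹`, and `y⁻¹ = φ η⁻¹ * h`..., use `y⁻¹ ∈ V`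
    have hηV : φ (ηu : B) ∈ V := hBV V hV _
    have hηiV : φ ((↑ηu⁻¹ : B)) ∈ V := hBV V hV _
    have hval_η : V.valuation (φ (ηu : B)) = 1 := by
      have h1 : V.valuation (φ (ηu : B)) ≤ 1 := (V.valuation_le_one_iff _).mpr hηV
      have h2 : V.valuation (φ ((↑ηu⁻¹ : B))) ≤ 1 := (V.valuation_le_one_iff _).mpr hηiV
      have h3 := congrArg V.valuation hφη
      rw [Valuation.map_mul, Valuation.map_one] at h3
      refine le_antisymm h1 ?_
      by_contra hlt
      have hlt' : V.valuation (φ (ηu : B)) < 1 := not_le.mp hlt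
      have : V.valuation (φ ((↑ηu⁻¹ : B))) * V.valuation (φ (ηu : B)) < 1 := by
        calc V.valuation (φ ((↑ηu⁻¹ : B))) * V.valuation (φ (ηu : B))
            ≤ 1 * V.valuation (φ (ηu : B)) := by gcongr
          _ < 1 := by rw [one_mul]; exact hlt'
      rw [h3] at this
      exact lt_irrefl _ this
    have hval_y : V.valuation y = 1 := by
      have h1 : V.valuation (y - φ (ηu : B)) < V.valuation (φ (ηu : B)) := by
        rw [hval_η]; exact hη V hV
      have h2 := Valuation.map_add_eq_of_lt_left V.valuation h1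
      rw [hval_η] at h2
      rw [← h2]
      congr 1
      ring
    have : φ (ηu : B) * y⁻¹ - 1 = -(y - φ (ηu : B)) * y⁻¹ := by
      field_simp
      ring
    rw [this, Valuation.map_mul, Valuation.map_neg, map_inv₀, hval_y, inv_one, mul_one]
    exact hη V hV
  · rw [hv, map_mul, map_pow, mul_pow]
    have hyy : y ^ n * y⁻¹ ^ n = 1 := by rw [← mul_pow, mul_inv_cancel₀ hy0, one_pow]
    linear_combination (φ ε * φ (ηu : B) ^ n) * hyy

end Val

end H10G3
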