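import Mathlib
import Fermat.Agent.S36.LocRoot_helper10

/-!
# Item 86 (S36), slice (GEN3), local part B (helper10): approximation at the other components

`B` a local ring, `φ : B → F` injective with `F = Frac B`; `𝒱` the (finite, nonempty) set of
valuation rings of `F` through the point (`φ B ⊆ V`), `𝒲` a finite set of other valuation rings
(components which do not pass through the point): there is a unit `s₀ ∈ Bˣ` which is small at
every `W ∈ 𝒲` (archimedean), and `c ∈ B`, `c ≠ 0`, small at every `V ∈ 𝒱`.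

* `H10G3.apMulti` : for `x ≠ 0` there is `b ∈ Bˣ` with `b ≡ 1` at every `V ∈ 𝒱` and
  `b x ≡ 1` at every `W ∈ 𝒲`;
* `H10G3.locGlueVal_all` : `H10G3.locGlueVal_h` with `h ≡ 1` at every `V ∈ 𝒱 ∪ 𝒲`
  (the STRONG local hypothesis of the generic Kummer descent for a finite family).
-/

set_option autoImplicit false
set_option linter.unusedSectionVars false
set_option linter.unusedVariables false

namespace H10G3

section AP

variable {F : Type*} [Field F] {B : Type*} [CommRing B] [IsLocalRing B]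

theorem val_one_of_lt (V : ValuationSubring F) {x : F} (hx : V.valuation (x - 1) < 1) :
    V.valuation x = 1 := by
  have h := Valuation.map_add_eq_of_lt_left V.valuation (x := (1 : F)) (y := x - 1)
    (by rw [Valuation.map_one]; exact hx)
  rw [Valuation.map_one] at h
  rwa [show (1 : F) + (x - 1) = x by ring] at h

theorem ne_zero_of_lt (V : ValuationSubring F) {x : F} (hx : V.valuation (x - 1) < 1) :
    x ≠ 0 := by
  intro h
  have := val_one_of_lt V hx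
  rw [h, Valuation.map_zero] at this
  exact zero_ne_one this

theorem one_mul_lt (V : ValuationSubring F) {x y : F} (hx : V.valuation (x - 1) < 1)
    (hy : V.valuation (y - 1) < 1) : V.valuation (x * y - 1) < 1 := by
  have h1 := val_one_of_lt V hy
  have : x * y - 1 = (x - 1) * y + (y - 1) := by ring
  rw [this]
  refine lt_of_le_of_lt (Valuation.map_add _ _ _) (max_lt ?_ hy)
  rw [Valuation.map_mul, h1, mul_one]
  exact hx

theorem one_pow_lt (V : ValuationSubring F) {x : F} (hx : V.valuation (x - 1) < 1) (k : ℕ) :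
    V.valuation (x ^ k - 1) < 1 := by
  induction k with
  | zero => rw [pow_zero, sub_self, Valuation.map_zero]; exact zero_lt_one
  | succ k ih => rw [pow_succ]; exact one_mul_lt V ih hx

/-- a non-unit plus a unit is a unit, in the image of a local ring -/
theorem unit_add_of_lt (φ : B →+* F) (hφ : Function.Injective φ) (V : ValuationSubring F)
    (hBV : ∀ b : B, φ b ∈ V) (y b : B) (hy1 : V.valuation (φ y) < 1) (hb : IsUnit b) :
    IsUnit (y + b) := by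
  have hyn : ¬ IsUnit y := by
    intro h
    obtain ⟨u, rfl⟩ := h
    have h1 : φ (u : B) * φ ((u⁻¹ : Bˣ) : B) = 1 := by
      rw [← map_mul, Units.mul_inv, map_one]
    have h2 : V.valuation (φ ((u⁻¹ : Bˣ) : B)) ≤ 1 := (V.valuation_le_one_iff _).mpr (hBV _)
    have h3 := congrArg V.valuation h1
    rw [Valuation.map_mul, Valuation.map_one] at h3
    have : V.valuation (φ (u : B)) * V.valuation (φ ((u⁻¹ : Bˣ) : B)) < 1 := by
      calc V.valuation (φ (u : B)) * V.valuation (φ ((u⁻¹ : Bˣ) : B))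
          ≤ V.valuation (φ (u : B)) * 1 := by gcongr
        _ < 1 := by rw [mul_one]; exact hy1
    rw [h3] at this
    exact lt_irrefl _ this
  by_contra hc
  have h1 : y ∈ IsLocalRing.maximalIdeal B := (IsLocalRing.mem_maximalIdeal _).mpr hyn
  have h2 : y + b ∈ IsLocalRing.maximalIdeal B := (IsLocalRing.mem_maximalIdeal _).mpr hc
  have h3 : b ∈ IsLocalRing.maximalIdeal B := by
    have : b = (y + b) - y := by ring
    rw [this]
    exact Ideal.sub_mem _ h2 h1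
  exact (IsLocalRing.mem_maximalIdeal _).mp h3 hb

/-- **(AP)** for a finite family: approximation at the components which do not pass through
the point, by units of the local ring. -/
theorem apMulti (φ : B →+* F) (hφ : Function.Injective φ)
    (hfrac : ∀ x : F, ∃ a s : B, s ≠ 0 ∧ x * φ s = φ a)
    (𝒱 𝒲 : Finset (ValuationSubring F)) (h𝒱 : 𝒱.Nonempty)
    (hBV : ∀ V ∈ 𝒱, ∀ b : B, φ b ∈ V)
    (c s₀ : B) (hc0 : c ≠ 0) (hc1 : ∀ V ∈ 𝒱, V.valuation (φ c) < 1)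
    (hs₀ : IsUnit s₀) (hs₀2 : ∀ W ∈ 𝒲, W.valuation (φ s₀) < 1)
    (hArch : ∀ W ∈ 𝒲, ∀ y : F, ∃ m : ℕ, W.valuation (φ s₀ ^ m * y) < 1)
    (x : F) (hx : x ≠ 0) :
    ∃ b : B, IsUnit b ∧ (∀ V ∈ 𝒱, V.valuation (φ b - 1) < 1) ∧
      ∀ W ∈ 𝒲, W.valuation (φ b * x - 1) < 1 := by
  classical
  obtain ⟨V₀, hV₀⟩ := h𝒱
  obtain ⟨a, s, hs0, hxs⟩ := hfrac x⁻¹
  have hφs0 : φ s ≠ 0 := fun h => hs0 (hφ (by rw [h, map_zero]))
  have hφc0 : φ c ≠ 0 := fun h => hc0 (hφ (by rw [h, map_zero]))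
  have hφa0 : φ a ≠ 0 := by rw [← hxs]; exact mul_ne_zero (inv_ne_zero hx) hφs0
  have hxa : x = φ s * (φ a)⁻¹ := by
    rw [← hxs]; field_simp
  have hsc0 : φ s * φ c ≠ 0 := mul_ne_zero hφs0 hφc0
  obtain ⟨s₀u, rfl⟩ := hs₀
  have hφs₀0 : φ (s₀u : B) ≠ 0 := by
    have h1 : φ (s₀u : B) * φ ((s₀u⁻¹ : Bˣ) : B) = 1 := by
      rw [← map_mul, Units.mul_inv, map_one]
    exact left_ne_zero_of_mul_eq_one h1
  set y₁ : F := (φ s * φ c)⁻¹ with hy₁
  set y₂ : F := (φ s - φ a) * (φ a * φ s * φ c)⁻¹ with hy₂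
  have hmono : ∀ W ∈ 𝒲, ∀ (y : F) (m k : ℕ), W.valuation (φ (s₀u : B) ^ m * y) < 1 →
      W.valuation (φ (s₀u : B) ^ (m + k) * y) < 1 := by
    intro W hW y m k h
    have h1 : W.valuation (φ (s₀u : B) ^ k) ≤ 1 := by
      rw [Valuation.map_pow]; exact pow_le_one₀ zero_le (hs₀2 W hW).le
    have : φ (s₀u : B) ^ (m + k) * y = φ (s₀u : B) ^ k * (φ (s₀u : B) ^ m * y) := by
      rw [pow_add]; ring
    rw [this, Valuation.map_mul]
    calc W.valuation (φ (s₀u : B) ^ k) * W.valuation (φ (s₀u : B) ^ m * y)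
        ≤ 1 * W.valuation (φ (s₀u : B) ^ m * y) := by gcongr
      _ < 1 := by rw [one_mul]; exact h
  -- a uniform exponent
  have hunif : ∀ y : F, ∃ m : ℕ, ∀ W ∈ 𝒲, W.valuation (φ (s₀u : B) ^ m * y) < 1 := by
    intro y
    have hch : ∀ W : ValuationSubring F, ∃ m : ℕ, W ∈ 𝒲 →
        W.valuation (φ (s₀u : B) ^ m * y) < 1 := by
      intro W
      by_cases hW : W ∈ 𝒲
      · obtain ⟨m, hm⟩ := hArch W hW y
        exact ⟨m, fun _ => hm⟩
      · exact ⟨0, fun h => absurd h hW⟩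
    choose mW hmW using hch
    refine ⟨𝒲.sup mW, fun W hW => ?_⟩
    have hle : mW W ≤ 𝒲.sup mW := Finset.le_sup hW
    obtain ⟨k, hk⟩ := Nat.exists_eq_add_of_le hle
    rw [hk]
    exact hmono W hW y _ _ (hmW W hW)
  obtain ⟨m₁, hm₁⟩ := hunif y₁
  obtain ⟨m₂, hm₂⟩ := hunif y₂
  set m := m₁ + m₂ with hm
  have hε : ∀ W ∈ 𝒲, W.valuation (φ (s₀u : B) ^ m * y₁) < 1 :=
    fun W hW => hmono W hW y₁ m₁ m₂ (hm₁ W hW)
  have hδ : ∀ W ∈ 𝒲, W.valuation (φ (s₀u : B) ^ m * y₂) < 1 := by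
    intro W hW
    have := hmono W hW y₂ m₂ m₁ (hm₂ W hW)
    rwa [add_comm] at this
  have hvc : ∀ V ∈ 𝒱, ∀ w : B, V.valuation (φ (w * c)) < 1 := by
    intro V hV w
    rw [map_mul]
    exact val_mul_lt_of_mem V (hBV V hV w) (hc1 V hV)
  set N : B := a * c + (s₀u : B) ^ m with hN
  set D : B := s * c + (s₀u : B) ^ m with hD
  have hsmu : IsUnit ((s₀u : B) ^ m) := s₀u.isUnit.pow m
  have hNu : IsUnit N := unit_add_of_lt φ hφ V₀ (hBV V₀ hV₀) _ _ (hvc V₀ hV₀ a) hsmu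
  have hDu : IsUnit D := unit_add_of_lt φ hφ V₀ (hBV V₀ hV₀) _ _ (hvc V₀ hV₀ s) hsmu
  obtain ⟨Du, hDu'⟩ := hDu
  have hφD : φ D * φ ((↑Du⁻¹ : B)) = 1 := by
    rw [← hDu', ← map_mul, Units.mul_inv, map_one]
  have hφD0 : φ D ≠ 0 := left_ne_zero_of_mul_eq_one hφD
  have hφDi : φ ((↑Du⁻¹ : B)) = (φ D)⁻¹ := eq_inv_of_mul_eq_one_right hφD
  have hφN : φ N = φ a * φ c + φ (s₀u : B) ^ m := by
    rw [hN, map_add, map_mul, map_pow]
  have hφDe : φ D = φ s * φ c + φ (s₀u : B) ^ m := by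
    rw [hD, map_add, map_mul, map_pow]
  refine ⟨N * (↑Du⁻¹ : B), hNu.mul Du⁻¹.isUnit, ?_, ?_⟩
  · intro V hV
    have : φ (N * (↑Du⁻¹ : B)) - 1 = φ ((a - s) * c) * φ ((↑Du⁻¹ : B)) := by
      rw [map_mul, hφDi, map_mul, map_sub]
      have : φ N - φ D = (φ a - φ s) * φ c := by rw [hφN, hφDe]; ring
      rw [← this]; field_simp
    rw [this, mul_comm]
    exact val_mul_lt_of_mem V (hBV V hV _) (hvc V hV _)
  · intro W hW
    have h1ε : W.valuation (1 + φ (s₀u : B) ^ m * y₁) = 1 :=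
      val_one_of_lt W (by rw [add_sub_cancel_left]; exact hε W hW)
    have h1ε0 : 1 + φ (s₀u : B) ^ m * y₁ ≠ 0 := by
      intro h
      rw [h, Valuation.map_zero] at h1ε
      exact zero_ne_one h1ε
    have hDeq : φ D = φ s * φ c * (1 + φ (s₀u : B) ^ m * y₁) := by
      rw [hφDe, hy₁, mul_add, mul_one, mul_comm (φ (s₀u : B) ^ m), ← mul_assoc,
        mul_inv_cancel₀ hsc0, one_mul]
    have : φ (N * (↑Du⁻¹ : B)) * x - 1 =
        (φ (s₀u : B) ^ m * y₂) * (1 + φ (s₀u : B) ^ m * y₁)⁻¹ := by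
      have e1 : φ N * φ s - φ D * φ a = φ (s₀u : B) ^ m * (φ s - φ a) := by
        rw [hφN, hφDe]; ring
      have e2 : φ (N * (↑Du⁻¹ : B)) * x - 1 = (φ N * φ s - φ D * φ a) * (φ D * φ a)⁻¹ := by
        rw [map_mul, hφDi, hxa]; field_simp
      rw [e2, e1, hDeq, hy₂]
      field_simp
    rw [this, Valuation.map_mul, map_inv₀, h1ε, inv_one, mul_one]
    exact hδ W hW

/-- **the local gluing lemma, strong form**: `h ≡ 1` at the branches through the point AND at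
the other components. -/
theorem locGlueVal_all (φ : B →+* F) (hφ : Function.Injective φ)
    (hfrac : ∀ x : F, ∃ a s : B, s ≠ 0 ∧ x * φ s = φ a)
    (𝒱 𝒲 : Finset (ValuationSubring F)) (h𝒱 : 𝒱.Nonempty)
    (hBV : ∀ V ∈ 𝒱, ∀ b : B, φ b ∈ V)
    (c s₀ : B) (hc0 : c ≠ 0) (hc1 : ∀ V ∈ 𝒱, V.valuation (φ c) < 1)
    (hs₀ : IsUnit s₀) (hs₀2 : ∀ W ∈ 𝒲, W.valuation (φ s₀) < 1)
    (hArch : ∀ W ∈ 𝒲, ∀ y : F, ∃ m : ℕ, W.valuation (φ s₀ ^ m * y) < 1)
    (n : ℕ) (hn : IsUnit (n : B)) (ε : B) (hε : IsUnit ε) (v y : F) (hy0 : y ≠ 0)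
    (hv : v = φ ε * y ^ n)
    (hv1 : ∀ V ∈ 𝒱, V.valuation (v - 1) < 1) (ρ : B) (hρ : IsUnit ρ)
    (hb : ∀ V ∈ 𝒱, ∃ b : B, V.valuation (y - φ b) < 1 ∧ b - ρ ∈ IsLocalRing.maximalIdeal B) :
    ∃ h : F, (∀ V ∈ 𝒱, V.valuation (h - 1) < 1) ∧ (∀ W ∈ 𝒲, W.valuation (h - 1) < 1) ∧
      ∃ w : B, IsUnit w ∧ v * h ^ n = φ w := by
  obtain ⟨h₁, hh₁, w, hw, hvw⟩ := locGlueVal_h φ 𝒱 hBV n hn ε hε v y hy0 hv hv1 ρ hρ hb
  obtain ⟨V₀, hV₀⟩ := h𝒱
  have hh₁0 : h₁ ≠ 0 := ne_zero_of_lt V₀ (hh₁ V₀ hV₀)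
  obtain ⟨b, hbu, hb1, hb2⟩ := apMulti φ hφ hfrac 𝒱 𝒲 ⟨V₀, hV₀⟩ hBV c s₀ hc0 hc1 hs₀ hs₀2 hArch
    h₁ hh₁0
  refine ⟨φ b * h₁, fun V hV => one_mul_lt V (hb1 V hV) (hh₁ V hV), hb2, b ^ n * w,
    (hbu.pow n).mul hw, ?_⟩
  rw [map_mul, map_pow, ← hvw]
  ring

end AP

end H10G3
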