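import Mathlib
import Fermat.Agent.S36.LocAP_helper10
import Fermat.Agent.S34.LocBridge_helper22
import Fermat.Agent.S35.FWReg_helper10
import Fermat.Agent.S36.KDMultiDefs_helper1

/-!
# Item 86 (S36), slice (GEN3), local part C (helper10): the local hypothesis `MLoc` of
`H1G3.KDMultiStatement` at a closed point, from (L1) + toric data, in CHART language

At a prime `𝔫` of the chart ring `M₀ = Chart R c`, with `𝒱` a finite set of discrete valuation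
rings of `F` containing `M₀` in which `ϖ` is not a unit:

* (L1)      `v = ε · yⁿ`, `ε ∈ B_𝔫ˣ`;
* (toric)   `ρ ∈ B_𝔫ˣ` and, for every `V ∈ 𝒱` through `𝔫` (`M₀ ∖ 𝔫 ⊆ Vˣ`), some `b ∈ B_𝔫` with
            `y ≡ b mod 𝔪(V)` and `b ≡ ρ mod 𝔫 B_𝔫`;
* `v ≡ 1` at every `V ∈ 𝒱` through `𝔫`.

Then there is `h ≡ 1` at EVERY `V ∈ 𝒱` with `v · hⁿ ∈ B_𝔫` (`H10G3.mlocAt_of_toric`).
No regularity / transversality / reducedness is used; the approximation at the components which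
do not pass through `𝔫` is `H10G3.apMulti`.
-/

set_option autoImplicit false
set_option synthInstance.maxHeartbeats 400000
set_option linter.unusedSectionVars false
set_option linter.unusedVariables false
set_option linter.style.haveILetI false

noncomputable section

open Polynomial IntermediateField H4S34

namespace H10G3

section Wire

variable (R : Type) [CommRing R] [IsDomain R] [IsDiscreteValuationRing R]
  (K : Type) [Field K] [CharZero K] [Algebra R K] [IsFractionRing R K]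
  {F : Type} [Field F] [Algebra K F] [Algebra R F] [IsScalarTower R K F]

/-- `x ∈ 𝔫 B_𝔫`. -/
def InMaxAt (c : F) (𝔫 : Ideal (Chart R c)) (x : F) : Prop :=
  ∃ a s : Chart R c, s ∉ 𝔫 ∧ a ∈ 𝔫 ∧ (s : F) * x = (a : F)

/-- `V` passes through `𝔫`: the elements of `M₀ ∖ 𝔫` are units of `V`. -/
def Through (c : F) (𝔫 : Ideal (Chart R c)) (V : ValuationSubring F) : Prop :=
  ∀ s : Chart R c, s ∉ 𝔫 → V.valuation (s : F) = 1

/-- `B_𝔫 ⊆ V` for `V` through `𝔫`. -/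
theorem wire_mem (c : F) (𝔫 : Ideal (Chart R c)) (V : ValuationSubring F)
    (hchart : ∀ x : Chart R c, (x : F) ∈ V) (hT : Through R c 𝔫 V)
    (x : F) (hx : InLoc R c 𝔫 x) : x ∈ V := by
  obtain ⟨a, s, hs, e⟩ := hx
  have hs1 := hT s hs
  have ha : (a : F) ∈ V := hchart a
  rw [← V.valuation_le_one_iff] at ha ⊢
  have h1 := congrArg V.valuation e
  rw [Valuation.map_mul, hs1, one_mul] at h1
  rw [h1]
  exact ha

/-- the separating element: `s₀ ∉ 𝔫`, `s₀ ∈ 𝔪(W)` for all `W` not through `𝔫`. -/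
theorem wire_sep (c : F) (𝔫 : Ideal (Chart R c)) [h𝔫 : 𝔫.IsPrime]
    (𝒲 : Finset (ValuationSubring F))
    (hchart : ∀ W ∈ 𝒲, ∀ x : Chart R c, (x : F) ∈ W)
    (hT : ∀ W ∈ 𝒲, ¬ Through R c 𝔫 W) :
    ∃ s₀ : Chart R c, s₀ ∉ 𝔫 ∧ ∀ W ∈ 𝒲, W.valuation (s₀ : F) < 1 := by
  classical
  have hsep : ∀ W : ValuationSubring F, ∃ s : Chart R c, W ∈ 𝒲 →
      (s ∉ 𝔫 ∧ W.valuation (s : F) < 1) := by
    intro W
    by_cases hW : W ∈ 𝒲
    · have hT' := hT W hW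
      unfold Through at hT'
      simp only [not_forall] at hT'
      obtain ⟨s, hs, hs1⟩ := hT'
      refine ⟨s, fun _ => ⟨hs, lt_of_le_of_ne ?_ hs1⟩⟩
      exact (W.valuation_le_one_iff _).mpr (hchart W hW s)
    · exact ⟨0, fun h => absurd h hW⟩
  choose sW hsW using hsep
  refine ⟨∏ W ∈ 𝒲, sW W, ?_, ?_⟩
  · intro h
    obtain ⟨W, hW, hWm⟩ := (Ideal.IsPrime.prod_mem_iff).mp h
    exact (hsW W hW).1 hWm
  · intro W hW
    rw [← Finset.mul_prod_erase 𝒲 sW hW]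
    have h1 : ((∏ W' ∈ 𝒲.erase W, sW W' : Chart R c) : F) ∈ W := hchart W hW _
    have h2 : ((sW W * ∏ W' ∈ 𝒲.erase W, sW W' : Chart R c) : F) =
        ((∏ W' ∈ 𝒲.erase W, sW W' : Chart R c) : F) * (sW W : F) := by
      rw [mul_comm]; rfl
    rw [h2]
    exact val_mul_lt_of_mem W h1 (hsW W hW).2

/-- the image of `r ∈ R` in the chart. -/
def chartOf (c : F) (r : R) : Chart R c :=
  ⟨algebraMap R F r, by
    have hmem : algebraMap R F r ∈ Algebra.adjoin R {c} := Subalgebra.algebraMap_mem _ r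
    exact (isIntegral_algebraMap (R := Algebra.adjoin R {c}) (A := F)
      (x := ⟨algebraMap R F r, hmem⟩))⟩

theorem chartOf_coe (c : F) (r : R) : ((chartOf R c r : Chart R c) : F) = algebraMap R F r := rfl

section Gen

variable (c : F) (𝔫 : Ideal (Chart R c)) [h𝔫 : 𝔫.IsPrime]
  (B : Type) [CommRing B] [Algebra (Chart R c) B] [IsLocalization.AtPrime B 𝔫]
  [Algebra B F] [IsScalarTower (Chart R c) B F]

theorem wire_chart (s : Chart R c) :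
    algebraMap B F (algebraMap (Chart R c) B s) = (s : F) := by
  rw [← IsScalarTower.algebraMap_apply]
  rfl

/-- a unit of `B_𝔫` from `x, x⁻¹ ∈ B_𝔫`. -/
theorem wire_unit (hφ : Function.Injective (algebraMap B F))
    (x : F) (hx : InLoc R c 𝔫 x) (hx' : InLoc R c 𝔫 x⁻¹) (hx0 : x ≠ 0) :
    ∃ b : B, IsUnit b ∧ algebraMap B F b = x := by
  obtain ⟨b, hb⟩ := (H22BR.inLoc_iff R c 𝔫 B x).mp hx
  obtain ⟨b', hb'⟩ := (H22BR.inLoc_iff R c 𝔫 B x⁻¹).mp hx'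
  refine ⟨b, IsUnit.of_mul_eq_one b' (hφ ?_), hb⟩
  rw [map_mul, hb, hb', map_one, mul_inv_cancel₀ hx0]

/-- `InMaxAt` is membership in the maximal ideal of `B_𝔫`. -/
theorem wire_max [IsLocalRing B] (hφ : Function.Injective (algebraMap B F))
    (b : B) (hb : InMaxAt R c 𝔫 (algebraMap B F b)) : b ∈ IsLocalRing.maximalIdeal B := by
  obtain ⟨a, s, hs, ha, e⟩ := hb
  have hsu : IsUnit (algebraMap (Chart R c) B s) :=
    IsLocalization.map_units B (⟨s, hs⟩ : 𝔫.primeCompl)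
  have ham : algebraMap (Chart R c) B a ∈ IsLocalRing.maximalIdeal B :=
    (IsLocalization.AtPrime.to_map_mem_maximal_iff B 𝔫 a).mpr ha
  have h1 : algebraMap (Chart R c) B s * b = algebraMap (Chart R c) B a := by
    apply hφ
    rw [map_mul, wire_chart R c B s, wire_chart R c B a]
    exact e
  obtain ⟨su, hsu'⟩ := hsu
  have h2 : b = (↑su⁻¹ : B) * algebraMap (Chart R c) B a := by
    rw [← h1, ← hsu', ← mul_assoc, Units.inv_mul, one_mul]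
  rw [h2]
  exact Ideal.mul_mem_left _ _ ham

include c 𝔫 h𝔫 in
/-- `n ∈ Rˣ` is a unit of `B_𝔫`. -/
theorem wire_natUnit (hφ : Function.Injective (algebraMap B F))
    (n : ℕ) (hn : IsUnit (n : R)) : IsUnit (n : B) := by
  obtain ⟨u, hu⟩ := hn
  refine IsUnit.of_mul_eq_one (algebraMap (Chart R c) B (chartOf R c ((u⁻¹ : Rˣ) : R))) (hφ ?_)
  rw [map_mul, map_one, map_natCast, wire_chart R c B, chartOf_coe]
  have h1 : (n : F) = algebraMap R F (u : R) := by rw [hu, map_natCast]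
  rw [h1, ← map_mul, Units.mul_inv, map_one]


include K in
/-- generic-`B` form of the wiring. -/
theorem mlocAt_of_toric_gen [IsDomain B] [IsLocalRing B] [IsFractionRing B F]
    (ϖ : R) (hϖ0 : ϖ ≠ 0)
    (𝒱₁ 𝒲 : Finset (ValuationSubring F)) (h𝒱₁ne : 𝒱₁.Nonempty)
    (hDVR : ∀ V ∈ 𝒲, IsDiscreteValuationRing V)
    (hchart₁ : ∀ V ∈ 𝒱₁, ∀ x : Chart R c, (x : F) ∈ V)
    (hchart₂ : ∀ V ∈ 𝒲, ∀ x : Chart R c, (x : F) ∈ V)
    (hϖV : ∀ V ∈ 𝒱₁, V.valuation (algebraMap R F ϖ) < 1)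
    (hT₁ : ∀ V ∈ 𝒱₁, Through R c 𝔫 V) (hT₂ : ∀ V ∈ 𝒲, ¬ Through R c 𝔫 V)
    (n : ℕ) (hn : IsUnit (n : R)) (v : F)
    (hv1 : ∀ V ∈ 𝒱₁, V.valuation (v - 1) < 1)
    (ε y ρ : F) (hy0 : y ≠ 0) (hε : InLoc R c 𝔫 ε) (hε' : InLoc R c 𝔫 ε⁻¹) (hε0 : ε ≠ 0)
    (hv : v = ε * y ^ n)
    (hρ : InLoc R c 𝔫 ρ) (hρ' : InLoc R c 𝔫 ρ⁻¹) (hρ0 : ρ ≠ 0)
    (hb : ∀ V ∈ 𝒱₁,
      ∃ b : F, InLoc R c 𝔫 b ∧ V.valuation (y - b) < 1 ∧ InMaxAt R c 𝔫 (b - ρ)) :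
    ∃ h : F, (∀ V ∈ 𝒱₁, V.valuation (h - 1) < 1) ∧ (∀ V ∈ 𝒲, V.valuation (h - 1) < 1) ∧
      InLoc R c 𝔫 (v * h ^ n) := by
  classical
  have hφ : Function.Injective (algebraMap B F) := IsFractionRing.injective B F
  have hfrac : ∀ x : F, ∃ a s : B, s ≠ 0 ∧ x * algebraMap B F s = algebraMap B F a := by
    intro x
    obtain ⟨a, s, hs, e⟩ := IsFractionRing.div_surjective (A := B) x
    have hs0 : s ≠ 0 := nonZeroDivisors.ne_zero hs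
    have hφs0 : algebraMap B F s ≠ 0 := fun h => hs0 (hφ (by rw [h, map_zero]))
    refine ⟨a, s, hs0, ?_⟩
    rw [← e]
    field_simp
  have hBV : ∀ V ∈ 𝒱₁, ∀ b : B, algebraMap B F b ∈ V := fun V hV b =>
    wire_mem R c 𝔫 V (hchart₁ V hV) (hT₁ V hV) _
      ((H22BR.inLoc_iff R c 𝔫 B _).mpr ⟨b, rfl⟩)
  -- the element `ϖ`
  have hφc : algebraMap B F (algebraMap (Chart R c) B (chartOf R c ϖ)) = algebraMap R F ϖ := by
    rw [wire_chart R c B, chartOf_coe]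
  have hϖF0 : algebraMap R F ϖ ≠ 0 := by
    intro h
    have hinj : Function.Injective (algebraMap R F) := by
      rw [IsScalarTower.algebraMap_eq R K F]
      exact (algebraMap K F).injective.comp (IsFractionRing.injective R K)
    exact hϖ0 (hinj (by rw [h, map_zero]))
  have hc0 : algebraMap (Chart R c) B (chartOf R c ϖ) ≠ 0 := by
    intro h
    rw [h, map_zero] at hφc
    exact hϖF0 hφc.symm
  have hc1 : ∀ V ∈ 𝒱₁,
      V.valuation (algebraMap B F (algebraMap (Chart R c) B (chartOf R c ϖ))) < 1 := by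
    intro V hV
    rw [hφc]
    exact hϖV V hV
  -- the separating unit
  obtain ⟨s₀c, hs₀n, hs₀v⟩ := wire_sep R c 𝔫 𝒲 hchart₂ hT₂
  have hs₀u : IsUnit (algebraMap (Chart R c) B s₀c) :=
    IsLocalization.map_units B (⟨s₀c, hs₀n⟩ : 𝔫.primeCompl)
  have hs₀2 : ∀ W ∈ 𝒲, W.valuation (algebraMap B F (algebraMap (Chart R c) B s₀c)) < 1 := by
    intro W hW
    rw [wire_chart R c B]
    exact hs₀v W hW
  have hArch : ∀ W ∈ 𝒲, ∀ y : F, ∃ m : ℕ,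
      W.valuation (algebraMap B F (algebraMap (Chart R c) B s₀c) ^ m * y) < 1 := by
    intro W hW y
    haveI := hDVR W hW
    exact H10FW.h10fw_arch W _ (hs₀2 W hW) y
  have hnB : IsUnit (n : B) := wire_natUnit R c 𝔫 B hφ n hn
  obtain ⟨εB, hεu, hεB⟩ := wire_unit R c 𝔫 B hφ ε hε hε' hε0
  obtain ⟨ρB, hρu, hρB⟩ := wire_unit R c 𝔫 B hφ ρ hρ hρ' hρ0
  have hbB : ∀ V ∈ 𝒱₁, ∃ b : B, V.valuation (y - algebraMap B F b) < 1 ∧
      b - ρB ∈ IsLocalRing.maximalIdeal B := by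
    intro V hV
    obtain ⟨b, hbL, hb1, hbm⟩ := hb V hV
    obtain ⟨bB, hbB⟩ := (H22BR.inLoc_iff R c 𝔫 B b).mp hbL
    refine ⟨bB, by rw [hbB]; exact hb1, wire_max R c 𝔫 B hφ _ ?_⟩
    rw [map_sub, hbB, hρB]
    exact hbm
  obtain ⟨h, hh1, hh2, w, hw, hvw⟩ := locGlueVal_all (algebraMap B F) hφ hfrac 𝒱₁ 𝒲 h𝒱₁ne hBV
    (algebraMap (Chart R c) B (chartOf R c ϖ)) (algebraMap (Chart R c) B s₀c) hc0 hc1
    hs₀u hs₀2 hArch n hnB εB hεu v y hy0 (by rw [hεB]; exact hv) hv1 ρB hρu hbB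
  exact ⟨h, hh1, hh2, (H22BR.inLoc_iff R c 𝔫 B _).mpr ⟨w, hvw.symm⟩⟩

end Gen

/-- **the local hypothesis of the Kummer descent for a finite family, from (L1) + toric data.** -/
theorem mlocAt_of_toric (ϖ : R) (hϖ0 : ϖ ≠ 0) (c : F) [FiniteDimensional K⟮c⟯ F]
    (𝒱 : Set (ValuationSubring F)) (h𝒱 : 𝒱.Finite)
    (hDVR : ∀ V ∈ 𝒱, IsDiscreteValuationRing V)
    (hchart : ∀ V ∈ 𝒱, ∀ x : Chart R c, (x : F) ∈ V)
    (hϖV : ∀ V ∈ 𝒱, V.valuation (algebraMap R F ϖ) < 1)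
    (𝔫 : Ideal (Chart R c)) (h𝔫 : 𝔫.IsPrime)
    (hne : ∃ V ∈ 𝒱, Through R c 𝔫 V)
    (n : ℕ) (hn : IsUnit (n : R)) (v : F)
    (hv1 : ∀ V ∈ 𝒱, Through R c 𝔫 V → V.valuation (v - 1) < 1)
    (ε y ρ : F) (hy0 : y ≠ 0) (hε : InLoc R c 𝔫 ε) (hε' : InLoc R c 𝔫 ε⁻¹) (hε0 : ε ≠ 0)
    (hv : v = ε * y ^ n)
    (hρ : InLoc R c 𝔫 ρ) (hρ' : InLoc R c 𝔫 ρ⁻¹) (hρ0 : ρ ≠ 0)
    (hb : ∀ V ∈ 𝒱, Through R c 𝔫 V →
      ∃ b : F, InLoc R c 𝔫 b ∧ V.valuation (y - b) < 1 ∧ InMaxAt R c 𝔫 (b - ρ)) :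
    ∃ h : F, (∀ V ∈ 𝒱, V.valuation (h - 1) < 1) ∧ InLoc R c 𝔫 (v * h ^ n) := by
  classical
  haveI := h𝔫
  haveI := H22BR.bsub_atPrime R K c 𝔫
  haveI := H22BR.bsub_tower R K c 𝔫
  haveI := H22BR.loc_isDomain R c 𝔫 (H22BR.Bsub R K c 𝔫)
  haveI := H22BR.loc_isLocalRing R c 𝔫 (H22BR.Bsub R K c 𝔫)
  haveI := H22BR.loc_isFractionRing R K c 𝔫 (H22BR.Bsub R K c 𝔫)
  have hmemf : ∀ V, V ∈ h𝒱.toFinset ↔ V ∈ 𝒱 := fun V => Set.Finite.mem_toFinset h𝒱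
  have hm₁ : ∀ V, V ∈ h𝒱.toFinset.filter (fun V => Through R c 𝔫 V) ↔
      V ∈ 𝒱 ∧ Through R c 𝔫 V := by
    intro V; rw [Finset.mem_filter, hmemf]
  have hm₂ : ∀ V, V ∈ h𝒱.toFinset.filter (fun V => ¬ Through R c 𝔫 V) ↔
      V ∈ 𝒱 ∧ ¬ Through R c 𝔫 V := by
    intro V; rw [Finset.mem_filter, hmemf]
  have h𝒱₁ne : (h𝒱.toFinset.filter (fun V => Through R c 𝔫 V)).Nonempty := by
    obtain ⟨V, hV, hT⟩ := hne
    exact ⟨V, (hm₁ V).mpr ⟨hV, hT⟩⟩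
  obtain ⟨h, hh1, hh2, hh3⟩ := mlocAt_of_toric_gen R K c 𝔫 (H22BR.Bsub R K c 𝔫) ϖ hϖ0
    (h𝒱.toFinset.filter (fun V => Through R c 𝔫 V))
    (h𝒱.toFinset.filter (fun V => ¬ Through R c 𝔫 V)) h𝒱₁ne
    (fun V hV => hDVR V ((hm₂ V).mp hV).1)
    (fun V hV => hchart V ((hm₁ V).mp hV).1)
    (fun V hV => hchart V ((hm₂ V).mp hV).1)
    (fun V hV => hϖV V ((hm₁ V).mp hV).1)
    (fun V hV => ((hm₁ V).mp hV).2) (fun V hV => ((hm₂ V).mp hV).2)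
    n hn v (fun V hV => hv1 V ((hm₁ V).mp hV).1 ((hm₁ V).mp hV).2)
    ε y ρ hy0 hε hε' hε0 hv hρ hρ' hρ0
    (fun V hV => hb V ((hm₁ V).mp hV).1 ((hm₁ V).mp hV).2)
  refine ⟨h, fun V hV => ?_, hh3⟩
  by_cases hT : Through R c 𝔫 V
  · exact hh1 V ((hm₁ V).mpr ⟨hV, hT⟩)
  · exact hh2 V ((hm₂ V).mpr ⟨hV, hT⟩)

/-- the local data of `mlocAt_of_toric` at the point `𝔫`. -/
def ToricAt (c : F) (𝒱 : Set (ValuationSubring F)) (𝔫 : Ideal (Chart R c)) (n : ℕ) (v : F) :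
    Prop :=
  (∃ V ∈ 𝒱, Through R c 𝔫 V) ∧
  ∃ ε y ρ : F, y ≠ 0 ∧ InLoc R c 𝔫 ε ∧ InLoc R c 𝔫 ε⁻¹ ∧ ε ≠ 0 ∧ v = ε * y ^ n ∧
    InLoc R c 𝔫 ρ ∧ InLoc R c 𝔫 ρ⁻¹ ∧ ρ ≠ 0 ∧
    ∀ V ∈ 𝒱, Through R c 𝔫 V →
      ∃ b : F, InLoc R c 𝔫 b ∧ V.valuation (y - b) < 1 ∧ InMaxAt R c 𝔫 (b - ρ)

/-- **`H1G3.MLoc` from (L1) + toric data at every closed point.** -/
theorem mloc_of_toric (ϖ : R) (hϖ0 : ϖ ≠ 0) (c : F) [FiniteDimensional K⟮c⟯ F]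
    (𝒱 : Set (ValuationSubring F)) (h𝒱 : 𝒱.Finite)
    (hDVR : ∀ V ∈ 𝒱, IsDiscreteValuationRing V)
    (hchart : ∀ V ∈ 𝒱, ∀ x : Chart R c, (x : F) ∈ V)
    (hϖV : ∀ V ∈ 𝒱, V.valuation (algebraMap R F ϖ) < 1)
    (n : ℕ) (hn : IsUnit (n : R)) (v : F)
    (hv1 : ∀ V ∈ 𝒱, H1FW.One V v)
    (hloc : ∀ 𝔫 : Ideal (Chart R c), IsClosedPt R ϖ c 𝔫 → ToricAt R c 𝒱 𝔫 n v) :
    H1G3.MLoc R ϖ 𝒱 c n v := by
  intro 𝔫 h𝔫
  obtain ⟨hne, ε, y, ρ, hy0, hε, hε', hε0, hv, hρ, hρ', hρ0, hb⟩ := hloc 𝔫 h𝔫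
  exact mlocAt_of_toric R K ϖ hϖ0 c 𝒱 h𝒱 hDVR hchart hϖV 𝔫 h𝔫.1.isPrime hne n hn v
    (fun V hV _ => hv1 V hV) ε y ρ hy0 hε hε' hε0 hv hρ hρ' hρ0 hb

end Wire

end H10G3

end
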