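import Mathlib
import Fermat.Agent.S36.LocWire_helper10
import Fermat.Agent.S18.TBase_helper19

/-!
# Item 86 (S36), slice (GEN3-ASM), part 1 (helper10): chart-level lemmas

* `H10G3.through_exists` / `through_exists_inv` : **every closed point lies on a component**:
  if `rad(ϖ O)^m ⊆ ϖ O` in the form `(hJ)` of `H1G3.KDMultiStatement` and `O ⊆ V` for `V ∈ 𝒱`
  (`𝒱` finite), then through every closed point `𝔫` of the chart `t` (resp. `t⁻¹`) passes some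
  `V ∈ 𝒱`.  (Lemma U: `O ∩ M₀[1/ϖ] = M₀`.)
* `H10G3.branchRoot` : **branch roots at a point from normality of the component**:
  if `M₀ / P_V` is `n`-root closed in `κ(V)` (element form `hBR`), then for `V` through `𝔫`,
  `z ^ n ≡ u` at `V` with `u ∈ B_𝔫` gives `b ∈ B_𝔫` with `z ≡ b` at `V`.
* `H10G3.mlocAt_B` : the wiring `H10G3.mlocAt_of_toric_gen` with the local data in `B`-form
  (the form of the conclusions of `H17T3.h17t3_toric_c`).
-/

set_option autoImplicit false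
set_option synthInstance.maxHeartbeats 400000
set_option linter.unusedSectionVars false
set_option linter.unusedVariables false
set_option linter.style.haveILetI false

noncomputable section

open Polynomial IntermediateField H4S34 H7S18

namespace H10G3

section Through

variable (R : Type) [CommRing R] [IsDomain R] [IsDiscreteValuationRing R]
  (K : Type) [Field K] [CharZero K] [Algebra R K] [IsFractionRing R K]
  {F : Type} [Field F] [Algebra K F] [Algebra R F] [IsScalarTower R K F]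

/-- **every closed point lies on a component**, generic chart `c`. -/
theorem through_exists_gen (ϖ : R) (t c : F)
    (hcG : ∀ x : F, IsInt R c x → GInt R ϖ t x)
    (hU : ∀ y : F, GInt R ϖ t y → IsInt R c (algebraMap R F ϖ * y) → IsInt R c y)
    (𝒱 : Finset (ValuationSubring F))
    (hO : ∀ x : F, GInt R ϖ t x → ∀ V ∈ 𝒱, x ∈ V)
    (m : ℕ) (hJ : ∀ x : F, (∀ V ∈ 𝒱, V.valuation x < 1) → ModPi R ϖ t (x ^ m) 0)
    (𝔫 : Ideal (Chart R c)) (h𝔫 : IsClosedPt R ϖ c 𝔫) :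
    ∃ V ∈ 𝒱, Through R c 𝔫 V := by
  classical
  by_contra hcon
  have hcon' : ∀ V ∈ 𝒱, ¬ Through R c 𝔫 V := fun V hV hT => hcon ⟨V, hV, hT⟩
  haveI : 𝔫.IsPrime := h𝔫.1.isPrime
  have hchart : ∀ W ∈ 𝒱, ∀ x : Chart R c, (x : F) ∈ W := fun W hW x =>
    hO _ (hcG _ x.2) W hW
  obtain ⟨s₀, hs₀n, hs₀v⟩ := wire_sep R c 𝔫 𝒱 hchart hcon'
  obtain ⟨z, hz, e⟩ := hJ (s₀ : F) hs₀v
  rw [sub_zero] at e
  have hzI : IsInt R c z := by
    refine hU z hz ?_
    rw [← e]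
    exact (s₀ ^ m).2
  have h1 : s₀ ^ m = chartOf R c ϖ * ⟨z, hzI⟩ := Subtype.ext (by
    show (s₀ : F) ^ m = algebraMap R F ϖ * z
    exact e)
  have h2 : s₀ ^ m ∈ 𝔫 := by
    rw [h1]
    exact Ideal.mul_mem_right _ _ (h𝔫.2 _ rfl)
  exact hs₀n (Ideal.IsPrime.mem_of_pow_mem inferInstance m h2)

/-- **every closed point of the chart `t` lies on a component.** -/
theorem through_exists (ϖ : R) (hϖ : Irreducible ϖ) (t : F) (ht : Transcendental K t)
    (𝒱 : Finset (ValuationSubring F))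
    (hO : ∀ x : F, GInt R ϖ t x → ∀ V ∈ 𝒱, x ∈ V)
    (m : ℕ) (hJ : ∀ x : F, (∀ V ∈ 𝒱, V.valuation x < 1) → ModPi R ϖ t (x ^ m) 0)
    (𝔫 : Ideal (Chart R t)) (h𝔫 : IsClosedPt R ϖ t 𝔫) :
    ∃ V ∈ 𝒱, Through R t 𝔫 V :=
  through_exists_gen R ϖ t t
    (fun x hx => H19S18.h19_gint_of_isInt R (H19S18.h19_transc R K ht) hϖ hx)
    (fun y hy h => H19S18.h19_lemmaU R (H19S18.h19_transc R K ht) hϖ hy h)
    𝒱 hO m hJ 𝔫 h𝔫

/-- **every closed point of the chart `t⁻¹` lies on a component.** -/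
theorem through_exists_inv (ϖ : R) (hϖ : Irreducible ϖ) (t : F) (ht : Transcendental K t)
    (𝒱 : Finset (ValuationSubring F))
    (hO : ∀ x : F, GInt R ϖ t x → ∀ V ∈ 𝒱, x ∈ V)
    (m : ℕ) (hJ : ∀ x : F, (∀ V ∈ 𝒱, V.valuation x < 1) → ModPi R ϖ t (x ^ m) 0)
    (𝔫 : Ideal (Chart R t⁻¹)) (h𝔫 : IsClosedPt R ϖ t⁻¹ 𝔫) :
    ∃ V ∈ 𝒱, Through R t⁻¹ 𝔫 V :=
  through_exists_gen R ϖ t t⁻¹
    (fun x hx => H19S18.h19_gint_of_isInt_inv R (H19S18.h19_transc R K ht)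
      (H19S18.h19_transc R K (H19S18.h19_transc_inv K ht)) hϖ hx)
    (fun y hy h => H19S18.h19_lemmaU_inv R (H19S18.h19_transc R K ht)
      (H19S18.h19_transc R K (H19S18.h19_transc_inv K ht)) hϖ hy h)
    𝒱 hO m hJ 𝔫 h𝔫

/-- **branch roots at a point from `n`-root closedness of the component.** -/
theorem branchRoot (c : F) (𝔫 : Ideal (Chart R c)) (V : ValuationSubring F)
    (hchart : ∀ x : Chart R c, (x : F) ∈ V) (hT : Through R c 𝔫 V) (n : ℕ) (hn : 0 < n)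
    (hBR : ∀ z : F, ∀ a : Chart R c, V.valuation (z ^ n - (a : F)) < 1 →
      ∃ d : Chart R c, V.valuation (z - (d : F)) < 1)
    (z u : F) (hu : InLoc R c 𝔫 u) (hzu : V.valuation (z ^ n - u) < 1) :
    ∃ b : F, InLoc R c 𝔫 b ∧ V.valuation (z - b) < 1 := by
  obtain ⟨a, s, hs, e⟩ := hu
  have hs1 : V.valuation (s : F) = 1 := hT s hs
  have hs0 : (s : F) ≠ 0 := by
    intro h
    rw [h, map_zero] at hs1
    exact zero_ne_one hs1
  obtain ⟨k, rfl⟩ : ∃ k, n = k + 1 := ⟨n - 1, by omega⟩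
  have h1 : ((s : F) * z) ^ (k + 1) - ((s ^ k * a : Chart R c) : F) =
      (s : F) ^ (k + 1) * (z ^ (k + 1) - u) := by
    have : ((s ^ k * a : Chart R c) : F) = (s : F) ^ k * (a : F) := rfl
    rw [this, ← e]
    ring
  have h2 : V.valuation (((s : F) * z) ^ (k + 1) - ((s ^ k * a : Chart R c) : F)) < 1 := by
    rw [h1, Valuation.map_mul, Valuation.map_pow, hs1, one_pow, one_mul]
    exact hzu
  obtain ⟨d, hd⟩ := hBR _ _ h2
  refine ⟨(d : F) * (s : F)⁻¹, ⟨d, s, hs, by field_simp⟩, ?_⟩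
  have h3 : z - (d : F) * (s : F)⁻¹ = (s : F)⁻¹ * ((s : F) * z - (d : F)) := by
    field_simp
  rw [h3, Valuation.map_mul, map_inv₀, hs1, inv_one, one_mul]
  exact hd

/-- an `n`-th root of unity lies in every local ring of every chart. -/
theorem inLoc_of_pow_eq_one (c : F) (𝔫 : Ideal (Chart R c)) (h𝔫 : 𝔫 ≠ ⊤) (n : ℕ) (hn : 0 < n)
    (z : F) (hz : z ^ n = 1) : InLoc R c 𝔫 z := by
  have hzI : IsIntegral (Algebra.adjoin R {c}) z := by
    refine ⟨Polynomial.X ^ n - 1, Polynomial.monic_X_pow_sub_C (1 : Algebra.adjoin R {c}) hn.ne', ?_⟩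
    simp [hz]
  refine ⟨⟨z, hzI⟩, 1, fun h => h𝔫 ((Ideal.eq_top_iff_one 𝔫).mpr h), ?_⟩
  show ((1 : Chart R c) : F) * z = z
  rw [show ((1 : Chart R c) : F) = 1 from rfl, one_mul]

section GenB

variable (c : F) (𝔫 : Ideal (Chart R c)) [h𝔫 : 𝔫.IsPrime]
  (B : Type) [CommRing B] [Algebra (Chart R c) B] [IsLocalization.AtPrime B 𝔫]
  [Algebra B F] [IsScalarTower (Chart R c) B F]

include K in
/-- the wiring with the local data in `B`-form. -/
theorem mlocAt_B [IsDomain B] [IsLocalRing B] [IsFractionRing B F]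
    (ϖ : R) (hϖ0 : ϖ ≠ 0)
    (𝒱₁ 𝒲 : Finset (ValuationSubring F)) (h𝒱₁ne : 𝒱₁.Nonempty)
    (hDVR : ∀ V ∈ 𝒲, IsDiscreteValuationRing V)
    (hchart₁ : ∀ V ∈ 𝒱₁, ∀ x : Chart R c, (x : F) ∈ V)
    (hchart₂ : ∀ V ∈ 𝒲, ∀ x : Chart R c, (x : F) ∈ V)
    (hϖV : ∀ V ∈ 𝒱₁, V.valuation (algebraMap R F ϖ) < 1)
    (hT₁ : ∀ V ∈ 𝒱₁, Through R c 𝔫 V) (hT₂ : ∀ V ∈ 𝒲, ¬ Through R c 𝔫 V)
    (n : ℕ) (hn : IsUnit (n : R)) (v : F)
    (hv1 : ∀ V ∈ 𝒱₁, V.valuation (v - 1) < 1)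
    (εB : B) (hεu : IsUnit εB) (y : F) (hy0 : y ≠ 0) (hv : v = algebraMap B F εB * y ^ n)
    (ρB : B) (hρu : IsUnit ρB)
    (hbB : ∀ V ∈ 𝒱₁, ∃ b : B, V.valuation (y - algebraMap B F b) < 1 ∧
      b - ρB ∈ IsLocalRing.maximalIdeal B) :
    ∃ h : F, (∀ V ∈ 𝒱₁, V.valuation (h - 1) < 1) ∧ (∀ V ∈ 𝒲, V.valuation (h - 1) < 1) ∧
      InLoc R c 𝔫 (v * h ^ n) := by
  classical
  have hφ : Function.Injective (algebraMap B F) := IsFractionRing.injective B F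
  have hfrac : ∀ x : F, ∃ a s : B, s ≠ 0 ∧ x * algebraMap B F s = algebraMap B F a := by
    intro x
    obtain ⟨a, s, hs, e⟩ := IsFractionRing.div_surjective (A := B) x
    have hs0 : s ≠ 0 := nonZeroDivisors.ne_zero hs
    have hφs0 : algebraMap B F s ≠ 0 := fun h => hs0 (hφ (by rw [h, map_zero]))
    refine ⟨a, s, hs0, ?_⟩
    rw [← e]
    field_simp
  have hBV : ∀ V ∈ 𝒱₁, ∀ b : B, algebraMap B F b ∈ V := fun V hV b =>
    wire_mem R c 𝔫 V (hchart₁ V hV) (hT₁ V hV) _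
      ((H22BR.inLoc_iff R c 𝔫 B _).mpr ⟨b, rfl⟩)
  have hφc : algebraMap B F (algebraMap (Chart R c) B (chartOf R c ϖ)) = algebraMap R F ϖ := by
    rw [wire_chart R c B, chartOf_coe]
  have hϖF0 : algebraMap R F ϖ ≠ 0 := by
    intro h
    have hinj : Function.Injective (algebraMap R F) := by
      rw [IsScalarTower.algebraMap_eq R K F]
      exact (algebraMap K F).injective.comp (IsFractionRing.injective R K)
    exact hϖ0 (hinj (by rw [h, map_zero]))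
  have hc0 : algebraMap (Chart R c) B (chartOf R c ϖ) ≠ 0 := by
    intro h
    rw [h, map_zero] at hφc
    exact hϖF0 hφc.symm
  have hc1 : ∀ V ∈ 𝒱₁,
      V.valuation (algebraMap B F (algebraMap (Chart R c) B (chartOf R c ϖ))) < 1 := by
    intro V hV
    rw [hφc]
    exact hϖV V hV
  obtain ⟨s₀c, hs₀n, hs₀v⟩ := wire_sep R c 𝔫 𝒲 hchart₂ hT₂
  have hs₀u : IsUnit (algebraMap (Chart R c) B s₀c) :=
    IsLocalization.map_units B (⟨s₀c, hs₀n⟩ : 𝔫.primeCompl)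
  have hs₀2 : ∀ W ∈ 𝒲, W.valuation (algebraMap B F (algebraMap (Chart R c) B s₀c)) < 1 := by
    intro W hW
    rw [wire_chart R c B]
    exact hs₀v W hW
  have hArch : ∀ W ∈ 𝒲, ∀ y : F, ∃ m : ℕ,
      W.valuation (algebraMap B F (algebraMap (Chart R c) B s₀c) ^ m * y) < 1 := by
    intro W hW y
    haveI := hDVR W hW
    exact H10FW.h10fw_arch W _ (hs₀2 W hW) y
  have hnB : IsUnit (n : B) := wire_natUnit R c 𝔫 B hφ n hn
  obtain ⟨h, hh1, hh2, w, hw, hvw⟩ := locGlueVal_all (algebraMap B F) hφ hfrac 𝒱₁ 𝒲 h𝒱₁ne hBV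
    (algebraMap (Chart R c) B (chartOf R c ϖ)) (algebraMap (Chart R c) B s₀c) hc0 hc1
    hs₀u hs₀2 hArch n hnB εB hεu v y hy0 hv hv1 ρB hρu hbB
  exact ⟨h, hh1, hh2, (H22BR.inLoc_iff R c 𝔫 B _).mpr ⟨w, hvw.symm⟩⟩

end GenB

end Through

end H10G3

end
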