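/-
helper17: item 86 (S36, Carayol), slice (TOR3) — `v`-form, matching `H10G3.locGlueVal_h`
(Mathlib only, on top of `Tor3Core_helper17`).

Global data: `φα φβ : F' →+* F` (`α^*`, `β^*`), norms `Nα Nβ : F →* F'`, valuation rings
`V₁ V₂ V₃` of `F`, `V₁' V₂'` of `F'`; via `α`: `V₁, V₃ | V₁'`, `V₂ | V₂'`; via `β`: `V₁ | V₁'`,
`V₂, V₃ | V₂'`.  `v ≡ 1` at `V₁, V₂, V₃` with `Nα v = Gαⁿ`, `Nβ v = Gβⁿ`.
Local data at a triple point: a local ring `B` with `φB : B →+* F`, `v = φB ε · yⁿ`,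
branch roots `y ≡ φB b_i` at `V_i`.

* `h17t3_const_two`, `h17t3_const_one` : `G ≡ ζ'^a` at `V₁'`, `V₂'`;
* `h17t3_alpha_rel_v` : `b₁ b₃^(q-1) k₂ ≡ b₂^q k₁ mod 𝔪_B`;
* `h17t3_point` : with GLOBAL constants `E₁ E₂ : F` (products of roots of unity):
  `b₁^(q²-1) c₁ ≡ b₃^(q²-1) ≡ b₂^(q²-1) c₂ mod 𝔪_B`;
* `h17t3_toric` : `∃ e`, `eⁿ ≡ 1` at `V₁, V₂, V₃`, such that at EVERY triple point
  `y' = y^(q²-1) · e` has branch roots with a common residue `ρ` (the hypothesis `hb` of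
  `H10G3.locGlueVal_h` for `v' = v^(q²-1) · eⁿ = φB (ε^(q²-1)) · y'ⁿ`).
-/
import Mathlib
import Fermat.Agent.S36.Tor3Core_helper17

set_option autoImplicit false
set_option linter.unusedSectionVars false

namespace H17T3

section Extra

variable {F : Type*} [Field F]

theorem cg_inv {V : ValuationSubring F} {x y : F} (h : Cg V x y) (hy : V.valuation y = 1) :
    Cg V x⁻¹ y⁻¹ := by
  have hx : V.valuation x = 1 := cg_val_eq_one h hy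
  have hx0 : x ≠ 0 := by
    intro h0
    rw [h0, map_zero] at hx
    exact zero_ne_one hx
  have hy0 : y ≠ 0 := by
    intro h0
    rw [h0, map_zero] at hy
    exact zero_ne_one hy
  unfold Cg at h ⊢
  have h1 : x⁻¹ - y⁻¹ = (y - x) * (x⁻¹ * y⁻¹) := by
    field_simp
  rw [h1, map_mul, map_mul, map_inv₀, map_inv₀, hx, hy, inv_one, mul_one, mul_one,
    ← neg_sub, Valuation.map_neg]
  exact h

theorem cg_add {V : ValuationSubring F} {x x' y y' : F} (hx : Cg V x x') (hy : Cg V y y') :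
    Cg V (x + y) (x' + y') := by
  unfold Cg at hx hy ⊢
  have : x + y - (x' + y') = (x - x') + (y - y') := by ring
  rw [this]
  exact lt_of_le_of_lt (V.valuation.map_add _ _) (max_lt hx hy)

theorem cg_sub {V : ValuationSubring F} {x x' y y' : F} (hx : Cg V x x') (hy : Cg V y y') :
    Cg V (x - y) (x' - y') := by
  unfold Cg at hx hy ⊢
  have : x - y - (x' - y') = (x - x') - (y - y') := by ring
  rw [this]
  exact lt_of_le_of_lt (V.valuation.map_sub _ _) (max_lt hx hy)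

theorem val_one_of_pow_eq_one (V : ValuationSubring F) {n : ℕ} (hn : 0 < n) {x : F}
    (h : x ^ n = 1) : V.valuation x = 1 :=
  val_eq_one_of_pow hn (by rw [h, map_one])

theorem mem_of_val_one {V : ValuationSubring F} {x : F} (h : V.valuation x = 1) : x ∈ V :=
  (V.valuation_le_one_iff _).mp (le_of_eq h)

/-- weak approximation from two "idempotents" `t₁, t₂`. -/
theorem h17t3_wa (V₁ V₂ V₃ : ValuationSubring F) (t₁ t₂ : F)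
    (h11 : Cg V₁ t₁ 1) (h12 : Cg V₂ t₁ 0) (h13 : Cg V₃ t₁ 0)
    (h21 : Cg V₁ t₂ 0) (h22 : Cg V₂ t₂ 1) (h23 : Cg V₃ t₂ 0)
    (c₁ c₂ : F) (hc₁ : c₁ ∈ V₁ ∧ c₁ ∈ V₂ ∧ c₁ ∈ V₃) (hc₂ : c₂ ∈ V₁ ∧ c₂ ∈ V₂ ∧ c₂ ∈ V₃) :
    ∃ e : F, Cg V₁ e c₁ ∧ Cg V₂ e c₂ ∧ Cg V₃ e 1 := by
  refine ⟨c₁ * t₁ + c₂ * t₂ + (1 - t₁ - t₂), ?_, ?_, ?_⟩
  · have := cg_add (cg_add (cg_mul_left c₁ hc₁.1 h11) (cg_mul_left c₂ hc₂.1 h21))
      (cg_sub (cg_sub (cg_refl V₁ 1) h11) h21)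
    simpa using this
  · have := cg_add (cg_add (cg_mul_left c₁ hc₁.2.1 h12) (cg_mul_left c₂ hc₂.2.1 h22))
      (cg_sub (cg_sub (cg_refl V₂ 1) h12) h22)
    simpa using this
  · have := cg_add (cg_add (cg_mul_left c₁ hc₁.2.2 h13) (cg_mul_left c₂ hc₂.2.2 h23))
      (cg_sub (cg_sub (cg_refl V₃ 1) h13) h23)
    simpa using this

/-- an element of a local ring `B ⊆ V` whose image lies in `𝔪(V)` is in `𝔪_B`. -/
theorem mem_max_of_val_lt {B : Type*} [CommRing B] [IsLocalRing B] (φB : B →+* F)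
    (V : ValuationSubring F) (hB : ∀ b : B, φB b ∈ V) {x : B}
    (hx : V.valuation (φB x) < 1) : x ∈ IsLocalRing.maximalIdeal B := by
  rw [IsLocalRing.mem_maximalIdeal]
  intro hu
  obtain ⟨w, hw⟩ := hu.exists_right_inv
  have h1 : φB x * φB w = 1 := by rw [← map_mul, hw, map_one]
  have h2 : V.valuation (φB x) * V.valuation (φB w) = 1 := by rw [← map_mul, h1, map_one]
  have h3 : V.valuation (φB w) ≤ 1 := (V.valuation_le_one_iff _).mpr (hB w)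
  have h4 : V.valuation (φB x) * V.valuation (φB w) < 1 := by
    calc V.valuation (φB x) * V.valuation (φB w) ≤ V.valuation (φB x) * 1 :=
          mul_le_mul' le_rfl h3
      _ = V.valuation (φB x) := mul_one _
      _ < 1 := hx
  rw [h2] at h4
  exact lt_irrefl _ h4

/-- congruent elements of `B` have the same residue. -/
theorem sub_mem_max_of_cg {B : Type*} [CommRing B] [IsLocalRing B] (φB : B →+* F)
    (V : ValuationSubring F) (hB : ∀ b : B, φB b ∈ V) {x y : B}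
    (h : Cg V (φB x) (φB y)) : x - y ∈ IsLocalRing.maximalIdeal B := by
  apply mem_max_of_val_lt φB V hB
  rw [map_sub]
  exact h

theorem res_eq_of_cg {B : Type*} [CommRing B] [IsLocalRing B] (φB : B →+* F)
    (V : ValuationSubring F) (hB : ∀ b : B, φB b ∈ V) {x y : B}
    (h : Cg V (φB x) (φB y)) : IsLocalRing.residue B x = IsLocalRing.residue B y := by
  have := sub_mem_max_of_cg φB V hB h
  rw [← sub_eq_zero, ← map_sub]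
  exact (IsLocalRing.residue_eq_zero_iff _).mpr this

end Extra

section Consts

variable {F F' : Type*} [Field F] [Field F']

/-- the norm of a nonzero element is nonzero (multiplicativity only). -/
theorem nm_ne_zero (Nm : F →* F') {x : F} (hx : x ≠ 0) : Nm x ≠ 0 := by
  intro h0
  have h1 : Nm x * Nm x⁻¹ = 1 := by rw [← map_mul, mul_inv_cancel₀ hx, map_one]
  rw [h0, zero_mul] at h1
  exact zero_ne_one h1

theorem nm_inv (Nm : F →* F') {x : F} (hx : x ≠ 0) : Nm x⁻¹ = (Nm x)⁻¹ := by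
  have h1 : Nm x * Nm x⁻¹ = 1 := by rw [← map_mul, mul_inv_cancel₀ hx, map_one]
  exact eq_inv_of_mul_eq_one_right h1

theorem nm_div (Nm : F →* F') (x : F) {y : F} (hy : y ≠ 0) : Nm (x / y) = Nm x / Nm y := by
  rw [div_eq_mul_inv, map_mul, nm_inv Nm hy, div_eq_mul_inv]

/-- **constants at the place with two places above** (`V₁, V₃ | V₁'`): if `v ≡ 1` at `V₁`
and `V₃` and `Nm v = Gⁿ`, then `G ≡ ζ'^a` at `V₁'`. -/
theorem h17t3_const_two (φ : F' →+* F) (Nm : F →* F') (V₁ V₃ : ValuationSubring F)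
    (V₁' : ValuationSubring F') (q n : ℕ) (hn : 0 < n)
    (hφ₁ : ∀ x : F', V₁.valuation (φ x) < 1 → V₁'.valuation x < 1)
    (hN₁ : ∀ x : F, V₁.valuation x = 1 → V₃.valuation x = 1 → ∀ a : F', a ∈ V₁' →
      Cg V₃ x (φ a) → Cg V₁ (φ (Nm x)) (x * φ a ^ (q - 1)))
    (ζ' : F') (hζ' : IsPrimitiveRoot ζ' n)
    (v : F) (G : F') (hNv : Nm v = G ^ n)
    (hv₁ : Cg V₁ v 1) (hv₃ : Cg V₃ v 1) :
    ∃ a : ℕ, a < n ∧ Cg V₁' G (ζ' ^ a) := by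
  have hv1 : V₁.valuation v = 1 := cg_val_eq_one hv₁ (map_one _)
  have hv3 : V₃.valuation v = 1 := cg_val_eq_one hv₃ (map_one _)
  have h1 : Cg V₁ (φ (Nm v)) (v * φ 1 ^ (q - 1)) :=
    hN₁ _ hv1 hv3 1 V₁'.one_mem (by rw [map_one]; exact hv₃)
  rw [map_one, one_pow, mul_one] at h1
  have h2 : Cg V₁ (φ (Nm v)) 1 := cg_trans h1 hv₁
  have h3 : Cg V₁' (Nm v) 1 := by
    unfold Cg at h2 ⊢
    apply hφ₁
    rw [map_sub, map_one]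
    exact h2
  rw [hNv] at h3
  exact h17t3_cg_root_of_unity V₁' n hn ζ' hζ' _ h3

/-- **constants at the place with one place above** (`V₂ | V₂'`). -/
theorem h17t3_const_one (φ : F' →+* F) (Nm : F →* F') (V₂ : ValuationSubring F)
    (V₂' : ValuationSubring F') (q n : ℕ) (hn : 0 < n)
    (hφ₂ : ∀ x : F', V₂.valuation (φ x) < 1 → V₂'.valuation x < 1)
    (hN₂ : ∀ x : F, V₂.valuation x = 1 → Cg V₂ (φ (Nm x)) (x ^ q))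
    (ζ' : F') (hζ' : IsPrimitiveRoot ζ' n)
    (v : F) (G : F') (hNv : Nm v = G ^ n)
    (hv₂ : Cg V₂ v 1) :
    ∃ a : ℕ, a < n ∧ Cg V₂' G (ζ' ^ a) := by
  have hv2 : V₂.valuation v = 1 := cg_val_eq_one hv₂ (map_one _)
  have h1 : Cg V₂ (φ (Nm v)) (v ^ q) := hN₂ _ hv2
  have h1' : Cg V₂ (v ^ q) (1 ^ q) := cg_pow hv₂ V₂.one_mem q
  rw [one_pow] at h1'
  have h2 : Cg V₂ (φ (Nm v)) 1 := cg_trans h1 h1'
  have h3 : Cg V₂' (Nm v) 1 := by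
    unfold Cg at h2 ⊢
    apply hφ₂
    rw [map_sub, map_one]
    exact h2
  rw [hNv] at h3
  exact h17t3_cg_root_of_unity V₂' n hn ζ' hζ' _ h3

end Consts

section VForm

variable {F F' B : Type*} [Field F] [Field F'] [CommRing B] [IsLocalRing B]

/-- **(TOR3) the `α`-relation at one triple point, `v`-form.**
`v = φB ε · yⁿ`, `Nm v = Gⁿ`, `G ≡ κ_i` at `V_i'`, `y ≡ φB b_i` at `V_i`:
then `b₁ b₃^(q-1) k₂ ≡ b₂^q k₁ mod 𝔪_B` (`φB k_i = φ κ_i`). -/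
theorem h17t3_alpha_rel_v (φ : F' →+* F) (Nm : F →* F') (φB : B →+* F)
    (V₁ V₂ V₃ : ValuationSubring F) (V₁' V₂' : ValuationSubring F') (B' : Subring F')
    (q n : ℕ) (hn : 0 < n)
    (hB₁ : ∀ b : B, φB b ∈ V₁) (hB₂ : ∀ b : B, φB b ∈ V₂) (hB₃ : ∀ b : B, φB b ∈ V₃)
    (hB₁' : ∀ x ∈ B', x ∈ V₁') (hB₂' : ∀ x ∈ B', x ∈ V₂')
    (hφB : ∀ x ∈ B', ∃ b : B, φB b = φ x)
    (hφ₁ : ∀ x : F', V₁'.valuation x < 1 → V₁.valuation (φ x) < 1)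
    (hφ₂ : ∀ x : F', V₂'.valuation x < 1 → V₂.valuation (φ x) < 1)
    (hroot : ∀ x : F', x ^ n ∈ B' → x ∈ B')
    (hN₁ : ∀ x : F, V₁.valuation x = 1 → V₃.valuation x = 1 → ∀ a : F', a ∈ V₁' →
      Cg V₃ x (φ a) → Cg V₁ (φ (Nm x)) (x * φ a ^ (q - 1)))
    (hN₂ : ∀ x : F, V₂.valuation x = 1 → Cg V₂ (φ (Nm x)) (x ^ q))
    (hT2 : ∀ b : B, ∃ b' ∈ B', Cg V₃ (φB b) (φ b'))
    (y : F) (ε : B) (G κ₁ κ₂ : F') (hy : y ≠ 0)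
    (hNεi : (Nm (φB ε))⁻¹ ∈ B')
    (hNv : Nm (φB ε * y ^ n) = G ^ n) (hG : G ≠ 0)
    (k₁ k₂ : B) (hk₁ : φB k₁ = φ κ₁) (hk₂ : φB k₂ = φ κ₂)
    (hG₁ : Cg V₁' G κ₁) (hG₂ : Cg V₂' G κ₂)
    (hy₁ : V₁.valuation y = 1) (hy₂ : V₂.valuation y = 1) (hy₃ : V₃.valuation y = 1)
    (b₁ b₂ b₃ : B) (hb₁ : Cg V₁ y (φB b₁)) (hb₂ : Cg V₂ y (φB b₂)) (hb₃ : Cg V₃ y (φB b₃)) :
    b₁ * b₃ ^ (q - 1) * k₂ - b₂ ^ q * k₁ ∈ IsLocalRing.maximalIdeal B := by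
  have hNy : Nm y ≠ 0 := nm_ne_zero Nm hy
  -- θ := Nm y / G, with θⁿ = (Nm ε)⁻¹
  set θ : F' := Nm y / G with hθ
  have hθn : θ ^ n = (Nm (φB ε))⁻¹ := by
    have h1 : Nm (φB ε) * Nm y ^ n = G ^ n := by rw [← hNv, map_mul, map_pow]
    have hNε : Nm (φB ε) ≠ 0 := by
      intro h0
      rw [h0, zero_mul] at h1
      exact hG (pow_eq_zero_iff hn.ne' |>.mp h1.symm)
    rw [hθ, div_pow, ← h1]
    field_simp
  have hθB : θ ∈ B' := hroot θ (by rw [hθn]; exact hNεi)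
  have hNyθ : Nm y = G * θ := by
    rw [hθ]
    field_simp
  obtain ⟨t, ht⟩ := hφB θ hθB
  -- the branch `V₃` comes from level `N'q`
  obtain ⟨b₃', hb₃', hb₃c⟩ := hT2 b₃
  obtain ⟨c₃, hc₃⟩ := hφB b₃' hb₃'
  have hc₃b₃ : IsLocalRing.residue B c₃ = IsLocalRing.residue B b₃ := by
    apply res_eq_of_cg φB V₃ hB₃
    rw [hc₃]
    exact cg_symm hb₃c
  -- first place
  have h1a : Cg V₁' (Nm y) (κ₁ * θ) := by
    rw [hNyθ]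
    exact cg_mul_right θ (hB₁' _ hθB) hG₁
  have h1b : Cg V₁ (φ (Nm y)) (φ (κ₁ * θ)) := cg_map φ hφ₁ h1a
  have h1c : Cg V₁ (φ (Nm y)) (y * φ b₃' ^ (q - 1)) :=
    hN₁ _ hy₁ hy₃ b₃' (hB₁' _ hb₃') (cg_trans hb₃ hb₃c)
  have hφb₃' : φ b₃' ∈ V₁ := by rw [← hc₃]; exact hB₁ c₃
  have h1d : Cg V₁ (y * φ b₃' ^ (q - 1)) (φB b₁ * φ b₃' ^ (q - 1)) :=
    cg_mul_right _ (V₁.pow_mem hφb₃' _) hb₁
  have h1e : Cg V₁ (φB (k₁ * t)) (φB (b₁ * c₃ ^ (q - 1))) := by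
    have := cg_trans (cg_symm h1b) (cg_trans h1c h1d)
    rw [map_mul] at this
    rw [map_mul, map_mul, map_pow, hk₁, ht, hc₃]
    exact this
  have h1f := res_eq_of_cg φB V₁ hB₁ h1e
  -- second place
  have h2a : Cg V₂' (Nm y) (κ₂ * θ) := by
    rw [hNyθ]
    exact cg_mul_right θ (hB₂' _ hθB) hG₂
  have h2b : Cg V₂ (φ (Nm y)) (φ (κ₂ * θ)) := cg_map φ hφ₂ h2a
  have h2c : Cg V₂ (φ (Nm y)) (y ^ q) := hN₂ _ hy₂
  have h2d : Cg V₂ (y ^ q) (φB b₂ ^ q) := cg_pow hb₂ (hB₂ b₂) q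
  have h2e : Cg V₂ (φB (k₂ * t)) (φB (b₂ ^ q)) := by
    have := cg_trans (cg_symm h2b) (cg_trans h2c h2d)
    rw [map_mul] at this
    rw [map_mul, map_pow, hk₂, ht]
    exact this
  have h2f := res_eq_of_cg φB V₂ hB₂ h2e
  rw [map_mul, map_mul, map_pow, hc₃b₃] at h1f
  rw [map_mul, map_pow] at h2f
  rw [← IsLocalRing.residue_eq_zero_iff, map_sub, map_mul, map_mul, map_mul, map_pow, map_pow,
    sub_eq_zero]
  calc IsLocalRing.residue B b₁ * IsLocalRing.residue B b₃ ^ (q - 1) * IsLocalRing.residue B k₂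
      = IsLocalRing.residue B k₁ * IsLocalRing.residue B t * IsLocalRing.residue B k₂ := by
        rw [h1f]
    _ = IsLocalRing.residue B k₂ * IsLocalRing.residue B t * IsLocalRing.residue B k₁ := by ring
    _ = IsLocalRing.residue B b₂ ^ q * IsLocalRing.residue B k₁ := by rw [h2f]

/-- the local hypotheses at one triple point (for one of the two degeneracy maps):
`V₁, V₃ | V₁'`, `V₂ | V₂'` via `φ`; `B'` = the local ring of the image point. -/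
structure HalfData (φ : F' →+* F) (Nm : F →* F') (φB : B →+* F)
    (V₃ : ValuationSubring F) (V₁' V₂' : ValuationSubring F') (n : ℕ) (ε : B) : Prop where
  ex : ∃ B' : Subring F', (∀ x ∈ B', x ∈ V₁') ∧ (∀ x ∈ B', x ∈ V₂') ∧
    (∀ x ∈ B', ∃ b : B, φB b = φ x) ∧ (∀ x : F', x ^ n ∈ B' → x ∈ B') ∧
    (∀ b : B, ∃ b' ∈ B', Cg V₃ (φB b) (φ b')) ∧ (Nm (φB ε))⁻¹ ∈ B'

theorem pow_pow_eq_one {M : Type*} [CommMonoid M] {x : M} {n : ℕ} (hx : x ^ n = 1) (m : ℕ) :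
    (x ^ m) ^ n = 1 := by
  rw [← pow_mul, mul_comm, pow_mul, hx, one_pow]

theorem mul_pow_eq_one {M : Type*} [CommMonoid M] {x y : M} {n : ℕ} (hx : x ^ n = 1)
    (hy : y ^ n = 1) (m q a : ℕ) : ((x ^ m) ^ q * y ^ a) ^ n = 1 := by
  rw [mul_pow, pow_pow_eq_one (pow_pow_eq_one hx m) q, pow_pow_eq_one hy a, one_mul]

/-- the residue of a root of unity is a root of unity. -/
theorem res_pow_eq_one (φB : B →+* F) {n : ℕ} {z : B} (hz : φB z ^ n = 1) :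
    IsLocalRing.residue B z ^ n = 1 := by
  have h1 : φB (z ^ n - 1) = 0 := by rw [map_sub, map_pow, hz, map_one, sub_self]
  have h2 : z ^ n - 1 ∈ IsLocalRing.maximalIdeal B := by
    rw [IsLocalRing.mem_maximalIdeal]
    intro hu
    have := hu.map φB
    rw [h1] at this
    exact not_isUnit_zero this
  have h3 := (IsLocalRing.residue_eq_zero_iff _).mpr h2
  rw [map_sub, map_pow, map_one, sub_eq_zero] at h3
  exact h3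

/-- **(TOR3) at one triple point**: the `(q²-1)`-th powers of the branch roots, corrected by
the constants `c₁ = l₁^q k₁ (l₂^q k₂)^(n-1)`, `c₂ = k₁^q l₁ (k₂^q l₂)^(n-1)`
(`k_i = zα^(a_i)`, `l_i = zβ^(m_i)`), have the common residue of `b₃^(q²-1)`. -/
theorem h17t3_point (φα φβ : F' →+* F) (Nα Nβ : F →* F') (φB : B →+* F)
    (V₁ V₂ V₃ : ValuationSubring F) (V₁' V₂' : ValuationSubring F')
    (q n : ℕ) (hq : 0 < q) (hn : 0 < n)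
    (hB₁ : ∀ b : B, φB b ∈ V₁) (hB₂ : ∀ b : B, φB b ∈ V₂) (hB₃ : ∀ b : B, φB b ∈ V₃)
    -- `α`: `V₁, V₃ | V₁'`, `V₂ | V₂'`
    (hα₁ : ∀ x : F', V₁'.valuation x < 1 → V₁.valuation (φα x) < 1)
    (hα₂ : ∀ x : F', V₂'.valuation x < 1 → V₂.valuation (φα x) < 1)
    (hNα₁ : ∀ x : F, V₁.valuation x = 1 → V₃.valuation x = 1 → ∀ a : F', a ∈ V₁' →
      Cg V₃ x (φα a) → Cg V₁ (φα (Nα x)) (x * φα a ^ (q - 1)))
    (hNα₂ : ∀ x : F, V₂.valuation x = 1 → Cg V₂ (φα (Nα x)) (x ^ q))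
    -- `β`: `V₂, V₃ | V₂'`, `V₁ | V₁'`
    (hβ₂ : ∀ x : F', V₂'.valuation x < 1 → V₂.valuation (φβ x) < 1)
    (hβ₁ : ∀ x : F', V₁'.valuation x < 1 → V₁.valuation (φβ x) < 1)
    (hNβ₂ : ∀ x : F, V₂.valuation x = 1 → V₃.valuation x = 1 → ∀ a : F', a ∈ V₂' →
      Cg V₃ x (φβ a) → Cg V₂ (φβ (Nβ x)) (x * φβ a ^ (q - 1)))
    (hNβ₁ : ∀ x : F, V₁.valuation x = 1 → Cg V₁ (φβ (Nβ x)) (x ^ q))
    -- constants
    (ζ' : F') (hζ' : ζ' ^ n = 1) (zα zβ : B) (hzα : φB zα = φα ζ') (hzβ : φB zβ = φβ ζ')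
    (v : F) (Gα Gβ : F') (hGα : Nα v = Gα ^ n) (hGβ : Nβ v = Gβ ^ n)
    (hv₁ : Cg V₁ v 1) (hv₂ : Cg V₂ v 1) (hv₃ : Cg V₃ v 1)
    (a₁ a₂ m₁ m₂ : ℕ)
    (hκ₁ : Cg V₁' Gα (ζ' ^ a₁)) (hκ₂ : Cg V₂' Gα (ζ' ^ a₂))
    (hμ₁ : Cg V₂' Gβ (ζ' ^ m₁)) (hμ₂ : Cg V₁' Gβ (ζ' ^ m₂))
    -- local data
    (y : F) (ε : B) (hv : v = φB ε * y ^ n)
    (hdα : HalfData φα Nα φB V₃ V₁' V₂' n ε) (hdβ : HalfData φβ Nβ φB V₃ V₂' V₁' n ε)
    (b₁ b₂ b₃ : B) (hb₁ : Cg V₁ y (φB b₁)) (hb₂ : Cg V₂ y (φB b₂)) (hb₃ : Cg V₃ y (φB b₃)) :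
    IsUnit b₁ ∧ IsUnit b₂ ∧ IsUnit b₃ ∧
    b₁ ^ (q ^ 2 - 1) * ((zβ ^ m₁) ^ q * zα ^ a₁ * ((zβ ^ m₂) ^ q * zα ^ a₂) ^ (n - 1))
      - b₃ ^ (q ^ 2 - 1) ∈ IsLocalRing.maximalIdeal B ∧
    b₂ ^ (q ^ 2 - 1) * ((zα ^ a₁) ^ q * zβ ^ m₁ * ((zα ^ a₂) ^ q * zβ ^ m₂) ^ (n - 1))
      - b₃ ^ (q ^ 2 - 1) ∈ IsLocalRing.maximalIdeal B := by
  have hv0 : v ≠ 0 := by
    intro h0
    have := cg_val_eq_one hv₁ (map_one _)
    rw [h0, map_zero] at this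
    exact zero_ne_one this
  have hy0 : y ≠ 0 := by
    intro h0
    rw [h0, zero_pow hn.ne', mul_zero] at hv
    exact hv0 hv
  have hGα0 : Gα ≠ 0 := by
    intro h0
    have := nm_ne_zero Nα hv0
    rw [hGα, h0, zero_pow hn.ne'] at this
    exact this rfl
  have hGβ0 : Gβ ≠ 0 := by
    intro h0
    have := nm_ne_zero Nβ hv0
    rw [hGβ, h0, zero_pow hn.ne'] at this
    exact this rfl
  -- the branch roots are units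
  have hunit : ∀ (V : ValuationSubring F) (hBV : ∀ b : B, φB b ∈ V) (b : B),
      Cg V v 1 → Cg V y (φB b) → IsUnit b ∧ V.valuation y = 1 := by
    intro V hBV b hvV hbV
    have h1 : Cg V (φB ε * y ^ n) (φB ε * φB b ^ n) :=
      cg_mul_left _ (hBV ε) (cg_pow hbV (hBV b) n)
    rw [← hv] at h1
    have h2 : Cg V (φB (ε * b ^ n)) (φB 1) := by
      rw [map_mul, map_pow, map_one]
      exact cg_trans (cg_symm h1) hvV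
    have h3 := res_eq_of_cg φB V hBV h2
    rw [map_mul, map_pow, map_one] at h3
    have h4 : IsLocalRing.residue B b ≠ 0 := by
      intro h0
      rw [h0, zero_pow hn.ne', mul_zero] at h3
      exact zero_ne_one h3
    have h5 : IsUnit b := by
      by_contra hnu
      exact h4 ((IsLocalRing.residue_eq_zero_iff _).mpr ((IsLocalRing.mem_maximalIdeal _).mpr hnu))
    refine ⟨h5, ?_⟩
    obtain ⟨w, hw⟩ := h5.exists_right_inv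
    have h6 : φB b * φB w = 1 := by rw [← map_mul, hw, map_one]
    have h7 : V.valuation (φB b) * V.valuation (φB w) = 1 := by rw [← map_mul, h6, map_one]
    have h8 : V.valuation (φB b) = 1 := by
      refine le_antisymm ((V.valuation_le_one_iff _).mpr (hBV b)) ?_
      by_contra hlt
      have hlt' : V.valuation (φB b) < 1 := not_le.mp hlt
      have : V.valuation (φB b) * V.valuation (φB w) < 1 := by
        calc V.valuation (φB b) * V.valuation (φB w) ≤ V.valuation (φB b) * 1 :=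
              mul_le_mul' le_rfl ((V.valuation_le_one_iff _).mpr (hBV w))
          _ = V.valuation (φB b) := mul_one _
          _ < 1 := hlt'
      rw [h7] at this
      exact lt_irrefl _ this
    exact cg_val_eq_one hbV h8
  obtain ⟨hu₁, hy₁⟩ := hunit V₁ hB₁ b₁ hv₁ hb₁
  obtain ⟨hu₂, hy₂⟩ := hunit V₂ hB₂ b₂ hv₂ hb₂
  obtain ⟨hu₃, hy₃⟩ := hunit V₃ hB₃ b₃ hv₃ hb₃
  refine ⟨hu₁, hu₂, hu₃, ?_⟩
  -- the two relations
  obtain ⟨Bα, hα1, hα2, hα3, hα4, hα5, hα6⟩ := hdα.ex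
  obtain ⟨Bβ, hβ1, hβ2, hβ3, hβ4, hβ5, hβ6⟩ := hdβ.ex
  have hNvα : Nα (φB ε * y ^ n) = Gα ^ n := by rw [← hv]; exact hGα
  have hNvβ : Nβ (φB ε * y ^ n) = Gβ ^ n := by rw [← hv]; exact hGβ
  have hrelα := h17t3_alpha_rel_v φα Nα φB V₁ V₂ V₃ V₁' V₂' Bα q n hn hB₁ hB₂ hB₃ hα1 hα2 hα3
    hα₁ hα₂ hα4 hNα₁ hNα₂ hα5 y ε Gα (ζ' ^ a₁) (ζ' ^ a₂) hy0 hα6 hNvα hGα0
    (zα ^ a₁) (zα ^ a₂) (by rw [map_pow, map_pow, hzα]) (by rw [map_pow, map_pow, hzα])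
    hκ₁ hκ₂ hy₁ hy₂ hy₃ b₁ b₂ b₃ hb₁ hb₂ hb₃
  have hrelβ := h17t3_alpha_rel_v φβ Nβ φB V₂ V₁ V₃ V₂' V₁' Bβ q n hn hB₂ hB₁ hB₃ hβ1 hβ2 hβ3
    hβ₂ hβ₁ hβ4 hNβ₂ hNβ₁ hβ5 y ε Gβ (ζ' ^ m₁) (ζ' ^ m₂) hy0 hβ6 hNvβ hGβ0
    (zβ ^ m₁) (zβ ^ m₂) (by rw [map_pow, map_pow, hzβ]) (by rw [map_pow, map_pow, hzβ])
    hμ₁ hμ₂ hy₂ hy₁ hy₃ b₂ b₁ b₃ hb₂ hb₁ hb₃
  -- pass to the residue field
  set r := IsLocalRing.residue B with hr
  have hrα : r b₁ * r b₃ ^ (q - 1) * r (zα ^ a₂) = r b₂ ^ q * r (zα ^ a₁) := by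
    have := (IsLocalRing.residue_eq_zero_iff _).mpr hrelα
    rw [map_sub, sub_eq_zero] at this
    simpa only [map_mul, map_pow] using this
  have hrβ : r b₂ * r b₃ ^ (q - 1) * r (zβ ^ m₂) = r b₁ ^ q * r (zβ ^ m₁) := by
    have := (IsLocalRing.residue_eq_zero_iff _).mpr hrelβ
    rw [map_sub, sub_eq_zero] at this
    simpa only [map_mul, map_pow] using this
  have hrb₁ : r b₁ ≠ 0 := by
    intro h0
    exact (IsLocalRing.mem_maximalIdeal _).mp ((IsLocalRing.residue_eq_zero_iff _).mp h0) hu₁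
  have hrb₂ : r b₂ ≠ 0 := by
    intro h0
    exact (IsLocalRing.mem_maximalIdeal _).mp ((IsLocalRing.residue_eq_zero_iff _).mp h0) hu₂
  obtain ⟨hc1, hc2⟩ := h17t3_combine q hq (r b₁) (r b₂) (r b₃) (r (zα ^ a₁)) (r (zα ^ a₂))
    (r (zβ ^ m₁)) (r (zβ ^ m₂)) hrb₁ hrb₂ hrα hrβ
  have hzαn : r zα ^ n = 1 := res_pow_eq_one φB (by rw [hzα, ← map_pow, hζ', map_one])
  have hzβn : r zβ ^ n = 1 := res_pow_eq_one φB (by rw [hzβ, ← map_pow, hζ', map_one])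
  have hn1 : n - 1 + 1 = n := Nat.sub_add_cancel hn
  have hX : (r (zβ ^ m₂) ^ q * r (zα ^ a₂)) ^ n = 1 := by
    rw [map_pow, map_pow]
    exact mul_pow_eq_one hzβn hzαn m₂ q a₂
  have hY : (r (zα ^ a₂) ^ q * r (zβ ^ m₂)) ^ n = 1 := by
    rw [map_pow, map_pow]
    exact mul_pow_eq_one hzαn hzβn a₂ q m₂
  constructor
  · rw [← IsLocalRing.residue_eq_zero_iff, map_sub, sub_eq_zero]
    simp only [map_mul, map_pow] at hc1 hX ⊢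
    calc r b₁ ^ (q ^ 2 - 1) * ((r zβ ^ m₁) ^ q * r zα ^ a₁ *
          ((r zβ ^ m₂) ^ q * r zα ^ a₂) ^ (n - 1))
        = (r b₁ ^ (q ^ 2 - 1) * ((r zβ ^ m₁) ^ q * r zα ^ a₁)) *
          ((r zβ ^ m₂) ^ q * r zα ^ a₂) ^ (n - 1) := by ring
      _ = (r b₃ ^ (q ^ 2 - 1) * ((r zβ ^ m₂) ^ q * r zα ^ a₂)) *
          ((r zβ ^ m₂) ^ q * r zα ^ a₂) ^ (n - 1) := by rw [hc1]
      _ = r b₃ ^ (q ^ 2 - 1) * ((r zβ ^ m₂) ^ q * r zα ^ a₂) ^ (n - 1 + 1) := by ring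
      _ = r b₃ ^ (q ^ 2 - 1) := by rw [hn1, hX, mul_one]
  · rw [← IsLocalRing.residue_eq_zero_iff, map_sub, sub_eq_zero]
    simp only [map_mul, map_pow] at hc2 hY ⊢
    calc r b₂ ^ (q ^ 2 - 1) * ((r zα ^ a₁) ^ q * r zβ ^ m₁ *
          ((r zα ^ a₂) ^ q * r zβ ^ m₂) ^ (n - 1))
        = (r b₂ ^ (q ^ 2 - 1) * ((r zα ^ a₁) ^ q * r zβ ^ m₁)) *
          ((r zα ^ a₂) ^ q * r zβ ^ m₂) ^ (n - 1) := by ring
      _ = (r b₃ ^ (q ^ 2 - 1) * ((r zα ^ a₂) ^ q * r zβ ^ m₂)) *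
          ((r zα ^ a₂) ^ q * r zβ ^ m₂) ^ (n - 1) := by rw [hc2]
      _ = r b₃ ^ (q ^ 2 - 1) * ((r zα ^ a₂) ^ q * r zβ ^ m₂) ^ (n - 1 + 1) := by ring
      _ = r b₃ ^ (q ^ 2 - 1) := by rw [hn1, hY, mul_one]

/-- **(TOR3), final form.**  There is ONE `e : F` with `eⁿ ≡ 1` at `V₁, V₂, V₃` such that at every
triple point (local ring `B`, `v = φB ε · yⁿ`, branch roots of `y` in `B`) the element
`y' = y^(q²-1) · e` has branch roots in `B` with a common unit residue `ρ`: exactly the hypothesis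
`hb` of `H10G3.locGlueVal_h` for `v' = v^(q²-1) · eⁿ = φB (ε^(q²-1)) · y'ⁿ`. -/
theorem h17t3_toric (φα φβ : F' →+* F) (Nα Nβ : F →* F')
    (V₁ V₂ V₃ : ValuationSubring F) (V₁' V₂' : ValuationSubring F')
    (q n : ℕ) (hq : 0 < q) (hn : 0 < n)
    (hα₁ : ∀ x : F', V₁'.valuation x < 1 ↔ V₁.valuation (φα x) < 1)
    (hα₂ : ∀ x : F', V₂'.valuation x < 1 ↔ V₂.valuation (φα x) < 1)
    (hNα₁ : ∀ x : F, V₁.valuation x = 1 → V₃.valuation x = 1 → ∀ a : F', a ∈ V₁' →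
      Cg V₃ x (φα a) → Cg V₁ (φα (Nα x)) (x * φα a ^ (q - 1)))
    (hNα₂ : ∀ x : F, V₂.valuation x = 1 → Cg V₂ (φα (Nα x)) (x ^ q))
    (hβ₂ : ∀ x : F', V₂'.valuation x < 1 ↔ V₂.valuation (φβ x) < 1)
    (hβ₁ : ∀ x : F', V₁'.valuation x < 1 ↔ V₁.valuation (φβ x) < 1)
    (hNβ₂ : ∀ x : F, V₂.valuation x = 1 → V₃.valuation x = 1 → ∀ a : F', a ∈ V₂' →
      Cg V₃ x (φβ a) → Cg V₂ (φβ (Nβ x)) (x * φβ a ^ (q - 1)))
    (hNβ₁ : ∀ x : F, V₁.valuation x = 1 → Cg V₁ (φβ (Nβ x)) (x ^ q))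
    (ζ' : F') (hζ' : IsPrimitiveRoot ζ' n)
    (t₁ t₂ : F) (h11 : Cg V₁ t₁ 1) (h12 : Cg V₂ t₁ 0) (h13 : Cg V₃ t₁ 0)
    (h21 : Cg V₁ t₂ 0) (h22 : Cg V₂ t₂ 1) (h23 : Cg V₃ t₂ 0)
    (v : F) (Gα Gβ : F') (hGα : Nα v = Gα ^ n) (hGβ : Nβ v = Gβ ^ n)
    (hv₁ : Cg V₁ v 1) (hv₂ : Cg V₂ v 1) (hv₃ : Cg V₃ v 1) :
    ∃ e : F, Cg V₁ (e ^ n) 1 ∧ Cg V₂ (e ^ n) 1 ∧ Cg V₃ (e ^ n) 1 ∧
      ∀ (B : Type*) [CommRing B] [IsLocalRing B] (φB : B →+* F) (y : F) (ε : B),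
        (∀ b : B, φB b ∈ V₁) → (∀ b : B, φB b ∈ V₂) → (∀ b : B, φB b ∈ V₃) →
        (∃ zα : B, φB zα = φα ζ') → (∃ zβ : B, φB zβ = φβ ζ') →
        v = φB ε * y ^ n →
        HalfData φα Nα φB V₃ V₁' V₂' n ε → HalfData φβ Nβ φB V₃ V₂' V₁' n ε →
        (∃ b₁ : B, Cg V₁ y (φB b₁)) → (∃ b₂ : B, Cg V₂ y (φB b₂)) →
        (∃ b₃ : B, Cg V₃ y (φB b₃)) →
        ∃ ρ : B, IsUnit ρ ∧
          (∃ b : B, V₁.valuation (y ^ (q ^ 2 - 1) * e - φB b) < 1 ∧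
            b - ρ ∈ IsLocalRing.maximalIdeal B) ∧
          (∃ b : B, V₂.valuation (y ^ (q ^ 2 - 1) * e - φB b) < 1 ∧
            b - ρ ∈ IsLocalRing.maximalIdeal B) ∧
          (∃ b : B, V₃.valuation (y ^ (q ^ 2 - 1) * e - φB b) < 1 ∧
            b - ρ ∈ IsLocalRing.maximalIdeal B) := by
  obtain ⟨a₁, -, hκ₁⟩ := h17t3_const_two φα Nα V₁ V₃ V₁' q n hn (fun x => (hα₁ x).mpr) hNα₁
    ζ' hζ' v Gα hGα hv₁ hv₃
  obtain ⟨a₂, -, hκ₂⟩ := h17t3_const_one φα Nα V₂ V₂' q n hn (fun x => (hα₂ x).mpr) hNα₂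
    ζ' hζ' v Gα hGα hv₂
  obtain ⟨m₁, -, hμ₁⟩ := h17t3_const_two φβ Nβ V₂ V₃ V₂' q n hn (fun x => (hβ₂ x).mpr) hNβ₂
    ζ' hζ' v Gβ hGβ hv₂ hv₃
  obtain ⟨m₂, -, hμ₂⟩ := h17t3_const_one φβ Nβ V₁ V₁' q n hn (fun x => (hβ₁ x).mpr) hNβ₁
    ζ' hζ' v Gβ hGβ hv₁
  have hζn : ζ' ^ n = 1 := hζ'.pow_eq_one
  have hAn : φα ζ' ^ n = 1 := by rw [← map_pow, hζn, map_one]
  have hBn : φβ ζ' ^ n = 1 := by rw [← map_pow, hζn, map_one]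
  set E₁ : F := (φβ ζ' ^ m₁) ^ q * φα ζ' ^ a₁ * ((φβ ζ' ^ m₂) ^ q * φα ζ' ^ a₂) ^ (n - 1)
    with hE₁
  set E₂ : F := (φα ζ' ^ a₁) ^ q * φβ ζ' ^ m₁ * ((φα ζ' ^ a₂) ^ q * φβ ζ' ^ m₂) ^ (n - 1)
    with hE₂
  have hE₁n : E₁ ^ n = 1 := by
    rw [hE₁, mul_pow, mul_pow_eq_one hBn hAn m₁ q a₁, one_mul,
      pow_pow_eq_one (mul_pow_eq_one hBn hAn m₂ q a₂) (n - 1)]
  have hE₂n : E₂ ^ n = 1 := by
    rw [hE₂, mul_pow, mul_pow_eq_one hAn hBn a₁ q m₁, one_mul,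
      pow_pow_eq_one (mul_pow_eq_one hAn hBn a₂ q m₂) (n - 1)]
  have hE₁V : ∀ V : ValuationSubring F, E₁ ∈ V := fun V =>
    mem_of_val_one (val_one_of_pow_eq_one V hn hE₁n)
  have hE₂V : ∀ V : ValuationSubring F, E₂ ∈ V := fun V =>
    mem_of_val_one (val_one_of_pow_eq_one V hn hE₂n)
  obtain ⟨e, he₁, he₂, he₃⟩ := h17t3_wa V₁ V₂ V₃ t₁ t₂ h11 h12 h13 h21 h22 h23 E₁ E₂
    ⟨hE₁V V₁, hE₁V V₂, hE₁V V₃⟩ ⟨hE₂V V₁, hE₂V V₂, hE₂V V₃⟩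
  refine ⟨e, ?_, ?_, ?_, ?_⟩
  · have := cg_pow he₁ (hE₁V V₁) n
    rwa [hE₁n] at this
  · have := cg_pow he₂ (hE₂V V₂) n
    rwa [hE₂n] at this
  · have := cg_pow he₃ V₃.one_mem n
    rwa [one_pow] at this
  intro B _ _ φB y ε hB₁ hB₂ hB₃ hzα hzβ hv hdα hdβ hb₁ hb₂ hb₃
  obtain ⟨zα, hzα⟩ := hzα
  obtain ⟨zβ, hzβ⟩ := hzβ
  obtain ⟨b₁, hb₁⟩ := hb₁
  obtain ⟨b₂, hb₂⟩ := hb₂
  obtain ⟨b₃, hb₃⟩ := hb₃
  obtain ⟨hu₁, hu₂, hu₃, hr₁, hr₂⟩ := h17t3_point φα φβ Nα Nβ φB V₁ V₂ V₃ V₁' V₂' q n hq hn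
    hB₁ hB₂ hB₃ (fun x => (hα₁ x).mp) (fun x => (hα₂ x).mp) hNα₁ hNα₂
    (fun x => (hβ₂ x).mp) (fun x => (hβ₁ x).mp) hNβ₂ hNβ₁ ζ' hζn zα zβ hzα hzβ v Gα Gβ hGα hGβ
    hv₁ hv₂ hv₃ a₁ a₂ m₁ m₂ hκ₁ hκ₂ hμ₁ hμ₂ y ε hv hdα hdβ b₁ b₂ b₃ hb₁ hb₂ hb₃
  refine ⟨b₃ ^ (q ^ 2 - 1), hu₃.pow _, ⟨_, ?_, hr₁⟩, ⟨_, ?_, hr₂⟩, ⟨b₃ ^ (q ^ 2 - 1), ?_, ?_⟩⟩
  · have h1 : Cg V₁ (y ^ (q ^ 2 - 1)) (φB b₁ ^ (q ^ 2 - 1)) := cg_pow hb₁ (hB₁ b₁) _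
    have h2 := cg_mul h1 he₁ (V₁.pow_mem (hB₁ b₁) _) (cg_mem he₁ (hE₁V V₁))
    have h3 : φB (b₁ ^ (q ^ 2 - 1) *
        ((zβ ^ m₁) ^ q * zα ^ a₁ * ((zβ ^ m₂) ^ q * zα ^ a₂) ^ (n - 1))) =
        φB b₁ ^ (q ^ 2 - 1) * E₁ := by
      simp only [map_mul, map_pow, hzα, hzβ, hE₁]
    rw [h3]
    exact h2
  · have h1 : Cg V₂ (y ^ (q ^ 2 - 1)) (φB b₂ ^ (q ^ 2 - 1)) := cg_pow hb₂ (hB₂ b₂) _
    have h2 := cg_mul h1 he₂ (V₂.pow_mem (hB₂ b₂) _) (cg_mem he₂ (hE₂V V₂))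
    have h3 : φB (b₂ ^ (q ^ 2 - 1) *
        ((zα ^ a₁) ^ q * zβ ^ m₁ * ((zα ^ a₂) ^ q * zβ ^ m₂) ^ (n - 1))) =
        φB b₂ ^ (q ^ 2 - 1) * E₂ := by
      simp only [map_mul, map_pow, hzα, hzβ, hE₂]
    rw [h3]
    exact h2
  · have h1 : Cg V₃ (y ^ (q ^ 2 - 1)) (φB b₃ ^ (q ^ 2 - 1)) := cg_pow hb₃ (hB₃ b₃) _
    have h2 := cg_mul h1 he₃ (V₃.pow_mem (hB₃ b₃) _) (cg_mem he₃ V₃.one_mem)
    rw [mul_one] at h2
    rw [map_pow]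
    exact h2
  · rw [sub_self]
    exact Ideal.zero_mem _

/-- the modified `v' = v^T · eⁿ` is still `≡ 1`. -/
theorem h17t3_v' (V : ValuationSubring F) (v e : F) (n T : ℕ) (hv : Cg V v 1)
    (he : Cg V (e ^ n) 1) : Cg V (v ^ T * e ^ n) 1 := by
  have h1 : Cg V (v ^ T) (1 ^ T) := cg_pow hv V.one_mem T
  rw [one_pow] at h1
  have h2 := cg_mul h1 he V.one_mem (cg_mem he V.one_mem)
  rwa [mul_one] at h2

/-- the local factorisation of `v' = v^T · eⁿ`. -/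
theorem h17t3_v'_eq (φB : B →+* F) (v y e : F) (ε : B) (n T : ℕ) (hv : v = φB ε * y ^ n) :
    v ^ T * e ^ n = φB (ε ^ T) * (y ^ T * e) ^ n := by
  rw [hv, map_pow]
  ring

/-- single-branch points: the branch root of `y^T · e`. -/
theorem h17t3_single (φB : B →+* F) (V : ValuationSubring F) (hB : ∀ b : B, φB b ∈ V)
    (y e : F) (T : ℕ) (b c : B) (hb : Cg V y (φB b)) (hc : Cg V e (φB c)) :
    V.valuation (y ^ T * e - φB (b ^ T * c)) < 1 := by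
  have h1 : Cg V (y ^ T) (φB b ^ T) := cg_pow hb (hB b) T
  have h2 := cg_mul h1 hc (V.pow_mem (hB b) _) (cg_mem hc (hB c))
  rw [map_mul, map_pow]
  exact h2

end VForm

end H17T3
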