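/-
helper17: item 86 (S36, Carayol), slice (TOR3) — FULL form: triple points AND one-branch points,
with the SAME global correction `e`; + weak approximation from three separating elements.
Mathlib only (on top of `Tor3V_helper17`).

* `h17t3_wa_of_sep` : `f_i ∈ 𝔪(V_i)`, `f_i` a unit at `V_j` (`j ≠ i`) ⟹ the elements
  `t₁ = f₂ f₃ / (f₂ f₃ + f₁)`, `t₂ = f₁ f₃ / (f₁ f₃ + f₂)` needed by `h17t3_toric`;
* `h17t3_toric_full` : as `h17t3_toric`, plus: at every closed point with exactly one branch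
  `V ∈ {V₁, V₂, V₃}` the element `y^(q²-1) · e` has a branch root in `B` (unit residue).
-/
import Mathlib
import Fermat.Agent.S36.Tor3V_helper17

set_option autoImplicit false
set_option linter.unusedSectionVars false

namespace H17T3

section Sep

variable {F : Type*} [Field F]

/-- `s / (s + f) ≡ 1` where `s` is a unit and `f` is small. -/
theorem cg_quot_one {V : ValuationSubring F} {s f : F} (hs : V.valuation s = 1)
    (hf : V.valuation f < 1) : Cg V (s / (s + f)) 1 := by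
  have hsf : V.valuation (s + f) = 1 := by
    rw [Valuation.map_add_eq_of_lt_left _ (by rw [hs]; exact hf), hs]
  have hsf0 : s + f ≠ 0 := by
    intro h0
    rw [h0, map_zero] at hsf
    exact zero_ne_one hsf
  unfold Cg
  have h1 : s / (s + f) - 1 = -f / (s + f) := by
    field_simp
    ring
  rw [h1, map_div₀, hsf, div_one, Valuation.map_neg]
  exact hf

/-- `s / (s + f) ≡ 0` where `s` is small and `f` is a unit. -/
theorem cg_quot_zero {V : ValuationSubring F} {s f : F} (hs : V.valuation s < 1)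
    (hf : V.valuation f = 1) : Cg V (s / (s + f)) 0 := by
  have hsf : V.valuation (s + f) = 1 := by
    rw [Valuation.map_add_eq_of_lt_right _ (by rw [hf]; exact hs), hf]
  unfold Cg
  rw [sub_zero, map_div₀, hsf, div_one]
  exact hs

theorem val_mul_lt_one {V : ValuationSubring F} {x y : F} (hx : V.valuation x < 1)
    (hy : V.valuation y ≤ 1) : V.valuation (x * y) < 1 := by
  rw [map_mul]
  calc V.valuation x * V.valuation y ≤ V.valuation x * 1 := mul_le_mul' le_rfl hy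
    _ = V.valuation x := mul_one _
    _ < 1 := hx

/-- **weak approximation from three separating elements**. -/
theorem h17t3_wa_of_sep (V₁ V₂ V₃ : ValuationSubring F) (f₁ f₂ f₃ : F)
    (h11 : V₁.valuation f₁ < 1) (h12 : V₂.valuation f₁ = 1) (h13 : V₃.valuation f₁ = 1)
    (h21 : V₁.valuation f₂ = 1) (h22 : V₂.valuation f₂ < 1) (h23 : V₃.valuation f₂ = 1)
    (h31 : V₁.valuation f₃ = 1) (h32 : V₂.valuation f₃ = 1) (h33 : V₃.valuation f₃ < 1) :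
    ∃ t₁ t₂ : F, Cg V₁ t₁ 1 ∧ Cg V₂ t₁ 0 ∧ Cg V₃ t₁ 0 ∧ Cg V₁ t₂ 0 ∧ Cg V₂ t₂ 1 ∧ Cg V₃ t₂ 0 := by
  refine ⟨f₂ * f₃ / (f₂ * f₃ + f₁), f₁ * f₃ / (f₁ * f₃ + f₂), ?_, ?_, ?_, ?_, ?_, ?_⟩
  · exact cg_quot_one (by rw [map_mul, h21, h31, one_mul]) h11
  · exact cg_quot_zero (val_mul_lt_one h22 (le_of_eq h32)) h12
  · refine cg_quot_zero ?_ h13
    rw [mul_comm]
    exact val_mul_lt_one h33 (le_of_eq h23)
  · exact cg_quot_zero (val_mul_lt_one h11 (le_of_eq h31)) h21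
  · exact cg_quot_one (by rw [map_mul, h12, h32, one_mul]) h22
  · refine cg_quot_zero ?_ h23
    rw [mul_comm]
    exact val_mul_lt_one h33 (le_of_eq h13)

end Sep

section Full

variable {F F' : Type*} [Field F] [Field F']

/-- **(TOR3), full form**: one global `e`; toric data at triple points and at one-branch
points. -/
theorem h17t3_toric_full (φα φβ : F' →+* F) (Nα Nβ : F →* F')
    (V₁ V₂ V₃ : ValuationSubring F) (V₁' V₂' : ValuationSubring F')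
    (q n : ℕ) (hq : 0 < q) (hn : 0 < n)
    (hα₁ : ∀ x : F', V₁'.valuation x < 1 ↔ V₁.valuation (φα x) < 1)
    (hα₂ : ∀ x : F', V₂'.valuation x < 1 ↔ V₂.valuation (φα x) < 1)
    (hNα₁ : ∀ x : F, V₁.valuation x = 1 → V₃.valuation x = 1 → ∀ a : F', a ∈ V₁' →
      Cg V₃ x (φα a) → Cg V₁ (φα (Nα x)) (x * φα a ^ (q - 1)))
    (hNα₂ : ∀ x : F, V₂.valuation x = 1 → Cg V₂ (φα (Nα x)) (x ^ q))
    (hβ₂ : ∀ x : F', V₂'.valuation x < 1 ↔ V₂.valuation (φβ x) < 1)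
    (hβ₁ : ∀ x : F', V₁'.valuation x < 1 ↔ V₁.valuation (φβ x) < 1)
    (hNβ₂ : ∀ x : F, V₂.valuation x = 1 → V₃.valuation x = 1 → ∀ a : F', a ∈ V₂' →
      Cg V₃ x (φβ a) → Cg V₂ (φβ (Nβ x)) (x * φβ a ^ (q - 1)))
    (hNβ₁ : ∀ x : F, V₁.valuation x = 1 → Cg V₁ (φβ (Nβ x)) (x ^ q))
    (ζ' : F') (hζ' : IsPrimitiveRoot ζ' n)
    (t₁ t₂ : F) (h11 : Cg V₁ t₁ 1) (h12 : Cg V₂ t₁ 0) (h13 : Cg V₃ t₁ 0)
    (h21 : Cg V₁ t₂ 0) (h22 : Cg V₂ t₂ 1) (h23 : Cg V₃ t₂ 0)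
    (v : F) (Gα Gβ : F') (hGα : Nα v = Gα ^ n) (hGβ : Nβ v = Gβ ^ n)
    (hv₁ : Cg V₁ v 1) (hv₂ : Cg V₂ v 1) (hv₃ : Cg V₃ v 1) :
    ∃ e : F, Cg V₁ (e ^ n) 1 ∧ Cg V₂ (e ^ n) 1 ∧ Cg V₃ (e ^ n) 1 ∧
      -- triple points
      (∀ (B : Type*) [CommRing B] [IsLocalRing B] (φB : B →+* F) (y : F) (ε : B),
        (∀ b : B, φB b ∈ V₁) → (∀ b : B, φB b ∈ V₂) → (∀ b : B, φB b ∈ V₃) →
        (∃ zα : B, φB zα = φα ζ') → (∃ zβ : B, φB zβ = φβ ζ') →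
        v = φB ε * y ^ n →
        HalfData φα Nα φB V₃ V₁' V₂' n ε → HalfData φβ Nβ φB V₃ V₂' V₁' n ε →
        (∃ b₁ : B, Cg V₁ y (φB b₁)) → (∃ b₂ : B, Cg V₂ y (φB b₂)) →
        (∃ b₃ : B, Cg V₃ y (φB b₃)) →
        ∃ ρ : B, IsUnit ρ ∧
          (∃ b : B, V₁.valuation (y ^ (q ^ 2 - 1) * e - φB b) < 1 ∧
            b - ρ ∈ IsLocalRing.maximalIdeal B) ∧
          (∃ b : B, V₂.valuation (y ^ (q ^ 2 - 1) * e - φB b) < 1 ∧
            b - ρ ∈ IsLocalRing.maximalIdeal B) ∧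
          (∃ b : B, V₃.valuation (y ^ (q ^ 2 - 1) * e - φB b) < 1 ∧
            b - ρ ∈ IsLocalRing.maximalIdeal B)) ∧
      -- points with one branch `V ∈ {V₁, V₂, V₃}`
      (∀ (B : Type*) [CommRing B] [IsLocalRing B] (φB : B →+* F) (y : F) (ε : B)
        (V : ValuationSubring F), V = V₁ ∨ V = V₂ ∨ V = V₃ →
        (∀ b : B, φB b ∈ V) →
        (∃ zα : B, φB zα = φα ζ') → (∃ zβ : B, φB zβ = φβ ζ') →
        v = φB ε * y ^ n →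
        (∃ b₁ : B, Cg V y (φB b₁)) →
        ∃ ρ : B, IsUnit ρ ∧
          ∃ b : B, V.valuation (y ^ (q ^ 2 - 1) * e - φB b) < 1 ∧
            b - ρ ∈ IsLocalRing.maximalIdeal B) := by
  obtain ⟨a₁, -, hκ₁⟩ := h17t3_const_two φα Nα V₁ V₃ V₁' q n hn (fun x => (hα₁ x).mpr) hNα₁
    ζ' hζ' v Gα hGα hv₁ hv₃
  obtain ⟨a₂, -, hκ₂⟩ := h17t3_const_one φα Nα V₂ V₂' q n hn (fun x => (hα₂ x).mpr) hNα₂
    ζ' hζ' v Gα hGα hv₂
  obtain ⟨m₁, -, hμ₁⟩ := h17t3_const_two φβ Nβ V₂ V₃ V₂' q n hn (fun x => (hβ₂ x).mpr) hNβ₂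
    ζ' hζ' v Gβ hGβ hv₂ hv₃
  obtain ⟨m₂, -, hμ₂⟩ := h17t3_const_one φβ Nβ V₁ V₁' q n hn (fun x => (hβ₁ x).mpr) hNβ₁
    ζ' hζ' v Gβ hGβ hv₁
  have hζn : ζ' ^ n = 1 := hζ'.pow_eq_one
  have hAn : φα ζ' ^ n = 1 := by rw [← map_pow, hζn, map_one]
  have hBn : φβ ζ' ^ n = 1 := by rw [← map_pow, hζn, map_one]
  set E₁ : F := (φβ ζ' ^ m₁) ^ q * φα ζ' ^ a₁ * ((φβ ζ' ^ m₂) ^ q * φα ζ' ^ a₂) ^ (n - 1)
    with hE₁
  set E₂ : F := (φα ζ' ^ a₁) ^ q * φβ ζ' ^ m₁ * ((φα ζ' ^ a₂) ^ q * φβ ζ' ^ m₂) ^ (n - 1)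
    with hE₂
  have hE₁n : E₁ ^ n = 1 := by
    rw [hE₁, mul_pow, mul_pow_eq_one hBn hAn m₁ q a₁, one_mul,
      pow_pow_eq_one (mul_pow_eq_one hBn hAn m₂ q a₂) (n - 1)]
  have hE₂n : E₂ ^ n = 1 := by
    rw [hE₂, mul_pow, mul_pow_eq_one hAn hBn a₁ q m₁, one_mul,
      pow_pow_eq_one (mul_pow_eq_one hAn hBn a₂ q m₂) (n - 1)]
  have hE₁V : ∀ V : ValuationSubring F, E₁ ∈ V := fun V =>
    mem_of_val_one (val_one_of_pow_eq_one V hn hE₁n)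
  have hE₂V : ∀ V : ValuationSubring F, E₂ ∈ V := fun V =>
    mem_of_val_one (val_one_of_pow_eq_one V hn hE₂n)
  obtain ⟨e, he₁, he₂, he₃⟩ := h17t3_wa V₁ V₂ V₃ t₁ t₂ h11 h12 h13 h21 h22 h23 E₁ E₂
    ⟨hE₁V V₁, hE₁V V₂, hE₁V V₃⟩ ⟨hE₂V V₁, hE₂V V₂, hE₂V V₃⟩
  refine ⟨e, ?_, ?_, ?_, ?_, ?_⟩
  · have := cg_pow he₁ (hE₁V V₁) n
    rwa [hE₁n] at this
  · have := cg_pow he₂ (hE₂V V₂) n
    rwa [hE₂n] at this
  · have := cg_pow he₃ V₃.one_mem n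
    rwa [one_pow] at this
  · intro B _ _ φB y ε hB₁ hB₂ hB₃ hzα hzβ hv hdα hdβ hb₁ hb₂ hb₃
    obtain ⟨zα, hzα⟩ := hzα
    obtain ⟨zβ, hzβ⟩ := hzβ
    obtain ⟨b₁, hb₁⟩ := hb₁
    obtain ⟨b₂, hb₂⟩ := hb₂
    obtain ⟨b₃, hb₃⟩ := hb₃
    obtain ⟨hu₁, hu₂, hu₃, hr₁, hr₂⟩ := h17t3_point φα φβ Nα Nβ φB V₁ V₂ V₃ V₁' V₂' q n hq hn
      hB₁ hB₂ hB₃ (fun x => (hα₁ x).mp) (fun x => (hα₂ x).mp) hNα₁ hNα₂
      (fun x => (hβ₂ x).mp) (fun x => (hβ₁ x).mp) hNβ₂ hNβ₁ ζ' hζn zα zβ hzα hzβ v Gα Gβ hGα hGβ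
      hv₁ hv₂ hv₃ a₁ a₂ m₁ m₂ hκ₁ hκ₂ hμ₁ hμ₂ y ε hv hdα hdβ b₁ b₂ b₃ hb₁ hb₂ hb₃
    refine ⟨b₃ ^ (q ^ 2 - 1), hu₃.pow _, ⟨_, ?_, hr₁⟩, ⟨_, ?_, hr₂⟩, ⟨b₃ ^ (q ^ 2 - 1), ?_, ?_⟩⟩
    · have h1 : Cg V₁ (y ^ (q ^ 2 - 1)) (φB b₁ ^ (q ^ 2 - 1)) := cg_pow hb₁ (hB₁ b₁) _
      have h2 := cg_mul h1 he₁ (V₁.pow_mem (hB₁ b₁) _) (cg_mem he₁ (hE₁V V₁))
      have h3 : φB (b₁ ^ (q ^ 2 - 1) *
          ((zβ ^ m₁) ^ q * zα ^ a₁ * ((zβ ^ m₂) ^ q * zα ^ a₂) ^ (n - 1))) =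
          φB b₁ ^ (q ^ 2 - 1) * E₁ := by
        simp only [map_mul, map_pow, hzα, hzβ, hE₁]
      rw [h3]
      exact h2
    · have h1 : Cg V₂ (y ^ (q ^ 2 - 1)) (φB b₂ ^ (q ^ 2 - 1)) := cg_pow hb₂ (hB₂ b₂) _
      have h2 := cg_mul h1 he₂ (V₂.pow_mem (hB₂ b₂) _) (cg_mem he₂ (hE₂V V₂))
      have h3 : φB (b₂ ^ (q ^ 2 - 1) *
          ((zα ^ a₁) ^ q * zβ ^ m₁ * ((zα ^ a₂) ^ q * zβ ^ m₂) ^ (n - 1))) =
          φB b₂ ^ (q ^ 2 - 1) * E₂ := by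
        simp only [map_mul, map_pow, hzα, hzβ, hE₂]
      rw [h3]
      exact h2
    · have h1 : Cg V₃ (y ^ (q ^ 2 - 1)) (φB b₃ ^ (q ^ 2 - 1)) := cg_pow hb₃ (hB₃ b₃) _
      have h2 := cg_mul h1 he₃ (V₃.pow_mem (hB₃ b₃) _) (cg_mem he₃ V₃.one_mem)
      rw [mul_one] at h2
      rw [map_pow]
      exact h2
    · rw [sub_self]
      exact Ideal.zero_mem _
  · intro B _ _ φB y ε V hV hBV hzα hzβ hv hb
    obtain ⟨zα, hzα⟩ := hzα
    obtain ⟨zβ, hzβ⟩ := hzβ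
    obtain ⟨b, hb⟩ := hb
    -- the constant at `V`
    have hcV : ∃ c : B, Cg V e (φB c) ∧ IsLocalRing.residue B c ^ n = 1 := by
      have hzαn : φB zα ^ n = 1 := by rw [hzα]; exact hAn
      have hzβn : φB zβ ^ n = 1 := by rw [hzβ]; exact hBn
      rcases hV with rfl | rfl | rfl
      · refine ⟨(zβ ^ m₁) ^ q * zα ^ a₁ * ((zβ ^ m₂) ^ q * zα ^ a₂) ^ (n - 1), ?_, ?_⟩
        · have h3 : φB ((zβ ^ m₁) ^ q * zα ^ a₁ * ((zβ ^ m₂) ^ q * zα ^ a₂) ^ (n - 1)) = E₁ := by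
            simp only [map_mul, map_pow, hzα, hzβ, hE₁]
          rw [h3]
          exact he₁
        · apply res_pow_eq_one φB
          simp only [map_mul, map_pow, hzα, hzβ]
          exact hE₁n
      · refine ⟨(zα ^ a₁) ^ q * zβ ^ m₁ * ((zα ^ a₂) ^ q * zβ ^ m₂) ^ (n - 1), ?_, ?_⟩
        · have h3 : φB ((zα ^ a₁) ^ q * zβ ^ m₁ * ((zα ^ a₂) ^ q * zβ ^ m₂) ^ (n - 1)) = E₂ := by
            simp only [map_mul, map_pow, hzα, hzβ, hE₂]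
          rw [h3]
          exact he₂
        · apply res_pow_eq_one φB
          simp only [map_mul, map_pow, hzα, hzβ]
          exact hE₂n
      · refine ⟨1, ?_, ?_⟩
        · rw [map_one]
          exact he₃
        · rw [map_one, one_pow]
    obtain ⟨c, hc, hcn⟩ := hcV
    have hvV : Cg V v 1 := by
      rcases hV with rfl | rfl | rfl
      · exact hv₁
      · exact hv₂
      · exact hv₃
    -- `b` is a unit
    have hbu : IsUnit b := by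
      have h1 : Cg V (φB ε * y ^ n) (φB ε * φB b ^ n) :=
        cg_mul_left _ (hBV ε) (cg_pow hb (hBV b) n)
      rw [← hv] at h1
      have h2 : Cg V (φB (ε * b ^ n)) (φB 1) := by
        rw [map_mul, map_pow, map_one]
        exact cg_trans (cg_symm h1) hvV
      have h3 := res_eq_of_cg φB V hBV h2
      rw [map_mul, map_pow, map_one] at h3
      by_contra hnu
      have h0 : IsLocalRing.residue B b = 0 :=
        (IsLocalRing.residue_eq_zero_iff _).mpr ((IsLocalRing.mem_maximalIdeal _).mpr hnu)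
      rw [h0, zero_pow hn.ne', mul_zero] at h3
      exact zero_ne_one h3
    have hcu : IsUnit c := by
      by_contra hnu
      have h0 : IsLocalRing.residue B c = 0 :=
        (IsLocalRing.residue_eq_zero_iff _).mpr ((IsLocalRing.mem_maximalIdeal _).mpr hnu)
      rw [h0, zero_pow hn.ne'] at hcn
      exact zero_ne_one hcn
    refine ⟨b ^ (q ^ 2 - 1) * c, (hbu.pow _).mul hcu, b ^ (q ^ 2 - 1) * c, ?_, ?_⟩
    · exact h17t3_single φB V hBV y e _ b c hb hc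
    · rw [sub_self]
      exact Ideal.zero_mem _

end Full

end H17T3
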