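/-
helper17: item 86 (S36, Carayol), slice (TOR3) — version WITH CONSTANTS in the norm relations
(as asked by the architect): `Nα v = cα · Gαⁿ`, `Nβ v = cβ · Gβⁿ` with `cα, cβ ≡ 1` at `V₁'`, `V₂'`
(over the non-henselian base `R` the constants `1 + ϖ r` cannot be removed).
Mathlib only, on top of `Tor3V_helper17` / `Tor3Full_helper17`.

* `h17t3_const_two_c`, `h17t3_const_one_c`, `h17t3_alpha_rel_c`, `HalfDataC`, `h17t3_point_c`;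
* `h17t3_toric_c` : ONE global `e` (`eⁿ ≡ 1` at `V₁, V₂, V₃`); toric data (`hb`, `hρ` of
  `H10G3.locGlueVal_h`) for `y^(q²-1) · e` at triple points and at one-branch points.
-/
import Mathlib
import Fermat.Agent.S36.Tor3Full_helper17

set_option autoImplicit false
set_option linter.unusedSectionVars false
set_option linter.unusedVariables false

namespace H17T3

section ConstsC

variable {F F' : Type*} [Field F] [Field F']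

/-- **constants at the place with two places above** (`V₁, V₃ | V₁'`): if `v ≡ 1` at `V₁`
and `V₃` and `Nm v = Gⁿ`, then `G ≡ ζ'^a` at `V₁'`. -/
theorem h17t3_const_two_c (φ : F' →+* F) (Nm : F →* F') (V₁ V₃ : ValuationSubring F)
    (V₁' : ValuationSubring F') (q n : ℕ) (hn : 0 < n)
    (hφ₁ : ∀ x : F', V₁.valuation (φ x) < 1 → V₁'.valuation x < 1)
    (hN₁ : ∀ x : F, V₁.valuation x = 1 → V₃.valuation x = 1 → ∀ a : F', a ∈ V₁' →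
      Cg V₃ x (φ a) → Cg V₁ (φ (Nm x)) (x * φ a ^ (q - 1)))
    (ζ' : F') (hζ' : IsPrimitiveRoot ζ' n)
    (v : F) (G cN : F') (hNv : Nm v = cN * G ^ n) (hcN : Cg V₁' cN 1)
    (hv₁ : Cg V₁ v 1) (hv₃ : Cg V₃ v 1) :
    ∃ a : ℕ, a < n ∧ Cg V₁' G (ζ' ^ a) := by
  have hv1 : V₁.valuation v = 1 := cg_val_eq_one hv₁ (map_one _)
  have hv3 : V₃.valuation v = 1 := cg_val_eq_one hv₃ (map_one _)
  have h1 : Cg V₁ (φ (Nm v)) (v * φ 1 ^ (q - 1)) :=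
    hN₁ _ hv1 hv3 1 V₁'.one_mem (by rw [map_one]; exact hv₃)
  rw [map_one, one_pow, mul_one] at h1
  have h2 : Cg V₁ (φ (Nm v)) 1 := cg_trans h1 hv₁
  have h3 : Cg V₁' (Nm v) 1 := by
    unfold Cg at h2 ⊢
    apply hφ₁
    rw [map_sub, map_one]
    exact h2
  rw [hNv] at h3
  have hcN1 : V₁'.valuation cN = 1 := cg_val_eq_one hcN (map_one _)
  have hcN0 : cN ≠ 0 := by
    intro h0
    rw [h0, map_zero] at hcN1
    exact zero_ne_one hcN1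
  have h3' : Cg V₁' (G ^ n) 1 := by
    have h4 := cg_mul (cg_inv hcN (map_one _)) h3 (by rw [inv_one]; exact V₁'.one_mem)
      (cg_mem h3 V₁'.one_mem)
    rw [inv_one, one_mul, ← mul_assoc, inv_mul_cancel₀ hcN0, one_mul] at h4
    exact h4
  exact h17t3_cg_root_of_unity V₁' n hn ζ' hζ' _ h3'

/-- **constants at the place with one place above** (`V₂ | V₂'`). -/
theorem h17t3_const_one_c (φ : F' →+* F) (Nm : F →* F') (V₂ : ValuationSubring F)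
    (V₂' : ValuationSubring F') (q n : ℕ) (hn : 0 < n)
    (hφ₂ : ∀ x : F', V₂.valuation (φ x) < 1 → V₂'.valuation x < 1)
    (hN₂ : ∀ x : F, V₂.valuation x = 1 → Cg V₂ (φ (Nm x)) (x ^ q))
    (ζ' : F') (hζ' : IsPrimitiveRoot ζ' n)
    (v : F) (G cN : F') (hNv : Nm v = cN * G ^ n) (hcN : Cg V₂' cN 1)
    (hv₂ : Cg V₂ v 1) :
    ∃ a : ℕ, a < n ∧ Cg V₂' G (ζ' ^ a) := by
  have hv2 : V₂.valuation v = 1 := cg_val_eq_one hv₂ (map_one _)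
  have h1 : Cg V₂ (φ (Nm v)) (v ^ q) := hN₂ _ hv2
  have h1' : Cg V₂ (v ^ q) (1 ^ q) := cg_pow hv₂ V₂.one_mem q
  rw [one_pow] at h1'
  have h2 : Cg V₂ (φ (Nm v)) 1 := cg_trans h1 h1'
  have h3 : Cg V₂' (Nm v) 1 := by
    unfold Cg at h2 ⊢
    apply hφ₂
    rw [map_sub, map_one]
    exact h2
  rw [hNv] at h3
  have hcN1 : V₂'.valuation cN = 1 := cg_val_eq_one hcN (map_one _)
  have hcN0 : cN ≠ 0 := by
    intro h0
    rw [h0, map_zero] at hcN1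
    exact zero_ne_one hcN1
  have h3' : Cg V₂' (G ^ n) 1 := by
    have h4 := cg_mul (cg_inv hcN (map_one _)) h3 (by rw [inv_one]; exact V₂'.one_mem)
      (cg_mem h3 V₂'.one_mem)
    rw [inv_one, one_mul, ← mul_assoc, inv_mul_cancel₀ hcN0, one_mul] at h4
    exact h4
  exact h17t3_cg_root_of_unity V₂' n hn ζ' hζ' _ h3'

end ConstsC

section VFormC

variable {F F' B : Type*} [Field F] [Field F'] [CommRing B] [IsLocalRing B]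

/-- **(TOR3) the `α`-relation at one triple point, `v`-form.**
`v = φB ε · yⁿ`, `Nm v = Gⁿ`, `G ≡ κ_i` at `V_i'`, `y ≡ φB b_i` at `V_i`:
then `b₁ b₃^(q-1) k₂ ≡ b₂^q k₁ mod 𝔪_B` (`φB k_i = φ κ_i`). -/
theorem h17t3_alpha_rel_c (φ : F' →+* F) (Nm : F →* F') (φB : B →+* F)
    (V₁ V₂ V₃ : ValuationSubring F) (V₁' V₂' : ValuationSubring F') (B' : Subring F')
    (q n : ℕ) (hn : 0 < n)
    (hB₁ : ∀ b : B, φB b ∈ V₁) (hB₂ : ∀ b : B, φB b ∈ V₂) (hB₃ : ∀ b : B, φB b ∈ V₃)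
    (hB₁' : ∀ x ∈ B', x ∈ V₁') (hB₂' : ∀ x ∈ B', x ∈ V₂')
    (hφB : ∀ x ∈ B', ∃ b : B, φB b = φ x)
    (hφ₁ : ∀ x : F', V₁'.valuation x < 1 → V₁.valuation (φ x) < 1)
    (hφ₂ : ∀ x : F', V₂'.valuation x < 1 → V₂.valuation (φ x) < 1)
    (hroot : ∀ x : F', x ^ n ∈ B' → x ∈ B')
    (hN₁ : ∀ x : F, V₁.valuation x = 1 → V₃.valuation x = 1 → ∀ a : F', a ∈ V₁' →
      Cg V₃ x (φ a) → Cg V₁ (φ (Nm x)) (x * φ a ^ (q - 1)))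
    (hN₂ : ∀ x : F, V₂.valuation x = 1 → Cg V₂ (φ (Nm x)) (x ^ q))
    (hT2 : ∀ b : B, ∃ b' ∈ B', Cg V₃ (φB b) (φ b'))
    (y : F) (ε : B) (G κ₁ κ₂ cN : F') (hy : y ≠ 0)
    (hNεi : cN * (Nm (φB ε))⁻¹ ∈ B')
    (hNv : Nm (φB ε * y ^ n) = cN * G ^ n) (hG : G ≠ 0) (hcN0 : cN ≠ 0)
    (k₁ k₂ : B) (hk₁ : φB k₁ = φ κ₁) (hk₂ : φB k₂ = φ κ₂)
    (hG₁ : Cg V₁' G κ₁) (hG₂ : Cg V₂' G κ₂)
    (hy₁ : V₁.valuation y = 1) (hy₂ : V₂.valuation y = 1) (hy₃ : V₃.valuation y = 1)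
    (b₁ b₂ b₃ : B) (hb₁ : Cg V₁ y (φB b₁)) (hb₂ : Cg V₂ y (φB b₂)) (hb₃ : Cg V₃ y (φB b₃)) :
    b₁ * b₃ ^ (q - 1) * k₂ - b₂ ^ q * k₁ ∈ IsLocalRing.maximalIdeal B := by
  have hNy : Nm y ≠ 0 := nm_ne_zero Nm hy
  -- θ := Nm y / G, with θⁿ = (Nm ε)⁻¹
  set θ : F' := Nm y / G with hθ
  have hθn : θ ^ n = cN * (Nm (φB ε))⁻¹ := by
    have h1 : Nm (φB ε) * Nm y ^ n = cN * G ^ n := by rw [← hNv, map_mul, map_pow]
    have hNε : Nm (φB ε) ≠ 0 := by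
      intro h0
      rw [h0, zero_mul] at h1
      exact (mul_ne_zero hcN0 (pow_ne_zero n hG)) h1.symm
    have hGn : G ^ n ≠ 0 := pow_ne_zero n hG
    have h2 : Nm y ^ n = cN * G ^ n * (Nm (φB ε))⁻¹ := by
      rw [← h1]
      field_simp
    rw [hθ, div_pow, h2]
    field_simp
  have hθB : θ ∈ B' := hroot θ (by rw [hθn]; exact hNεi)
  have hNyθ : Nm y = G * θ := by
    rw [hθ]
    field_simp
  obtain ⟨t, ht⟩ := hφB θ hθB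
  -- the branch `V₃` comes from level `N'q`
  obtain ⟨b₃', hb₃', hb₃c⟩ := hT2 b₃
  obtain ⟨c₃, hc₃⟩ := hφB b₃' hb₃'
  have hc₃b₃ : IsLocalRing.residue B c₃ = IsLocalRing.residue B b₃ := by
    apply res_eq_of_cg φB V₃ hB₃
    rw [hc₃]
    exact cg_symm hb₃c
  -- first place
  have h1a : Cg V₁' (Nm y) (κ₁ * θ) := by
    rw [hNyθ]
    exact cg_mul_right θ (hB₁' _ hθB) hG₁
  have h1b : Cg V₁ (φ (Nm y)) (φ (κ₁ * θ)) := cg_map φ hφ₁ h1a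
  have h1c : Cg V₁ (φ (Nm y)) (y * φ b₃' ^ (q - 1)) :=
    hN₁ _ hy₁ hy₃ b₃' (hB₁' _ hb₃') (cg_trans hb₃ hb₃c)
  have hφb₃' : φ b₃' ∈ V₁ := by rw [← hc₃]; exact hB₁ c₃
  have h1d : Cg V₁ (y * φ b₃' ^ (q - 1)) (φB b₁ * φ b₃' ^ (q - 1)) :=
    cg_mul_right _ (V₁.pow_mem hφb₃' _) hb₁
  have h1e : Cg V₁ (φB (k₁ * t)) (φB (b₁ * c₃ ^ (q - 1))) := by
    have := cg_trans (cg_symm h1b) (cg_trans h1c h1d)
    rw [map_mul] at this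
    rw [map_mul, map_mul, map_pow, hk₁, ht, hc₃]
    exact this
  have h1f := res_eq_of_cg φB V₁ hB₁ h1e
  -- second place
  have h2a : Cg V₂' (Nm y) (κ₂ * θ) := by
    rw [hNyθ]
    exact cg_mul_right θ (hB₂' _ hθB) hG₂
  have h2b : Cg V₂ (φ (Nm y)) (φ (κ₂ * θ)) := cg_map φ hφ₂ h2a
  have h2c : Cg V₂ (φ (Nm y)) (y ^ q) := hN₂ _ hy₂
  have h2d : Cg V₂ (y ^ q) (φB b₂ ^ q) := cg_pow hb₂ (hB₂ b₂) q
  have h2e : Cg V₂ (φB (k₂ * t)) (φB (b₂ ^ q)) := by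
    have := cg_trans (cg_symm h2b) (cg_trans h2c h2d)
    rw [map_mul] at this
    rw [map_mul, map_pow, hk₂, ht]
    exact this
  have h2f := res_eq_of_cg φB V₂ hB₂ h2e
  rw [map_mul, map_mul, map_pow, hc₃b₃] at h1f
  rw [map_mul, map_pow] at h2f
  rw [← IsLocalRing.residue_eq_zero_iff, map_sub, map_mul, map_mul, map_mul, map_pow, map_pow,
    sub_eq_zero]
  calc IsLocalRing.residue B b₁ * IsLocalRing.residue B b₃ ^ (q - 1) * IsLocalRing.residue B k₂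
      = IsLocalRing.residue B k₁ * IsLocalRing.residue B t * IsLocalRing.residue B k₂ := by
        rw [h1f]
    _ = IsLocalRing.residue B k₂ * IsLocalRing.residue B t * IsLocalRing.residue B k₁ := by ring
    _ = IsLocalRing.residue B b₂ ^ q * IsLocalRing.residue B k₁ := by rw [h2f]

/-- the local hypotheses at one triple point (for one of the two degeneracy maps):
`V₁, V₃ | V₁'`, `V₂ | V₂'` via `φ`; `B'` = the local ring of the image point. -/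
structure HalfDataC (φ : F' →+* F) (Nm : F →* F') (φB : B →+* F)
    (V₃ : ValuationSubring F) (V₁' V₂' : ValuationSubring F') (n : ℕ) (ε : B) (cN : F') :
    Prop where
  ex : ∃ B' : Subring F', (∀ x ∈ B', x ∈ V₁') ∧ (∀ x ∈ B', x ∈ V₂') ∧
    (∀ x ∈ B', ∃ b : B, φB b = φ x) ∧ (∀ x : F', x ^ n ∈ B' → x ∈ B') ∧
    (∀ b : B, ∃ b' ∈ B', Cg V₃ (φB b) (φ b')) ∧ cN * (Nm (φB ε))⁻¹ ∈ B'

/-- **(TOR3) at one triple point**: the `(q²-1)`-th powers of the branch roots, corrected by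
the constants `c₁ = l₁^q k₁ (l₂^q k₂)^(n-1)`, `c₂ = k₁^q l₁ (k₂^q l₂)^(n-1)`
(`k_i = zα^(a_i)`, `l_i = zβ^(m_i)`), have the common residue of `b₃^(q²-1)`. -/
theorem h17t3_point_c (φα φβ : F' →+* F) (Nα Nβ : F →* F') (φB : B →+* F)
    (V₁ V₂ V₃ : ValuationSubring F) (V₁' V₂' : ValuationSubring F')
    (q n : ℕ) (hq : 0 < q) (hn : 0 < n)
    (hB₁ : ∀ b : B, φB b ∈ V₁) (hB₂ : ∀ b : B, φB b ∈ V₂) (hB₃ : ∀ b : B, φB b ∈ V₃)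
    -- `α`: `V₁, V₃ | V₁'`, `V₂ | V₂'`
    (hα₁ : ∀ x : F', V₁'.valuation x < 1 → V₁.valuation (φα x) < 1)
    (hα₂ : ∀ x : F', V₂'.valuation x < 1 → V₂.valuation (φα x) < 1)
    (hNα₁ : ∀ x : F, V₁.valuation x = 1 → V₃.valuation x = 1 → ∀ a : F', a ∈ V₁' →
      Cg V₃ x (φα a) → Cg V₁ (φα (Nα x)) (x * φα a ^ (q - 1)))
    (hNα₂ : ∀ x : F, V₂.valuation x = 1 → Cg V₂ (φα (Nα x)) (x ^ q))
    -- `β`: `V₂, V₃ | V₂'`, `V₁ | V₁'`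
    (hβ₂ : ∀ x : F', V₂'.valuation x < 1 → V₂.valuation (φβ x) < 1)
    (hβ₁ : ∀ x : F', V₁'.valuation x < 1 → V₁.valuation (φβ x) < 1)
    (hNβ₂ : ∀ x : F, V₂.valuation x = 1 → V₃.valuation x = 1 → ∀ a : F', a ∈ V₂' →
      Cg V₃ x (φβ a) → Cg V₂ (φβ (Nβ x)) (x * φβ a ^ (q - 1)))
    (hNβ₁ : ∀ x : F, V₁.valuation x = 1 → Cg V₁ (φβ (Nβ x)) (x ^ q))
    -- constants
    (ζ' : F') (hζ' : ζ' ^ n = 1) (zα zβ : B) (hzα : φB zα = φα ζ') (hzβ : φB zβ = φβ ζ')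
    (v : F) (Gα Gβ cα cβ : F') (hGα : Nα v = cα * Gα ^ n) (hGβ : Nβ v = cβ * Gβ ^ n)
    (hcα0 : cα ≠ 0) (hcβ0 : cβ ≠ 0)
    (hv₁ : Cg V₁ v 1) (hv₂ : Cg V₂ v 1) (hv₃ : Cg V₃ v 1)
    (a₁ a₂ m₁ m₂ : ℕ)
    (hκ₁ : Cg V₁' Gα (ζ' ^ a₁)) (hκ₂ : Cg V₂' Gα (ζ' ^ a₂))
    (hμ₁ : Cg V₂' Gβ (ζ' ^ m₁)) (hμ₂ : Cg V₁' Gβ (ζ' ^ m₂))
    -- local data
    (y : F) (ε : B) (hv : v = φB ε * y ^ n)
    (hdα : HalfDataC φα Nα φB V₃ V₁' V₂' n ε cα)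
    (hdβ : HalfDataC φβ Nβ φB V₃ V₂' V₁' n ε cβ)
    (b₁ b₂ b₃ : B) (hb₁ : Cg V₁ y (φB b₁)) (hb₂ : Cg V₂ y (φB b₂)) (hb₃ : Cg V₃ y (φB b₃)) :
    IsUnit b₁ ∧ IsUnit b₂ ∧ IsUnit b₃ ∧
    b₁ ^ (q ^ 2 - 1) * ((zβ ^ m₁) ^ q * zα ^ a₁ * ((zβ ^ m₂) ^ q * zα ^ a₂) ^ (n - 1))
      - b₃ ^ (q ^ 2 - 1) ∈ IsLocalRing.maximalIdeal B ∧
    b₂ ^ (q ^ 2 - 1) * ((zα ^ a₁) ^ q * zβ ^ m₁ * ((zα ^ a₂) ^ q * zβ ^ m₂) ^ (n - 1))
      - b₃ ^ (q ^ 2 - 1) ∈ IsLocalRing.maximalIdeal B := by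
  have hv0 : v ≠ 0 := by
    intro h0
    have := cg_val_eq_one hv₁ (map_one _)
    rw [h0, map_zero] at this
    exact zero_ne_one this
  have hy0 : y ≠ 0 := by
    intro h0
    rw [h0, zero_pow hn.ne', mul_zero] at hv
    exact hv0 hv
  have hGα0 : Gα ≠ 0 := by
    intro h0
    have := nm_ne_zero Nα hv0
    rw [hGα, h0, zero_pow hn.ne', mul_zero] at this
    exact this rfl
  have hGβ0 : Gβ ≠ 0 := by
    intro h0
    have := nm_ne_zero Nβ hv0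
    rw [hGβ, h0, zero_pow hn.ne', mul_zero] at this
    exact this rfl
  -- the branch roots are units
  have hunit : ∀ (V : ValuationSubring F) (hBV : ∀ b : B, φB b ∈ V) (b : B),
      Cg V v 1 → Cg V y (φB b) → IsUnit b ∧ V.valuation y = 1 := by
    intro V hBV b hvV hbV
    have h1 : Cg V (φB ε * y ^ n) (φB ε * φB b ^ n) :=
      cg_mul_left _ (hBV ε) (cg_pow hbV (hBV b) n)
    rw [← hv] at h1
    have h2 : Cg V (φB (ε * b ^ n)) (φB 1) := by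
      rw [map_mul, map_pow, map_one]
      exact cg_trans (cg_symm h1) hvV
    have h3 := res_eq_of_cg φB V hBV h2
    rw [map_mul, map_pow, map_one] at h3
    have h4 : IsLocalRing.residue B b ≠ 0 := by
      intro h0
      rw [h0, zero_pow hn.ne', mul_zero] at h3
      exact zero_ne_one h3
    have h5 : IsUnit b := by
      by_contra hnu
      exact h4 ((IsLocalRing.residue_eq_zero_iff _).mpr ((IsLocalRing.mem_maximalIdeal _).mpr hnu))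
    refine ⟨h5, ?_⟩
    obtain ⟨w, hw⟩ := h5.exists_right_inv
    have h6 : φB b * φB w = 1 := by rw [← map_mul, hw, map_one]
    have h7 : V.valuation (φB b) * V.valuation (φB w) = 1 := by rw [← map_mul, h6, map_one]
    have h8 : V.valuation (φB b) = 1 := by
      refine le_antisymm ((V.valuation_le_one_iff _).mpr (hBV b)) ?_
      by_contra hlt
      have hlt' : V.valuation (φB b) < 1 := not_le.mp hlt
      have : V.valuation (φB b) * V.valuation (φB w) < 1 := by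
        calc V.valuation (φB b) * V.valuation (φB w) ≤ V.valuation (φB b) * 1 :=
              mul_le_mul' le_rfl ((V.valuation_le_one_iff _).mpr (hBV w))
          _ = V.valuation (φB b) := mul_one _
          _ < 1 := hlt'
      rw [h7] at this
      exact lt_irrefl _ this
    exact cg_val_eq_one hbV h8
  obtain ⟨hu₁, hy₁⟩ := hunit V₁ hB₁ b₁ hv₁ hb₁
  obtain ⟨hu₂, hy₂⟩ := hunit V₂ hB₂ b₂ hv₂ hb₂
  obtain ⟨hu₃, hy₃⟩ := hunit V₃ hB₃ b₃ hv₃ hb₃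
  refine ⟨hu₁, hu₂, hu₃, ?_⟩
  -- the two relations
  obtain ⟨Bα, hα1, hα2, hα3, hα4, hα5, hα6⟩ := hdα.ex
  obtain ⟨Bβ, hβ1, hβ2, hβ3, hβ4, hβ5, hβ6⟩ := hdβ.ex
  have hNvα : Nα (φB ε * y ^ n) = cα * Gα ^ n := by rw [← hv]; exact hGα
  have hNvβ : Nβ (φB ε * y ^ n) = cβ * Gβ ^ n := by rw [← hv]; exact hGβ
  have hrelα := h17t3_alpha_rel_c φα Nα φB V₁ V₂ V₃ V₁' V₂' Bα q n hn hB₁ hB₂ hB₃ hα1 hα2 hα3
    hα₁ hα₂ hα4 hNα₁ hNα₂ hα5 y ε Gα (ζ' ^ a₁) (ζ' ^ a₂) cα hy0 hα6 hNvα hGα0 hcα0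
    (zα ^ a₁) (zα ^ a₂) (by rw [map_pow, map_pow, hzα]) (by rw [map_pow, map_pow, hzα])
    hκ₁ hκ₂ hy₁ hy₂ hy₃ b₁ b₂ b₃ hb₁ hb₂ hb₃
  have hrelβ := h17t3_alpha_rel_c φβ Nβ φB V₂ V₁ V₃ V₂' V₁' Bβ q n hn hB₂ hB₁ hB₃ hβ1 hβ2 hβ3
    hβ₂ hβ₁ hβ4 hNβ₂ hNβ₁ hβ5 y ε Gβ (ζ' ^ m₁) (ζ' ^ m₂) cβ hy0 hβ6 hNvβ hGβ0 hcβ0
    (zβ ^ m₁) (zβ ^ m₂) (by rw [map_pow, map_pow, hzβ]) (by rw [map_pow, map_pow, hzβ])
    hμ₁ hμ₂ hy₂ hy₁ hy₃ b₂ b₁ b₃ hb₂ hb₁ hb₃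
  -- pass to the residue field
  set r := IsLocalRing.residue B with hr
  have hrα : r b₁ * r b₃ ^ (q - 1) * r (zα ^ a₂) = r b₂ ^ q * r (zα ^ a₁) := by
    have := (IsLocalRing.residue_eq_zero_iff _).mpr hrelα
    rw [map_sub, sub_eq_zero] at this
    simpa only [map_mul, map_pow] using this
  have hrβ : r b₂ * r b₃ ^ (q - 1) * r (zβ ^ m₂) = r b₁ ^ q * r (zβ ^ m₁) := by
    have := (IsLocalRing.residue_eq_zero_iff _).mpr hrelβ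
    rw [map_sub, sub_eq_zero] at this
    simpa only [map_mul, map_pow] using this
  have hrb₁ : r b₁ ≠ 0 := by
    intro h0
    exact (IsLocalRing.mem_maximalIdeal _).mp ((IsLocalRing.residue_eq_zero_iff _).mp h0) hu₁
  have hrb₂ : r b₂ ≠ 0 := by
    intro h0
    exact (IsLocalRing.mem_maximalIdeal _).mp ((IsLocalRing.residue_eq_zero_iff _).mp h0) hu₂
  obtain ⟨hc1, hc2⟩ := h17t3_combine q hq (r b₁) (r b₂) (r b₃) (r (zα ^ a₁)) (r (zα ^ a₂))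
    (r (zβ ^ m₁)) (r (zβ ^ m₂)) hrb₁ hrb₂ hrα hrβ
  have hzαn : r zα ^ n = 1 := res_pow_eq_one φB (by rw [hzα, ← map_pow, hζ', map_one])
  have hzβn : r zβ ^ n = 1 := res_pow_eq_one φB (by rw [hzβ, ← map_pow, hζ', map_one])
  have hn1 : n - 1 + 1 = n := Nat.sub_add_cancel hn
  have hX : (r (zβ ^ m₂) ^ q * r (zα ^ a₂)) ^ n = 1 := by
    rw [map_pow, map_pow]
    exact mul_pow_eq_one hzβn hzαn m₂ q a₂
  have hY : (r (zα ^ a₂) ^ q * r (zβ ^ m₂)) ^ n = 1 := by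
    rw [map_pow, map_pow]
    exact mul_pow_eq_one hzαn hzβn a₂ q m₂
  constructor
  · rw [← IsLocalRing.residue_eq_zero_iff, map_sub, sub_eq_zero]
    simp only [map_mul, map_pow] at hc1 hX ⊢
    calc r b₁ ^ (q ^ 2 - 1) * ((r zβ ^ m₁) ^ q * r zα ^ a₁ *
          ((r zβ ^ m₂) ^ q * r zα ^ a₂) ^ (n - 1))
        = (r b₁ ^ (q ^ 2 - 1) * ((r zβ ^ m₁) ^ q * r zα ^ a₁)) *
          ((r zβ ^ m₂) ^ q * r zα ^ a₂) ^ (n - 1) := by ring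
      _ = (r b₃ ^ (q ^ 2 - 1) * ((r zβ ^ m₂) ^ q * r zα ^ a₂)) *
          ((r zβ ^ m₂) ^ q * r zα ^ a₂) ^ (n - 1) := by rw [hc1]
      _ = r b₃ ^ (q ^ 2 - 1) * ((r zβ ^ m₂) ^ q * r zα ^ a₂) ^ (n - 1 + 1) := by ring
      _ = r b₃ ^ (q ^ 2 - 1) := by rw [hn1, hX, mul_one]
  · rw [← IsLocalRing.residue_eq_zero_iff, map_sub, sub_eq_zero]
    simp only [map_mul, map_pow] at hc2 hY ⊢
    calc r b₂ ^ (q ^ 2 - 1) * ((r zα ^ a₁) ^ q * r zβ ^ m₁ *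
          ((r zα ^ a₂) ^ q * r zβ ^ m₂) ^ (n - 1))
        = (r b₂ ^ (q ^ 2 - 1) * ((r zα ^ a₁) ^ q * r zβ ^ m₁)) *
          ((r zα ^ a₂) ^ q * r zβ ^ m₂) ^ (n - 1) := by ring
      _ = (r b₃ ^ (q ^ 2 - 1) * ((r zα ^ a₂) ^ q * r zβ ^ m₂)) *
          ((r zα ^ a₂) ^ q * r zβ ^ m₂) ^ (n - 1) := by rw [hc2]
      _ = r b₃ ^ (q ^ 2 - 1) * ((r zα ^ a₂) ^ q * r zβ ^ m₂) ^ (n - 1 + 1) := by ring
      _ = r b₃ ^ (q ^ 2 - 1) := by rw [hn1, hY, mul_one]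

end VFormC

section FullC

variable {F F' : Type*} [Field F] [Field F']

/-- **(TOR3), full form**: one global `e`; toric data at triple points and at one-branch
points. -/
theorem h17t3_toric_c (φα φβ : F' →+* F) (Nα Nβ : F →* F')
    (V₁ V₂ V₃ : ValuationSubring F) (V₁' V₂' : ValuationSubring F')
    (q n : ℕ) (hq : 0 < q) (hn : 0 < n)
    (hα₁ : ∀ x : F', V₁'.valuation x < 1 ↔ V₁.valuation (φα x) < 1)
    (hα₂ : ∀ x : F', V₂'.valuation x < 1 ↔ V₂.valuation (φα x) < 1)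
    (hNα₁ : ∀ x : F, V₁.valuation x = 1 → V₃.valuation x = 1 → ∀ a : F', a ∈ V₁' →
      Cg V₃ x (φα a) → Cg V₁ (φα (Nα x)) (x * φα a ^ (q - 1)))
    (hNα₂ : ∀ x : F, V₂.valuation x = 1 → Cg V₂ (φα (Nα x)) (x ^ q))
    (hβ₂ : ∀ x : F', V₂'.valuation x < 1 ↔ V₂.valuation (φβ x) < 1)
    (hβ₁ : ∀ x : F', V₁'.valuation x < 1 ↔ V₁.valuation (φβ x) < 1)
    (hNβ₂ : ∀ x : F, V₂.valuation x = 1 → V₃.valuation x = 1 → ∀ a : F', a ∈ V₂' →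
      Cg V₃ x (φβ a) → Cg V₂ (φβ (Nβ x)) (x * φβ a ^ (q - 1)))
    (hNβ₁ : ∀ x : F, V₁.valuation x = 1 → Cg V₁ (φβ (Nβ x)) (x ^ q))
    (ζ' : F') (hζ' : IsPrimitiveRoot ζ' n)
    (t₁ t₂ : F) (h11 : Cg V₁ t₁ 1) (h12 : Cg V₂ t₁ 0) (h13 : Cg V₃ t₁ 0)
    (h21 : Cg V₁ t₂ 0) (h22 : Cg V₂ t₂ 1) (h23 : Cg V₃ t₂ 0)
    (v : F) (Gα Gβ cα cβ : F') (hGα : Nα v = cα * Gα ^ n) (hGβ : Nβ v = cβ * Gβ ^ n)
    (hcα₁ : Cg V₁' cα 1) (hcα₂ : Cg V₂' cα 1) (hcβ₁ : Cg V₁' cβ 1) (hcβ₂ : Cg V₂' cβ 1)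
    (hv₁ : Cg V₁ v 1) (hv₂ : Cg V₂ v 1) (hv₃ : Cg V₃ v 1) :
    ∃ e : F, Cg V₁ (e ^ n) 1 ∧ Cg V₂ (e ^ n) 1 ∧ Cg V₃ (e ^ n) 1 ∧
      -- triple points
      (∀ (B : Type*) [CommRing B] [IsLocalRing B] (φB : B →+* F) (y : F) (ε : B),
        (∀ b : B, φB b ∈ V₁) → (∀ b : B, φB b ∈ V₂) → (∀ b : B, φB b ∈ V₃) →
        (∃ zα : B, φB zα = φα ζ') → (∃ zβ : B, φB zβ = φβ ζ') →
        v = φB ε * y ^ n →
        HalfDataC φα Nα φB V₃ V₁' V₂' n ε cα → HalfDataC φβ Nβ φB V₃ V₂' V₁' n ε cβ →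
        (∃ b₁ : B, Cg V₁ y (φB b₁)) → (∃ b₂ : B, Cg V₂ y (φB b₂)) →
        (∃ b₃ : B, Cg V₃ y (φB b₃)) →
        ∃ ρ : B, IsUnit ρ ∧
          (∃ b : B, V₁.valuation (y ^ (q ^ 2 - 1) * e - φB b) < 1 ∧
            b - ρ ∈ IsLocalRing.maximalIdeal B) ∧
          (∃ b : B, V₂.valuation (y ^ (q ^ 2 - 1) * e - φB b) < 1 ∧
            b - ρ ∈ IsLocalRing.maximalIdeal B) ∧
          (∃ b : B, V₃.valuation (y ^ (q ^ 2 - 1) * e - φB b) < 1 ∧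
            b - ρ ∈ IsLocalRing.maximalIdeal B)) ∧
      -- points with one branch `V ∈ {V₁, V₂, V₃}`
      (∀ (B : Type*) [CommRing B] [IsLocalRing B] (φB : B →+* F) (y : F) (ε : B)
        (V : ValuationSubring F), V = V₁ ∨ V = V₂ ∨ V = V₃ →
        (∀ b : B, φB b ∈ V) →
        (∃ zα : B, φB zα = φα ζ') → (∃ zβ : B, φB zβ = φβ ζ') →
        v = φB ε * y ^ n →
        (∃ b₁ : B, Cg V y (φB b₁)) →
        ∃ ρ : B, IsUnit ρ ∧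
          ∃ b : B, V.valuation (y ^ (q ^ 2 - 1) * e - φB b) < 1 ∧
            b - ρ ∈ IsLocalRing.maximalIdeal B) := by
  have hcα0 : cα ≠ 0 := by
    intro h0
    have := cg_val_eq_one hcα₁ (map_one _)
    rw [h0, map_zero] at this
    exact zero_ne_one this
  have hcβ0 : cβ ≠ 0 := by
    intro h0
    have := cg_val_eq_one hcβ₁ (map_one _)
    rw [h0, map_zero] at this
    exact zero_ne_one this
  obtain ⟨a₁, -, hκ₁⟩ := h17t3_const_two_c φα Nα V₁ V₃ V₁' q n hn (fun x => (hα₁ x).mpr) hNα₁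
    ζ' hζ' v Gα cα hGα hcα₁ hv₁ hv₃
  obtain ⟨a₂, -, hκ₂⟩ := h17t3_const_one_c φα Nα V₂ V₂' q n hn (fun x => (hα₂ x).mpr) hNα₂
    ζ' hζ' v Gα cα hGα hcα₂ hv₂
  obtain ⟨m₁, -, hμ₁⟩ := h17t3_const_two_c φβ Nβ V₂ V₃ V₂' q n hn (fun x => (hβ₂ x).mpr) hNβ₂
    ζ' hζ' v Gβ cβ hGβ hcβ₂ hv₂ hv₃
  obtain ⟨m₂, -, hμ₂⟩ := h17t3_const_one_c φβ Nβ V₁ V₁' q n hn (fun x => (hβ₁ x).mpr) hNβ₁
    ζ' hζ' v Gβ cβ hGβ hcβ₁ hv₁
  have hζn : ζ' ^ n = 1 := hζ'.pow_eq_one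
  have hAn : φα ζ' ^ n = 1 := by rw [← map_pow, hζn, map_one]
  have hBn : φβ ζ' ^ n = 1 := by rw [← map_pow, hζn, map_one]
  set E₁ : F := (φβ ζ' ^ m₁) ^ q * φα ζ' ^ a₁ * ((φβ ζ' ^ m₂) ^ q * φα ζ' ^ a₂) ^ (n - 1)
    with hE₁
  set E₂ : F := (φα ζ' ^ a₁) ^ q * φβ ζ' ^ m₁ * ((φα ζ' ^ a₂) ^ q * φβ ζ' ^ m₂) ^ (n - 1)
    with hE₂
  have hE₁n : E₁ ^ n = 1 := by
    rw [hE₁, mul_pow, mul_pow_eq_one hBn hAn m₁ q a₁, one_mul,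
      pow_pow_eq_one (mul_pow_eq_one hBn hAn m₂ q a₂) (n - 1)]
  have hE₂n : E₂ ^ n = 1 := by
    rw [hE₂, mul_pow, mul_pow_eq_one hAn hBn a₁ q m₁, one_mul,
      pow_pow_eq_one (mul_pow_eq_one hAn hBn a₂ q m₂) (n - 1)]
  have hE₁V : ∀ V : ValuationSubring F, E₁ ∈ V := fun V =>
    mem_of_val_one (val_one_of_pow_eq_one V hn hE₁n)
  have hE₂V : ∀ V : ValuationSubring F, E₂ ∈ V := fun V =>
    mem_of_val_one (val_one_of_pow_eq_one V hn hE₂n)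
  obtain ⟨e, he₁, he₂, he₃⟩ := h17t3_wa V₁ V₂ V₃ t₁ t₂ h11 h12 h13 h21 h22 h23 E₁ E₂
    ⟨hE₁V V₁, hE₁V V₂, hE₁V V₃⟩ ⟨hE₂V V₁, hE₂V V₂, hE₂V V₃⟩
  refine ⟨e, ?_, ?_, ?_, ?_, ?_⟩
  · have := cg_pow he₁ (hE₁V V₁) n
    rwa [hE₁n] at this
  · have := cg_pow he₂ (hE₂V V₂) n
    rwa [hE₂n] at this
  · have := cg_pow he₃ V₃.one_mem n
    rwa [one_pow] at this
  · intro B _ _ φB y ε hB₁ hB₂ hB₃ hzα hzβ hv hdα hdβ hb₁ hb₂ hb₃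
    obtain ⟨zα, hzα⟩ := hzα
    obtain ⟨zβ, hzβ⟩ := hzβ
    obtain ⟨b₁, hb₁⟩ := hb₁
    obtain ⟨b₂, hb₂⟩ := hb₂
    obtain ⟨b₃, hb₃⟩ := hb₃
    obtain ⟨hu₁, hu₂, hu₃, hr₁, hr₂⟩ := h17t3_point_c φα φβ Nα Nβ φB V₁ V₂ V₃ V₁' V₂' q n hq hn
      hB₁ hB₂ hB₃ (fun x => (hα₁ x).mp) (fun x => (hα₂ x).mp) hNα₁ hNα₂
      (fun x => (hβ₂ x).mp) (fun x => (hβ₁ x).mp) hNβ₂ hNβ₁ ζ' hζn zα zβ hzα hzβ v Gα Gβ cα cβ hGα hGβ hcα0 hcβ0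
      hv₁ hv₂ hv₃ a₁ a₂ m₁ m₂ hκ₁ hκ₂ hμ₁ hμ₂ y ε hv hdα hdβ b₁ b₂ b₃ hb₁ hb₂ hb₃
    refine ⟨b₃ ^ (q ^ 2 - 1), hu₃.pow _, ⟨_, ?_, hr₁⟩, ⟨_, ?_, hr₂⟩, ⟨b₃ ^ (q ^ 2 - 1), ?_, ?_⟩⟩
    · have h1 : Cg V₁ (y ^ (q ^ 2 - 1)) (φB b₁ ^ (q ^ 2 - 1)) := cg_pow hb₁ (hB₁ b₁) _
      have h2 := cg_mul h1 he₁ (V₁.pow_mem (hB₁ b₁) _) (cg_mem he₁ (hE₁V V₁))
      have h3 : φB (b₁ ^ (q ^ 2 - 1) *
          ((zβ ^ m₁) ^ q * zα ^ a₁ * ((zβ ^ m₂) ^ q * zα ^ a₂) ^ (n - 1))) =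
          φB b₁ ^ (q ^ 2 - 1) * E₁ := by
        simp only [map_mul, map_pow, hzα, hzβ, hE₁]
      rw [h3]
      exact h2
    · have h1 : Cg V₂ (y ^ (q ^ 2 - 1)) (φB b₂ ^ (q ^ 2 - 1)) := cg_pow hb₂ (hB₂ b₂) _
      have h2 := cg_mul h1 he₂ (V₂.pow_mem (hB₂ b₂) _) (cg_mem he₂ (hE₂V V₂))
      have h3 : φB (b₂ ^ (q ^ 2 - 1) *
          ((zα ^ a₁) ^ q * zβ ^ m₁ * ((zα ^ a₂) ^ q * zβ ^ m₂) ^ (n - 1))) =
          φB b₂ ^ (q ^ 2 - 1) * E₂ := by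
        simp only [map_mul, map_pow, hzα, hzβ, hE₂]
      rw [h3]
      exact h2
    · have h1 : Cg V₃ (y ^ (q ^ 2 - 1)) (φB b₃ ^ (q ^ 2 - 1)) := cg_pow hb₃ (hB₃ b₃) _
      have h2 := cg_mul h1 he₃ (V₃.pow_mem (hB₃ b₃) _) (cg_mem he₃ V₃.one_mem)
      rw [mul_one] at h2
      rw [map_pow]
      exact h2
    · rw [sub_self]
      exact Ideal.zero_mem _
  · intro B _ _ φB y ε V hV hBV hzα hzβ hv hb
    obtain ⟨zα, hzα⟩ := hzα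
    obtain ⟨zβ, hzβ⟩ := hzβ
    obtain ⟨b, hb⟩ := hb
    -- the constant at `V`
    have hcV : ∃ c : B, Cg V e (φB c) ∧ IsLocalRing.residue B c ^ n = 1 := by
      have hzαn : φB zα ^ n = 1 := by rw [hzα]; exact hAn
      have hzβn : φB zβ ^ n = 1 := by rw [hzβ]; exact hBn
      rcases hV with rfl | rfl | rfl
      · refine ⟨(zβ ^ m₁) ^ q * zα ^ a₁ * ((zβ ^ m₂) ^ q * zα ^ a₂) ^ (n - 1), ?_, ?_⟩
        · have h3 : φB ((zβ ^ m₁) ^ q * zα ^ a₁ * ((zβ ^ m₂) ^ q * zα ^ a₂) ^ (n - 1)) = E₁ := by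
            simp only [map_mul, map_pow, hzα, hzβ, hE₁]
          rw [h3]
          exact he₁
        · apply res_pow_eq_one φB
          simp only [map_mul, map_pow, hzα, hzβ]
          exact hE₁n
      · refine ⟨(zα ^ a₁) ^ q * zβ ^ m₁ * ((zα ^ a₂) ^ q * zβ ^ m₂) ^ (n - 1), ?_, ?_⟩
        · have h3 : φB ((zα ^ a₁) ^ q * zβ ^ m₁ * ((zα ^ a₂) ^ q * zβ ^ m₂) ^ (n - 1)) = E₂ := by
            simp only [map_mul, map_pow, hzα, hzβ, hE₂]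
          rw [h3]
          exact he₂
        · apply res_pow_eq_one φB
          simp only [map_mul, map_pow, hzα, hzβ]
          exact hE₂n
      · refine ⟨1, ?_, ?_⟩
        · rw [map_one]
          exact he₃
        · rw [map_one, one_pow]
    obtain ⟨c, hc, hcn⟩ := hcV
    have hvV : Cg V v 1 := by
      rcases hV with rfl | rfl | rfl
      · exact hv₁
      · exact hv₂
      · exact hv₃
    -- `b` is a unit
    have hbu : IsUnit b := by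
      have h1 : Cg V (φB ε * y ^ n) (φB ε * φB b ^ n) :=
        cg_mul_left _ (hBV ε) (cg_pow hb (hBV b) n)
      rw [← hv] at h1
      have h2 : Cg V (φB (ε * b ^ n)) (φB 1) := by
        rw [map_mul, map_pow, map_one]
        exact cg_trans (cg_symm h1) hvV
      have h3 := res_eq_of_cg φB V hBV h2
      rw [map_mul, map_pow, map_one] at h3
      by_contra hnu
      have h0 : IsLocalRing.residue B b = 0 :=
        (IsLocalRing.residue_eq_zero_iff _).mpr ((IsLocalRing.mem_maximalIdeal _).mpr hnu)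
      rw [h0, zero_pow hn.ne', mul_zero] at h3
      exact zero_ne_one h3
    have hcu : IsUnit c := by
      by_contra hnu
      have h0 : IsLocalRing.residue B c = 0 :=
        (IsLocalRing.residue_eq_zero_iff _).mpr ((IsLocalRing.mem_maximalIdeal _).mpr hnu)
      rw [h0, zero_pow hn.ne'] at hcn
      exact zero_ne_one hcn
    refine ⟨b ^ (q ^ 2 - 1) * c, (hbu.pow _).mul hcu, b ^ (q ^ 2 - 1) * c, ?_, ?_⟩
    · exact h17t3_single φB V hBV y e _ b c hb hc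
    · rw [sub_self]
      exact Ideal.zero_mem _

end FullC

end H17T3
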