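import Mathlib
import Fermat.Agent.S36.Gen3Through_helper10
import Fermat.Agent.S36.KDMulti_helper1
import Fermat.Agent.S36.Tor3C_helper17
import Fermat.Agent.S18.Connected_helper21

/-!
# Item 86 (S36), slice (GEN3-ASM) (helper10): `v^(q²-1) ∈ Kˣ · Fˣⁿ` from
`H1G3.kdMulti` (helper1) ∘ local gluing (`H10G3`) ∘ `H17T3.h17t3_toric_c` (helper17)

Generic setting of `H1G3.KDMultiStatement` with `𝒱 = {V₁, V₂, V₃}` + the global data of (TOR3).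
Local hypotheses, at every closed point `𝔫` of the charts `t`, `t⁻¹` (`H10G3.Gen3At`):
* (L1), UNIT form: `v = ε · yⁿ`, `ε ∈ B_𝔫ˣ`;
* either all of `V₁, V₂, V₃` pass through `𝔫`, and then the cross-level data `H10G3.HalfAt`
  (chart form of `H17T3.HalfDataC`) for `α` and `β`; or at most one of them passes through `𝔫`.
Global hypothesis on the components: `M₀ / P_V` is `n`-root closed in `κ(V)` (`hBR`, both charts).
Conclusion (`H10G3.gen3_asm`): `∃ c ∈ K, g ∈ F, v ^ (q² - 1) = c · gⁿ`.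
-/

set_option autoImplicit false
set_option synthInstance.maxHeartbeats 400000
set_option linter.unusedSectionVars false
set_option linter.unusedVariables false
set_option linter.style.haveILetI false

noncomputable section

open Polynomial IntermediateField H4S34 H7S18

namespace H10G3

section Defs

variable (R : Type) [CommRing R] {F : Type} [Field F] [Algebra R F]
  {F' : Type*} [Field F']

/-- chart form of helper17's `H17T3.HalfDataC` at the point `𝔫` (`ε ∈ F`). -/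
def HalfAt (c : F) (𝔫 : Ideal (Chart R c)) (φ : F' →+* F) (Nm : F →* F')
    (V₃ : ValuationSubring F) (V₁' V₂' : ValuationSubring F') (n : ℕ) (ε : F) (cN : F') : Prop :=
  ∃ B' : Subring F', (∀ x ∈ B', x ∈ V₁') ∧ (∀ x ∈ B', x ∈ V₂') ∧
    (∀ x ∈ B', InLoc R c 𝔫 (φ x)) ∧ (∀ x : F', x ^ n ∈ B' → x ∈ B') ∧
    (∀ b : F, InLoc R c 𝔫 b → ∃ b' ∈ B', V₃.valuation (b - φ b') < 1) ∧ cN * (Nm ε)⁻¹ ∈ B'

/-- **the local package of (GEN3-ASM)** at the closed point `𝔫` of the chart `c`. -/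
def Gen3At (c : F) (𝔫 : Ideal (Chart R c)) (V₁ V₂ V₃ : ValuationSubring F)
    (φα φβ : F' →+* F) (Nα Nβ : F →* F') (V₁' V₂' : ValuationSubring F')
    (n : ℕ) (v : F) (cα cβ : F') : Prop :=
  (∃ ε y : F, y ≠ 0 ∧ ε ≠ 0 ∧ InLoc R c 𝔫 ε ∧ InLoc R c 𝔫 ε⁻¹ ∧ v = ε * y ^ n ∧
    ((Through R c 𝔫 V₁ ∧ Through R c 𝔫 V₂ ∧ Through R c 𝔫 V₃) →
      HalfAt R c 𝔫 φα Nα V₃ V₁' V₂' n ε cα ∧ HalfAt R c 𝔫 φβ Nβ V₃ V₂' V₁' n ε cβ)) ∧
  ((Through R c 𝔫 V₁ ∧ Through R c 𝔫 V₂ ∧ Through R c 𝔫 V₃) ∨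
    ∀ V : ValuationSubring F, V = V₁ ∨ V = V₂ ∨ V = V₃ →
      ∀ W : ValuationSubring F, W = V₁ ∨ W = V₂ ∨ W = V₃ →
        Through R c 𝔫 V → Through R c 𝔫 W → V = W)

end Defs

section Point

variable (R : Type) [CommRing R] [IsDomain R] [IsDiscreteValuationRing R]
  (K : Type) [Field K] [CharZero K] [Algebra R K] [IsFractionRing R K]
  {F : Type} [Field F] [Algebra K F] [Algebra R F] [IsScalarTower R K F]
  {F' : Type*} [Field F']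

section GenB

variable (c : F) (𝔫 : Ideal (Chart R c)) [h𝔫 : 𝔫.IsPrime]
  (B : Type) [CommRing B] [Algebra (Chart R c) B] [IsLocalization.AtPrime B 𝔫]
  [Algebra B F] [IsScalarTower (Chart R c) B F]

/-- chart form to `B`-form of the cross-level data. -/
theorem halfDataC_of_halfAt (φ : F' →+* F) (Nm : F →* F')
    (V₃ : ValuationSubring F) (V₁' V₂' : ValuationSubring F') (n : ℕ) (ε : F) (cN : F')
    [IsLocalRing B] (εB : B) (hεB : algebraMap B F εB = ε)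
    (h : HalfAt R c 𝔫 φ Nm V₃ V₁' V₂' n ε cN) :
    H17T3.HalfDataC φ Nm (algebraMap B F) V₃ V₁' V₂' n εB cN := by
  obtain ⟨B', a1, a2, a3, a4, a5, a6⟩ := h
  refine ⟨⟨B', a1, a2, fun x hx => ?_, a4, fun b => ?_, ?_⟩⟩
  · exact (H22BR.inLoc_iff R c 𝔫 B _).mp (a3 x hx)
  · exact a5 _ ((H22BR.inLoc_iff R c 𝔫 B _).mpr ⟨b, rfl⟩)
  · rw [hεB]; exact a6

/-- branch roots of `y` in `B`-form. -/
theorem branchRoot_B (V : ValuationSubring F)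
    (hchart : ∀ x : Chart R c, (x : F) ∈ V) (hT : Through R c 𝔫 V) (n : ℕ) (hn0 : 0 < n)
    (hBR : ∀ z : F, ∀ a : Chart R c, V.valuation (z ^ n - (a : F)) < 1 →
      ∃ d : Chart R c, V.valuation (z - (d : F)) < 1)
    (v ε y : F) (hε0 : ε ≠ 0) (hε' : InLoc R c 𝔫 ε⁻¹) (hvε : v = ε * y ^ n)
    (hv : V.valuation (v - 1) < 1) :
    ∃ b : B, H17T3.Cg V y (algebraMap B F b) := by
  have hεV : ε⁻¹ ∈ V := wire_mem R c 𝔫 V hchart hT _ hε'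
  have h1 : y ^ n - ε⁻¹ = ε⁻¹ * (v - 1) := by
    rw [hvε]
    field_simp
  have h2 : V.valuation (y ^ n - ε⁻¹) < 1 := by
    rw [h1]
    exact val_mul_lt_of_mem V hεV hv
  obtain ⟨b, hb, hb1⟩ := branchRoot R c 𝔫 V hchart hT n hn0 hBR y ε⁻¹ hε' h2
  obtain ⟨bB, hbB⟩ := (H22BR.inLoc_iff R c 𝔫 B b).mp hb
  exact ⟨bB, by unfold H17T3.Cg; rw [hbB]; exact hb1⟩

/-- the toric data at one closed point, generic `B`. -/
theorem gen3_tor [IsDomain B] [IsLocalRing B] [IsFractionRing B F]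
    (V₁ V₂ V₃ : ValuationSubring F)
    (hchart : ∀ V : ValuationSubring F, V = V₁ ∨ V = V₂ ∨ V = V₃ →
      ∀ x : Chart R c, (x : F) ∈ V)
    (φα φβ : F' →+* F) (Nα Nβ : F →* F') (V₁' V₂' : ValuationSubring F')
    (ζ' : F') (q n : ℕ) (hn0 : 0 < n) (hζ' : ζ' ^ n = 1)
    (v e : F) (cα cβ : F')
    (hv : ∀ V : ValuationSubring F, V = V₁ ∨ V = V₂ ∨ V = V₃ → V.valuation (v - 1) < 1)
    (hTri : ∀ (y : F) (ε : B),
      (∀ b : B, algebraMap B F b ∈ V₁) → (∀ b : B, algebraMap B F b ∈ V₂) →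
      (∀ b : B, algebraMap B F b ∈ V₃) →
      (∃ zα : B, algebraMap B F zα = φα ζ') → (∃ zβ : B, algebraMap B F zβ = φβ ζ') →
      v = algebraMap B F ε * y ^ n →
      H17T3.HalfDataC φα Nα (algebraMap B F) V₃ V₁' V₂' n ε cα →
      H17T3.HalfDataC φβ Nβ (algebraMap B F) V₃ V₂' V₁' n ε cβ →
      (∃ b₁ : B, H17T3.Cg V₁ y (algebraMap B F b₁)) →
      (∃ b₂ : B, H17T3.Cg V₂ y (algebraMap B F b₂)) →
      (∃ b₃ : B, H17T3.Cg V₃ y (algebraMap B F b₃)) →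
      ∃ ρ : B, IsUnit ρ ∧
        (∃ b : B, V₁.valuation (y ^ (q ^ 2 - 1) * e - algebraMap B F b) < 1 ∧
          b - ρ ∈ IsLocalRing.maximalIdeal B) ∧
        (∃ b : B, V₂.valuation (y ^ (q ^ 2 - 1) * e - algebraMap B F b) < 1 ∧
          b - ρ ∈ IsLocalRing.maximalIdeal B) ∧
        (∃ b : B, V₃.valuation (y ^ (q ^ 2 - 1) * e - algebraMap B F b) < 1 ∧
          b - ρ ∈ IsLocalRing.maximalIdeal B))
    (hOne : ∀ (y : F) (ε : B) (V : ValuationSubring F), V = V₁ ∨ V = V₂ ∨ V = V₃ →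
      (∀ b : B, algebraMap B F b ∈ V) →
      (∃ zα : B, algebraMap B F zα = φα ζ') → (∃ zβ : B, algebraMap B F zβ = φβ ζ') →
      v = algebraMap B F ε * y ^ n →
      (∃ b₁ : B, H17T3.Cg V y (algebraMap B F b₁)) →
      ∃ ρ : B, IsUnit ρ ∧
        ∃ b : B, V.valuation (y ^ (q ^ 2 - 1) * e - algebraMap B F b) < 1 ∧
          b - ρ ∈ IsLocalRing.maximalIdeal B)
    (hBR : ∀ V : ValuationSubring F, V = V₁ ∨ V = V₂ ∨ V = V₃ → ∀ z : F, ∀ a : Chart R c,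
      V.valuation (z ^ n - (a : F)) < 1 → ∃ d : Chart R c, V.valuation (z - (d : F)) < 1)
    (hne : ∃ V : ValuationSubring F, (V = V₁ ∨ V = V₂ ∨ V = V₃) ∧ Through R c 𝔫 V)
    (ε y : F) (hε0 : ε ≠ 0) (hε' : InLoc R c 𝔫 ε⁻¹) (hvε : v = ε * y ^ n)
    (εB : B) (hεB : algebraMap B F εB = ε)
    (hhalf : (Through R c 𝔫 V₁ ∧ Through R c 𝔫 V₂ ∧ Through R c 𝔫 V₃) →
      HalfAt R c 𝔫 φα Nα V₃ V₁' V₂' n ε cα ∧ HalfAt R c 𝔫 φβ Nβ V₃ V₂' V₁' n ε cβ)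
    (hcase : (Through R c 𝔫 V₁ ∧ Through R c 𝔫 V₂ ∧ Through R c 𝔫 V₃) ∨
      ∀ V : ValuationSubring F, V = V₁ ∨ V = V₂ ∨ V = V₃ →
        ∀ W : ValuationSubring F, W = V₁ ∨ W = V₂ ∨ W = V₃ →
          Through R c 𝔫 V → Through R c 𝔫 W → V = W) :
    ∃ ρ : B, IsUnit ρ ∧
      ∀ V : ValuationSubring F, V = V₁ ∨ V = V₂ ∨ V = V₃ → Through R c 𝔫 V →
        ∃ b : B, V.valuation (y ^ (q ^ 2 - 1) * e - algebraMap B F b) < 1 ∧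
          b - ρ ∈ IsLocalRing.maximalIdeal B := by
  have hvB : v = algebraMap B F εB * y ^ n := by rw [hεB]; exact hvε
  have h𝔫top : 𝔫 ≠ ⊤ := h𝔫.ne_top
  have hzα : ∃ zα : B, algebraMap B F zα = φα ζ' :=
    (H22BR.inLoc_iff R c 𝔫 B _).mp
      (inLoc_of_pow_eq_one R c 𝔫 h𝔫top n hn0 _ (by rw [← map_pow, hζ', map_one]))
  have hzβ : ∃ zβ : B, algebraMap B F zβ = φβ ζ' :=
    (H22BR.inLoc_iff R c 𝔫 B _).mp
      (inLoc_of_pow_eq_one R c 𝔫 h𝔫top n hn0 _ (by rw [← map_pow, hζ', map_one]))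
  have hBV : ∀ V : ValuationSubring F, V = V₁ ∨ V = V₂ ∨ V = V₃ → Through R c 𝔫 V →
      ∀ b : B, algebraMap B F b ∈ V := fun V hV hT b =>
    wire_mem R c 𝔫 V (hchart V hV) hT _ ((H22BR.inLoc_iff R c 𝔫 B _).mpr ⟨b, rfl⟩)
  have hroot : ∀ V : ValuationSubring F, V = V₁ ∨ V = V₂ ∨ V = V₃ → Through R c 𝔫 V →
      ∃ b : B, H17T3.Cg V y (algebraMap B F b) := fun V hV hT =>
    branchRoot_B R c 𝔫 B V (hchart V hV) hT n hn0 (hBR V hV) v ε y hε0 hε' hvε (hv V hV)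
  rcases hcase with ⟨hT₁, hT₂, hT₃⟩ | hone
  · obtain ⟨hα, hβ⟩ := hhalf ⟨hT₁, hT₂, hT₃⟩
    obtain ⟨ρ, hρ, d1, d2, d3⟩ := hTri y εB (hBV V₁ (Or.inl rfl) hT₁)
      (hBV V₂ (Or.inr (Or.inl rfl)) hT₂) (hBV V₃ (Or.inr (Or.inr rfl)) hT₃) hzα hzβ hvB
      (halfDataC_of_halfAt R c 𝔫 B φα Nα V₃ V₁' V₂' n ε cα εB hεB hα)
      (halfDataC_of_halfAt R c 𝔫 B φβ Nβ V₃ V₂' V₁' n ε cβ εB hεB hβ)
      (hroot V₁ (Or.inl rfl) hT₁) (hroot V₂ (Or.inr (Or.inl rfl)) hT₂)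
      (hroot V₃ (Or.inr (Or.inr rfl)) hT₃)
    refine ⟨ρ, hρ, fun V hV _ => ?_⟩
    rcases hV with h | h | h
    · rw [h]; exact d1
    · rw [h]; exact d2
    · rw [h]; exact d3
  · obtain ⟨V, hV, hT⟩ := hne
    obtain ⟨ρ, hρ, b, hb⟩ := hOne y εB V hV (hBV V hV hT) hzα hzβ hvB (hroot V hV hT)
    refine ⟨ρ, hρ, fun W hW hWT => ?_⟩
    have hWV : W = V := hone W hW V hV hWT hT
    rw [hWV]
    exact ⟨b, hb⟩

include K in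
/-- **(GEN3-ASM) at one closed point**, generic `B`. -/
theorem gen3_point_gen [IsDomain B] [IsLocalRing B] [IsFractionRing B F]
    (ϖ : R) (hϖ0 : ϖ ≠ 0) (V₁ V₂ V₃ : ValuationSubring F)
    (hDVR : ∀ V : ValuationSubring F, V = V₁ ∨ V = V₂ ∨ V = V₃ → IsDiscreteValuationRing V)
    (hchart : ∀ V : ValuationSubring F, V = V₁ ∨ V = V₂ ∨ V = V₃ →
      ∀ x : Chart R c, (x : F) ∈ V)
    (hϖV : ∀ V : ValuationSubring F, V = V₁ ∨ V = V₂ ∨ V = V₃ →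
      V.valuation (algebraMap R F ϖ) < 1)
    (φα φβ : F' →+* F) (Nα Nβ : F →* F') (V₁' V₂' : ValuationSubring F')
    (ζ' : F') (q n : ℕ) (hn0 : 0 < n) (hn : IsUnit (n : R)) (hζ' : ζ' ^ n = 1)
    (v e : F) (cα cβ : F')
    (hv : ∀ V : ValuationSubring F, V = V₁ ∨ V = V₂ ∨ V = V₃ → V.valuation (v - 1) < 1)
    (he : ∀ V : ValuationSubring F, V = V₁ ∨ V = V₂ ∨ V = V₃ →
      V.valuation (e ^ n - 1) < 1)
    (hTri : ∀ (y : F) (ε : B),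
      (∀ b : B, algebraMap B F b ∈ V₁) → (∀ b : B, algebraMap B F b ∈ V₂) →
      (∀ b : B, algebraMap B F b ∈ V₃) →
      (∃ zα : B, algebraMap B F zα = φα ζ') → (∃ zβ : B, algebraMap B F zβ = φβ ζ') →
      v = algebraMap B F ε * y ^ n →
      H17T3.HalfDataC φα Nα (algebraMap B F) V₃ V₁' V₂' n ε cα →
      H17T3.HalfDataC φβ Nβ (algebraMap B F) V₃ V₂' V₁' n ε cβ →
      (∃ b₁ : B, H17T3.Cg V₁ y (algebraMap B F b₁)) →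
      (∃ b₂ : B, H17T3.Cg V₂ y (algebraMap B F b₂)) →
      (∃ b₃ : B, H17T3.Cg V₃ y (algebraMap B F b₃)) →
      ∃ ρ : B, IsUnit ρ ∧
        (∃ b : B, V₁.valuation (y ^ (q ^ 2 - 1) * e - algebraMap B F b) < 1 ∧
          b - ρ ∈ IsLocalRing.maximalIdeal B) ∧
        (∃ b : B, V₂.valuation (y ^ (q ^ 2 - 1) * e - algebraMap B F b) < 1 ∧
          b - ρ ∈ IsLocalRing.maximalIdeal B) ∧
        (∃ b : B, V₃.valuation (y ^ (q ^ 2 - 1) * e - algebraMap B F b) < 1 ∧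
          b - ρ ∈ IsLocalRing.maximalIdeal B))
    (hOne : ∀ (y : F) (ε : B) (V : ValuationSubring F), V = V₁ ∨ V = V₂ ∨ V = V₃ →
      (∀ b : B, algebraMap B F b ∈ V) →
      (∃ zα : B, algebraMap B F zα = φα ζ') → (∃ zβ : B, algebraMap B F zβ = φβ ζ') →
      v = algebraMap B F ε * y ^ n →
      (∃ b₁ : B, H17T3.Cg V y (algebraMap B F b₁)) →
      ∃ ρ : B, IsUnit ρ ∧
        ∃ b : B, V.valuation (y ^ (q ^ 2 - 1) * e - algebraMap B F b) < 1 ∧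
          b - ρ ∈ IsLocalRing.maximalIdeal B)
    (hBR : ∀ V : ValuationSubring F, V = V₁ ∨ V = V₂ ∨ V = V₃ → ∀ z : F, ∀ a : Chart R c,
      V.valuation (z ^ n - (a : F)) < 1 → ∃ d : Chart R c, V.valuation (z - (d : F)) < 1)
    (hne : ∃ V : ValuationSubring F, (V = V₁ ∨ V = V₂ ∨ V = V₃) ∧ Through R c 𝔫 V)
    (hloc : Gen3At R c 𝔫 V₁ V₂ V₃ φα φβ Nα Nβ V₁' V₂' n v cα cβ) :
    ∃ h : F, (∀ V : ValuationSubring F, V = V₁ ∨ V = V₂ ∨ V = V₃ →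
        V.valuation (h - 1) < 1) ∧
      InLoc R c 𝔫 (v ^ (q ^ 2 - 1) * e ^ n * h ^ n) := by
  classical
  have hφ : Function.Injective (algebraMap B F) := IsFractionRing.injective B F
  obtain ⟨⟨ε, y, hy0, hε0, hε, hε', hvε, hhalf⟩, hcase⟩ := hloc
  obtain ⟨εB, hεu, hεB⟩ := wire_unit R c 𝔫 B hφ ε hε hε' hε0
  have hvB : v = algebraMap B F εB * y ^ n := by rw [hεB]; exact hvε
  obtain ⟨ρ, hρ, hbB⟩ := gen3_tor R c 𝔫 B V₁ V₂ V₃ hchart φα φβ Nα Nβ V₁' V₂' ζ' q n hn0 hζ'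
    v e cα cβ hv hTri hOne hBR hne ε y hε0 hε' hvε εB hεB hhalf hcase
  have hmem3 : ∀ V : ValuationSubring F, V ∈ ({V₁, V₂, V₃} : Finset (ValuationSubring F)) ↔
      (V = V₁ ∨ V = V₂ ∨ V = V₃) := by
    intro V
    rw [Finset.mem_insert, Finset.mem_insert, Finset.mem_singleton]
  have hm₁ : ∀ V, V ∈ ({V₁, V₂, V₃} : Finset (ValuationSubring F)).filter
      (fun V => Through R c 𝔫 V) ↔ (V = V₁ ∨ V = V₂ ∨ V = V₃) ∧ Through R c 𝔫 V := by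
    intro V; rw [Finset.mem_filter, hmem3]
  have hm₂ : ∀ V, V ∈ ({V₁, V₂, V₃} : Finset (ValuationSubring F)).filter
      (fun V => ¬ Through R c 𝔫 V) ↔ (V = V₁ ∨ V = V₂ ∨ V = V₃) ∧ ¬ Through R c 𝔫 V := by
    intro V; rw [Finset.mem_filter, hmem3]
  have h𝒱₁ne : (({V₁, V₂, V₃} : Finset (ValuationSubring F)).filter
      (fun V => Through R c 𝔫 V)).Nonempty := by
    obtain ⟨V, hV, hT⟩ := hne
    exact ⟨V, (hm₁ V).mpr ⟨hV, hT⟩⟩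
  have he0 : e ≠ 0 := by
    obtain ⟨V, hV, -⟩ := hne
    intro h0
    have := he V hV
    rw [h0, zero_pow hn0.ne', zero_sub, Valuation.map_neg, map_one] at this
    exact lt_irrefl _ this
  have hy0' : y ^ (q ^ 2 - 1) * e ≠ 0 := mul_ne_zero (pow_ne_zero _ hy0) he0
  obtain ⟨h, hh1, hh2, hh3⟩ := mlocAt_B R K c 𝔫 B ϖ hϖ0
    (({V₁, V₂, V₃} : Finset (ValuationSubring F)).filter (fun V => Through R c 𝔫 V))
    (({V₁, V₂, V₃} : Finset (ValuationSubring F)).filter (fun V => ¬ Through R c 𝔫 V))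
    h𝒱₁ne
    (fun V hV => hDVR V ((hm₂ V).mp hV).1)
    (fun V hV => hchart V ((hm₁ V).mp hV).1)
    (fun V hV => hchart V ((hm₂ V).mp hV).1)
    (fun V hV => hϖV V ((hm₁ V).mp hV).1)
    (fun V hV => ((hm₁ V).mp hV).2) (fun V hV => ((hm₂ V).mp hV).2)
    n hn (v ^ (q ^ 2 - 1) * e ^ n)
    (fun V hV => H17T3.h17t3_v' V v e n (q ^ 2 - 1) (hv V ((hm₁ V).mp hV).1)
      (he V ((hm₁ V).mp hV).1))
    (εB ^ (q ^ 2 - 1)) (hεu.pow _) (y ^ (q ^ 2 - 1) * e) hy0'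
    (H17T3.h17t3_v'_eq (algebraMap B F) v y e εB n (q ^ 2 - 1) hvB)
    ρ hρ (fun V hV => hbB V ((hm₁ V).mp hV).1 ((hm₁ V).mp hV).2)
  refine ⟨h, fun V hV => ?_, hh3⟩
  by_cases hT : Through R c 𝔫 V
  · exact hh1 V ((hm₁ V).mpr ⟨hV, hT⟩)
  · exact hh2 V ((hm₂ V).mpr ⟨hV, hT⟩)

end GenB

/-- **(GEN3-ASM), chart level**: `H1G3.MLoc` for `v^(q²-1) · eⁿ` in the chart `c`. -/
theorem gen3_mloc (ϖ : R) (hϖ0 : ϖ ≠ 0) (c : F) [FiniteDimensional K⟮c⟯ F]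
    (V₁ V₂ V₃ : ValuationSubring F)
    (hDVR : ∀ V : ValuationSubring F, V = V₁ ∨ V = V₂ ∨ V = V₃ → IsDiscreteValuationRing V)
    (hchart : ∀ V : ValuationSubring F, V = V₁ ∨ V = V₂ ∨ V = V₃ →
      ∀ x : Chart R c, (x : F) ∈ V)
    (hϖV : ∀ V : ValuationSubring F, V = V₁ ∨ V = V₂ ∨ V = V₃ →
      V.valuation (algebraMap R F ϖ) < 1)
    (φα φβ : F' →+* F) (Nα Nβ : F →* F') (V₁' V₂' : ValuationSubring F')
    (ζ' : F') (q n : ℕ) (hn0 : 0 < n) (hn : IsUnit (n : R)) (hζ' : ζ' ^ n = 1)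
    (v e : F) (cα cβ : F')
    (hv : ∀ V : ValuationSubring F, V = V₁ ∨ V = V₂ ∨ V = V₃ → V.valuation (v - 1) < 1)
    (he : ∀ V : ValuationSubring F, V = V₁ ∨ V = V₂ ∨ V = V₃ →
      V.valuation (e ^ n - 1) < 1)
    (hTri : ∀ (B : Type) [CommRing B] [IsLocalRing B] (φB : B →+* F) (y : F) (ε : B),
      (∀ b : B, φB b ∈ V₁) → (∀ b : B, φB b ∈ V₂) → (∀ b : B, φB b ∈ V₃) →
      (∃ zα : B, φB zα = φα ζ') → (∃ zβ : B, φB zβ = φβ ζ') →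
      v = φB ε * y ^ n →
      H17T3.HalfDataC φα Nα φB V₃ V₁' V₂' n ε cα → H17T3.HalfDataC φβ Nβ φB V₃ V₂' V₁' n ε cβ →
      (∃ b₁ : B, H17T3.Cg V₁ y (φB b₁)) → (∃ b₂ : B, H17T3.Cg V₂ y (φB b₂)) →
      (∃ b₃ : B, H17T3.Cg V₃ y (φB b₃)) →
      ∃ ρ : B, IsUnit ρ ∧
        (∃ b : B, V₁.valuation (y ^ (q ^ 2 - 1) * e - φB b) < 1 ∧
          b - ρ ∈ IsLocalRing.maximalIdeal B) ∧
        (∃ b : B, V₂.valuation (y ^ (q ^ 2 - 1) * e - φB b) < 1 ∧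
          b - ρ ∈ IsLocalRing.maximalIdeal B) ∧
        (∃ b : B, V₃.valuation (y ^ (q ^ 2 - 1) * e - φB b) < 1 ∧
          b - ρ ∈ IsLocalRing.maximalIdeal B))
    (hOne : ∀ (B : Type) [CommRing B] [IsLocalRing B] (φB : B →+* F) (y : F) (ε : B)
      (V : ValuationSubring F), V = V₁ ∨ V = V₂ ∨ V = V₃ →
      (∀ b : B, φB b ∈ V) →
      (∃ zα : B, φB zα = φα ζ') → (∃ zβ : B, φB zβ = φβ ζ') →
      v = φB ε * y ^ n →
      (∃ b₁ : B, H17T3.Cg V y (φB b₁)) →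
      ∃ ρ : B, IsUnit ρ ∧
        ∃ b : B, V.valuation (y ^ (q ^ 2 - 1) * e - φB b) < 1 ∧
          b - ρ ∈ IsLocalRing.maximalIdeal B)
    (hBR : ∀ V : ValuationSubring F, V = V₁ ∨ V = V₂ ∨ V = V₃ → ∀ z : F, ∀ a : Chart R c,
      V.valuation (z ^ n - (a : F)) < 1 → ∃ d : Chart R c, V.valuation (z - (d : F)) < 1)
    (hne : ∀ 𝔫 : Ideal (Chart R c), IsClosedPt R ϖ c 𝔫 →
      ∃ V : ValuationSubring F, (V = V₁ ∨ V = V₂ ∨ V = V₃) ∧ Through R c 𝔫 V)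
    (hloc : ∀ 𝔫 : Ideal (Chart R c), IsClosedPt R ϖ c 𝔫 →
      Gen3At R c 𝔫 V₁ V₂ V₃ φα φβ Nα Nβ V₁' V₂' n v cα cβ) :
    H1G3.MLoc R ϖ ({V₁, V₂, V₃} : Set (ValuationSubring F)) c n (v ^ (q ^ 2 - 1) * e ^ n) := by
  intro 𝔫 h𝔫
  haveI : 𝔫.IsPrime := h𝔫.1.isPrime
  haveI := H22BR.bsub_atPrime R K c 𝔫
  haveI := H22BR.bsub_tower R K c 𝔫
  haveI := H22BR.loc_isDomain R c 𝔫 (H22BR.Bsub R K c 𝔫)
  haveI := H22BR.loc_isLocalRing R c 𝔫 (H22BR.Bsub R K c 𝔫)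
  haveI := H22BR.loc_isFractionRing R K c 𝔫 (H22BR.Bsub R K c 𝔫)
  obtain ⟨h, hh1, hh2⟩ := gen3_point_gen R K c 𝔫 (H22BR.Bsub R K c 𝔫) ϖ hϖ0 V₁ V₂ V₃
    hDVR hchart hϖV φα φβ Nα Nβ V₁' V₂' ζ' q n hn0 hn hζ' v e cα cβ hv he
    (fun y ε => hTri (H22BR.Bsub R K c 𝔫) (algebraMap (H22BR.Bsub R K c 𝔫) F) y ε)
    (fun y ε V => hOne (H22BR.Bsub R K c 𝔫) (algebraMap (H22BR.Bsub R K c 𝔫) F) y ε V)
    hBR (hne 𝔫 h𝔫) (hloc 𝔫 h𝔫)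
  refine ⟨h, fun V hV => ?_, hh2⟩
  have hV' : V = V₁ ∨ V = V₂ ∨ V = V₃ := by
    rcases hV with h | h | h
    · exact Or.inl h
    · exact Or.inr (Or.inl h)
    · exact Or.inr (Or.inr h)
  exact hh1 V hV'

/-- **(GEN3-ASM)**: `v ^ (q² - 1) ∈ Kˣ · Fˣⁿ` from the Kummer descent for `{V₁, V₂, V₃}`
(`H1G3.kdMulti`), the local gluing and the toric class (`H17T3.h17t3_toric_c`). -/
theorem gen3_asm (ϖ : R) (hϖ : Irreducible ϖ) (t : F) (ht : Transcendental K t)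
    (hfin : FiniteDimensional K⟮t⟯ F)
    (hK : ∀ x : F, IsAlgebraic K x → x ∈ (algebraMap K F).range)
    (n : ℕ) (hn : IsUnit (n : R)) (hζ : ∃ ζ : R, IsPrimitiveRoot ζ n)
    (V₁ V₂ V₃ : ValuationSubring F)
    (hO : ∀ x : F, GInt R ϖ t x ↔
      ∀ V ∈ ({V₁, V₂, V₃} : Set (ValuationSubring F)), x ∈ V)
    (m : ℕ) (hm : 1 ≤ m)
    (hJ : ∀ x : F, (∀ V ∈ ({V₁, V₂, V₃} : Set (ValuationSubring F)), V.valuation x < 1) →
      ModPi R ϖ t (x ^ m) 0)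
    (hDVR : ∀ V : ValuationSubring F, V = V₁ ∨ V = V₂ ∨ V = V₃ → IsDiscreteValuationRing V)
    (hϖV : ∀ V : ValuationSubring F, V = V₁ ∨ V = V₂ ∨ V = V₃ →
      V.valuation (algebraMap R F ϖ) < 1)
    (φα φβ : F' →+* F) (Nα Nβ : F →* F') (V₁' V₂' : ValuationSubring F')
    (q : ℕ) (hq : 0 < q)
    (hα₁ : ∀ x : F', V₁'.valuation x < 1 ↔ V₁.valuation (φα x) < 1)
    (hα₂ : ∀ x : F', V₂'.valuation x < 1 ↔ V₂.valuation (φα x) < 1)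
    (hNα₁ : ∀ x : F, V₁.valuation x = 1 → V₃.valuation x = 1 → ∀ a : F', a ∈ V₁' →
      H17T3.Cg V₃ x (φα a) → H17T3.Cg V₁ (φα (Nα x)) (x * φα a ^ (q - 1)))
    (hNα₂ : ∀ x : F, V₂.valuation x = 1 → H17T3.Cg V₂ (φα (Nα x)) (x ^ q))
    (hβ₂ : ∀ x : F', V₂'.valuation x < 1 ↔ V₂.valuation (φβ x) < 1)
    (hβ₁ : ∀ x : F', V₁'.valuation x < 1 ↔ V₁.valuation (φβ x) < 1)
    (hNβ₂ : ∀ x : F, V₂.valuation x = 1 → V₃.valuation x = 1 → ∀ a : F', a ∈ V₂' →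
      H17T3.Cg V₃ x (φβ a) → H17T3.Cg V₂ (φβ (Nβ x)) (x * φβ a ^ (q - 1)))
    (hNβ₁ : ∀ x : F, V₁.valuation x = 1 → H17T3.Cg V₁ (φβ (Nβ x)) (x ^ q))
    (ζ' : F') (hζ' : IsPrimitiveRoot ζ' n)
    (t₁ t₂ : F) (h11 : H17T3.Cg V₁ t₁ 1) (h12 : H17T3.Cg V₂ t₁ 0) (h13 : H17T3.Cg V₃ t₁ 0)
    (h21 : H17T3.Cg V₁ t₂ 0) (h22 : H17T3.Cg V₂ t₂ 1) (h23 : H17T3.Cg V₃ t₂ 0)
    (v : F) (Gα Gβ cα cβ : F') (hGα : Nα v = cα * Gα ^ n) (hGβ : Nβ v = cβ * Gβ ^ n)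
    (hcα₁ : H17T3.Cg V₁' cα 1) (hcα₂ : H17T3.Cg V₂' cα 1)
    (hcβ₁ : H17T3.Cg V₁' cβ 1) (hcβ₂ : H17T3.Cg V₂' cβ 1)
    (hv₁ : H17T3.Cg V₁ v 1) (hv₂ : H17T3.Cg V₂ v 1) (hv₃ : H17T3.Cg V₃ v 1)
    (hBRz : ∀ V : ValuationSubring F, V = V₁ ∨ V = V₂ ∨ V = V₃ → ∀ z : F, ∀ a : Chart R t,
      V.valuation (z ^ n - (a : F)) < 1 → ∃ d : Chart R t, V.valuation (z - (d : F)) < 1)
    (hBRi : ∀ V : ValuationSubring F, V = V₁ ∨ V = V₂ ∨ V = V₃ → ∀ z : F, ∀ a : Chart R t⁻¹,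
      V.valuation (z ^ n - (a : F)) < 1 → ∃ d : Chart R t⁻¹, V.valuation (z - (d : F)) < 1)
    (hlocz : ∀ 𝔫 : Ideal (Chart R t), IsClosedPt R ϖ t 𝔫 →
      Gen3At R t 𝔫 V₁ V₂ V₃ φα φβ Nα Nβ V₁' V₂' n v cα cβ)
    (hloci : ∀ 𝔫 : Ideal (Chart R t⁻¹), IsClosedPt R ϖ t⁻¹ 𝔫 →
      Gen3At R t⁻¹ 𝔫 V₁ V₂ V₃ φα φβ Nα Nβ V₁' V₂' n v cα cβ) :
    ∃ (c : K) (g : F), v ^ (q ^ 2 - 1) = algebraMap K F c * g ^ n := by
  classical
  haveI := hfin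
  have ht' : Transcendental K t⁻¹ := H19S18.h19_transc_inv K ht
  have htR : Transcendental R t := H19S18.h19_transc R K ht
  have htR' : Transcendental R t⁻¹ := H19S18.h19_transc R K ht'
  haveI hfin' : FiniteDimensional K⟮t⁻¹⟯ F :=
    H21S18.finiteDimensional_transport (H21S18.adjoin_inv_eq (K := K) t).symm hfin
  have hn0 : 0 < n := by
    rcases Nat.eq_zero_or_pos n with h | h
    · exfalso
      rw [h, Nat.cast_zero] at hn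
      exact not_isUnit_zero hn
    · exact h
  have hmemS : ∀ V : ValuationSubring F, V ∈ ({V₁, V₂, V₃} : Set (ValuationSubring F)) ↔
      (V = V₁ ∨ V = V₂ ∨ V = V₃) := fun V => Iff.rfl
  have hmemF : ∀ V : ValuationSubring F, V ∈ ({V₁, V₂, V₃} : Finset (ValuationSubring F)) ↔
      (V = V₁ ∨ V = V₂ ∨ V = V₃) := by
    intro V
    rw [Finset.mem_insert, Finset.mem_insert, Finset.mem_singleton]
  -- the charts lie in the `V`'s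
  have hchartz : ∀ V : ValuationSubring F, V = V₁ ∨ V = V₂ ∨ V = V₃ →
      ∀ x : Chart R t, (x : F) ∈ V := fun V hV x =>
    (hO _).mp (H19S18.h19_gint_of_isInt R htR hϖ x.2) V ((hmemS V).mpr hV)
  have hcharti : ∀ V : ValuationSubring F, V = V₁ ∨ V = V₂ ∨ V = V₃ →
      ∀ x : Chart R t⁻¹, (x : F) ∈ V := fun V hV x =>
    (hO _).mp (H19S18.h19_gint_of_isInt_inv R htR htR' hϖ x.2) V ((hmemS V).mpr hV)
  have hv : ∀ V : ValuationSubring F, V = V₁ ∨ V = V₂ ∨ V = V₃ →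
      V.valuation (v - 1) < 1 := by
    intro V hV
    rcases hV with h | h | h
    · rw [h]; exact hv₁
    · rw [h]; exact hv₂
    · rw [h]; exact hv₃
  -- (TOR3)
  obtain ⟨e, he₁, he₂, he₃, hTri, hOne⟩ := H17T3.h17t3_toric_c.{0, _, 0, 0} φα φβ Nα Nβ
    V₁ V₂ V₃ V₁' V₂' q n hq hn0 hα₁ hα₂ hNα₁ hNα₂ hβ₂ hβ₁ hNβ₂ hNβ₁ ζ' hζ' t₁ t₂
    h11 h12 h13 h21 h22 h23 v Gα Gβ cα cβ hGα hGβ hcα₁ hcα₂ hcβ₁ hcβ₂ hv₁ hv₂ hv₃
  have he : ∀ V : ValuationSubring F, V = V₁ ∨ V = V₂ ∨ V = V₃ →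
      V.valuation (e ^ n - 1) < 1 := by
    intro V hV
    rcases hV with h | h | h
    · rw [h]; exact he₁
    · rw [h]; exact he₂
    · rw [h]; exact he₃
  -- every closed point lies on a component
  have hOf : ∀ x : F, GInt R ϖ t x →
      ∀ V ∈ ({V₁, V₂, V₃} : Finset (ValuationSubring F)), x ∈ V := fun x hx V hV =>
    (hO x).mp hx V ((hmemS V).mpr ((hmemF V).mp hV))
  have hJf : ∀ x : F, (∀ V ∈ ({V₁, V₂, V₃} : Finset (ValuationSubring F)),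
      V.valuation x < 1) → ModPi R ϖ t (x ^ m) 0 := fun x hx =>
    hJ x (fun V hV => hx V ((hmemF V).mpr ((hmemS V).mp hV)))
  have hnez : ∀ 𝔫 : Ideal (Chart R t), IsClosedPt R ϖ t 𝔫 →
      ∃ V : ValuationSubring F, (V = V₁ ∨ V = V₂ ∨ V = V₃) ∧ Through R t 𝔫 V := by
    intro 𝔫 h𝔫
    obtain ⟨V, hV, hT⟩ := through_exists R K ϖ hϖ t ht _ hOf m hJf 𝔫 h𝔫
    exact ⟨V, (hmemF V).mp hV, hT⟩
  have hnei : ∀ 𝔫 : Ideal (Chart R t⁻¹), IsClosedPt R ϖ t⁻¹ 𝔫 →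
      ∃ V : ValuationSubring F, (V = V₁ ∨ V = V₂ ∨ V = V₃) ∧ Through R t⁻¹ 𝔫 V := by
    intro 𝔫 h𝔫
    obtain ⟨V, hV, hT⟩ := through_exists_inv R K ϖ hϖ t ht _ hOf m hJf 𝔫 h𝔫
    exact ⟨V, (hmemF V).mp hV, hT⟩
  have hζ'n : ζ' ^ n = 1 := hζ'.pow_eq_one
  -- `MLoc` in both charts
  have hlz := gen3_mloc R K ϖ hϖ.ne_zero t V₁ V₂ V₃ hDVR hchartz hϖV φα φβ Nα Nβ V₁' V₂' ζ'
    q n hn0 hn hζ'n v e cα cβ hv he hTri hOne hBRz hnez hlocz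
  have hli := gen3_mloc R K ϖ hϖ.ne_zero t⁻¹ V₁ V₂ V₃ hDVR hcharti hϖV φα φβ Nα Nβ V₁' V₂'
    ζ' q n hn0 hn hζ'n v e cα cβ hv he hTri hOne hBRi hnei hloci
  -- Kummer descent
  have hv' : ∀ V ∈ ({V₁, V₂, V₃} : Set (ValuationSubring F)),
      H1FW.One V (v ^ (q ^ 2 - 1) * e ^ n) := fun V hV =>
    H17T3.h17t3_v' V v e n (q ^ 2 - 1) (hv V ((hmemS V).mp hV)) (he V ((hmemS V).mp hV))
  obtain ⟨c, g, hcg⟩ := H1G3.kdMulti R K F ϖ hϖ t ht hfin hK n hn hζ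
    ({V₁, V₂, V₃} : Set (ValuationSubring F)) hO m hm hJ (v ^ (q ^ 2 - 1) * e ^ n) hv' hlz hli
  have he0 : e ≠ 0 := by
    intro h0
    have := he₁
    unfold H17T3.Cg at this
    rw [h0, zero_pow hn0.ne', zero_sub, Valuation.map_neg, map_one] at this
    exact lt_irrefl _ this
  refine ⟨c, g * e⁻¹, ?_⟩
  rw [mul_pow, ← mul_assoc, ← hcg, inv_pow, mul_assoc, mul_inv_cancel₀ (pow_ne_zero n he0),
    mul_one]

end Point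


end H10G3

end
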