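import Mathlib
import Fermat.Agent.S36.Gen3Asm_helper10
import Fermat.Agent.S36.InjGenDefs_helper4

/-!
# Item 86 (S36), slice (GEN3-ASM), final part (helper10): the architect's leaf
`H4S36.MLocLeaf` from `H4S36.Triple` + the concrete local package

* `H10G3.dvr_of_ordAt` : a valuation ring in which every nonzero element is `π ^ k · unit`
  (`π` a non-unit) is a discrete valuation ring.
* `H10G3.exists_t₁` : the weak approximation elements `t ≡ 1, 0, 0` of (TOR3) from the fields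
  `wa`, `wg` of `H4S36.Triple`.
* `H10G3.mlocLeaf_of_gen3` : **`H4S36.MLocLeaf`** from `H4S36.Triple`, the `n`-root closedness
  of the three components in both charts (`hBR`) and the local package `H10G3.Gen3At` at every
  closed point of both charts.
-/

set_option autoImplicit false
set_option synthInstance.maxHeartbeats 400000
set_option linter.unusedSectionVars false
set_option linter.unusedVariables false
set_option linter.style.haveILetI false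

noncomputable section

open Polynomial IntermediateField AlgebraicCurve H4S34 H7S18

namespace H10G3

section DVR

variable {F : Type*} [Field F]

/-- the valuation of a positive power of a non-unit is `< 1`. -/
theorem val_pow_lt_one (V : ValuationSubring F) {π : F} (hπ : V.valuation π < 1) (j : ℕ)
    (hj : j ≠ 0) : V.valuation (π ^ j) < 1 := by
  obtain ⟨i, rfl⟩ : ∃ i, j = i + 1 := ⟨j - 1, by omega⟩
  rw [pow_succ]
  exact val_mul_lt_of_mem V (V.pow_mem ((V.valuation_le_one_iff π).mp hπ.le) i) hπ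

/-- a valuation ring in which every nonzero element is `π ^ k · unit` is a DVR. -/
theorem dvr_of_ordAt (V : ValuationSubring F) (π : F) (hπ : V.valuation π < 1) (hπ0 : π ≠ 0)
    (hd : ∀ x : F, x ≠ 0 → ∃ k : ℤ, V.valuation (x * π ^ (-k)) = 1) :
    IsDiscreteValuationRing V := by
  have hπV : π ∈ V := (V.valuation_le_one_iff π).mp hπ.le
  have key : ∀ x : F, x ≠ 0 → x ∈ V → ∃ (j : ℕ) (u : F), V.valuation u = 1 ∧ x = π ^ j * u := by
    intro x hx0 hxV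
    obtain ⟨k, hk⟩ := hd x hx0
    obtain ⟨j, rfl | rfl⟩ := Int.eq_nat_or_neg k
    · refine ⟨j, x * π ^ (-(j : ℤ)), hk, ?_⟩
      rw [zpow_neg, zpow_natCast]
      field_simp
    · rw [neg_neg, zpow_natCast] at hk
      rcases Nat.eq_zero_or_pos j with h0 | hpos
      · refine ⟨0, x, ?_, by rw [pow_zero, one_mul]⟩
        rw [h0, pow_zero, mul_one] at hk
        exact hk
      · exfalso
        have h1 : V.valuation (x * π ^ j) < 1 :=
          val_mul_lt_of_mem V hxV (val_pow_lt_one V hπ j hpos.ne')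
        rw [hk] at h1
        exact lt_irrefl _ h1
  have hunit : ∀ u : F, V.valuation u = 1 → ∃ w : (↥V)ˣ, ((w : ↥V) : F) = u := by
    intro u hu
    have hu0 : u ≠ 0 := by
      intro h
      rw [h, map_zero] at hu
      exact zero_ne_one hu
    have huV : u ∈ V := (V.valuation_le_one_iff u).mp hu.le
    have huV' : u⁻¹ ∈ V := by
      rw [← V.valuation_le_one_iff, map_inv₀, hu, inv_one]
    exact ⟨⟨⟨u, huV⟩, ⟨u⁻¹, huV'⟩, Subtype.ext (mul_inv_cancel₀ hu0),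
      Subtype.ext (inv_mul_cancel₀ hu0)⟩, rfl⟩
  have hπnu : ¬ IsUnit (⟨π, hπV⟩ : ↥V) := by
    intro h
    have := (V.valuation_eq_one_iff ⟨π, hπV⟩).mp h
    rw [this] at hπ
    exact lt_irrefl _ hπ
  apply IsDiscreteValuationRing.ofHasUnitMulPowIrreducibleFactorization
  refine ⟨⟨π, hπV⟩, ⟨hπnu, ?_⟩, ?_⟩
  · intro a b hab
    by_contra hcon
    obtain ⟨ha, hb⟩ := not_or.mp hcon
    have ha1 : V.valuation (a : F) < 1 := by
      refine lt_of_le_of_ne ((V.valuation_le_one_iff _).mpr a.2) ?_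
      intro h
      exact ha ((V.valuation_eq_one_iff a).mpr h)
    have hb1 : V.valuation (b : F) < 1 := by
      refine lt_of_le_of_ne ((V.valuation_le_one_iff _).mpr b.2) ?_
      intro h
      exact hb ((V.valuation_eq_one_iff b).mpr h)
    have ha0 : (a : F) ≠ 0 := by
      intro h
      have : π = (a : F) * (b : F) := congrArg Subtype.val hab
      rw [h, zero_mul] at this
      exact hπ0 this
    have hb0 : (b : F) ≠ 0 := by
      intro h
      have : π = (a : F) * (b : F) := congrArg Subtype.val hab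
      rw [h, mul_zero] at this
      exact hπ0 this
    obtain ⟨i, u, hu, hau⟩ := key a ha0 a.2
    obtain ⟨j, w, hw, hbw⟩ := key b hb0 b.2
    have hi : i ≠ 0 := by
      rintro rfl
      rw [pow_zero, one_mul] at hau
      rw [hau, hu] at ha1
      exact lt_irrefl _ ha1
    have hj : j ≠ 0 := by
      rintro rfl
      rw [pow_zero, one_mul] at hbw
      rw [hbw, hw] at hb1
      exact lt_irrefl _ hb1
    have e : π = (a : F) * (b : F) := congrArg Subtype.val hab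
    have hπv0 : V.valuation π ≠ 0 := (Valuation.ne_zero_iff _).mpr hπ0
    -- `v(π) = v(π)^(i+j)`
    have h1 : V.valuation π = V.valuation π ^ (i + j) := by
      conv_lhs => rw [e, hau, hbw]
      rw [Valuation.map_mul, Valuation.map_mul, Valuation.map_mul, hu, hw, mul_one, mul_one,
        Valuation.map_pow, Valuation.map_pow, ← pow_add]
    obtain ⟨l, hl⟩ : ∃ l, i + j = l + 1 + 1 := ⟨i + j - 2, by omega⟩
    rw [hl, pow_succ] at h1
    have h2 : V.valuation π ^ (l + 1) = 1 := by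
      have h3 : V.valuation π ^ (l + 1) * V.valuation π = 1 * V.valuation π := by
        rw [one_mul]; exact h1.symm
      exact mul_right_cancel₀ hπv0 h3
    have h4 : V.valuation (π ^ (l + 1)) < 1 := val_pow_lt_one V hπ (l + 1) (by omega)
    rw [Valuation.map_pow, h2] at h4
    exact lt_irrefl _ h4
  · intro x hx
    have hx0 : (x : F) ≠ 0 := fun h => hx (Subtype.ext h)
    obtain ⟨j, u, hu, hxu⟩ := key x hx0 x.2
    obtain ⟨w, hw⟩ := hunit u hu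
    exact ⟨j, w, Subtype.ext (by
      show (π ^ j : F) * ((w : ↥V) : F) = (x : F)
      rw [hw, hxu])⟩

end DVR

section WA

variable {F : Type} [Field F]

theorem ordAt_zero {V : ValuationSubring F} {π x : F} (h : H4S36.OrdAt V π x 0) :
    V.valuation x = 1 := by
  unfold H4S36.OrdAt at h
  rwa [neg_zero, zpow_zero, mul_one] at h

theorem ordAt_one_lt {V : ValuationSubring F} {π x : F} (hπ : V.valuation π < 1)
    (h : H4S36.OrdAt V π x 1) : V.valuation x < 1 := by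
  unfold H4S36.OrdAt at h
  rw [zpow_neg, zpow_one] at h
  have hπ0 : π ≠ 0 := by
    intro h0
    rw [h0, inv_zero, mul_zero, map_zero] at h
    exact zero_ne_one h
  have e : x = x * π⁻¹ * π := by field_simp
  rw [e, Valuation.map_mul, h, one_mul]
  exact hπ

/-- `t ≡ 1` at `V`, `t ≡ 0` at `W₁`, `W₂`, from a `g` with orders `0, 1, 1` and the residue form
of weak approximation. -/
theorem exists_t_of (V W₁ W₂ : ValuationSubring F) (g : F) (hg : V.valuation g = 1)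
    (hg₁ : W₁.valuation g < 1) (hg₂ : W₂.valuation g < 1)
    (Ψ : F) (hΨ : V.valuation (Ψ - g⁻¹) < 1) (hΨ₁ : W₁.valuation (Ψ - 1) < 1)
    (hΨ₂ : W₂.valuation (Ψ - 1) < 1) :
    V.valuation (g * Ψ - 1) < 1 ∧ W₁.valuation (g * Ψ - 0) < 1 ∧
      W₂.valuation (g * Ψ - 0) < 1 := by
  have hg0 : g ≠ 0 := by
    intro h0
    rw [h0, map_zero] at hg
    exact zero_ne_one hg
  refine ⟨?_, ?_, ?_⟩
  · have e : g * Ψ - 1 = g * (Ψ - g⁻¹) := by field_simp
    rw [e]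
    exact val_mul_lt_of_mem V ((V.valuation_le_one_iff g).mp hg.le) hΨ
  · rw [sub_zero, mul_comm]
    have hΨV : Ψ ∈ W₁ := (W₁.valuation_le_one_iff Ψ).mp (val_one_of_lt W₁ hΨ₁).le
    exact val_mul_lt_of_mem W₁ hΨV hg₁
  · rw [sub_zero, mul_comm]
    have hΨV : Ψ ∈ W₂ := (W₂.valuation_le_one_iff Ψ).mp (val_one_of_lt W₂ hΨ₂).le
    exact val_mul_lt_of_mem W₂ hΨV hg₂

end WA

section Leaf

variable (R : Type) [CommRing R] [IsDomain R] [IsDiscreteValuationRing R]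
  (K : Type) [Field K] [CharZero K] [Algebra R K] [IsFractionRing R K]
  (F : Type) [Field F] [Algebra K F] [Algebra R F] [IsScalarTower R K F]
  (F' : Type) [Field F'] [Algebra K F'] [Algebra R F'] [IsScalarTower R K F']

/-- **the local leaf `H4S36.MLocLeaf`** from `H4S36.Triple`, `n`-root closedness of the
components and the local package `H10G3.Gen3At` at every closed point of both charts. -/
theorem mlocLeaf_of_gen3 (ϖ : R) (hϖ : Irreducible ϖ) (t : F) (ht : Transcendental K t)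
    (hfin : FiniteDimensional K⟮t⟯ F)
    (q n : ℕ) (hq : 2 ≤ q) (hn : IsUnit (n : R)) (hζ : ∃ ζ : R, IsPrimitiveRoot ζ n)
    (φα φβ : F' →+* F) (Nα Nβ : F →* F')
    (V₁ V₂ V₃ : ValuationSubring F) (V₁' V₂' : ValuationSubring F') (b₃ : F)
    (hT : H4S36.Triple R K F F' ϖ t q n φα φβ Nα Nβ V₁ V₂ V₃ V₁' V₂' b₃)
    (hBRz : ∀ V : ValuationSubring F, V = V₁ ∨ V = V₂ ∨ V = V₃ → ∀ z : F, ∀ a : Chart R t,
      V.valuation (z ^ n - (a : F)) < 1 → ∃ d : Chart R t, V.valuation (z - (d : F)) < 1)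
    (hBRi : ∀ V : ValuationSubring F, V = V₁ ∨ V = V₂ ∨ V = V₃ → ∀ z : F, ∀ a : Chart R t⁻¹,
      V.valuation (z ^ n - (a : F)) < 1 → ∃ d : Chart R t⁻¹, V.valuation (z - (d : F)) < 1)
    (hloc : ∀ v : F, v ≠ 0 → H4S36.One3 V₁ V₂ V₃ v → (∀ V : Place K F, (n : ℤ) ∣ V.ord v) →
      ∀ rα rβ : R, (∃ G : F', G ≠ 0 ∧ Nα v = algebraMap R F' (1 + ϖ * rα) * G ^ n) →
        (∃ G : F', G ≠ 0 ∧ Nβ v = algebraMap R F' (1 + ϖ * rβ) * G ^ n) →
        (∀ 𝔫 : Ideal (Chart R t), IsClosedPt R ϖ t 𝔫 →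
          Gen3At R t 𝔫 V₁ V₂ V₃ φα φβ Nα Nβ V₁' V₂' n v
            (algebraMap R F' (1 + ϖ * rα)) (algebraMap R F' (1 + ϖ * rβ))) ∧
        (∀ 𝔫 : Ideal (Chart R t⁻¹), IsClosedPt R ϖ t⁻¹ 𝔫 →
          Gen3At R t⁻¹ 𝔫 V₁ V₂ V₃ φα φβ Nα Nβ V₁' V₂' n v
            (algebraMap R F' (1 + ϖ * rα)) (algebraMap R F' (1 + ϖ * rβ)))) :
    H4S36.MLocLeaf R K F F' ϖ t q n Nα Nβ V₁ V₂ V₃ := by
  classical
  intro v hv0 hv1 hdiv hNα hNβ
  obtain ⟨rα, Gα, hGα0, hGα⟩ := hNα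
  obtain ⟨rβ, Gβ, hGβ0, hGβ⟩ := hNβ
  obtain ⟨hlocz, hloci⟩ := hloc v hv0 hv1 hdiv rα rβ ⟨Gα, hGα0, hGα⟩ ⟨Gβ, hGβ0, hGβ⟩
  haveI := hfin
  have ht' : Transcendental K t⁻¹ := H19S18.h19_transc_inv K ht
  have htR : Transcendental R t := H19S18.h19_transc R K ht
  have htR' : Transcendental R t⁻¹ := H19S18.h19_transc R K ht'
  haveI hfin' : FiniteDimensional K⟮t⁻¹⟯ F :=
    H21S18.finiteDimensional_transport (H21S18.adjoin_inv_eq (K := K) t).symm hfin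
  have hn0 : 0 < n := by
    rcases Nat.eq_zero_or_pos n with h | h
    · exfalso
      rw [h, Nat.cast_zero] at hn
      exact not_isUnit_zero hn
    · exact h
  have hq0 : 0 < q := by omega
  have hinjF : Function.Injective (algebraMap R F) := H19S18.h19_algebraMap_injective R K
  have hinjF' : Function.Injective (algebraMap R F') := H19S18.h19_algebraMap_injective R K
  have hϖF : algebraMap R F ϖ ≠ 0 := fun h => hϖ.ne_zero (hinjF (by rw [h, map_zero]))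
  -- `b₃ ≠ 0`, `v₃(ϖ) < 1`
  have hq1 : ((q : ℤ) - 1) = ((q - 1 : ℕ) : ℤ) := by
    rw [Nat.cast_sub (by omega : 1 ≤ q)]; rfl
  have he₃ := hT.he₃
  unfold H4S36.OrdAt at he₃
  rw [hq1, zpow_neg, zpow_natCast] at he₃
  have hb₃0 : b₃ ≠ 0 := by
    intro h0
    rw [h0, zero_pow (by omega : q - 1 ≠ 0), inv_zero, mul_zero, map_zero] at he₃
    exact zero_ne_one he₃
  have hϖ₃ : V₃.valuation (algebraMap R F ϖ) < 1 := by
    have e : algebraMap R F ϖ = algebraMap R F ϖ * (b₃ ^ (q - 1))⁻¹ * b₃ ^ (q - 1) := by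
      field_simp
    rw [e, Valuation.map_mul, he₃, one_mul]
    exact val_pow_lt_one V₃ hT.hb₃ (q - 1) (by omega)
  have hϖV : ∀ V : ValuationSubring F, V = V₁ ∨ V = V₂ ∨ V = V₃ →
      V.valuation (algebraMap R F ϖ) < 1 := by
    intro V hV
    rcases hV with h | h | h
    · rw [h]; exact hT.hϖ₁
    · rw [h]; exact hT.hϖ₂
    · rw [h]; exact hϖ₃
  have hDVR : ∀ V : ValuationSubring F, V = V₁ ∨ V = V₂ ∨ V = V₃ →
      IsDiscreteValuationRing V := by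
    intro V hV
    rcases hV with h | h | h
    · rw [h]; exact dvr_of_ordAt V₁ _ hT.hϖ₁ hϖF hT.hd₁
    · rw [h]; exact dvr_of_ordAt V₂ _ hT.hϖ₂ hϖF hT.hd₂
    · rw [h]; exact dvr_of_ordAt V₃ _ hT.hb₃ hb₃0 hT.hd₃
  have hmemF : ∀ V : ValuationSubring F, V ∈ ({V₁, V₂, V₃} : Finset (ValuationSubring F)) ↔
      (V = V₁ ∨ V = V₂ ∨ V = V₃) := by
    intro V
    rw [Finset.mem_insert, Finset.mem_insert, Finset.mem_singleton]
  have hO3 : ∀ x : F, GInt R ϖ t x → ∀ V : ValuationSubring F, V = V₁ ∨ V = V₂ ∨ V = V₃ →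
      x ∈ V := by
    intro x hx V hV
    obtain ⟨h1, h2, h3⟩ := (hT.hO x).mp hx
    rcases hV with h | h | h
    · rw [h]; exact h1
    · rw [h]; exact h2
    · rw [h]; exact h3
  have hchartz : ∀ V : ValuationSubring F, V = V₁ ∨ V = V₂ ∨ V = V₃ →
      ∀ x : Chart R t, (x : F) ∈ V := fun V hV x =>
    hO3 _ (H19S18.h19_gint_of_isInt R htR hϖ x.2) V hV
  have hcharti : ∀ V : ValuationSubring F, V = V₁ ∨ V = V₂ ∨ V = V₃ →
      ∀ x : Chart R t⁻¹, (x : F) ∈ V := fun V hV x =>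
    hO3 _ (H19S18.h19_gint_of_isInt_inv R htR htR' hϖ x.2) V hV
  have hv : ∀ V : ValuationSubring F, V = V₁ ∨ V = V₂ ∨ V = V₃ →
      V.valuation (v - 1) < 1 := by
    intro V hV
    rcases hV with h | h | h
    · rw [h]; exact hv1.1
    · rw [h]; exact hv1.2.1
    · rw [h]; exact hv1.2.2
  -- the primitive root in `F'`
  obtain ⟨ζ, hζp⟩ := hζ
  have hζ' : IsPrimitiveRoot (algebraMap R F' ζ) n := hζp.map_of_injective hinjF'
  -- the constants `≡ 1`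
  have hc1 : ∀ (V' : ValuationSubring F') (hR : ∀ r : R, algebraMap R F' r ∈ V')
      (hϖ' : V'.valuation (algebraMap R F' ϖ) < 1) (r : R),
      H17T3.Cg V' (algebraMap R F' (1 + ϖ * r)) 1 := by
    intro V' hR hϖ' r
    unfold H17T3.Cg
    have e : algebraMap R F' (1 + ϖ * r) - 1 = algebraMap R F' r * algebraMap R F' ϖ := by
      rw [map_add, map_one, map_mul]; ring
    rw [e]
    exact val_mul_lt_of_mem V' (hR r) hϖ'
  -- weak approximation
  obtain ⟨g₁, -, hg₁1, hg₁2, hg₁3⟩ := hT.wa 0 1 1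
  obtain ⟨Ψ₁, hΨ₁1, hΨ₁2, hΨ₁3⟩ := hT.wg g₁⁻¹ 1 1
    (by rw [map_inv₀, ordAt_zero hg₁1, inv_one]) (map_one _) (map_one _)
  obtain ⟨h11, h12, h13⟩ := exists_t_of V₁ V₂ V₃ g₁ (ordAt_zero hg₁1)
    (ordAt_one_lt hT.hϖ₂ hg₁2) (ordAt_one_lt hT.hb₃ hg₁3) Ψ₁ hΨ₁1 hΨ₁2 hΨ₁3
  obtain ⟨g₂, -, hg₂1, hg₂2, hg₂3⟩ := hT.wa 1 0 1
  obtain ⟨Ψ₂, hΨ₂1, hΨ₂2, hΨ₂3⟩ := hT.wg 1 g₂⁻¹ 1
    (map_one _) (by rw [map_inv₀, ordAt_zero hg₂2, inv_one]) (map_one _)
  obtain ⟨h22, h21, h23⟩ := exists_t_of V₂ V₁ V₃ g₂ (ordAt_zero hg₂2)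
    (ordAt_one_lt hT.hϖ₁ hg₂1) (ordAt_one_lt hT.hb₃ hg₂3) Ψ₂ hΨ₂2 hΨ₂1 hΨ₂3
  -- (TOR3)
  obtain ⟨e, he₁, he₂, he₃', hTri, hOne⟩ := H17T3.h17t3_toric_c.{0, 0, 0, 0} φα φβ Nα Nβ
    V₁ V₂ V₃ V₁' V₂' q n hq0 hn0 hT.hα₁ hT.hα₂ hT.cNα₁ hT.cNα₂ hT.hβ₂ hT.hβ₁ hT.cNβ₂ hT.cNβ₁
    (algebraMap R F' ζ) hζ' (g₁ * Ψ₁) (g₂ * Ψ₂) h11 h12 h13 h21 h22 h23 v Gα Gβ
    (algebraMap R F' (1 + ϖ * rα)) (algebraMap R F' (1 + ϖ * rβ)) hGα hGβ
    (hc1 V₁' hT.hR₁' hT.hϖ₁' rα) (hc1 V₂' hT.hR₂' hT.hϖ₂' rα)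
    (hc1 V₁' hT.hR₁' hT.hϖ₁' rβ) (hc1 V₂' hT.hR₂' hT.hϖ₂' rβ) hv1.1 hv1.2.1 hv1.2.2
  have he : ∀ V : ValuationSubring F, V = V₁ ∨ V = V₂ ∨ V = V₃ →
      V.valuation (e ^ n - 1) < 1 := by
    intro V hV
    rcases hV with h | h | h
    · rw [h]; exact he₁
    · rw [h]; exact he₂
    · rw [h]; exact he₃'
  have he0 : e ≠ 0 := by
    intro h0
    have := he₁
    unfold H17T3.Cg at this
    rw [h0, zero_pow hn0.ne', zero_sub, Valuation.map_neg, map_one] at this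
    exact lt_irrefl _ this
  -- every closed point lies on a component
  have hOf : ∀ x : F, GInt R ϖ t x →
      ∀ V ∈ ({V₁, V₂, V₃} : Finset (ValuationSubring F)), x ∈ V := fun x hx V hV =>
    hO3 x hx V ((hmemF V).mp hV)
  have hJf : ∀ x : F, (∀ V ∈ ({V₁, V₂, V₃} : Finset (ValuationSubring F)),
      V.valuation x < 1) → ModPi R ϖ t (x ^ q) 0 := fun x hx =>
    hT.hJ x (hx V₁ ((hmemF V₁).mpr (Or.inl rfl))) (hx V₂ ((hmemF V₂).mpr (Or.inr (Or.inl rfl))))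
      (hx V₃ ((hmemF V₃).mpr (Or.inr (Or.inr rfl))))
  have hnez : ∀ 𝔫 : Ideal (Chart R t), IsClosedPt R ϖ t 𝔫 →
      ∃ V : ValuationSubring F, (V = V₁ ∨ V = V₂ ∨ V = V₃) ∧ Through R t 𝔫 V := by
    intro 𝔫 h𝔫
    obtain ⟨V, hV, hTh⟩ := through_exists R K ϖ hϖ t ht _ hOf q hJf 𝔫 h𝔫
    exact ⟨V, (hmemF V).mp hV, hTh⟩
  have hnei : ∀ 𝔫 : Ideal (Chart R t⁻¹), IsClosedPt R ϖ t⁻¹ 𝔫 →
      ∃ V : ValuationSubring F, (V = V₁ ∨ V = V₂ ∨ V = V₃) ∧ Through R t⁻¹ 𝔫 V := by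
    intro 𝔫 h𝔫
    obtain ⟨V, hV, hTh⟩ := through_exists_inv R K ϖ hϖ t ht _ hOf q hJf 𝔫 h𝔫
    exact ⟨V, (hmemF V).mp hV, hTh⟩
  have hζ'n : (algebraMap R F' ζ) ^ n = 1 := hζ'.pow_eq_one
  refine ⟨e, he0, ⟨he₁, he₂, he₃'⟩, ?_, ?_⟩
  · exact gen3_mloc R K ϖ hϖ.ne_zero t V₁ V₂ V₃ hDVR hchartz hϖV φα φβ Nα Nβ V₁' V₂'
      (algebraMap R F' ζ) q n hn0 hn hζ'n v e _ _ hv he hTri hOne hBRz hnez hlocz
  · exact gen3_mloc R K ϖ hϖ.ne_zero t⁻¹ V₁ V₂ V₃ hDVR hcharti hϖV φα φβ Nα Nβ V₁' V₂'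
      (algebraMap R F' ζ) q n hn0 hn hζ'n v e _ _ hv he hTri hOne hBRi hnei hloci

end Leaf

end H10G3

end
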