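import Mathlib
import Fermat.Agent.S36.Gen3Leaf_helper10

/-!
# Item 86 (S36), slice (GEN3-ASM) (helper10): the `_loc` twin — branch roots as a LOCAL
hypothesis

Same chain as `S36/Gen3Asm_helper10.lean` / `S36/Gen3Leaf_helper10.lean`, with the global
`n`-root closedness `hBR` of the components replaced by its local form at the closed points:

* `H10G3.BRAt R c 𝔫 V₁ V₂ V₃ n` : for every `V ∈ {V₁, V₂, V₃}` through `𝔫`: `z ^ n ≡ a` at `V`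
  with `a ∈ B_𝔫` gives `d ∈ B_𝔫` with `z ≡ d` at `V` (the image of `B_𝔫` in `κ(V)` is `n`-root
  closed, e.g. a DVR: `UnifAt`).
* `H10G3.brAt_of_global` : the global form implies the local one.
* `H10G3.mlocLeaf_of_gen3_loc` : **`H4S36.MLocLeaf`** from `H4S36.Triple` + `BRAt` + `Gen3At` at
  every closed point of both charts.
-/

set_option autoImplicit false
set_option synthInstance.maxHeartbeats 400000
set_option linter.unusedSectionVars false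
set_option linter.unusedVariables false
set_option linter.style.haveILetI false

noncomputable section

open Polynomial IntermediateField AlgebraicCurve H4S34 H7S18

namespace H10G3

section DefsLoc

variable (R : Type) [CommRing R] {F : Type} [Field F] [Algebra R F]

/-- **branch roots at the point `𝔫`**: the image of `B_𝔫` in `κ(V)` is `n`-root closed, for every
`V ∈ {V₁, V₂, V₃}` through `𝔫`. -/
def BRAt (c : F) (𝔫 : Ideal (Chart R c)) (V₁ V₂ V₃ : ValuationSubring F) (n : ℕ) : Prop :=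
  ∀ V : ValuationSubring F, V = V₁ ∨ V = V₂ ∨ V = V₃ → Through R c 𝔫 V →
    ∀ z a : F, InLoc R c 𝔫 a → V.valuation (z ^ n - a) < 1 →
      ∃ d : F, InLoc R c 𝔫 d ∧ V.valuation (z - d) < 1

/-- the global form (`M₀ / P_V` is `n`-root closed) implies the local one. -/
theorem brAt_of_global [IsDomain R] [IsDiscreteValuationRing R] (c : F) (𝔫 : Ideal (Chart R c)) (V₁ V₂ V₃ : ValuationSubring F)
    (n : ℕ) (hn : 0 < n)
    (hchart : ∀ V : ValuationSubring F, V = V₁ ∨ V = V₂ ∨ V = V₃ →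
      ∀ x : Chart R c, (x : F) ∈ V)
    (hBR : ∀ V : ValuationSubring F, V = V₁ ∨ V = V₂ ∨ V = V₃ → ∀ z : F, ∀ a : Chart R c,
      V.valuation (z ^ n - (a : F)) < 1 → ∃ d : Chart R c, V.valuation (z - (d : F)) < 1) :
    BRAt R c 𝔫 V₁ V₂ V₃ n := fun V hV hT z a ha hza =>
  branchRoot R c 𝔫 V (hchart V hV) hT n hn (hBR V hV) z a ha hza

end DefsLoc

section PointLocPre

variable (R : Type) [CommRing R] [IsDomain R] [IsDiscreteValuationRing R]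
  {F : Type} [Field F] [Algebra R F]
  (c : F) (𝔫 : Ideal (Chart R c)) [h𝔫 : 𝔫.IsPrime]
  (B : Type) [CommRing B] [Algebra (Chart R c) B] [IsLocalization.AtPrime B 𝔫]
  [Algebra B F] [IsScalarTower (Chart R c) B F]

/-- branch roots of `y` in `B`-form, from the local hypothesis. -/
theorem branchRoot_B_loc (V : ValuationSubring F)
    (hchart : ∀ x : Chart R c, (x : F) ∈ V) (hT : Through R c 𝔫 V) (n : ℕ)
    (hBR : ∀ z a : F, InLoc R c 𝔫 a → V.valuation (z ^ n - a) < 1 →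
      ∃ d : F, InLoc R c 𝔫 d ∧ V.valuation (z - d) < 1)
    (v ε y : F) (hε0 : ε ≠ 0) (hε' : InLoc R c 𝔫 ε⁻¹) (hvε : v = ε * y ^ n)
    (hv : V.valuation (v - 1) < 1) :
    ∃ b : B, H17T3.Cg V y (algebraMap B F b) := by
  have hεV : ε⁻¹ ∈ V := wire_mem R c 𝔫 V hchart hT _ hε'
  have h1 : y ^ n - ε⁻¹ = ε⁻¹ * (v - 1) := by
    rw [hvε]
    field_simp
  have h2 : V.valuation (y ^ n - ε⁻¹) < 1 := by
    rw [h1]
    exact val_mul_lt_of_mem V hεV hv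
  obtain ⟨b, hb, hb1⟩ := hBR y ε⁻¹ hε' h2
  obtain ⟨bB, hbB⟩ := (H22BR.inLoc_iff R c 𝔫 B b).mp hb
  exact ⟨bB, by unfold H17T3.Cg; rw [hbB]; exact hb1⟩

end PointLocPre

section PointLoc

variable (R : Type) [CommRing R] [IsDomain R] [IsDiscreteValuationRing R]
  (K : Type) [Field K] [CharZero K] [Algebra R K] [IsFractionRing R K]
  {F : Type} [Field F] [Algebra K F] [Algebra R F] [IsScalarTower R K F]
  {F' : Type*} [Field F']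

section GenBLoc

variable (c : F) (𝔫 : Ideal (Chart R c)) [h𝔫 : 𝔫.IsPrime]
  (B : Type) [CommRing B] [Algebra (Chart R c) B] [IsLocalization.AtPrime B 𝔫]
  [Algebra B F] [IsScalarTower (Chart R c) B F]

/-- the toric data at one closed point, generic `B`. -/
theorem gen3_tor_loc [IsDomain B] [IsLocalRing B] [IsFractionRing B F]
    (V₁ V₂ V₃ : ValuationSubring F)
    (hchart : ∀ V : ValuationSubring F, V = V₁ ∨ V = V₂ ∨ V = V₃ →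
      ∀ x : Chart R c, (x : F) ∈ V)
    (φα φβ : F' →+* F) (Nα Nβ : F →* F') (V₁' V₂' : ValuationSubring F')
    (ζ' : F') (q n : ℕ) (hn0 : 0 < n) (hζ' : ζ' ^ n = 1)
    (v e : F) (cα cβ : F')
    (hv : ∀ V : ValuationSubring F, V = V₁ ∨ V = V₂ ∨ V = V₃ → V.valuation (v - 1) < 1)
    (hTri : ∀ (y : F) (ε : B),
      (∀ b : B, algebraMap B F b ∈ V₁) → (∀ b : B, algebraMap B F b ∈ V₂) →
      (∀ b : B, algebraMap B F b ∈ V₃) →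
      (∃ zα : B, algebraMap B F zα = φα ζ') → (∃ zβ : B, algebraMap B F zβ = φβ ζ') →
      v = algebraMap B F ε * y ^ n →
      H17T3.HalfDataC φα Nα (algebraMap B F) V₃ V₁' V₂' n ε cα →
      H17T3.HalfDataC φβ Nβ (algebraMap B F) V₃ V₂' V₁' n ε cβ →
      (∃ b₁ : B, H17T3.Cg V₁ y (algebraMap B F b₁)) →
      (∃ b₂ : B, H17T3.Cg V₂ y (algebraMap B F b₂)) →
      (∃ b₃ : B, H17T3.Cg V₃ y (algebraMap B F b₃)) →
      ∃ ρ : B, IsUnit ρ ∧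
        (∃ b : B, V₁.valuation (y ^ (q ^ 2 - 1) * e - algebraMap B F b) < 1 ∧
          b - ρ ∈ IsLocalRing.maximalIdeal B) ∧
        (∃ b : B, V₂.valuation (y ^ (q ^ 2 - 1) * e - algebraMap B F b) < 1 ∧
          b - ρ ∈ IsLocalRing.maximalIdeal B) ∧
        (∃ b : B, V₃.valuation (y ^ (q ^ 2 - 1) * e - algebraMap B F b) < 1 ∧
          b - ρ ∈ IsLocalRing.maximalIdeal B))
    (hOne : ∀ (y : F) (ε : B) (V : ValuationSubring F), V = V₁ ∨ V = V₂ ∨ V = V₃ →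
      (∀ b : B, algebraMap B F b ∈ V) →
      (∃ zα : B, algebraMap B F zα = φα ζ') → (∃ zβ : B, algebraMap B F zβ = φβ ζ') →
      v = algebraMap B F ε * y ^ n →
      (∃ b₁ : B, H17T3.Cg V y (algebraMap B F b₁)) →
      ∃ ρ : B, IsUnit ρ ∧
        ∃ b : B, V.valuation (y ^ (q ^ 2 - 1) * e - algebraMap B F b) < 1 ∧
          b - ρ ∈ IsLocalRing.maximalIdeal B)
    (hBR : BRAt R c 𝔫 V₁ V₂ V₃ n)
    (hne : ∃ V : ValuationSubring F, (V = V₁ ∨ V = V₂ ∨ V = V₃) ∧ Through R c 𝔫 V)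
    (ε y : F) (hε0 : ε ≠ 0) (hε' : InLoc R c 𝔫 ε⁻¹) (hvε : v = ε * y ^ n)
    (εB : B) (hεB : algebraMap B F εB = ε)
    (hhalf : (Through R c 𝔫 V₁ ∧ Through R c 𝔫 V₂ ∧ Through R c 𝔫 V₃) →
      HalfAt R c 𝔫 φα Nα V₃ V₁' V₂' n ε cα ∧ HalfAt R c 𝔫 φβ Nβ V₃ V₂' V₁' n ε cβ)
    (hcase : (Through R c 𝔫 V₁ ∧ Through R c 𝔫 V₂ ∧ Through R c 𝔫 V₃) ∨
      ∀ V : ValuationSubring F, V = V₁ ∨ V = V₂ ∨ V = V₃ →
        ∀ W : ValuationSubring F, W = V₁ ∨ W = V₂ ∨ W = V₃ →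
          Through R c 𝔫 V → Through R c 𝔫 W → V = W) :
    ∃ ρ : B, IsUnit ρ ∧
      ∀ V : ValuationSubring F, V = V₁ ∨ V = V₂ ∨ V = V₃ → Through R c 𝔫 V →
        ∃ b : B, V.valuation (y ^ (q ^ 2 - 1) * e - algebraMap B F b) < 1 ∧
          b - ρ ∈ IsLocalRing.maximalIdeal B := by
  have hvB : v = algebraMap B F εB * y ^ n := by rw [hεB]; exact hvε
  have h𝔫top : 𝔫 ≠ ⊤ := h𝔫.ne_top
  have hzα : ∃ zα : B, algebraMap B F zα = φα ζ' :=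
    (H22BR.inLoc_iff R c 𝔫 B _).mp
      (inLoc_of_pow_eq_one R c 𝔫 h𝔫top n hn0 _ (by rw [← map_pow, hζ', map_one]))
  have hzβ : ∃ zβ : B, algebraMap B F zβ = φβ ζ' :=
    (H22BR.inLoc_iff R c 𝔫 B _).mp
      (inLoc_of_pow_eq_one R c 𝔫 h𝔫top n hn0 _ (by rw [← map_pow, hζ', map_one]))
  have hBV : ∀ V : ValuationSubring F, V = V₁ ∨ V = V₂ ∨ V = V₃ → Through R c 𝔫 V →
      ∀ b : B, algebraMap B F b ∈ V := fun V hV hT b =>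
    wire_mem R c 𝔫 V (hchart V hV) hT _ ((H22BR.inLoc_iff R c 𝔫 B _).mpr ⟨b, rfl⟩)
  have hroot : ∀ V : ValuationSubring F, V = V₁ ∨ V = V₂ ∨ V = V₃ → Through R c 𝔫 V →
      ∃ b : B, H17T3.Cg V y (algebraMap B F b) := fun V hV hT =>
    branchRoot_B_loc R c 𝔫 B V (hchart V hV) hT n (hBR V hV hT) v ε y hε0 hε' hvε (hv V hV)
  rcases hcase with ⟨hT₁, hT₂, hT₃⟩ | hone
  · obtain ⟨hα, hβ⟩ := hhalf ⟨hT₁, hT₂, hT₃⟩
    obtain ⟨ρ, hρ, d1, d2, d3⟩ := hTri y εB (hBV V₁ (Or.inl rfl) hT₁)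
      (hBV V₂ (Or.inr (Or.inl rfl)) hT₂) (hBV V₃ (Or.inr (Or.inr rfl)) hT₃) hzα hzβ hvB
      (halfDataC_of_halfAt R c 𝔫 B φα Nα V₃ V₁' V₂' n ε cα εB hεB hα)
      (halfDataC_of_halfAt R c 𝔫 B φβ Nβ V₃ V₂' V₁' n ε cβ εB hεB hβ)
      (hroot V₁ (Or.inl rfl) hT₁) (hroot V₂ (Or.inr (Or.inl rfl)) hT₂)
      (hroot V₃ (Or.inr (Or.inr rfl)) hT₃)
    refine ⟨ρ, hρ, fun V hV _ => ?_⟩
    rcases hV with h | h | h
    · rw [h]; exact d1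
    · rw [h]; exact d2
    · rw [h]; exact d3
  · obtain ⟨V, hV, hT⟩ := hne
    obtain ⟨ρ, hρ, b, hb⟩ := hOne y εB V hV (hBV V hV hT) hzα hzβ hvB (hroot V hV hT)
    refine ⟨ρ, hρ, fun W hW hWT => ?_⟩
    have hWV : W = V := hone W hW V hV hWT hT
    rw [hWV]
    exact ⟨b, hb⟩

include K in
/-- **(GEN3-ASM) at one closed point**, generic `B`. -/
theorem gen3_point_gen_loc [IsDomain B] [IsLocalRing B] [IsFractionRing B F]
    (ϖ : R) (hϖ0 : ϖ ≠ 0) (V₁ V₂ V₃ : ValuationSubring F)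
    (hDVR : ∀ V : ValuationSubring F, V = V₁ ∨ V = V₂ ∨ V = V₃ → IsDiscreteValuationRing V)
    (hchart : ∀ V : ValuationSubring F, V = V₁ ∨ V = V₂ ∨ V = V₃ →
      ∀ x : Chart R c, (x : F) ∈ V)
    (hϖV : ∀ V : ValuationSubring F, V = V₁ ∨ V = V₂ ∨ V = V₃ →
      V.valuation (algebraMap R F ϖ) < 1)
    (φα φβ : F' →+* F) (Nα Nβ : F →* F') (V₁' V₂' : ValuationSubring F')
    (ζ' : F') (q n : ℕ) (hn0 : 0 < n) (hn : IsUnit (n : R)) (hζ' : ζ' ^ n = 1)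
    (v e : F) (cα cβ : F')
    (hv : ∀ V : ValuationSubring F, V = V₁ ∨ V = V₂ ∨ V = V₃ → V.valuation (v - 1) < 1)
    (he : ∀ V : ValuationSubring F, V = V₁ ∨ V = V₂ ∨ V = V₃ →
      V.valuation (e ^ n - 1) < 1)
    (hTri : ∀ (y : F) (ε : B),
      (∀ b : B, algebraMap B F b ∈ V₁) → (∀ b : B, algebraMap B F b ∈ V₂) →
      (∀ b : B, algebraMap B F b ∈ V₃) →
      (∃ zα : B, algebraMap B F zα = φα ζ') → (∃ zβ : B, algebraMap B F zβ = φβ ζ') →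
      v = algebraMap B F ε * y ^ n →
      H17T3.HalfDataC φα Nα (algebraMap B F) V₃ V₁' V₂' n ε cα →
      H17T3.HalfDataC φβ Nβ (algebraMap B F) V₃ V₂' V₁' n ε cβ →
      (∃ b₁ : B, H17T3.Cg V₁ y (algebraMap B F b₁)) →
      (∃ b₂ : B, H17T3.Cg V₂ y (algebraMap B F b₂)) →
      (∃ b₃ : B, H17T3.Cg V₃ y (algebraMap B F b₃)) →
      ∃ ρ : B, IsUnit ρ ∧
        (∃ b : B, V₁.valuation (y ^ (q ^ 2 - 1) * e - algebraMap B F b) < 1 ∧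
          b - ρ ∈ IsLocalRing.maximalIdeal B) ∧
        (∃ b : B, V₂.valuation (y ^ (q ^ 2 - 1) * e - algebraMap B F b) < 1 ∧
          b - ρ ∈ IsLocalRing.maximalIdeal B) ∧
        (∃ b : B, V₃.valuation (y ^ (q ^ 2 - 1) * e - algebraMap B F b) < 1 ∧
          b - ρ ∈ IsLocalRing.maximalIdeal B))
    (hOne : ∀ (y : F) (ε : B) (V : ValuationSubring F), V = V₁ ∨ V = V₂ ∨ V = V₃ →
      (∀ b : B, algebraMap B F b ∈ V) →
      (∃ zα : B, algebraMap B F zα = φα ζ') → (∃ zβ : B, algebraMap B F zβ = φβ ζ') →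
      v = algebraMap B F ε * y ^ n →
      (∃ b₁ : B, H17T3.Cg V y (algebraMap B F b₁)) →
      ∃ ρ : B, IsUnit ρ ∧
        ∃ b : B, V.valuation (y ^ (q ^ 2 - 1) * e - algebraMap B F b) < 1 ∧
          b - ρ ∈ IsLocalRing.maximalIdeal B)
    (hBR : BRAt R c 𝔫 V₁ V₂ V₃ n)
    (hne : ∃ V : ValuationSubring F, (V = V₁ ∨ V = V₂ ∨ V = V₃) ∧ Through R c 𝔫 V)
    (hloc : Gen3At R c 𝔫 V₁ V₂ V₃ φα φβ Nα Nβ V₁' V₂' n v cα cβ) :
    ∃ h : F, (∀ V : ValuationSubring F, V = V₁ ∨ V = V₂ ∨ V = V₃ →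
        V.valuation (h - 1) < 1) ∧
      InLoc R c 𝔫 (v ^ (q ^ 2 - 1) * e ^ n * h ^ n) := by
  classical
  have hφ : Function.Injective (algebraMap B F) := IsFractionRing.injective B F
  obtain ⟨⟨ε, y, hy0, hε0, hε, hε', hvε, hhalf⟩, hcase⟩ := hloc
  obtain ⟨εB, hεu, hεB⟩ := wire_unit R c 𝔫 B hφ ε hε hε' hε0
  have hvB : v = algebraMap B F εB * y ^ n := by rw [hεB]; exact hvε
  obtain ⟨ρ, hρ, hbB⟩ := gen3_tor_loc R c 𝔫 B V₁ V₂ V₃ hchart φα φβ Nα Nβ V₁' V₂' ζ' q n hn0 hζ'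
    v e cα cβ hv hTri hOne hBR hne ε y hε0 hε' hvε εB hεB hhalf hcase
  have hmem3 : ∀ V : ValuationSubring F, V ∈ ({V₁, V₂, V₃} : Finset (ValuationSubring F)) ↔
      (V = V₁ ∨ V = V₂ ∨ V = V₃) := by
    intro V
    rw [Finset.mem_insert, Finset.mem_insert, Finset.mem_singleton]
  have hm₁ : ∀ V, V ∈ ({V₁, V₂, V₃} : Finset (ValuationSubring F)).filter
      (fun V => Through R c 𝔫 V) ↔ (V = V₁ ∨ V = V₂ ∨ V = V₃) ∧ Through R c 𝔫 V := by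
    intro V; rw [Finset.mem_filter, hmem3]
  have hm₂ : ∀ V, V ∈ ({V₁, V₂, V₃} : Finset (ValuationSubring F)).filter
      (fun V => ¬ Through R c 𝔫 V) ↔ (V = V₁ ∨ V = V₂ ∨ V = V₃) ∧ ¬ Through R c 𝔫 V := by
    intro V; rw [Finset.mem_filter, hmem3]
  have h𝒱₁ne : (({V₁, V₂, V₃} : Finset (ValuationSubring F)).filter
      (fun V => Through R c 𝔫 V)).Nonempty := by
    obtain ⟨V, hV, hT⟩ := hne
    exact ⟨V, (hm₁ V).mpr ⟨hV, hT⟩⟩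
  have he0 : e ≠ 0 := by
    obtain ⟨V, hV, -⟩ := hne
    intro h0
    have := he V hV
    rw [h0, zero_pow hn0.ne', zero_sub, Valuation.map_neg, map_one] at this
    exact lt_irrefl _ this
  have hy0' : y ^ (q ^ 2 - 1) * e ≠ 0 := mul_ne_zero (pow_ne_zero _ hy0) he0
  obtain ⟨h, hh1, hh2, hh3⟩ := mlocAt_B R K c 𝔫 B ϖ hϖ0
    (({V₁, V₂, V₃} : Finset (ValuationSubring F)).filter (fun V => Through R c 𝔫 V))
    (({V₁, V₂, V₃} : Finset (ValuationSubring F)).filter (fun V => ¬ Through R c 𝔫 V))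
    h𝒱₁ne
    (fun V hV => hDVR V ((hm₂ V).mp hV).1)
    (fun V hV => hchart V ((hm₁ V).mp hV).1)
    (fun V hV => hchart V ((hm₂ V).mp hV).1)
    (fun V hV => hϖV V ((hm₁ V).mp hV).1)
    (fun V hV => ((hm₁ V).mp hV).2) (fun V hV => ((hm₂ V).mp hV).2)
    n hn (v ^ (q ^ 2 - 1) * e ^ n)
    (fun V hV => H17T3.h17t3_v' V v e n (q ^ 2 - 1) (hv V ((hm₁ V).mp hV).1)
      (he V ((hm₁ V).mp hV).1))
    (εB ^ (q ^ 2 - 1)) (hεu.pow _) (y ^ (q ^ 2 - 1) * e) hy0'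
    (H17T3.h17t3_v'_eq (algebraMap B F) v y e εB n (q ^ 2 - 1) hvB)
    ρ hρ (fun V hV => hbB V ((hm₁ V).mp hV).1 ((hm₁ V).mp hV).2)
  refine ⟨h, fun V hV => ?_, hh3⟩
  by_cases hT : Through R c 𝔫 V
  · exact hh1 V ((hm₁ V).mpr ⟨hV, hT⟩)
  · exact hh2 V ((hm₂ V).mpr ⟨hV, hT⟩)

end GenBLoc

/-- **(GEN3-ASM), chart level**: `H1G3.MLoc` for `v^(q²-1) · eⁿ` in the chart `c`. -/
theorem gen3_mloc_loc (ϖ : R) (hϖ0 : ϖ ≠ 0) (c : F) [FiniteDimensional K⟮c⟯ F]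
    (V₁ V₂ V₃ : ValuationSubring F)
    (hDVR : ∀ V : ValuationSubring F, V = V₁ ∨ V = V₂ ∨ V = V₃ → IsDiscreteValuationRing V)
    (hchart : ∀ V : ValuationSubring F, V = V₁ ∨ V = V₂ ∨ V = V₃ →
      ∀ x : Chart R c, (x : F) ∈ V)
    (hϖV : ∀ V : ValuationSubring F, V = V₁ ∨ V = V₂ ∨ V = V₃ →
      V.valuation (algebraMap R F ϖ) < 1)
    (φα φβ : F' →+* F) (Nα Nβ : F →* F') (V₁' V₂' : ValuationSubring F')
    (ζ' : F') (q n : ℕ) (hn0 : 0 < n) (hn : IsUnit (n : R)) (hζ' : ζ' ^ n = 1)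
    (v e : F) (cα cβ : F')
    (hv : ∀ V : ValuationSubring F, V = V₁ ∨ V = V₂ ∨ V = V₃ → V.valuation (v - 1) < 1)
    (he : ∀ V : ValuationSubring F, V = V₁ ∨ V = V₂ ∨ V = V₃ →
      V.valuation (e ^ n - 1) < 1)
    (hTri : ∀ (B : Type) [CommRing B] [IsLocalRing B] (φB : B →+* F) (y : F) (ε : B),
      (∀ b : B, φB b ∈ V₁) → (∀ b : B, φB b ∈ V₂) → (∀ b : B, φB b ∈ V₃) →
      (∃ zα : B, φB zα = φα ζ') → (∃ zβ : B, φB zβ = φβ ζ') →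
      v = φB ε * y ^ n →
      H17T3.HalfDataC φα Nα φB V₃ V₁' V₂' n ε cα → H17T3.HalfDataC φβ Nβ φB V₃ V₂' V₁' n ε cβ →
      (∃ b₁ : B, H17T3.Cg V₁ y (φB b₁)) → (∃ b₂ : B, H17T3.Cg V₂ y (φB b₂)) →
      (∃ b₃ : B, H17T3.Cg V₃ y (φB b₃)) →
      ∃ ρ : B, IsUnit ρ ∧
        (∃ b : B, V₁.valuation (y ^ (q ^ 2 - 1) * e - φB b) < 1 ∧
          b - ρ ∈ IsLocalRing.maximalIdeal B) ∧
        (∃ b : B, V₂.valuation (y ^ (q ^ 2 - 1) * e - φB b) < 1 ∧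
          b - ρ ∈ IsLocalRing.maximalIdeal B) ∧
        (∃ b : B, V₃.valuation (y ^ (q ^ 2 - 1) * e - φB b) < 1 ∧
          b - ρ ∈ IsLocalRing.maximalIdeal B))
    (hOne : ∀ (B : Type) [CommRing B] [IsLocalRing B] (φB : B →+* F) (y : F) (ε : B)
      (V : ValuationSubring F), V = V₁ ∨ V = V₂ ∨ V = V₃ →
      (∀ b : B, φB b ∈ V) →
      (∃ zα : B, φB zα = φα ζ') → (∃ zβ : B, φB zβ = φβ ζ') →
      v = φB ε * y ^ n →
      (∃ b₁ : B, H17T3.Cg V y (φB b₁)) →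
      ∃ ρ : B, IsUnit ρ ∧
        ∃ b : B, V.valuation (y ^ (q ^ 2 - 1) * e - φB b) < 1 ∧
          b - ρ ∈ IsLocalRing.maximalIdeal B)
    (hBR : ∀ 𝔫 : Ideal (Chart R c), IsClosedPt R ϖ c 𝔫 → BRAt R c 𝔫 V₁ V₂ V₃ n)
    (hne : ∀ 𝔫 : Ideal (Chart R c), IsClosedPt R ϖ c 𝔫 →
      ∃ V : ValuationSubring F, (V = V₁ ∨ V = V₂ ∨ V = V₃) ∧ Through R c 𝔫 V)
    (hloc : ∀ 𝔫 : Ideal (Chart R c), IsClosedPt R ϖ c 𝔫 →
      Gen3At R c 𝔫 V₁ V₂ V₃ φα φβ Nα Nβ V₁' V₂' n v cα cβ) :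
    H1G3.MLoc R ϖ ({V₁, V₂, V₃} : Set (ValuationSubring F)) c n (v ^ (q ^ 2 - 1) * e ^ n) := by
  intro 𝔫 h𝔫
  haveI : 𝔫.IsPrime := h𝔫.1.isPrime
  haveI := H22BR.bsub_atPrime R K c 𝔫
  haveI := H22BR.bsub_tower R K c 𝔫
  haveI := H22BR.loc_isDomain R c 𝔫 (H22BR.Bsub R K c 𝔫)
  haveI := H22BR.loc_isLocalRing R c 𝔫 (H22BR.Bsub R K c 𝔫)
  haveI := H22BR.loc_isFractionRing R K c 𝔫 (H22BR.Bsub R K c 𝔫)
  obtain ⟨h, hh1, hh2⟩ := gen3_point_gen_loc R K c 𝔫 (H22BR.Bsub R K c 𝔫) ϖ hϖ0 V₁ V₂ V₃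
    hDVR hchart hϖV φα φβ Nα Nβ V₁' V₂' ζ' q n hn0 hn hζ' v e cα cβ hv he
    (fun y ε => hTri (H22BR.Bsub R K c 𝔫) (algebraMap (H22BR.Bsub R K c 𝔫) F) y ε)
    (fun y ε V => hOne (H22BR.Bsub R K c 𝔫) (algebraMap (H22BR.Bsub R K c 𝔫) F) y ε V)
    (hBR 𝔫 h𝔫) (hne 𝔫 h𝔫) (hloc 𝔫 h𝔫)
  refine ⟨h, fun V hV => ?_, hh2⟩
  have hV' : V = V₁ ∨ V = V₂ ∨ V = V₃ := by
    rcases hV with h | h | h
    · exact Or.inl h
    · exact Or.inr (Or.inl h)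
    · exact Or.inr (Or.inr h)
  exact hh1 V hV'

end PointLoc

section LeafLoc

variable (R : Type) [CommRing R] [IsDomain R] [IsDiscreteValuationRing R]
  (K : Type) [Field K] [CharZero K] [Algebra R K] [IsFractionRing R K]
  (F : Type) [Field F] [Algebra K F] [Algebra R F] [IsScalarTower R K F]
  (F' : Type) [Field F'] [Algebra K F'] [Algebra R F'] [IsScalarTower R K F']

/-- **the local leaf `H4S36.MLocLeaf`** from `H4S36.Triple`, `n`-root closedness of the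
components and the local package `H10G3.Gen3At` at every closed point of both charts. -/
theorem mlocLeaf_of_gen3_loc (ϖ : R) (hϖ : Irreducible ϖ) (t : F) (ht : Transcendental K t)
    (hfin : FiniteDimensional K⟮t⟯ F)
    (q n : ℕ) (hq : 2 ≤ q) (hn : IsUnit (n : R)) (hζ : ∃ ζ : R, IsPrimitiveRoot ζ n)
    (φα φβ : F' →+* F) (Nα Nβ : F →* F')
    (V₁ V₂ V₃ : ValuationSubring F) (V₁' V₂' : ValuationSubring F') (b₃ : F)
    (hT : H4S36.Triple R K F F' ϖ t q n φα φβ Nα Nβ V₁ V₂ V₃ V₁' V₂' b₃)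
    (hBRz : ∀ 𝔫 : Ideal (Chart R t), IsClosedPt R ϖ t 𝔫 → BRAt R t 𝔫 V₁ V₂ V₃ n)
    (hBRi : ∀ 𝔫 : Ideal (Chart R t⁻¹), IsClosedPt R ϖ t⁻¹ 𝔫 → BRAt R t⁻¹ 𝔫 V₁ V₂ V₃ n)
    (hloc : ∀ v : F, v ≠ 0 → H4S36.One3 V₁ V₂ V₃ v → (∀ V : Place K F, (n : ℤ) ∣ V.ord v) →
      ∀ rα rβ : R, (∃ G : F', G ≠ 0 ∧ Nα v = algebraMap R F' (1 + ϖ * rα) * G ^ n) →
        (∃ G : F', G ≠ 0 ∧ Nβ v = algebraMap R F' (1 + ϖ * rβ) * G ^ n) →
        (∀ 𝔫 : Ideal (Chart R t), IsClosedPt R ϖ t 𝔫 →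
          Gen3At R t 𝔫 V₁ V₂ V₃ φα φβ Nα Nβ V₁' V₂' n v
            (algebraMap R F' (1 + ϖ * rα)) (algebraMap R F' (1 + ϖ * rβ))) ∧
        (∀ 𝔫 : Ideal (Chart R t⁻¹), IsClosedPt R ϖ t⁻¹ 𝔫 →
          Gen3At R t⁻¹ 𝔫 V₁ V₂ V₃ φα φβ Nα Nβ V₁' V₂' n v
            (algebraMap R F' (1 + ϖ * rα)) (algebraMap R F' (1 + ϖ * rβ)))) :
    H4S36.MLocLeaf R K F F' ϖ t q n Nα Nβ V₁ V₂ V₃ := by
  classical
  intro v hv0 hv1 hdiv hNα hNβ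
  obtain ⟨rα, Gα, hGα0, hGα⟩ := hNα
  obtain ⟨rβ, Gβ, hGβ0, hGβ⟩ := hNβ
  obtain ⟨hlocz, hloci⟩ := hloc v hv0 hv1 hdiv rα rβ ⟨Gα, hGα0, hGα⟩ ⟨Gβ, hGβ0, hGβ⟩
  haveI := hfin
  have ht' : Transcendental K t⁻¹ := H19S18.h19_transc_inv K ht
  have htR : Transcendental R t := H19S18.h19_transc R K ht
  have htR' : Transcendental R t⁻¹ := H19S18.h19_transc R K ht'
  haveI hfin' : FiniteDimensional K⟮t⁻¹⟯ F :=
    H21S18.finiteDimensional_transport (H21S18.adjoin_inv_eq (K := K) t).symm hfin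
  have hn0 : 0 < n := by
    rcases Nat.eq_zero_or_pos n with h | h
    · exfalso
      rw [h, Nat.cast_zero] at hn
      exact not_isUnit_zero hn
    · exact h
  have hq0 : 0 < q := by omega
  have hinjF : Function.Injective (algebraMap R F) := H19S18.h19_algebraMap_injective R K
  have hinjF' : Function.Injective (algebraMap R F') := H19S18.h19_algebraMap_injective R K
  have hϖF : algebraMap R F ϖ ≠ 0 := fun h => hϖ.ne_zero (hinjF (by rw [h, map_zero]))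
  -- `b₃ ≠ 0`, `v₃(ϖ) < 1`
  have hq1 : ((q : ℤ) - 1) = ((q - 1 : ℕ) : ℤ) := by
    rw [Nat.cast_sub (by omega : 1 ≤ q)]; rfl
  have he₃ := hT.he₃
  unfold H4S36.OrdAt at he₃
  rw [hq1, zpow_neg, zpow_natCast] at he₃
  have hb₃0 : b₃ ≠ 0 := by
    intro h0
    rw [h0, zero_pow (by omega : q - 1 ≠ 0), inv_zero, mul_zero, map_zero] at he₃
    exact zero_ne_one he₃
  have hϖ₃ : V₃.valuation (algebraMap R F ϖ) < 1 := by
    have e : algebraMap R F ϖ = algebraMap R F ϖ * (b₃ ^ (q - 1))⁻¹ * b₃ ^ (q - 1) := by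
      field_simp
    rw [e, Valuation.map_mul, he₃, one_mul]
    exact val_pow_lt_one V₃ hT.hb₃ (q - 1) (by omega)
  have hϖV : ∀ V : ValuationSubring F, V = V₁ ∨ V = V₂ ∨ V = V₃ →
      V.valuation (algebraMap R F ϖ) < 1 := by
    intro V hV
    rcases hV with h | h | h
    · rw [h]; exact hT.hϖ₁
    · rw [h]; exact hT.hϖ₂
    · rw [h]; exact hϖ₃
  have hDVR : ∀ V : ValuationSubring F, V = V₁ ∨ V = V₂ ∨ V = V₃ →
      IsDiscreteValuationRing V := by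
    intro V hV
    rcases hV with h | h | h
    · rw [h]; exact dvr_of_ordAt V₁ _ hT.hϖ₁ hϖF hT.hd₁
    · rw [h]; exact dvr_of_ordAt V₂ _ hT.hϖ₂ hϖF hT.hd₂
    · rw [h]; exact dvr_of_ordAt V₃ _ hT.hb₃ hb₃0 hT.hd₃
  have hmemF : ∀ V : ValuationSubring F, V ∈ ({V₁, V₂, V₃} : Finset (ValuationSubring F)) ↔
      (V = V₁ ∨ V = V₂ ∨ V = V₃) := by
    intro V
    rw [Finset.mem_insert, Finset.mem_insert, Finset.mem_singleton]
  have hO3 : ∀ x : F, GInt R ϖ t x → ∀ V : ValuationSubring F, V = V₁ ∨ V = V₂ ∨ V = V₃ →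
      x ∈ V := by
    intro x hx V hV
    obtain ⟨h1, h2, h3⟩ := (hT.hO x).mp hx
    rcases hV with h | h | h
    · rw [h]; exact h1
    · rw [h]; exact h2
    · rw [h]; exact h3
  have hchartz : ∀ V : ValuationSubring F, V = V₁ ∨ V = V₂ ∨ V = V₃ →
      ∀ x : Chart R t, (x : F) ∈ V := fun V hV x =>
    hO3 _ (H19S18.h19_gint_of_isInt R htR hϖ x.2) V hV
  have hcharti : ∀ V : ValuationSubring F, V = V₁ ∨ V = V₂ ∨ V = V₃ →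
      ∀ x : Chart R t⁻¹, (x : F) ∈ V := fun V hV x =>
    hO3 _ (H19S18.h19_gint_of_isInt_inv R htR htR' hϖ x.2) V hV
  have hv : ∀ V : ValuationSubring F, V = V₁ ∨ V = V₂ ∨ V = V₃ →
      V.valuation (v - 1) < 1 := by
    intro V hV
    rcases hV with h | h | h
    · rw [h]; exact hv1.1
    · rw [h]; exact hv1.2.1
    · rw [h]; exact hv1.2.2
  -- the primitive root in `F'`
  obtain ⟨ζ, hζp⟩ := hζ
  have hζ' : IsPrimitiveRoot (algebraMap R F' ζ) n := hζp.map_of_injective hinjF'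
  -- the constants `≡ 1`
  have hc1 : ∀ (V' : ValuationSubring F') (hR : ∀ r : R, algebraMap R F' r ∈ V')
      (hϖ' : V'.valuation (algebraMap R F' ϖ) < 1) (r : R),
      H17T3.Cg V' (algebraMap R F' (1 + ϖ * r)) 1 := by
    intro V' hR hϖ' r
    unfold H17T3.Cg
    have e : algebraMap R F' (1 + ϖ * r) - 1 = algebraMap R F' r * algebraMap R F' ϖ := by
      rw [map_add, map_one, map_mul]; ring
    rw [e]
    exact val_mul_lt_of_mem V' (hR r) hϖ'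
  -- weak approximation
  obtain ⟨g₁, -, hg₁1, hg₁2, hg₁3⟩ := hT.wa 0 1 1
  obtain ⟨Ψ₁, hΨ₁1, hΨ₁2, hΨ₁3⟩ := hT.wg g₁⁻¹ 1 1
    (by rw [map_inv₀, ordAt_zero hg₁1, inv_one]) (map_one _) (map_one _)
  obtain ⟨h11, h12, h13⟩ := exists_t_of V₁ V₂ V₃ g₁ (ordAt_zero hg₁1)
    (ordAt_one_lt hT.hϖ₂ hg₁2) (ordAt_one_lt hT.hb₃ hg₁3) Ψ₁ hΨ₁1 hΨ₁2 hΨ₁3
  obtain ⟨g₂, -, hg₂1, hg₂2, hg₂3⟩ := hT.wa 1 0 1
  obtain ⟨Ψ₂, hΨ₂1, hΨ₂2, hΨ₂3⟩ := hT.wg 1 g₂⁻¹ 1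
    (map_one _) (by rw [map_inv₀, ordAt_zero hg₂2, inv_one]) (map_one _)
  obtain ⟨h22, h21, h23⟩ := exists_t_of V₂ V₁ V₃ g₂ (ordAt_zero hg₂2)
    (ordAt_one_lt hT.hϖ₁ hg₂1) (ordAt_one_lt hT.hb₃ hg₂3) Ψ₂ hΨ₂2 hΨ₂1 hΨ₂3
  -- (TOR3)
  obtain ⟨e, he₁, he₂, he₃', hTri, hOne⟩ := H17T3.h17t3_toric_c.{0, 0, 0, 0} φα φβ Nα Nβ
    V₁ V₂ V₃ V₁' V₂' q n hq0 hn0 hT.hα₁ hT.hα₂ hT.cNα₁ hT.cNα₂ hT.hβ₂ hT.hβ₁ hT.cNβ₂ hT.cNβ₁
    (algebraMap R F' ζ) hζ' (g₁ * Ψ₁) (g₂ * Ψ₂) h11 h12 h13 h21 h22 h23 v Gα Gβ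
    (algebraMap R F' (1 + ϖ * rα)) (algebraMap R F' (1 + ϖ * rβ)) hGα hGβ
    (hc1 V₁' hT.hR₁' hT.hϖ₁' rα) (hc1 V₂' hT.hR₂' hT.hϖ₂' rα)
    (hc1 V₁' hT.hR₁' hT.hϖ₁' rβ) (hc1 V₂' hT.hR₂' hT.hϖ₂' rβ) hv1.1 hv1.2.1 hv1.2.2
  have he : ∀ V : ValuationSubring F, V = V₁ ∨ V = V₂ ∨ V = V₃ →
      V.valuation (e ^ n - 1) < 1 := by
    intro V hV
    rcases hV with h | h | h
    · rw [h]; exact he₁
    · rw [h]; exact he₂
    · rw [h]; exact he₃'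
  have he0 : e ≠ 0 := by
    intro h0
    have := he₁
    unfold H17T3.Cg at this
    rw [h0, zero_pow hn0.ne', zero_sub, Valuation.map_neg, map_one] at this
    exact lt_irrefl _ this
  -- every closed point lies on a component
  have hOf : ∀ x : F, GInt R ϖ t x →
      ∀ V ∈ ({V₁, V₂, V₃} : Finset (ValuationSubring F)), x ∈ V := fun x hx V hV =>
    hO3 x hx V ((hmemF V).mp hV)
  have hJf : ∀ x : F, (∀ V ∈ ({V₁, V₂, V₃} : Finset (ValuationSubring F)),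
      V.valuation x < 1) → ModPi R ϖ t (x ^ q) 0 := fun x hx =>
    hT.hJ x (hx V₁ ((hmemF V₁).mpr (Or.inl rfl))) (hx V₂ ((hmemF V₂).mpr (Or.inr (Or.inl rfl))))
      (hx V₃ ((hmemF V₃).mpr (Or.inr (Or.inr rfl))))
  have hnez : ∀ 𝔫 : Ideal (Chart R t), IsClosedPt R ϖ t 𝔫 →
      ∃ V : ValuationSubring F, (V = V₁ ∨ V = V₂ ∨ V = V₃) ∧ Through R t 𝔫 V := by
    intro 𝔫 h𝔫
    obtain ⟨V, hV, hTh⟩ := through_exists R K ϖ hϖ t ht _ hOf q hJf 𝔫 h𝔫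
    exact ⟨V, (hmemF V).mp hV, hTh⟩
  have hnei : ∀ 𝔫 : Ideal (Chart R t⁻¹), IsClosedPt R ϖ t⁻¹ 𝔫 →
      ∃ V : ValuationSubring F, (V = V₁ ∨ V = V₂ ∨ V = V₃) ∧ Through R t⁻¹ 𝔫 V := by
    intro 𝔫 h𝔫
    obtain ⟨V, hV, hTh⟩ := through_exists_inv R K ϖ hϖ t ht _ hOf q hJf 𝔫 h𝔫
    exact ⟨V, (hmemF V).mp hV, hTh⟩
  have hζ'n : (algebraMap R F' ζ) ^ n = 1 := hζ'.pow_eq_one
  refine ⟨e, he0, ⟨he₁, he₂, he₃'⟩, ?_, ?_⟩
  · exact gen3_mloc_loc R K ϖ hϖ.ne_zero t V₁ V₂ V₃ hDVR hchartz hϖV φα φβ Nα Nβ V₁' V₂'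
      (algebraMap R F' ζ) q n hn0 hn hζ'n v e _ _ hv he hTri hOne hBRz hnez hlocz
  · exact gen3_mloc_loc R K ϖ hϖ.ne_zero t⁻¹ V₁ V₂ V₃ hDVR hcharti hϖV φα φβ Nα Nβ V₁' V₂'
      (algebraMap R F' ζ) q n hn0 hn hζ'n v e _ _ hv he hTri hOne hBRi hnei hloci

end LeafLoc

end H10G3

end
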