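/-
helper24: item 86 (S36), input **(H_W2)**: `(H_W)` for the Atkin–Lehner involution `W_{q²}` at
level `M q q`.

`R = descVal A K₁`, `F = FK K₁ (M q q)`, `W = H12WQ.wq2KHom K₁ M q`, `t` the base function of
kind `baseKind q`.  At every PRIME dich point `𝔫` of a chart `c` (`c = t`, or `c = t⁻¹` and
`t⁻¹ ∈ 𝔫`):   `W t ∈ B_𝔫`   or   (`(W t)⁻¹ ∈ B_𝔫` and `W t ∉ B_𝔫`),
i.e. `H26WT.HWAt R W t`.

Proof: the `j`-dichotomy (`j ∈ B_𝔫` or `j⁻¹ ∈ 𝔪 B_𝔫`) propagates along the modular equation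
`Φ_q(j, j_q) = 0`, `Φ_q(j_q, j_{q²}) = 0` (`j_dich_step`), `W j = j_{q²}`, and
`W j · (W t)^k = G(W t)`.
-/
import Mathlib
import Fermat.Agent.S34.HW_helper24
import Fermat.Agent.S34.WTransport_helper26
import Fermat.Agent.S36.ALQ2_helper12

set_option autoImplicit false
set_option linter.unusedSectionVars false
set_option linter.unusedVariables false
set_option linter.style.haveILetI false
set_option linter.style.longLine false
set_option synthInstance.maxHeartbeats 400000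

open Polynomial IntermediateField ModularCurve

noncomputable section

namespace H24HW

open H27CS H4S34 H7S18

/-! ### abstract part -/

section abs2

variable {B : Type*} [CommRing B] [IsDomain B] [IsIntegrallyClosed B] [IsLocalRing B]
variable {F : Type*} [Field F] [Algebra B F] [IsFractionRing B F]
variable {p : ℕ} [NeZero p]

/-- the `j`-dichotomy propagates along the modular equation -/
theorem j_dich_step {Φ : Polynomial (Polynomial ℤ)} (hΦ : IsModPoly p Φ) (hmon : Φ.Monic)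
    (hdeg : Φ.natDegree = p + 1) {J J' : F} (hJ' : J' ≠ 0) (h : ev2 Φ J J' = 0)
    (hJ : J ∈ (algebraMap B F).range ∨
      ∃ U ∈ IsLocalRing.maximalIdeal B, J * algebraMap B F U = 1) :
    J' ∈ (algebraMap B F).range ∨
      ∃ V ∈ IsLocalRing.maximalIdeal B, J' * algebraMap B F V = 1 := by
  rcases hJ with ⟨b, rfl⟩ | ⟨U, hU, hJU⟩
  · left
    have hcomp : (algebraMap B F).comp (ev b) = ev (algebraMap B F b) :=
      RingHom.ext (fun c => map_ev _ b c)
    have hJ'int : IsIntegral B J' := by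
      refine ⟨Φ.map (ev b), hmon.map _, ?_⟩
      rw [Polynomial.eval₂_map, hcomp]
      exact h
    obtain ⟨b', hb'⟩ := IsIntegrallyClosed.algebraMap_eq_of_integral hJ'int
    exact ⟨b', hb'⟩
  · right
    obtain ⟨V, e, c, W, hV, -, -, -, hVm⟩ := exists_V_e hΦ hmon hdeg hJ' h hU hJU
    exact ⟨V, hVm, by rw [hV, mul_inv_cancel₀ hJ']⟩

/-- **(H_W2), abstract form.** -/
theorem hw_abs2 {Φ : Polynomial (Polynomial ℤ)} (hΦ : IsModPoly p Φ) (hmon : Φ.Monic)
    (hdeg : Φ.natDegree = p + 1) {J J₁ J₂ T' : F} (hJ₁ : J₁ ≠ 0) (hJ₂ : J₂ ≠ 0)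
    (h1 : ev2 Φ J J₁ = 0) (h2 : ev2 Φ J₁ J₂ = 0)
    (hJ : J ∈ (algebraMap B F).range ∨
      ∃ U ∈ IsLocalRing.maximalIdeal B, J * algebraMap B F U = 1)
    (G : Polynomial ℤ) (hG : G.Monic) (k : ℕ) (hk : k < G.natDegree)
    (hrel : ev T' G = J₂ * T' ^ k) :
    T' ∈ (algebraMap B F).range ∨ T'⁻¹ ∈ (algebraMap B F).range :=
  hw_abs hΦ hmon hdeg hJ₂ h2 (j_dich_step hΦ hmon hdeg hJ₁ h1 hJ) G hG k hk hrel

end abs2

/-! ### semi-generic part -/

section gen2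

variable (R : Type) [CommRing R] [IsDomain R] [IsDiscreteValuationRing R]
  (K : Type) [Field K] [CharZero K] [Algebra R K] [IsFractionRing R K]
  {F : Type} [Field F] [Algebra K F] [Algebra R F] [IsScalarTower R K F]

/-- the `j`-dichotomy at a dich point of a chart -/
theorem j_dich_chart_B (c : F) [FiniteDimensional K⟮c⟯ F] (𝔫 : Ideal (Chart R c)) [𝔫.IsPrime]
    (B : Type) [CommRing B] [Algebra (Chart R c) B] [IsLocalization.AtPrime B 𝔫]
    [Algebra B F] [IsScalarTower (Chart R c) B F]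
    [IsDomain B] [IsLocalRing B] [IsIntegrallyClosed B] [IsFractionRing B F]
    (J T : F) (G : Polynomial ℤ) (hG : G.Monic) (k : ℕ) (hk : k < G.natDegree)
    (hrel : ev T G = J * T ^ k)
    (hu : k = 0 ∨ IsUnit (((G.coeff 0 : ℤ) : R)))
    (hT0 : T ≠ 0)
    (hc : c = T ∨ (c = T⁻¹ ∧ ∀ y : Chart R c, (y : F) = T⁻¹ → y ∈ 𝔫)) :
    J ∈ (algebraMap B F).range ∨
      ∃ U ∈ IsLocalRing.maximalIdeal B, J * algebraMap B F U = 1 := by
  have hval : ∀ y : Chart R c, algebraMap B F (algebraMap (Chart R c) B y) = (y : F) := fun y =>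
    (IsScalarTower.algebraMap_apply (Chart R c) B F y).symm
  rcases hc with hcT | ⟨hcT, hn⟩
  · -- chart `T`
    have hTB : T ∈ (algebraMap B F).range := by
      refine ⟨algebraMap (Chart R c) B ⟨c, chart_self_mem R c⟩, ?_⟩
      rw [hval]
      exact hcT
    refine j_dich_of_mem G k hrel hTB ?_
    rcases hu with h | h
    · exact Or.inl h
    · right
      obtain ⟨r', hr'⟩ := h.exists_right_inv
      have h1 : (((G.coeff 0 : ℤ) : F)) * algebraMap R F r' = 1 := by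
        have := congrArg (algebraMap R F) hr'
        rwa [map_mul, map_intCast, map_one] at this
      refine IsUnit.of_mul_eq_one
        (algebraMap (Chart R c) B ⟨algebraMap R F r', chart_const_mem R c r'⟩) ?_
      apply IsFractionRing.injective B F
      rw [map_mul, map_intCast, hval, map_one]
      exact h1
  · -- chart `T⁻¹` over `T = ∞`
    right
    have hU0 : (⟨c, chart_self_mem R c⟩ : Chart R c) ∈ 𝔫 := hn _ hcT
    refine j_dich_of_inv G hG k hk hrel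
      (algebraMap (Chart R c) B ⟨c, chart_self_mem R c⟩)
      ((IsLocalization.AtPrime.to_map_mem_maximal_iff B 𝔫 _).2 hU0) ?_
    rw [hval]
    show T * c = 1
    rw [hcT, mul_inv_cancel₀ hT0]

/-- **(H_W2), semi-generic form**, for any model `B` of the local ring inside `F`. -/
theorem hw_generic2_B (c : F) [FiniteDimensional K⟮c⟯ F] (𝔫 : Ideal (Chart R c)) [𝔫.IsPrime]
    (B : Type) [CommRing B] [Algebra (Chart R c) B] [IsLocalization.AtPrime B 𝔫]
    [Algebra B F] [IsScalarTower (Chart R c) B F]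
    {p : ℕ} [NeZero p] {Φ : Polynomial (Polynomial ℤ)} (hΦ : IsModPoly p Φ) (hmon : Φ.Monic)
    (hdeg : Φ.natDegree = p + 1) (J J₁ J₂ T T' : F) (hJ₁ : J₁ ≠ 0) (hJ₂ : J₂ ≠ 0)
    (h1 : ev2 Φ J J₁ = 0) (h2 : ev2 Φ J₁ J₂ = 0)
    (G : Polynomial ℤ) (hG : G.Monic) (k : ℕ) (hk : k < G.natDegree)
    (hrel : ev T G = J * T ^ k) (hrel' : ev T' G = J₂ * T' ^ k)
    (hu : k = 0 ∨ IsUnit (((G.coeff 0 : ℤ) : R)))
    (hT0 : T ≠ 0)
    (hc : c = T ∨ (c = T⁻¹ ∧ ∀ y : Chart R c, (y : F) = T⁻¹ → y ∈ 𝔫)) :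
    InLoc R c 𝔫 T' ∨ InLoc R c 𝔫 T'⁻¹ := by
  haveI : IsDomain B := H22BR.loc_isDomain R c 𝔫 B
  haveI : IsLocalRing B := H22BR.loc_isLocalRing R c 𝔫 B
  haveI : IsIntegrallyClosed B := H22BR.loc_intClosed R K c 𝔫 B
  haveI : IsFractionRing B F := H22BR.loc_isFractionRing R K c 𝔫 B
  have hJ := j_dich_chart_B R K c 𝔫 B J T G hG k hk hrel hu hT0 hc
  have hmain := hw_abs2 (B := B) hΦ hmon hdeg hJ₁ hJ₂ h1 h2 hJ G hG k hk hrel'
  rcases hmain with h | h
  · exact Or.inl ((H22BR.inLoc_iff R c 𝔫 B _).2 h)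
  · exact Or.inr ((H22BR.inLoc_iff R c 𝔫 B _).2 h)

/-- **(H_W2), semi-generic form.** -/
theorem hw_generic2 (c : F) [FiniteDimensional K⟮c⟯ F] (𝔫 : Ideal (Chart R c)) [𝔫.IsPrime]
    {p : ℕ} [NeZero p] {Φ : Polynomial (Polynomial ℤ)} (hΦ : IsModPoly p Φ) (hmon : Φ.Monic)
    (hdeg : Φ.natDegree = p + 1) (J J₁ J₂ T T' : F) (hJ₁ : J₁ ≠ 0) (hJ₂ : J₂ ≠ 0)
    (h1 : ev2 Φ J J₁ = 0) (h2 : ev2 Φ J₁ J₂ = 0)
    (G : Polynomial ℤ) (hG : G.Monic) (k : ℕ) (hk : k < G.natDegree)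
    (hrel : ev T G = J * T ^ k) (hrel' : ev T' G = J₂ * T' ^ k)
    (hu : k = 0 ∨ IsUnit (((G.coeff 0 : ℤ) : R)))
    (hT0 : T ≠ 0)
    (hc : c = T ∨ (c = T⁻¹ ∧ ∀ y : Chart R c, (y : F) = T⁻¹ → y ∈ 𝔫)) :
    InLoc R c 𝔫 T' ∨ InLoc R c 𝔫 T'⁻¹ := by
  haveI := H22BR.bsub_atPrime R K c 𝔫
  haveI := H22BR.bsub_tower R K c 𝔫
  exact hw_generic2_B R K c 𝔫 (H22BR.Bsub R K c 𝔫) hΦ hmon hdeg J J₁ J₂ T T' hJ₁ hJ₂ h1 h2
    G hG k hk hrel hrel' hu hT0 hc

end gen2

/-! ### the statement -/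

/-- **(H_W2)**: `(H_W)` for `W_{q²}` at level `M q q`, at every prime dich point of the charts
`t`, `t⁻¹`. -/
def HW2Statement : Prop :=
  ∀ (M : ℕ) [NeZero M] (q : ℕ) [NeZero q] (hq : q.Prime) (hqM : ¬ q ∣ M) (_ : TameLevel q M)
    (A : ValuationSubring (AlgebraicClosure ℚ)) (_ : A.LiesOverPrime q)
    (K₁ : IntermediateField ℚ (AlgebraicClosure ℚ)) (_ : FiniteDimensional ℚ K₁)
    [Algebra ↥(descVal A K₁) (FK K₁ (M * q * q))]
    [IsScalarTower ↥(descVal A K₁) K₁ (FK K₁ (M * q * q))]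
    (t₀ : LaurentSeries ℚ) (_ : IsBase (baseKind q) t₀)
    (t : FK K₁ (M * q * q)) (_ : (t : LaurentSeries K₁) = coeffEmb K₁ t₀),
    H26WT.HWAt ↥(descVal A K₁) (H12WQ.wq2KHom K₁ M q hq hqM) t

set_option maxHeartbeats 1600000 in
/-- **(H_W2)**, proved. -/
theorem h24hw_HW2 : HW2Statement := by
  intro M _ q _ hq hqM hT A hA K₁ hfin _ _ t₀ ht₀ t ht c 𝔫 h𝔫 hdich
  haveI : Fact q.Prime := ⟨hq⟩
  haveI := h𝔫
  obtain ⟨hdvr, -, hunits⟩ := H4DVR.dvrStatement q A hA K₁ hfin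
  haveI := hdvr
  -- field basics
  have hi : baseKind q = 1 ∨ (baseKind q = 2 ∧ 2 ∣ M * q * q) ∨
      (baseKind q = 3 ∧ 3 ∣ M * q * q) := by
    unfold baseKind
    by_cases h2 : q = 2
    · rw [if_pos h2]
      exact Or.inr (Or.inr ⟨rfl, Dvd.dvd.mul_right (Dvd.dvd.mul_right (hT.2.1 h2) q) q⟩)
    · rw [if_neg h2]
      by_cases h3 : q = 3
      · rw [if_pos h3]
        exact Or.inr (Or.inl ⟨rfl, Dvd.dvd.mul_right (Dvd.dvd.mul_right (hT.2.2 h3) q) q⟩)
      · rw [if_neg h3]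
        exact Or.inl rfl
  obtain ⟨t', ht', httr, hfd, -⟩ := H9C6e.fieldBasics (M * q * q) (baseKind q) hi t₀ ht₀ K₁
  have htt : t' = t := Subtype.ext (ht'.trans ht.symm)
  subst htt
  have ht0 : t' ≠ 0 := by
    rintro rfl
    exact httr (isAlgebraic_zero)
  have hfdc : FiniteDimensional K₁⟮c⟯ (FK K₁ (M * q * q)) := by
    rcases hdich with rfl | ⟨rfl, -⟩
    · exact hfd
    · exact H21S18.finiteDimensional_transport (H21S18.adjoin_inv_eq (K := K₁) t').symm hfd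
  haveI := hfdc
  -- the modular equation
  obtain ⟨Φ, Tp, Gp, hΦmon, hΦdeg, -, -, -, hMt⟩ := H15U.exists_modTriple q
  have hΦ : IsModPoly q Φ := fun A' _ ζ hζ => (hMt A' ζ hζ).1
  -- the relation
  obtain ⟨G, k, hG, hk, hG0, hrel⟩ := exists_rel_tame K₁ q hq t₀ ht₀
  -- elements of `F`
  have hjmemM : jqModC K₁ ∈ laurentBaseChange K₁ (modularFunctionFieldFull M) :=
    H28GV.gv_mem_base_of_full M (jqModC_mem_full K₁ M)
  have hjmemMq : jqModC K₁ ∈ laurentBaseChange K₁ (modularFunctionFieldFull (M * q)) :=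
    H28GV.gv_mem_base_of_full (M * q) (jqModC_mem_full K₁ (M * q))
  have hjmem : jqModC K₁ ∈ laurentBaseChange K₁ (modularFunctionFieldFull (M * q * q)) :=
    H28GV.gv_mem_base_of_full (M * q * q) (jqModC_mem_full K₁ (M * q * q))
  have hj1mem : qExpand K₁ q (jqModC K₁) ∈
      laurentBaseChange K₁ (modularFunctionFieldFull (M * q * q)) :=
    H28GV.gv_mem_base_of_full (M * q * q)
      (ModularCurve.jqModCd_mem_full K₁ (M * q * q) ⟨M * q, by ring⟩)
  set jF : FK K₁ (M * q * q) := ⟨jqModC K₁, hjmem⟩ with hjF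
  set j1F : FK K₁ (M * q * q) := ⟨qExpand K₁ q (jqModC K₁), hj1mem⟩ with hj1F
  set W := H12WQ.wq2KHom K₁ M q hq hqM with hW
  set ι : FK K₁ (M * q * q) →+* LaurentSeries K₁ :=
    (laurentBaseChange K₁ (modularFunctionFieldFull (M * q * q))).val.toRingHom with hι
  have hιinj : Function.Injective ι := Subtype.val_injective
  have hιt : ι t' = coeffEmb K₁ t₀ := ht'
  have hιj : ι jF = jqModC K₁ := rfl
  have hιj1 : ι j1F = qExpand K₁ q (jqModC K₁) := rfl
  have hιWj : ι (W jF) = qExpand K₁ q (qExpand K₁ q (jqModC K₁)) :=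
    H12WQ.coe_wq2KHom_of_level_M K₁ M q hq hqM jF ⟨jqModC K₁, hjmemMq⟩ rfl hjmemM
  have hjF0 : jF ≠ 0 := by
    intro h0
    have := congrArg ι h0
    rw [hιj, map_zero] at this
    exact jqModC_ne_zero_of_nontrivial K₁ this
  have hj1F0 : j1F ≠ 0 := by
    intro h0
    have := congrArg ι h0
    rw [hιj1, map_zero] at this
    exact jqModC_ne_zero_of_nontrivial K₁
      ((qExpand K₁ q).injective (this.trans (map_zero _).symm))
  have hJ2 : W jF ≠ 0 := by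
    intro h0
    apply hjF0
    exact W.injective (h0.trans (map_zero _).symm)
  have hΦ1 : ev2 Φ jF j1F = 0 := by
    apply hιinj
    rw [map_ev2, hιj, hιj1, map_zero]
    exact H15U.Phi_root q Φ Tp Gp hMt K₁
  have hΦ2 : ev2 Φ j1F (W jF) = 0 := by
    apply hιinj
    have h0 : ev2 Φ (jqModC K₁) (qExpand K₁ q (jqModC K₁)) = 0 :=
      H15U.Phi_root q Φ Tp Gp hMt K₁
    rw [map_ev2, hιj1, hιWj, map_zero, ← map_ev2, h0, map_zero]
  have hrelE : ev t' G = jF * t' ^ k := by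
    apply hιinj
    rw [map_ev, map_mul, map_pow, hιt, hιj]
    exact hrel
  have hrelW : ev (W t') G = W jF * (W t') ^ k := by
    rw [← map_ev, hrelE, map_mul, map_pow]
  have hu : k = 0 ∨ IsUnit (((G.coeff 0 : ℤ) : ↥(descVal A K₁))) := by
    rcases hG0 with h | ⟨n, hn0, hqn, hGn⟩
    · exact Or.inl h
    · right
      rw [hGn, Int.cast_natCast]
      exact hunits n hqn hn0
  have key := hw_generic2 ↥(descVal A K₁) K₁ c 𝔫 hΦ hΦmon hΦdeg jF j1F (W jF) t' (W t')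
    hj1F0 hJ2 hΦ1 hΦ2 G hG k hk hrelE hrelW hu ht0 hdich
  by_cases hin : InLoc ↥(descVal A K₁) c 𝔫 (W t')
  · exact Or.inl hin
  · exact Or.inr ⟨key.resolve_left hin, hin⟩

end H24HW

end
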