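/-
helper9: item 86 (S36): **branch roots at the points** (`H10G3.BRAt`), all three components,
at every closed point of the charts `t`, `t⁻¹` at the level `M q²`.

* `V₁`, `V₃`: the global forms `H9CU.hBR1_qq`, `H9CU.hBR3_qq` + `H10G3.branchRoot`;
* `V₂ = V₁ ∘ W`: transport by the involution `W = W_{q²}` (`H12WQ.wq2KHom`) to the image point
  (`H26WT.exists_dich_image`, which needs `(H_W)` at the level `M q²`, a HYPOTHESIS here:
  `hHW : H26WT.HWAt R W t`), and chart patching (`w = id`) at the points of the chart `t⁻¹`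
  which are not over `t = ∞`.

Main results:
* `H9CU.br1At_transport` : generic transport of branch roots along an involution;
* `H9CU.brAt_qq`         : `H10G3.BRAt` at every closed point of both charts.
-/
import Mathlib
import Fermat.Agent.S36.BranchRootTG_helper9
import Fermat.Agent.S36.Gen3Loc_helper10
import Fermat.Agent.S34.WTransport_helper26
import Fermat.Agent.S36.HW2_helper24

set_option autoImplicit false
set_option synthInstance.maxHeartbeats 400000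
set_option maxHeartbeats 4000000
set_option linter.unusedSectionVars false
set_option linter.unusedVariables false
set_option linter.style.haveILetI false

noncomputable section

open Polynomial IntermediateField ModularCurve H7S18 H4S34 H26DI H28GV H17T3 H8TG H4S36

namespace H9CU

section gentr

variable {R : Type} [CommRing R] {E : Type} [Field E] [Algebra R E]

/-- branch roots of ONE component at a point -/
def BR1At (R : Type) [CommRing R] {E : Type} [Field E] [Algebra R E]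
    (c : E) (𝔫 : Ideal (Chart R c)) (V : ValuationSubring E) (n : ℕ) : Prop :=
  H10G3.Through R c 𝔫 V →
    ∀ z a : E, InLoc R c 𝔫 a → V.valuation (z ^ n - a) < 1 →
      ∃ d : E, InLoc R c 𝔫 d ∧ V.valuation (z - d) < 1

/-- `B_𝔫 ⊆ V` for `V` through `𝔫` -/
theorem inLoc_mem_vs (c : E) (𝔫 : Ideal (Chart R c)) (V : ValuationSubring E)
    (hchart : ∀ x : Chart R c, (x : E) ∈ V) (hT : H10G3.Through R c 𝔫 V)
    (x : E) (hx : InLoc R c 𝔫 x) : x ∈ V := by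
  obtain ⟨a, s, hs, e⟩ := hx
  have hs1 := hT s hs
  have ha : (a : E) ∈ V := hchart a
  rw [← V.valuation_le_one_iff] at ha ⊢
  have h1 := congrArg V.valuation e
  rw [Valuation.map_mul, hs1, one_mul] at h1
  rw [h1]
  exact ha

/-- **transport of branch roots** along an involution `w` with `w (B_𝔫') = B_𝔫`. -/
theorem br1At_transport (w : E →+* E) (hww : ∀ x, w (w x) = x)
    (c c' : E) (𝔫 : Ideal (Chart R c)) (𝔫' : Ideal (Chart R c'))
    (h𝔫' : 𝔫'.IsPrime)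
    (hloc : ∀ x : E, InLoc R c' 𝔫' x ↔ InLoc R c 𝔫 (w x))
    (V V' : ValuationSubring E)
    (hVm : ∀ x : E, x ∈ V ↔ w x ∈ V')
    (hV : ∀ x : E, V.valuation x < 1 ↔ V'.valuation (w x) < 1)
    (hchart : ∀ x : Chart R c, (x : E) ∈ V)
    (n : ℕ) (hBR' : BR1At R c' 𝔫' V' n) : BR1At R c 𝔫 V n := by
  intro hT z a ha hza
  have hT' : H10G3.Through R c' 𝔫' V' := by
    intro s' hs'
    have hs0 : (s' : E) ≠ 0 := by
      intro h0
      apply hs'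
      have : s' = 0 := Subtype.ext h0
      rw [this]
      exact 𝔫'.zero_mem
    have h1 : InLoc R c' 𝔫' (s' : E) := H26WT.inLoc_coe h𝔫' s'
    have h2 : ¬ H26WT.InMax c' 𝔫' (s' : E) := fun h => hs' ((H26WT.inMax_coe_iff h𝔫' s').mp h)
    have h3 : InLoc R c' 𝔫' (s' : E)⁻¹ := H26WT.inLoc_inv h1 h2
    have h4 : w (s' : E) ∈ V := inLoc_mem_vs c 𝔫 V hchart hT _ ((hloc _).mp h1)
    have h5 : w (s' : E)⁻¹ ∈ V := inLoc_mem_vs c 𝔫 V hchart hT _ ((hloc _).mp h3)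
    rw [hVm, hww] at h4 h5
    rw [← V'.valuation_le_one_iff] at h4 h5
    rw [map_inv₀] at h5
    have hv0 : V'.valuation (s' : E) ≠ 0 := (Valuation.ne_zero_iff _).mpr hs0
    have h6 : 1 ≤ V'.valuation (s' : E) := by
      by_contra hlt
      push Not at hlt
      have := (one_lt_inv₀ (zero_lt_iff.mpr hv0)).mpr hlt
      exact absurd h5 (not_le.mpr this)
    exact le_antisymm h4 h6
  have ha' : InLoc R c' 𝔫' (w a) := (hloc _).mpr (by rw [hww]; exact ha)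
  have hza' : V'.valuation ((w z) ^ n - w a) < 1 := by
    have := (hV _).mp hza
    rwa [map_sub, map_pow] at this
  obtain ⟨d', hd', hzd'⟩ := hBR' hT' (w z) (w a) ha' hza'
  refine ⟨w d', (hloc _).mp hd', (hV _).mpr ?_⟩
  rw [map_sub, hww]
  exact hzd'

end gentr

section patch

variable {R : Type} [CommRing R] [IsDomain R] [IsDiscreteValuationRing R]
  {E : Type} [Field E] [Algebra R E]

/-- **chart patching**: branch roots at the points of the chart `t⁻¹` where `t⁻¹` is a unit,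
from branch roots at the points of the chart `t`. -/
theorem br1At_patch (ϖ : R) (hϖ : Irreducible ϖ) (t : E) (ht0 : t ≠ 0)
    (𝔫 : Ideal (Chart R t⁻¹)) (h𝔫 : IsClosedPt R ϖ t⁻¹ 𝔫)
    (y : Chart R t⁻¹) (hy : (y : E) = t⁻¹) (hy𝔫 : y ∉ 𝔫)
    (V : ValuationSubring E) (hchart : ∀ x : Chart R t⁻¹, (x : E) ∈ V) (n : ℕ)
    (h : ∀ 𝔫' : Ideal (Chart R t), IsClosedPt R ϖ t 𝔫' → BR1At R t 𝔫' V n) :
    BR1At R t⁻¹ 𝔫 V n := by
  have hp := h𝔫.1.isPrime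
  have h1 : InLoc R t⁻¹ 𝔫 (y : E) := H26WT.inLoc_coe hp y
  have h2 : ¬ H26WT.InMax t⁻¹ 𝔫 (y : E) := by
    rw [H26WT.inMax_coe_iff hp]
    exact hy𝔫
  rw [hy] at h1 h2
  have h3 : InLoc R t⁻¹ 𝔫 t := by
    have := H26WT.inLoc_inv h1 h2
    rwa [inv_inv] at this
  obtain ⟨𝔫', hcl, hmem, hl, hm, hiff⟩ :=
    H26WT.exists_image_point (R := R) (c := t⁻¹) (c' := t) (RingHom.id E) (fun _ => rfl)
      (fun _ => rfl) ϖ hϖ h𝔫 h3
  have hp' := hcl.1.isPrime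
  have h4 : InLoc R t 𝔫' t⁻¹ := by
    have h5 : InLoc R t 𝔫' ((H26WT.chartGen R t : Chart R t) : E) :=
      H26WT.inLoc_coe hp' (H26WT.chartGen R t)
    have h6 : ¬ H26WT.InMax t 𝔫' ((H26WT.chartGen R t : Chart R t) : E) := by
      rw [H26WT.inMax_coe_iff hp', hmem]
      intro h7
      exact H26WT.inMax_inv_absurd hp ht0 h7 h1
    exact H26WT.inLoc_inv h5 h6
  have hiff' := hiff h4
  exact br1At_transport (RingHom.id E) (fun _ => rfl) t⁻¹ t 𝔫 𝔫' hp'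
    (fun x => (hiff' x).1) V V (fun _ => Iff.rfl) (fun _ => Iff.rfl) hchart n (h 𝔫' hcl)

end patch

section concrete2

variable (M : ℕ) [NeZero M] (q : ℕ) [NeZero q] (hq : q.Prime) (hqM : ¬ q ∣ M)
  (hT : TameLevel q M)
  (A : ValuationSubring (AlgebraicClosure ℚ)) (hA : A.LiesOverPrime q)
  (K₁ : IntermediateField ℚ (AlgebraicClosure ℚ)) (hfin : FiniteDimensional ℚ K₁)
  (hunr : Irreducible ((q : ℕ) : ↥(descVal A K₁)))
  (hζe : ∃ ζ' : K₁, IsPrimitiveRoot ζ' (branchIndex (baseKind q) M))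
  (K₃ : IntermediateField ℚ (AlgebraicClosure ℚ)) (hfin₃ : FiniteDimensional ℚ K₃)
  (h13 : K₁ ≤ K₃) (ζ : (↥K₃)ˣ) (hζ : IsPrimitiveRoot ζ q)
  [IsDiscreteValuationRing ↥(descVal A K₁)] [IsDiscreteValuationRing ↥(descVal A K₃)]
  [Algebra ↥(descVal A K₁) (FK K₁ (M * q * q))]
  [IsScalarTower ↥(descVal A K₁) K₁ (FK K₁ (M * q * q))]
  (t₀ : LaurentSeries ℚ) (ht₀ : IsBase (baseKind q) t₀)
  (t : FK K₁ (M * q * q)) (ht : (t : LaurentSeries K₁) = coeffEmb K₁ t₀)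
  (wg : ∀ ψ₁ ψ₂ ψ₃ : FK K₁ (M * q * q),
    (cV1 K₁ (descVal A K₁) M q).valuation ψ₁ = 1 →
    (cV2 K₁ (descVal A K₁) M q hq hqM).valuation ψ₂ = 1 →
    (cV3 K₁ M q hq hqM K₃ (descVal A K₃) h13 ζ hζ).valuation ψ₃ = 1 →
    ∃ Ψ : FK K₁ (M * q * q), Cg (cV1 K₁ (descVal A K₁) M q) Ψ ψ₁ ∧
      Cg (cV2 K₁ (descVal A K₁) M q hq hqM) Ψ ψ₂ ∧
      Cg (cV3 K₁ M q hq hqM K₃ (descVal A K₃) h13 ζ hζ) Ψ ψ₃)

include hT hA hfin hunr hfin₃ ht₀ ht in
/-- the chart rings lie in `V₁ ∩ V₂ ∩ V₃` -/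
theorem chart_mem_qq (c : FK K₁ (M * q * q)) (hc : c = t ∨ c = t⁻¹)
    (x : Chart ↥(descVal A K₁) c) :
    (x : FK K₁ (M * q * q)) ∈ cV1 K₁ (descVal A K₁) M q ∧
    (x : FK K₁ (M * q * q)) ∈ cV2 K₁ (descVal A K₁) M q hq hqM ∧
    (x : FK K₁ (M * q * q)) ∈ cV3 K₁ M q hq hqM K₃ (descVal A K₃) h13 ζ hζ := by
  obtain ⟨htr, -⟩ := sq_basics M q hT K₁ (M * q * q) ⟨q * q, by ring⟩ t₀ ht₀ t ht c hc
  have hG := gint_of_chart (descVal A K₁)
    (laurentBaseChange K₁ (modularFunctionFieldFull (M * q * q)))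
    ((q : ℕ) : ↥(descVal A K₁)) hunr t c hc htr x
  exact ((h8tg_tripleGauss M q hq hqM hT A hA K₁ hfin hunr K₃ hfin₃ h13 ζ hζ
    t₀ ht₀ t ht (x : FK K₁ (M * q * q))).1).mp hG

include hT hA hfin hunr hζe hfin₃ ht₀ ht wg in
/-- branch roots of `V₁` at the points -/
theorem br1_qq (c : FK K₁ (M * q * q)) (hc : c = t ∨ c = t⁻¹)
    (𝔫 : Ideal (Chart ↥(descVal A K₁) c)) (n : ℕ) (hn : 0 < n) :
    BR1At ↥(descVal A K₁) c 𝔫 (cV1 K₁ (descVal A K₁) M q) n := by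
  intro hT' z a ha hza
  exact H10G3.branchRoot ↥(descVal A K₁) c 𝔫 (cV1 K₁ (descVal A K₁) M q)
    (fun x => (chart_mem_qq M q hq hqM hT A hA K₁ hfin hunr K₃ hfin₃ h13 ζ hζ
      t₀ ht₀ t ht c hc x).1) hT' n hn
    (fun z a h => hBR1_qq M q hq hqM hT A hA K₁ hfin hunr hζe K₃ hfin₃ h13 ζ hζ
      t₀ ht₀ t ht wg c hc n hn z a h) z a ha hza

include hT hA hfin hunr hζe hfin₃ ht₀ ht wg in
/-- branch roots of `V₃` at the points -/
theorem br3_qq (c : FK K₁ (M * q * q)) (hc : c = t ∨ c = t⁻¹)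
    (𝔫 : Ideal (Chart ↥(descVal A K₁) c)) (n : ℕ) (hn : 0 < n) :
    BR1At ↥(descVal A K₁) c 𝔫 (cV3 K₁ M q hq hqM K₃ (descVal A K₃) h13 ζ hζ) n := by
  intro hT' z a ha hza
  exact H10G3.branchRoot ↥(descVal A K₁) c 𝔫 (cV3 K₁ M q hq hqM K₃ (descVal A K₃) h13 ζ hζ)
    (fun x => (chart_mem_qq M q hq hqM hT A hA K₁ hfin hunr K₃ hfin₃ h13 ζ hζ
      t₀ ht₀ t ht c hc x).2.2) hT' n hn
    (fun z a h => hBR3_qq M q hq hqM hT A hA K₁ hfin hunr hζe K₃ hfin₃ h13 ζ hζ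
      t₀ ht₀ t ht wg c hc n hn z a h) z a ha hza

include hT hA hfin hunr hζe hfin₃ ht₀ ht wg in
/-- branch roots of `V₂` at the dich points (transport by `W_{q²}`) -/
theorem br2_dich (c : FK K₁ (M * q * q))
    (𝔫 : Ideal (Chart ↥(descVal A K₁) c))
    (h𝔫 : IsClosedPt ↥(descVal A K₁) ((q : ℕ) : ↥(descVal A K₁)) c 𝔫)
    (hd : H26DI.IsDichPt t c 𝔫) (n : ℕ) (hn : 0 < n) :
    BR1At ↥(descVal A K₁) c 𝔫 (cV2 K₁ (descVal A K₁) M q hq hqM) n := by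
  have hc : c = t ∨ c = t⁻¹ := hd.elim Or.inl (fun h => Or.inr h.1)
  obtain ⟨htr, -⟩ := sq_basics M q hT K₁ (M * q * q) ⟨q * q, by ring⟩ t₀ ht₀ t ht c hc
  have ht0 : t ≠ 0 := by
    rintro rfl
    exact htr (isAlgebraic_zero)
  have hHW := H24HW.h24hw_HW2 M q hq hqM hT A hA K₁ hfin t₀ ht₀ t ht
  have hww := H12WQ.wq2KHom_invol K₁ M q hq hqM
  have hwR : ∀ r : ↥(descVal A K₁),
      H12WQ.wq2KHom K₁ M q hq hqM (algebraMap ↥(descVal A K₁) (FK K₁ (M * q * q)) r) =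
        algebraMap ↥(descVal A K₁) (FK K₁ (M * q * q)) r := by
    intro r
    rw [IsScalarTower.algebraMap_apply ↥(descVal A K₁) K₁ (FK K₁ (M * q * q))]
    exact H12WQ.wq2KHom_const K₁ M q hq hqM _
  obtain ⟨c', 𝔫', hc', hcl, hd', hloc⟩ :=
    H26WT.exists_dich_image (H12WQ.wq2KHom K₁ M q hq hqM) hww hwR
      ((q : ℕ) : ↥(descVal A K₁)) hunr t ht0 hHW 𝔫 h𝔫 hd
  refine br1At_transport (H12WQ.wq2KHom K₁ M q hq hqM) hww c c' 𝔫 𝔫' hcl.1.isPrime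
    (fun x => (hloc x).1) (cV2 K₁ (descVal A K₁) M q hq hqM) (cV1 K₁ (descVal A K₁) M q)
    (fun x => Iff.rfl) (fun x => H10FC.comap_val_lt_one _ _ x)
    (fun x => (chart_mem_qq M q hq hqM hT A hA K₁ hfin hunr K₃ hfin₃ h13 ζ hζ
      t₀ ht₀ t ht c hc x).2.1) n ?_
  exact br1_qq M q hq hqM hT A hA K₁ hfin hunr hζe K₃ hfin₃ h13 ζ hζ t₀ ht₀ t ht wg
    c' hc' 𝔫' n hn

include hT hA hfin hunr hζe hfin₃ ht₀ ht wg in
/-- branch roots of `V₂` at all closed points of both charts -/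
theorem br2_qq (c : FK K₁ (M * q * q)) (hc : c = t ∨ c = t⁻¹)
    (𝔫 : Ideal (Chart ↥(descVal A K₁) c))
    (h𝔫 : IsClosedPt ↥(descVal A K₁) ((q : ℕ) : ↥(descVal A K₁)) c 𝔫)
    (n : ℕ) (hn : 0 < n) :
    BR1At ↥(descVal A K₁) c 𝔫 (cV2 K₁ (descVal A K₁) M q hq hqM) n := by
  by_cases hd : H26DI.IsDichPt t c 𝔫
  · exact br2_dich M q hq hqM hT A hA K₁ hfin hunr hζe K₃ hfin₃ h13 ζ hζ t₀ ht₀ t ht wg
      c 𝔫 h𝔫 hd n hn
  · have hct : c ≠ t := fun h => hd (Or.inl h)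
    have hc' : c = t⁻¹ := hc.resolve_left hct
    subst hc'
    have hex : ∃ y : Chart ↥(descVal A K₁) t⁻¹, (y : FK K₁ (M * q * q)) = t⁻¹ ∧ y ∉ 𝔫 := by
      by_contra hno
      push Not at hno
      exact hd (Or.inr ⟨rfl, hno⟩)
    obtain ⟨y, hy, hy𝔫⟩ := hex
    obtain ⟨htr, -⟩ := sq_basics M q hT K₁ (M * q * q) ⟨q * q, by ring⟩ t₀ ht₀ t ht t
      (Or.inl rfl)
    have ht0 : t ≠ 0 := by
      rintro rfl
      exact htr (isAlgebraic_zero)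
    refine br1At_patch ((q : ℕ) : ↥(descVal A K₁)) hunr t ht0 𝔫 h𝔫 y hy hy𝔫
      (cV2 K₁ (descVal A K₁) M q hq hqM)
      (fun x => (chart_mem_qq M q hq hqM hT A hA K₁ hfin hunr K₃ hfin₃ h13 ζ hζ
        t₀ ht₀ t ht t⁻¹ (Or.inr rfl) x).2.1) n ?_
    intro 𝔫' h𝔫'
    exact br2_dich M q hq hqM hT A hA K₁ hfin hunr hζe K₃ hfin₃ h13 ζ hζ t₀ ht₀ t ht wg
      t 𝔫' h𝔫' (Or.inl rfl) n hn

include hT hA hfin hunr hζe hfin₃ ht₀ ht wg in
/-- **(hBR), local form**: branch roots of the three components at every closed point of the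
charts `t`, `t⁻¹` at the level `M q²`. -/
theorem brAt_qq (c : FK K₁ (M * q * q)) (hc : c = t ∨ c = t⁻¹)
    (𝔫 : Ideal (Chart ↥(descVal A K₁) c))
    (h𝔫 : IsClosedPt ↥(descVal A K₁) ((q : ℕ) : ↥(descVal A K₁)) c 𝔫)
    (n : ℕ) (hn : 0 < n) :
    H10G3.BRAt ↥(descVal A K₁) c 𝔫 (cV1 K₁ (descVal A K₁) M q)
      (cV2 K₁ (descVal A K₁) M q hq hqM)
      (cV3 K₁ M q hq hqM K₃ (descVal A K₃) h13 ζ hζ) n := by
  intro V hV
  rcases hV with rfl | rfl | rfl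
  · exact br1_qq M q hq hqM hT A hA K₁ hfin hunr hζe K₃ hfin₃ h13 ζ hζ t₀ ht₀ t ht wg
      c hc 𝔫 n hn
  · exact br2_qq M q hq hqM hT A hA K₁ hfin hunr hζe K₃ hfin₃ h13 ζ hζ t₀ ht₀ t ht wg
      c hc 𝔫 h𝔫 n hn
  · exact br3_qq M q hq hqM hT A hA K₁ hfin hunr hζe K₃ hfin₃ h13 ζ hζ t₀ ht₀ t ht wg
      c hc 𝔫 n hn

end concrete2

end H9CU

end
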