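/-
helper26: item 86 (S36), slice (LOC-B) = lemma (R2), GENERIC part.

`B` a noetherian integrally closed domain, `𝔫` a prime of `B`.

* `H26R2.inLoc_of_forall_height_one_le` (local Krull): `z ∈ Frac B` lies in `B_𝔫` as soon as it
  lies in `B_𝔭` for every height-one prime `𝔭 ≤ 𝔫`.
* `H26R2.principal_at`: let `a ∈ P`, `P` prime, such that `P` is the ONLY height-one prime
  `≤ 𝔫` containing `a` and `a` generates `P B_P`.  Then `a` generates `P B_𝔫`.
* `H26R2.two_gen`: if moreover `𝔫 = P + (u)` locally at `𝔫` (`(B/P)_𝔫` has the uniformizer `u`),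
  then `𝔫 B_𝔫 = (a, u)`.
* `H26R2.height_under_eq_one` (going-down): a height-one prime of `B` contracts to a height-one
  prime of an integrally closed subring `A` over which `B` is integral.
* `H26R2.only_of_under`: the hypothesis "only `P`" from the level below: `A ⊆ B` integral, `A`
  normal, `a = x''`, `P''` principal `= (x'')` at `𝔫 ∩ A`, and `P` the only prime of `B` over `P''`.
* chart form `H26R2.l1At_R2`: `H4S34.L1At` at `𝔫` for every `f` with `n ∣ div f`.
-/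
import Mathlib
import Fermat.Agent.S34.Krull_helper27
import Fermat.Agent.S36.LocReg2_helper26
import Fermat.Agent.S34.LocBridge_helper22

set_option autoImplicit false
set_option linter.unusedSectionVars false
set_option linter.unusedVariables false
set_option linter.style.haveILetI false
set_option synthInstance.maxHeartbeats 400000

noncomputable section

namespace H26R2

open Ideal Submodule

section abstract

variable {B : Type*} [CommRing B] [IsDomain B] [IsNoetherianRing B] [IsIntegrallyClosed B]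
variable {K : Type*} [Field K] [Algebra B K] [IsFractionRing B K]

/-- **local Krull**: `B_𝔫 = ⋂ B_𝔭`, `𝔭` running over the height-one primes contained in `𝔫`. -/
theorem inLoc_of_forall_height_one_le (𝔫 : Ideal B) [h𝔫 : 𝔫.IsPrime] (z : K)
    (h : ∀ p : Ideal B, p.IsPrime → p.height = 1 → p ≤ 𝔫 → H27KR.InLoc p z) :
    H27KR.InLoc 𝔫 z := by
  by_contra hz
  let R1 : Submodule B K := LinearMap.range (Algebra.linearMap B K)
  -- the conductor of `z`
  have hI : (R1.colon {z} : Ideal B) ≤ 𝔫 := by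
    intro b hb
    by_contra hb𝔫
    apply hz
    rw [Submodule.mem_colon_singleton] at hb
    obtain ⟨a, ha⟩ := hb
    refine ⟨a, b, hb𝔫, ?_⟩
    rw [mul_comm, ← Algebra.smul_def]
    exact ha.symm
  obtain ⟨Q, hQ, hQ𝔫⟩ := Ideal.exists_minimalPrimes_le hI
  have hQprime : Q.IsPrime := hQ.1.1
  obtain ⟨m, hQm⟩ := Submodule.exists_eq_colon_of_mem_minimalPrimes (N := R1) (x := z) (I := Q) hQ
  have hpm : ∀ d : B, d ∈ Q ↔ ∃ a : B, algebraMap B K d * m = algebraMap B K a := by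
    intro d
    rw [hQm, Submodule.mem_colon_singleton]
    constructor
    · rintro ⟨a, ha⟩
      exact ⟨a, by rw [← Algebra.smul_def]; exact ha.symm⟩
    · rintro ⟨a, ha⟩
      exact ⟨a, by rw [Algebra.smul_def]; exact ha.symm⟩
  obtain ⟨hht, -⟩ := H27KR.key m Q hpm
  obtain ⟨a, b, hb, hab⟩ := h Q hQprime hht hQ𝔫
  apply hb
  apply hQ.1.2
  rw [Submodule.mem_colon_singleton]
  exact ⟨a, by rw [Algebra.smul_def, mul_comm]; exact hab.symm⟩

omit [IsNoetherianRing B] [IsIntegrallyClosed B] in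
/-- local generation at `P` in the field-free form, read in the fraction field. -/
theorem inLoc_div_of_gen (P : Ideal B) (a y s c : B) (ha0 : a ≠ 0) (hs : s ∉ P)
    (h : s * y = c * a) : H27KR.InLoc P (algebraMap B K y / algebraMap B K a) := by
  have hinj : Function.Injective (algebraMap B K) := IsFractionRing.injective B K
  have haK : algebraMap B K a ≠ 0 := fun h0 => ha0 (hinj (by rw [h0, map_zero]))
  refine ⟨c, s, hs, ?_⟩
  rw [div_mul_eq_mul_div, div_eq_iff haK, ← map_mul, ← map_mul, mul_comm y s, h]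

/-- **(R2), principal part.**  If `P` is the only height-one prime below `𝔫` containing `a ∈ P`
and `a` generates `P B_P`, then `a` generates `P B_𝔫`. -/
theorem principal_at (𝔫 P : Ideal B) [h𝔫 : 𝔫.IsPrime] (a : B) (ha0 : a ≠ 0)
    (honly : ∀ p : Ideal B, p.IsPrime → p.height = 1 → p ≤ 𝔫 → a ∈ p → p = P)
    (hloc : ∀ y ∈ P, ∃ s c : B, s ∉ P ∧ s * y = c * a) :
    ∀ y ∈ P, ∃ s c : B, s ∉ 𝔫 ∧ s * y = c * a := by
  intro y hy
  have hinj : Function.Injective (algebraMap B (FractionRing B)) :=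
    IsFractionRing.injective B (FractionRing B)
  have haK : algebraMap B (FractionRing B) a ≠ 0 := fun h0 => ha0 (hinj (by rw [h0, map_zero]))
  have key : H27KR.InLoc 𝔫 (algebraMap B (FractionRing B) y / algebraMap B (FractionRing B) a) := by
    apply inLoc_of_forall_height_one_le
    intro p hp hh hple
    by_cases hap : a ∈ p
    · have hpP : p = P := honly p hp hh hple hap
      obtain ⟨s, c, hs, hsc⟩ := hloc y hy
      rw [hpP]
      exact inLoc_div_of_gen P a y s c ha0 hs hsc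
    · exact inLoc_div_of_gen p a y a y ha0 hap (mul_comm _ _)
  obtain ⟨c, s, hs, hcs⟩ := key
  refine ⟨s, c, hs, hinj ?_⟩
  rw [div_mul_eq_mul_div, div_eq_iff haK] at hcs
  rw [map_mul, map_mul, mul_comm, hcs]

omit [IsNoetherianRing B] [IsIntegrallyClosed B] [IsDomain B] in
/-- two generators from a principal component and a uniformizer of the component. -/
theorem two_gen_of_principal (𝔫 P : Ideal B) [h𝔫 : 𝔫.IsPrime] (a u : B)
    (hprin : ∀ y ∈ P, ∃ s c : B, s ∉ 𝔫 ∧ s * y = c * a)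
    (hunif : ∀ y ∈ 𝔫, ∃ s c : B, s ∉ 𝔫 ∧ s * y - c * u ∈ P) :
    ∀ y ∈ 𝔫, ∃ s c d : B, s ∉ 𝔫 ∧ s * y = c * a + d * u := by
  intro y hy
  obtain ⟨s, c, hs, hsc⟩ := hunif y hy
  obtain ⟨s', c', hs', hsc'⟩ := hprin _ hsc
  refine ⟨s' * s, c', s' * c, ?_, ?_⟩
  · exact fun h => (h𝔫.mem_or_mem h).elim hs' hs
  · linear_combination hsc'

/-- **(R2)**: `𝔫 B_𝔫 = (a, u)`. -/
theorem two_gen (𝔫 P : Ideal B) [h𝔫 : 𝔫.IsPrime] (a u : B) (ha0 : a ≠ 0)
    (honly : ∀ p : Ideal B, p.IsPrime → p.height = 1 → p ≤ 𝔫 → a ∈ p → p = P)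
    (hloc : ∀ y ∈ P, ∃ s c : B, s ∉ P ∧ s * y = c * a)
    (hunif : ∀ y ∈ 𝔫, ∃ s c : B, s ∉ 𝔫 ∧ s * y - c * u ∈ P) :
    ∀ y ∈ 𝔫, ∃ s c d : B, s ∉ 𝔫 ∧ s * y = c * a + d * u :=
  two_gen_of_principal 𝔫 P a u (principal_at 𝔫 P a ha0 honly hloc) hunif

omit [IsNoetherianRing B] [IsIntegrallyClosed B] [IsDomain B] in
/-- `a` generates `P B_P` as soon as `ϖ` does and `ϖ ∈ a B_P`. -/
theorem hloc_of_red (P : Ideal B) [hP : P.IsPrime] (ϖ a : B)
    (hred : ∀ y ∈ P, ∃ s c : B, s ∉ P ∧ s * y = c * ϖ)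
    (hϖa : ∃ s c : B, s ∉ P ∧ s * ϖ = c * a) :
    ∀ y ∈ P, ∃ s c : B, s ∉ P ∧ s * y = c * a := by
  intro y hy
  obtain ⟨s, c, hs, hsc⟩ := hred y hy
  obtain ⟨s', c', hs', hsc'⟩ := hϖa
  refine ⟨s' * s, c * c', fun h => (hP.mem_or_mem h).elim hs' hs, ?_⟩
  linear_combination s' * hsc + c * hsc'

end abstract

section under

variable {A : Type*} [CommRing A] [IsDomain A] [IsIntegrallyClosed A]
variable {B : Type*} [CommRing B] [IsDomain B] [IsNoetherianRing B]

/-- **going-down**: a height-one prime of `B` contracts to a height-one prime of an integrally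
closed domain `A` over which `B` is integral. -/
theorem height_comap_eq_one (φ : A →+* B) (hφ : Function.Injective φ) (hint : φ.IsIntegral)
    (p : Ideal B) [hp : p.IsPrime] (hh : p.height = 1) : (p.comap φ).height = 1 := by
  letI : Algebra A B := φ.toAlgebra
  haveI : FaithfulSMul A B := (faithfulSMul_iff_algebraMap_injective A B).2 hφ
  haveI : Algebra.IsIntegral A B := ⟨hint⟩
  haveI : (p.comap φ).IsPrime := Ideal.comap_isPrime φ p
  haveI : p.LiesOver (p.comap φ) := ⟨rfl⟩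
  have hle : (p.comap φ).height ≤ 1 := by
    have := (Ideal.height_le_iff (p := p.comap φ) (n := 1)).2
    rw [Nat.cast_one] at this
    apply this
    intro q' hq' hlt
    obtain ⟨Q, hQlt, hQ, hQo⟩ := Ideal.exists_ideal_lt_liesOver_of_lt (p := q') p hlt
    have hQfin : p.FiniteHeight := by
      rw [Ideal.finiteHeight_iff]
      right
      rw [hh]
      exact ENat.one_ne_top
    have hQh := Ideal.height_strict_mono_of_isPrime_of_isPrime hQlt
    rw [hh] at hQh
    have hQ0 : Q.height = 0 := Order.lt_one_iff.1 hQh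
    have hQbot : Q = ⊥ := Ideal.height_eq_zero_iff_eq_bot.1 hQ0
    have hq'bot : q' = ⊥ := by
      rw [hQo.over, hQbot]
      ext x
      simp only [Ideal.under, Ideal.mem_comap, Ideal.mem_bot]
      exact ⟨fun h => hφ (by rw [map_zero]; exact h), fun h => by rw [h, map_zero]⟩
    rw [hq'bot, Ideal.height_bot]
    exact zero_lt_one
  have hne : (p.comap φ).height ≠ 0 := by
    intro h0
    have hbot : p.comap φ = ⊥ := Ideal.height_eq_zero_iff_eq_bot.1 h0
    have : p = ⊥ := Ideal.eq_bot_of_comap_eq_bot (R := A) hbot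
    rw [this, Ideal.height_bot] at hh
    exact zero_ne_one hh
  exact le_antisymm hle (Order.one_le_iff_ne_zero.2 hne)

/-- the hypothesis "only `P`" of `principal_at` from the level below: `P''` is principal
`= (x'')` at `𝔫 ∩ A`, and `P` is the only prime of `B` below `𝔫` over `P''`. -/
theorem only_of_under (φ : A →+* B) (hφ : Function.Injective φ) (hint : φ.IsIntegral)
    (𝔫 P : Ideal B) (P'' : Ideal A) [hP'' : P''.IsPrime] (x'' : A) (hx0 : x'' ≠ 0)
    (hxP : x'' ∈ P'')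
    (hprin : ∀ y ∈ P'', ∃ s c : A, φ s ∉ 𝔫 ∧ s * y = c * x'')
    (huniq : ∀ p : Ideal B, p.IsPrime → p ≤ 𝔫 → p.comap φ = P'' → p = P) :
    ∀ p : Ideal B, p.IsPrime → p.height = 1 → p ≤ 𝔫 → φ x'' ∈ p → p = P := by
  intro p hp hh hple hxp
  have hh'' := height_comap_eq_one φ hφ hint p hh
  haveI : (p.comap φ).IsPrime := Ideal.comap_isPrime φ p
  have hle : P'' ≤ p.comap φ := by
    intro y hy
    obtain ⟨s, c, hs, hsc⟩ := hprin y hy
    have h1 : s * y ∈ p.comap φ := by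
      rw [hsc]
      exact Ideal.mul_mem_left _ _ hxp
    rcases (inferInstance : (p.comap φ).IsPrime).mem_or_mem h1 with h | h
    · exact absurd (hple h) hs
    · exact h
  have heq : P'' = p.comap φ := by
    rcases eq_or_lt_of_le hle with h | h
    · exact h
    · exfalso
      have : (p.comap φ).FiniteHeight := by
        rw [Ideal.finiteHeight_iff]
        right
        rw [hh'']
        exact ENat.one_ne_top
      have hlt := Ideal.height_strict_mono_of_isPrime_of_isPrime h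
      rw [hh''] at hlt
      have h0 : P''.height = 0 := Order.lt_one_iff.1 hlt
      have : P'' = ⊥ := Ideal.height_eq_zero_iff_eq_bot.1 h0
      rw [this] at hxP
      exact hx0 ((Ideal.mem_bot).1 hxP)
  exact huniq p hp hple heq.symm

end under

/-! ### chart form -/

section chart

open Polynomial IntermediateField H7S18 H4S34 AlgebraicCurve

variable (R : Type) [CommRing R] [IsDomain R] [IsDiscreteValuationRing R]
  (K : Type) [Field K] [CharZero K] [Algebra R K] [IsFractionRing R K]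
  {F : Type} [Field F] [Algebra K F] [Algebra R F] [IsScalarTower R K F]

/-- **(R2), chart form.**  `𝔫` a prime of the chart ring `M₀`, `P ≤ 𝔫` a prime, `a ∈ P`,
`u ∈ 𝔫 \ P` with
 * `P` is the only height-one prime below `𝔫` containing `a`,
 * `a` generates `P (M₀)_P`,
 * `𝔫 = P + (u)` locally at `𝔫`.
Then `𝔫 B_𝔫 = (a, u)`. -/
theorem chart_two_gen {t : F} (ht : Transcendental K t) [hfin : FiniteDimensional K⟮t⟯ F]
    (𝔫 : Ideal (Chart R t)) (h𝔫 : 𝔫.IsPrime) (P : Ideal (Chart R t))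
    (a u : Chart R t) (ha0 : a ≠ 0)
    (honly : ∀ p : Ideal (Chart R t), p.IsPrime → p.height = 1 → p ≤ 𝔫 → a ∈ p → p = P)
    (hloc : ∀ y ∈ P, ∃ s c : Chart R t, s ∉ P ∧ s * y = c * a)
    (hunif : ∀ y ∈ 𝔫, ∃ s c : Chart R t, s ∉ 𝔫 ∧ s * y - c * u ∈ P) :
    ∀ y ∈ 𝔫, ∃ s c d : Chart R t, s ∉ 𝔫 ∧ (s : F) * y = c * (a : F) + d * u := by
  haveI : IsNoetherianRing (Chart R t) := H22BR.chart_noeth R K ht
  haveI : IsIntegrallyClosed (Chart R t) := H22BR.chart_intClosed R K t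
  intro y hy
  obtain ⟨s, c, d, hs, h⟩ := two_gen 𝔫 P a u ha0 honly hloc hunif y hy
  refine ⟨s, c, d, hs, ?_⟩
  have := congrArg (fun z : Chart R t => (z : F)) h
  simpa using this

/-- **(R2) ⟹ (L1).**  Under the hypotheses of `chart_two_gen` (with `a ∈ P ≤ 𝔫`, `u ∈ 𝔫 \ P`),
`H4S34.L1At` holds at `𝔫` for every `f ≠ 0` whose divisor is divisible by `n`. -/
theorem l1At_R2 (ϖ : R) (hϖ : Irreducible ϖ) {t : F} (ht : Transcendental K t)
    [hfin : FiniteDimensional K⟮t⟯ F] (n : ℕ) (hn : 0 < n) (f : F) (hf : f ≠ 0)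
    (hdiv : ∀ V : Place K F, (n : ℤ) ∣ V.ord f)
    (𝔫 : Ideal (Chart R t)) (h𝔫 : 𝔫.IsPrime) (P : Ideal (Chart R t)) (hP : P.IsPrime)
    (hPle : P ≤ 𝔫) (a u : Chart R t) (ha0 : a ≠ 0) (haP : a ∈ P) (hu𝔫 : u ∈ 𝔫) (huP : u ∉ P)
    (honly : ∀ p : Ideal (Chart R t), p.IsPrime → p.height = 1 → p ≤ 𝔫 → a ∈ p → p = P)
    (hloc : ∀ y ∈ P, ∃ s c : Chart R t, s ∉ P ∧ s * y = c * a)
    (hunif : ∀ y ∈ 𝔫, ∃ s c : Chart R t, s ∉ 𝔫 ∧ s * y - c * u ∈ P) :
    L1At R ϖ t 𝔫 n f := by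
  have hP0 : P ≠ ⊥ := by
    intro h
    rw [h] at haP
    exact ha0 ((Ideal.mem_bot).1 haP)
  have hPne : P ≠ 𝔫 := by
    intro h
    rw [← h] at hu𝔫
    exact huP hu𝔫
  exact H26LU.l1At_of_two_gen R K ϖ hϖ ht n hn f hf hdiv 𝔫 h𝔫 P hP hP0 hPle hPne a u
    (hPle haP) hu𝔫 (chart_two_gen R K ht 𝔫 h𝔫 P a u ha0 honly hloc hunif)

/-- **(R2) from the level below ⟹ (L1).**  `φ : A → M₀` an injective integral ring map from an
integrally closed domain (`A` = chart ring of the level below, `φ = β^*`), `P''` a prime of `A`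
which is principal `= (x'')` at `𝔫 ∩ A`, `P` the only prime of `M₀` below `𝔫` over `P''`,
`P (M₀)_P = (ϖ')` and `ϖ' ∈ φ(x'') (M₀)_P`, `𝔫 = P + (u)` locally. -/
theorem l1At_R2_under (ϖ : R) (hϖ : Irreducible ϖ) {t : F} (ht : Transcendental K t)
    [hfin : FiniteDimensional K⟮t⟯ F] (n : ℕ) (hn : 0 < n) (f : F) (hf : f ≠ 0)
    (hdiv : ∀ V : Place K F, (n : ℤ) ∣ V.ord f)
    (𝔫 : Ideal (Chart R t)) (h𝔫 : 𝔫.IsPrime) (P : Ideal (Chart R t)) (hP : P.IsPrime)
    (hPle : P ≤ 𝔫) (u : Chart R t) (hu𝔫 : u ∈ 𝔫) (huP : u ∉ P)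
    {A : Type*} [CommRing A] [IsDomain A] [IsIntegrallyClosed A]
    (φ : A →+* Chart R t) (hφ : Function.Injective φ) (hint : φ.IsIntegral)
    (P'' : Ideal A) (hP'' : P''.IsPrime) (x'' : A) (hx0 : x'' ≠ 0) (hxP'' : x'' ∈ P'')
    (hxP : φ x'' ∈ P)
    (hprin : ∀ y ∈ P'', ∃ s c : A, φ s ∉ 𝔫 ∧ s * y = c * x'')
    (huniq : ∀ p : Ideal (Chart R t), p.IsPrime → p ≤ 𝔫 → p.comap φ = P'' → p = P)
    (ϖ' : Chart R t)
    (hred : ∀ y ∈ P, ∃ s c : Chart R t, s ∉ P ∧ s * y = c * ϖ')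
    (hϖx : ∃ s c : Chart R t, s ∉ P ∧ s * ϖ' = c * φ x'')
    (hunif : ∀ y ∈ 𝔫, ∃ s c : Chart R t, s ∉ 𝔫 ∧ s * y - c * u ∈ P) :
    L1At R ϖ t 𝔫 n f := by
  haveI : IsNoetherianRing (Chart R t) := H22BR.chart_noeth R K ht
  have ha0 : φ x'' ≠ 0 := fun h => hx0 (hφ (by rw [h, map_zero]))
  exact l1At_R2 R K ϖ hϖ ht n hn f hf hdiv 𝔫 h𝔫 P hP hPle (φ x'') u ha0 hxP hu𝔫 huP
    (only_of_under φ hφ hint 𝔫 P P'' x'' hx0 hxP'' hprin huniq)
    (hloc_of_red P ϖ' (φ x'') hred hϖx) hunif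

end chart

end H26R2
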