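/-
helper26: item 86 (S36), slice (LOC-B) = lemma (R2), WIRING in the VALUATION language.

Generic setting of `H7S18`: `R` a DVR with uniformizer `ϖ`, `K = Frac R` of characteristic `0`,
`F / K(t)` finite, `M₀ = H4S34.Chart R t`.  The components of the special fibre are given by a
finite set `𝒱` of valuation rings of `F` with `O_F = ⋂ V` (`hO`, as in `H1G3.KDMultiStatement`,
= clause (1) of TripleGauss).

* `H26R2.compIdeal V` : the component `P_V = {y ∈ M₀ | v_V(y) < 1}` (a prime ideal of `M₀`);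
* `H26R2.vert_prime_cases` : every height-one prime of `M₀` containing `ϖ` is one of the `P_V`
  (going-down over `R[t]` + prime avoidance + `hO`);
* `H26R2.hred_of_val` : if `ϖ` is a uniformizer of `V₀` and there is a CRT element `e`
  (`e ≡ 1` at `V₀`, `e ∈ ϖ V` for the other `V`), then `P_{V₀} (M₀)_{P_{V₀}} = (ϖ)`;
* `H26R2.l1At_R2_val` : **(R2)**: `H4S34.L1At` at a point `𝔫 ⊇ P_{V₀}` from
  - the level below: `φ : A → M₀` injective, integral, `A` integrally closed, `φ ϖA = ϖ`,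
    `P_{V₀} ∩ A` principal `= (x'')` at `𝔫 ∩ A` (`hprin` = (R1)),
    no other component lies over `P_{V₀} ∩ A` (`hother`, from TripleGauss),
  - `e(V₀) = 1` (`hϖ₀`) and a CRT element (`hcrt`),
  - a uniformizer `u` of `(M₀ / P_{V₀})_𝔫` (`hunif` = (CU3)).
-/
import Mathlib
import Fermat.Agent.S36.R2_helper26
import Fermat.Agent.S18.TBase_helper19
import Fermat.Agent.S34.LocBridge_helper22

set_option autoImplicit false
set_option linter.unusedSectionVars false
set_option linter.unusedVariables false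
set_option linter.style.haveILetI false
set_option synthInstance.maxHeartbeats 400000

noncomputable section

namespace H26R2

open Polynomial IntermediateField H7S18 H4S34 AlgebraicCurve

section comp

variable (R : Type) [CommRing R] [IsDomain R] [IsDiscreteValuationRing R]
  (K : Type) [Field K] [CharZero K] [Algebra R K] [IsFractionRing R K]
  {F : Type} [Field F] [Algebra K F] [Algebra R F] [IsScalarTower R K F]

/-- `M₀ ⊆ O_F ⊆ V`. -/
theorem chart_mem_of_hO {ϖ : R} (hϖ : Irreducible ϖ) {t : F} (ht : Transcendental K t)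
    (𝒱 : Finset (ValuationSubring F)) (hO : ∀ x : F, GInt R ϖ t x ↔ ∀ V ∈ 𝒱, x ∈ V)
    {V : ValuationSubring F} (hV : V ∈ 𝒱) (y : Chart R t) : (y : F) ∈ V :=
  (hO y).1 (H19S18.h19_gint_of_isInt R (H19S18.h19_transc R K ht) hϖ y.2) V hV

/-- the component `P_V = {y ∈ M₀ | v_V(y) < 1}`. -/
def compIdeal {t : F} (V : ValuationSubring F) (hmem : ∀ y : Chart R t, (y : F) ∈ V) :
    Ideal (Chart R t) where
  carrier := {y | V.valuation (y : F) < 1}
  add_mem' := by
    intro a b ha hb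
    change V.valuation ((a : F)) < 1 at ha
    change V.valuation ((b : F)) < 1 at hb
    change V.valuation (((a + b : Chart R t) : F)) < 1
    push_cast
    exact lt_of_le_of_lt (V.valuation.map_add _ _) (max_lt ha hb)
  zero_mem' := by
    change V.valuation (((0 : Chart R t) : F)) < 1
    push_cast
    rw [map_zero]
    exact zero_lt_one
  smul_mem' := by
    intro c a ha
    change V.valuation ((a : F)) < 1 at ha
    change V.valuation (((c * a : Chart R t) : F)) < 1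
    push_cast
    rw [map_mul]
    have hc : V.valuation (c : F) ≤ 1 := (V.valuation_le_one_iff _).2 (hmem c)
    calc V.valuation (c : F) * V.valuation (a : F) ≤ 1 * V.valuation (a : F) :=
          mul_le_mul_left hc _
      _ = V.valuation (a : F) := one_mul _
      _ < 1 := ha

theorem mem_compIdeal {t : F} (V : ValuationSubring F) (hmem : ∀ y : Chart R t, (y : F) ∈ V)
    (y : Chart R t) : y ∈ compIdeal R V hmem ↔ V.valuation (y : F) < 1 := Iff.rfl

theorem compIdeal_isPrime {t : F} (V : ValuationSubring F)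
    (hmem : ∀ y : Chart R t, (y : F) ∈ V) : (compIdeal R V hmem).IsPrime := by
  refine ⟨?_, ?_⟩
  · intro h
    have : (1 : Chart R t) ∈ compIdeal R V hmem := by rw [h]; exact Submodule.mem_top
    rw [mem_compIdeal] at this
    push_cast at this
    rw [map_one] at this
    exact lt_irrefl _ this
  · intro a b hab
    rw [mem_compIdeal] at hab
    push_cast at hab
    rw [map_mul] at hab
    by_contra hcon
    rw [not_or, mem_compIdeal, mem_compIdeal, not_lt, not_lt] at hcon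
    have ha : V.valuation (a : F) = 1 :=
      le_antisymm ((V.valuation_le_one_iff _).2 (hmem a)) hcon.1
    have hb : V.valuation (b : F) = 1 :=
      le_antisymm ((V.valuation_le_one_iff _).2 (hmem b)) hcon.2
    rw [ha, hb, one_mul] at hab
    exact lt_irrefl _ hab

/-- a Gauss unit is a unit of every `V ∈ 𝒱`. -/
theorem gaussUnit_val {ϖ : R} (hϖ : Irreducible ϖ) {t : F} (ht : Transcendental K t)
    (𝒱 : Finset (ValuationSubring F)) (hO : ∀ x : F, GInt R ϖ t x ↔ ∀ V ∈ 𝒱, x ∈ V)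
    {V : ValuationSubring F} (hV : V ∈ 𝒱) {s : F} (hs : IsGaussUnit R ϖ t s) :
    V.valuation s = 1 := by
  have htR := H19S18.h19_transc R K ht
  have hs0 : s ≠ 0 := by
    intro h0
    exact hs.2 0 (Subalgebra.zero_mem _) (by rw [h0, mul_zero])
  have h1 : s ∈ V :=
    (hO s).1 (H19S18.h19_gint_of_isInt R htR hϖ (H19S18.h19_mem_T_isInt R t hs.1)) V hV
  have h2 : s⁻¹ ∈ V := by
    refine (hO s⁻¹).1 ⟨s, hs, ?_⟩ V hV
    rw [mul_inv_cancel₀ hs0]
    have := H19S18.h19_isInt_algebraMap R t 1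
    rwa [map_one] at this
  have h1' : V.valuation s ≤ 1 := (V.valuation_le_one_iff _).2 h1
  have h2' : V.valuation s⁻¹ ≤ 1 := (V.valuation_le_one_iff _).2 h2
  rw [map_inv₀] at h2'
  have hv0 : V.valuation s ≠ 0 := (V.valuation.ne_zero_iff).2 hs0
  have h3 : 1 ≤ V.valuation s := by
    have := (inv_le_one₀ (zero_lt_iff.2 hv0)).1 h2'
    exact this
  exact le_antisymm h1' h3

/-- **vertical height-one primes are components**: every height-one prime of `M₀` containing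
`ϖ` is one of the `P_V`, `V ∈ 𝒱`. -/
theorem vert_prime_cases {ϖ : R} (hϖ : Irreducible ϖ) {t : F} (ht : Transcendental K t)
    [hfin : FiniteDimensional K⟮t⟯ F]
    (𝒱 : Finset (ValuationSubring F)) (hO : ∀ x : F, GInt R ϖ t x ↔ ∀ V ∈ 𝒱, x ∈ V)
    (p : Ideal (Chart R t)) (hp : p.IsPrime) (hh : p.height = 1)
    (hϖp : ∀ y : Chart R t, (y : F) = algebraMap R F ϖ → y ∈ p) :
    ∃ (V : ValuationSubring F) (hV : V ∈ 𝒱),
      p = compIdeal R V (fun y => chart_mem_of_hO R K hϖ ht 𝒱 hO hV y) := by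
  classical
  have htR := H19S18.h19_transc R K ht
  haveI : IsNoetherianRing (Chart R t) := H22BR.chart_noeth R K ht
  haveI : IsIntegrallyClosed (Algebra.adjoin R {t}) := H19S18.h19_T_intClosed R htR
  have hinj : Function.Injective (algebraMap (Algebra.adjoin R {t}) (Chart R t)) :=
    fun x y hxy => Subtype.ext (congrArg (fun z : Chart R t => (z : F)) hxy)
  have hint : (algebraMap (Algebra.adjoin R {t}) (Chart R t)).IsIntegral :=
    fun y => (inferInstance : Algebra.IsIntegral (Algebra.adjoin R {t}) (Chart R t)).isIntegral y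
  set φ := algebraMap (Algebra.adjoin R {t}) (Chart R t) with hφ
  set ϖT : Algebra.adjoin R {t} := algebraMap R (Algebra.adjoin R {t}) ϖ with hϖT
  have hπp := H19S18.h19_T_prime R htR hϖ
  haveI hprime₀ : (Ideal.span {ϖT}).IsPrime := (Ideal.span_singleton_prime hπp.ne_zero).2 hπp
  -- the contraction of `p` to `R[t]` is `(ϖ)`
  have hh₀ := height_comap_eq_one φ hinj hint p hh
  haveI : (p.comap φ).IsPrime := Ideal.comap_isPrime φ p
  have hle₀ : Ideal.span {ϖT} ≤ p.comap φ := by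
    rw [Ideal.span_singleton_le_iff_mem, Ideal.mem_comap]
    exact hϖp _ rfl
  have hp₀ : p.comap φ = Ideal.span {ϖT} := by
    rcases eq_or_lt_of_le hle₀ with h | h
    · exact h.symm
    · exfalso
      have : (p.comap φ).FiniteHeight := by
        rw [Ideal.finiteHeight_iff]
        right
        rw [hh₀]
        exact ENat.one_ne_top
      have hlt := Ideal.height_strict_mono_of_isPrime_of_isPrime h
      rw [hh₀] at hlt
      have h0 : (Ideal.span {ϖT}).height = 0 := Order.lt_one_iff.1 hlt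
      have hb : Ideal.span {ϖT} = ⊥ := Ideal.height_eq_zero_iff_eq_bot.1 h0
      rw [Ideal.span_singleton_eq_bot] at hb
      exact hπp.ne_zero hb
  -- Gauss units are not in `p`
  have hgu : ∀ s : F, IsGaussUnit R ϖ t s → ∀ y : Chart R t, (y : F) = s → y ∉ p := by
    intro s hs y hy hyp
    have h1 : (⟨s, hs.1⟩ : Algebra.adjoin R {t}) ∈ p.comap φ := by
      rw [Ideal.mem_comap]
      have : φ ⟨s, hs.1⟩ = y := Subtype.ext hy.symm
      rw [this]
      exact hyp
    rw [hp₀, Ideal.mem_span_singleton] at h1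
    exact (H19S18.h19_gaussUnit_iff R ϖ t ⟨s, hs.1⟩).1 hs h1
  let f : {V // V ∈ 𝒱} → Ideal (Chart R t) :=
    fun V => compIdeal R V.1 (fun y => chart_mem_of_hO R K hϖ ht 𝒱 hO V.2 y)
  by_cases hsub : ((p : Set (Chart R t)) ⊆ ⋃ V ∈ ((𝒱.attach : Finset {V // V ∈ 𝒱}) : Set _),
      (f V : Set (Chart R t)))
  · -- `p ≤ P_V` for some `V`
    obtain ⟨V0, -⟩ : ∃ V0 : {V // V ∈ 𝒱}, True := by
      have h0 := hsub (show (0 : Chart R t) ∈ (p : Set (Chart R t)) from p.zero_mem)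
      rw [Set.mem_iUnion] at h0
      obtain ⟨V0, -⟩ := h0
      exact ⟨V0, trivial⟩
    obtain ⟨V, -, hpV⟩ := (Ideal.subset_union_prime (s := 𝒱.attach) (f := f) V0 V0
      (fun i _ _ _ => compIdeal_isPrime R i.1 _)).1 hsub
    refine ⟨V.1, V.2, le_antisymm hpV ?_⟩
    intro y hy
    by_contra hyp
    have hlt := Ideal.comap_lt_comap_of_integral_mem_sdiff (R := Algebra.adjoin R {t}) hpV
      (show y ∈ ((f V : Set (Chart R t)) \ p) from ⟨hy, hyp⟩) (hint y)
    obtain ⟨s, hs1, hs2⟩ := Set.exists_of_ssubset hlt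
    have hs2' : ¬ ϖT ∣ s := by
      intro hdvd
      apply hs2
      change s ∈ p.comap φ
      rw [hp₀, Ideal.mem_span_singleton]
      exact hdvd
    have hsg : IsGaussUnit R ϖ t (s : F) := (H19S18.h19_gaussUnit_iff R ϖ t s).2 hs2'
    have hval := gaussUnit_val R K hϖ ht 𝒱 hO V.2 hsg
    have hs1' : V.1.valuation (((φ s : Chart R t)) : F) < 1 := hs1
    have hcoe : ((φ s : Chart R t) : F) = (s : F) := rfl
    rw [hcoe, hval] at hs1'
    exact lt_irrefl _ hs1'
  · -- some `y ∈ p` is a unit at every `V`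
    rw [Set.not_subset] at hsub
    obtain ⟨y₁, hy₁p, hy₁⟩ := hsub
    have hpbot : p ≠ ⊥ := by
      intro h0
      rw [h0, Ideal.height_bot] at hh
      exact zero_ne_one hh
    obtain ⟨y₂, hy₂p, hy₂0⟩ := Submodule.exists_mem_ne_zero_of_ne_bot hpbot
    obtain ⟨y, hyp, hy0, hyV⟩ : ∃ y ∈ p, y ≠ 0 ∧ ∀ V (hV : V ∈ 𝒱), V.valuation (y : F) = 1 := by
      by_cases h10 : y₁ = 0
      · refine ⟨y₂, hy₂p, hy₂0, fun V hV => ?_⟩
        exfalso
        apply hy₁
        rw [Set.mem_iUnion]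
        refine ⟨⟨V, hV⟩, ?_⟩
        rw [Set.mem_iUnion]
        refine ⟨Finset.mem_coe.2 (Finset.mem_attach _ _), ?_⟩
        rw [h10]
        exact (f ⟨V, hV⟩).zero_mem
      · refine ⟨y₁, hy₁p, h10, fun V hV => ?_⟩
        have hle : V.valuation (y₁ : F) ≤ 1 :=
          (V.valuation_le_one_iff _).2 (chart_mem_of_hO R K hϖ ht 𝒱 hO hV y₁)
        refine le_antisymm hle ?_
        by_contra hlt
        rw [not_le] at hlt
        apply hy₁
        rw [Set.mem_iUnion]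
        refine ⟨⟨V, hV⟩, ?_⟩
        rw [Set.mem_iUnion]
        exact ⟨Finset.mem_coe.2 (Finset.mem_attach _ _), hlt⟩
    exfalso
    have hyF : (y : F) ≠ 0 := fun h => hy0 (Subtype.ext h)
    have hg : GInt R ϖ t (y : F)⁻¹ := by
      rw [hO]
      intro V hV
      rw [← V.valuation_le_one_iff, map_inv₀, hyV V hV, inv_one]
    obtain ⟨s, hs, hsy⟩ := hg
    let b : Chart R t := ⟨s * (y : F)⁻¹, hsy⟩
    let sM : Chart R t := φ ⟨s, hs.1⟩
    have hsM : y * b = sM := by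
      apply Subtype.ext
      change (y : F) * (s * (y : F)⁻¹) = s
      field_simp
    exact hgu s hs sM rfl (hsM ▸ p.mul_mem_right b hyp)

/-- **`e(V₀) = 1` in ideal form**: if `ϖ` is a uniformizer of `V₀` and `e` is a CRT element
(`e ≡ 1` at `V₀`, `e ∈ ϖ V` for the other `V ∈ 𝒱`), then `P_{V₀} (M₀)_{P_{V₀}} = (ϖ)`. -/
theorem hred_of_val {ϖ : R} (hϖ : Irreducible ϖ) {t : F} (ht : Transcendental K t)
    (𝒱 : Finset (ValuationSubring F)) (hO : ∀ x : F, GInt R ϖ t x ↔ ∀ V ∈ 𝒱, x ∈ V)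
    (V₀ : ValuationSubring F) (hV₀ : V₀ ∈ 𝒱)
    (hϖ₀ : ∀ x : F, V₀.valuation x < 1 → V₀.valuation x ≤ V₀.valuation (algebraMap R F ϖ))
    (hcrt : ∃ e : F, V₀.valuation (e - 1) < 1 ∧
      ∀ V ∈ 𝒱, V ≠ V₀ → V.valuation e ≤ V.valuation (algebraMap R F ϖ))
    (ϖM : Chart R t) (hϖM : (ϖM : F) = algebraMap R F ϖ) :
    ∀ y ∈ compIdeal R V₀ (fun y => chart_mem_of_hO R K hϖ ht 𝒱 hO hV₀ y),
      ∃ s c : Chart R t, s ∉ compIdeal R V₀ (fun y => chart_mem_of_hO R K hϖ ht 𝒱 hO hV₀ y) ∧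
        s * y = c * ϖM := by
  intro y hy
  rw [mem_compIdeal] at hy
  have htR := H19S18.h19_transc R K ht
  have hinjR : Function.Injective (algebraMap R F) := H19S18.h19_algebraMap_injective R K
  have hϖF : algebraMap R F ϖ ≠ 0 := fun h0 => hϖ.ne_zero (hinjR (by rw [h0, map_zero]))
  obtain ⟨e, he1, heV⟩ := hcrt
  -- `v₀(e) = 1`
  have he0 : V₀.valuation e = 1 := by
    have h1 : V₀.valuation (1 + (e - 1)) = V₀.valuation (1 : F) := by
      apply Valuation.map_add_eq_of_lt_left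
      rw [map_one]
      exact he1
    rwa [add_sub_cancel, map_one] at h1
  have hϖV : ∀ V ∈ 𝒱, V.valuation (algebraMap R F ϖ) ≤ 1 := fun V hV =>
    (V.valuation_le_one_iff _).2 ((hO _).1 (H19S18.h19_gint_of_isInt R htR hϖ
      (H19S18.h19_isInt_algebraMap R t ϖ)) V hV)
  -- `e ∈ O`
  have heO : GInt R ϖ t e := by
    rw [hO]
    intro V hV
    rw [← V.valuation_le_one_iff]
    by_cases hVV : V = V₀
    · rw [hVV, he0]
    · exact (heV V hV hVV).trans (hϖV V hV)
  -- `e · y / ϖ ∈ O`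
  have hzO : GInt R ϖ t (e * ((y : F) * (algebraMap R F ϖ)⁻¹)) := by
    rw [hO]
    intro V hV
    rw [← V.valuation_le_one_iff, map_mul, map_mul, map_inv₀]
    have hvϖ : V.valuation (algebraMap R F ϖ) ≠ 0 := (V.valuation.ne_zero_iff).2 hϖF
    have hy1 : V.valuation (y : F) ≤ 1 :=
      (V.valuation_le_one_iff _).2 (chart_mem_of_hO R K hϖ ht 𝒱 hO hV y)
    by_cases hVV : V = V₀
    · subst hVV
      rw [he0, one_mul]
      have := hϖ₀ _ hy
      calc V.valuation (y : F) * (V.valuation (algebraMap R F ϖ))⁻¹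
          ≤ V.valuation (algebraMap R F ϖ) * (V.valuation (algebraMap R F ϖ))⁻¹ :=
            mul_le_mul_left this _
        _ = 1 := mul_inv_cancel₀ hvϖ
    · have h1 := heV V hV hVV
      calc V.valuation e * (V.valuation (y : F) * (V.valuation (algebraMap R F ϖ))⁻¹)
          ≤ V.valuation (algebraMap R F ϖ) * (1 * (V.valuation (algebraMap R F ϖ))⁻¹) :=
            mul_le_mul' h1 (mul_le_mul_left hy1 _)
        _ = 1 := by rw [one_mul, mul_inv_cancel₀ hvϖ]
  obtain ⟨s', hs', hs'e⟩ := heO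
  obtain ⟨s, hs, hsz⟩ := hzO
  let g : Chart R t := ⟨s' * e, hs'e⟩
  let c : Chart R t := ⟨s * (e * ((y : F) * (algebraMap R F ϖ)⁻¹)), hsz⟩
  let sM : Chart R t := ⟨s, H19S18.h19_mem_T_isInt R t hs.1⟩
  let sM' : Chart R t := ⟨s', H19S18.h19_mem_T_isInt R t hs'.1⟩
  refine ⟨sM * g, sM' * c, ?_, ?_⟩
  · rw [mem_compIdeal, not_lt]
    push_cast
    change 1 ≤ V₀.valuation (s * (s' * e))
    rw [map_mul, map_mul, gaussUnit_val R K hϖ ht 𝒱 hO hV₀ hs,
      gaussUnit_val R K hϖ ht 𝒱 hO hV₀ hs', he0, one_mul, one_mul]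
  · apply Subtype.ext
    push_cast
    change s * (s' * e) * (y : F) = s' * (s * (e * ((y : F) * (algebraMap R F ϖ)⁻¹))) * (ϖM : F)
    rw [hϖM]
    field_simp

end comp

section under1

variable {A : Type*} [CommRing A] [IsDomain A] [IsIntegrallyClosed A]
variable {B : Type*} [CommRing B] [IsDomain B] [IsNoetherianRing B]

/-- `only_of_under` with the uniqueness hypothesis restricted to height-one primes. -/
theorem only_of_under_ht (φ : A →+* B) (hφ : Function.Injective φ) (hint : φ.IsIntegral)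
    (𝔫 P : Ideal B) (P'' : Ideal A) [hP'' : P''.IsPrime] (x'' : A) (hx0 : x'' ≠ 0)
    (hxP : x'' ∈ P'')
    (hprin : ∀ y ∈ P'', ∃ s c : A, φ s ∉ 𝔫 ∧ s * y = c * x'')
    (huniq : ∀ p : Ideal B, p.IsPrime → p.height = 1 → p ≤ 𝔫 → p.comap φ = P'' → p = P) :
    ∀ p : Ideal B, p.IsPrime → p.height = 1 → p ≤ 𝔫 → φ x'' ∈ p → p = P := by
  intro p hp hh hple hxp
  exact only_of_under φ hφ hint p P P'' x'' hx0 hxP
    (fun y hy => by
      obtain ⟨s, c, hs, hsc⟩ := hprin y hy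
      exact ⟨s, c, fun h => hs (hple h), hsc⟩)
    (fun p' hp' hp'le hp'c => by
      have hp'p : p' = p := by
        -- `p' ≤ p`, both of height one
        rcases eq_or_lt_of_le hp'le with h | h
        · exact h
        · exfalso
          have hfin : p.FiniteHeight := by
            rw [Ideal.finiteHeight_iff]
            right
            rw [hh]
            exact ENat.one_ne_top
          have hlt := Ideal.height_strict_mono_of_isPrime_of_isPrime h
          rw [hh] at hlt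
          have h0 : p'.height = 0 := Order.lt_one_iff.1 hlt
          have hb : p' = ⊥ := Ideal.height_eq_zero_iff_eq_bot.1 h0
          rw [hb] at hp'c
          have hx'' : x'' ∈ (⊥ : Ideal B).comap φ := by rw [hp'c]; exact hxP
          rw [Ideal.mem_comap, Ideal.mem_bot] at hx''
          exact hx0 (hφ (by rw [hx'', map_zero]))
      rw [hp'p] at hp'c ⊢
      exact huniq p hp hh hple hp'c)
    p hp hh le_rfl hxp

end under1

section main

variable (R : Type) [CommRing R] [IsDomain R] [IsDiscreteValuationRing R]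
  (K : Type) [Field K] [CharZero K] [Algebra R K] [IsFractionRing R K]
  {F : Type} [Field F] [Algebra K F] [Algebra R F] [IsScalarTower R K F]

/-- **(R2), valuation form.**  See the header. -/
theorem l1At_R2_val (ϖ : R) (hϖ : Irreducible ϖ) {t : F} (ht : Transcendental K t)
    [hfin : FiniteDimensional K⟮t⟯ F] (n : ℕ) (hn : 0 < n) (f : F) (hf : f ≠ 0)
    (hdiv : ∀ V : Place K F, (n : ℤ) ∣ V.ord f)
    (𝒱 : Finset (ValuationSubring F)) (hO : ∀ x : F, GInt R ϖ t x ↔ ∀ V ∈ 𝒱, x ∈ V)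
    (V₀ : ValuationSubring F) (hV₀ : V₀ ∈ 𝒱)
    (hϖV₀ : V₀.valuation (algebraMap R F ϖ) < 1)
    (hϖ₀ : ∀ x : F, V₀.valuation x < 1 → V₀.valuation x ≤ V₀.valuation (algebraMap R F ϖ))
    (hcrt : ∃ e : F, V₀.valuation (e - 1) < 1 ∧
      ∀ V ∈ 𝒱, V ≠ V₀ → V.valuation e ≤ V.valuation (algebraMap R F ϖ))
    (𝔫 : Ideal (Chart R t)) (h𝔫 : 𝔫.IsPrime)
    (hP𝔫 : ∀ y : Chart R t, V₀.valuation (y : F) < 1 → y ∈ 𝔫)
    (u : Chart R t) (hu𝔫 : u ∈ 𝔫) (huV : V₀.valuation (u : F) = 1)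
    (hunif : ∀ y ∈ 𝔫, ∃ s c : Chart R t, s ∉ 𝔫 ∧ V₀.valuation ((s : F) * y - c * u) < 1)
    {A : Type*} [CommRing A] [IsDomain A] [IsIntegrallyClosed A]
    (φ : A →+* Chart R t) (hφ : Function.Injective φ) (hint : φ.IsIntegral)
    (ϖA : A) (hϖA : ((φ ϖA : Chart R t) : F) = algebraMap R F ϖ)
    (x'' : A) (hx0 : x'' ≠ 0) (hxV : V₀.valuation ((φ x'' : Chart R t) : F) < 1)
    (hprin : ∀ y : A, V₀.valuation ((φ y : Chart R t) : F) < 1 →
      ∃ s c : A, φ s ∉ 𝔫 ∧ s * y = c * x'')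
    (hother : ∀ V ∈ 𝒱, V ≠ V₀ → ∃ y : A,
      ¬ (V.valuation ((φ y : Chart R t) : F) < 1 ↔ V₀.valuation ((φ y : Chart R t) : F) < 1)) :
    L1At R ϖ t 𝔫 n f := by
  haveI : IsNoetherianRing (Chart R t) := H22BR.chart_noeth R K ht
  set P : Ideal (Chart R t) :=
    compIdeal R V₀ (fun y => chart_mem_of_hO R K hϖ ht 𝒱 hO hV₀ y) with hPdef
  have hP : P.IsPrime := compIdeal_isPrime R V₀ _
  have hPle : P ≤ 𝔫 := fun y hy => hP𝔫 y hy
  have huP : u ∉ P := by
    intro h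
    have : V₀.valuation (u : F) < 1 := h
    rw [huV] at this
    exact lt_irrefl _ this
  haveI hP'' : (P.comap φ).IsPrime := Ideal.comap_isPrime φ P
  have hxP'' : x'' ∈ P.comap φ := hxV
  have hϖP'' : ϖA ∈ P.comap φ := by
    change V₀.valuation ((φ ϖA : Chart R t) : F) < 1
    rw [hϖA]
    exact hϖV₀
  have huniq : ∀ p : Ideal (Chart R t), p.IsPrime → p.height = 1 → p ≤ 𝔫 →
      p.comap φ = P.comap φ → p = P := by
    intro p hp hh hple hpc
    have hϖp : ∀ y : Chart R t, (y : F) = algebraMap R F ϖ → y ∈ p := by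
      intro y hy
      have h1 : ϖA ∈ p.comap φ := by rw [hpc]; exact hϖP''
      have h2 : φ ϖA = y := Subtype.ext (by rw [hϖA, hy])
      rw [← h2]
      exact h1
    obtain ⟨V, hV, hpV⟩ := vert_prime_cases R K hϖ ht 𝒱 hO p hp hh hϖp
    by_cases hVV : V = V₀
    · subst hVV
      exact hpV
    · exfalso
      obtain ⟨y, hy⟩ := hother V hV hVV
      apply hy
      have h1 : φ y ∈ p ↔ φ y ∈ P := by
        rw [← Ideal.mem_comap, ← Ideal.mem_comap, hpc]
      rw [hpV] at h1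
      exact h1
  have honly := only_of_under_ht φ hφ hint 𝔫 P (P.comap φ) x'' hx0 hxP''
    (fun y hy => hprin y hy) huniq
  have hred := hred_of_val R K hϖ ht 𝒱 hO V₀ hV₀ hϖ₀ hcrt (φ ϖA) hϖA
  have hϖx : ∃ s c : Chart R t, s ∉ P ∧ s * φ ϖA = c * φ x'' := by
    obtain ⟨s, c, hs, hsc⟩ := hprin ϖA hϖP''
    refine ⟨φ s, φ c, fun h => hs (hPle h), ?_⟩
    rw [← map_mul, ← map_mul, hsc]
  have hloc := hloc_of_red P (φ ϖA) (φ x'') hred hϖx
  have ha0 : φ x'' ≠ 0 := fun h => hx0 (hφ (by rw [h, map_zero]))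
  have hunif' : ∀ y ∈ 𝔫, ∃ s c : Chart R t, s ∉ 𝔫 ∧ s * y - c * u ∈ P := by
    intro y hy
    obtain ⟨s, c, hs, hsc⟩ := hunif y hy
    refine ⟨s, c, hs, ?_⟩
    change V₀.valuation (((s * y - c * u : Chart R t)) : F) < 1
    push_cast
    exact hsc
  exact l1At_R2 R K ϖ hϖ ht n hn f hf hdiv 𝔫 h𝔫 P hP hPle (φ x'') u ha0 hxV hu𝔫 huP honly
    hloc hunif'

/-- **principal component at a point, valuation form** (level `M q`: (R1)-final; also the
points lying on one component only, with `a = ϖ`).  `a ∈ P_{V₀}`, `ϖ ∈ a B_𝔫`, and for every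
other `V ∈ 𝒱` either `a` is a unit at `V` or `P_V ⊄ 𝔫`.  Then `P_{V₀} B_𝔫 = (a)`. -/
theorem principal_val (ϖ : R) (hϖ : Irreducible ϖ) {t : F} (ht : Transcendental K t)
    [hfin : FiniteDimensional K⟮t⟯ F]
    (𝒱 : Finset (ValuationSubring F)) (hO : ∀ x : F, GInt R ϖ t x ↔ ∀ V ∈ 𝒱, x ∈ V)
    (V₀ : ValuationSubring F) (hV₀ : V₀ ∈ 𝒱)
    (hϖ₀ : ∀ x : F, V₀.valuation x < 1 → V₀.valuation x ≤ V₀.valuation (algebraMap R F ϖ))
    (hcrt : ∃ e : F, V₀.valuation (e - 1) < 1 ∧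
      ∀ V ∈ 𝒱, V ≠ V₀ → V.valuation e ≤ V.valuation (algebraMap R F ϖ))
    (𝔫 : Ideal (Chart R t)) (h𝔫 : 𝔫.IsPrime)
    (hP𝔫 : ∀ y : Chart R t, V₀.valuation (y : F) < 1 → y ∈ 𝔫)
    (ϖM : Chart R t) (hϖM : (ϖM : F) = algebraMap R F ϖ)
    (a : Chart R t) (ha0 : a ≠ 0)
    (hϖa : ∃ s c : Chart R t, s ∉ 𝔫 ∧ s * ϖM = c * a)
    (hsep : ∀ V ∈ 𝒱, V ≠ V₀ →
      V.valuation (a : F) = 1 ∨ ∃ g : Chart R t, V.valuation (g : F) < 1 ∧ g ∉ 𝔫) :
    ∀ y : Chart R t, V₀.valuation (y : F) < 1 → ∃ s c : Chart R t, s ∉ 𝔫 ∧ s * y = c * a := by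
  haveI : IsNoetherianRing (Chart R t) := H22BR.chart_noeth R K ht
  haveI : IsIntegrallyClosed (Chart R t) := H22BR.chart_intClosed R K t
  set P : Ideal (Chart R t) :=
    compIdeal R V₀ (fun y => chart_mem_of_hO R K hϖ ht 𝒱 hO hV₀ y) with hPdef
  have hP : P.IsPrime := compIdeal_isPrime R V₀ _
  have hPle : P ≤ 𝔫 := fun y hy => hP𝔫 y hy
  have honly : ∀ p : Ideal (Chart R t), p.IsPrime → p.height = 1 → p ≤ 𝔫 → a ∈ p → p = P := by
    intro p hp hh hple hap
    obtain ⟨s, c, hs, hsc⟩ := hϖa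
    have hϖp : ϖM ∈ p := by
      have h1 : s * ϖM ∈ p := by rw [hsc]; exact p.mul_mem_left c hap
      exact (hp.mem_or_mem h1).resolve_left (fun h => hs (hple h))
    have hϖp' : ∀ y : Chart R t, (y : F) = algebraMap R F ϖ → y ∈ p := by
      intro y hy
      have : y = ϖM := Subtype.ext (by rw [hy, hϖM])
      rw [this]
      exact hϖp
    obtain ⟨V, hV, hpV⟩ := vert_prime_cases R K hϖ ht 𝒱 hO p hp hh hϖp'
    by_cases hVV : V = V₀
    · subst hVV
      exact hpV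
    · exfalso
      rcases hsep V hV hVV with h1 | ⟨g, hg, hg𝔫⟩
      · rw [hpV] at hap
        have : V.valuation (a : F) < 1 := hap
        rw [h1] at this
        exact lt_irrefl _ this
      · apply hg𝔫
        apply hple
        rw [hpV]
        exact hg
  have hred := hred_of_val R K hϖ ht 𝒱 hO V₀ hV₀ hϖ₀ hcrt ϖM hϖM
  have hϖa' : ∃ s c : Chart R t, s ∉ P ∧ s * ϖM = c * a := by
    obtain ⟨s, c, hs, hsc⟩ := hϖa
    exact ⟨s, c, fun h => hs (hPle h), hsc⟩
  have hloc := hloc_of_red P ϖM a hred hϖa'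
  intro y hy
  exact principal_at 𝔫 P a ha0 honly hloc y hy

/-- **(R1)-final / single-component points ⟹ (L1)**, valuation form: under the hypotheses of
`principal_val` and with a uniformizer `u` of `(M₀ / P_{V₀})_𝔫`, `H4S34.L1At` holds at `𝔫`. -/
theorem l1At_val (ϖ : R) (hϖ : Irreducible ϖ) {t : F} (ht : Transcendental K t)
    [hfin : FiniteDimensional K⟮t⟯ F] (n : ℕ) (hn : 0 < n) (f : F) (hf : f ≠ 0)
    (hdiv : ∀ V : Place K F, (n : ℤ) ∣ V.ord f)
    (𝒱 : Finset (ValuationSubring F)) (hO : ∀ x : F, GInt R ϖ t x ↔ ∀ V ∈ 𝒱, x ∈ V)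
    (V₀ : ValuationSubring F) (hV₀ : V₀ ∈ 𝒱)
    (hϖ₀ : ∀ x : F, V₀.valuation x < 1 → V₀.valuation x ≤ V₀.valuation (algebraMap R F ϖ))
    (hcrt : ∃ e : F, V₀.valuation (e - 1) < 1 ∧
      ∀ V ∈ 𝒱, V ≠ V₀ → V.valuation e ≤ V.valuation (algebraMap R F ϖ))
    (𝔫 : Ideal (Chart R t)) (h𝔫 : 𝔫.IsPrime)
    (hP𝔫 : ∀ y : Chart R t, V₀.valuation (y : F) < 1 → y ∈ 𝔫)
    (ϖM : Chart R t) (hϖM : (ϖM : F) = algebraMap R F ϖ)
    (a : Chart R t) (ha0 : a ≠ 0) (haV : V₀.valuation (a : F) < 1)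
    (hϖa : ∃ s c : Chart R t, s ∉ 𝔫 ∧ s * ϖM = c * a)
    (hsep : ∀ V ∈ 𝒱, V ≠ V₀ →
      V.valuation (a : F) = 1 ∨ ∃ g : Chart R t, V.valuation (g : F) < 1 ∧ g ∉ 𝔫)
    (u : Chart R t) (hu𝔫 : u ∈ 𝔫) (huV : V₀.valuation (u : F) = 1)
    (hunif : ∀ y ∈ 𝔫, ∃ s c : Chart R t, s ∉ 𝔫 ∧ V₀.valuation ((s : F) * y - c * u) < 1) :
    L1At R ϖ t 𝔫 n f := by
  haveI : IsNoetherianRing (Chart R t) := H22BR.chart_noeth R K ht
  set P : Ideal (Chart R t) :=
    compIdeal R V₀ (fun y => chart_mem_of_hO R K hϖ ht 𝒱 hO hV₀ y) with hPdef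
  have hP : P.IsPrime := compIdeal_isPrime R V₀ _
  have hPle : P ≤ 𝔫 := fun y hy => hP𝔫 y hy
  have huP : u ∉ P := by
    intro h
    have : V₀.valuation (u : F) < 1 := h
    rw [huV] at this
    exact lt_irrefl _ this
  have hP0 : P ≠ ⊥ := by
    intro h
    have : a ∈ P := haV
    rw [h] at this
    exact ha0 ((Ideal.mem_bot).1 this)
  have hPne : P ≠ 𝔫 := by
    intro h
    rw [← h] at hu𝔫
    exact huP hu𝔫
  have hprin := principal_val R K ϖ hϖ ht 𝒱 hO V₀ hV₀ hϖ₀ hcrt 𝔫 h𝔫 hP𝔫 ϖM hϖM a ha0 hϖa hsep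
  have hunif' : ∀ y ∈ 𝔫, ∃ s c : Chart R t, s ∉ 𝔫 ∧ s * y - c * u ∈ P := by
    intro y hy
    obtain ⟨s, c, hs, hsc⟩ := hunif y hy
    refine ⟨s, c, hs, ?_⟩
    change V₀.valuation (((s * y - c * u : Chart R t)) : F) < 1
    push_cast
    exact hsc
  have hgen := two_gen_of_principal 𝔫 P a u (fun y hy => hprin y hy) hunif'
  refine H26LU.l1At_of_two_gen R K ϖ hϖ ht n hn f hf hdiv 𝔫 h𝔫 P hP hP0 hPle hPne a u
    (hPle haV) hu𝔫 ?_
  intro y hy
  obtain ⟨s, c, d, hs, h⟩ := hgen y hy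
  refine ⟨s, c, d, hs, ?_⟩
  have := congrArg (fun z : Chart R t => (z : F)) h
  simpa using this

end main

end H26R2
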