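/-
helper9: item 86 (S36): **(CU3) in valuation form at the points**, concrete objects
`H4S36.cV1`, `H4S36.cV3` at the level `M q²`, in the shape used by `H26R2.hR2_of_triple`,
`H26R2.twoGenAt_single₁` and helper7's cusp wiring:

  `Through R c 𝔫 V → ∃ u ∈ 𝔫, ∀ y ∈ 𝔫, ∃ s d : Chart R c, s ∉ 𝔫 ∧ v(s y - d u) < 1`

* `H9CU.cu1_qq` : `V = cV1`;
* `H9CU.cu3_qq` : `V = cV3`;
* `H9CU.cu1_qq'`, `H9CU.cu3_qq'` : with `¬ v(u) < 1` in addition.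
-/
import Mathlib
import Fermat.Agent.S36.BranchRootV2_helper9
import Fermat.Agent.S36.R2Val_helper26

set_option autoImplicit false
set_option synthInstance.maxHeartbeats 400000
set_option maxHeartbeats 4000000
set_option linter.unusedSectionVars false
set_option linter.unusedVariables false
set_option linter.style.haveILetI false

noncomputable section

open Polynomial IntermediateField ModularCurve H7S18 H4S34 H26DI H28GV H17T3 H8TG H4S36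

namespace H9CU

section gencu

variable {R : Type} [CommRing R] [IsDomain R] [IsDiscreteValuationRing R]
  {E : Type} [Field E] [Algebra R E]

/-- from `UnifAt` for the component ideal to the valuation form -/
theorem cu_of_unifAt (c : E) (𝔫 : Ideal (Chart R c)) (V : ValuationSubring E)
    (hmem : ∀ y : Chart R c, (y : E) ∈ V)
    (P : Ideal (Chart R c)) (hP : ∀ y : Chart R c, y ∈ P ↔ V.valuation (y : E) < 1)
    (h : H10G3.Through R c 𝔫 V → P ≤ 𝔫 → ∃ x, UnifAt P 𝔫 x) :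
    H10G3.Through R c 𝔫 V → ∃ u ∈ 𝔫, ¬ V.valuation (u : E) < 1 ∧ ∀ y ∈ 𝔫,
      ∃ s d : Chart R c, s ∉ 𝔫 ∧ V.valuation ((s : E) * y - d * u) < 1 := by
  intro hT
  have hle : P ≤ 𝔫 := by
    intro y hy
    by_contra hy𝔫
    have h1 := hT y hy𝔫
    have h2 := (hP y).mp hy
    rw [h1] at h2
    exact lt_irrefl _ h2
  obtain ⟨x, hx𝔫, hxP, hx⟩ := h hT hle
  refine ⟨x, hx𝔫, fun h1 => hxP ((hP x).mpr h1), ?_⟩
  intro y hy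
  obtain ⟨s, hs, d, hd⟩ := hx y hy
  exact ⟨s, d, hs, (hP _).mp hd⟩

end gencu

section concrete3

variable (M : ℕ) [NeZero M] (q : ℕ) [NeZero q] (hq : q.Prime) (hqM : ¬ q ∣ M)
  (hT : TameLevel q M)
  (A : ValuationSubring (AlgebraicClosure ℚ)) (hA : A.LiesOverPrime q)
  (K₁ : IntermediateField ℚ (AlgebraicClosure ℚ)) (hfin : FiniteDimensional ℚ K₁)
  (hunr : Irreducible ((q : ℕ) : ↥(descVal A K₁)))
  (hζe : ∃ ζ' : K₁, IsPrimitiveRoot ζ' (branchIndex (baseKind q) M))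
  (K₃ : IntermediateField ℚ (AlgebraicClosure ℚ)) (hfin₃ : FiniteDimensional ℚ K₃)
  (h13 : K₁ ≤ K₃) (ζ : (↥K₃)ˣ) (hζ : IsPrimitiveRoot ζ q)
  [IsDiscreteValuationRing ↥(descVal A K₁)] [IsDiscreteValuationRing ↥(descVal A K₃)]
  [Algebra ↥(descVal A K₁) (FK K₁ (M * q * q))]
  [IsScalarTower ↥(descVal A K₁) K₁ (FK K₁ (M * q * q))]
  (t₀ : LaurentSeries ℚ) (ht₀ : IsBase (baseKind q) t₀)
  (t : FK K₁ (M * q * q)) (ht : (t : LaurentSeries K₁) = coeffEmb K₁ t₀)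

include hq hqM hT hA hfin hunr hζe hfin₃ h13 hζ ht₀ ht in
/-- **(CU3) at `V₁`**, valuation form, with `¬ v(u) < 1` -/
theorem cu1_qq' (c : FK K₁ (M * q * q)) (hc : c = t ∨ c = t⁻¹)
    (𝔫 : Ideal (Chart ↥(descVal A K₁) c))
    (h𝔫 : IsClosedPt ↥(descVal A K₁) ((q : ℕ) : ↥(descVal A K₁)) c 𝔫) :
    H10G3.Through ↥(descVal A K₁) c 𝔫 (cV1 K₁ (descVal A K₁) M q) →
      ∃ u ∈ 𝔫, ¬ (cV1 K₁ (descVal A K₁) M q).valuation (u : FK K₁ (M * q * q)) < 1 ∧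
        ∀ y ∈ 𝔫, ∃ s d : Chart ↥(descVal A K₁) c, s ∉ 𝔫 ∧
          (cV1 K₁ (descVal A K₁) M q).valuation
            ((s : FK K₁ (M * q * q)) * y - d * u) < 1 := by
  have hmem : ∀ y : Chart ↥(descVal A K₁) c,
      (y : FK K₁ (M * q * q)) ∈ cV1 K₁ (descVal A K₁) M q :=
    fun x => (chart_mem_qq M q hq hqM hT A hA K₁ hfin hunr K₃ hfin₃ h13 ζ hζ
      t₀ ht₀ t ht c hc x).1
  refine cu_of_unifAt c 𝔫 (cV1 K₁ (descVal A K₁) M q) hmem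
    (H26R2.compIdeal ↥(descVal A K₁) (cV1 K₁ (descVal A K₁) M q) hmem)
    (fun y => Iff.rfl) ?_
  intro _ hle
  exact unif1_sq M q hq hqM hT A hA K₁ hfin hζe (M * q * q) ⟨q * q, by ring⟩
    ((q : ℕ) : ↥(descVal A K₁)) hunr t₀ ht₀ t ht c hc
    (coord_of_TG M q hq hqM hT A hA K₁ hfin hunr K₃ hfin₃ h13 ζ hζ t₀ ht₀ t ht)
    (H26R2.compIdeal ↥(descVal A K₁) (cV1 K₁ (descVal A K₁) M q) hmem)
    (fun y => H10FC.gaussVal_lt_one _ _ (y : FK K₁ (M * q * q))) 𝔫 h𝔫.1 hle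

include hq hqM hT hA hfin hunr hζe hfin₃ h13 hζ ht₀ ht in
/-- **(CU3) at `V₁`**, valuation form -/
theorem cu1_qq (c : FK K₁ (M * q * q)) (hc : c = t ∨ c = t⁻¹)
    (𝔫 : Ideal (Chart ↥(descVal A K₁) c))
    (h𝔫 : IsClosedPt ↥(descVal A K₁) ((q : ℕ) : ↥(descVal A K₁)) c 𝔫) :
    H10G3.Through ↥(descVal A K₁) c 𝔫 (cV1 K₁ (descVal A K₁) M q) →
      ∃ u ∈ 𝔫, ∀ y ∈ 𝔫, ∃ s d : Chart ↥(descVal A K₁) c, s ∉ 𝔫 ∧
        (cV1 K₁ (descVal A K₁) M q).valuation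
          ((s : FK K₁ (M * q * q)) * y - d * u) < 1 := by
  intro hT'
  obtain ⟨u, hu, -, h⟩ := cu1_qq' M q hq hqM hT A hA K₁ hfin hunr hζe K₃ hfin₃ h13 ζ hζ
    t₀ ht₀ t ht c hc 𝔫 h𝔫 hT'
  exact ⟨u, hu, h⟩

include hq hqM hT hA hfin hunr hζe hfin₃ h13 hζ ht₀ ht in
/-- **(CU3) at `V₃`**, valuation form, with `¬ v(u) < 1` -/
theorem cu3_qq' (c : FK K₁ (M * q * q)) (hc : c = t ∨ c = t⁻¹)
    (𝔫 : Ideal (Chart ↥(descVal A K₁) c))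
    (h𝔫 : IsClosedPt ↥(descVal A K₁) ((q : ℕ) : ↥(descVal A K₁)) c 𝔫) :
    H10G3.Through ↥(descVal A K₁) c 𝔫 (cV3 K₁ M q hq hqM K₃ (descVal A K₃) h13 ζ hζ) →
      ∃ u ∈ 𝔫, ¬ (cV3 K₁ M q hq hqM K₃ (descVal A K₃) h13 ζ hζ).valuation
          (u : FK K₁ (M * q * q)) < 1 ∧
        ∀ y ∈ 𝔫, ∃ s d : Chart ↥(descVal A K₁) c, s ∉ 𝔫 ∧
          (cV3 K₁ M q hq hqM K₃ (descVal A K₃) h13 ζ hζ).valuation
            ((s : FK K₁ (M * q * q)) * y - d * u) < 1 := by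
  have hmem : ∀ y : Chart ↥(descVal A K₁) c,
      (y : FK K₁ (M * q * q)) ∈ cV3 K₁ M q hq hqM K₃ (descVal A K₃) h13 ζ hζ :=
    fun x => (chart_mem_qq M q hq hqM hT A hA K₁ hfin hunr K₃ hfin₃ h13 ζ hζ
      t₀ ht₀ t ht c hc x).2.2
  refine cu_of_unifAt c 𝔫 (cV3 K₁ M q hq hqM K₃ (descVal A K₃) h13 ζ hζ) hmem
    (H26R2.compIdeal ↥(descVal A K₁) (cV3 K₁ M q hq hqM K₃ (descVal A K₃) h13 ζ hζ) hmem)
    (fun y => Iff.rfl) ?_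
  intro _ hle
  exact (comp_unif3_sq M q hq hqM hT A hA K₁ hfin hζe (M * q * q)
    (cV3 K₁ M q hq hqM K₃ (descVal A K₃) h13 ζ hζ) (h8tg_dvd1 M q)
    (h3lev_cV3 M q hq hqM A K₁ K₃ h13 ζ hζ)
    (H8TG.J0 ↥K₁ (M * q * q)) (H8TG.J2 ↥K₁ (M * q * q) q (h8tg_dvd2 M q)) rfl rfl
    (h3J_cV3 M q hq hqM A hA K₁ K₃ h13 ζ hζ)
    ((q : ℕ) : ↥(descVal A K₁)) hunr t₀ ht₀ t ht c hc
    (coord_of_TG M q hq hqM hT A hA K₁ hfin hunr K₃ hfin₃ h13 ζ hζ t₀ ht₀ t ht)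
    (H26R2.compIdeal ↥(descVal A K₁) (cV3 K₁ M q hq hqM K₃ (descVal A K₃) h13 ζ hζ) hmem)
    (fun y => Iff.rfl)).2 𝔫 h𝔫.1 hle

include hq hqM hT hA hfin hunr hζe hfin₃ h13 hζ ht₀ ht in
/-- **(CU3) at `V₃`**, valuation form -/
theorem cu3_qq (c : FK K₁ (M * q * q)) (hc : c = t ∨ c = t⁻¹)
    (𝔫 : Ideal (Chart ↥(descVal A K₁) c))
    (h𝔫 : IsClosedPt ↥(descVal A K₁) ((q : ℕ) : ↥(descVal A K₁)) c 𝔫) :
    H10G3.Through ↥(descVal A K₁) c 𝔫 (cV3 K₁ M q hq hqM K₃ (descVal A K₃) h13 ζ hζ) →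
      ∃ u ∈ 𝔫, ∀ y ∈ 𝔫, ∃ s d : Chart ↥(descVal A K₁) c, s ∉ 𝔫 ∧
        (cV3 K₁ M q hq hqM K₃ (descVal A K₃) h13 ζ hζ).valuation
          ((s : FK K₁ (M * q * q)) * y - d * u) < 1 := by
  intro hT'
  obtain ⟨u, hu, -, h⟩ := cu3_qq' M q hq hqM hT A hA K₁ hfin hunr hζe K₃ hfin₃ h13 ζ hζ
    t₀ ht₀ t ht c hc 𝔫 h𝔫 hT'
  exact ⟨u, hu, h⟩

end concrete3

end H9CU

end
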