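import Mathlib
import Fermat.Agent.S34.Cusp0_helper7

/-!
# Item 86 (S36), (CUSP3) concrete input (A) = `hU` (helper23)

At a closed point `𝔫` of the chart `c ∈ {t, t⁻¹}` (any level `N`, `t` the base function of kind
`baseKind q`) at which `J = j` is NOT in the local ring, `J` has a pole:
`∃ a s : Chart, s ∉ 𝔫 ∧ a ∈ 𝔫 ∧ J * a = s`
(= hypothesis `hU` of `H7C3.twoGenAt_cusp3` / `H7C3.cusp_not_both_val` / `H7C0.cusp_core`).

* `H23HU.hU_of_rel` : generic step (relation `J a = s` with `a ∈ 𝔫 → s ∉ 𝔫`);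
* `H23HU.hU_chart` : chart `t`  (kind 1: `J = t`, never a pole; kind 2: `J t² = (t + 256)³`;
  kind 3: `J t³ = (t + 27)(t + 243)³`);
* `H23HU.hU_chart_inv` : chart `t⁻¹ = u` (`J u = 1`, `(1 + 256 u)³`, `(1 + 27 u)(1 + 243 u)³`);
* `H23HU.hU_both` : both charts, `c = t ∨ c = t⁻¹`.
-/

set_option autoImplicit false
set_option synthInstance.maxHeartbeats 400000
set_option maxHeartbeats 1000000
set_option linter.unusedSectionVars false
set_option linter.unusedVariables false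
set_option linter.style.haveILetI false
set_option linter.style.longLine false

noncomputable section

open Polynomial IntermediateField ModularCurve H7S18 H4S34 H28GV

namespace H23HU

section Generic

variable (R : Type) [CommRing R] {E : Type} [Field E] [Algebra R E]

/-- the chart parameter as an element of the chart ring -/
def selfC (c : E) : Chart R c :=
  ⟨c, (isIntegral_algebraMap : IsIntegral (Algebra.adjoin R {c})
    (algebraMap (Algebra.adjoin R {c}) E ⟨c, Algebra.subset_adjoin (Set.mem_singleton c)⟩))⟩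

theorem coe_selfC (c : E) : ((selfC R c : Chart R c) : E) = c := rfl

/-- generic step: from a relation `J · a = s` with `a ∈ 𝔫 → s ∉ 𝔫`: a point at which `J` is not
in the local ring is a pole of `J`. -/
theorem hU_of_rel {c : E} (𝔫 : Ideal (Chart R c)) {J : E} (a s : Chart R c)
    (hrel : J * (a : E) = (s : E)) (hs : a ∈ 𝔫 → s ∉ 𝔫) (hnot : ¬ InLoc R c 𝔫 J) :
    ∃ a s : Chart R c, s ∉ 𝔫 ∧ a ∈ 𝔫 ∧ J * (a : E) = (s : E) := by
  by_cases ha : a ∈ 𝔫
  · exact ⟨a, s, hs ha, ha, hrel⟩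
  · exact absurd ⟨s, a, ha, by rw [mul_comm]; exact hrel⟩ hnot

/-- `1 + n c ∉ 𝔫` for `c ∈ 𝔫` -/
theorem one_add_notMem {c : E} (𝔫 : Ideal (Chart R c)) (h𝔫 : 𝔫 ≠ ⊤)
    (hu : selfC R c ∈ 𝔫) (n : ℕ) :
    (1 + ((n : ℕ) : Chart R c) * selfC R c) ∉ 𝔫 := by
  intro h
  apply h𝔫
  rw [Ideal.eq_top_iff_one]
  have h1 : ((n : ℕ) : Chart R c) * selfC R c ∈ 𝔫 := 𝔫.mul_mem_left _ hu
  exact (Ideal.add_mem_iff_left (α := ↥(Chart R c)) 𝔫 h1).mp h

end Generic

section Concrete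

variable (N : ℕ) [NeZero N] (q : ℕ) [NeZero q] (hq : q.Prime)
  (A : ValuationSubring (AlgebraicClosure ℚ)) (hA : A.LiesOverPrime q)
  (K₁ : IntermediateField ℚ (AlgebraicClosure ℚ)) (hfin : FiniteDimensional ℚ K₁)
  [Algebra ↥(descVal A K₁) (FK K₁ N)]
  [IsScalarTower ↥(descVal A K₁) K₁ (FK K₁ N)]

include hA hfin hq in
/-- integers prime to `q` are not in a proper ideal of the chart ring (any level, any chart) -/
theorem natCast_notMem (c : FK K₁ N) (n : ℕ) (hn : 0 < n) (hqn : ¬ q ∣ n)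
    (𝔫 : Ideal (Chart ↥(descVal A K₁) c)) (h𝔫 : 𝔫 ≠ ⊤) :
    ((n : ℕ) : Chart ↥(descVal A K₁) c) ∉ 𝔫 := by
  haveI : Fact q.Prime := ⟨hq⟩
  obtain ⟨hdvr, -, hu⟩ := H4DVR.dvrStatement q A hA K₁ hfin
  obtain ⟨r', hr'⟩ := (hu n hqn hn).exists_right_inv
  obtain ⟨y', hy'⟩ := H26DI.exists_chart_coe ↥(descVal A K₁) c r'
  intro hmem
  apply h𝔫
  rw [Ideal.eq_top_iff_one]
  have e : ((n : ℕ) : Chart ↥(descVal A K₁) c) * y' = 1 := by
    apply Subtype.ext
    show (((n : ℕ) : Chart ↥(descVal A K₁) c) : FK K₁ N) * (y' : FK K₁ N) = 1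
    rw [hy']
    have h1 : (((n : ℕ) : Chart ↥(descVal A K₁) c) : FK K₁ N) =
        algebraMap ↥(descVal A K₁) (FK K₁ N) ((n : ℕ) : ↥(descVal A K₁)) := by
      rw [map_natCast]
      rfl
    rw [h1, ← map_mul, hr', map_one]
  rw [← e]
  exact 𝔫.mul_mem_right _ hmem

/-- the three relations between `J` and the base function `t`, in the function field -/
theorem rel_kind3 (t₀ : LaurentSeries ℚ) (ht₀ : IsBase 3 t₀)
    (t : FK K₁ N) (ht : (t : LaurentSeries K₁) = coeffEmb K₁ t₀)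
    (J : FK K₁ N) (hJ : (J : LaurentSeries K₁) = jqModC K₁) :
    J * t ^ 3 = (t + 27) * (t + 243) ^ 3 := by
  apply Subtype.ext
  show (J : LaurentSeries K₁) * (t : LaurentSeries K₁) ^ 3 =
    ((t : LaurentSeries K₁) + ((27 : FK K₁ N) : LaurentSeries K₁)) *
      ((t : LaurentSeries K₁) + ((243 : FK K₁ N) : LaurentSeries K₁)) ^ 3
  rw [ht, hJ]
  exact H7C0.j_mul_cube K₁ t₀ ht₀

theorem rel_kind2 (t₀ : LaurentSeries ℚ) (ht₀ : IsBase 2 t₀)
    (t : FK K₁ N) (ht : (t : LaurentSeries K₁) = coeffEmb K₁ t₀)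
    (J : FK K₁ N) (hJ : (J : LaurentSeries K₁) = jqModC K₁) :
    J * t ^ 2 = (t + 256) ^ 3 := by
  apply Subtype.ext
  show (J : LaurentSeries K₁) * (t : LaurentSeries K₁) ^ 2 =
    ((t : LaurentSeries K₁) + ((256 : FK K₁ N) : LaurentSeries K₁)) ^ 3
  rw [ht, hJ]
  exact H7C0.j_mul_sq K₁ t₀ ht₀

theorem rel_kind1 (t₀ : LaurentSeries ℚ) (ht₀ : IsBase 1 t₀)
    (t : FK K₁ N) (ht : (t : LaurentSeries K₁) = coeffEmb K₁ t₀)
    (J : FK K₁ N) (hJ : (J : LaurentSeries K₁) = jqModC K₁) :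
    t = J := by
  apply Subtype.ext
  rw [ht, hJ, H4BR.eq_jq_of_isBase ht₀, gv_coeffEmb_jq]

include hq hA hfin in
/-- **(A) on the chart `t`**: a closed point of the chart `t` at which `J` is not in the local
ring is a pole of `J`. -/
theorem hU_chart (t₀ : LaurentSeries ℚ) (ht₀ : IsBase (baseKind q) t₀)
    (t : FK K₁ N) (ht : (t : LaurentSeries K₁) = coeffEmb K₁ t₀)
    (J : FK K₁ N) (hJ : (J : LaurentSeries K₁) = jqModC K₁)
    (𝔫 : Ideal (Chart ↥(descVal A K₁) t)) (hprime : 𝔫.IsPrime)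
    (hnot : ¬ InLoc ↥(descVal A K₁) t 𝔫 J) :
    ∃ a s : Chart ↥(descVal A K₁) t, s ∉ 𝔫 ∧ a ∈ 𝔫 ∧
      J * (a : FK K₁ N) = (s : FK K₁ N) := by
  have hne : 𝔫 ≠ ⊤ := hprime.ne_top
  by_cases hq2 : q = 2
  · -- kind `3`
    have hk : baseKind q = 3 := by rw [hq2]; rfl
    rw [hk] at ht₀
    have key := rel_kind3 N K₁ t₀ ht₀ t ht J hJ
    have h27 : ((27 : ℕ) : Chart ↥(descVal A K₁) t) ∉ 𝔫 :=
      natCast_notMem N q hq A hA K₁ hfin t 27 (by norm_num) (by rw [hq2]; norm_num) 𝔫 hne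
    have h243 : ((243 : ℕ) : Chart ↥(descVal A K₁) t) ∉ 𝔫 :=
      natCast_notMem N q hq A hA K₁ hfin t 243 (by norm_num) (by rw [hq2]; norm_num) 𝔫 hne
    refine hU_of_rel ↥(descVal A K₁) 𝔫 (selfC ↥(descVal A K₁) t ^ 3)
      ((selfC ↥(descVal A K₁) t + ((27 : ℕ) : Chart ↥(descVal A K₁) t)) *
        (selfC ↥(descVal A K₁) t + ((243 : ℕ) : Chart ↥(descVal A K₁) t)) ^ 3) ?_ ?_ hnot
    · show J * t ^ 3 = (t + ((27 : ℕ) : FK K₁ N)) * (t + ((243 : ℕ) : FK K₁ N)) ^ 3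
      rw [key]
      push_cast
      rfl
    · intro ha hs
      have hyt : selfC ↥(descVal A K₁) t ∈ 𝔫 := hprime.mem_of_pow_mem 3 ha
      rcases hprime.mem_or_mem hs with h | h
      · apply h27
        exact (Ideal.add_mem_iff_right (α := ↥(Chart ↥(descVal A K₁) t)) 𝔫 hyt).mp h
      · have h' := hprime.mem_of_pow_mem 3 h
        apply h243
        exact (Ideal.add_mem_iff_right (α := ↥(Chart ↥(descVal A K₁) t)) 𝔫 hyt).mp h'
  · by_cases hq3 : q = 3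
    · -- kind `2`
      have hk : baseKind q = 2 := by rw [hq3]; rfl
      rw [hk] at ht₀
      have key := rel_kind2 N K₁ t₀ ht₀ t ht J hJ
      have h256 : ((256 : ℕ) : Chart ↥(descVal A K₁) t) ∉ 𝔫 :=
        natCast_notMem N q hq A hA K₁ hfin t 256 (by norm_num) (by rw [hq3]; norm_num) 𝔫 hne
      refine hU_of_rel ↥(descVal A K₁) 𝔫 (selfC ↥(descVal A K₁) t ^ 2)
        ((selfC ↥(descVal A K₁) t + ((256 : ℕ) : Chart ↥(descVal A K₁) t)) ^ 3) ?_ ?_ hnot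
      · show J * t ^ 2 = (t + ((256 : ℕ) : FK K₁ N)) ^ 3
        rw [key]
        push_cast
        rfl
      · intro ha hs
        have hyt : selfC ↥(descVal A K₁) t ∈ 𝔫 := hprime.mem_of_pow_mem 2 ha
        have h' := hprime.mem_of_pow_mem 3 hs
        apply h256
        exact (Ideal.add_mem_iff_right (α := ↥(Chart ↥(descVal A K₁) t)) 𝔫 hyt).mp h'
    · -- kind `1`: `J = t` is in the chart ring
      have hk : baseKind q = 1 := by
        unfold baseKind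
        rw [if_neg hq2, if_neg hq3]
      rw [hk] at ht₀
      have htj := rel_kind1 N K₁ t₀ ht₀ t ht J hJ
      exfalso
      apply hnot
      refine ⟨selfC ↥(descVal A K₁) t, 1, fun h1 => hne ((Ideal.eq_top_iff_one 𝔫).mpr h1), ?_⟩
      show (1 : FK K₁ N) * J = t
      rw [one_mul, htj]

include hq hA hfin in
/-- **(A) on the chart `t⁻¹`**: a closed point of the chart `t⁻¹` at which `J` is not in the local
ring is a pole of `J`. -/
theorem hU_chart_inv (t₀ : LaurentSeries ℚ) (ht₀ : IsBase (baseKind q) t₀)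
    (t : FK K₁ N) (ht : (t : LaurentSeries K₁) = coeffEmb K₁ t₀) (ht0 : t ≠ 0)
    (J : FK K₁ N) (hJ : (J : LaurentSeries K₁) = jqModC K₁)
    (𝔫 : Ideal (Chart ↥(descVal A K₁) t⁻¹)) (hprime : 𝔫.IsPrime)
    (hnot : ¬ InLoc ↥(descVal A K₁) t⁻¹ 𝔫 J) :
    ∃ a s : Chart ↥(descVal A K₁) t⁻¹, s ∉ 𝔫 ∧ a ∈ 𝔫 ∧
      J * (a : FK K₁ N) = (s : FK K₁ N) := by
  have hne : 𝔫 ≠ ⊤ := hprime.ne_top
  by_cases hq2 : q = 2
  · -- kind `3`
    have hk : baseKind q = 3 := by rw [hq2]; rfl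
    rw [hk] at ht₀
    have key := rel_kind3 N K₁ t₀ ht₀ t ht J hJ
    refine hU_of_rel ↥(descVal A K₁) 𝔫 (selfC ↥(descVal A K₁) t⁻¹)
      ((1 + ((27 : ℕ) : Chart ↥(descVal A K₁) t⁻¹) * selfC ↥(descVal A K₁) t⁻¹) *
        (1 + ((243 : ℕ) : Chart ↥(descVal A K₁) t⁻¹) * selfC ↥(descVal A K₁) t⁻¹) ^ 3)
      ?_ ?_ hnot
    · show J * t⁻¹ = (1 + ((27 : ℕ) : FK K₁ N) * t⁻¹) * (1 + ((243 : ℕ) : FK K₁ N) * t⁻¹) ^ 3
      have h3 : J = (t + 27) * (t + 243) ^ 3 / t ^ 3 := by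
        rw [eq_div_iff (pow_ne_zero 3 ht0)]
        exact key
      rw [h3]
      push_cast
      field_simp
    · intro hu hs
      rcases hprime.mem_or_mem hs with h | h
      · exact one_add_notMem ↥(descVal A K₁) 𝔫 hne hu 27 h
      · exact one_add_notMem ↥(descVal A K₁) 𝔫 hne hu 243 (hprime.mem_of_pow_mem 3 h)
  · by_cases hq3 : q = 3
    · -- kind `2`
      have hk : baseKind q = 2 := by rw [hq3]; rfl
      rw [hk] at ht₀
      have key := rel_kind2 N K₁ t₀ ht₀ t ht J hJ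
      refine hU_of_rel ↥(descVal A K₁) 𝔫 (selfC ↥(descVal A K₁) t⁻¹)
        ((1 + ((256 : ℕ) : Chart ↥(descVal A K₁) t⁻¹) * selfC ↥(descVal A K₁) t⁻¹) ^ 3)
        ?_ ?_ hnot
      · show J * t⁻¹ = (1 + ((256 : ℕ) : FK K₁ N) * t⁻¹) ^ 3
        have h3 : J = (t + 256) ^ 3 / t ^ 2 := by
          rw [eq_div_iff (pow_ne_zero 2 ht0)]
          exact key
        rw [h3]
        push_cast
        field_simp
      · intro hu hs
        exact one_add_notMem ↥(descVal A K₁) 𝔫 hne hu 256 (hprime.mem_of_pow_mem 3 hs)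
    · -- kind `1`
      have hk : baseKind q = 1 := by
        unfold baseKind
        rw [if_neg hq2, if_neg hq3]
      rw [hk] at ht₀
      have htj := rel_kind1 N K₁ t₀ ht₀ t ht J hJ
      refine hU_of_rel ↥(descVal A K₁) 𝔫 (selfC ↥(descVal A K₁) t⁻¹) 1 ?_ ?_ hnot
      · show J * t⁻¹ = 1
        rw [← htj]
        exact mul_inv_cancel₀ ht0
      · intro _ h1
        exact hne ((Ideal.eq_top_iff_one 𝔫).mpr h1)

include hq hA hfin in
/-- **(A), both charts**: `c = t` or `c = t⁻¹`. -/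
theorem hU_both (t₀ : LaurentSeries ℚ) (ht₀ : IsBase (baseKind q) t₀)
    (t : FK K₁ N) (ht : (t : LaurentSeries K₁) = coeffEmb K₁ t₀) (ht0 : t ≠ 0)
    (J : FK K₁ N) (hJ : (J : LaurentSeries K₁) = jqModC K₁)
    (c : FK K₁ N) (hc : c = t ∨ c = t⁻¹)
    (𝔫 : Ideal (Chart ↥(descVal A K₁) c)) (hprime : 𝔫.IsPrime)
    (hnot : ¬ InLoc ↥(descVal A K₁) c 𝔫 J) :
    ∃ a s : Chart ↥(descVal A K₁) c, s ∉ 𝔫 ∧ a ∈ 𝔫 ∧
      J * (a : FK K₁ N) = (s : FK K₁ N) := by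
  rcases hc with rfl | rfl
  · exact hU_chart N q hq A hA K₁ hfin t₀ ht₀ c ht J hJ 𝔫 hprime hnot
  · exact hU_chart_inv N q hq A hA K₁ hfin t₀ ht₀ t ht ht0 J hJ 𝔫 hprime hnot

end Concrete

end H23HU

end
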