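/-
helper27: item 86 (S36), slice (CUSP3), concrete inputs at level `M q q` (second of helper7).

For `J₀ = j(𝐪)`, `J₁ = j(𝐪^q)`, `J₂ = j(𝐪^{q²})` in `F = FK K₁ (M q q)` and the concrete
valuation rings `cV1, cV2, cV3` of `S36/TripleDefs_helper4.lean`:

* the three modular equations `Φ_q(J₀, J₁) = Φ_q(J₁, J₂) = Φ_q(J₁, J₀) = 0` (`c3_h01, c3_h12, c3_h10`);
* `J₀, J₁, J₂` are units at `cV1, cV2, cV3`;
* Kronecker's congruences, direct and inverted form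
  (`cV1`: `J₁ ≡ J₀^q`, `J₂ ≡ J₁^q`;  `cV2`: `J₀ ≡ J₁^q`;  `cV3`: `J₁ ≡ J₀^q`, `J₁ ≡ J₂^q`);
* `b = J₂ / J₀ - 1` is a unit at `cV1, cV2` and a uniformizer at `cV3`.
These are exactly the hypotheses `h01 h12 h10 hK₁a hK₁b hK₂a hK₃a hK₃b hu₁ hu₂ hu₃ hu₁' hu₃'
hb₃ hbV` of `H7C3.cusp3_sep_val`, `H7C3.twoGenAt_cusp3`.
-/
import Fermat.Agent.S36.TripleSep_helper27
import Fermat.Agent.S36.V3Kron_helper3
import Fermat.Agent.S34.CuspSepLoc_helper27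

set_option autoImplicit false
set_option linter.unusedSectionVars false
set_option linter.style.longLine false
set_option linter.unusedVariables false
set_option linter.style.haveILetI false
set_option synthInstance.maxHeartbeats 400000

open ModularCurve RH24 H28S28 HahnSeries H28GV H8PB H3TAU H7S18

noncomputable section

namespace H27C3

open H4S36 H27WA

/-! ### generic valuation lemmas -/

section Gen

variable {F : Type*} [Field F] (V : ValuationSubring F)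

theorem ne_zero_of_val_one {x : F} (h : V.valuation x = 1) : x ≠ 0 := by
  rintro rfl
  rw [Valuation.map_zero] at h
  exact zero_ne_one h

/-- Kronecker's congruence, inverted: `b ≡ a ^ n`, `a, b` units `⟹ b⁻¹ ≡ (a⁻¹) ^ n`. -/
theorem val_inv_sub_inv_pow {a b : F} (n : ℕ) (ha : V.valuation a = 1)
    (hb : V.valuation b = 1) (h : V.valuation (b - a ^ n) < 1) :
    V.valuation (b⁻¹ - (a⁻¹) ^ n) < 1 := by
  have ha0 : a ≠ 0 := ne_zero_of_val_one V ha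
  have hb0 : b ≠ 0 := ne_zero_of_val_one V hb
  have han : a ^ n ≠ 0 := pow_ne_zero n ha0
  have e : b⁻¹ - (a⁻¹) ^ n = -(b - a ^ n) * (b⁻¹ * (a ^ n)⁻¹) := by
    rw [inv_pow]
    field_simp
    ring
  rw [e, map_mul, Valuation.map_neg, map_mul, map_inv₀, map_inv₀, map_pow, ha, hb, one_pow,
    inv_one, mul_one, mul_one]
  exact h

theorem not_val_inv_lt {b : F} (hb : V.valuation b = 1) : ¬ V.valuation b⁻¹ < 1 := by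
  rw [map_inv₀, hb, inv_one]
  exact lt_irrefl 1

/-- `b = x₂ / x₀ - 1` has the valuation of `x₂ - x₀` when `x₀` is a unit. -/
theorem val_div_sub_one {x₀ x₂ : F} (h0 : V.valuation x₀ = 1) :
    V.valuation (x₂ / x₀ - 1) = V.valuation (x₂ - x₀) := by
  have hx0 : x₀ ≠ 0 := ne_zero_of_val_one V h0
  have e : x₂ / x₀ - 1 = (x₂ - x₀) * x₀⁻¹ := by
    field_simp
  rw [e, map_mul, map_inv₀, h0, inv_one, mul_one]

end Gen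

/-! ### series over a valuation subring -/

section Series

variable {K : Type} [Field K] (R : ValuationSubring K)
variable (q : ℕ) [NeZero q]

theorem rho_jq_ne : rhoR R (jqModC R) ≠ 0 := by
  show coeffMap _ (jqModC R) ≠ 0
  rw [coeffMap_jqModC]
  exact h8pb_jq_ne_zero _

theorem eps_jq0 : gvEps R (jqModC R) = jqModC K := by
  show coeffMap _ (jqModC R) = _
  rw [coeffMap_jqModC]

theorem rho_jqd_ne (d : ℕ) [NeZero d] : rhoR R (qExpand R d (jqModC R)) ≠ 0 := by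
  show coeffMap _ (qExpand R d (jqModC R)) ≠ 0
  rw [coeffMap_qExpand, coeffMap_jqModC]
  intro h0
  exact h8pb_jq_ne_zero _ (qExpand_injective d (h0.trans (map_zero _).symm))

theorem eps_jqd (d : ℕ) [NeZero d] :
    gvEps R (qExpand R d (jqModC R)) = qExpand K d (jqModC K) := by
  show coeffMap _ (qExpand R d (jqModC R)) = _
  rw [coeffMap_qExpand, coeffMap_jqModC]

variable [Fact q.Prime] [CharP (IsLocalRing.ResidueField R) q]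

/-- Kronecker one level up: `j(𝐪^{q²}) ≡ j(𝐪^q)^q`. -/
theorem inGm_kron12 :
    InGm R (qExpand K (q * q) (jqModC K) - (qExpand K q (jqModC K)) ^ q) := by
  have h1 : gvEps R (qExpand R (q * q) (jqModC R) - (qExpand R q (jqModC R)) ^ q) =
      qExpand K (q * q) (jqModC K) - (qExpand K q (jqModC K)) ^ q := by
    rw [map_sub, map_pow]
    show coeffMap _ (qExpand R (q * q) (jqModC R)) - (coeffMap _ (qExpand R q (jqModC R))) ^ q = _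
    rw [coeffMap_qExpand, coeffMap_qExpand, coeffMap_jqModC]
  have h2 : rhoR R (qExpand R (q * q) (jqModC R) - (qExpand R q (jqModC R)) ^ q) = 0 := by
    rw [map_sub, map_pow]
    show coeffMap _ (qExpand R (q * q) (jqModC R)) -
      (coeffMap _ (qExpand R q (jqModC R))) ^ q = 0
    rw [coeffMap_qExpand, coeffMap_qExpand, coeffMap_jqModC, ← qExpand_qExpand,
      h8pb_kronecker, map_pow, h8pb_kronecker, sub_self]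
  rw [← h1, h3v_inGm_iff]
  exact ⟨_, 1, by rw [map_one]; exact one_ne_zero, h2, by rw [map_one, mul_one]⟩

end Series

/-! ### the concrete elements -/

section Concrete

variable (K₁ : IntermediateField ℚ Kbar) (R₁ : ValuationSubring ↥K₁)
  [IsDiscreteValuationRing R₁]
variable (M q : ℕ) [NeZero M] [NeZero q] (hq : q.Prime) (hqM : ¬ q ∣ M)

theorem q_dvd_level : q ∣ M * q * q := ⟨M * q, by ring⟩

/-- `J₀ = j(𝐪)` -/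
def cJ0 : FK ↥K₁ (M * q * q) := H8TG.J0 ↥K₁ (M * q * q)

/-- `J₁ = j(𝐪^q)` -/
def cJ1 : FK ↥K₁ (M * q * q) := H8TG.J1 ↥K₁ (M * q * q) q (q_dvd_level M q)

/-- `J₂ = j(𝐪^{q²})` -/
def cJ2 : FK ↥K₁ (M * q * q) := H8TG.J2 ↥K₁ (M * q * q) q (qq_dvd_level M q)

theorem coe_cJ0 : ((cJ0 K₁ M q : FK ↥K₁ (M * q * q)) : LaurentSeries ↥K₁) = jqModC ↥K₁ := rfl

theorem coe_cJ1 : ((cJ1 K₁ M q : FK ↥K₁ (M * q * q)) : LaurentSeries ↥K₁) =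
    qExpand ↥K₁ q (jqModC ↥K₁) := rfl

theorem coe_cJ2 : ((cJ2 K₁ M q : FK ↥K₁ (M * q * q)) : LaurentSeries ↥K₁) =
    qExpand ↥K₁ (q * q) (jqModC ↥K₁) := rfl

theorem cb3_eq_sub : cb3 K₁ M q = cJ2 K₁ M q - cJ0 K₁ M q := rfl

theorem cJ0_ne_zero : cJ0 K₁ M q ≠ 0 := by
  intro h
  have h1 := congrArg (fun x : FK ↥K₁ (M * q * q) => (x : LaurentSeries ↥K₁)) h
  exact h8pb_jq_ne_zero ↥K₁ h1

theorem cJ1_ne_zero : cJ1 K₁ M q ≠ 0 := by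
  intro h
  have h1 : qExpand ↥K₁ q (jqModC ↥K₁) = 0 :=
    congrArg (fun x : FK ↥K₁ (M * q * q) => (x : LaurentSeries ↥K₁)) h
  exact h8pb_jq_ne_zero ↥K₁ (qExpand_injective q (h1.trans (map_zero _).symm))

theorem cJ2_ne_zero : cJ2 K₁ M q ≠ 0 := by
  haveI : NeZero (q * q) := ⟨Nat.mul_ne_zero (NeZero.ne q) (NeZero.ne q)⟩
  intro h
  have h1 : qExpand ↥K₁ (q * q) (jqModC ↥K₁) = 0 :=
    congrArg (fun x : FK ↥K₁ (M * q * q) => (x : LaurentSeries ↥K₁)) h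
  exact h8pb_jq_ne_zero ↥K₁ (qExpand_injective (q * q) (h1.trans (map_zero _).symm))

include hq in
theorem cJ2_ne_cJ0 : cJ2 K₁ M q ≠ cJ0 K₁ M q := by
  intro h
  have h1 : qExpand ↥K₁ (q * q) (jqModC ↥K₁) = jqModC ↥K₁ :=
    congrArg (fun x : FK ↥K₁ (M * q * q) => (x : LaurentSeries ↥K₁)) h
  exact H8TG.h8tg_J_ne_J2 ↥K₁ q hq.one_lt h1.symm

/-! ### the three modular equations -/

section ModEq

variable (Φ : Polynomial (Polynomial ℤ)) (hΦ : H28S28.h10IsModPoly q Φ)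

include hΦ in
/-- `Φ_q(J₀, J₁) = 0` -/
theorem c3_h01 : H27CS.ev2 Φ (cJ0 K₁ M q) (cJ1 K₁ M q) = 0 := by
  set ι : FK ↥K₁ (M * q * q) →+* LaurentSeries ↥K₁ :=
    (laurentBaseChange ↥K₁ (modularFunctionFieldFull (M * q * q))).val.toRingHom with hι
  have hιinj : Function.Injective ι := Subtype.val_injective
  apply hιinj
  rw [map_zero, H27CS.map_ev2]
  have e1 : ι (cJ0 K₁ M q) = jqModC ↥K₁ := rfl
  have e2 : ι (cJ1 K₁ M q) = qExpand ↥K₁ q (jqModC ↥K₁) := rfl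
  rw [e1, e2, H27CS.ev2_eq_h10ev2]
  haveI : NeZero (1 * q) := ⟨by simpa using NeZero.ne q⟩
  have h := H28S28.h10_root q Φ hΦ ↥K₁ 1
  simpa [qExpand_one_apply] using h

include hΦ in
/-- `Φ_q(J₁, J₂) = 0` -/
theorem c3_h12 : H27CS.ev2 Φ (cJ1 K₁ M q) (cJ2 K₁ M q) = 0 := by
  set ι : FK ↥K₁ (M * q * q) →+* LaurentSeries ↥K₁ :=
    (laurentBaseChange ↥K₁ (modularFunctionFieldFull (M * q * q))).val.toRingHom with hι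
  have hιinj : Function.Injective ι := Subtype.val_injective
  apply hιinj
  rw [map_zero, H27CS.map_ev2]
  have e1 : ι (cJ1 K₁ M q) = qExpand ↥K₁ q (jqModC ↥K₁) := rfl
  have e2 : ι (cJ2 K₁ M q) = qExpand ↥K₁ (q * q) (jqModC ↥K₁) := rfl
  rw [e1, e2, H27CS.ev2_eq_h10ev2]
  haveI : NeZero (q * q) := ⟨Nat.mul_ne_zero (NeZero.ne q) (NeZero.ne q)⟩
  exact H28S28.h10_root q Φ hΦ ↥K₁ q

include hΦ in
/-- `Φ_q(J₁, J₀) = 0` -/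
theorem c3_h10 : H27CS.ev2 Φ (cJ1 K₁ M q) (cJ0 K₁ M q) = 0 := by
  set ι : FK ↥K₁ (M * q * q) →+* LaurentSeries ↥K₁ :=
    (laurentBaseChange ↥K₁ (modularFunctionFieldFull (M * q * q))).val.toRingHom with hι
  have hιinj : Function.Injective ι := Subtype.val_injective
  apply hιinj
  rw [map_zero, H27CS.map_ev2]
  have e1 : ι (cJ0 K₁ M q) = jqModC ↥K₁ := rfl
  have e2 : ι (cJ1 K₁ M q) = qExpand ↥K₁ q (jqModC ↥K₁) := rfl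
  rw [e1, e2, H27CS.ev2_eq_h10ev2]
  haveI : NeZero (1 * q) := ⟨by simpa using NeZero.ne q⟩
  have h := H28S28.h10_root' q Φ hΦ ↥K₁ 1
  simpa [qExpand_one_apply] using h

end ModEq

/-! ### `W_{q²}` on `J₀, J₁, J₂` -/

/-- `W_{q²} J₁ = J₁` -/
theorem wq2_cJ1 : H12WQ.wq2KHom K₁ M q hq hqM (cJ1 K₁ M q) = cJ1 K₁ M q := by
  apply Subtype.ext
  have h1 := H12WQ.coe_wq2KHom_qExpand K₁ M q hq hqM (cJ1 K₁ M q)
    (H8TG.J0 ↥K₁ (M * q)) (by rw [coe_cJ1, H8TG.coe_J0])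
  rw [h1, coe_cJ1]
  exact H12AL.coe_wqKHom_of_level K₁ M q hq hqM (H8TG.J0 ↥K₁ (M * q))
    (H25JQ.jqModC_mem_FK ↥K₁ M)

theorem wq2_cJ0 : H12WQ.wq2KHom K₁ M q hq hqM (cJ0 K₁ M q) = cJ2 K₁ M q :=
  wq2_J0 K₁ M q hq hqM

theorem wq2_cJ2 : H12WQ.wq2KHom K₁ M q hq hqM (cJ2 K₁ M q) = cJ0 K₁ M q :=
  wq2_J2 K₁ M q hq hqM

/-! ### units and Kronecker at `cV1` -/

section V1

variable [Fact q.Prime] [CharP (IsLocalRing.ResidueField R₁) q]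

/-- an element whose expansion is a primitive integral series is a unit of `cV1` -/
theorem cV1_val_of_eps (x : FK ↥K₁ (M * q * q)) (Y : LaurentSeries ↥R₁)
    (hx : (x : LaurentSeries ↥K₁) = gvEps R₁ Y) (hY : rhoR R₁ Y ≠ 0) :
    (cV1 K₁ R₁ M q).valuation x = 1 := by
  unfold cV1
  refine H10FC.val_eq_one_of_mem _ ?_ ?_
  · rw [H10FC.mem_gaussVal, hx]
    exact H10FC.inG_eps R₁ Y
  · rw [H10FC.gaussVal_lt_one, hx]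
    exact H10FC.not_inGm_eps R₁ hY

theorem cV1_val_cJ0 : (cV1 K₁ R₁ M q).valuation (cJ0 K₁ M q) = 1 :=
  cV1_val_of_eps K₁ R₁ M q _ (jqModC ↥R₁) (by rw [coe_cJ0, eps_jq0]) (rho_jq_ne R₁)

theorem cV1_val_cJ1 : (cV1 K₁ R₁ M q).valuation (cJ1 K₁ M q) = 1 :=
  cV1_val_of_eps K₁ R₁ M q _ (qExpand ↥R₁ q (jqModC ↥R₁)) (by rw [coe_cJ1, eps_jqd])
    (rho_jqd_ne R₁ q)

theorem cV1_val_cJ2 : (cV1 K₁ R₁ M q).valuation (cJ2 K₁ M q) = 1 := by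
  haveI : NeZero (q * q) := ⟨Nat.mul_ne_zero (NeZero.ne q) (NeZero.ne q)⟩
  exact cV1_val_of_eps K₁ R₁ M q _ (qExpand ↥R₁ (q * q) (jqModC ↥R₁))
    (by rw [coe_cJ2, eps_jqd]) (rho_jqd_ne R₁ (q * q))

/-- Kronecker at `cV1`: `J₁ ≡ J₀ ^ q` -/
theorem cV1_kron01 : (cV1 K₁ R₁ M q).valuation (cJ1 K₁ M q - cJ0 K₁ M q ^ q) < 1 := by
  unfold cV1
  rw [H10FC.gaussVal_lt_one]
  exact H3V3.inGm_kron R₁ q

/-- Kronecker at `cV1`: `J₂ ≡ J₁ ^ q` -/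
theorem cV1_kron12 : (cV1 K₁ R₁ M q).valuation (cJ2 K₁ M q - cJ1 K₁ M q ^ q) < 1 := by
  unfold cV1
  rw [H10FC.gaussVal_lt_one]
  exact inGm_kron12 R₁ q

end V1

/-! ### units and Kronecker at `cV2 = cV1 ∘ W_{q²}` -/

section V2

variable [Fact q.Prime] [CharP (IsLocalRing.ResidueField R₁) q]

theorem cV2_val_cJ0 : (cV2 K₁ R₁ M q hq hqM).valuation (cJ0 K₁ M q) = 1 := by
  unfold cV2
  rw [comap_val_eq_one, wq2_cJ0]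
  exact cV1_val_cJ2 K₁ R₁ M q

theorem cV2_val_cJ1 : (cV2 K₁ R₁ M q hq hqM).valuation (cJ1 K₁ M q) = 1 := by
  unfold cV2
  rw [comap_val_eq_one, wq2_cJ1]
  exact cV1_val_cJ1 K₁ R₁ M q

theorem cV2_val_cJ2 : (cV2 K₁ R₁ M q hq hqM).valuation (cJ2 K₁ M q) = 1 := by
  unfold cV2
  rw [comap_val_eq_one, wq2_cJ2]
  exact cV1_val_cJ0 K₁ R₁ M q

/-- Kronecker at `cV2`: `J₀ ≡ J₁ ^ q` -/
theorem cV2_kron10 : (cV2 K₁ R₁ M q hq hqM).valuation (cJ0 K₁ M q - cJ1 K₁ M q ^ q) < 1 := by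
  unfold cV2
  rw [H10FC.comap_val_lt_one, map_sub, map_pow, wq2_cJ0, wq2_cJ1]
  exact cV1_kron12 K₁ R₁ M q

/-- Kronecker at `cV2`: `J₁ ≡ J₂ ^ q` -/
theorem cV2_kron21 : (cV2 K₁ R₁ M q hq hqM).valuation (cJ1 K₁ M q - cJ2 K₁ M q ^ q) < 1 := by
  unfold cV2
  rw [H10FC.comap_val_lt_one, map_sub, map_pow, wq2_cJ1, wq2_cJ2]
  exact cV1_kron01 K₁ R₁ M q

end V2

/-! ### units and Kronecker at `cV3` -/

section V3

variable (K₃ : IntermediateField ℚ Kbar) (R₃ : ValuationSubring ↥K₃)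
  [IsDiscreteValuationRing R₃] (h13 : K₁ ≤ K₃) (ζ : (↥K₃)ˣ) (hζ : IsPrimitiveRoot ζ q)
variable [Fact q.Prime]

theorem cJ0_eq : cJ0 K₁ M q = H3V3.J0 (M * q * q) K₁ := by
  apply Subtype.ext
  rw [coe_cJ0, H3V3.coe_J0, gv_coeffEmb_jq]

theorem cJ1_eq : cJ1 K₁ M q = H3V3.J1 (M * q * q) q K₁ (q_dvd_level M q) := by
  apply Subtype.ext
  rw [coe_cJ1, H3V3.coe_J1, gv_coeffEmb_qExpand, gv_coeffEmb_jq]

theorem cJ2_eq : cJ2 K₁ M q = H3V3.J2 (M * q * q) q K₁ (sq_dvd_level M q) :=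
  H24V3.J2_eq (M * q * q) q (qq_dvd_level M q) (sq_dvd_level M q)

theorem iota3_cJ0 :
    H3V3.iota3 (M * q * q) q h13 hq (sq_dvd_level M q) (cube_not_dvd_level M q hq hqM) ζ hζ
      (cJ0 K₁ M q) = jqModC ↥K₃ := by
  rw [cJ0_eq]
  exact H3V3.iota3_J0 (M * q * q) q h13 hq _ _ ζ hζ

theorem iota3_cJ1 :
    H3V3.iota3 (M * q * q) q h13 hq (sq_dvd_level M q) (cube_not_dvd_level M q hq hqM) ζ hζ
      (cJ1 K₁ M q) = qExpand ↥K₃ q (jqModC ↥K₃) := by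
  rw [cJ1_eq]
  exact H3V3.iota3_J1 (M * q * q) q h13 hq _ _ ζ hζ (q_dvd_level M q)

theorem iota3_cJ2 :
    H3V3.iota3 (M * q * q) q h13 hq (sq_dvd_level M q) (cube_not_dvd_level M q hq hqM) ζ hζ
      (cJ2 K₁ M q) = tw ζ (jqModC ↥K₃) := by
  rw [cJ2_eq]
  exact H3V3.iota3_J2 (M * q * q) q h13 hq _ _ ζ hζ

theorem cV3_val_cJ0 : (cV3 K₁ M q hq hqM K₃ R₃ h13 ζ hζ).valuation (cJ0 K₁ M q) = 1 := by
  unfold cV3
  refine H10FC.val_eq_one_of_mem _ ?_ ?_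
  · rw [H3V3.mem_V3, iota3_cJ0 K₁ M q hq hqM K₃ h13 ζ hζ, ← eps_jq0 R₃]
    exact H10FC.inG_eps R₃ _
  · rw [H3V3.valuation_V3_lt_one, iota3_cJ0 K₁ M q hq hqM K₃ h13 ζ hζ, ← eps_jq0 R₃]
    exact H10FC.not_inGm_eps R₃ (rho_jq_ne R₃)

theorem cV3_val_cJ1 : (cV3 K₁ M q hq hqM K₃ R₃ h13 ζ hζ).valuation (cJ1 K₁ M q) = 1 := by
  unfold cV3
  refine H10FC.val_eq_one_of_mem _ ?_ ?_
  · rw [H3V3.mem_V3, iota3_cJ1 K₁ M q hq hqM K₃ h13 ζ hζ, ← eps_jqd R₃ q]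
    exact H10FC.inG_eps R₃ _
  · rw [H3V3.valuation_V3_lt_one, iota3_cJ1 K₁ M q hq hqM K₃ h13 ζ hζ, ← eps_jqd R₃ q]
    exact H10FC.not_inGm_eps R₃ (rho_jqd_ne R₃ q)

theorem cV3_val_cJ2 : (cV3 K₁ M q hq hqM K₃ R₃ h13 ζ hζ).valuation (cJ2 K₁ M q) = 1 := by
  unfold cV3
  refine H10FC.val_eq_one_of_mem _ ?_ ?_
  · rw [H3V3.mem_V3, iota3_cJ2 K₁ M q hq hqM K₃ h13 ζ hζ, H3V3.inG_tw_iff _ ζ hq.pos hζ.pow_eq_one, ← eps_jq0 R₃]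
    exact H10FC.inG_eps R₃ _
  · rw [H3V3.valuation_V3_lt_one, iota3_cJ2 K₁ M q hq hqM K₃ h13 ζ hζ, H3V3.inGm_tw_iff _ ζ hq.pos hζ.pow_eq_one,
      ← eps_jq0 R₃]
    exact H10FC.not_inGm_eps R₃ (rho_jq_ne R₃)

variable [CharP (IsLocalRing.ResidueField R₃) q]

/-- Kronecker at `cV3`: `J₁ ≡ J₀ ^ q` -/
theorem cV3_kron01 :
    (cV3 K₁ M q hq hqM K₃ R₃ h13 ζ hζ).valuation (cJ1 K₁ M q - cJ0 K₁ M q ^ q) < 1 := by
  unfold cV3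
  rw [cJ1_eq, cJ0_eq]
  exact H3V3.V3_kron_low R₃ (M * q * q) q h13 hq _ _ ζ hζ (q_dvd_level M q)

/-- Kronecker at `cV3`: `J₁ ≡ J₂ ^ q` -/
theorem cV3_kron21 :
    (cV3 K₁ M q hq hqM K₃ R₃ h13 ζ hζ).valuation (cJ1 K₁ M q - cJ2 K₁ M q ^ q) < 1 := by
  unfold cV3
  rw [cJ1_eq, cJ2_eq]
  exact H3V3.V3_kron_high R₃ (M * q * q) q h13 hq _ _ ζ hζ (q_dvd_level M q)

end V3

/-! ### the hypotheses of `H7C3.cusp3_sep_val`, `H7C3.twoGenAt_cusp3` (inverted forms) -/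

section Inputs

variable [Fact q.Prime] [CharP (IsLocalRing.ResidueField R₁) q]

/-- `hK₁a` -/
theorem c3_hK1a : (cV1 K₁ R₁ M q).valuation ((cJ1 K₁ M q)⁻¹ - ((cJ0 K₁ M q)⁻¹) ^ q) < 1 :=
  val_inv_sub_inv_pow _ q (cV1_val_cJ0 K₁ R₁ M q) (cV1_val_cJ1 K₁ R₁ M q)
    (cV1_kron01 K₁ R₁ M q)

/-- `hK₁b` -/
theorem c3_hK1b : (cV1 K₁ R₁ M q).valuation ((cJ2 K₁ M q)⁻¹ - ((cJ1 K₁ M q)⁻¹) ^ q) < 1 :=
  val_inv_sub_inv_pow _ q (cV1_val_cJ1 K₁ R₁ M q) (cV1_val_cJ2 K₁ R₁ M q)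
    (cV1_kron12 K₁ R₁ M q)

/-- `hK₂a` -/
theorem c3_hK2a :
    (cV2 K₁ R₁ M q hq hqM).valuation ((cJ0 K₁ M q)⁻¹ - ((cJ1 K₁ M q)⁻¹) ^ q) < 1 :=
  val_inv_sub_inv_pow _ q (cV2_val_cJ1 K₁ R₁ M q hq hqM) (cV2_val_cJ0 K₁ R₁ M q hq hqM)
    (cV2_kron10 K₁ R₁ M q hq hqM)

/-- `hu₁` -/
theorem c3_hu1 : ¬ (cV1 K₁ R₁ M q).valuation (cJ1 K₁ M q)⁻¹ < 1 :=
  not_val_inv_lt _ (cV1_val_cJ1 K₁ R₁ M q)

/-- `hu₁'` -/
theorem c3_hu1' : ¬ (cV1 K₁ R₁ M q).valuation (cJ2 K₁ M q)⁻¹ < 1 :=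
  not_val_inv_lt _ (cV1_val_cJ2 K₁ R₁ M q)

/-- `hu₂` -/
theorem c3_hu2 : ¬ (cV2 K₁ R₁ M q hq hqM).valuation (cJ1 K₁ M q)⁻¹ < 1 :=
  not_val_inv_lt _ (cV2_val_cJ1 K₁ R₁ M q hq hqM)

/-- `b = J₂ / J₀ - 1` is a unit at `cV1` -/
theorem c3_hbV1 : (cV1 K₁ R₁ M q).valuation (cJ2 K₁ M q / cJ0 K₁ M q - 1) = 1 := by
  rw [val_div_sub_one _ (cV1_val_cJ0 K₁ R₁ M q), ← cb3_eq_sub]
  exact cV1_val_cb3 K₁ R₁ M q

/-- `b = J₂ / J₀ - 1` is a unit at `cV2` -/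
theorem c3_hbV2 :
    (cV2 K₁ R₁ M q hq hqM).valuation (cJ2 K₁ M q / cJ0 K₁ M q - 1) = 1 := by
  rw [val_div_sub_one _ (cV2_val_cJ0 K₁ R₁ M q hq hqM), ← cb3_eq_sub]
  exact cV2_val_cb3 K₁ R₁ M q hq hqM

variable (K₃ : IntermediateField ℚ Kbar) (R₃ : ValuationSubring ↥K₃)
  [IsDiscreteValuationRing R₃] (h13 : K₁ ≤ K₃) (ζ : (↥K₃)ˣ) (hζ : IsPrimitiveRoot ζ q)

/-- `hu₃` -/
theorem c3_hu3 : ¬ (cV3 K₁ M q hq hqM K₃ R₃ h13 ζ hζ).valuation (cJ1 K₁ M q)⁻¹ < 1 :=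
  not_val_inv_lt _ (cV3_val_cJ1 K₁ M q hq hqM K₃ R₃ h13 ζ hζ)

/-- `hu₃'` -/
theorem c3_hu3' : ¬ (cV3 K₁ M q hq hqM K₃ R₃ h13 ζ hζ).valuation (cJ2 K₁ M q)⁻¹ < 1 :=
  not_val_inv_lt _ (cV3_val_cJ2 K₁ M q hq hqM K₃ R₃ h13 ζ hζ)

/-- the valuation of `b = J₂ / J₀ - 1` at `cV3` is that of `b₃` -/
theorem c3_val_b3 :
    (cV3 K₁ M q hq hqM K₃ R₃ h13 ζ hζ).valuation (cJ2 K₁ M q / cJ0 K₁ M q - 1) =
      (cV3 K₁ M q hq hqM K₃ R₃ h13 ζ hζ).valuation (cb3 K₁ M q) := by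
  rw [val_div_sub_one _ (cV3_val_cJ0 K₁ M q hq hqM K₃ R₃ h13 ζ hζ), ← cb3_eq_sub]

/-- `hb₃` of `H7C3.twoGenAt_cusp3`: `b = J₂ / J₀ - 1` is a uniformizer of `cV3`
(from the discreteness field `hd₃`). -/
theorem c3_hb3 (hqR : ((q : ℕ) : ↥K₃) ∈ R₃.nonunits)
    (hd₃ : ∀ x : FK ↥K₁ (M * q * q), x ≠ 0 →
      ∃ k : ℤ, OrdAt (cV3 K₁ M q hq hqM K₃ R₃ h13 ζ hζ) (cb3 K₁ M q) x k)
    (x : FK ↥K₁ (M * q * q))
    (hx : (cV3 K₁ M q hq hqM K₃ R₃ h13 ζ hζ).valuation x < 1) :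
    (cV3 K₁ M q hq hqM K₃ R₃ h13 ζ hζ).valuation x ≤
      (cV3 K₁ M q hq hqM K₃ R₃ h13 ζ hζ).valuation (cJ2 K₁ M q / cJ0 K₁ M q - 1) := by
  rw [c3_val_b3]
  have hb0 : cb3 K₁ M q ≠ 0 := by
    rw [cb3_eq_sub, sub_ne_zero]
    exact cJ2_ne_cJ0 K₁ M q hq
  have hU : IsUnif (cV3 K₁ M q hq hqM K₃ R₃ h13 ζ hζ) (cb3 K₁ M q) :=
    isUnif_of_ordAt hb0 (cV3_val_cb3 K₁ M q hq hqM K₃ R₃ h13 ζ hζ hqR) hd₃
  exact hU.le_of_lt_one hx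

variable [CharP (IsLocalRing.ResidueField R₃) q]

/-- `hK₃a` -/
theorem c3_hK3a :
    (cV3 K₁ M q hq hqM K₃ R₃ h13 ζ hζ).valuation
      ((cJ1 K₁ M q)⁻¹ - ((cJ0 K₁ M q)⁻¹) ^ q) < 1 :=
  val_inv_sub_inv_pow _ q (cV3_val_cJ0 K₁ M q hq hqM K₃ R₃ h13 ζ hζ)
    (cV3_val_cJ1 K₁ M q hq hqM K₃ R₃ h13 ζ hζ) (cV3_kron01 K₁ M q hq hqM K₃ R₃ h13 ζ hζ)

/-- `hK₃b` -/
theorem c3_hK3b :
    (cV3 K₁ M q hq hqM K₃ R₃ h13 ζ hζ).valuation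
      ((cJ1 K₁ M q)⁻¹ - ((cJ2 K₁ M q)⁻¹) ^ q) < 1 :=
  val_inv_sub_inv_pow _ q (cV3_val_cJ2 K₁ M q hq hqM K₃ R₃ h13 ζ hζ)
    (cV3_val_cJ1 K₁ M q hq hqM K₃ R₃ h13 ζ hζ) (cV3_kron21 K₁ M q hq hqM K₃ R₃ h13 ζ hζ)

end Inputs

end Concrete

end H27C3

end
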