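import Mathlib

/-!
# helper7 — item 86 (S36), slice (R4c): the Eisenstein relation at the middle cusps (abstract)

`B` a local domain, `q` a prime with `q ∈ 𝔪_B`.  Let
`G(T) = (1 + q c) T^(q+1) + v^(q+1) - T v - (T v)^q + q T v P(T)`   (`c ∈ B`, `P ∈ B[T]`)
(the inverted modular equation `V^(q+1) T^(q+1) Φ_q(1/V, 1/T)` at `V = v = 1/j(qz)`, by
Kronecker's congruence).  If `u₂` and `u = ρ u₂` are two roots of `G` in `𝔪_B`
(`u = 1/j(z)`, `u₂ = 1/j(q² z)`), `ρ - 1 ∈ 𝔪_B`, `ρ ≠ 1`, and `u₂^q = e' v` with a unit `e'`, then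
`(ρ - 1)^(q-1) = q · ε` with a unit `ε`   (`H7C3.cuspEis`).

In words: at a cusp of the middle component `C₃` of `X₀(N' q²)` the function
`b = j(z)^{-1} j(q² z) … - 1` is an Eisenstein element: `b^(q-1) = q · unit`; in particular `b`
vanishes on no horizontal divisor through the point and generates `P₃` locally.
-/

set_option autoImplicit false

namespace H7C3

open IsLocalRing Polynomial Finset

/-- `(1 + b)^q - 1 = b (q (1 + b t) + b^(q-1))` for a prime `q`. -/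
theorem one_add_pow_prime {B : Type*} [CommRing B] (q : ℕ) (hq : q.Prime) (b : B) :
    ∃ t : B, (1 + b) ^ q - 1 = b * ((q : B) * (1 + b * t) + b ^ (q - 1)) := by
  classical
  have h := add_pow_prime_eq hq b (1 : B)
  have h1 : (1 : ℕ) ∈ Ioo 0 q := by
    rw [mem_Ioo]; exact ⟨Nat.one_pos, hq.one_lt⟩
  set f : ℕ → B := fun k => b ^ (k - 1) * 1 ^ (q - k - 1) * ((q.choose k / q : ℕ) : B) with hf
  have hf1 : f 1 = 1 := by
    simp only [hf, Nat.sub_self, pow_zero, one_pow, mul_one, one_mul, Nat.choose_one_right]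
    rw [Nat.div_self hq.pos, Nat.cast_one]
  have hsum : ∑ k ∈ Ioo 0 q, f k = 1 + b * ∑ k ∈ (Ioo 0 q).erase 1,
      b ^ (k - 2) * ((q.choose k / q : ℕ) : B) := by
    rw [← Finset.add_sum_erase _ f h1, hf1, Finset.mul_sum]
    congr 1
    refine Finset.sum_congr rfl fun k hk => ?_
    have hk' := Finset.mem_erase.1 hk
    have hk0 : 0 < k := (mem_Ioo.1 hk'.2).1
    have hk2 : k - 1 = (k - 2) + 1 := by
      have : k ≠ 1 := hk'.1
      omega
    simp only [hf, one_pow, mul_one]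
    rw [hk2, pow_succ]
    ring
  refine ⟨∑ k ∈ (Ioo 0 q).erase 1, b ^ (k - 2) * ((q.choose k / q : ℕ) : B), ?_⟩
  have hq1 : q = (q - 1) + 1 := by have := hq.pos; omega
  have hbq : b ^ q = b * b ^ (q - 1) := by
    conv_lhs => rw [hq1, pow_succ']
  rw [add_comm 1 b, h, hsum, one_pow, hbq]
  ring

/-- in a local ring, unit + element of the maximal ideal is a unit. -/
theorem isUnit_add_mem {B : Type*} [CommRing B] [IsLocalRing B] {x m : B} (hx : IsUnit x)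
    (hm : m ∈ maximalIdeal B) : IsUnit (x + m) := by
  by_contra h
  have h1 : x + m ∈ maximalIdeal B := (mem_maximalIdeal _).2 h
  have h2 : x ∈ maximalIdeal B := by
    have := (maximalIdeal B).sub_mem h1 hm
    rwa [add_sub_cancel_right] at this
  exact (mem_maximalIdeal _).1 h2 hx

/-- in a local ring, `1 + m` is a unit for `m` in the maximal ideal. -/
theorem isUnit_one_add_mem {B : Type*} [CommRing B] [IsLocalRing B] {m : B}
    (hm : m ∈ maximalIdeal B) : IsUnit (1 + m) := isUnit_add_mem isUnit_one hm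

/-- **the Eisenstein relation at a middle cusp**, exponent `q = k + 2`. -/
theorem cuspEis_aux {B : Type*} [CommRing B] [IsDomain B] [IsLocalRing B] (k : ℕ)
    (hq : (k + 2).Prime) (Q : B) (hQ : Q = ((k + 2 : ℕ) : B))
    (hqm : Q ∈ maximalIdeal B)
    (c : B) (P : B[X]) (u u₂ v ρ e' : B)
    (hu₂ : u₂ ∈ maximalIdeal B) (hu₂0 : u₂ ≠ 0) (hv0 : v ≠ 0)
    (hρ : u = ρ * u₂) (hb : ρ - 1 ∈ maximalIdeal B) (hb0 : ρ - 1 ≠ 0)
    (he' : IsUnit e') (hu₂v : u₂ ^ (k + 2) = e' * v)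
    (hG : (1 + Q * c) * u ^ (k + 3) + v ^ (k + 3) - u * v - (u * v) ^ (k + 2)
      + Q * (u * v * P.eval u) = 0)
    (hG₂ : (1 + Q * c) * u₂ ^ (k + 3) + v ^ (k + 3) - u₂ * v - (u₂ * v) ^ (k + 2)
      + Q * (u₂ * v * P.eval u₂) = 0) :
    ∃ ε : B, IsUnit ε ∧ (ρ - 1) ^ (k + 1) = Q * ε := by
  set 𝔪 := maximalIdeal B with h𝔪
  set b : B := ρ - 1 with hbdef
  have hρb : ρ = 1 + b := by rw [hbdef]; ring
  obtain ⟨t, ht⟩ := one_add_pow_prime (k + 2) hq b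
  rw [← hQ, show k + 2 - 1 = k + 1 from rfl] at ht
  set g : B := 1 + b * t with hg
  have hgu : IsUnit g := isUnit_one_add_mem (𝔪.mul_mem_right _ hb)
  set S : B := Q * g + b ^ (k + 1) with hS
  have hρq : ρ ^ (k + 2) = 1 + b * S := by rw [hρb]; linear_combination ht
  -- the inverse of `e'`
  obtain ⟨e'', he''⟩ := he'.exists_right_inv
  -- `v = e'' u₂^q`, so `v ∈ 𝔪`
  have hv : v = e'' * u₂ ^ (k + 2) := by rw [hu₂v]; linear_combination (-v) * he''
  -- `v^q = u₂ * z₁`, `z₁ ∈ 𝔪`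
  set z₁ : B := e'' ^ (k + 2) * (u₂ ^ (k + 1) * (u₂ ^ (k + 2)) ^ (k + 1)) with hz₁
  have hz₁m : z₁ ∈ 𝔪 :=
    𝔪.mul_mem_left _ (𝔪.mul_mem_right _ (𝔪.pow_mem_of_mem hu₂ _ (Nat.succ_pos k)))
  have hvq : v ^ (k + 2) = u₂ * z₁ := by
    rw [hv, hz₁]; ring
  set w₁ : B := 1 - z₁ with hw₁
  have hw₁u : IsUnit w₁ := by
    rw [hw₁, sub_eq_add_neg]; exact isUnit_one_add_mem (𝔪.neg_mem hz₁m)
  obtain ⟨w₁', hw₁'⟩ := hw₁u.exists_right_inv
  -- step (1): `(e' - 1) w₁ = - q (P(u₂) + c e')`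
  have h1 : (e' - 1) * w₁ = -(Q * (P.eval u₂ + c * e')) := by
    have hne : u₂ * v ≠ 0 := mul_ne_zero hu₂0 hv0
    apply mul_left_cancel₀ hne
    have e1 : u₂ ^ (k + 3) = e' * v * u₂ := by rw [pow_succ, hu₂v]
    have e2 : (u₂ * v) ^ (k + 2) = e' * v * (u₂ * z₁) := by rw [mul_pow, hu₂v, hvq]
    have e3 : v ^ (k + 3) = u₂ * z₁ * v := by rw [pow_succ, hvq]
    rw [e1, e2, e3] at hG₂
    rw [hw₁]
    linear_combination hG₂
  -- `e' - 1 = q m₂`
  set m₂ : B := -((P.eval u₂ + c * e') * w₁') with hm₂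
  have he'1 : e' - 1 = Q * m₂ := by
    have : (e' - 1) * (w₁ * w₁') = -(Q * (P.eval u₂ + c * e')) * w₁' := by
      rw [← mul_assoc, h1]
    rw [hw₁', mul_one] at this
    rw [this, hm₂]; ring
  -- the difference quotient of `P`
  obtain ⟨D, hD⟩ := Polynomial.sub_dvd_eval_sub u u₂ P
  have hub : u - u₂ = b * u₂ := by rw [hρ, hbdef]; ring
  set Ξ : B := P.eval u + u₂ * D with hΞ
  have hΞ' : ρ * P.eval u - P.eval u₂ = b * Ξ := by
    have : P.eval u - P.eval u₂ = b * u₂ * D := by rw [hD, hub]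
    rw [hΞ, hρb]
    linear_combination this
  -- step (2)
  set W : B := (1 + Q * c) * e' * ρ - (u₂ * v) ^ (k + 1) with hW
  have hρu : IsUnit ρ := by rw [hρb]; exact isUnit_one_add_mem hb
  have hWu : IsUnit W := by
    rw [hW, sub_eq_add_neg]
    refine isUnit_add_mem (((isUnit_one_add_mem (𝔪.mul_mem_right _ hqm)).mul he').mul hρu) ?_
    exact 𝔪.neg_mem (𝔪.pow_mem_of_mem (𝔪.mul_mem_right _ hu₂) _ (Nat.succ_pos k))
  have h2 : S * W + Q * (m₂ + c * e' + Ξ) = 0 := by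
    have hne : b * u₂ * v ≠ 0 := mul_ne_zero (mul_ne_zero hb0 hu₂0) hv0
    apply mul_left_cancel₀ hne
    rw [mul_zero]
    have hdiff : (1 + Q * c) * (u ^ (k + 3) - u₂ ^ (k + 3)) - (u * v - u₂ * v)
        - ((u * v) ^ (k + 2) - (u₂ * v) ^ (k + 2))
        + Q * (u * v * P.eval u - u₂ * v * P.eval u₂) = 0 := by
      linear_combination hG - hG₂
    -- rewrite everything in terms of `ρ`, `u₂`, `v`
    have e1 : u ^ (k + 3) - u₂ ^ (k + 3) = e' * v * u₂ * (b * (ρ * S + 1)) := by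
      rw [hρ, mul_pow, pow_succ ρ (k + 2), pow_succ u₂ (k + 2), hu₂v, hρq, hρb]; ring
    have e2 : (u * v) ^ (k + 2) - (u₂ * v) ^ (k + 2)
        = u₂ * v * (u₂ * v) ^ (k + 1) * (b * S) := by
      rw [hρ, mul_assoc ρ u₂ v, mul_pow ρ (u₂ * v) (k + 2), hρq]; ring
    have e3 : u * v * P.eval u - u₂ * v * P.eval u₂ = u₂ * v * (b * Ξ) := by
      rw [← hΞ', hρ]; ring
    have e4 : u * v - u₂ * v = b * u₂ * v := by rw [hρ, hbdef]; ring
    rw [e1, e2, e3, e4] at hdiff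
    rw [hW]
    linear_combination hdiff - (b * u₂ * v) * he'1
  -- conclusion
  obtain ⟨W', hW'⟩ := hWu.exists_right_inv
  have hmem : m₂ + c * e' + Ξ ∈ 𝔪 := by
    have hw1 : 1 - w₁' ∈ 𝔪 := by
      have : 1 - w₁' = -(z₁ * w₁') := by
        have : w₁ * w₁' = 1 := hw₁'
        rw [hw₁] at this
        linear_combination -this
      rw [this]; exact 𝔪.neg_mem (𝔪.mul_mem_right _ hz₁m)
    have hPP : P.eval u - P.eval u₂ ∈ 𝔪 := by
      rw [hD, hub]; exact 𝔪.mul_mem_right _ (𝔪.mul_mem_right _ hb)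
    have : m₂ + c * e' + Ξ
        = (P.eval u₂ + c * e') * (1 - w₁') + (P.eval u - P.eval u₂) + u₂ * D := by
      rw [hm₂, hΞ]; ring
    rw [this]
    exact 𝔪.add_mem (𝔪.add_mem (𝔪.mul_mem_left _ hw1) hPP) (𝔪.mul_mem_right _ hu₂)
  have hunit : IsUnit (g * W + (m₂ + c * e' + Ξ)) := isUnit_add_mem (hgu.mul hWu) hmem
  refine ⟨-((g * W + (m₂ + c * e' + Ξ)) * W'), ?_, ?_⟩
  · have hW'u : IsUnit W' := IsUnit.of_mul_eq_one W (by rw [mul_comm]; exact hW')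
    exact (hunit.mul hW'u).neg
  · have : b ^ (k + 1) * (W * W') = -(Q * (g * W + (m₂ + c * e' + Ξ))) * W' := by
      rw [← mul_assoc]
      congr 1
      rw [hS] at h2
      linear_combination h2
    rw [hW', mul_one] at this
    rw [this]; ring

/-- **the Eisenstein relation at a middle cusp.** -/
theorem cuspEis {B : Type*} [CommRing B] [IsDomain B] [IsLocalRing B] (q : ℕ) (hq : q.Prime)
    (hqm : (q : B) ∈ maximalIdeal B)
    (c : B) (P : B[X]) (u u₂ v ρ e' : B)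
    (hu₂ : u₂ ∈ maximalIdeal B) (hu₂0 : u₂ ≠ 0) (hv0 : v ≠ 0)
    (hρ : u = ρ * u₂) (hb : ρ - 1 ∈ maximalIdeal B) (hb0 : ρ - 1 ≠ 0)
    (he' : IsUnit e') (hu₂v : u₂ ^ q = e' * v)
    (hG : (1 + (q : B) * c) * u ^ (q + 1) + v ^ (q + 1) - u * v - (u * v) ^ q
      + (q : B) * (u * v * P.eval u) = 0)
    (hG₂ : (1 + (q : B) * c) * u₂ ^ (q + 1) + v ^ (q + 1) - u₂ * v - (u₂ * v) ^ q
      + (q : B) * (u₂ * v * P.eval u₂) = 0) :
    ∃ ε : B, IsUnit ε ∧ (ρ - 1) ^ (q - 1) = (q : B) * ε := by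
  obtain ⟨k, rfl⟩ : ∃ k, q = k + 2 := ⟨q - 2, by have := hq.two_le; omega⟩
  exact cuspEis_aux k hq _ rfl hqm c P u u₂ v ρ e' hu₂ hu₂0 hv0 hρ hb hb0 he' hu₂v hG hG₂

end H7C3
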