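import Mathlib
import Fermat.Agent.S34.CuspSepDeg_helper27
import Fermat.Agent.S34.PairBasisCore_helper8

/-!
# helper7 — item 86 (S36): Kronecker's congruence as a POLYNOMIAL identity

`H7C3.kronPoly` : for a prime `p` and a modular polynomial `Φ ∈ ℤ[X][Y]` (`H27CS.IsModPoly p Φ`,
i.e. `Φ(j(s^p), Y) = ∏ (Y - conjugates)` over every ring with a root of the `p`-th cyclotomic
polynomial):
  `Φ = (Y - X^p) (Y^p - X) + p Ψ`   for some `Ψ ∈ ℤ[X][Y]`
(here `X` = inner variable, `Y` = outer variable).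

`H7C3.kronPoly_deg` : moreover `deg_Y Ψ ≤ p`, `deg_X (coeff_k Ψ) ≤ p` for `k ≥ 1` and
`deg_X (coeff_0 Ψ) ≤ p + 1`.
-/

set_option autoImplicit false
set_option linter.unusedSectionVars false
set_option linter.style.haveILetI false

open ModularCurve Polynomial H28S28 H27CS

noncomputable section

namespace H7C3

section ker

variable (p : ℕ) [NeZero p]

/-- the kernel of `ℤ[X] → 𝔽_p((s))`, `X ↦ j(s^p)`, is `p ℤ[X]`. -/
theorem dvd_of_baseEval_eq_zero :
    ∀ (n : ℕ) (c : Polynomial ℤ), (∀ m, n ≤ m → c.coeff m = 0) →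
      baseEval (ZMod p) p c = 0 → (C (p : ℤ) : Polynomial ℤ) ∣ c := by
  intro n
  induction n with
  | zero =>
    intro c hc _
    have : c = 0 := Polynomial.ext fun m => by rw [hc m (Nat.zero_le m), coeff_zero]
    rw [this]; exact dvd_zero _
  | succ n ih =>
    intro c hc h0
    have hdeg : c.natDegree ≤ n := by
      rw [Polynomial.natDegree_le_iff_coeff_eq_zero]
      intro N hN
      exact hc N hN
    have hcoef := coeff_baseEval (A := ZMod p) p c n hdeg
    rw [h0, HahnSeries.coeff_zero] at hcoef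
    have hdvd : (p : ℤ) ∣ c.coeff n := (ZMod.intCast_zmod_eq_zero_iff_dvd _ p).1 hcoef.symm
    obtain ⟨a, ha⟩ := hdvd
    set c' : Polynomial ℤ := c - C (c.coeff n) * X ^ n with hc'
    have hc'coeff : ∀ m, n ≤ m → c'.coeff m = 0 := by
      intro m hm
      rw [hc', coeff_sub, coeff_C_mul, coeff_X_pow]
      rcases Nat.eq_or_lt_of_le hm with h | h
      · subst h; simp
      · rw [if_neg (by omega), mul_zero, sub_zero]; exact hc m h
    have hterm : baseEval (ZMod p) p (C (c.coeff n) * X ^ n) = 0 := by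
      rw [map_mul, ha]
      have : baseEval (ZMod p) p (C ((p : ℤ) * a)) = 0 := by
        unfold baseEval
        rw [Polynomial.coe_eval₂RingHom, Polynomial.eval₂_C, map_mul]
        have : (Int.castRingHom (LaurentSeries (ZMod p))) (p : ℤ) = 0 := by
          rw [map_natCast]
          have h1 : ((p : ℕ) : LaurentSeries (ZMod p)) = HahnSeries.C ((p : ℕ) : ZMod p) := by
            rw [map_natCast]
          rw [h1, ZMod.natCast_self, map_zero]
        rw [this, zero_mul]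
      rw [this, zero_mul]
    have h0' : baseEval (ZMod p) p c' = 0 := by
      rw [hc', map_sub, h0, hterm, sub_zero]
    have h1 := ih c' hc'coeff h0'
    have h2 : (C (p : ℤ) : Polynomial ℤ) ∣ C (c.coeff n) * X ^ n := by
      rw [ha, C_mul]
      exact Dvd.dvd.mul_right (Dvd.intro _ rfl) _
    have : c = c' + C (c.coeff n) * X ^ n := by rw [hc']; ring
    rw [this]
    exact dvd_add h1 h2

theorem dvd_of_baseEval_eq_zero' (c : Polynomial ℤ) (h : baseEval (ZMod p) p c = 0) :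
    (C (p : ℤ) : Polynomial ℤ) ∣ c :=
  dvd_of_baseEval_eq_zero p (c.natDegree + 1) c
    (fun m hm => Polynomial.coeff_eq_zero_of_natDegree_lt (by omega)) h

end ker

section main

variable {p : ℕ} [NeZero p]

/-- Kronecker's polynomial `(Y - X^p)(Y^p - X)`. -/
def kronK (p : ℕ) : Polynomial (Polynomial ℤ) :=
  (X - C ((X : Polynomial ℤ) ^ p)) * (X ^ p - C (X : Polynomial ℤ))

theorem kronK_map (A : Type) [CommRing A] :
    (kronK p).map (baseEval A p)
      = (X - C ((qExpand A p (jqModC A)) ^ p)) * (X ^ p - C (qExpand A p (jqModC A))) := by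
  have hX : baseEval A p (X : Polynomial ℤ) = qExpand A p (jqModC A) := by
    unfold baseEval
    rw [Polynomial.coe_eval₂RingHom, Polynomial.eval₂_X]
  unfold kronK
  rw [Polynomial.map_mul, Polynomial.map_sub, Polynomial.map_sub, Polynomial.map_pow,
    Polynomial.map_X, Polynomial.map_C, Polynomial.map_C, map_pow, hX]

/-- **Kronecker's congruence**, polynomial form. -/
theorem kronPoly (hp : p.Prime) {Φ : Polynomial (Polynomial ℤ)} (hΦ : IsModPoly p Φ) :
    ∃ Ψ : Polynomial (Polynomial ℤ), Φ = kronK p + C (C (p : ℤ)) * Ψ := by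
  classical
  haveI : Fact p.Prime := ⟨hp⟩
  set A := ZMod p with hA
  set J : LaurentSeries A := jqModC A with hJ
  -- the product formula with `ζ = 1`
  have hcyc : (Polynomial.cyclotomic p A).eval (((1 : Aˣ) : A)) = 0 := by
    rw [Units.val_one, Polynomial.eval_one_cyclotomic_prime]
    exact ZMod.natCast_self p
  have h := hΦ A 1 hcyc
  rw [Fintype.prod_option] at h
  have hsome : ∀ b : Fin p, xconj A p 1 (some b) = J := by
    intro b
    show tw ((1 : Aˣ) ^ (b : ℕ)) (jqModC A) = J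
    rw [one_pow]
    ext n
    rw [tw_coeff, one_zpow, Units.val_one, one_mul]
  have hnone : xconj A p 1 none = (qExpand A p J) ^ p := by
    show qExpand A (p * p) (jqModC A) = _
    rw [← qExpand_qExpand, H8PB.h8pb_kronecker A p, map_pow, H8PB.h8pb_kronecker A p]
  have hbase : qExpand A p J = J ^ p := H8PB.h8pb_kronecker A p
  -- characteristic `p` in the polynomial ring
  haveI : CharP (Polynomial (LaurentSeries A)) p :=
    charP_of_injective_algebraMap (algebraMap A (Polynomial (LaurentSeries A))).injective p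
  have hprod : ∏ b : Fin p, ((X : Polynomial (LaurentSeries A)) - C (xconj A p 1 (some b)))
      = X ^ p - C (qExpand A p J) := by
    rw [Finset.prod_congr rfl (fun b _ => by rw [hsome b]), Finset.prod_const, Finset.card_univ,
      Fintype.card_fin, sub_pow_char, hbase, C_pow]
  rw [hprod, hnone] at h
  have hmap : (Φ - kronK p).map (baseEval A p) = 0 := by
    rw [Polynomial.map_sub, h, kronK_map, sub_self]
  have hdvd : (C (C (p : ℤ)) : Polynomial (Polynomial ℤ)) ∣ Φ - kronK p := by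
    rw [Polynomial.C_dvd_iff_dvd_coeff]
    intro i
    apply dvd_of_baseEval_eq_zero' p
    rw [← Polynomial.coeff_map, hmap, coeff_zero]
  obtain ⟨Ψ, hΨ⟩ := hdvd
  exact ⟨Ψ, by rw [← hΨ]; ring⟩

/-- expanded form of Kronecker's polynomial -/
theorem kronK_eq (p : ℕ) :
    kronK p = X ^ (p + 1) - C (X : Polynomial ℤ) * X - C ((X : Polynomial ℤ) ^ p) * X ^ p
      + C ((X : Polynomial ℤ) ^ (p + 1)) := by
  unfold kronK
  rw [pow_succ (X : Polynomial ℤ) p, C_mul]
  ring

theorem kronK_coeff (p k : ℕ) :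
    (kronK p).coeff k = (if k = p + 1 then 1 else 0) - (X : Polynomial ℤ) * (if k = 1 then 1 else 0)
      - (X : Polynomial ℤ) ^ p * (if k = p then 1 else 0)
      + (if k = 0 then (X : Polynomial ℤ) ^ (p + 1) else 0) := by
  rw [kronK_eq, coeff_add, coeff_sub, coeff_sub, coeff_X_pow, coeff_C_mul, coeff_C_mul,
    coeff_X_pow, coeff_X, coeff_C]
  simp only [eq_comm (a := (1 : ℕ)) (b := k)]

theorem natDegree_kronK_coeff_le (p k : ℕ) (hp : 1 ≤ p) (hk : 1 ≤ k) :
    ((kronK p).coeff k).natDegree ≤ p := by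
  rw [kronK_coeff, if_neg (by omega : ¬ k = 0), add_zero]
  refine (natDegree_sub_le _ _).trans (max_le ((natDegree_sub_le _ _).trans (max_le ?_ ?_)) ?_)
  · split_ifs <;> simp
  · split_ifs with h
    · rw [mul_one, natDegree_X]; omega
    · simp
  · split_ifs with h
    · rw [mul_one]; exact natDegree_X_pow_le p
    · simp

theorem natDegree_kronK_coeff_zero_le (p : ℕ) (hp : 1 ≤ p) :
    ((kronK p).coeff 0).natDegree ≤ p + 1 := by
  rw [kronK_coeff, if_neg (by omega : ¬ 0 = p + 1), if_neg (by omega : ¬ 0 = 1),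
    if_neg (by omega : ¬ 0 = p), if_pos rfl]
  simp only [mul_zero, sub_zero, zero_add]
  exact natDegree_X_pow_le _

/-- the coefficients of `Ψ` -/
theorem kron_coeff {Φ Ψ : Polynomial (Polynomial ℤ)} (h : Φ = kronK p + C (C (p : ℤ)) * Ψ)
    (k : ℕ) : C (p : ℤ) * Ψ.coeff k = Φ.coeff k - (kronK p).coeff k := by
  rw [h, coeff_add, coeff_C_mul]; ring

theorem kron_coeff_eq_zero {Φ Ψ : Polynomial (Polynomial ℤ)}
    (h : Φ = kronK p + C (C (p : ℤ)) * Ψ) (hmon : Φ.Monic) (hdeg : Φ.natDegree = p + 1)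
    (k : ℕ) (hk : p + 1 ≤ k) : Ψ.coeff k = 0 := by
  have hp0 : (C (p : ℤ) : Polynomial ℤ) ≠ 0 := by
    rw [Ne, C_eq_zero]; exact_mod_cast NeZero.ne p
  have h1 := kron_coeff h k
  have hp1 : 1 ≤ p := Nat.pos_of_ne_zero (NeZero.ne p)
  have h2 : Φ.coeff k - (kronK p).coeff k = 0 := by
    rcases Nat.eq_or_lt_of_le hk with hk' | hk'
    · subst hk'
      have : Φ.coeff (p + 1) = 1 := by
        have := hmon.coeff_natDegree
        rwa [hdeg] at this
      rw [this, kronK_coeff, if_pos rfl, if_neg (by omega : ¬ p + 1 = 1),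
        if_neg (by omega : ¬ p + 1 = p), if_neg (by omega : ¬ p + 1 = 0)]
      simp
    · rw [coeff_eq_zero_of_natDegree_lt (by omega), kronK_coeff,
        if_neg (by omega : ¬ k = p + 1), if_neg (by omega : ¬ k = 1),
        if_neg (by omega : ¬ k = p), if_neg (by omega : ¬ k = 0)]
      simp
  rw [h2] at h1
  rcases mul_eq_zero.1 h1 with h3 | h3
  · exact absurd h3 hp0
  · exact h3

theorem kron_natDegree_le {Φ Ψ : Polynomial (Polynomial ℤ)}
    (h : Φ = kronK p + C (C (p : ℤ)) * Ψ) (hmon : Φ.Monic) (hdeg : Φ.natDegree = p + 1) :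
    Ψ.natDegree ≤ p := by
  rw [natDegree_le_iff_coeff_eq_zero]
  intro N hN
  exact kron_coeff_eq_zero h hmon hdeg N hN

theorem kron_natDegree_coeff_le {Φ Ψ : Polynomial (Polynomial ℤ)}
    (h : Φ = kronK p + C (C (p : ℤ)) * Ψ) (hΦ : IsModPoly p Φ)
    (k : ℕ) (hk : 1 ≤ k) (hk' : k ≤ p) : (Ψ.coeff k).natDegree ≤ p := by
  have hp0 : (p : ℤ) ≠ 0 := by exact_mod_cast NeZero.ne p
  have h1 := kron_coeff h k
  have h2 : (C (p : ℤ) * Ψ.coeff k).natDegree = (Ψ.coeff k).natDegree := natDegree_C_mul hp0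
  rw [← h2, h1]
  exact (natDegree_sub_le _ _).trans
    (max_le (natDegree_coeff_le hΦ k hk (by omega))
      (natDegree_kronK_coeff_le p k (Nat.pos_of_ne_zero (NeZero.ne p)) hk))

theorem kron_natDegree_coeff_zero_le {Φ Ψ : Polynomial (Polynomial ℤ)}
    (h : Φ = kronK p + C (C (p : ℤ)) * Ψ) (hΦ : IsModPoly p Φ) :
    (Ψ.coeff 0).natDegree ≤ p + 1 := by
  have hp0 : (p : ℤ) ≠ 0 := by exact_mod_cast NeZero.ne p
  have h1 := kron_coeff h 0
  have h2 : (C (p : ℤ) * Ψ.coeff 0).natDegree = (Ψ.coeff 0).natDegree := natDegree_C_mul hp0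
  rw [← h2, h1]
  exact (natDegree_sub_le _ _).trans
    (max_le (natDegree_coeff_zero_le hΦ)
      (natDegree_kronK_coeff_zero_le p (Nat.pos_of_ne_zero (NeZero.ne p))))

end main

section inv

variable {p : ℕ} [NeZero p] {S : Type*} [CommRing S]

/-- inversion of a polynomial `Ψ` with `deg_Y Ψ ≤ p`, `deg_X (coeff_k Ψ) ≤ p` (`k ≥ 1`),
`deg_X (coeff_0 Ψ) ≤ p + 1` at `J V = 1`, `J'' T = 1`:
`V^(p+1) T^(p+1) Ψ(J, J'') = c(V) T^(p+1) + T V W(V, T)`. -/
theorem inv_of_poly (Ψ : Polynomial (Polynomial ℤ)) (hdeg : Ψ.natDegree ≤ p)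
    (hk : ∀ k, 1 ≤ k → k ≤ p → (Ψ.coeff k).natDegree ≤ p)
    (h0 : (Ψ.coeff 0).natDegree ≤ p + 1)
    {J J'' V T : S} (hJV : J * V = 1) (hJT : J'' * T = 1) :
    V ^ (p + 1) * T ^ (p + 1) * ev2 Ψ J J''
      = ev V ((Ψ.coeff 0).reflect (p + 1)) * T ^ (p + 1) + T * V * ev2 (wPoly p Ψ) V T := by
  have hsum : ev2 Ψ J J'' = ∑ k ∈ Finset.range (p + 1), ev J (Ψ.coeff k) * J'' ^ k := by
    unfold ev2
    rw [Polynomial.eval₂_eq_sum_range' _ (by omega : Ψ.natDegree < p + 1)]
  have hTJ : ∀ k, k ≤ p + 1 → T ^ (p + 1) * J'' ^ k = T ^ (p + 1 - k) := by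
    intro k hk
    have : T ^ (p + 1) = T ^ (p + 1 - k) * T ^ k := by rw [← pow_add]; congr 1; omega
    rw [this, mul_assoc, ← mul_pow, mul_comm T J'', hJT, one_pow, mul_one]
  rw [hsum, Finset.mul_sum, Finset.sum_range_succ']
  have hfirst : V ^ (p + 1) * T ^ (p + 1) * (ev J (Ψ.coeff 0) * J'' ^ 0)
      = ev V ((Ψ.coeff 0).reflect (p + 1)) * T ^ (p + 1) := by
    rw [← pow_mul_ev_eq_reflect hJV (p + 1) _ h0, pow_zero, mul_one]; ring
  have hmid : ∑ k ∈ Finset.range p, V ^ (p + 1) * T ^ (p + 1) * (ev J (Ψ.coeff (k + 1)) * J'' ^ (k + 1))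
      = T * V * ev2 (wPoly p Ψ) V T := by
    unfold ev2 wPoly
    rw [Polynomial.eval₂_finsetSum, Finset.mul_sum]
    refine Finset.sum_congr rfl fun k hkr => ?_
    have hkq : k < p := Finset.mem_range.1 hkr
    rw [Polynomial.eval₂_mul, Polynomial.eval₂_C, Polynomial.eval₂_pow, Polynomial.eval₂_X,
      ← pow_mul_ev_eq_reflect hJV p _ (hk (k + 1) (by omega) (by omega))]
    have e1 : p + 1 - (k + 1) = (p - 1 - k) + 1 := by omega
    have e2 : V ^ (p + 1) * T ^ (p + 1) * (ev J (Ψ.coeff (k + 1)) * J'' ^ (k + 1))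
        = V ^ (p + 1) * ev J (Ψ.coeff (k + 1)) * (T ^ (p + 1) * J'' ^ (k + 1)) := by ring
    rw [e2, hTJ (k + 1) (by omega), e1, pow_succ V p, pow_succ T (p - 1 - k)]
    ring
  rw [hfirst, hmid]
  ring

/-- inversion of Kronecker's polynomial -/
theorem inv_kronK {J J'' V T : S} (hJV : J * V = 1) (hJT : J'' * T = 1) :
    V ^ (p + 1) * T ^ (p + 1) * ev2 (kronK p) J J''
      = T ^ (p + 1) + V ^ (p + 1) - T * V - (T * V) ^ p := by
  have hev : ev2 (kronK p) J J'' = (J'' - J ^ p) * (J'' ^ p - J) := by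
    unfold ev2 kronK ev
    simp [Polynomial.eval₂_mul, Polynomial.eval₂_sub, Polynomial.eval₂_pow]
  rw [hev]
  have h1 : V ^ p * T * (J'' - J ^ p) = V ^ p - T := by
    have : V ^ p * J ^ p = 1 := by rw [← mul_pow, mul_comm, hJV, one_pow]
    have h2 : T * J'' = 1 := by rw [mul_comm]; exact hJT
    linear_combination V ^ p * h2 - T * this
  have h2 : V * T ^ p * (J'' ^ p - J) = V - T ^ p := by
    have : T ^ p * J'' ^ p = 1 := by rw [← mul_pow, mul_comm, hJT, one_pow]
    have h3 : V * J = 1 := by rw [mul_comm]; exact hJV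
    linear_combination V * this - T ^ p * h3
  have : V ^ (p + 1) * T ^ (p + 1) * ((J'' - J ^ p) * (J'' ^ p - J))
      = (V ^ p * T * (J'' - J ^ p)) * (V * T ^ p * (J'' ^ p - J)) := by ring
  rw [this, h1, h2]
  ring

theorem ev2_add (Ψ₁ Ψ₂ : Polynomial (Polynomial ℤ)) (a b : S) :
    ev2 (Ψ₁ + Ψ₂) a b = ev2 Ψ₁ a b + ev2 Ψ₂ a b := by
  unfold ev2; rw [Polynomial.eval₂_add]

theorem ev2_CC_mul (n : ℤ) (Ψ : Polynomial (Polynomial ℤ)) (a b : S) :
    ev2 (C (C n) * Ψ) a b = (n : S) * ev2 Ψ a b := by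
  unfold ev2 ev
  rw [Polynomial.eval₂_mul, Polynomial.eval₂_C]
  simp

/-- **the inverted modular equation with Kronecker's structure.**  If `Φ(J, J'') = 0`,
`J V = 1`, `J'' T = 1`, then
`(1 + p c) T^(p+1) + V^(p+1) - T V - (T V)^p + p T V P(T) = 0`, where `c` and the polynomial `P`
depend on `V` only. -/
theorem invKron {Φ Ψ : Polynomial (Polynomial ℤ)} (h : Φ = kronK p + C (C (p : ℤ)) * Ψ)
    (hΦ : IsModPoly p Φ) (hmon : Φ.Monic) (hdeg : Φ.natDegree = p + 1)
    {J J'' V T : S} (hJV : J * V = 1) (hJT : J'' * T = 1) (h0 : ev2 Φ J J'' = 0) :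
    (1 + (p : S) * ev V ((Ψ.coeff 0).reflect (p + 1))) * T ^ (p + 1) + V ^ (p + 1) - T * V
      - (T * V) ^ p + (p : S) * (T * V * ((wPoly p Ψ).map (ev V)).eval T) = 0 := by
  have h1 := inv_kronK (p := p) hJV hJT
  have h2 := inv_of_poly Ψ (kron_natDegree_le h hmon hdeg)
    (fun k hk hk' => kron_natDegree_coeff_le h hΦ k hk hk') (kron_natDegree_coeff_zero_le h hΦ)
    hJV hJT
  have h3 : ev2 Φ J J'' = ev2 (kronK p) J J'' + (p : S) * ev2 Ψ J J'' := by
    conv_lhs => rw [h]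
    rw [ev2_add, ev2_CC_mul]
    simp
  have h4 : ((wPoly p Ψ).map (ev V)).eval T = ev2 (wPoly p Ψ) V T := by
    unfold ev2; rw [Polynomial.eval_map]
  rw [h4]
  rw [h3] at h0
  linear_combination (V ^ (p + 1) * T ^ (p + 1)) * h0 - h1 - (p : S) * h2

end inv

end H7C3
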