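import Mathlib
import Fermat.Agent.S34.CuspSepChart_helper27
import Fermat.Agent.S36.Cusp3Abs_helper7
import Fermat.Agent.S36.KronPoly_helper7

/-!
# helper7 — item 86 (S36), slice (R4c): the Eisenstein relation at a middle cusp, LOCAL form

`B` an integrally closed local domain with fraction field `F` (the local ring of the chart of
level `N' q²` at a cuspidal closed point on the middle component `C₃`), `J₀ = j(z)`,
`J₁ = j(qz)`, `J₂ = j(q² z)` in `F` with `Φ_q(J₀, J₁) = Φ_q(J₁, J₂) = Φ_q(J₁, J₀) = 0`,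
`U = 1/J₀ ∈ 𝔪_B`, `Q₃` a prime of `B` containing `q` with the Kronecker congruences
`1/J₁ ≡ (1/J₀)^q ≡ (1/J₂)^q mod Q₃`, `1/J₁ ∉ Q₃`.  Then `b = J₂/J₀ - 1` lies in `Q₃` and
`b^(q-1) = q · ε` with `ε ∈ Bˣ`  (`H7C3.cusp3_eis_local`).
-/

set_option autoImplicit false
set_option linter.unusedSectionVars false
set_option linter.unusedVariables false
set_option linter.style.haveILetI false

open Polynomial H28S28 H27CS IsLocalRing

noncomputable section

namespace H7C3

section intcl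

variable {B : Type*} [CommRing B] [IsDomain B] [IsIntegrallyClosed B]
variable {F : Type*} [Field F] [Algebra B F] [IsFractionRing B F]

/-- an element of `F` with a power in `B` lies in `B`. -/
theorem exists_of_pow_eq (x : F) (n : ℕ) (hn : 0 < n) (y : B)
    (h : x ^ n = algebraMap B F y) : ∃ z : B, algebraMap B F z = x := by
  have hint : IsIntegral B x := by
    refine ⟨X ^ n - C y, monic_X_pow_sub_C y hn.ne', ?_⟩
    rw [eval₂_sub, eval₂_pow, eval₂_X, eval₂_C, h, sub_self]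
  exact IsIntegrallyClosed.algebraMap_eq_of_integral hint

/-- **integrality of `e = U^q / V`** from the inverted relation. -/
theorem exists_e_of_invRel_aux (F : Type*) [Field F] [Algebra B F] [IsFractionRing B F]
    (q : ℕ) (hq : 1 ≤ q) {U V c W : B} (h : InvRel q U V c W)
    (hV : V ≠ 0) : ∃ e : B, e * V = U ^ q := by
  have hinj : Function.Injective (algebraMap B F) := IsFractionRing.injective B F
  have hVF : algebraMap B F V ≠ 0 := fun h0 => hV (hinj (by rw [h0, map_zero]))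
  have heF : (algebraMap B F U ^ q / algebraMap B F V) * algebraMap B F V
      = algebraMap B F U ^ q := div_mul_cancel₀ _ hVF
  have hF : InvRel q (algebraMap B F U) (algebraMap B F V) (algebraMap B F c)
      (algebraMap B F W) := by
    unfold InvRel at h ⊢
    have := congrArg (algebraMap B F) h
    simpa using this
  have hquad := e_quadratic (S := F) q hq hF heF hVF
  have heint : IsIntegral B (algebraMap B F U ^ q / algebraMap B F V : F) := by
    refine ⟨X ^ 2 + (Polynomial.C W * X + Polynomial.C (c * (U * V) ^ (q - 1))), ?_, ?_⟩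
    · apply Polynomial.monic_X_pow_add
      refine lt_of_le_of_lt (Polynomial.degree_add_le _ _) ?_
      rw [max_lt_iff]
      constructor
      · refine lt_of_le_of_lt (Polynomial.degree_mul_le _ _) ?_
        calc (Polynomial.C W).degree + (X : Polynomial B).degree ≤ 0 + 1 :=
              add_le_add Polynomial.degree_C_le Polynomial.degree_X_le
          _ < 2 := by norm_num
      · exact lt_of_le_of_lt Polynomial.degree_C_le (by norm_num)
    · rw [Polynomial.eval₂_add, Polynomial.eval₂_pow, Polynomial.eval₂_X, Polynomial.eval₂_add,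
        Polynomial.eval₂_mul, Polynomial.eval₂_C, Polynomial.eval₂_X, Polynomial.eval₂_C,
        map_mul, map_pow, map_mul, ← add_assoc]
      exact hquad
  obtain ⟨e, he⟩ := IsIntegrallyClosed.algebraMap_eq_of_integral heint
  refine ⟨e, hinj ?_⟩
  rw [map_mul, he, map_pow]
  exact heF

omit F in
/-- **integrality of `e = U^q / V`** from the inverted relation. -/
theorem exists_e_of_invRel (q : ℕ) (hq : 1 ≤ q) {U V c W : B} (h : InvRel q U V c W)
    (hV : V ≠ 0) : ∃ e : B, e * V = U ^ q :=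
  exists_e_of_invRel_aux (FractionRing B) q hq h hV

end intcl

section loc

variable {B : Type*} [CommRing B] [IsDomain B] [IsIntegrallyClosed B] [IsLocalRing B]
variable {F : Type*} [Field F] [Algebra B F] [IsFractionRing B F]
variable {q : ℕ} [NeZero q]

/-- the inverted modular equation with Kronecker's structure, in `B`. -/
theorem invKron_loc {Φ Ψ : Polynomial (Polynomial ℤ)} (h : Φ = kronK q + C (C (q : ℤ)) * Ψ)
    (hΦ : IsModPoly q Φ) (hmon : Φ.Monic) (hdeg : Φ.natDegree = q + 1)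
    {J J'' : F} {V T : B} (hJV : J * algebraMap B F V = 1) (hJT : J'' * algebraMap B F T = 1)
    (h0 : ev2 Φ J J'' = 0) :
    (1 + (q : B) * ev V ((Ψ.coeff 0).reflect (q + 1))) * T ^ (q + 1) + V ^ (q + 1) - T * V
      - (T * V) ^ q + (q : B) * (T * V * ((wPoly q Ψ).map (ev V)).eval T) = 0 := by
  have hinj : Function.Injective (algebraMap B F) := IsFractionRing.injective B F
  have hF := invKron (S := F) h hΦ hmon hdeg hJV hJT h0
  apply hinj
  rw [map_zero, ← hF]
  have h1 : algebraMap B F (ev V ((Ψ.coeff 0).reflect (q + 1)))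
      = ev (algebraMap B F V) ((Ψ.coeff 0).reflect (q + 1)) := map_ev _ V _
  have h2 : algebraMap B F (((wPoly q Ψ).map (ev V)).eval T)
      = ((wPoly q Ψ).map (ev (algebraMap B F V))).eval (algebraMap B F T) := by
    rw [Polynomial.eval_map, Polynomial.eval_map]
    exact map_ev2 (algebraMap B F) (wPoly q Ψ) V T
  simp only [map_add, map_sub, map_mul, map_pow, map_one, map_natCast, h1, h2]

/-- **the Eisenstein relation at a middle cusp, local form.** -/
theorem cusp3_eis_local (hq : q.Prime) {Φ : Polynomial (Polynomial ℤ)} (hΦ : IsModPoly q Φ)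
    (hmon : Φ.Monic) (hdeg : Φ.natDegree = q + 1) {J₀ J₁ J₂ : F}
    (hJ₁ : J₁ ≠ 0) (hJ₂ : J₂ ≠ 0) (hne : J₂ ≠ J₀)
    (h01 : ev2 Φ J₀ J₁ = 0) (h12 : ev2 Φ J₁ J₂ = 0) (h10 : ev2 Φ J₁ J₀ = 0)
    {U : B} (hU : U ∈ maximalIdeal B) (hJU : J₀ * algebraMap B F U = 1)
    (Q₃ : Ideal B) [hQ₃ : Q₃.IsPrime] (hqQ : (q : B) ∈ Q₃)
    (hK : ∀ V U₂ : B, algebraMap B F V = J₁⁻¹ → algebraMap B F U₂ = J₂⁻¹ →
      V - U ^ q ∈ Q₃ ∧ V - U₂ ^ q ∈ Q₃ ∧ V ∉ Q₃) :
    ∃ b ε : B, IsUnit ε ∧ algebraMap B F b = J₂ / J₀ - 1 ∧ b ∈ Q₃ ∧ b ≠ 0 ∧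
      b ^ (q - 1) = (q : B) * ε := by
  have hinj : Function.Injective (algebraMap B F) := IsFractionRing.injective B F
  have hQ𝔪 : Q₃ ≤ maximalIdeal B := IsLocalRing.le_maximalIdeal hQ₃.ne_top
  have hq2 := hq.two_le
  have hJ₀ : J₀ ≠ 0 := left_ne_zero_of_mul_eq_one hJU
  -- `V = 1/J₁`
  obtain ⟨V, e, c₁, W₁, hV, heV, -, -, hVm⟩ := exists_V_e hΦ hmon hdeg hJ₁ h01 hU hJU
  have hJV : J₁ * algebraMap B F V = 1 := by rw [hV, mul_inv_cancel₀ hJ₁]
  -- `U₂ = 1/J₂`
  obtain ⟨U₂, e₂, c₂, W₂, hU₂, -, -, -, hU₂m⟩ := exists_V_e hΦ hmon hdeg hJ₂ h12 hVm hJV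
  have hJU₂ : J₂ * algebraMap B F U₂ = 1 := by rw [hU₂, mul_inv_cancel₀ hJ₂]
  obtain ⟨hK1, hK2, hK3⟩ := hK V U₂ hV hU₂
  have hV0 : V ≠ 0 := fun h => hK3 (h ▸ Q₃.zero_mem)
  have hU₂0 : U₂ ≠ 0 := by
    rintro rfl
    rw [map_zero] at hU₂
    exact inv_ne_zero hJ₂ hU₂.symm
  have hU₂F : algebraMap B F U₂ ≠ 0 := fun h0 => hU₂0 (hinj (by rw [h0, map_zero]))
  have hUF : algebraMap B F U = J₀⁻¹ := by
    rw [eq_comm, inv_eq_iff_eq_inv]
    exact eq_inv_of_mul_eq_one_left hJU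
  -- Kronecker structure
  obtain ⟨Ψ, hΨ⟩ := kronPoly hq hΦ
  set cc : B := ev V ((Ψ.coeff 0).reflect (q + 1)) with hcc
  set P : Polynomial B := (wPoly q Ψ).map (ev V) with hP
  have hG := invKron_loc hΨ hΦ hmon hdeg hJV hJU h10
  have hG₂ := invKron_loc hΨ hΦ hmon hdeg hJV hJU₂ h12
  have hqm : (q : B) ∈ maximalIdeal B := hQ𝔪 hqQ
  have hlam : IsUnit (1 + (q : B) * cc) := isUnit_one_add_mem (Ideal.mul_mem_right _ _ hqm)
  obtain ⟨lam', hlam'⟩ := hlam.exists_right_inv
  -- the inverted relation for `(U₂, V)`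
  have hq1 : q = (q - 1) + 1 := by omega
  have hpow : (U₂ * V) ^ q = U₂ * V * (U₂ * V) ^ (q - 1) := by
    conv_lhs => rw [hq1, pow_succ']
  have hrel : InvRel q U₂ V lam'
      (-(lam' * (1 + (U₂ * V) ^ (q - 1) - (q : B) * P.eval U₂))) := by
    unfold InvRel
    linear_combination lam' * hG₂ + lam' * hpow - U₂ ^ (q + 1) * hlam'
  obtain ⟨e', he'⟩ := exists_e_of_invRel q (by omega) hrel hV0
  -- `e, e' ≡ 1 mod Q₃`
  have he1 : e - 1 ∈ Q₃ := by
    have : (e - 1) * V ∈ Q₃ := by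
      have : (e - 1) * V = -(V - U ^ q) := by rw [sub_mul, heV]; ring
      rw [this]; exact Q₃.neg_mem hK1
    exact (hQ₃.mem_or_mem this).resolve_right hK3
  have he'1 : e' - 1 ∈ Q₃ := by
    have : (e' - 1) * V ∈ Q₃ := by
      have : (e' - 1) * V = -(V - U₂ ^ q) := by rw [sub_mul, he']; ring
      rw [this]; exact Q₃.neg_mem hK2
    exact (hQ₃.mem_or_mem this).resolve_right hK3
  have heu : IsUnit e := by
    have := isUnit_one_add_mem (hQ𝔪 he1)
    rwa [add_sub_cancel] at this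
  have he'u : IsUnit e' := by
    have := isUnit_one_add_mem (hQ𝔪 he'1)
    rwa [add_sub_cancel] at this
  obtain ⟨e'', he''⟩ := he'u.exists_right_inv
  -- `ρ = U / U₂`
  have hρq : (algebraMap B F U / algebraMap B F U₂) ^ q = algebraMap B F (e * e'') := by
    rw [div_pow, div_eq_iff (pow_ne_zero _ hU₂F), ← map_pow, ← map_pow, ← map_mul]
    congr 1
    rw [← heV, ← he']
    linear_combination (-(e * V)) * he''
  obtain ⟨ρ, hρ⟩ := exists_of_pow_eq (algebraMap B F U / algebraMap B F U₂) q hq.pos (e * e'') hρq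
  have hρU : U = ρ * U₂ := hinj (by rw [map_mul, hρ, div_mul_cancel₀ _ hU₂F])
  have hρq' : ρ ^ q = e * e'' := hinj (by rw [map_pow, hρ, hρq])
  -- `b = ρ - 1 ∈ Q₃`
  have hρq1 : ρ ^ q - 1 ∈ Q₃ := by
    have : ρ ^ q - 1 = (e - 1) * e'' - e'' * (e' - 1) := by
      rw [hρq']; linear_combination he''
    rw [this]
    exact Q₃.sub_mem (Q₃.mul_mem_right _ he1) (Q₃.mul_mem_left _ he'1)
  obtain ⟨r, hr⟩ := exists_add_pow_prime_eq hq (ρ - 1) (1 : B)
  have hbq : (ρ - 1) ^ q ∈ Q₃ := by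
    have : (ρ - 1) ^ q = (ρ ^ q - 1) - (q : B) * ((ρ - 1) * r) := by
      rw [sub_add_cancel] at hr
      linear_combination -hr
    rw [this]
    exact Q₃.sub_mem hρq1 (Q₃.mul_mem_right _ hqQ)
  have hb : ρ - 1 ∈ Q₃ := hQ₃.mem_of_pow_mem q hbq
  have hρF : algebraMap B F ρ = J₂ / J₀ := by
    rw [hρ, hUF, hU₂]
    field_simp
  have hb0 : ρ - 1 ≠ 0 := by
    intro h0
    apply hne
    have h1 : ρ = 1 := by linear_combination h0
    rw [h1, map_one] at hρF
    have := (div_eq_one_iff_eq hJ₀).1 hρF.symm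
    exact this
  obtain ⟨ε, hεu, hε⟩ := cuspEis q hq hqm cc P U U₂ V ρ e' hU₂m hU₂0 hV0 hρU (hQ𝔪 hb) hb0 he'u
    he'.symm hG hG₂
  exact ⟨ρ - 1, ε, hεu, by rw [map_sub, hρF, map_one], hb, hb0, hε⟩

end loc

end H7C3
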