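import Mathlib
import Fermat.Agent.S36.Cusp3Loc_helper7

/-!
# helper7 — item 86 (S36), slice (R4): cusps of level `N' q²` in CHART language

`M` an integrally closed domain with fraction field `F` (the chart ring `M∞`), `𝔫` a prime of `M`
which is a cusp (`1/J₀ ∈ 𝔫 M_𝔫`), `J₀ = j(z)`, `J₁ = j(qz)`, `J₂ = j(q² z)`.

* `H7C3.hU_next`   : `1/J₀ ∈ 𝔫 M_𝔫` and `Φ(J₀, J₁) = 0` give `1/J₁ ∈ 𝔫 M_𝔫`.
* `H7C3.cusp3_sep` : at most one of the three components `P₁, P₂, P₃` passes through `𝔫`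
  (three applications of `H27CS.cusp_not_both`).
* `H7C3.cusp3_eis` : if the middle component `P₃` passes through `𝔫`, there is `a ∈ P₃`,
  `a = (J₂/J₀ - 1) · s` (`s ∉ 𝔫`) with the Eisenstein relation `a^(q-1) · d = q · c`, `c, d ∉ 𝔫`.
* `H7C3.cusp3_only` : hence every prime `p ≤ 𝔫` containing `a` contains `q`.
-/

set_option autoImplicit false
set_option linter.unusedSectionVars false
set_option linter.unusedVariables false
set_option linter.style.haveILetI false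

open Polynomial H28S28 H27CS

noncomputable section

namespace H7C3

section chart

variable {M : Type*} [CommRing M] [IsDomain M] [IsIntegrallyClosed M]
variable {F : Type*} [Field F] [Algebra M F] [IsFractionRing M F]
variable {q : ℕ} [NeZero q]

/-- the cusp condition propagates along the modular equation. -/
theorem hU_next {Φ : Polynomial (Polynomial ℤ)} (hΦ : IsModPoly q Φ)
    (hmon : Φ.Monic) (hdeg : Φ.natDegree = q + 1) {J J' : F} (hJ' : J' ≠ 0)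
    (h : ev2 Φ J J' = 0)
    (𝔫 : Ideal M) [h𝔫 : 𝔫.IsPrime]
    (hU : ∃ a s : M, s ∉ 𝔫 ∧ a ∈ 𝔫 ∧ J * algebraMap M F a = algebraMap M F s) :
    ∃ a s : M, s ∉ 𝔫 ∧ a ∈ 𝔫 ∧ J' * algebraMap M F a = algebraMap M F s := by
  have hinjM : Function.Injective (algebraMap M F) := IsFractionRing.injective M F
  have hS : 𝔫.primeCompl ≤ nonZeroDivisors M := by
    intro s hs
    exact mem_nonZeroDivisors_of_ne_zero (fun h0 => hs (h0 ▸ 𝔫.zero_mem))
  let B : Subalgebra M F := Localization.subalgebra.ofField F 𝔫.primeCompl hS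
  haveI hloc : IsLocalization.AtPrime B 𝔫 :=
    Localization.subalgebra.isLocalization_ofField F 𝔫.primeCompl hS
  haveI : IsLocalRing B := IsLocalization.AtPrime.isLocalRing B 𝔫
  haveI : IsIntegrallyClosed B :=
    isIntegrallyClosed_of_isLocalization (R := M) (S := B) 𝔫.primeCompl hS
  have hBF : ∀ x : B, algebraMap B F x = (x : F) := fun _ => rfl
  obtain ⟨a, s, hs, ha, hJa⟩ := hU
  have hsF : algebraMap M F s ≠ 0 := fun h0 =>
    hs ((hinjM (h0.trans (map_zero _).symm)) ▸ 𝔫.zero_mem)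
  have hJ0 : J ≠ 0 := by
    rintro rfl
    rw [zero_mul] at hJa
    exact hsF hJa.symm
  let U : B := IsLocalization.mk' B a (⟨s, hs⟩ : 𝔫.primeCompl)
  have hUF : (U : F) = J⁻¹ := by
    have := IsLocalization.mk'_spec B a (⟨s, hs⟩ : 𝔫.primeCompl)
    have h' := congrArg (fun z : B => (z : F)) this
    simp only [Subalgebra.coe_mul] at h'
    have h'' : (U : F) * algebraMap M F s = algebraMap M F a := h'
    apply eq_inv_of_mul_eq_one_left
    have : (U : F) * algebraMap M F s * J = algebraMap M F s := by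
      rw [h'', mul_comm, hJa]
    have h3 : (U : F) * J * algebraMap M F s = 1 * algebraMap M F s := by
      rw [one_mul]
      calc (U : F) * J * algebraMap M F s = (U : F) * algebraMap M F s * J := by ring
        _ = algebraMap M F s := this
    exact mul_right_cancel₀ hsF h3
  have hUm : U ∈ IsLocalRing.maximalIdeal B := by
    have h0 : algebraMap M B a ∈ IsLocalRing.maximalIdeal B :=
      (IsLocalization.AtPrime.to_map_mem_maximal_iff B 𝔫 a).2 ha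
    have : U * algebraMap M B s = algebraMap M B a :=
      IsLocalization.mk'_spec B a (⟨s, hs⟩ : 𝔫.primeCompl)
    have hu : IsUnit (algebraMap M B s) :=
      IsLocalization.map_units B (⟨s, hs⟩ : 𝔫.primeCompl)
    rw [← this] at h0
    rcases (IsLocalRing.maximalIdeal.isMaximal B).isPrime.mem_or_mem h0 with h | h
    · exact h
    · exact absurd hu ((IsLocalRing.mem_maximalIdeal _).1 h)
  have hJU : J * algebraMap B F U = 1 := by
    rw [hBF, hUF, mul_inv_cancel₀ hJ0]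
  obtain ⟨V, e, c, W, hV, -, -, -, hVm⟩ :=
    exists_V_e (B := B) (F := F) hΦ hmon hdeg hJ' h hUm hJU
  obtain ⟨a', s', hVas⟩ := IsLocalization.exists_mk'_eq 𝔫.primeCompl V
  have hspec : V * algebraMap M B (s' : M) = algebraMap M B a' := by
    rw [← hVas]; exact IsLocalization.mk'_spec B a' s'
  have ha' : a' ∈ 𝔫 := by
    rw [← IsLocalization.AtPrime.to_map_mem_maximal_iff B 𝔫 a', ← hspec]
    exact Ideal.mul_mem_right _ _ hVm
  refine ⟨a', s', s'.2, ha', ?_⟩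
  have h1 := congrArg (fun z : B => (z : F)) hspec
  simp only [Subalgebra.coe_mul] at h1
  have h2 : (V : F) * algebraMap M F (s' : M) = algebraMap M F a' := h1
  rw [hBF] at hV
  rw [← h2, hV, ← mul_assoc, mul_inv_cancel₀ hJ', one_mul]

/-- **cusp separation at level `N' q²`**: at most one of the three components passes through a
cusp. -/
theorem cusp3_sep (hq2 : 2 ≤ q) {Φ : Polynomial (Polynomial ℤ)} (hΦ : IsModPoly q Φ)
    (hmon : Φ.Monic) (hdeg : Φ.natDegree = q + 1) {J₀ J₁ J₂ : F} (hJ₁ : J₁ ≠ 0) (hJ₂ : J₂ ≠ 0)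
    (h01 : ev2 Φ J₀ J₁ = 0) (h12 : ev2 Φ J₁ J₂ = 0)
    (𝔫 : Ideal M) [h𝔫 : 𝔫.IsPrime]
    (hU : ∃ a s : M, s ∉ 𝔫 ∧ a ∈ 𝔫 ∧ J₀ * algebraMap M F a = algebraMap M F s)
    (P₁ P₂ P₃ : Ideal M) [hP₁ : P₁.IsPrime] [hP₂ : P₂.IsPrime] [hP₃ : P₃.IsPrime]
    (G₁ G₂ G₃ : F → Prop)
    (hG₁ : ∀ m : M, m ∈ P₁ ↔ G₁ (algebraMap M F m))
    (hG₂ : ∀ m : M, m ∈ P₂ ↔ G₂ (algebraMap M F m))
    (hG₃ : ∀ m : M, m ∈ P₃ ↔ G₃ (algebraMap M F m))
    (hG₁mul : ∀ (x : F) (m s : M), s ∉ P₁ → G₁ x →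
      G₁ (x * algebraMap M F m / algebraMap M F s))
    (hG₂mul : ∀ (x : F) (m s : M), s ∉ P₂ → G₂ x →
      G₂ (x * algebraMap M F m / algebraMap M F s))
    (hG₃mul : ∀ (x : F) (m s : M), s ∉ P₃ → G₃ x →
      G₃ (x * algebraMap M F m / algebraMap M F s))
    -- Kronecker at `C₁`: `j₁ ≡ j₀^q`, `j₂ ≡ j₁^q`
    (hK₁a : G₁ (J₁⁻¹ - (J₀⁻¹) ^ q)) (hK₁b : G₁ (J₂⁻¹ - (J₁⁻¹) ^ q))
    -- Kronecker at `C₃`: `j₁ ≡ j₀^q`, `j₁ ≡ j₂^q`
    (hK₃a : G₃ (J₁⁻¹ - (J₀⁻¹) ^ q)) (hK₃b : G₃ (J₁⁻¹ - (J₂⁻¹) ^ q))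
    -- Kronecker at `C₂`: `j₀ ≡ j₁^q`, `j₁ ≡ j₂^q`
    (hK₂a : G₂ (J₀⁻¹ - (J₁⁻¹) ^ q))
    (hV₁ : ¬ G₁ J₁⁻¹) (hV₂ : ¬ G₂ J₁⁻¹) (hV₃ : ¬ G₃ J₁⁻¹)
    (hV₁' : ¬ G₁ J₂⁻¹) (hV₃' : ¬ G₃ J₂⁻¹) :
    ¬ (P₁ ≤ 𝔫 ∧ P₂ ≤ 𝔫) ∧ ¬ (P₃ ≤ 𝔫 ∧ P₂ ≤ 𝔫) ∧ ¬ (P₁ ≤ 𝔫 ∧ P₃ ≤ 𝔫) := by
  refine ⟨?_, ?_, ?_⟩
  · exact cusp_not_both hq2 hΦ hmon hdeg hJ₁ h01 𝔫 hU P₁ P₂ G₁ G₂ hG₁ hG₂ hG₁mul hG₂mul
      hK₁a hK₂a hV₁ hV₂
  · exact cusp_not_both hq2 hΦ hmon hdeg hJ₁ h01 𝔫 hU P₃ P₂ G₃ G₂ hG₃ hG₂ hG₃mul hG₂mul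
      hK₃a hK₂a hV₃ hV₂
  · exact cusp_not_both hq2 hΦ hmon hdeg hJ₂ h12 𝔫 (hU_next hΦ hmon hdeg hJ₁ h01 𝔫 hU)
      P₁ P₃ G₁ G₃ hG₁ hG₃ hG₁mul hG₃mul hK₁b hK₃b hV₁' hV₃'

/-- **the Eisenstein relation at a middle cusp, chart form.**  If the middle component `P₃`
passes through the cusp `𝔫`, there are `a ∈ P₃`, `s, c, d ∉ 𝔫` with
`a = (J₂/J₀ - 1) s` and `a^(q-1) d = q c`. -/
theorem cusp3_eis (hq : q.Prime) {Φ : Polynomial (Polynomial ℤ)} (hΦ : IsModPoly q Φ)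
    (hmon : Φ.Monic) (hdeg : Φ.natDegree = q + 1) {J₀ J₁ J₂ : F} (hJ₁ : J₁ ≠ 0) (hJ₂ : J₂ ≠ 0)
    (hne : J₂ ≠ J₀)
    (h01 : ev2 Φ J₀ J₁ = 0) (h12 : ev2 Φ J₁ J₂ = 0) (h10 : ev2 Φ J₁ J₀ = 0)
    (𝔫 : Ideal M) [h𝔫 : 𝔫.IsPrime]
    (hU : ∃ a s : M, s ∉ 𝔫 ∧ a ∈ 𝔫 ∧ J₀ * algebraMap M F a = algebraMap M F s)
    (P₃ : Ideal M) [hP₃ : P₃.IsPrime] (hP₃𝔫 : P₃ ≤ 𝔫) (hqP : (q : M) ∈ P₃)
    (G₃ : F → Prop)
    (hG₃ : ∀ m : M, m ∈ P₃ ↔ G₃ (algebraMap M F m))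
    (hG₃mul : ∀ (x : F) (m s : M), s ∉ P₃ → G₃ x →
      G₃ (x * algebraMap M F m / algebraMap M F s))
    (hK₃a : G₃ (J₁⁻¹ - (J₀⁻¹) ^ q)) (hK₃b : G₃ (J₁⁻¹ - (J₂⁻¹) ^ q))
    (hV₃ : ¬ G₃ J₁⁻¹) :
    ∃ a s c d : M, a ∈ P₃ ∧ a ≠ 0 ∧ s ∉ 𝔫 ∧ c ∉ 𝔫 ∧ d ∉ 𝔫 ∧
      algebraMap M F a = (J₂ / J₀ - 1) * algebraMap M F s ∧
      a ^ (q - 1) * d = (q : M) * c := by
  have hinjM : Function.Injective (algebraMap M F) := IsFractionRing.injective M F
  have hS : 𝔫.primeCompl ≤ nonZeroDivisors M := by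
    intro s hs
    exact mem_nonZeroDivisors_of_ne_zero (fun h0 => hs (h0 ▸ 𝔫.zero_mem))
  let B : Subalgebra M F := Localization.subalgebra.ofField F 𝔫.primeCompl hS
  haveI hloc : IsLocalization.AtPrime B 𝔫 :=
    Localization.subalgebra.isLocalization_ofField F 𝔫.primeCompl hS
  haveI : IsLocalRing B := IsLocalization.AtPrime.isLocalRing B 𝔫
  haveI : IsIntegrallyClosed B :=
    isIntegrallyClosed_of_isLocalization (R := M) (S := B) 𝔫.primeCompl hS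
  have hBF : ∀ x : B, algebraMap B F x = (x : F) := fun _ => rfl
  have hMB : ∀ m : M, ((algebraMap M B m : B) : F) = algebraMap M F m := fun _ => rfl
  have hd₃ : Disjoint (𝔫.primeCompl : Set M) (P₃ : Set M) := by
    rw [Set.disjoint_left]; intro x hx hxP; exact hx (hP₃𝔫 hxP)
  haveI hQ₃ : (P₃.map (algebraMap M B)).IsPrime :=
    IsLocalization.isPrime_of_isPrime_disjoint 𝔫.primeCompl B P₃ hP₃ hd₃
  have hmem₃ : ∀ x : B, x ∈ P₃.map (algebraMap M B) ↔ G₃ (x : F) := by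
    intro x
    obtain ⟨m, s, rfl⟩ := IsLocalization.exists_mk'_eq 𝔫.primeCompl x
    have hs1 : (s : M) ∉ P₃ := fun hsP => s.2 (hP₃𝔫 hsP)
    have hsF : algebraMap M F (s : M) ≠ 0 := fun h0 =>
      s.2 ((hinjM (h0.trans (map_zero _).symm)) ▸ 𝔫.zero_mem)
    have hval : ((IsLocalization.mk' B m s : B) : F) = algebraMap M F m / algebraMap M F s := by
      rw [eq_div_iff hsF]
      exact congrArg (fun z : B => (z : F)) (IsLocalization.mk'_spec B m s)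
    rw [IsLocalization.mk'_mem_map_algebraMap_iff, hval]
    constructor
    · rintro ⟨s', hs', hm⟩
      have hm' : m ∈ P₃ := by
        rcases hP₃.mem_or_mem hm with h | h
        · exact absurd (hP₃𝔫 h) hs'
        · exact h
      have := hG₃mul _ 1 s hs1 ((hG₃ m).1 hm')
      rwa [map_one, mul_one] at this
    · intro hG
      refine ⟨1, Submonoid.one_mem _, ?_⟩
      rw [one_mul, hG₃ m]
      have := hG₃mul _ s 1 (fun h => hP₃.ne_top ((Ideal.eq_top_iff_one _).2 h)) hG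
      rwa [map_one, div_one, div_mul_cancel₀ _ hsF] at this
  -- the element `U`
  obtain ⟨a, s, hs, ha, hJa⟩ := hU
  have hsF : algebraMap M F s ≠ 0 := fun h0 =>
    hs ((hinjM (h0.trans (map_zero _).symm)) ▸ 𝔫.zero_mem)
  have hJ0 : J₀ ≠ 0 := by
    rintro rfl
    rw [zero_mul] at hJa
    exact hsF hJa.symm
  let U : B := IsLocalization.mk' B a (⟨s, hs⟩ : 𝔫.primeCompl)
  have hUF : (U : F) = J₀⁻¹ := by
    have := IsLocalization.mk'_spec B a (⟨s, hs⟩ : 𝔫.primeCompl)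
    have h' := congrArg (fun z : B => (z : F)) this
    simp only [Subalgebra.coe_mul] at h'
    have h'' : (U : F) * algebraMap M F s = algebraMap M F a := h'
    apply eq_inv_of_mul_eq_one_left
    have : (U : F) * algebraMap M F s * J₀ = algebraMap M F s := by
      rw [h'', mul_comm, hJa]
    have h3 : (U : F) * J₀ * algebraMap M F s = 1 * algebraMap M F s := by
      rw [one_mul]
      calc (U : F) * J₀ * algebraMap M F s = (U : F) * algebraMap M F s * J₀ := by ring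
        _ = algebraMap M F s := this
    exact mul_right_cancel₀ hsF h3
  have hUm : U ∈ IsLocalRing.maximalIdeal B := by
    have h0 : algebraMap M B a ∈ IsLocalRing.maximalIdeal B :=
      (IsLocalization.AtPrime.to_map_mem_maximal_iff B 𝔫 a).2 ha
    have : U * algebraMap M B s = algebraMap M B a :=
      IsLocalization.mk'_spec B a (⟨s, hs⟩ : 𝔫.primeCompl)
    have hu : IsUnit (algebraMap M B s) :=
      IsLocalization.map_units B (⟨s, hs⟩ : 𝔫.primeCompl)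
    rw [← this] at h0
    rcases (IsLocalRing.maximalIdeal.isMaximal B).isPrime.mem_or_mem h0 with h | h
    · exact h
    · exact absurd hu ((IsLocalRing.mem_maximalIdeal _).1 h)
  have hJU : J₀ * algebraMap B F U = 1 := by
    rw [hBF, hUF, mul_inv_cancel₀ hJ0]
  have hqQ : ((q : ℕ) : B) ∈ P₃.map (algebraMap M B) := by
    have := Ideal.mem_map_of_mem (algebraMap M B) hqP
    rwa [map_natCast] at this
  obtain ⟨b, ε, hεu, hbF, hbQ, hb0, hbε⟩ := cusp3_eis_local (B := B) (F := F) hq hΦ hmon hdeg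
    hJ₁ hJ₂ hne h01 h12 h10 hUm hJU (P₃.map (algebraMap M B)) hqQ (by
      intro V U₂ hV hU₂
      rw [hBF] at hV hU₂
      refine ⟨?_, ?_, ?_⟩
      · rw [hmem₃]
        show G₃ ((V : F) - (U : F) ^ q)
        rw [hV, hUF]; exact hK₃a
      · rw [hmem₃]
        show G₃ ((V : F) - (U₂ : F) ^ q)
        rw [hV, hU₂]; exact hK₃b
      · rw [hmem₃, hV]; exact hV₃)
  -- back to the chart
  obtain ⟨a₁, s₁, rfl⟩ := IsLocalization.exists_mk'_eq 𝔫.primeCompl b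
  obtain ⟨c₁, d₁, rfl⟩ := IsLocalization.exists_mk'_eq 𝔫.primeCompl ε
  have hs₁F : algebraMap M F (s₁ : M) ≠ 0 := fun h0 =>
    s₁.2 ((hinjM (h0.trans (map_zero _).symm)) ▸ 𝔫.zero_mem)
  have hd₁F : algebraMap M F (d₁ : M) ≠ 0 := fun h0 =>
    d₁.2 ((hinjM (h0.trans (map_zero _).symm)) ▸ 𝔫.zero_mem)
  have hvalb : ((IsLocalization.mk' B a₁ s₁ : B) : F) = algebraMap M F a₁ / algebraMap M F s₁ := by
    rw [eq_div_iff hs₁F]
    exact congrArg (fun z : B => (z : F)) (IsLocalization.mk'_spec B a₁ s₁)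
  have hvalε : ((IsLocalization.mk' B c₁ d₁ : B) : F) = algebraMap M F c₁ / algebraMap M F d₁ := by
    rw [eq_div_iff hd₁F]
    exact congrArg (fun z : B => (z : F)) (IsLocalization.mk'_spec B c₁ d₁)
  have ha₁P : a₁ ∈ P₃ := by
    rw [IsLocalization.mk'_mem_map_algebraMap_iff] at hbQ
    obtain ⟨s', hs', hm⟩ := hbQ
    rcases hP₃.mem_or_mem hm with h | h
    · exact absurd (hP₃𝔫 h) hs'
    · exact h
  have ha₁0 : a₁ ≠ 0 := by
    rintro rfl
    apply hb0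
    exact IsLocalization.mk'_zero _
  have hc₁ : c₁ ∉ 𝔫 := by
    intro hc
    have h1 : algebraMap M B c₁ ∈ IsLocalRing.maximalIdeal B :=
      (IsLocalization.AtPrime.to_map_mem_maximal_iff B 𝔫 c₁).2 hc
    have h2 : IsLocalization.mk' B c₁ d₁ * algebraMap M B (d₁ : M) = algebraMap M B c₁ :=
      IsLocalization.mk'_spec B c₁ d₁
    rw [← h2] at h1
    have hu : IsUnit (IsLocalization.mk' B c₁ d₁ * algebraMap M B (d₁ : M)) :=
      hεu.mul (IsLocalization.map_units B d₁)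
    exact (IsLocalRing.mem_maximalIdeal _).1 h1 hu
  refine ⟨a₁, s₁, c₁ * (s₁ : M) ^ (q - 1), d₁, ha₁P, ha₁0, s₁.2, ?_, d₁.2, ?_, ?_⟩
  · intro h
    rcases h𝔫.mem_or_mem h with h | h
    · exact hc₁ h
    · exact s₁.2 (h𝔫.mem_of_pow_mem _ h)
  · rw [hBF, hvalb] at hbF
    rw [← hbF, div_mul_cancel₀ _ hs₁F]
  · apply hinjM
    have h1 := congrArg (fun z : B => (z : F)) hbε
    simp only [Subalgebra.coe_mul, Subalgebra.coe_pow] at h1
    rw [hvalb, hvalε] at h1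
    have h2 : (((q : ℕ) : B) : F) = ((q : ℕ) : F) := by
      rw [← hBF, map_natCast]
    rw [h2] at h1
    rw [map_mul, map_mul, map_pow, map_mul, map_pow, map_natCast]
    rw [div_pow, div_eq_iff (pow_ne_zero _ hs₁F)] at h1
    rw [h1]
    field_simp

/-- every prime below the cusp `𝔫` containing the Eisenstein element `a` contains `q`. -/
theorem cusp3_only (𝔫 : Ideal M) [h𝔫 : 𝔫.IsPrime] (a c d : M) (hc : c ∉ 𝔫)
    (h : a ^ (q - 1) * d = (q : M) * c) (hq2 : 2 ≤ q)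
    (p : Ideal M) (hp : p.IsPrime) (hp𝔫 : p ≤ 𝔫) (ha : a ∈ p) : (q : M) ∈ p := by
  have h1 : (q : M) * c ∈ p := by
    rw [← h]
    exact Ideal.mul_mem_right _ _ (Ideal.pow_mem_of_mem _ ha _ (by omega))
  rcases hp.mem_or_mem h1 with h2 | h2
  · exact h2
  · exact absurd (hp𝔫 h2) hc

end chart

end H7C3
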