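import Mathlib
import Fermat.Agent.S36.R2_helper26
import Fermat.Agent.S36.Cusp3Chart_helper7

/-!
# helper7 — item 86 (S36), slice (R4): (L1) at the cusps of the middle component

Generic ideal-theoretic part (`B` a domain, "∃ s ∉ 𝔫, s * y = …" language, as in `H26R2`):

* `H7C3.hloc_of_eis` : if `π` generates `P₃ B_{P₃}`, `π^(q-1) ~ q` at `P₃` (ramification index
  `q - 1`) and `a ∈ P₃` satisfies the Eisenstein relation `a^(q-1) d = q c` (`c, d ∉ P₃`), then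
  `a` generates `P₃ B_{P₃}`.
* `H7C3.honly_of_eis` : if moreover `P₃` is the only height-one prime below `𝔫` containing `q`,
  then `P₃` is the only height-one prime below `𝔫` containing `a`.
* `H7C3.l1At_cusp3`  : chart form, `H4S34.L1At` at `𝔫` (via `H26R2.l1At_R2`).
-/

set_option autoImplicit false
set_option linter.unusedSectionVars false
set_option linter.unusedVariables false
set_option linter.style.haveILetI false

noncomputable section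

namespace H7C3

section abstract

variable {B : Type*} [CommRing B] [IsDomain B]

/-- the Eisenstein element generates `P₃` at `P₃`. -/
theorem hloc_of_eis (P₃ : Ideal B) [hP₃ : P₃.IsPrime] (q : ℕ) (hq2 : 2 ≤ q)
    (a c d : B) (haP : a ∈ P₃) (ha0 : a ≠ 0) (hc : c ∉ P₃) (hd : d ∉ P₃)
    (heis : a ^ (q - 1) * d = (q : B) * c)
    (π : B) (hπ : ∀ y ∈ P₃, ∃ s c : B, s ∉ P₃ ∧ s * y = c * π)
    (hram : ∃ s c : B, s ∉ P₃ ∧ s * π ^ (q - 1) = c * (q : B)) :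
    ∀ y ∈ P₃, ∃ s c : B, s ∉ P₃ ∧ s * y = c * a := by
  obtain ⟨s₀, c₀, hs₀, h₀⟩ := hπ a haP
  obtain ⟨sπ, cπ, hsπ, hπq⟩ := hram
  have hd0 : d ≠ 0 := fun h => hd (h ▸ P₃.zero_mem)
  have hq0 : (q : B) ≠ 0 := by
    intro h
    rw [h, zero_mul] at heis
    exact mul_ne_zero (pow_ne_zero _ ha0) hd0 heis
  have hkey : sπ * s₀ ^ (q - 1) * c = c₀ ^ (q - 1) * cπ * d := by
    apply mul_left_cancel₀ hq0
    have h1 : (s₀ * a) ^ (q - 1) = (c₀ * π) ^ (q - 1) := by rw [h₀]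
    rw [mul_pow, mul_pow] at h1
    linear_combination (-(sπ * s₀ ^ (q - 1))) * heis + (sπ * d) * h1 + (c₀ ^ (q - 1) * d) * hπq
  have hc₀ : c₀ ∉ P₃ := by
    intro hc₀
    have h1 : c₀ ^ (q - 1) * cπ * d ∈ P₃ :=
      Ideal.mul_mem_right _ _ (Ideal.mul_mem_right _ _ (Ideal.pow_mem_of_mem _ hc₀ _ (by omega)))
    rw [← hkey] at h1
    rcases hP₃.mem_or_mem h1 with h2 | h2
    · rcases hP₃.mem_or_mem h2 with h3 | h3
      · exact hsπ h3
      · exact hs₀ (hP₃.mem_of_pow_mem _ h3)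
    · exact hc h2
  intro y hy
  obtain ⟨s, c', hs, hsy⟩ := hπ y hy
  refine ⟨s * c₀, c' * s₀, ?_, ?_⟩
  · intro h
    rcases hP₃.mem_or_mem h with h | h
    · exact hs h
    · exact hc₀ h
  · linear_combination c₀ * hsy - c' * h₀

/-- `P₃` is the only height-one prime below `𝔫` containing the Eisenstein element. -/
theorem honly_of_eis (𝔫 P₃ : Ideal B) [h𝔫 : 𝔫.IsPrime] (q : ℕ) (hq2 : 2 ≤ q)
    (a c d : B) (hc : c ∉ 𝔫) (heis : a ^ (q - 1) * d = (q : B) * c)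
    (hvert : ∀ p : Ideal B, p.IsPrime → p.height = 1 → p ≤ 𝔫 → (q : B) ∈ p → p = P₃) :
    ∀ p : Ideal B, p.IsPrime → p.height = 1 → p ≤ 𝔫 → a ∈ p → p = P₃ := by
  intro p hp hh hp𝔫 ha
  refine hvert p hp hh hp𝔫 ?_
  have h1 : (q : B) * c ∈ p := by
    rw [← heis]
    exact Ideal.mul_mem_right _ _ (Ideal.pow_mem_of_mem _ ha _ (by omega))
  rcases hp.mem_or_mem h1 with h2 | h2
  · exact h2
  · exact absurd (hp𝔫 h2) hc

end abstract

section chart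

open Polynomial IntermediateField H7S18 H4S34 AlgebraicCurve

variable (R : Type) [CommRing R] [IsDomain R] [IsDiscreteValuationRing R]
  (K : Type) [Field K] [CharZero K] [Algebra R K] [IsFractionRing R K]
  {F : Type} [Field F] [Algebra K F] [Algebra R F] [IsScalarTower R K F]

/-- **(L1) at a cusp of the middle component.**  `𝔫` a prime of the chart, `P₃ ≤ 𝔫` the middle
component, `a ∈ P₃` an Eisenstein element (`a^(q-1) d = q c`, `c, d ∉ 𝔫`; from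
`H7C3.cusp3_eis`), `P₃` the only height-one prime below `𝔫` over `q` (from `H7C3.cusp3_sep`),
`π` a generator of `P₃` at `P₃` with `π^(q-1) ~ q` (ramification index `q - 1`), and `u` a
uniformizer of `𝔫` on the component (`𝔫 = P₃ + (u)` locally).  Then `L1At` holds at `𝔫`. -/
theorem l1At_cusp3 (ϖ : R) (hϖ : Irreducible ϖ) {t : F} (ht : Transcendental K t)
    [hfin : FiniteDimensional K⟮t⟯ F] (n : ℕ) (hn : 0 < n) (f : F) (hf : f ≠ 0)
    (hdiv : ∀ V : Place K F, (n : ℤ) ∣ V.ord f)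
    (𝔫 : Ideal (Chart R t)) (h𝔫 : 𝔫.IsPrime) (P₃ : Ideal (Chart R t)) (hP₃ : P₃.IsPrime)
    (hP₃𝔫 : P₃ ≤ 𝔫) (q : ℕ) (hq2 : 2 ≤ q)
    (a c d : Chart R t) (haP : a ∈ P₃) (ha0 : a ≠ 0) (hc : c ∉ 𝔫) (hd : d ∉ 𝔫)
    (heis : a ^ (q - 1) * d = (q : Chart R t) * c)
    (hvert : ∀ p : Ideal (Chart R t), p.IsPrime → p.height = 1 → p ≤ 𝔫 →
      (q : Chart R t) ∈ p → p = P₃)
    (π : Chart R t) (hπ : ∀ y ∈ P₃, ∃ s c : Chart R t, s ∉ P₃ ∧ s * y = c * π)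
    (hram : ∃ s c : Chart R t, s ∉ P₃ ∧ s * π ^ (q - 1) = c * (q : Chart R t))
    (u : Chart R t) (hu𝔫 : u ∈ 𝔫) (huP : u ∉ P₃)
    (hunif : ∀ y ∈ 𝔫, ∃ s c : Chart R t, s ∉ 𝔫 ∧ s * y - c * u ∈ P₃) :
    L1At R ϖ t 𝔫 n f := by
  haveI := hP₃
  haveI := h𝔫
  exact H26R2.l1At_R2 R K ϖ hϖ ht n hn f hf hdiv 𝔫 h𝔫 P₃ hP₃ hP₃𝔫 a u ha0 haP hu𝔫 huP
    (honly_of_eis 𝔫 P₃ q hq2 a c d hc heis hvert)
    (hloc_of_eis P₃ q hq2 a c d haP ha0 (fun h => hc (hP₃𝔫 h)) (fun h => hd (hP₃𝔫 h)) heis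
      π hπ hram) hunif

end chart

end H7C3
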