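import Mathlib
import Fermat.Agent.S36.R2Val_helper26
import Fermat.Agent.S36.Cusp3L1_helper7

/-!
# helper7 — item 86 (S36), slice (R4): the cusps of the middle component, VALUATION language

Generic setting of `H26R2` (`R` a DVR with uniformizer `ϖ`, `K = Frac R`, `F / K(t)` finite,
`M₀ = Chart R t`, the components given by a finite set `𝒱` of valuation rings with
`O_F = ⋂ V` (`hO`)).

* `H7C3.hloc_val`     : if `b ∈ F` is a uniformizer of `V₃` and a unit at the other `V ∈ 𝒱`, and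
  `a = b s` (`a, s ∈ M₀`, `s` a unit at `V₃`), then `a` generates `P_{V₃} (M₀)_{P_{V₃}}`.
* `H7C3.honly_val`    : if `a^(q-1) d = ϖ c` (`c ∉ 𝔫`; Eisenstein relation, from
  `H7C3.cusp3_eis`) and no other component passes through `𝔫`, then `P_{V₃}` is the only
  height-one prime below `𝔫` containing `a`.
* `H7C3.two_gen_cusp3_val` : two generators `𝔫 B_𝔫 = (a, u)`.
* `H7C3.l1At_cusp3_val`    : `H4S34.L1At` at `𝔫`.
-/

set_option autoImplicit false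
set_option linter.unusedSectionVars false
set_option linter.unusedVariables false
set_option linter.style.haveILetI false
set_option synthInstance.maxHeartbeats 400000

noncomputable section

namespace H7C3

open Polynomial IntermediateField H7S18 H4S34 AlgebraicCurve H26R2

section val

variable (R : Type) [CommRing R] [IsDomain R] [IsDiscreteValuationRing R]
  (K : Type) [Field K] [CharZero K] [Algebra R K] [IsFractionRing R K]
  {F : Type} [Field F] [Algebra K F] [Algebra R F] [IsScalarTower R K F]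

/-- **the uniformizer `b` of `V₃` generates the component at its generic point.** -/
theorem hloc_val {ϖ : R} (hϖ : Irreducible ϖ) {t : F} (ht : Transcendental K t)
    (𝒱 : Finset (ValuationSubring F)) (hO : ∀ x : F, GInt R ϖ t x ↔ ∀ V ∈ 𝒱, x ∈ V)
    (V₃ : ValuationSubring F) (hV₃ : V₃ ∈ 𝒱)
    (b : F) (hb0 : b ≠ 0)
    (hb₃ : ∀ x : F, V₃.valuation x < 1 → V₃.valuation x ≤ V₃.valuation b)
    (hbV : ∀ V ∈ 𝒱, V ≠ V₃ → V.valuation b = 1)
    (a s : Chart R t) (has : (a : F) = b * (s : F)) (hs : V₃.valuation (s : F) = 1) :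
    ∀ y ∈ compIdeal R V₃ (fun y => chart_mem_of_hO R K hϖ ht 𝒱 hO hV₃ y),
      ∃ s' c : Chart R t, s' ∉ compIdeal R V₃ (fun y => chart_mem_of_hO R K hϖ ht 𝒱 hO hV₃ y) ∧
        s' * y = c * a := by
  intro y hy
  rw [mem_compIdeal] at hy
  have hzO : GInt R ϖ t ((y : F) * b⁻¹) := by
    rw [hO]
    intro V hV
    rw [← V.valuation_le_one_iff, map_mul, map_inv₀]
    have hvb : V.valuation b ≠ 0 := (V.valuation.ne_zero_iff).2 hb0
    by_cases hVV : V = V₃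
    · subst hVV
      calc V.valuation (y : F) * (V.valuation b)⁻¹
          ≤ V.valuation b * (V.valuation b)⁻¹ := mul_le_mul_left (hb₃ _ hy) _
        _ = 1 := mul_inv_cancel₀ hvb
    · rw [hbV V hV hVV, inv_one, mul_one]
      exact (V.valuation_le_one_iff _).2 (chart_mem_of_hO R K hϖ ht 𝒱 hO hV y)
  obtain ⟨s₁, hs₁, hs₁z⟩ := hzO
  let c : Chart R t := ⟨s₁ * ((y : F) * b⁻¹), hs₁z⟩
  let sM : Chart R t := ⟨s₁, H19S18.h19_mem_T_isInt R t hs₁.1⟩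
  refine ⟨sM * s, c, ?_, ?_⟩
  · rw [mem_compIdeal, not_lt]
    push_cast
    change 1 ≤ V₃.valuation (s₁ * (s : F))
    rw [map_mul, gaussUnit_val R K hϖ ht 𝒱 hO hV₃ hs₁, hs, one_mul]
  · apply Subtype.ext
    push_cast
    change s₁ * (s : F) * (y : F) = s₁ * ((y : F) * b⁻¹) * (a : F)
    rw [has]
    field_simp

/-- **no other height-one prime below `𝔫` contains the Eisenstein element.** -/
theorem honly_val {ϖ : R} (hϖ : Irreducible ϖ) {t : F} (ht : Transcendental K t)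
    [hfin : FiniteDimensional K⟮t⟯ F]
    (𝒱 : Finset (ValuationSubring F)) (hO : ∀ x : F, GInt R ϖ t x ↔ ∀ V ∈ 𝒱, x ∈ V)
    (V₃ : ValuationSubring F) (hV₃ : V₃ ∈ 𝒱)
    (𝔫 : Ideal (Chart R t)) (h𝔫 : 𝔫.IsPrime)
    (hsep : ∀ V ∈ 𝒱, V ≠ V₃ → ∃ g : Chart R t, V.valuation (g : F) < 1 ∧ g ∉ 𝔫)
    (ϖM : Chart R t) (hϖM : (ϖM : F) = algebraMap R F ϖ)
    (q : ℕ) (hq2 : 2 ≤ q) (a c d : Chart R t) (hc : c ∉ 𝔫)
    (heis : a ^ (q - 1) * d = ϖM * c) :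
    ∀ p : Ideal (Chart R t), p.IsPrime → p.height = 1 → p ≤ 𝔫 → a ∈ p →
      p = compIdeal R V₃ (fun y => chart_mem_of_hO R K hϖ ht 𝒱 hO hV₃ y) := by
  intro p hp hh hple hap
  have hϖp : ϖM ∈ p := by
    have h1 : ϖM * c ∈ p := by
      rw [← heis]
      exact Ideal.mul_mem_right _ _ (Ideal.pow_mem_of_mem _ hap _ (by omega))
    exact (hp.mem_or_mem h1).resolve_right (fun h => hc (hple h))
  have hϖp' : ∀ y : Chart R t, (y : F) = algebraMap R F ϖ → y ∈ p := by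
    intro y hy
    have : y = ϖM := Subtype.ext (by rw [hy, hϖM])
    rw [this]
    exact hϖp
  obtain ⟨V, hV, hpV⟩ := vert_prime_cases R K hϖ ht 𝒱 hO p hp hh hϖp'
  by_cases hVV : V = V₃
  · subst hVV
    exact hpV
  · exfalso
    obtain ⟨g, hg, hg𝔫⟩ := hsep V hV hVV
    apply hg𝔫
    apply hple
    rw [hpV]
    exact hg

/-- **two generators at a cusp of the middle component**, valuation form. -/
theorem two_gen_cusp3_val (ϖ : R) (hϖ : Irreducible ϖ) {t : F} (ht : Transcendental K t)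
    [hfin : FiniteDimensional K⟮t⟯ F]
    (𝒱 : Finset (ValuationSubring F)) (hO : ∀ x : F, GInt R ϖ t x ↔ ∀ V ∈ 𝒱, x ∈ V)
    (V₃ : ValuationSubring F) (hV₃ : V₃ ∈ 𝒱)
    (𝔫 : Ideal (Chart R t)) (h𝔫 : 𝔫.IsPrime)
    (hP𝔫 : ∀ y : Chart R t, V₃.valuation (y : F) < 1 → y ∈ 𝔫)
    (hsep : ∀ V ∈ 𝒱, V ≠ V₃ → ∃ g : Chart R t, V.valuation (g : F) < 1 ∧ g ∉ 𝔫)
    (ϖM : Chart R t) (hϖM : (ϖM : F) = algebraMap R F ϖ)
    (b : F) (hb₃ : ∀ x : F, V₃.valuation x < 1 → V₃.valuation x ≤ V₃.valuation b)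
    (hbV : ∀ V ∈ 𝒱, V ≠ V₃ → V.valuation b = 1)
    (q : ℕ) (hq2 : 2 ≤ q) (a s c d : Chart R t) (ha0 : a ≠ 0) (has : (a : F) = b * (s : F))
    (hs : s ∉ 𝔫) (hc : c ∉ 𝔫) (heis : a ^ (q - 1) * d = ϖM * c)
    (u : Chart R t)
    (hunif : ∀ y ∈ 𝔫, ∃ s c : Chart R t, s ∉ 𝔫 ∧ V₃.valuation ((s : F) * y - c * u) < 1) :
    ∀ y ∈ 𝔫, ∃ s c d : Chart R t, s ∉ 𝔫 ∧ (s : F) * y = c * (a : F) + d * u := by
  haveI : IsNoetherianRing (Chart R t) := H22BR.chart_noeth R K ht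
  haveI : IsIntegrallyClosed (Chart R t) := H22BR.chart_intClosed R K t
  set P : Ideal (Chart R t) :=
    compIdeal R V₃ (fun y => chart_mem_of_hO R K hϖ ht 𝒱 hO hV₃ y) with hPdef
  have hP : P.IsPrime := compIdeal_isPrime R V₃ _
  have hPle : P ≤ 𝔫 := fun y hy => hP𝔫 y hy
  have hb0 : b ≠ 0 := by
    rintro rfl
    rw [zero_mul] at has
    exact ha0 (Subtype.ext has)
  have hsV : V₃.valuation (s : F) = 1 := by
    refine le_antisymm ((V₃.valuation_le_one_iff _).2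
      (chart_mem_of_hO R K hϖ ht 𝒱 hO hV₃ s)) ?_
    by_contra hlt
    exact hs (hP𝔫 s (not_le.1 hlt))
  have honly := honly_val R K hϖ ht 𝒱 hO V₃ hV₃ 𝔫 h𝔫 hsep ϖM hϖM q hq2 a c d hc heis
  have hloc := hloc_val R K hϖ ht 𝒱 hO V₃ hV₃ b hb0 hb₃ hbV a s has hsV
  have hunif' : ∀ y ∈ 𝔫, ∃ s c : Chart R t, s ∉ 𝔫 ∧ s * y - c * u ∈ P := by
    intro y hy
    obtain ⟨s, c, hs, hsc⟩ := hunif y hy
    refine ⟨s, c, hs, ?_⟩
    change V₃.valuation (((s * y - c * u : Chart R t)) : F) < 1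
    push_cast
    exact hsc
  intro y hy
  obtain ⟨s', c', d', hs', h⟩ := two_gen 𝔫 P a u ha0 honly hloc hunif' y hy
  refine ⟨s', c', d', hs', ?_⟩
  have := congrArg (fun z : Chart R t => (z : F)) h
  simpa using this

/-- **(L1) at a cusp of the middle component**, valuation form. -/
theorem l1At_cusp3_val (ϖ : R) (hϖ : Irreducible ϖ) {t : F} (ht : Transcendental K t)
    [hfin : FiniteDimensional K⟮t⟯ F] (n : ℕ) (hn : 0 < n) (f : F) (hf : f ≠ 0)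
    (hdiv : ∀ V : Place K F, (n : ℤ) ∣ V.ord f)
    (𝒱 : Finset (ValuationSubring F)) (hO : ∀ x : F, GInt R ϖ t x ↔ ∀ V ∈ 𝒱, x ∈ V)
    (V₃ : ValuationSubring F) (hV₃ : V₃ ∈ 𝒱)
    (𝔫 : Ideal (Chart R t)) (h𝔫 : 𝔫.IsPrime)
    (hP𝔫 : ∀ y : Chart R t, V₃.valuation (y : F) < 1 → y ∈ 𝔫)
    (hsep : ∀ V ∈ 𝒱, V ≠ V₃ → ∃ g : Chart R t, V.valuation (g : F) < 1 ∧ g ∉ 𝔫)
    (ϖM : Chart R t) (hϖM : (ϖM : F) = algebraMap R F ϖ)
    (b : F) (hbm : V₃.valuation b < 1)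
    (hb₃ : ∀ x : F, V₃.valuation x < 1 → V₃.valuation x ≤ V₃.valuation b)
    (hbV : ∀ V ∈ 𝒱, V ≠ V₃ → V.valuation b = 1)
    (q : ℕ) (hq2 : 2 ≤ q) (a s c d : Chart R t) (ha0 : a ≠ 0) (has : (a : F) = b * (s : F))
    (hs : s ∉ 𝔫) (hc : c ∉ 𝔫) (heis : a ^ (q - 1) * d = ϖM * c)
    (u : Chart R t) (hu𝔫 : u ∈ 𝔫) (huV : V₃.valuation (u : F) = 1)
    (hunif : ∀ y ∈ 𝔫, ∃ s c : Chart R t, s ∉ 𝔫 ∧ V₃.valuation ((s : F) * y - c * u) < 1) :
    L1At R ϖ t 𝔫 n f := by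
  haveI : IsNoetherianRing (Chart R t) := H22BR.chart_noeth R K ht
  set P : Ideal (Chart R t) :=
    compIdeal R V₃ (fun y => chart_mem_of_hO R K hϖ ht 𝒱 hO hV₃ y) with hPdef
  have hP : P.IsPrime := compIdeal_isPrime R V₃ _
  have hPle : P ≤ 𝔫 := fun y hy => hP𝔫 y hy
  have hsV : V₃.valuation (s : F) ≤ 1 :=
    (V₃.valuation_le_one_iff _).2 (chart_mem_of_hO R K hϖ ht 𝒱 hO hV₃ s)
  have haP : a ∈ P := by
    rw [hPdef, mem_compIdeal, has, map_mul]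
    calc V₃.valuation b * V₃.valuation (s : F) ≤ V₃.valuation b * 1 := by gcongr
      _ < 1 := by rw [mul_one]; exact hbm
  have huP : u ∉ P := by
    intro h
    have : V₃.valuation (u : F) < 1 := h
    rw [huV] at this
    exact lt_irrefl _ this
  have hP0 : P ≠ ⊥ := by
    intro h
    rw [h] at haP
    exact ha0 ((Ideal.mem_bot).1 haP)
  have hPne : P ≠ 𝔫 := by
    intro h
    rw [← h] at hu𝔫
    exact huP hu𝔫
  exact H26LU.l1At_of_two_gen R K ϖ hϖ ht n hn f hf hdiv 𝔫 h𝔫 P hP hP0 hPle hPne a u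
    (hPle haP) hu𝔫
    (two_gen_cusp3_val R K ϖ hϖ ht 𝒱 hO V₃ hV₃ 𝔫 h𝔫 hP𝔫 hsep ϖM hϖM b hb₃ hbV q hq2 a s c d
      ha0 has hs hc heis u hunif)

end val

end H7C3
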