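/-
helper26: item 86 (S36), slice (L1-STRONG): the STRONG form of (L1) at a two-generator point.

`H4S34.L1At` says `f = ε · zⁿ` with `ε` a VERTICAL unit (`ε ∈ B_𝔫[1/ϖ]ˣ`).  The local gluing
(`H10G3.ToricAt`, GEN3-ASM) needs `ε ∈ B_𝔫ˣ`.  At a point `𝔫` with two local generators (so
`B_𝔫` is factorial) this holds as soon as `v` is a unit at every component through `𝔫`:

* `H26R2.L1StrongAt R t 𝔫 n v` := `∃ ε y, y ≠ 0 ∧ InLoc ε ∧ InLoc ε⁻¹ ∧ ε ≠ 0 ∧ v = ε · yⁿ`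
  (the first clause of `H10G3.ToricAt`);
* `H26R2.l1Strong_of_two_gen` : two generators at `𝔫` + a prime `0 ≠ P ⊊ 𝔫` + `hO`
  (`O_F = ⋂_{V ∈ 𝒱} V`) + `n ∣ div v` + `v_V(v) = 1` for every `V ∈ 𝒱` with `P_V ≤ 𝔫`
  `⟹ L1StrongAt`.
Proof: `B_𝔫` is a UFD (`H26LU.prime_elem_of_two_gen`, `H5CA.h5ca_reg_ufd`); a prime element
`p ∣ ϖ` of `B_𝔫` contracts to a height-one prime of `M₀` containing `ϖ`, i.e. to a component
`P_V` (`H26R2.vert_prime_cases`), and `v_V(v) = 1` makes `v` a unit at `p`; then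
`H26LU.locUFD_unit0`.
-/
import Mathlib
import Fermat.Agent.S36.R2Val_helper26

set_option autoImplicit false
set_option linter.unusedSectionVars false
set_option linter.unusedVariables false
set_option linter.style.haveILetI false
set_option synthInstance.maxHeartbeats 400000
set_option maxHeartbeats 1000000

noncomputable section

namespace H26R2

open Polynomial IntermediateField H7S18 H4S34 AlgebraicCurve IsLocalRing

/-- the strong form of (L1): `v = ε · yⁿ` with `ε` a unit of `B_𝔫`. -/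
def L1StrongAt (R : Type) [CommRing R] {E : Type} [Field E] [Algebra R E] (t : E)
    (𝔫 : Ideal (Chart R t)) (n : ℕ) (v : E) : Prop :=
  ∃ ε y : E, y ≠ 0 ∧ InLoc R t 𝔫 ε ∧ InLoc R t 𝔫 ε⁻¹ ∧ ε ≠ 0 ∧ v = ε * y ^ n

section elem0

variable {A : Type*} [CommRing A] [IsDomain A] [IsNoetherianRing A]
variable {F : Type*} [Field F] [Algebra A F] [IsFractionRing A F]
variable {K : Type*} [Field K] [Algebra K F]

/-- **(L1-STRONG), element form**: `𝔫 A_𝔫 = (g, x)` with `g` prime in `A_𝔫`, `K ⊆ A[1/ϖ]`,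
`n ∣ div f`, and at every height-one prime `𝔭 ≤ 𝔫` containing `ϖ` there is a valuation ring
`V ⊇ A` of `F` with centre `𝔭` and `v_V(f) = 1`.  Then `f = ε · zⁿ` with `ε ∈ A_𝔫ˣ`. -/
theorem locUFD_elem0 (𝔫 : Ideal A) [h𝔫 : 𝔫.IsPrime] (g : A) (hg0 : g ≠ 0) (hg𝔫 : g ∈ 𝔫)
    (hgen : ∃ x ∈ 𝔫, ∀ y ∈ 𝔫, ∃ s a b : A, s ∉ 𝔫 ∧ s * y = a * g + b * x)
    (hprime : ∀ a b : A, (∃ c s : A, s ∉ 𝔫 ∧ s * (a * b) = c * g) →
      (∃ c s : A, s ∉ 𝔫 ∧ s * a = c * g) ∨ (∃ c s : A, s ∉ 𝔫 ∧ s * b = c * g))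
    (ϖ : A) (hϖ0 : ϖ ≠ 0)
    (hK : ∀ c : K, ∃ (k : ℕ) (b : A),
      algebraMap K F c * algebraMap A F ϖ ^ k = algebraMap A F b)
    (n : ℕ) (hn : 0 < n) (f : F) (hf : f ≠ 0)
    (hdiv : ∀ V : Place K F, (n : ℤ) ∣ V.ord f)
    (hunitA : ∀ 𝔭 : Ideal A, 𝔭.IsPrime → 𝔭.height = 1 → 𝔭 ≤ 𝔫 → ϖ ∈ 𝔭 →
      ∃ V : ValuationSubring F, (∀ a : A, algebraMap A F a ∈ V) ∧
        (∀ a : A, V.valuation (algebraMap A F a) < 1 ↔ a ∈ 𝔭) ∧ V.valuation f = 1) :
    ∃ ε z : F, z ≠ 0 ∧ (∃ a s : A, s ∉ 𝔫 ∧ algebraMap A F s * ε = algebraMap A F a) ∧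
      (∃ a s : A, s ∉ 𝔫 ∧ algebraMap A F s * ε⁻¹ = algebraMap A F a) ∧ ε ≠ 0 ∧
      f = ε * z ^ n := by
  classical
  let B := Localization.subalgebra.ofField F 𝔫.primeCompl (H21LR.primeCompl_le 𝔫)
  haveI hBloc : IsLocalization.AtPrime B 𝔫 :=
    Localization.subalgebra.isLocalization_ofField F 𝔫.primeCompl (H21LR.primeCompl_le 𝔫)
  haveI : IsFractionRing B F := inferInstance
  haveI : IsScalarTower A B F := inferInstance
  haveI : IsLocalRing B := IsLocalization.AtPrime.isLocalRing B 𝔫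
  haveI : IsNoetherianRing B := IsLocalization.isNoetherianRing 𝔫.primeCompl B inferInstance
  haveI : IsDomain B := inferInstance
  obtain ⟨x, hx𝔫, hgen'⟩ := hgen
  have hπp : Prime (algebraMap A B g) := H21LR.prime_map (F := F) B 𝔫 g hg0 hg𝔫 hprime
  have hπ : (Ideal.span {algebraMap A B g}).IsPrime :=
    (Ideal.span_singleton_prime hπp.ne_zero).2 hπp
  have hm : maximalIdeal B = Ideal.span {algebraMap A B g, algebraMap A B x} :=
    H21LR.maximalIdeal_eq (F := F) B 𝔫 g x hg𝔫 hx𝔫 hgen'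
  haveI : UniqueFactorizationMonoid B :=
    H5CA.h5ca_reg_ufd (algebraMap A B g) (algebraMap A B x) hπp.ne_zero hπ hm
  have hinj : Function.Injective (algebraMap A B) :=
    IsLocalization.injective B (H21LR.primeCompl_le 𝔫)
  have hinjBF : Function.Injective (algebraMap B F) := IsFractionRing.injective B F
  have hϖB : algebraMap A B ϖ ≠ 0 := fun h0 => hϖ0 (hinj (by rw [h0, map_zero]))
  have hAB : ∀ a : A, algebraMap B F (algebraMap A B a) = algebraMap A F a :=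
    fun a => (IsScalarTower.algebraMap_apply A B F a).symm
  have hK' : ∀ c : K, ∃ (k : ℕ) (b : B),
      algebraMap K F c * algebraMap B F (algebraMap A B ϖ) ^ k = algebraMap B F b := by
    intro c
    obtain ⟨k, b, hb⟩ := hK c
    exact ⟨k, algebraMap A B b, by rw [hAB, hAB]; exact hb⟩
  have hunit : ∀ p : B, Prime p → p ∣ algebraMap A B ϖ →
      ∃ s c : B, ¬ p ∣ s ∧ ¬ p ∣ c ∧ f * algebraMap B F s = algebraMap B F c := by
    intro p hp hpϖ
    haveI hPp : (Ideal.span {p}).IsPrime := (Ideal.span_singleton_prime hp.ne_zero).2 hp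
    set 𝔭 : Ideal A := (Ideal.span {p}).comap (algebraMap A B) with h𝔭
    haveI h𝔭p : 𝔭.IsPrime := Ideal.comap_isPrime _ _
    have hh : 𝔭.height = 1 := by
      have h1 : 𝔭.height = (Ideal.span {p}).height :=
        IsLocalization.height_under 𝔫.primeCompl (Ideal.span {p})
      rw [h1]
      apply le_antisymm
      · haveI : (Ideal.span {p}).IsPrincipal := ⟨⟨p, rfl⟩⟩
        exact Ideal.height_le_one_of_isPrincipal_of_mem_minimalPrimes (Ideal.span {p})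
          (Ideal.span {p}) ⟨⟨hPp, le_rfl⟩, fun q hq hle => hq.2⟩
      · rw [Order.one_le_iff_ne_zero]
        intro h0
        have hb := Ideal.height_eq_zero_iff_eq_bot.1 h0
        rw [Ideal.span_singleton_eq_bot] at hb
        exact hp.ne_zero hb
    have hϖ𝔭 : ϖ ∈ 𝔭 := by
      rw [h𝔭, Ideal.mem_comap, Ideal.mem_span_singleton]
      exact hpϖ
    have h𝔭le : 𝔭 ≤ 𝔫 := by
      intro y hy
      rw [h𝔭, Ideal.mem_comap] at hy
      have h1 : algebraMap A B y ∈ maximalIdeal B :=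
        (IsLocalRing.le_maximalIdeal hPp.ne_top) hy
      exact (IsLocalization.AtPrime.to_map_mem_maximal_iff B 𝔫 y).1 h1
    obtain ⟨V, hmem, hcen, hVv⟩ := hunitA 𝔭 h𝔭p hh h𝔭le hϖ𝔭
    have hden : ∀ s : A, s ∉ 𝔫 → V.valuation (algebraMap A F s) = 1 := by
      intro s hs
      have hle : V.valuation (algebraMap A F s) ≤ 1 := (V.valuation_le_one_iff _).2 (hmem s)
      refine le_antisymm hle ?_
      by_contra hlt
      rw [not_le] at hlt
      exact hs (h𝔭le ((hcen s).1 hlt))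
    have hBV : ∀ b : B, (V.valuation (algebraMap B F b) < 1 ↔ p ∣ b) ∧
        V.valuation (algebraMap B F b) ≤ 1 := by
      intro b
      obtain ⟨a, s, rfl⟩ := IsLocalization.exists_mk'_eq 𝔫.primeCompl b
      have e : algebraMap B F (IsLocalization.mk' B a s) * algebraMap A F (s : A) =
          algebraMap A F a := by
        rw [← hAB (s : A), ← map_mul, IsLocalization.mk'_spec, hAB]
      have hs1 := hden s s.2
      have hval_eq : V.valuation (algebraMap B F (IsLocalization.mk' B a s)) =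
          V.valuation (algebraMap A F a) := by
        rw [← e, map_mul, hs1, mul_one]
      rw [hval_eq]
      refine ⟨?_, (V.valuation_le_one_iff _).2 (hmem a)⟩
      have hsu : IsUnit (algebraMap A B (s : A)) := IsLocalization.map_units B s
      have h1 : p ∣ IsLocalization.mk' B a s ↔ a ∈ 𝔭 := by
        rw [h𝔭, Ideal.mem_comap, Ideal.mem_span_singleton, ← IsLocalization.mk'_spec B a s]
        exact (hsu.dvd_mul_right).symm
      rw [h1]
      exact hcen a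
    obtain ⟨c₀, s₀, hs₀, hvs⟩ := IsFractionRing.div_surjective (A := B) f
    have hs₀0 : s₀ ≠ 0 := nonZeroDivisors.ne_zero hs₀
    have hs₀F : algebraMap B F s₀ ≠ 0 := fun h0 => hs₀0 (hinjBF (by rw [h0, map_zero]))
    have hc₀0 : c₀ ≠ 0 := by
      rintro rfl
      rw [map_zero, zero_div] at hvs
      exact hf hvs.symm
    obtain ⟨i, c, hc, hci⟩ := WfDvdMonoid.max_power_factor hc₀0 hp.irreducible
    obtain ⟨j, s, hs, hsj⟩ := WfDvdMonoid.max_power_factor hs₀0 hp.irreducible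
    have hpF : algebraMap B F p ≠ 0 := fun h0 => hp.ne_zero (hinjBF (by rw [h0, map_zero]))
    have hVp : V.valuation (algebraMap B F p) < 1 := (hBV p).1.2 dvd_rfl
    have hVp0 : V.valuation (algebraMap B F p) ≠ 0 := (V.valuation.ne_zero_iff).2 hpF
    have hVc : V.valuation (algebraMap B F c) = 1 :=
      le_antisymm (hBV c).2 (not_lt.1 (fun h => hc ((hBV c).1.1 h)))
    have hVs : V.valuation (algebraMap B F s) = 1 :=
      le_antisymm (hBV s).2 (not_lt.1 (fun h => hs ((hBV s).1.1 h)))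
    have e : f * (algebraMap B F p ^ j * algebraMap B F s) =
        algebraMap B F p ^ i * algebraMap B F c := by
      rw [← map_pow, ← map_pow, ← map_mul, ← map_mul, ← hsj, ← hci, ← hvs]
      field_simp
    have e2 : V.valuation (algebraMap B F p) ^ j = V.valuation (algebraMap B F p) ^ i := by
      have := congrArg V.valuation e
      rw [map_mul, map_mul, map_mul, map_pow, map_pow, hVv, hVs, hVc, one_mul, mul_one,
        mul_one] at this
      exact this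
    have hij : i = j := by
      rcases lt_trichotomy i j with h | h | h
      · exfalso
        have := pow_lt_pow_right_of_lt_one₀ (zero_lt_iff.2 hVp0) hVp h
        rw [e2] at this
        exact lt_irrefl _ this
      · exact h
      · exfalso
        have := pow_lt_pow_right_of_lt_one₀ (zero_lt_iff.2 hVp0) hVp h
        rw [e2] at this
        exact lt_irrefl _ this
    refine ⟨s, c, hs, hc, ?_⟩
    rw [hij] at e
    have hpj : algebraMap B F p ^ j ≠ 0 := pow_ne_zero _ hpF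
    apply mul_left_cancel₀ hpj
    rw [← e]
    ring
  obtain ⟨z, u, hz, hvu⟩ := H26LU.locUFD_unit0 (K := K) (algebraMap A B ϖ) hϖB hK'
    n hn f hf hdiv hunit
  have huF : algebraMap B F (u : B) ≠ 0 := fun h0 => u.ne_zero (hinjBF (by rw [h0, map_zero]))
  refine ⟨algebraMap B F (u : B), z, hz, ?_, ?_, huF, by rw [hvu, mul_comm]⟩
  · exact (H21LR.mem_range_iff (F := F) B 𝔫 _).1 ⟨(u : B), rfl⟩
  · have hinv : (algebraMap B F (u : B))⁻¹ = algebraMap B F ((u⁻¹ : Bˣ) : B) := by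
      rw [inv_eq_iff_eq_inv, ← mul_eq_one_iff_eq_inv₀
        (fun h0 => (u⁻¹).ne_zero (hinjBF (by rw [h0, map_zero]))), ← map_mul]
      rw [Units.mul_inv, map_one]
    rw [hinv]
    exact (H21LR.mem_range_iff (F := F) B 𝔫 _).1 ⟨((u⁻¹ : Bˣ) : B), rfl⟩

end elem0

section strong

variable (R : Type) [CommRing R] [IsDomain R] [IsDiscreteValuationRing R]
  (K : Type) [Field K] [CharZero K] [Algebra R K] [IsFractionRing R K]
  {F : Type} [Field F] [Algebra K F] [Algebra R F] [IsScalarTower R K F]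

/-- **(L1-STRONG) at a two-generator point.** -/
theorem l1Strong_of_two_gen (ϖ : R) (hϖ : Irreducible ϖ) {t : F} (ht : Transcendental K t)
    [hfin : FiniteDimensional K⟮t⟯ F] (n : ℕ) (hn : 0 < n) (v : F) (hv : v ≠ 0)
    (hdiv : ∀ V : Place K F, (n : ℤ) ∣ V.ord v)
    (𝒱 : Finset (ValuationSubring F)) (hO : ∀ x : F, GInt R ϖ t x ↔ ∀ V ∈ 𝒱, x ∈ V)
    (𝔫 : Ideal (Chart R t)) (h𝔫 : 𝔫.IsPrime) (P : Ideal (Chart R t)) (hP : P.IsPrime)
    (hP0 : P ≠ ⊥) (hPle : P ≤ 𝔫) (hPne : P ≠ 𝔫) (g x : Chart R t) (hg𝔫 : g ∈ 𝔫) (hx𝔫 : x ∈ 𝔫)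
    (hgen : ∀ y ∈ 𝔫, ∃ s a b : Chart R t, s ∉ 𝔫 ∧ (s : F) * y = a * (g : F) + b * x)
    (hval : ∀ V ∈ 𝒱, (∀ y : Chart R t, V.valuation (y : F) < 1 → y ∈ 𝔫) → V.valuation v = 1) :
    L1StrongAt R t 𝔫 n v := by
  classical
  haveI := hfin
  haveI : IsNoetherianRing (Chart R t) := H21LR.chart_noeth R K ht
  haveI : IsFractionRing (Chart R t) F := H21LR.chart_isFractionRing R K ht
  haveI : 𝔫.IsPrime := h𝔫
  have hinjR : Function.Injective (algebraMap R F) := H19S18.h19_algebraMap_injective R K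
  have hϖF : algebraMap R F ϖ ≠ 0 := fun h0 => hϖ.ne_zero (hinjR (by rw [h0, map_zero]))
  let ϖM : Chart R t :=
    algebraMap (Algebra.adjoin R {t}) (Chart R t) (algebraMap R (Algebra.adjoin R {t}) ϖ)
  have hϖMcoe : (ϖM : F) = algebraMap R F ϖ := rfl
  have hcoe : ∀ a : Chart R t, algebraMap (Chart R t) F a = (a : F) := fun _ => rfl
  have hϖM0 : ϖM ≠ 0 := by
    intro h0
    apply hϖF
    rw [← hϖMcoe, h0]
    rfl
  have hgen' : ∀ y ∈ 𝔫, ∃ s a b : Chart R t, s ∉ 𝔫 ∧ s * y = a * g + b * x := by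
    intro y hy
    obtain ⟨s, a, b, hs, e⟩ := hgen y hy
    refine ⟨s, a, b, hs, Subtype.ext ?_⟩
    push_cast
    rw [e]
  obtain ⟨hg0, hprime⟩ := H26LU.prime_elem_of_two_gen (A := Chart R t) F 𝔫 P hP hP0 hPle hPne
    g x hg𝔫 hx𝔫 hgen'
  have hK : ∀ c : K, ∃ (k : ℕ) (b : Chart R t),
      algebraMap K F c * algebraMap (Chart R t) F ϖM ^ k = algebraMap (Chart R t) F b := by
    intro c
    obtain ⟨r₁, r₂, hr₂, rfl⟩ := IsFractionRing.div_surjective (A := R) c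
    have hr₂0 : r₂ ≠ 0 := nonZeroDivisors.ne_zero hr₂
    obtain ⟨k, u, hu⟩ := IsDiscreteValuationRing.associated_pow_irreducible hr₂0 hϖ
    refine ⟨k, algebraMap (Algebra.adjoin R {t}) (Chart R t)
      (algebraMap R (Algebra.adjoin R {t}) (r₁ * u)), ?_⟩
    have hb : algebraMap (Chart R t) F (algebraMap (Algebra.adjoin R {t}) (Chart R t)
      (algebraMap R (Algebra.adjoin R {t}) (r₁ * u))) = algebraMap R F (r₁ * u) := rfl
    rw [hb, hcoe, hϖMcoe, map_div₀, ← IsScalarTower.algebraMap_apply R K F,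
      ← IsScalarTower.algebraMap_apply R K F, ← map_pow, ← hu, map_mul, map_mul]
    have hr₂F : algebraMap R F r₂ ≠ 0 := fun h0 => hr₂0 (hinjR (by rw [h0, map_zero]))
    field_simp
  have hunitA : ∀ 𝔭 : Ideal (Chart R t), 𝔭.IsPrime → 𝔭.height = 1 → 𝔭 ≤ 𝔫 → ϖM ∈ 𝔭 →
      ∃ V : ValuationSubring F, (∀ a : Chart R t, algebraMap (Chart R t) F a ∈ V) ∧
        (∀ a : Chart R t, V.valuation (algebraMap (Chart R t) F a) < 1 ↔ a ∈ 𝔭) ∧
        V.valuation v = 1 := by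
    intro 𝔭 h𝔭p hh h𝔭le hϖ𝔭
    have hϖ𝔭' : ∀ y : Chart R t, (y : F) = algebraMap R F ϖ → y ∈ 𝔭 := by
      intro y hy
      have : y = ϖM := Subtype.ext (by rw [hy, hϖMcoe])
      rw [this]
      exact hϖ𝔭
    obtain ⟨V, hV, h𝔭V⟩ := vert_prime_cases R K hϖ ht 𝒱 hO 𝔭 h𝔭p hh hϖ𝔭'
    refine ⟨V, fun a => chart_mem_of_hO R K hϖ ht 𝒱 hO hV a, fun a => ?_, ?_⟩
    · rw [h𝔭V]
      exact Iff.rfl
    · exact hval V hV (fun y hy => h𝔭le (by rw [h𝔭V]; exact hy))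
  obtain ⟨ε, z, hz, h1, h2, hε0, hvε⟩ :=
    locUFD_elem0 (A := Chart R t) (F := F) (K := K) 𝔫 g hg0 hg𝔫 ⟨x, hx𝔫, hgen'⟩ hprime ϖM hϖM0
      hK n hn v hv hdiv hunitA
  exact ⟨ε, z, hz, h1, h2, hε0, hvε⟩

/-- **(R2) ⟹ two generators**, valuation form (the two-generator statement behind
`H26R2.l1At_R2_val`): `𝔫 B_𝔫 = (φ x'', u)`. -/
theorem two_gen_R2_val (ϖ : R) (hϖ : Irreducible ϖ) {t : F} (ht : Transcendental K t)
    [hfin : FiniteDimensional K⟮t⟯ F]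
    (𝒱 : Finset (ValuationSubring F)) (hO : ∀ x : F, GInt R ϖ t x ↔ ∀ V ∈ 𝒱, x ∈ V)
    (V₀ : ValuationSubring F) (hV₀ : V₀ ∈ 𝒱)
    (hϖV₀ : V₀.valuation (algebraMap R F ϖ) < 1)
    (hϖ₀ : ∀ x : F, V₀.valuation x < 1 → V₀.valuation x ≤ V₀.valuation (algebraMap R F ϖ))
    (hcrt : ∃ e : F, V₀.valuation (e - 1) < 1 ∧
      ∀ V ∈ 𝒱, V ≠ V₀ → V.valuation e ≤ V.valuation (algebraMap R F ϖ))
    (𝔫 : Ideal (Chart R t)) (h𝔫 : 𝔫.IsPrime)
    (hP𝔫 : ∀ y : Chart R t, V₀.valuation (y : F) < 1 → y ∈ 𝔫)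
    (u : Chart R t)
    (hunif : ∀ y ∈ 𝔫, ∃ s c : Chart R t, s ∉ 𝔫 ∧ V₀.valuation ((s : F) * y - c * u) < 1)
    {A : Type*} [CommRing A] [IsDomain A] [IsIntegrallyClosed A]
    (φ : A →+* Chart R t) (hφ : Function.Injective φ) (hint : φ.IsIntegral)
    (ϖA : A) (hϖA : ((φ ϖA : Chart R t) : F) = algebraMap R F ϖ)
    (x'' : A) (hx0 : x'' ≠ 0) (hxV : V₀.valuation ((φ x'' : Chart R t) : F) < 1)
    (hprin : ∀ y : A, V₀.valuation ((φ y : Chart R t) : F) < 1 →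
      ∃ s c : A, φ s ∉ 𝔫 ∧ s * y = c * x'')
    (hother : ∀ V ∈ 𝒱, V ≠ V₀ → ∃ y : A,
      ¬ (V.valuation ((φ y : Chart R t) : F) < 1 ↔ V₀.valuation ((φ y : Chart R t) : F) < 1)) :
    ∀ y ∈ 𝔫, ∃ s c d : Chart R t, s ∉ 𝔫 ∧ (s : F) * y = c * ((φ x'' : Chart R t) : F) + d * u := by
  haveI : IsNoetherianRing (Chart R t) := H22BR.chart_noeth R K ht
  set P : Ideal (Chart R t) :=
    compIdeal R V₀ (fun y => chart_mem_of_hO R K hϖ ht 𝒱 hO hV₀ y) with hPdef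
  have hP : P.IsPrime := compIdeal_isPrime R V₀ _
  have hPle : P ≤ 𝔫 := fun y hy => hP𝔫 y hy
  haveI hP'' : (P.comap φ).IsPrime := Ideal.comap_isPrime φ P
  have hxP'' : x'' ∈ P.comap φ := hxV
  have hϖP'' : ϖA ∈ P.comap φ := by
    change V₀.valuation ((φ ϖA : Chart R t) : F) < 1
    rw [hϖA]
    exact hϖV₀
  have huniq : ∀ p : Ideal (Chart R t), p.IsPrime → p.height = 1 → p ≤ 𝔫 →
      p.comap φ = P.comap φ → p = P := by
    intro p hp hh hple hpc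
    have hϖp : ∀ y : Chart R t, (y : F) = algebraMap R F ϖ → y ∈ p := by
      intro y hy
      have h1 : ϖA ∈ p.comap φ := by rw [hpc]; exact hϖP''
      have h2 : φ ϖA = y := Subtype.ext (by rw [hϖA, hy])
      rw [← h2]
      exact h1
    obtain ⟨V, hV, hpV⟩ := vert_prime_cases R K hϖ ht 𝒱 hO p hp hh hϖp
    by_cases hVV : V = V₀
    · subst hVV
      exact hpV
    · exfalso
      obtain ⟨y, hy⟩ := hother V hV hVV
      apply hy
      have h1 : φ y ∈ p ↔ φ y ∈ P := by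
        rw [← Ideal.mem_comap, ← Ideal.mem_comap, hpc]
      rw [hpV] at h1
      exact h1
  have honly := only_of_under_ht φ hφ hint 𝔫 P (P.comap φ) x'' hx0 hxP''
    (fun y hy => hprin y hy) huniq
  have hred := hred_of_val R K hϖ ht 𝒱 hO V₀ hV₀ hϖ₀ hcrt (φ ϖA) hϖA
  have hϖx : ∃ s c : Chart R t, s ∉ P ∧ s * φ ϖA = c * φ x'' := by
    obtain ⟨s, c, hs, hsc⟩ := hprin ϖA hϖP''
    refine ⟨φ s, φ c, fun h => hs (hPle h), ?_⟩
    rw [← map_mul, ← map_mul, hsc]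
  have hloc := hloc_of_red P (φ ϖA) (φ x'') hred hϖx
  have ha0 : φ x'' ≠ 0 := fun h => hx0 (hφ (by rw [h, map_zero]))
  have hunif' : ∀ y ∈ 𝔫, ∃ s c : Chart R t, s ∉ 𝔫 ∧ s * y - c * u ∈ P := by
    intro y hy
    obtain ⟨s, c, hs, hsc⟩ := hunif y hy
    refine ⟨s, c, hs, ?_⟩
    change V₀.valuation (((s * y - c * u : Chart R t)) : F) < 1
    push_cast
    exact hsc
  exact chart_two_gen R K ht 𝔫 h𝔫 P (φ x'') u ha0 honly hloc hunif'

/-- **(R1)-final / single-component points ⟹ two generators**, valuation form (the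
two-generator statement behind `H26R2.l1At_val`): `𝔫 B_𝔫 = (a, u)`. -/
theorem two_gen_val (ϖ : R) (hϖ : Irreducible ϖ) {t : F} (ht : Transcendental K t)
    [hfin : FiniteDimensional K⟮t⟯ F]
    (𝒱 : Finset (ValuationSubring F)) (hO : ∀ x : F, GInt R ϖ t x ↔ ∀ V ∈ 𝒱, x ∈ V)
    (V₀ : ValuationSubring F) (hV₀ : V₀ ∈ 𝒱)
    (hϖ₀ : ∀ x : F, V₀.valuation x < 1 → V₀.valuation x ≤ V₀.valuation (algebraMap R F ϖ))
    (hcrt : ∃ e : F, V₀.valuation (e - 1) < 1 ∧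
      ∀ V ∈ 𝒱, V ≠ V₀ → V.valuation e ≤ V.valuation (algebraMap R F ϖ))
    (𝔫 : Ideal (Chart R t)) (h𝔫 : 𝔫.IsPrime)
    (hP𝔫 : ∀ y : Chart R t, V₀.valuation (y : F) < 1 → y ∈ 𝔫)
    (ϖM : Chart R t) (hϖM : (ϖM : F) = algebraMap R F ϖ)
    (a : Chart R t) (ha0 : a ≠ 0)
    (hϖa : ∃ s c : Chart R t, s ∉ 𝔫 ∧ s * ϖM = c * a)
    (hsep : ∀ V ∈ 𝒱, V ≠ V₀ →
      V.valuation (a : F) = 1 ∨ ∃ g : Chart R t, V.valuation (g : F) < 1 ∧ g ∉ 𝔫)
    (u : Chart R t)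
    (hunif : ∀ y ∈ 𝔫, ∃ s c : Chart R t, s ∉ 𝔫 ∧ V₀.valuation ((s : F) * y - c * u) < 1) :
    ∀ y ∈ 𝔫, ∃ s c d : Chart R t, s ∉ 𝔫 ∧ (s : F) * y = c * (a : F) + d * u := by
  set P : Ideal (Chart R t) :=
    compIdeal R V₀ (fun y => chart_mem_of_hO R K hϖ ht 𝒱 hO hV₀ y) with hPdef
  have hprin := principal_val R K ϖ hϖ ht 𝒱 hO V₀ hV₀ hϖ₀ hcrt 𝔫 h𝔫 hP𝔫 ϖM hϖM a ha0 hϖa hsep
  have hunif' : ∀ y ∈ 𝔫, ∃ s c : Chart R t, s ∉ 𝔫 ∧ s * y - c * u ∈ P := by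
    intro y hy
    obtain ⟨s, c, hs, hsc⟩ := hunif y hy
    refine ⟨s, c, hs, ?_⟩
    change V₀.valuation (((s * y - c * u : Chart R t)) : F) < 1
    push_cast
    exact hsc
  have hgen := two_gen_of_principal 𝔫 P a u (fun y hy => hprin y hy) hunif'
  intro y hy
  obtain ⟨s, c, d, hs, h⟩ := hgen y hy
  refine ⟨s, c, d, hs, ?_⟩
  have := congrArg (fun z : Chart R t => (z : F)) h
  simpa using this

/-- **(L1-STRONG) from two generators `(a, u)` with `a ∈ P_{V₀}`, `u ∉ P_{V₀}`** (packaging of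
`l1Strong_of_two_gen` for the outputs of `two_gen_R2_val` / `two_gen_val`). -/
theorem l1Strong_of_two_gen_val (ϖ : R) (hϖ : Irreducible ϖ) {t : F} (ht : Transcendental K t)
    [hfin : FiniteDimensional K⟮t⟯ F] (n : ℕ) (hn : 0 < n) (v : F) (hv : v ≠ 0)
    (hdiv : ∀ V : Place K F, (n : ℤ) ∣ V.ord v)
    (𝒱 : Finset (ValuationSubring F)) (hO : ∀ x : F, GInt R ϖ t x ↔ ∀ V ∈ 𝒱, x ∈ V)
    (V₀ : ValuationSubring F) (hV₀ : V₀ ∈ 𝒱)
    (𝔫 : Ideal (Chart R t)) (h𝔫 : 𝔫.IsPrime)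
    (hP𝔫 : ∀ y : Chart R t, V₀.valuation (y : F) < 1 → y ∈ 𝔫)
    (a u : Chart R t) (ha0 : a ≠ 0) (haV : V₀.valuation (a : F) < 1) (hu𝔫 : u ∈ 𝔫)
    (huV : V₀.valuation (u : F) = 1)
    (hgen : ∀ y ∈ 𝔫, ∃ s c d : Chart R t, s ∉ 𝔫 ∧ (s : F) * y = c * (a : F) + d * u)
    (hval : ∀ V ∈ 𝒱, (∀ y : Chart R t, V.valuation (y : F) < 1 → y ∈ 𝔫) → V.valuation v = 1) :
    L1StrongAt R t 𝔫 n v := by
  set P : Ideal (Chart R t) :=
    compIdeal R V₀ (fun y => chart_mem_of_hO R K hϖ ht 𝒱 hO hV₀ y) with hPdef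
  have hP : P.IsPrime := compIdeal_isPrime R V₀ _
  have hPle : P ≤ 𝔫 := fun y hy => hP𝔫 y hy
  have huP : u ∉ P := by
    intro h
    have : V₀.valuation (u : F) < 1 := h
    rw [huV] at this
    exact lt_irrefl _ this
  have hP0 : P ≠ ⊥ := by
    intro h
    have : a ∈ P := haV
    rw [h] at this
    exact ha0 ((Ideal.mem_bot).1 this)
  have hPne : P ≠ 𝔫 := by
    intro h
    rw [← h] at hu𝔫
    exact huP hu𝔫
  exact l1Strong_of_two_gen R K ϖ hϖ ht n hn v hv hdiv 𝒱 hO 𝔫 h𝔫 P hP hP0 hPle hPne a u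
    (hPle haV) hu𝔫 hgen hval

end strong

end H26R2
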