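/-
helper2: item 86 (S36), leaf (L1U-ALL) = classification skeleton for the first half of
`H10G3.Gen3At` (the strong form of (L1), `H26R2.L1StrongAt`) at EVERY closed point of a chart.

Generic setting of S34/S36 (`R` DVR, `K = Frac R`, `F / K(t)` finite, `M₀ = Chart R t`),
`𝒱 = {V₁, V₂, V₃}` with `O_F = ⋂_{V ∈ 𝒱} V` (`hO`).

* `H2L1.exists_comp_le` : every closed point `𝔫` of the special fibre lies on a component:
  `∃ V ∈ 𝒱, P_V ≤ 𝔫` (Krull's principal ideal theorem + `H26R2.vert_prime_cases`);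
* `H2L1.through_iff` : `P_V ≤ 𝔫 ↔ H10G3.Through R t 𝔫 V`;
* `H2L1.compIdeal_not_isMaximal` : a component `P_V` is not a closed point;
* `H2L1.twoGenAt_of_gens` : at a closed point, `g, x ∈ 𝔫` with `𝔫 B_𝔫 = (g, x)` give `TwoGenAt`
  (so the producers (R2), (R3), (CUSP3) only have to deliver the two generators);
* `H2L1.TwoGenAt R t 𝔫` : the two-generator package at `𝔫` (the weakest form consumed by
  `H26R2.l1Strong_of_two_gen`; implied by the outputs of `H26R2.two_gen_R2_val`,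
  `H26R2.two_gen_val` together with `u ∈ 𝔫`, `v_{V₀}(u) = 1`, see `H2L1.twoGenAt_of_val`);
* `H2L1.l1uAll` : **(L1U-ALL)**.  If
    (R2)    `TwoGenAt` at every closed point through `V₁` or `V₂`,
    (R3)    `TwoGenAt` at every closed point through `V₃` only at which `j` is regular,
    (CUSP3) `TwoGenAt` at every closed point through `V₃` only at which `j` is not regular,
  and `n ∣ div v`, `v` a unit at `V₁, V₂, V₃`, then `L1StrongAt R t 𝔫 n v` at EVERY closed point.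
* `H2L1.L1UAllStatement` : the same as a `Prop` (proved: `H2L1.l1uAllStatement`).
-/
import Mathlib
import Fermat.Agent.S36.L1Strong_helper26
import Fermat.Agent.S36.LocWire_helper10

set_option autoImplicit false
set_option linter.unusedSectionVars false
set_option linter.unusedVariables false
set_option linter.style.haveILetI false
set_option synthInstance.maxHeartbeats 400000
set_option maxHeartbeats 1000000

noncomputable section

namespace H2L1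

open Polynomial IntermediateField H7S18 H4S34 AlgebraicCurve

section Defs

variable (R : Type) [CommRing R] {F : Type} [Field F] [Algebra R F]

/-- **two generators at `𝔫`**: a prime `0 ≠ P ⊊ 𝔫` and `g, x ∈ 𝔫` with `𝔫 B_𝔫 = (g, x)`. -/
def TwoGenAt (t : F) (𝔫 : Ideal (Chart R t)) : Prop :=
  ∃ P : Ideal (Chart R t), P.IsPrime ∧ P ≠ ⊥ ∧ P ≤ 𝔫 ∧ P ≠ 𝔫 ∧
    ∃ g x : Chart R t, g ∈ 𝔫 ∧ x ∈ 𝔫 ∧
      ∀ y ∈ 𝔫, ∃ s a b : Chart R t, s ∉ 𝔫 ∧ (s : F) * y = a * (g : F) + b * x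

/-- `P_V ≤ 𝔫`, in element form. -/
def CompLe (t : F) (𝔫 : Ideal (Chart R t)) (V : ValuationSubring F) : Prop :=
  ∀ y : Chart R t, V.valuation (y : F) < 1 → y ∈ 𝔫

end Defs

section Gen

variable (R : Type) [CommRing R] [IsDomain R] [IsDiscreteValuationRing R]
  (K : Type) [Field K] [CharZero K] [Algebra R K] [IsFractionRing R K]
  {F : Type} [Field F] [Algebra K F] [Algebra R F] [IsScalarTower R K F]

/-- `P_V ≤ 𝔫 ↔ V` passes through `𝔫`. -/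
theorem through_iff {t : F} (𝔫 : Ideal (Chart R t)) (V : ValuationSubring F)
    (hchart : ∀ y : Chart R t, (y : F) ∈ V) :
    CompLe R t 𝔫 V ↔ H10G3.Through R t 𝔫 V := by
  constructor
  · intro h s hs
    refine le_antisymm ((V.valuation_le_one_iff _).2 (hchart s)) ?_
    by_contra hlt
    rw [not_le] at hlt
    exact hs (h s hlt)
  · intro h y hy
    by_contra hy𝔫
    rw [h y hy𝔫] at hy
    exact lt_irrefl _ hy

/-- the two-generator package from the valuation form `(a, u)`, `a ∈ P_{V₀}`, `u ∈ 𝔫 ∖ P_{V₀}`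
(the shape of the outputs of `H26R2.two_gen_R2_val` / `H26R2.two_gen_val`). -/
theorem twoGenAt_of_val {t : F} (𝔫 : Ideal (Chart R t)) (V₀ : ValuationSubring F)
    (hchart : ∀ y : Chart R t, (y : F) ∈ V₀)
    (hP𝔫 : CompLe R t 𝔫 V₀)
    (a u : Chart R t) (ha0 : a ≠ 0) (haV : V₀.valuation (a : F) < 1) (hu𝔫 : u ∈ 𝔫)
    (huV : V₀.valuation (u : F) = 1)
    (hgen : ∀ y ∈ 𝔫, ∃ s c d : Chart R t, s ∉ 𝔫 ∧ (s : F) * y = c * (a : F) + d * u) :
    TwoGenAt R t 𝔫 := by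
  refine ⟨H26R2.compIdeal R V₀ hchart, H26R2.compIdeal_isPrime R V₀ hchart, ?_, ?_, ?_,
    a, u, hP𝔫 a haV, hu𝔫, hgen⟩
  · intro h
    have : a ∈ H26R2.compIdeal R V₀ hchart := haV
    rw [h] at this
    exact ha0 ((Ideal.mem_bot).1 this)
  · intro y hy
    exact hP𝔫 y hy
  · intro h
    have : u ∈ H26R2.compIdeal R V₀ hchart := by rw [h]; exact hu𝔫
    have h1 : V₀.valuation (u : F) < 1 := this
    rw [huV] at h1
    exact lt_irrefl _ h1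

/-- **every closed point of the special fibre lies on a component** `P_V`, `V ∈ 𝒱`. -/
theorem exists_comp_le (ϖ : R) (hϖ : Irreducible ϖ) {t : F} (ht : Transcendental K t)
    [hfin : FiniteDimensional K⟮t⟯ F]
    (𝒱 : Finset (ValuationSubring F)) (hO : ∀ x : F, GInt R ϖ t x ↔ ∀ V ∈ 𝒱, x ∈ V)
    (𝔫 : Ideal (Chart R t)) (h𝔫 : IsClosedPt R ϖ t 𝔫) :
    ∃ V ∈ 𝒱, CompLe R t 𝔫 V ∧ V.valuation (algebraMap R F ϖ) < 1 := by
  classical
  haveI := hfin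
  haveI : IsNoetherianRing (Chart R t) := H22BR.chart_noeth R K ht
  haveI h𝔫p : 𝔫.IsPrime := h𝔫.1.isPrime
  have hinjR : Function.Injective (algebraMap R F) := H19S18.h19_algebraMap_injective R K
  have hϖF : algebraMap R F ϖ ≠ 0 := fun h0 => hϖ.ne_zero (hinjR (by rw [h0, map_zero]))
  let ϖM : Chart R t :=
    algebraMap (Algebra.adjoin R {t}) (Chart R t) (algebraMap R (Algebra.adjoin R {t}) ϖ)
  have hϖMcoe : (ϖM : F) = algebraMap R F ϖ := rfl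
  have hϖM0 : ϖM ≠ 0 := by
    intro h0
    apply hϖF
    rw [← hϖMcoe, h0]
    rfl
  have hϖ𝔫 : ϖM ∈ 𝔫 := h𝔫.2 ϖM hϖMcoe
  have hle : Ideal.span {ϖM} ≤ 𝔫 := by
    rw [Ideal.span_le]
    intro x hx
    rw [Set.mem_singleton_iff] at hx
    rw [hx]
    exact hϖ𝔫
  obtain ⟨p, hpmin, hp𝔫⟩ := Ideal.exists_minimalPrimes_le hle
  haveI hpp : p.IsPrime := hpmin.1.1
  have hϖp : ϖM ∈ p := hpmin.1.2 (Ideal.subset_span rfl)
  have hh : p.height = 1 := by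
    apply le_antisymm
    · haveI : (Ideal.span {ϖM}).IsPrincipal := ⟨⟨ϖM, rfl⟩⟩
      exact Ideal.height_le_one_of_isPrincipal_of_mem_minimalPrimes (Ideal.span {ϖM}) p hpmin
    · rw [Order.one_le_iff_ne_zero]
      intro h0
      have hb := Ideal.height_eq_zero_iff_eq_bot.1 h0
      rw [hb] at hϖp
      exact hϖM0 ((Ideal.mem_bot).1 hϖp)
  have hϖp' : ∀ y : Chart R t, (y : F) = algebraMap R F ϖ → y ∈ p := by
    intro y hy
    have : y = ϖM := Subtype.ext (by rw [hy, hϖMcoe])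
    rw [this]
    exact hϖp
  obtain ⟨V, hV, hpV⟩ := H26R2.vert_prime_cases R K hϖ ht 𝒱 hO p hpp hh hϖp'
  refine ⟨V, hV, fun y hy => hp𝔫 ?_, ?_⟩
  · rw [hpV]
    exact hy
  · have h1 : ϖM ∈ H26R2.compIdeal R V
        (fun y => H26R2.chart_mem_of_hO R K hϖ ht 𝒱 hO hV y) := by
      rw [← hpV]
      exact hϖp
    exact h1

/-- **a component is not a closed point**: `P_V` is not a maximal ideal of the chart
(`M₀ / P_V ⊇ k[t]` is not a field). -/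
theorem compIdeal_not_isMaximal (ϖ : R) (hϖ : Irreducible ϖ) {t : F} (ht : Transcendental K t)
    [hfin : FiniteDimensional K⟮t⟯ F]
    (𝒱 : Finset (ValuationSubring F)) (hO : ∀ x : F, GInt R ϖ t x ↔ ∀ V ∈ 𝒱, x ∈ V)
    (V : ValuationSubring F) (hV : V ∈ 𝒱) (hmem : ∀ y : Chart R t, (y : F) ∈ V) :
    ¬ (H26R2.compIdeal R V hmem).IsMaximal := by
  intro hmax
  have htR := H19S18.h19_transc R K ht
  haveI := hmax
  have hmaxA : ((H26R2.compIdeal R V hmem).comap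
      (algebraMap (Algebra.adjoin R {t}) (Chart R t))).IsMaximal :=
    Ideal.isMaximal_comap_of_isIntegral_of_isMaximal (H26R2.compIdeal R V hmem)
  have hmemA : ∀ a : Algebra.adjoin R {t},
      a ∈ (H26R2.compIdeal R V hmem).comap (algebraMap (Algebra.adjoin R {t}) (Chart R t)) ↔
        V.valuation ((a : F)) < 1 := fun a => Iff.rfl
  let tA : Algebra.adjoin R {t} := ⟨t, Algebra.self_mem_adjoin_singleton R t⟩
  have htU : IsGaussUnit R ϖ t t := by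
    have := H19S18.h19_gaussUnit_pow_t R htR hϖ 1
    rwa [pow_one] at this
  have htP : tA ∉ (H26R2.compIdeal R V hmem).comap
      (algebraMap (Algebra.adjoin R {t}) (Chart R t)) := by
    intro h
    have h1 : V.valuation t < 1 := (hmemA tA).1 h
    rw [H26R2.gaussUnit_val R K hϖ ht 𝒱 hO hV htU] at h1
    exact lt_irrefl _ h1
  obtain ⟨y, i, hi, hyi⟩ := hmaxA.exists_inv htP
  obtain ⟨q, hq⟩ := Algebra.adjoin_mem_exists_aeval R t y.2
  have hiF : ((i : Algebra.adjoin R {t}) : F) = aeval t (1 - q * X) := by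
    have h1 := congrArg (fun z : Algebra.adjoin R {t} => (z : F)) hyi
    have h2 : ((y * tA + i : Algebra.adjoin R {t}) : F) = (y : F) * t + (i : F) := rfl
    have h3 : ((1 : Algebra.adjoin R {t}) : F) = 1 := rfl
    simp only [h2, h3] at h1
    rw [map_sub, map_one, map_mul, aeval_X, hq]
    rw [← h1]
    ring
  have hU : IsGaussUnit R ϖ t (aeval t (1 - q * X)) := by
    apply (H19S18.h19_gaussUnit_aeval_iff R htR ϖ _).mpr
    rw [Polynomial.C_dvd_iff_dvd_coeff]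
    intro h
    have h0 := h 0
    rw [coeff_sub, coeff_one_zero, mul_coeff_zero, coeff_X_zero, mul_zero, sub_zero] at h0
    exact hϖ.not_isUnit (isUnit_of_dvd_one h0)
  have h1 : V.valuation ((i : F)) < 1 := (hmemA i).1 hi
  rw [hiF, H26R2.gaussUnit_val R K hϖ ht 𝒱 hO hV hU] at h1
  exact lt_irrefl _ h1

/-- **two generators are enough**: at a closed point `𝔫` of the special fibre, two elements
`g, x ∈ 𝔫` generating `𝔫 B_𝔫` give the package `TwoGenAt` (the prime `P` is a component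
through `𝔫`). -/
theorem twoGenAt_of_gens (ϖ : R) (hϖ : Irreducible ϖ) {t : F} (ht : Transcendental K t)
    [hfin : FiniteDimensional K⟮t⟯ F]
    (𝒱 : Finset (ValuationSubring F)) (hO : ∀ x : F, GInt R ϖ t x ↔ ∀ V ∈ 𝒱, x ∈ V)
    (𝔫 : Ideal (Chart R t)) (h𝔫 : IsClosedPt R ϖ t 𝔫)
    (g x : Chart R t) (hg𝔫 : g ∈ 𝔫) (hx𝔫 : x ∈ 𝔫)
    (hgen : ∀ y ∈ 𝔫, ∃ s a b : Chart R t, s ∉ 𝔫 ∧ (s : F) * y = a * (g : F) + b * x) :
    TwoGenAt R t 𝔫 := by
  obtain ⟨V, hV, hle, hϖV⟩ := exists_comp_le R K ϖ hϖ ht 𝒱 hO 𝔫 h𝔫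
  have hmem : ∀ y : Chart R t, (y : F) ∈ V :=
    fun y => H26R2.chart_mem_of_hO R K hϖ ht 𝒱 hO hV y
  refine ⟨H26R2.compIdeal R V hmem, H26R2.compIdeal_isPrime R V hmem, ?_, fun y hy => hle y hy,
    ?_, g, x, hg𝔫, hx𝔫, hgen⟩
  · intro h
    let ϖM : Chart R t :=
      algebraMap (Algebra.adjoin R {t}) (Chart R t) (algebraMap R (Algebra.adjoin R {t}) ϖ)
    have hϖMcoe : (ϖM : F) = algebraMap R F ϖ := rfl
    have h1 : ϖM ∈ H26R2.compIdeal R V hmem := by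
      change V.valuation ((ϖM : F)) < 1
      rw [hϖMcoe]
      exact hϖV
    rw [h] at h1
    have h2 : ϖM = 0 := (Ideal.mem_bot).1 h1
    have hinjR : Function.Injective (algebraMap R F) := H19S18.h19_algebraMap_injective R K
    apply hϖ.ne_zero
    apply hinjR
    rw [map_zero, ← hϖMcoe, h2]
    rfl
  · intro h
    apply compIdeal_not_isMaximal R K ϖ hϖ ht 𝒱 hO V hV hmem
    rw [h]
    exact h𝔫.1

/-- **(L1U-ALL)**: the strong form of (L1) at EVERY closed point of the chart `t`, from the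
two-generator statements (R2), (R3), (CUSP3). -/
theorem l1uAll (ϖ : R) (hϖ : Irreducible ϖ) {t : F} (ht : Transcendental K t)
    [hfin : FiniteDimensional K⟮t⟯ F] (n : ℕ) (hn : 0 < n) (v : F) (hv : v ≠ 0)
    (hdiv : ∀ V : Place K F, (n : ℤ) ∣ V.ord v)
    (V₁ V₂ V₃ : ValuationSubring F)
    (𝒱 : Finset (ValuationSubring F)) (h𝒱 : ∀ V, V ∈ 𝒱 ↔ V = V₁ ∨ V = V₂ ∨ V = V₃)
    (hO : ∀ x : F, GInt R ϖ t x ↔ ∀ V ∈ 𝒱, x ∈ V)
    (hval : ∀ V ∈ 𝒱, V.valuation v = 1) (j : F)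
    (hR2 : ∀ 𝔫 : Ideal (Chart R t), IsClosedPt R ϖ t 𝔫 →
      (H10G3.Through R t 𝔫 V₁ ∨ H10G3.Through R t 𝔫 V₂) → TwoGenAt R t 𝔫)
    (hR3 : ∀ 𝔫 : Ideal (Chart R t), IsClosedPt R ϖ t 𝔫 →
      ¬ H10G3.Through R t 𝔫 V₁ → ¬ H10G3.Through R t 𝔫 V₂ → H10G3.Through R t 𝔫 V₃ →
      InLoc R t 𝔫 j → TwoGenAt R t 𝔫)
    (hC3 : ∀ 𝔫 : Ideal (Chart R t), IsClosedPt R ϖ t 𝔫 →
      ¬ H10G3.Through R t 𝔫 V₁ → ¬ H10G3.Through R t 𝔫 V₂ → H10G3.Through R t 𝔫 V₃ →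
      ¬ InLoc R t 𝔫 j → TwoGenAt R t 𝔫)
    (𝔫 : Ideal (Chart R t)) (h𝔫 : IsClosedPt R ϖ t 𝔫) :
    H26R2.L1StrongAt R t 𝔫 n v := by
  classical
  have hchart : ∀ V ∈ 𝒱, ∀ y : Chart R t, (y : F) ∈ V :=
    fun V hV y => H26R2.chart_mem_of_hO R K hϖ ht 𝒱 hO hV y
  have h1 : V₁ ∈ 𝒱 := (h𝒱 V₁).2 (Or.inl rfl)
  have h2 : V₂ ∈ 𝒱 := (h𝒱 V₂).2 (Or.inr (Or.inl rfl))
  have h3 : V₃ ∈ 𝒱 := (h𝒱 V₃).2 (Or.inr (Or.inr rfl))
  -- the two generators
  have htwo : TwoGenAt R t 𝔫 := by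
    by_cases hT1 : H10G3.Through R t 𝔫 V₁
    · exact hR2 𝔫 h𝔫 (Or.inl hT1)
    by_cases hT2 : H10G3.Through R t 𝔫 V₂
    · exact hR2 𝔫 h𝔫 (Or.inr hT2)
    have hT3 : H10G3.Through R t 𝔫 V₃ := by
      obtain ⟨V, hV, hle, -⟩ := exists_comp_le R K ϖ hϖ ht 𝒱 hO 𝔫 h𝔫
      have hT := (through_iff R 𝔫 V (hchart V hV)).1 hle
      rcases (h𝒱 V).1 hV with rfl | rfl | rfl
      · exact absurd hT hT1
      · exact absurd hT hT2
      · exact hT
    by_cases hj : InLoc R t 𝔫 j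
    · exact hR3 𝔫 h𝔫 hT1 hT2 hT3 hj
    · exact hC3 𝔫 h𝔫 hT1 hT2 hT3 hj
  obtain ⟨P, hP, hP0, hPle, hPne, g, x, hg𝔫, hx𝔫, hgen⟩ := htwo
  exact H26R2.l1Strong_of_two_gen R K ϖ hϖ ht n hn v hv hdiv 𝒱 hO 𝔫 h𝔫.1.isPrime P hP hP0 hPle
    hPne g x hg𝔫 hx𝔫 hgen (fun V hV _ => hval V hV)

end Gen

/-- **(L1U-ALL)** as a statement. -/
def L1UAllStatement : Prop :=
  ∀ (R : Type) [CommRing R] [IsDomain R] [IsDiscreteValuationRing R]
    (K : Type) [Field K] [CharZero K] [Algebra R K] [IsFractionRing R K]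
    (F : Type) [Field F] [Algebra K F] [Algebra R F] [IsScalarTower R K F]
    (ϖ : R) (_ : Irreducible ϖ) (t : F) (_ : Transcendental K t)
    (_ : FiniteDimensional K⟮t⟯ F) (n : ℕ) (_ : 0 < n) (v : F) (_ : v ≠ 0)
    (_ : ∀ V : Place K F, (n : ℤ) ∣ V.ord v)
    (V₁ V₂ V₃ : ValuationSubring F)
    (𝒱 : Finset (ValuationSubring F)) (_ : ∀ V, V ∈ 𝒱 ↔ V = V₁ ∨ V = V₂ ∨ V = V₃)
    (_ : ∀ x : F, GInt R ϖ t x ↔ ∀ V ∈ 𝒱, x ∈ V)
    (_ : ∀ V ∈ 𝒱, V.valuation v = 1) (j : F)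
    (_ : ∀ 𝔫 : Ideal (Chart R t), IsClosedPt R ϖ t 𝔫 →
      (H10G3.Through R t 𝔫 V₁ ∨ H10G3.Through R t 𝔫 V₂) → TwoGenAt R t 𝔫)
    (_ : ∀ 𝔫 : Ideal (Chart R t), IsClosedPt R ϖ t 𝔫 →
      ¬ H10G3.Through R t 𝔫 V₁ → ¬ H10G3.Through R t 𝔫 V₂ → H10G3.Through R t 𝔫 V₃ →
      InLoc R t 𝔫 j → TwoGenAt R t 𝔫)
    (_ : ∀ 𝔫 : Ideal (Chart R t), IsClosedPt R ϖ t 𝔫 →
      ¬ H10G3.Through R t 𝔫 V₁ → ¬ H10G3.Through R t 𝔫 V₂ → H10G3.Through R t 𝔫 V₃ →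
      ¬ InLoc R t 𝔫 j → TwoGenAt R t 𝔫)
    (𝔫 : Ideal (Chart R t)) (_ : IsClosedPt R ϖ t 𝔫),
    H26R2.L1StrongAt R t 𝔫 n v

theorem l1uAllStatement : L1UAllStatement := by
  intro R _ _ _ K _ _ _ _ F _ _ _ _ ϖ hϖ t ht hfin n hn v hv hdiv V₁ V₂ V₃ 𝒱 h𝒱 hO hval j
    hR2 hR3 hC3 𝔫 h𝔫
  haveI := hfin
  exact l1uAll R K ϖ hϖ ht n hn v hv hdiv V₁ V₂ V₃ 𝒱 h𝒱 hO hval j hR2 hR3 hC3 𝔫 h𝔫

end H2L1
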