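import Mathlib
import Fermat.Agent.S36.Cusp3Val_helper7
import Fermat.Agent.S36.L1UAll_helper2

/-!
# helper7 — item 86 (S36), slice (R4) = (CUSP3): the cusps, `Through` language

Generic setting of `H2L1` / `H10G3` (`R` a DVR, `K = Frac R`, `F / K(t)` finite, chart
`M₀ = Chart R t`, components = valuation rings of `F` containing `M₀`).
`J₀ = j(z)`, `J₁ = j(qz)`, `J₂ = j(q² z)` elements of `F`, `Φ` the modular polynomial of level `q`.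
A CUSP is a prime `𝔫` of `M₀` with `1/J₀ ∈ 𝔫 B_𝔫` (`hU`).

* `H7C3.cusp_not_both_val` : two components `V, V'` with the Kronecker congruences
  `1/J' ≡ (1/J)^q` at `V`, `1/J ≡ (1/J')^q` at `V'` do not both pass through a cusp.
* `H7C3.cusp3_sep_val`     : at most one of `V₁, V₂, V₃` passes through a cusp.
* `H7C3.cusp3_eis_val`     : the Eisenstein element at a cusp on `V₃`.
* `H7C3.twoGenAt_cusp3`    : `H2L1.TwoGenAt` at a cusp on `V₃` only  (= the slot `hC3` of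
  `H2L1.l1uAll`).
-/

set_option autoImplicit false
set_option linter.unusedSectionVars false
set_option linter.unusedVariables false
set_option linter.style.haveILetI false
set_option synthInstance.maxHeartbeats 400000

noncomputable section

namespace H7C3

open Polynomial IntermediateField H7S18 H4S34 AlgebraicCurve H26R2 H27CS H2L1

section thr

variable (R : Type) [CommRing R] [IsDomain R] [IsDiscreteValuationRing R]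
  (K : Type) [Field K] [CharZero K] [Algebra R K] [IsFractionRing R K]
  {F : Type} [Field F] [Algebra K F] [Algebra R F] [IsScalarTower R K F]

/-- stability of `𝔪(V)` under `x ↦ x m / s`. -/
theorem val_mul_div_lt {t : F} (V : ValuationSubring F) (hchart : ∀ y : Chart R t, (y : F) ∈ V)
    (x : F) (m s : Chart R t) (hs : s ∉ compIdeal R V hchart) (hx : V.valuation x < 1) :
    V.valuation (x * (m : F) / (s : F)) < 1 := by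
  have hs1 : V.valuation (s : F) = 1 := by
    refine le_antisymm ((V.valuation_le_one_iff _).2 (hchart s)) ?_
    by_contra hlt
    exact hs (not_le.1 hlt)
  have hm : V.valuation (m : F) ≤ 1 := (V.valuation_le_one_iff _).2 (hchart m)
  rw [map_div₀, map_mul, hs1, div_one]
  calc V.valuation x * V.valuation (m : F) ≤ V.valuation x * 1 := by gcongr
    _ < 1 := by rw [mul_one]; exact hx

/-- **two components with opposite Kronecker congruences do not both pass through a cusp.** -/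
theorem cusp_not_both_val {t : F} [hfin : FiniteDimensional K⟮t⟯ F] {q : ℕ} [NeZero q]
    (hq2 : 2 ≤ q) {Φ : Polynomial (Polynomial ℤ)} (hΦ : IsModPoly q Φ)
    (hmon : Φ.Monic) (hdeg : Φ.natDegree = q + 1) {J J' : F} (hJ' : J' ≠ 0)
    (h : ev2 Φ J J' = 0)
    (𝔫 : Ideal (Chart R t)) (h𝔫 : 𝔫.IsPrime)
    (hU : ∃ a s : Chart R t, s ∉ 𝔫 ∧ a ∈ 𝔫 ∧ J * (a : F) = (s : F))
    (V V' : ValuationSubring F) (hV : ∀ y : Chart R t, (y : F) ∈ V)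
    (hV' : ∀ y : Chart R t, (y : F) ∈ V')
    (hK : V.valuation (J'⁻¹ - (J⁻¹) ^ q) < 1) (hK' : V'.valuation (J⁻¹ - (J'⁻¹) ^ q) < 1)
    (h1 : ¬ V.valuation J'⁻¹ < 1) (h1' : ¬ V'.valuation J'⁻¹ < 1) :
    ¬ (H10G3.Through R t 𝔫 V ∧ H10G3.Through R t 𝔫 V') := by
  haveI := h𝔫
  haveI hfr : IsFractionRing (Chart R t) F := H22BR.chart_isFractionRing R K t
  haveI hic : IsIntegrallyClosed (Chart R t) := H22BR.chart_intClosed R K t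
  haveI := compIdeal_isPrime R V hV
  haveI := compIdeal_isPrime R V' hV'
  rintro ⟨hT, hT'⟩
  refine cusp_not_both (M := ↥(Chart R t)) (F := F) (p := q) hq2 hΦ hmon hdeg hJ' h 𝔫 ?_
    (compIdeal R V hV) (compIdeal R V' hV')
    (fun x => V.valuation x < 1) (fun x => V'.valuation x < 1)
    (fun m => Iff.rfl) (fun m => Iff.rfl) ?_ ?_ hK hK' h1 h1' ⟨?_, ?_⟩
  · obtain ⟨a, s, hs, ha, e⟩ := hU
    exact ⟨a, s, hs, ha, e⟩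
  · intro x m s hs hx
    exact val_mul_div_lt R V hV x m s hs hx
  · intro x m s hs hx
    exact val_mul_div_lt R V' hV' x m s hs hx
  · exact fun y hy => (through_iff R 𝔫 V hV).2 hT y hy
  · exact fun y hy => (through_iff R 𝔫 V' hV').2 hT' y hy

/-- the cusp condition propagates: `1/J ∈ 𝔫 B_𝔫` and `Φ(J, J') = 0` give `1/J' ∈ 𝔫 B_𝔫`. -/
theorem hU_next_val {t : F} [hfin : FiniteDimensional K⟮t⟯ F] {q : ℕ} [NeZero q]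
    {Φ : Polynomial (Polynomial ℤ)} (hΦ : IsModPoly q Φ)
    (hmon : Φ.Monic) (hdeg : Φ.natDegree = q + 1) {J J' : F} (hJ' : J' ≠ 0)
    (h : ev2 Φ J J' = 0)
    (𝔫 : Ideal (Chart R t)) (h𝔫 : 𝔫.IsPrime)
    (hU : ∃ a s : Chart R t, s ∉ 𝔫 ∧ a ∈ 𝔫 ∧ J * (a : F) = (s : F)) :
    ∃ a s : Chart R t, s ∉ 𝔫 ∧ a ∈ 𝔫 ∧ J' * (a : F) = (s : F) := by
  haveI := h𝔫
  haveI hfr : IsFractionRing (Chart R t) F := H22BR.chart_isFractionRing R K t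
  haveI hic : IsIntegrallyClosed (Chart R t) := H22BR.chart_intClosed R K t
  obtain ⟨a, s, hs, ha, e⟩ := hU_next (M := ↥(Chart R t)) (F := F) (q := q) hΦ hmon hdeg hJ' h 𝔫
    (by obtain ⟨a, s, hs, ha, e⟩ := hU; exact ⟨a, s, hs, ha, e⟩)
  exact ⟨a, s, hs, ha, e⟩

/-- **at most one of the three components passes through a cusp.** -/
theorem cusp3_sep_val {t : F} [hfin : FiniteDimensional K⟮t⟯ F] {q : ℕ} [NeZero q]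
    (hq2 : 2 ≤ q) {Φ : Polynomial (Polynomial ℤ)} (hΦ : IsModPoly q Φ)
    (hmon : Φ.Monic) (hdeg : Φ.natDegree = q + 1) {J₀ J₁ J₂ : F} (hJ₁ : J₁ ≠ 0) (hJ₂ : J₂ ≠ 0)
    (h01 : ev2 Φ J₀ J₁ = 0) (h12 : ev2 Φ J₁ J₂ = 0)
    (𝔫 : Ideal (Chart R t)) (h𝔫 : 𝔫.IsPrime)
    (hU : ∃ a s : Chart R t, s ∉ 𝔫 ∧ a ∈ 𝔫 ∧ J₀ * (a : F) = (s : F))
    (V₁ V₂ V₃ : ValuationSubring F) (hV₁ : ∀ y : Chart R t, (y : F) ∈ V₁)
    (hV₂ : ∀ y : Chart R t, (y : F) ∈ V₂) (hV₃ : ∀ y : Chart R t, (y : F) ∈ V₃)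
    -- Kronecker at `V₁`: `j₁ ≡ j₀^q`, `j₂ ≡ j₁^q`
    (hK₁a : V₁.valuation (J₁⁻¹ - (J₀⁻¹) ^ q) < 1) (hK₁b : V₁.valuation (J₂⁻¹ - (J₁⁻¹) ^ q) < 1)
    -- Kronecker at `V₃`: `j₁ ≡ j₀^q`, `j₁ ≡ j₂^q`
    (hK₃a : V₃.valuation (J₁⁻¹ - (J₀⁻¹) ^ q) < 1) (hK₃b : V₃.valuation (J₁⁻¹ - (J₂⁻¹) ^ q) < 1)
    -- Kronecker at `V₂`: `j₀ ≡ j₁^q`
    (hK₂a : V₂.valuation (J₀⁻¹ - (J₁⁻¹) ^ q) < 1)
    (hu₁ : ¬ V₁.valuation J₁⁻¹ < 1) (hu₂ : ¬ V₂.valuation J₁⁻¹ < 1)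
    (hu₃ : ¬ V₃.valuation J₁⁻¹ < 1)
    (hu₁' : ¬ V₁.valuation J₂⁻¹ < 1) (hu₃' : ¬ V₃.valuation J₂⁻¹ < 1) :
    ¬ (H10G3.Through R t 𝔫 V₁ ∧ H10G3.Through R t 𝔫 V₂) ∧
    ¬ (H10G3.Through R t 𝔫 V₃ ∧ H10G3.Through R t 𝔫 V₂) ∧
    ¬ (H10G3.Through R t 𝔫 V₁ ∧ H10G3.Through R t 𝔫 V₃) :=
  ⟨cusp_not_both_val R K hq2 hΦ hmon hdeg hJ₁ h01 𝔫 h𝔫 hU V₁ V₂ hV₁ hV₂ hK₁a hK₂a hu₁ hu₂,
   cusp_not_both_val R K hq2 hΦ hmon hdeg hJ₁ h01 𝔫 h𝔫 hU V₃ V₂ hV₃ hV₂ hK₃a hK₂a hu₃ hu₂,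
   cusp_not_both_val R K hq2 hΦ hmon hdeg hJ₂ h12 𝔫 h𝔫
     (hU_next_val R K hΦ hmon hdeg hJ₁ h01 𝔫 h𝔫 hU) V₁ V₃ hV₁ hV₃ hK₁b hK₃b hu₁' hu₃'⟩

/-- **the Eisenstein element at a cusp on `V₃`**, valuation form. -/
theorem cusp3_eis_val {t : F} [hfin : FiniteDimensional K⟮t⟯ F] {q : ℕ} [NeZero q]
    (hq : q.Prime) {Φ : Polynomial (Polynomial ℤ)} (hΦ : IsModPoly q Φ)
    (hmon : Φ.Monic) (hdeg : Φ.natDegree = q + 1) {J₀ J₁ J₂ : F} (hJ₁ : J₁ ≠ 0) (hJ₂ : J₂ ≠ 0)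
    (hne : J₂ ≠ J₀)
    (h01 : ev2 Φ J₀ J₁ = 0) (h12 : ev2 Φ J₁ J₂ = 0) (h10 : ev2 Φ J₁ J₀ = 0)
    (𝔫 : Ideal (Chart R t)) (h𝔫 : 𝔫.IsPrime)
    (hU : ∃ a s : Chart R t, s ∉ 𝔫 ∧ a ∈ 𝔫 ∧ J₀ * (a : F) = (s : F))
    (V₃ : ValuationSubring F) (hV₃ : ∀ y : Chart R t, (y : F) ∈ V₃)
    (hT₃ : H10G3.Through R t 𝔫 V₃) (hqV₃ : V₃.valuation ((q : ℕ) : F) < 1)
    (hK₃a : V₃.valuation (J₁⁻¹ - (J₀⁻¹) ^ q) < 1) (hK₃b : V₃.valuation (J₁⁻¹ - (J₂⁻¹) ^ q) < 1)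
    (hu₃ : ¬ V₃.valuation J₁⁻¹ < 1) :
    ∃ a s c d : Chart R t, V₃.valuation (a : F) < 1 ∧ a ≠ 0 ∧ s ∉ 𝔫 ∧ c ∉ 𝔫 ∧ d ∉ 𝔫 ∧
      (a : F) = (J₂ / J₀ - 1) * (s : F) ∧
      a ^ (q - 1) * d = ((q : ℕ) : Chart R t) * c := by
  haveI := h𝔫
  haveI hfr : IsFractionRing (Chart R t) F := H22BR.chart_isFractionRing R K t
  haveI hic : IsIntegrallyClosed (Chart R t) := H22BR.chart_intClosed R K t
  haveI := compIdeal_isPrime R V₃ hV₃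
  have hqP : ((q : ℕ) : Chart R t) ∈ compIdeal R V₃ hV₃ := by
    rw [mem_compIdeal]
    push_cast
    exact hqV₃
  obtain ⟨a, s, c, d, ha, ha0, hs, hc, hd, has, heis⟩ :=
    cusp3_eis (M := ↥(Chart R t)) (F := F) (q := q) hq hΦ hmon hdeg hJ₁ hJ₂ hne h01 h12 h10 𝔫
      (by obtain ⟨a, s, hs, ha, e⟩ := hU; exact ⟨a, s, hs, ha, e⟩)
      (compIdeal R V₃ hV₃) (fun y hy => (through_iff R 𝔫 V₃ hV₃).2 hT₃ y hy) hqP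
      (fun x => V₃.valuation x < 1) (fun m => Iff.rfl)
      (fun x m s hs hx => val_mul_div_lt R V₃ hV₃ x m s hs hx) hK₃a hK₃b hu₃
  exact ⟨a, s, c, d, ha, ha0, hs, hc, hd, has, heis⟩

/-- **two generators at a cusp lying on `V₃` only** (the slot `hC3` of `H2L1.l1uAll`). -/
theorem twoGenAt_cusp3 (ϖ : R) (hϖ : Irreducible ϖ) {t : F} (ht : Transcendental K t)
    [hfin : FiniteDimensional K⟮t⟯ F] {q : ℕ} [NeZero q] (hq : q.Prime)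
    (hϖq : algebraMap R F ϖ = ((q : ℕ) : F))
    (𝒱 : Finset (ValuationSubring F)) (hO : ∀ x : F, GInt R ϖ t x ↔ ∀ V ∈ 𝒱, x ∈ V)
    (V₃ : ValuationSubring F) (hV₃ : V₃ ∈ 𝒱)
    (hϖV₃ : V₃.valuation (algebraMap R F ϖ) < 1)
    {Φ : Polynomial (Polynomial ℤ)} (hΦ : IsModPoly q Φ)
    (hmon : Φ.Monic) (hdeg : Φ.natDegree = q + 1) {J₀ J₁ J₂ : F} (hJ₁ : J₁ ≠ 0) (hJ₂ : J₂ ≠ 0)
    (hne : J₂ ≠ J₀)
    (h01 : ev2 Φ J₀ J₁ = 0) (h12 : ev2 Φ J₁ J₂ = 0) (h10 : ev2 Φ J₁ J₀ = 0)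
    (hK₃a : V₃.valuation (J₁⁻¹ - (J₀⁻¹) ^ q) < 1) (hK₃b : V₃.valuation (J₁⁻¹ - (J₂⁻¹) ^ q) < 1)
    (hu₃ : ¬ V₃.valuation J₁⁻¹ < 1)
    (hb₃ : ∀ x : F, V₃.valuation x < 1 → V₃.valuation x ≤ V₃.valuation (J₂ / J₀ - 1))
    (hbV : ∀ V ∈ 𝒱, V ≠ V₃ → V.valuation (J₂ / J₀ - 1) = 1)
    (𝔫 : Ideal (Chart R t)) (h𝔫 : IsClosedPt R ϖ t 𝔫)
    (hT₃ : H10G3.Through R t 𝔫 V₃)
    (hsep : ∀ V ∈ 𝒱, V ≠ V₃ → ¬ H10G3.Through R t 𝔫 V)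
    (hU : ∃ a s : Chart R t, s ∉ 𝔫 ∧ a ∈ 𝔫 ∧ J₀ * (a : F) = (s : F))
    (u : Chart R t) (hu𝔫 : u ∈ 𝔫)
    (hunif : ∀ y ∈ 𝔫, ∃ s c : Chart R t, s ∉ 𝔫 ∧ V₃.valuation ((s : F) * y - c * u) < 1) :
    TwoGenAt R t 𝔫 := by
  have h𝔫p : 𝔫.IsPrime := h𝔫.1.isPrime
  have hchart : ∀ V ∈ 𝒱, ∀ y : Chart R t, (y : F) ∈ V :=
    fun V hV y => chart_mem_of_hO R K hϖ ht 𝒱 hO hV y
  have hqV₃ : V₃.valuation ((q : ℕ) : F) < 1 := by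
    rw [← hϖq]; exact hϖV₃
  obtain ⟨a, s, c, d, ha, ha0, hs, hc, hd, has, heis⟩ :=
    cusp3_eis_val R K hq hΦ hmon hdeg hJ₁ hJ₂ hne h01 h12 h10 𝔫 h𝔫p hU V₃ (hchart V₃ hV₃) hT₃
      hqV₃ hK₃a hK₃b hu₃
  let ϖM : Chart R t :=
    algebraMap (Algebra.adjoin R {t}) (Chart R t) (algebraMap R (Algebra.adjoin R {t}) ϖ)
  have hϖMcoe : (ϖM : F) = algebraMap R F ϖ := rfl
  have hϖMq : ϖM = ((q : ℕ) : Chart R t) := by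
    apply Subtype.ext
    rw [hϖMcoe, hϖq]
    push_cast
    rfl
  have hsep' : ∀ V ∈ 𝒱, V ≠ V₃ → ∃ g : Chart R t, V.valuation (g : F) < 1 ∧ g ∉ 𝔫 := by
    intro V hV hVV
    have h1 := hsep V hV hVV
    rw [← through_iff R 𝔫 V (hchart V hV)] at h1
    unfold CompLe at h1
    push_neg at h1
    exact h1
  have hgen := two_gen_cusp3_val R K ϖ hϖ ht 𝒱 hO V₃ hV₃ 𝔫 h𝔫p
    (fun y hy => (through_iff R 𝔫 V₃ (hchart V₃ hV₃)).2 hT₃ y hy) hsep' ϖM hϖMcoe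
    (J₂ / J₀ - 1) hb₃ hbV q hq.two_le a s c d ha0 has hs hc (by rw [hϖMq]; exact heis) u hunif
  exact twoGenAt_of_gens R K ϖ hϖ ht 𝒱 hO 𝔫 h𝔫 a u
    ((through_iff R 𝔫 V₃ (hchart V₃ hV₃)).2 hT₃ a ha) hu𝔫 hgen

end thr

end H7C3
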