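/-
helper7: item 86 (S36), **(CUSP3) CONCRETE**: the field `hC3` of `H19LA.PointLeaves` at every
closed point `𝔫` of a chart `c ∈ {t, t⁻¹}` at the level `M q q` over `K₁`
(`R = descVal A K₁`, `ϖ = q`, `F = FK K₁ (M q q)`, `H4S36.cV1 cV2 cV3`, `j = H8TG.J0`):

  `¬ Through cV1 → ¬ Through cV2 → Through cV3 → ¬ InLoc R c 𝔫 J0 → H2L1.TwoGenAt R c 𝔫`.

Inputs: `H7C3.twoGenAt_cusp3` (generic), (i) + (ii) `H27C3.c3_*` (helper27), (A) `H23HU.hU_both`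
(helper23), (CU3) `H9CU.cu3_qq` (helper9), TripleGauss `H8TG.tg_hO` (helper8).
The only hypothesis beyond the standard binders is the discreteness field `hd₃` of the `Triple`.
-/
import Mathlib
import Fermat.Agent.S36.Cusp3Thr_helper7
import Fermat.Agent.S36.Cusp3In_helper27
import Fermat.Agent.S36.Cusp3HU_helper23
import Fermat.Agent.S36.CompUnifQQ_helper9
import Fermat.Agent.S36.TripleTG_helper8
import Fermat.Agent.S36.V3Tri_helper3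

set_option autoImplicit false
set_option synthInstance.maxHeartbeats 400000
set_option maxHeartbeats 1000000
set_option linter.unusedSectionVars false
set_option linter.unusedVariables false
set_option linter.style.longLine false
set_option linter.style.haveILetI false

noncomputable section

open IntermediateField ModularCurve H7S18 H4S34 H26DI H28GV H8TG H4S36

namespace H7C3

section concrete

variable (M : ℕ) [NeZero M] (q : ℕ) [NeZero q] (hq : q.Prime) (hqM : ¬ q ∣ M)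
  (hT : TameLevel q M)
  (A : ValuationSubring (AlgebraicClosure ℚ)) (hA : A.LiesOverPrime q)
  (K₁ : IntermediateField ℚ (AlgebraicClosure ℚ)) (hfin : FiniteDimensional ℚ K₁)
  (hunr : Irreducible ((q : ℕ) : ↥(descVal A K₁)))
  (hζe : ∃ ζ' : K₁, IsPrimitiveRoot ζ' (branchIndex (baseKind q) M))
  (K₃ : IntermediateField ℚ (AlgebraicClosure ℚ)) (hfin₃ : FiniteDimensional ℚ K₃)
  (h13 : K₁ ≤ K₃) (ζ : (↥K₃)ˣ) (hζ : IsPrimitiveRoot ζ q)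
  [IsDiscreteValuationRing ↥(descVal A K₁)] [IsDiscreteValuationRing ↥(descVal A K₃)]
  [Algebra ↥(descVal A K₁) (FK K₁ (M * q * q))]
  [IsScalarTower ↥(descVal A K₁) K₁ (FK K₁ (M * q * q))]
  (t₀ : LaurentSeries ℚ) (ht₀ : IsBase (baseKind q) t₀)
  (t : FK K₁ (M * q * q)) (ht : (t : LaurentSeries K₁) = coeffEmb K₁ t₀)

include hT ht₀ ht in
/-- field basics for the chart `c ∈ {t, t⁻¹}` at the level `M q q` -/
theorem conc_basics (c : FK K₁ (M * q * q)) (hc : c = t ∨ c = t⁻¹) :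
    Transcendental K₁ t ∧ Transcendental K₁ c ∧ FiniteDimensional K₁⟮c⟯ (FK K₁ (M * q * q)) := by
  obtain ⟨htr, hcfin, -, -⟩ :=
    H9CU.sq_basics M q hT K₁ (M * q * q) ⟨q * q, by ring⟩ t₀ ht₀ t ht c hc
  refine ⟨htr, ?_, hcfin⟩
  rcases hc with rfl | rfl
  · exact htr
  · exact H19S18.h19_transc_inv K₁ htr

include hq hqM hT hA hfin hunr hfin₃ h13 hζ ht₀ ht in
/-- `hO` in the chart `c`, triple form -/
theorem conc_hO3 (c : FK K₁ (M * q * q)) (hc : c = t ∨ c = t⁻¹) (x : FK K₁ (M * q * q)) :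
    GInt ↥(descVal A K₁) ((q : ℕ) : ↥(descVal A K₁)) c x ↔
      x ∈ cV1 K₁ (descVal A K₁) M q ∧ x ∈ cV2 K₁ (descVal A K₁) M q hq hqM ∧
        x ∈ cV3 K₁ M q hq hqM K₃ (descVal A K₃) h13 ζ hζ := by
  obtain ⟨htr, -, -⟩ := conc_basics M q hT K₁ t₀ ht₀ t ht c hc
  have h0 := tg_hO M q hq hqM hT A hA K₁ hfin hunr K₃ hfin₃ h13 ζ hζ t₀ ht₀ t ht x
  rcases hc with rfl | rfl
  · exact h0
  · have htR : Transcendental ↥(descVal A K₁) t := H19S18.h19_transc _ K₁ htr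
    have htR' : Transcendental ↥(descVal A K₁) t⁻¹ :=
      H19S18.h19_transc _ K₁ (H19S18.h19_transc_inv K₁ htr)
    rw [H19S18.h19_gint_inv_iff _ htR htR' hunr x]
    exact h0

include hq hA in
/-- `v₃(q) < 1` -/
theorem conc_hqV3 :
    (cV3 K₁ M q hq hqM K₃ (descVal A K₃) h13 ζ hζ).valuation
      (algebraMap ↥(descVal A K₁) (FK K₁ (M * q * q)) ((q : ℕ) : ↥(descVal A K₁))) < 1 := by
  haveI : Fact q.Prime := ⟨hq⟩
  have hqR := h8tg_hqR q A hA K₃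
  have h := (H3V3.V3_const_lt (descVal A K₃) (M * q * q) q h13 hq (sq_dvd_level M q)
    (cube_not_dvd_level M q hq hqM) ζ hζ ((q : ℕ) : ↥K₁)).2 (by
      rw [map_natCast]; exact hqR)
  rw [map_natCast] at h
  rw [map_natCast]
  exact h

include hq hqM hT hA hfin hunr hζe hfin₃ h13 hζ ht₀ ht in
/-- **(CUSP3), concrete**: two generators at the cusps lying on `C₃` only. -/
theorem hC3_conc
    (hd₃ : ∀ x : FK K₁ (M * q * q), x ≠ 0 →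
      ∃ k : ℤ, OrdAt (cV3 K₁ M q hq hqM K₃ (descVal A K₃) h13 ζ hζ) (cb3 K₁ M q) x k)
    (c : FK K₁ (M * q * q)) (hc : c = t ∨ c = t⁻¹)
    (𝔫 : Ideal (Chart ↥(descVal A K₁) c))
    (h𝔫 : IsClosedPt ↥(descVal A K₁) ((q : ℕ) : ↥(descVal A K₁)) c 𝔫)
    (h1 : ¬ H10G3.Through ↥(descVal A K₁) c 𝔫 (cV1 K₁ (descVal A K₁) M q))
    (h2 : ¬ H10G3.Through ↥(descVal A K₁) c 𝔫 (cV2 K₁ (descVal A K₁) M q hq hqM))
    (h3 : H10G3.Through ↥(descVal A K₁) c 𝔫 (cV3 K₁ M q hq hqM K₃ (descVal A K₃) h13 ζ hζ))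
    (hj : ¬ InLoc ↥(descVal A K₁) c 𝔫 (H8TG.J0 ↥K₁ (M * q * q))) :
    H2L1.TwoGenAt ↥(descVal A K₁) c 𝔫 := by
  classical
  haveI : Fact q.Prime := ⟨hq⟩
  obtain ⟨-, hcharp₁⟩ := H1S18.c7Perfect q A hA K₁
  haveI := hcharp₁
  obtain ⟨-, hcharp₃⟩ := H1S18.c7Perfect q A hA K₃
  haveI := hcharp₃
  obtain ⟨htr, hctr, hcfin⟩ := conc_basics M q hT K₁ t₀ ht₀ t ht c hc
  haveI := hcfin
  have ht0 : t ≠ 0 := by
    rintro rfl
    exact htr isAlgebraic_zero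
  have hqR := h8tg_hqR q A hA K₃
  -- the components
  let 𝒱 : Finset (ValuationSubring (FK K₁ (M * q * q))) :=
    {cV1 K₁ (descVal A K₁) M q, cV2 K₁ (descVal A K₁) M q hq hqM,
      cV3 K₁ M q hq hqM K₃ (descVal A K₃) h13 ζ hζ}
  have h𝒱 : ∀ V, V ∈ 𝒱 ↔ V = cV1 K₁ (descVal A K₁) M q ∨
      V = cV2 K₁ (descVal A K₁) M q hq hqM ∨
      V = cV3 K₁ M q hq hqM K₃ (descVal A K₃) h13 ζ hζ := by
    intro V
    simp only [𝒱, Finset.mem_insert, Finset.mem_singleton]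
  have hO : ∀ x : FK K₁ (M * q * q),
      GInt ↥(descVal A K₁) ((q : ℕ) : ↥(descVal A K₁)) c x ↔ ∀ V ∈ 𝒱, x ∈ V := by
    intro x
    rw [conc_hO3 M q hq hqM hT A hA K₁ hfin hunr K₃ hfin₃ h13 ζ hζ t₀ ht₀ t ht c hc x]
    constructor
    · rintro ⟨h1, h2, h3⟩ V hV
      rcases (h𝒱 V).1 hV with h | h | h
      · rw [h]; exact h1
      · rw [h]; exact h2
      · rw [h]; exact h3
    · intro h
      exact ⟨h _ ((h𝒱 _).2 (Or.inl rfl)), h _ ((h𝒱 _).2 (Or.inr (Or.inl rfl))),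
        h _ ((h𝒱 _).2 (Or.inr (Or.inr rfl)))⟩
  have hV₃ : cV3 K₁ M q hq hqM K₃ (descVal A K₃) h13 ζ hζ ∈ 𝒱 :=
    (h𝒱 _).2 (Or.inr (Or.inr rfl))
  -- the modular polynomial
  obtain ⟨Φ, hΦ⟩ := H28S28.h10_exists_modPoly q (H28S28.h10_hasModEq_all q hq)
  -- the uniformizer
  have hbV : ∀ V ∈ 𝒱, V ≠ cV3 K₁ M q hq hqM K₃ (descVal A K₃) h13 ζ hζ →
      V.valuation (H27C3.cJ2 K₁ M q / H27C3.cJ0 K₁ M q - 1) = 1 := by
    intro V hV hne3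
    rcases (h𝒱 V).1 hV with h | h | h
    · rw [h]; exact H27C3.c3_hbV1 K₁ (descVal A K₁) M q
    · rw [h]; exact H27C3.c3_hbV2 K₁ (descVal A K₁) M q hq hqM
    · exact absurd h hne3
  have hsep : ∀ V ∈ 𝒱, V ≠ cV3 K₁ M q hq hqM K₃ (descVal A K₃) h13 ζ hζ →
      ¬ H10G3.Through ↥(descVal A K₁) c 𝔫 V := by
    intro V hV hne3
    rcases (h𝒱 V).1 hV with h | h | h
    · rw [h]; exact h1
    · rw [h]; exact h2
    · exact absurd h hne3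
  have hU := H23HU.hU_both (M * q * q) q hq A hA K₁ hfin t₀ ht₀ t ht ht0
    (H8TG.J0 ↥K₁ (M * q * q)) rfl c hc 𝔫 h𝔫.1.isPrime hj
  obtain ⟨u, hu𝔫, hunif⟩ := H9CU.cu3_qq M q hq hqM hT A hA K₁ hfin hunr hζe K₃ hfin₃ h13 ζ hζ
    t₀ ht₀ t ht c hc 𝔫 h𝔫 h3
  exact twoGenAt_cusp3 ↥(descVal A K₁) K₁ ((q : ℕ) : ↥(descVal A K₁)) hunr hctr hq
    (map_natCast _ q) 𝒱 hO _ hV₃
    (conc_hqV3 M q hq hqM A hA K₁ K₃ h13 ζ hζ)
    hΦ.2.2 hΦ.1 hΦ.2.1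
    (H27C3.cJ1_ne_zero K₁ M q) (H27C3.cJ2_ne_zero K₁ M q) (H27C3.cJ2_ne_cJ0 K₁ M q hq)
    (H27C3.c3_h01 K₁ M q Φ hΦ) (H27C3.c3_h12 K₁ M q Φ hΦ) (H27C3.c3_h10 K₁ M q Φ hΦ)
    (H27C3.c3_hK3a K₁ M q hq hqM K₃ (descVal A K₃) h13 ζ hζ)
    (H27C3.c3_hK3b K₁ M q hq hqM K₃ (descVal A K₃) h13 ζ hζ)
    (H27C3.c3_hu3 K₁ M q hq hqM K₃ (descVal A K₃) h13 ζ hζ)
    (fun x hx => H27C3.c3_hb3 K₁ M q hq hqM K₃ (descVal A K₃) h13 ζ hζ hqR hd₃ x hx)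
    hbV 𝔫 h𝔫 h3 hsep hU u hu𝔫 hunif

end concrete

end H7C3

end
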