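import Mathlib
import Fermat.Agent.S36.Tri_helper18
import Fermat.Agent.S36.LocWire_helper10

/-!
# Item 86 (S36), slice (DICH3), generic part (helper18)

Second half of `H10G3.Gen3At`: at a closed point `𝔫` of a chart of level `M q q`, either all
of `V₁, V₂, V₃` pass through `𝔫` or at most one of them does.

Generic mechanism (`H18D3.le_of_unique_point`): `f : A → B` injective integral, `A` normal,
`P` the only prime of `B` over `P'`, `B / P` radicial over `A / P'` locally at `𝔫 ∩ A`.  Then a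
point `𝔫` with `P' ≤ 𝔫 ∩ A` is the only point of `B` over `𝔫 ∩ A`, so (going-up) EVERY prime
`Q` of `B` with `Q ∩ A ≤ 𝔫 ∩ A` lies in `𝔫`.

* `α` (`V₂` the only component over `V₂'`, radicial; `V₁, V₃ ↦ V₁'`):
  `V₂, V₃ ∋ 𝔫 ⇒ V₁ ∋ 𝔫` and `V₂, V₁ ∋ 𝔫 ⇒ V₃ ∋ 𝔫`;
* `β` (`V₁` the only component over `V₁'`, radicial; `V₃, V₂ ↦ V₂'`): `V₁, V₃ ∋ 𝔫 ⇒ V₂ ∋ 𝔫`.

Valuation forms: `H18D3.through_of_unique`, `H18D3.dich3_of_imp`, `H18D3.dich3_val`.
-/

set_option autoImplicit false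
set_option synthInstance.maxHeartbeats 400000
set_option linter.unusedSectionVars false
set_option linter.unusedVariables false
set_option linter.style.haveILetI false

noncomputable section

open H4S34

namespace H18D3

section ideal

variable {A : Type*} [CommRing A] [IsDomain A] [IsIntegrallyClosed A]
variable {B : Type*} [CommRing B] [IsDomain B]

/-- **the unique point over `𝔫 ∩ A` lies on every component whose image passes through
`𝔫 ∩ A`**. -/
theorem le_of_unique_point (φ : A →+* B) (hφ : Function.Injective φ) (hint : φ.IsIntegral)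
    (P' : Ideal A) [hP' : P'.IsPrime] (P : Ideal B)
    (huniq : ∀ p : Ideal B, p.IsPrime → p.comap φ = P' → p = P)
    (𝔫 : Ideal B) (h𝔫 : 𝔫.IsPrime) (hle : P' ≤ 𝔫.comap φ)
    (hpi : ∀ b : B, ∃ m : ℕ, 0 < m ∧ ∃ s a : A, s ∉ 𝔫.comap φ ∧ φ s * b ^ m - φ a ∈ P)
    (Q : Ideal B) (hQ : Q.IsPrime) (hQle : Q.comap φ ≤ 𝔫.comap φ) : Q ≤ 𝔫 := by
  letI : Algebra A B := φ.toAlgebra
  haveI : Algebra.IsIntegral A B := ⟨hint⟩
  haveI : (𝔫.comap φ).IsPrime := Ideal.comap_isPrime φ 𝔫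
  obtain ⟨𝔪, hQ𝔪, h𝔪, hc⟩ :=
    Ideal.exists_ideal_over_prime_of_isIntegral_of_isPrime (𝔫.comap φ) Q hQle
  have hc' : 𝔪.comap φ = 𝔫.comap φ := hc
  have h := (H18TR.tri_unique φ hφ hint (𝔫.comap φ) P' hle P huniq hpi 𝔪 𝔫 h𝔪 h𝔫 hc' rfl).1
  rw [← h]
  exact hQ𝔪

/-- **(DICH3), ideal form**, with two maps `fα : Aα → B`, `fβ : Aβ → B`. -/
theorem dich3_ideal {Aβ : Type*} [CommRing Aβ] [IsDomain Aβ] [IsIntegrallyClosed Aβ]
    (fα : A →+* B) (hfα : Function.Injective fα) (hintα : fα.IsIntegral)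
    (fβ : Aβ →+* B) (hfβ : Function.Injective fβ) (hintβ : fβ.IsIntegral)
    (P₁ P₂ P₃ : Ideal B) (h₁ : P₁.IsPrime) (h₂ : P₂.IsPrime) (h₃ : P₃.IsPrime)
    (hα13 : P₁.comap fα = P₃.comap fα) (hβ23 : P₂.comap fβ = P₃.comap fβ)
    (huniqα : ∀ p : Ideal B, p.IsPrime → p.comap fα = P₂.comap fα → p = P₂)
    (huniqβ : ∀ p : Ideal B, p.IsPrime → p.comap fβ = P₁.comap fβ → p = P₁)
    (𝔫 : Ideal B) (h𝔫 : 𝔫.IsPrime)
    (hpiα : ∀ b : B, ∃ m : ℕ, 0 < m ∧ ∃ s a : A, s ∉ 𝔫.comap fα ∧ fα s * b ^ m - fα a ∈ P₂)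
    (hpiβ : ∀ b : B, ∃ m : ℕ, 0 < m ∧ ∃ s a : Aβ, s ∉ 𝔫.comap fβ ∧ fβ s * b ^ m - fβ a ∈ P₁) :
    (P₂ ≤ 𝔫 → P₃ ≤ 𝔫 → P₁ ≤ 𝔫) ∧ (P₂ ≤ 𝔫 → P₁ ≤ 𝔫 → P₃ ≤ 𝔫) ∧
      (P₁ ≤ 𝔫 → P₃ ≤ 𝔫 → P₂ ≤ 𝔫) := by
  haveI : (P₂.comap fα).IsPrime := Ideal.comap_isPrime fα P₂
  haveI : (P₁.comap fβ).IsPrime := Ideal.comap_isPrime fβ P₁
  refine ⟨fun a b => ?_, fun a b => ?_, fun a b => ?_⟩
  · exact le_of_unique_point fα hfα hintα (P₂.comap fα) P₂ huniqα 𝔫 h𝔫 (Ideal.comap_mono a)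
      hpiα P₁ h₁ (by rw [hα13]; exact Ideal.comap_mono b)
  · exact le_of_unique_point fα hfα hintα (P₂.comap fα) P₂ huniqα 𝔫 h𝔫 (Ideal.comap_mono a)
      hpiα P₃ h₃ (by rw [← hα13]; exact Ideal.comap_mono b)
  · exact le_of_unique_point fβ hfβ hintβ (P₁.comap fβ) P₁ huniqβ 𝔫 h𝔫 (Ideal.comap_mono a)
      hpiβ P₂ h₂ (by rw [hβ23]; exact Ideal.comap_mono b)

end ideal

section val

variable (R : Type) [CommRing R] {F : Type} [Field F] [Algebra R F]

/-- the centre of `V` on the chart `c`. -/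
def centre (c : F) (V : ValuationSubring F) (hmem : ∀ y : Chart R c, (y : F) ∈ V) :
    Ideal (Chart R c) where
  carrier := {y | V.valuation (y : F) < 1}
  add_mem' := by
    intro a b ha hb
    change V.valuation ((a : F)) < 1 at ha
    change V.valuation ((b : F)) < 1 at hb
    change V.valuation (((a + b : Chart R c) : F)) < 1
    push_cast
    exact lt_of_le_of_lt (V.valuation.map_add _ _) (max_lt ha hb)
  zero_mem' := by
    change V.valuation (((0 : Chart R c) : F)) < 1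
    push_cast
    rw [map_zero]
    exact zero_lt_one
  smul_mem' := by
    intro x a ha
    change V.valuation ((a : F)) < 1 at ha
    change V.valuation (((x * a : Chart R c) : F)) < 1
    push_cast
    rw [map_mul]
    have hc : V.valuation (x : F) ≤ 1 := (V.valuation_le_one_iff _).2 (hmem x)
    calc V.valuation (x : F) * V.valuation (a : F) ≤ 1 * V.valuation (a : F) :=
          mul_le_mul_left hc _
      _ = V.valuation (a : F) := one_mul _
      _ < 1 := ha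

theorem mem_centre (c : F) (V : ValuationSubring F) (hmem : ∀ y : Chart R c, (y : F) ∈ V)
    (y : Chart R c) : y ∈ centre R c V hmem ↔ V.valuation (y : F) < 1 := Iff.rfl

theorem centre_isPrime (c : F) (V : ValuationSubring F)
    (hmem : ∀ y : Chart R c, (y : F) ∈ V) : (centre R c V hmem).IsPrime := by
  refine ⟨?_, ?_⟩
  · intro h
    have : (1 : Chart R c) ∈ centre R c V hmem := by rw [h]; exact Submodule.mem_top
    rw [mem_centre] at this
    push_cast at this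
    rw [map_one] at this
    exact lt_irrefl _ this
  · intro a b hab
    rw [mem_centre] at hab
    push_cast at hab
    rw [map_mul] at hab
    by_contra hcon
    rw [not_or, mem_centre, mem_centre, not_lt, not_lt] at hcon
    have ha : V.valuation (a : F) = 1 :=
      le_antisymm ((V.valuation_le_one_iff _).2 (hmem a)) hcon.1
    have hb : V.valuation (b : F) = 1 :=
      le_antisymm ((V.valuation_le_one_iff _).2 (hmem b)) hcon.2
    rw [ha, hb, one_mul] at hab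
    exact lt_irrefl _ hab

end val

section through

variable (R : Type) [CommRing R] [IsDomain R] [IsDiscreteValuationRing R]
  {F : Type} [Field F] [Algebra R F]

/-- `V` passes through `𝔫` iff its centre lies in `𝔫`. -/
theorem through_iff (c : F) (𝔫 : Ideal (Chart R c)) (V : ValuationSubring F)
    (hmem : ∀ y : Chart R c, (y : F) ∈ V) :
    H10G3.Through R c 𝔫 V ↔ centre R c V hmem ≤ 𝔫 := by
  constructor
  · intro h y hy
    by_contra hyn
    have h1 := h y hyn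
    rw [mem_centre, h1] at hy
    exact lt_irrefl _ hy
  · intro h s hs
    have h1 : V.valuation (s : F) ≤ 1 := (V.valuation_le_one_iff _).2 (hmem s)
    refine le_antisymm h1 ?_
    by_contra hlt
    rw [not_le] at hlt
    exact hs (h hlt)

/-- **one step of (DICH3), valuation form**: `V` the only component over its image under `f`,
radicial at `𝔫`; the image of `U` lies in that of `W`.  Then `V, W ∋ 𝔫 ⇒ U ∋ 𝔫`. -/
theorem through_of_unique {A : Type*} [CommRing A] [IsDomain A] [IsIntegrallyClosed A]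
    (c : F) (f : A →+* Chart R c) (hf : Function.Injective f) (hint : f.IsIntegral)
    (V W U : ValuationSubring F)
    (hV : ∀ y : Chart R c, (y : F) ∈ V) (hW : ∀ y : Chart R c, (y : F) ∈ W)
    (hU : ∀ y : Chart R c, (y : F) ∈ U)
    (hUW : ∀ a : A, U.valuation ((f a : Chart R c) : F) < 1 →
      W.valuation ((f a : Chart R c) : F) < 1)
    (huniq : ∀ p : Ideal (Chart R c), p.IsPrime →
      (∀ a : A, f a ∈ p ↔ V.valuation ((f a : Chart R c) : F) < 1) →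
      ∀ y : Chart R c, y ∈ p ↔ V.valuation (y : F) < 1)
    (𝔫 : Ideal (Chart R c)) (h𝔫 : 𝔫.IsPrime)
    (hpi : ∀ b : Chart R c, ∃ m : ℕ, 0 < m ∧ ∃ s a : A, f s ∉ 𝔫 ∧
      V.valuation (((f s : Chart R c) : F) * (b : F) ^ m - ((f a : Chart R c) : F)) < 1)
    (hTV : H10G3.Through R c 𝔫 V) (hTW : H10G3.Through R c 𝔫 W) :
    H10G3.Through R c 𝔫 U := by
  rw [through_iff R c 𝔫 V hV] at hTV
  rw [through_iff R c 𝔫 W hW] at hTW
  rw [through_iff R c 𝔫 U hU]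
  haveI hcV : (centre R c V hV).IsPrime := centre_isPrime R c V hV
  haveI : ((centre R c V hV).comap f).IsPrime := Ideal.comap_isPrime f _
  refine le_of_unique_point f hf hint ((centre R c V hV).comap f) (centre R c V hV) ?_ 𝔫 h𝔫
    (Ideal.comap_mono hTV) ?_ (centre R c U hU) (centre_isPrime R c U hU) ?_
  · intro p hp hpc
    ext y
    rw [mem_centre]
    refine huniq p hp (fun a => ?_) y
    rw [← Ideal.mem_comap, hpc, Ideal.mem_comap, mem_centre]
  · intro b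
    obtain ⟨m, hm, s, a, hs, h⟩ := hpi b
    refine ⟨m, hm, s, a, hs, ?_⟩
    rw [mem_centre]
    push_cast
    exact h
  · intro a ha
    rw [Ideal.mem_comap, mem_centre] at ha
    exact hTW (hUW a ha)

/-- **(DICH3) from the three implications** (pure logic). -/
theorem dich3_of_imp (c : F) (𝔫 : Ideal (Chart R c)) (V₁ V₂ V₃ : ValuationSubring F)
    (h231 : H10G3.Through R c 𝔫 V₂ → H10G3.Through R c 𝔫 V₃ → H10G3.Through R c 𝔫 V₁)
    (h213 : H10G3.Through R c 𝔫 V₂ → H10G3.Through R c 𝔫 V₁ → H10G3.Through R c 𝔫 V₃)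
    (h132 : H10G3.Through R c 𝔫 V₁ → H10G3.Through R c 𝔫 V₃ → H10G3.Through R c 𝔫 V₂) :
    (H10G3.Through R c 𝔫 V₁ ∧ H10G3.Through R c 𝔫 V₂ ∧ H10G3.Through R c 𝔫 V₃) ∨
      ∀ V : ValuationSubring F, V = V₁ ∨ V = V₂ ∨ V = V₃ →
        ∀ W : ValuationSubring F, W = V₁ ∨ W = V₂ ∨ W = V₃ →
          H10G3.Through R c 𝔫 V → H10G3.Through R c 𝔫 W → V = W := by
  by_cases hall : H10G3.Through R c 𝔫 V₁ ∧ H10G3.Through R c 𝔫 V₂ ∧ H10G3.Through R c 𝔫 V₃
  · exact Or.inl hall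
  · right
    intro V hV W hW hTV hTW
    by_contra hne
    apply hall
    rcases hV with rfl | rfl | rfl <;> rcases hW with rfl | rfl | rfl
    · exact absurd rfl hne
    · exact ⟨hTV, hTW, h213 hTW hTV⟩
    · exact ⟨hTV, h132 hTV hTW, hTW⟩
    · exact ⟨hTW, hTV, h213 hTV hTW⟩
    · exact absurd rfl hne
    · exact ⟨h231 hTV hTW, hTV, hTW⟩
    · exact ⟨hTW, h132 hTW hTV, hTV⟩
    · exact ⟨h231 hTW hTV, hTW, hTV⟩
    · exact absurd rfl hne

/-- **(DICH3), valuation form**, with chart maps `fα : Aα → M₀`, `fβ : Aβ → M₀`. -/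
theorem dich3_val {Aα : Type*} [CommRing Aα] [IsDomain Aα] [IsIntegrallyClosed Aα]
    {Aβ : Type*} [CommRing Aβ] [IsDomain Aβ] [IsIntegrallyClosed Aβ]
    (c : F) (fα : Aα →+* Chart R c) (hfα : Function.Injective fα) (hintα : fα.IsIntegral)
    (fβ : Aβ →+* Chart R c) (hfβ : Function.Injective fβ) (hintβ : fβ.IsIntegral)
    (V₁ V₂ V₃ : ValuationSubring F)
    (hV₁ : ∀ y : Chart R c, (y : F) ∈ V₁) (hV₂ : ∀ y : Chart R c, (y : F) ∈ V₂)
    (hV₃ : ∀ y : Chart R c, (y : F) ∈ V₃)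
    (hα13 : ∀ a : Aα, V₁.valuation ((fα a : Chart R c) : F) < 1 ↔
      V₃.valuation ((fα a : Chart R c) : F) < 1)
    (hβ23 : ∀ a : Aβ, V₂.valuation ((fβ a : Chart R c) : F) < 1 ↔
      V₃.valuation ((fβ a : Chart R c) : F) < 1)
    (huniqα : ∀ p : Ideal (Chart R c), p.IsPrime →
      (∀ a : Aα, fα a ∈ p ↔ V₂.valuation ((fα a : Chart R c) : F) < 1) →
      ∀ y : Chart R c, y ∈ p ↔ V₂.valuation (y : F) < 1)
    (huniqβ : ∀ p : Ideal (Chart R c), p.IsPrime →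
      (∀ a : Aβ, fβ a ∈ p ↔ V₁.valuation ((fβ a : Chart R c) : F) < 1) →
      ∀ y : Chart R c, y ∈ p ↔ V₁.valuation (y : F) < 1)
    (𝔫 : Ideal (Chart R c)) (h𝔫 : 𝔫.IsPrime)
    (hpiα : ∀ b : Chart R c, ∃ m : ℕ, 0 < m ∧ ∃ s a : Aα, fα s ∉ 𝔫 ∧
      V₂.valuation (((fα s : Chart R c) : F) * (b : F) ^ m - ((fα a : Chart R c) : F)) < 1)
    (hpiβ : ∀ b : Chart R c, ∃ m : ℕ, 0 < m ∧ ∃ s a : Aβ, fβ s ∉ 𝔫 ∧
      V₁.valuation (((fβ s : Chart R c) : F) * (b : F) ^ m - ((fβ a : Chart R c) : F)) < 1) :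
    (H10G3.Through R c 𝔫 V₁ ∧ H10G3.Through R c 𝔫 V₂ ∧ H10G3.Through R c 𝔫 V₃) ∨
      ∀ V : ValuationSubring F, V = V₁ ∨ V = V₂ ∨ V = V₃ →
        ∀ W : ValuationSubring F, W = V₁ ∨ W = V₂ ∨ W = V₃ →
          H10G3.Through R c 𝔫 V → H10G3.Through R c 𝔫 W → V = W := by
  refine dich3_of_imp R c 𝔫 V₁ V₂ V₃ ?_ ?_ ?_
  · exact through_of_unique R c fα hfα hintα V₂ V₃ V₁ hV₂ hV₃ hV₁
      (fun a h => (hα13 a).1 h) huniqα 𝔫 h𝔫 hpiα
  · exact through_of_unique R c fα hfα hintα V₂ V₁ V₃ hV₂ hV₁ hV₃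
      (fun a h => (hα13 a).2 h) huniqα 𝔫 h𝔫 hpiα
  · exact through_of_unique R c fβ hfβ hintβ V₁ V₃ V₂ hV₁ hV₃ hV₂
      (fun a h => (hβ23 a).1 h) huniqβ 𝔫 h𝔫 hpiβ

end through

end H18D3

end
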