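import Mathlib
import Fermat.Agent.S36.Dich3_helper18
import Fermat.Agent.S34.WTransport_helper26
import Fermat.Agent.S18.TBase_helper19

/-!
# Item 86 (S36), slice (DICH3), assembly (helper18)

`H18D3.Dich3At R c 𝔫 V₁ V₂ V₃` := the second half of `H10G3.Gen3At`.

* `H18D3.through_iff_loc` : `Through R c 𝔫 V ↔ B_𝔫 ⊆ V` (for `chart ⊆ V`);
* `H18D3.through_transport` : if `B_𝔫' = w⁻¹ (B_𝔫)` for an involution `w`, then
  `V ∋ 𝔫 ↔ (V ∘ w) ∋ 𝔫'`;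
* `H18D3.dich3_all` : **(DICH3) at every closed point of both charts** from
  - the `α`-steps (`AlphaAt`: `V₂, V₃ ∋ 𝔫 ⇒ V₁ ∋ 𝔫`, `V₂, V₁ ∋ 𝔫 ⇒ V₃ ∋ 𝔫`) at every PRIME of
    both charts,
  - an involution `w` of `F` fixing `R` with `V₂ = V₁ ∘ w`, `V₃ ∘ w = V₃` and `(H_W)`
    (`H26WT.HWAt R w t`),
  - the chart change (`H4S34.ChartChangeStatement`, proved: `H20CC.h20cc_chartChange`).
-/

set_option autoImplicit false
set_option synthInstance.maxHeartbeats 400000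
set_option linter.unusedSectionVars false
set_option linter.unusedVariables false
set_option linter.style.haveILetI false

noncomputable section

open IntermediateField H4S34 H7S18

namespace H18D3

section defs

variable (R : Type) [CommRing R] {F : Type} [Field F] [Algebra R F]

/-- the second half of `H10G3.Gen3At`: all three components pass through `𝔫`, or at most one. -/
def Dich3At (c : F) (𝔫 : Ideal (Chart R c)) (V₁ V₂ V₃ : ValuationSubring F) : Prop :=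
  (H10G3.Through R c 𝔫 V₁ ∧ H10G3.Through R c 𝔫 V₂ ∧ H10G3.Through R c 𝔫 V₃) ∨
    ∀ V : ValuationSubring F, V = V₁ ∨ V = V₂ ∨ V = V₃ →
      ∀ W : ValuationSubring F, W = V₁ ∨ W = V₂ ∨ W = V₃ →
        H10G3.Through R c 𝔫 V → H10G3.Through R c 𝔫 W → V = W

/-- the `α`-steps at `𝔫`. -/
def AlphaAt (c : F) (𝔫 : Ideal (Chart R c)) (V₁ V₂ V₃ : ValuationSubring F) : Prop :=
  (H10G3.Through R c 𝔫 V₂ → H10G3.Through R c 𝔫 V₃ → H10G3.Through R c 𝔫 V₁) ∧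
    (H10G3.Through R c 𝔫 V₂ → H10G3.Through R c 𝔫 V₁ → H10G3.Through R c 𝔫 V₃)

end defs

section loc

variable (R : Type) [CommRing R] [IsDomain R] [IsDiscreteValuationRing R]
  {F : Type} [Field F] [Algebra R F]

/-- `V` passes through `𝔫` iff `B_𝔫 ⊆ V`. -/
theorem through_iff_loc (c : F) (𝔫 : Ideal (Chart R c)) (h𝔫 : 𝔫.IsPrime)
    (V : ValuationSubring F) (hmem : ∀ y : Chart R c, (y : F) ∈ V) :
    H10G3.Through R c 𝔫 V ↔ ∀ x : F, InLoc R c 𝔫 x → x ∈ V := by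
  constructor
  · intro hT x hx
    obtain ⟨a, s, hs, e⟩ := hx
    have hs1 := hT s hs
    have ha : (a : F) ∈ V := hmem a
    rw [← V.valuation_le_one_iff] at ha ⊢
    have h1 := congrArg V.valuation e
    rw [Valuation.map_mul, hs1, one_mul] at h1
    rw [h1]
    exact ha
  · intro h s hs
    have hs0 : (s : F) ≠ 0 := by
      intro h0
      apply hs
      have : s = 0 := Subtype.ext h0
      rw [this]
      exact 𝔫.zero_mem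
    have h1 : (s : F) ∈ V := hmem s
    have h2 : (s : F)⁻¹ ∈ V := by
      apply h
      refine ⟨1, s, hs, ?_⟩
      rw [mul_inv_cancel₀ hs0]
      rfl
    rw [← V.valuation_le_one_iff] at h1 h2
    rw [map_inv₀] at h2
    have hv0 : V.valuation (s : F) ≠ 0 := (V.valuation.ne_zero_iff).2 hs0
    have h3 : 1 ≤ V.valuation (s : F) := (inv_le_one₀ (zero_lt_iff.2 hv0)).1 h2
    exact le_antisymm h1 h3

/-- transport of `Through` along an involution `w` with `B_𝔫' = w⁻¹ (B_𝔫)`. -/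
theorem through_transport (w : F →+* F) (hww : ∀ x, w (w x) = x)
    (c c' : F) (𝔫 : Ideal (Chart R c)) (𝔫' : Ideal (Chart R c'))
    (h𝔫 : 𝔫.IsPrime) (h𝔫' : 𝔫'.IsPrime)
    (hloc : ∀ x : F, InLoc R c' 𝔫' x ↔ InLoc R c 𝔫 (w x))
    (V V' : ValuationSubring F) (hVV' : ∀ x : F, x ∈ V' ↔ w x ∈ V)
    (hmem : ∀ y : Chart R c, (y : F) ∈ V) (hmem' : ∀ y : Chart R c', (y : F) ∈ V') :
    H10G3.Through R c 𝔫 V ↔ H10G3.Through R c' 𝔫' V' := by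
  rw [through_iff_loc R c 𝔫 h𝔫 V hmem, through_iff_loc R c' 𝔫' h𝔫' V' hmem']
  constructor
  · intro h x hx
    rw [hVV']
    exact h _ ((hloc x).1 hx)
  · intro h y hy
    have h1 : InLoc R c' 𝔫' (w y) := (hloc (w y)).2 (by rw [hww]; exact hy)
    have h2 := h _ h1
    rw [hVV', hww] at h2
    exact h2

/-- transport of `Through` between two points with the same local ring. -/
theorem through_same_loc (c c' : F) (𝔫 : Ideal (Chart R c)) (𝔫' : Ideal (Chart R c'))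
    (h𝔫 : 𝔫.IsPrime) (h𝔫' : 𝔫'.IsPrime)
    (hloc : ∀ x : F, InLoc R c' 𝔫' x ↔ InLoc R c 𝔫 x)
    (V : ValuationSubring F)
    (hmem : ∀ y : Chart R c, (y : F) ∈ V) (hmem' : ∀ y : Chart R c', (y : F) ∈ V) :
    H10G3.Through R c 𝔫 V ↔ H10G3.Through R c' 𝔫' V := by
  rw [through_iff_loc R c 𝔫 h𝔫 V hmem, through_iff_loc R c' 𝔫' h𝔫' V hmem']
  constructor
  · intro h x hx
    exact h _ ((hloc x).1 hx)
  · intro h y hy
    exact h _ ((hloc y).2 hy)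

/-- `Dich3At` depends only on the local ring. -/
theorem dich3At_same_loc (c c' : F) (𝔫 : Ideal (Chart R c)) (𝔫' : Ideal (Chart R c'))
    (h𝔫 : 𝔫.IsPrime) (h𝔫' : 𝔫'.IsPrime)
    (hloc : ∀ x : F, InLoc R c' 𝔫' x ↔ InLoc R c 𝔫 x)
    (V₁ V₂ V₃ : ValuationSubring F)
    (hmem : ∀ V : ValuationSubring F, V = V₁ ∨ V = V₂ ∨ V = V₃ →
      ∀ y : Chart R c, (y : F) ∈ V)
    (hmem' : ∀ V : ValuationSubring F, V = V₁ ∨ V = V₂ ∨ V = V₃ →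
      ∀ y : Chart R c', (y : F) ∈ V)
    (h : Dich3At R c' 𝔫' V₁ V₂ V₃) : Dich3At R c 𝔫 V₁ V₂ V₃ := by
  have key : ∀ V : ValuationSubring F, V = V₁ ∨ V = V₂ ∨ V = V₃ →
      (H10G3.Through R c 𝔫 V ↔ H10G3.Through R c' 𝔫' V) := fun V hV =>
    through_same_loc R c c' 𝔫 𝔫' h𝔫 h𝔫' hloc V (hmem V hV) (hmem' V hV)
  rcases h with h | h
  · left
    exact ⟨(key V₁ (Or.inl rfl)).2 h.1, (key V₂ (Or.inr (Or.inl rfl))).2 h.2.1,
      (key V₃ (Or.inr (Or.inr rfl))).2 h.2.2⟩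
  · right
    intro V hV W hW hTV hTW
    exact h V hV W hW ((key V hV).1 hTV) ((key W hW).1 hTW)

end loc

section all

variable (R : Type) [CommRing R] [IsDomain R] [IsDiscreteValuationRing R]
  (K : Type) [Field K] [CharZero K] [Algebra R K] [IsFractionRing R K]
  {F : Type} [Field F] [Algebra K F] [Algebra R F] [IsScalarTower R K F]

/-- the charts `t`, `t⁻¹` lie in `V₁, V₂, V₃`. -/
theorem chart_mem3 (ϖ : R) (hϖ : Irreducible ϖ) (t : F) (ht : Transcendental K t)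
    (V₁ V₂ V₃ : ValuationSubring F)
    (hO : ∀ x : F, GInt R ϖ t x → x ∈ V₁ ∧ x ∈ V₂ ∧ x ∈ V₃)
    (c : F) (hc : c = t ∨ c = t⁻¹)
    (V : ValuationSubring F) (hV : V = V₁ ∨ V = V₂ ∨ V = V₃) (y : Chart R c) :
    (y : F) ∈ V := by
  have htR : Transcendental R t := H19S18.h19_transc R K ht
  have htR' : Transcendental R t⁻¹ := H19S18.h19_transc R K (H19S18.h19_transc_inv K ht)
  have hg : GInt R ϖ t (y : F) := by
    rcases hc with rfl | rfl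
    · exact H19S18.h19_gint_of_isInt R htR hϖ y.2
    · exact H19S18.h19_gint_of_isInt_inv R htR htR' hϖ y.2
  obtain ⟨h1, h2, h3⟩ := hO _ hg
  rcases hV with rfl | rfl | rfl
  · exact h1
  · exact h2
  · exact h3

/-- **(DICH3) at a dich point** from the `α`-steps and the `W`-image point. -/
theorem dich3_dich (ϖ : R) (hϖ : Irreducible ϖ) (t : F) (ht : Transcendental K t)
    (V₁ V₂ V₃ : ValuationSubring F)
    (hO : ∀ x : F, GInt R ϖ t x → x ∈ V₁ ∧ x ∈ V₂ ∧ x ∈ V₃)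
    (w : F →+* F) (hww : ∀ x, w (w x) = x)
    (hwR : ∀ r : R, w (algebraMap R F r) = algebraMap R F r)
    (hHW : H26WT.HWAt R w t)
    (h12 : ∀ x : F, x ∈ V₂ ↔ w x ∈ V₁) (h33 : ∀ x : F, x ∈ V₃ ↔ w x ∈ V₃)
    (hα : ∀ c : F, c = t ∨ c = t⁻¹ → ∀ 𝔫 : Ideal (Chart R c), 𝔫.IsPrime →
      AlphaAt R c 𝔫 V₁ V₂ V₃)
    {c : F} (𝔫 : Ideal (Chart R c)) (h𝔫 : IsClosedPt R ϖ c 𝔫) (hd : H26DI.IsDichPt t c 𝔫) :
    Dich3At R c 𝔫 V₁ V₂ V₃ := by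
  have ht0 : t ≠ 0 := by
    intro h0
    apply ht
    rw [h0]
    exact isAlgebraic_zero
  have hc : c = t ∨ c = t⁻¹ := hd.elim Or.inl (fun h => Or.inr h.1)
  have hp := h𝔫.1.isPrime
  obtain ⟨hα1, hα2⟩ := hα c hc 𝔫 hp
  refine dich3_of_imp R c 𝔫 V₁ V₂ V₃ hα1 hα2 ?_
  intro hT1 hT3
  obtain ⟨c', 𝔫', hc', hcl', -, hloc⟩ :=
    H26WT.exists_dich_image w hww hwR ϖ hϖ t ht0 hHW 𝔫 h𝔫 hd
  have hp' := hcl'.1.isPrime
  have hm : ∀ V : ValuationSubring F, V = V₁ ∨ V = V₂ ∨ V = V₃ →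
      ∀ y : Chart R c, (y : F) ∈ V := fun V hV y =>
    chart_mem3 R K ϖ hϖ t ht V₁ V₂ V₃ hO c hc V hV y
  have hm' : ∀ V : ValuationSubring F, V = V₁ ∨ V = V₂ ∨ V = V₃ →
      ∀ y : Chart R c', (y : F) ∈ V := fun V hV y =>
    chart_mem3 R K ϖ hϖ t ht V₁ V₂ V₃ hO c' hc' V hV y
  have h21 : ∀ x : F, x ∈ V₁ ↔ w x ∈ V₂ := by
    intro x
    rw [h12, hww]
  -- `V₁ ∋ 𝔫 ⇒ V₂ ∋ 𝔫'`, `V₃ ∋ 𝔫 ⇒ V₃ ∋ 𝔫'`
  have hT2' : H10G3.Through R c' 𝔫' V₂ :=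
    (through_transport R w hww c c' 𝔫 𝔫' hp hp' (fun x => (hloc x).1) V₁ V₂ h12
      (hm V₁ (Or.inl rfl)) (hm' V₂ (Or.inr (Or.inl rfl)))).1 hT1
  have hT3' : H10G3.Through R c' 𝔫' V₃ :=
    (through_transport R w hww c c' 𝔫 𝔫' hp hp' (fun x => (hloc x).1) V₃ V₃ h33
      (hm V₃ (Or.inr (Or.inr rfl))) (hm' V₃ (Or.inr (Or.inr rfl)))).1 hT3
  have hT1' : H10G3.Through R c' 𝔫' V₁ := (hα c' hc' 𝔫' hp').1 hT2' hT3'
  exact (through_transport R w hww c c' 𝔫 𝔫' hp hp' (fun x => (hloc x).1) V₂ V₁ h21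
    (hm V₂ (Or.inr (Or.inl rfl))) (hm' V₁ (Or.inl rfl))).2 hT1'

/-- **(DICH3) at every closed point of both charts.** -/
theorem dich3_all (ϖ : R) (hϖ : Irreducible ϖ) (t : F) (ht : Transcendental K t)
    (hfin : FiniteDimensional K⟮t⟯ F)
    (V₁ V₂ V₃ : ValuationSubring F)
    (hO : ∀ x : F, GInt R ϖ t x → x ∈ V₁ ∧ x ∈ V₂ ∧ x ∈ V₃)
    (w : F →+* F) (hww : ∀ x, w (w x) = x)
    (hwR : ∀ r : R, w (algebraMap R F r) = algebraMap R F r)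
    (hHW : H26WT.HWAt R w t)
    (h12 : ∀ x : F, x ∈ V₂ ↔ w x ∈ V₁) (h33 : ∀ x : F, x ∈ V₃ ↔ w x ∈ V₃)
    (hα : ∀ c : F, c = t ∨ c = t⁻¹ → ∀ 𝔫 : Ideal (Chart R c), 𝔫.IsPrime →
      AlphaAt R c 𝔫 V₁ V₂ V₃)
    (hCC : H4S34.ChartChangeStatement) :
    (∀ 𝔫 : Ideal (Chart R t), IsClosedPt R ϖ t 𝔫 → Dich3At R t 𝔫 V₁ V₂ V₃) ∧
      (∀ 𝔫 : Ideal (Chart R t⁻¹), IsClosedPt R ϖ t⁻¹ 𝔫 → Dich3At R t⁻¹ 𝔫 V₁ V₂ V₃) := by
  have hz : ∀ 𝔫 : Ideal (Chart R t), IsClosedPt R ϖ t 𝔫 → Dich3At R t 𝔫 V₁ V₂ V₃ :=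
    fun 𝔫 h𝔫 => dich3_dich R K ϖ hϖ t ht V₁ V₂ V₃ hO w hww hwR hHW h12 h33 hα 𝔫 h𝔫
      (Or.inl rfl)
  refine ⟨hz, ?_⟩
  intro 𝔫 h𝔫
  by_cases hcusp : ∀ y : Chart R t⁻¹, (y : F) = t⁻¹ → y ∈ 𝔫
  · exact dich3_dich R K ϖ hϖ t ht V₁ V₂ V₃ hO w hww hwR hHW h12 h33 hα 𝔫 h𝔫
      (Or.inr ⟨rfl, hcusp⟩)
  · push Not at hcusp
    obtain ⟨y, hy, hyn⟩ := hcusp
    obtain ⟨𝔫₀, hcl₀, hloc⟩ := hCC R K F ϖ hϖ t ht hfin 𝔫 h𝔫 ⟨y, hy, hyn⟩
    exact dich3At_same_loc R t⁻¹ t 𝔫 𝔫₀ h𝔫.1.isPrime hcl₀.1.isPrime hloc V₁ V₂ V₃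
      (fun V hV y => chart_mem3 R K ϖ hϖ t ht V₁ V₂ V₃ hO t⁻¹ (Or.inr rfl) V hV y)
      (fun V hV y => chart_mem3 R K ϖ hϖ t ht V₁ V₂ V₃ hO t (Or.inl rfl) V hV y)
      (hz 𝔫₀ hcl₀)

end all

end H18D3

end
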