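import Mathlib
import Fermat.Agent.S36.Dich3W_helper18
import Fermat.Agent.S36.R2Val_helper26
import Fermat.Agent.S36.ChartMap_helper6

/-!
# Item 86 (S36), slice (DICH3), the `α`-steps (helper18)

`φ : F' → F` a field map over `R` (in the application `φ = φα`), chart coordinate `c = φ c'`.
`V₂` is the only one of `V₁, V₂, V₃` over its image (`hsep`: some `e` of the chart `c'` has
`v₁(φ e) < 1`, `v₂(φ e) = 1`; `V₁, V₃` have the same image, `h13`), and it is radicial over its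
image (`hrad`: for `b` in the chart `c`, `b ^ q ≡ φ a` at `V₂`, `a` in the chart `c'`).
Then at every prime `𝔫` of the chart `c`:
`V₂, V₃ ∋ 𝔫 ⇒ V₁ ∋ 𝔫` and `V₂, V₁ ∋ 𝔫 ⇒ V₃ ∋ 𝔫`   (`H18D3.alphaAt_of`).
-/

set_option autoImplicit false
set_option synthInstance.maxHeartbeats 400000
set_option linter.unusedSectionVars false
set_option linter.unusedVariables false
set_option linter.style.haveILetI false

noncomputable section

open IntermediateField H4S34 H7S18

namespace H18D3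

section alpha

variable (R : Type) [CommRing R] [IsDomain R] [IsDiscreteValuationRing R]
  (K : Type) [Field K] [CharZero K] [Algebra R K] [IsFractionRing R K]
  {F : Type} [Field F] [Algebra K F] [Algebra R F] [IsScalarTower R K F]
  {F' : Type} [Field F'] [Algebra K F'] [Algebra R F'] [IsScalarTower R K F']

/-- **uniqueness of the component over its image**: a prime `p` of the chart `φ c'` with the
same contraction as `P_{V₂}` is `P_{V₂}`. -/
theorem huniq_of_sep (ϖ : R) (hϖ : Irreducible ϖ) (φ : F' →+* F)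
    (hφR : ∀ r : R, φ (algebraMap R F' r) = algebraMap R F r)
    (c' : F') (hc : Transcendental K (φ c')) [hfin : FiniteDimensional K⟮φ c'⟯ F]
    (V₁ V₂ V₃ : ValuationSubring F)
    (hO : ∀ x : F, GInt R ϖ (φ c') x ↔ x ∈ V₁ ∧ x ∈ V₂ ∧ x ∈ V₃)
    (hϖ₂ : V₂.valuation (algebraMap R F ϖ) < 1)
    (hsep₁ : ∃ e : F', IsInt R c' e ∧ V₁.valuation (φ e) < 1 ∧ ¬ V₂.valuation (φ e) < 1)
    (hsep₃ : ∃ e : F', IsInt R c' e ∧ V₃.valuation (φ e) < 1 ∧ ¬ V₂.valuation (φ e) < 1)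
    (f : Chart R c' →+* Chart R (φ c'))
    (hcoe : ∀ a : Chart R c', ((f a : Chart R (φ c')) : F) = φ (a : F'))
    (hint : f.IsIntegral)
    (p : Ideal (Chart R (φ c'))) (hp : p.IsPrime)
    (hpc : ∀ a : Chart R c', f a ∈ p ↔ V₂.valuation ((f a : Chart R (φ c')) : F) < 1)
    (y : Chart R (φ c')) : y ∈ p ↔ V₂.valuation (y : F) < 1 := by
  classical
  haveI : IsNoetherianRing (Chart R (φ c')) := H22BR.chart_noeth R K hc
  have hinjR : Function.Injective (algebraMap R F) := H19S18.h19_algebraMap_injective R K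
  set 𝒱 : Finset (ValuationSubring F) := {V₁, V₂, V₃} with h𝒱
  have hO' : ∀ x : F, GInt R ϖ (φ c') x ↔ ∀ V ∈ 𝒱, x ∈ V := by
    intro x
    rw [hO]
    constructor
    · rintro ⟨h1, h2, h3⟩ V hV
      rw [h𝒱, Finset.mem_insert, Finset.mem_insert, Finset.mem_singleton] at hV
      rcases hV with rfl | rfl | rfl
      · exact h1
      · exact h2
      · exact h3
    · intro h
      refine ⟨h V₁ ?_, h V₂ ?_, h V₃ ?_⟩
      · rw [h𝒱]; simp
      · rw [h𝒱]; simp
      · rw [h𝒱]; simp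
  -- `ϖ ∈ p`
  set ϖA : Chart R c' := algebraMap R (Chart R c') ϖ with hϖA
  have hϖAcoe : ((ϖA : Chart R c') : F') = algebraMap R F' ϖ := rfl
  have hfϖ : ((f ϖA : Chart R (φ c')) : F) = algebraMap R F ϖ := by
    rw [hcoe, hϖAcoe, hφR]
  have hϖp : f ϖA ∈ p := (hpc ϖA).2 (by rw [hfϖ]; exact hϖ₂)
  have hϖne : f ϖA ≠ 0 := by
    intro h0
    have h1 : ((f ϖA : Chart R (φ c')) : F) = 0 := by rw [h0]; rfl
    rw [hfϖ] at h1
    exact hϖ.ne_zero (hinjR (by rw [h1, map_zero]))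
  -- a minimal prime over `(ϖ)` inside `p`
  obtain ⟨p₀, hp₀min, hp₀le⟩ := Ideal.exists_minimalPrimes_le
    (I := Ideal.span {f ϖA}) (J := p) (by rw [Ideal.span_singleton_le_iff_mem]; exact hϖp)
  have hp₀ : p₀.IsPrime := hp₀min.1.1
  have hϖp₀ : f ϖA ∈ p₀ := hp₀min.1.2 (Ideal.subset_span rfl)
  have hh : p₀.height = 1 := by
    have h1 : p₀.height ≤ 1 :=
      Ideal.height_le_one_of_isPrincipal_of_mem_minimalPrimes (Ideal.span {f ϖA}) p₀ hp₀min
    have h2 : p₀.height ≠ 0 := by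
      intro h0
      have hb : p₀ = ⊥ := Ideal.height_eq_zero_iff_eq_bot.1 h0
      rw [hb] at hϖp₀
      exact hϖne ((Ideal.mem_bot).1 hϖp₀)
    exact le_antisymm h1 (Order.one_le_iff_pos.2 (pos_iff_ne_zero.2 h2))
  obtain ⟨V, hV, hpV⟩ := H26R2.vert_prime_cases R K hϖ hc 𝒱 hO' p₀ hp₀ hh
    (fun z hz => by
      have : z = f ϖA := Subtype.ext (by rw [hz, hfϖ])
      rw [this]
      exact hϖp₀)
  have hV2 : V = V₂ := by
    rw [h𝒱, Finset.mem_insert, Finset.mem_insert, Finset.mem_singleton] at hV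
    rcases hV with h | h | h
    · exfalso
      obtain ⟨e, he, he1, he2⟩ := hsep₁
      have h1 : f ⟨e, he⟩ ∈ p₀ := by
        rw [hpV, H26R2.mem_compIdeal, hcoe, h]
        exact he1
      have h2 := (hpc ⟨e, he⟩).1 (hp₀le h1)
      rw [hcoe] at h2
      exact he2 h2
    · exact h
    · exfalso
      obtain ⟨e, he, he1, he2⟩ := hsep₃
      have h1 : f ⟨e, he⟩ ∈ p₀ := by
        rw [hpV, H26R2.mem_compIdeal, hcoe, h]
        exact he1
      have h2 := (hpc ⟨e, he⟩).1 (hp₀le h1)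
      rw [hcoe] at h2
      exact he2 h2
  have hmem₀ : ∀ z : Chart R (φ c'), z ∈ p₀ ↔ V₂.valuation (z : F) < 1 := by
    intro z
    rw [hpV, H26R2.mem_compIdeal, hV2]
  constructor
  · intro hy
    by_contra hlt
    letI : Algebra (Chart R c') (Chart R (φ c')) := f.toAlgebra
    have hy₀ : y ∉ p₀ := fun h => hlt ((hmem₀ y).1 h)
    have hlt' := Ideal.comap_lt_comap_of_integral_mem_sdiff (R := Chart R c') hp₀le
      (show y ∈ ((p : Set (Chart R (φ c'))) \ p₀) from ⟨hy, hy₀⟩) (hint y)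
    obtain ⟨a, ha1, ha2⟩ := Set.exists_of_ssubset hlt'
    apply ha2
    have ha1' : f a ∈ p := ha1
    change f a ∈ p₀
    rw [hmem₀]
    exact (hpc a).1 ha1'
  · intro hy
    exact hp₀le ((hmem₀ y).2 hy)

/-- **the `α`-steps at every prime of the chart `φ c'`.** -/
theorem alphaAt_of (ϖ : R) (hϖ : Irreducible ϖ) (φ : F' →+* F)
    (hφR : ∀ r : R, φ (algebraMap R F' r) = algebraMap R F r)
    (c' : F') [hfin' : FiniteDimensional K⟮c'⟯ F']
    (hc : Transcendental K (φ c')) [hfin : FiniteDimensional K⟮φ c'⟯ F]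
    (V₁ V₂ V₃ : ValuationSubring F)
    (hO : ∀ x : F, GInt R ϖ (φ c') x ↔ x ∈ V₁ ∧ x ∈ V₂ ∧ x ∈ V₃)
    (hϖ₂ : V₂.valuation (algebraMap R F ϖ) < 1)
    (h13 : ∀ a : F', V₁.valuation (φ a) < 1 ↔ V₃.valuation (φ a) < 1)
    (hsep : ∃ e : F', IsInt R c' e ∧ V₁.valuation (φ e) < 1 ∧ ¬ V₂.valuation (φ e) < 1)
    (q : ℕ) (hq : 0 < q)
    (hrad : ∀ b : F, IsInt R (φ c') b → V₂.valuation b = 1 →
      ∃ a : F', IsInt R c' a ∧ V₂.valuation (b ^ q - φ a) < 1)
    (𝔫 : Ideal (Chart R (φ c'))) (h𝔫 : 𝔫.IsPrime) :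
    AlphaAt R (φ c') 𝔫 V₁ V₂ V₃ := by
  classical
  letI : Algebra F' F := φ.toAlgebra
  haveI : IsScalarTower R F' F := IsScalarTower.of_algebraMap_eq (fun r => (hφR r).symm)
  let f : Chart R c' →+* Chart R (φ c') := H6CM.chartMap R (F := F) c'
  have hf : Function.Injective f := H6CM.chartMap_injective R c'
  have hint : f.IsIntegral := H6CM.chartMap_isIntegral R c'
  have hcoe : ∀ a : Chart R c', ((f a : Chart R (φ c')) : F) = φ (a : F') := fun a => rfl
  haveI : IsIntegrallyClosed (Chart R c') := H22BR.chart_intClosed R K c'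
  have htR : Transcendental R (φ c') := H19S18.h19_transc R K hc
  have hmem : ∀ V : ValuationSubring F, V = V₁ ∨ V = V₂ ∨ V = V₃ →
      ∀ y : Chart R (φ c'), (y : F) ∈ V := by
    intro V hV y
    obtain ⟨h1, h2, h3⟩ := (hO _).1 (H19S18.h19_gint_of_isInt R htR hϖ y.2)
    rcases hV with rfl | rfl | rfl
    · exact h1
    · exact h2
    · exact h3
  have hV₁ := hmem V₁ (Or.inl rfl)
  have hV₂ := hmem V₂ (Or.inr (Or.inl rfl))
  have hV₃ := hmem V₃ (Or.inr (Or.inr rfl))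
  have hsep₃ : ∃ e : F', IsInt R c' e ∧ V₃.valuation (φ e) < 1 ∧ ¬ V₂.valuation (φ e) < 1 := by
    obtain ⟨e, he, he1, he2⟩ := hsep
    exact ⟨e, he, (h13 e).1 he1, he2⟩
  have huniq : ∀ p : Ideal (Chart R (φ c')), p.IsPrime →
      (∀ a : Chart R c', f a ∈ p ↔ V₂.valuation ((f a : Chart R (φ c')) : F) < 1) →
      ∀ y : Chart R (φ c'), y ∈ p ↔ V₂.valuation (y : F) < 1 := fun p hp hpc y =>
    huniq_of_sep R K ϖ hϖ φ hφR c' hc V₁ V₂ V₃ hO hϖ₂ hsep hsep₃ f hcoe hint p hp hpc y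
  have hpi : ∀ b : Chart R (φ c'), ∃ m : ℕ, 0 < m ∧ ∃ s a : Chart R c', f s ∉ 𝔫 ∧
      V₂.valuation (((f s : Chart R (φ c')) : F) * (b : F) ^ m -
        ((f a : Chart R (φ c')) : F)) < 1 := by
    intro b
    have h1 : f 1 ∉ 𝔫 := by
      rw [map_one]
      exact 𝔫.ne_top_iff_one.1 h𝔫.ne_top
    have hf1 : ((f 1 : Chart R (φ c')) : F) = 1 := by
      rw [map_one]
      rfl
    by_cases hb : V₂.valuation (b : F) < 1
    · refine ⟨1, Nat.one_pos, 1, 0, h1, ?_⟩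
      rw [hf1, map_zero]
      have : ((0 : Chart R (φ c')) : F) = 0 := rfl
      rw [this, one_mul, pow_one, sub_zero]
      exact hb
    · have hb1 : V₂.valuation (b : F) = 1 :=
        le_antisymm ((V₂.valuation_le_one_iff _).2 (hV₂ b)) (not_lt.1 hb)
      obtain ⟨a, ha, hab⟩ := hrad (b : F) b.2 hb1
      refine ⟨q, hq, 1, ⟨a, ha⟩, h1, ?_⟩
      rw [hf1, one_mul, hcoe]
      exact hab
  refine ⟨?_, ?_⟩
  · exact through_of_unique R (φ c') f hf hint V₂ V₃ V₁ hV₂ hV₃ hV₁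
      (fun a h => by rw [hcoe] at h ⊢; exact (h13 _).1 h) huniq 𝔫 h𝔫 hpi
  · exact through_of_unique R (φ c') f hf hint V₂ V₁ V₃ hV₂ hV₁ hV₃
      (fun a h => by rw [hcoe] at h ⊢; exact (h13 _).2 h) huniq 𝔫 h𝔫 hpi

end alpha

end H18D3

end
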