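import Mathlib
import Fermat.Agent.S36.Dich3Alpha_helper18
import Fermat.Agent.S36.InjGenDefs_helper4
import Fermat.Agent.S18.Connected_helper21

/-!
# Item 86 (S36), slice (DICH3), `Triple`-level wrapper (helper18)

`H18D3.dich3_of_triple` : for data with `H4S36.Triple`, a base function `t'` of the lower level
with `φα t' = t`, the separation witnesses `hsep`, `hsepi` of the lower level (some `e` in the
chart `t'` resp. `t'⁻¹` with `v₁'(e) < 1`, `v₂'(e) = 1`), the integrality of norms `hN`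
(`Nα` maps the chart `φα c'` into the chart `c'`), and an involution `w` of `F` with
`V₂ = V₁ ∘ w`, `V₃ ∘ w = V₃` and `(H_W)`:
**`Dich3At` (= the second half of `H10G3.Gen3At`) at every closed point of both charts.**
-/

set_option autoImplicit false
set_option synthInstance.maxHeartbeats 400000
set_option linter.unusedSectionVars false
set_option linter.unusedVariables false
set_option linter.style.haveILetI false

noncomputable section

open IntermediateField H4S34 H7S18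

namespace H18D3

section triple

variable (R : Type) [CommRing R] [IsDomain R] [IsDiscreteValuationRing R]
  (K : Type) [Field K] [CharZero K] [Algebra R K] [IsFractionRing R K]
  (F : Type) [Field F] [Algebra K F] [Algebra R F] [IsScalarTower R K F]
  (F' : Type) [Field F'] [Algebra K F'] [Algebra R F'] [IsScalarTower R K F']

/-- the `α`-steps at every prime of both charts, from `Triple`. -/
theorem alphaAt_of_triple (ϖ : R) (hϖ : Irreducible ϖ) (t : F) (ht : Transcendental K t)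
    (hfin : FiniteDimensional K⟮t⟯ F)
    (q n : ℕ) (hq : 0 < q) (φα φβ : F' →+* F) (Nα Nβ : F →* F')
    (V₁ V₂ V₃ : ValuationSubring F) (V₁' V₂' : ValuationSubring F') (b₃ : F)
    (hT : H4S36.Triple R K F F' ϖ t q n φα φβ Nα Nβ V₁ V₂ V₃ V₁' V₂' b₃)
    (t' : F') (htt : φα t' = t) (hfin' : FiniteDimensional K⟮t'⟯ F')
    (hsep : ∃ e : F', IsInt R t' e ∧ V₁'.valuation e < 1 ∧ ¬ V₂'.valuation e < 1)
    (hsepi : ∃ e : F', IsInt R t'⁻¹ e ∧ V₁'.valuation e < 1 ∧ ¬ V₂'.valuation e < 1)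
    (hN : ∀ c' : F', c' = t' ∨ c' = t'⁻¹ → ∀ b : F, IsInt R (φα c') b → IsInt R c' (Nα b))
    (c : F) (hc : c = t ∨ c = t⁻¹) (𝔫 : Ideal (Chart R c)) (h𝔫 : 𝔫.IsPrime) :
    AlphaAt R c 𝔫 V₁ V₂ V₃ := by
  have htR : Transcendental R t := H19S18.h19_transc R K ht
  have ht' : Transcendental K t⁻¹ := H19S18.h19_transc_inv K ht
  have htR' : Transcendental R t⁻¹ := H19S18.h19_transc R K ht'
  have hφR : ∀ r : R, φα (algebraMap R F' r) = algebraMap R F r := by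
    intro r
    rw [IsScalarTower.algebraMap_apply R K F', hT.hφα, ← IsScalarTower.algebraMap_apply R K F]
  have h13 : ∀ a : F', V₁.valuation (φα a) < 1 ↔ V₃.valuation (φα a) < 1 :=
    fun a => (hT.hα₁ a).symm.trans (hT.hα₃ a)
  have hradq : ∀ c' : F', c' = t' ∨ c' = t'⁻¹ → ∀ b : F, IsInt R (φα c') b →
      V₂.valuation b = 1 → ∃ a : F', IsInt R c' a ∧ V₂.valuation (b ^ q - φα a) < 1 := by
    intro c' hc' b hb hb1
    refine ⟨Nα b, hN c' hc' b hb, ?_⟩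
    have h := hT.cNα₂ b hb1
    have h' : V₂.valuation (φα (Nα b) - b ^ q) < 1 := h
    rw [Valuation.map_sub_swap]
    exact h'
  rcases hc with hc | hc
  · have e : c = φα t' := hc.trans htt.symm
    subst e
    haveI : FiniteDimensional K⟮φα t'⟯ F := by rw [htt]; exact hfin
    haveI := hfin'
    have hO : ∀ x : F, GInt R ϖ (φα t') x ↔ x ∈ V₁ ∧ x ∈ V₂ ∧ x ∈ V₃ := by
      intro x
      rw [htt]
      exact hT.hO x
    have hsep' : ∃ e : F', IsInt R t' e ∧ V₁.valuation (φα e) < 1 ∧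
        ¬ V₂.valuation (φα e) < 1 := by
      obtain ⟨e, he, he1, he2⟩ := hsep
      exact ⟨e, he, (hT.hα₁ e).1 he1, fun h => he2 ((hT.hα₂ e).2 h)⟩
    exact alphaAt_of R K ϖ hϖ φα hφR t' (by rw [htt]; exact ht) V₁ V₂ V₃ hO hT.hϖ₂ h13 hsep'
      q hq (hradq t' (Or.inl rfl)) 𝔫 h𝔫
  · have e : c = φα t'⁻¹ := by rw [hc, map_inv₀, htt]
    subst e
    have e2 : φα t'⁻¹ = t⁻¹ := by rw [map_inv₀, htt]
    haveI : FiniteDimensional K⟮φα t'⁻¹⟯ F := by
      rw [e2]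
      exact H21S18.finiteDimensional_transport (H21S18.adjoin_inv_eq (K := K) t).symm hfin
    haveI : FiniteDimensional K⟮t'⁻¹⟯ F' :=
      H21S18.finiteDimensional_transport (H21S18.adjoin_inv_eq (K := K) t').symm hfin'
    have hO : ∀ x : F, GInt R ϖ (φα t'⁻¹) x ↔ x ∈ V₁ ∧ x ∈ V₂ ∧ x ∈ V₃ := by
      intro x
      rw [e2, H19S18.h19_gint_inv_iff R htR htR' hϖ x]
      exact hT.hO x
    have hsep' : ∃ e : F', IsInt R t'⁻¹ e ∧ V₁.valuation (φα e) < 1 ∧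
        ¬ V₂.valuation (φα e) < 1 := by
      obtain ⟨e, he, he1, he2⟩ := hsepi
      exact ⟨e, he, (hT.hα₁ e).1 he1, fun h => he2 ((hT.hα₂ e).2 h)⟩
    exact alphaAt_of R K ϖ hϖ φα hφR t'⁻¹ (by rw [e2]; exact ht') V₁ V₂ V₃ hO hT.hϖ₂ h13 hsep'
      q hq (hradq t'⁻¹ (Or.inr rfl)) 𝔫 h𝔫

/-- **(DICH3) at every closed point of both charts, from `Triple`.** -/
theorem dich3_of_triple (ϖ : R) (hϖ : Irreducible ϖ) (t : F) (ht : Transcendental K t)
    (hfin : FiniteDimensional K⟮t⟯ F)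
    (q n : ℕ) (hq : 0 < q) (φα φβ : F' →+* F) (Nα Nβ : F →* F')
    (V₁ V₂ V₃ : ValuationSubring F) (V₁' V₂' : ValuationSubring F') (b₃ : F)
    (hT : H4S36.Triple R K F F' ϖ t q n φα φβ Nα Nβ V₁ V₂ V₃ V₁' V₂' b₃)
    (t' : F') (htt : φα t' = t) (hfin' : FiniteDimensional K⟮t'⟯ F')
    (hsep : ∃ e : F', IsInt R t' e ∧ V₁'.valuation e < 1 ∧ ¬ V₂'.valuation e < 1)
    (hsepi : ∃ e : F', IsInt R t'⁻¹ e ∧ V₁'.valuation e < 1 ∧ ¬ V₂'.valuation e < 1)
    (hN : ∀ c' : F', c' = t' ∨ c' = t'⁻¹ → ∀ b : F, IsInt R (φα c') b → IsInt R c' (Nα b))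
    (w : F →+* F) (hww : ∀ x, w (w x) = x)
    (hwR : ∀ r : R, w (algebraMap R F r) = algebraMap R F r)
    (hHW : H26WT.HWAt R w t)
    (h12 : ∀ x : F, x ∈ V₂ ↔ w x ∈ V₁) (h33 : ∀ x : F, x ∈ V₃ ↔ w x ∈ V₃)
    (hCC : H4S34.ChartChangeStatement) :
    (∀ 𝔫 : Ideal (Chart R t), IsClosedPt R ϖ t 𝔫 → Dich3At R t 𝔫 V₁ V₂ V₃) ∧
      (∀ 𝔫 : Ideal (Chart R t⁻¹), IsClosedPt R ϖ t⁻¹ 𝔫 → Dich3At R t⁻¹ 𝔫 V₁ V₂ V₃) :=
  dich3_all R K ϖ hϖ t ht hfin V₁ V₂ V₃ (fun x hx => (hT.hO x).1 hx) w hww hwR hHW h12 h33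
    (fun c hc 𝔫 h𝔫 => alphaAt_of_triple R K F F' ϖ hϖ t ht hfin q n hq φα φβ Nα Nβ
      V₁ V₂ V₃ V₁' V₂' b₃ hT t' htt hfin' hsep hsepi hN c hc 𝔫 h𝔫) hCC

end triple

end H18D3

end
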