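import Mathlib
import Fermat.Agent.S36.Dich3Triple_helper18

/-!
# Item 86 (S36), slice (DICH3): the `β`-step in implication form, separation, norms (helper18)

* `H18D3.beta_dich` / `H18D3.beta_of_triple` : `V₁, V₃ ∋ 𝔫 ⇒ V₂ ∋ 𝔫` at every closed dich point
  (= hypothesis `hD` of `H26R2.hR2_of_triple`);
* `H18D3.sep_of_comax` : the directed separation witness in a chart from a comaximality
  witness (`v₁'(e) < 1`, `v₂'(1 - e) < 1`) and `O' = V₁' ∩ V₂'`;
* `H18D3.isInt_norm` : the norm of an element of the chart `φ c'` lies in the chart `c'`.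
-/

set_option autoImplicit false
set_option synthInstance.maxHeartbeats 400000
set_option linter.unusedSectionVars false
set_option linter.unusedVariables false
set_option linter.style.haveILetI false

noncomputable section

open IntermediateField H4S34 H7S18

namespace H18D3

section beta

variable (R : Type) [CommRing R] [IsDomain R] [IsDiscreteValuationRing R]
  (K : Type) [Field K] [CharZero K] [Algebra R K] [IsFractionRing R K]
  {F : Type} [Field F] [Algebra K F] [Algebra R F] [IsScalarTower R K F]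

/-- **the `β`-step at a closed dich point**, from the `α`-steps and the `W`-image point. -/
theorem beta_dich (ϖ : R) (hϖ : Irreducible ϖ) (t : F) (ht : Transcendental K t)
    (V₁ V₂ V₃ : ValuationSubring F)
    (hO : ∀ x : F, GInt R ϖ t x → x ∈ V₁ ∧ x ∈ V₂ ∧ x ∈ V₃)
    (w : F →+* F) (hww : ∀ x, w (w x) = x)
    (hwR : ∀ r : R, w (algebraMap R F r) = algebraMap R F r)
    (hHW : H26WT.HWAt R w t)
    (h12 : ∀ x : F, x ∈ V₂ ↔ w x ∈ V₁) (h33 : ∀ x : F, x ∈ V₃ ↔ w x ∈ V₃)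
    (hα : ∀ c : F, c = t ∨ c = t⁻¹ → ∀ 𝔫 : Ideal (Chart R c), 𝔫.IsPrime →
      AlphaAt R c 𝔫 V₁ V₂ V₃)
    {c : F} (𝔫 : Ideal (Chart R c)) (h𝔫 : IsClosedPt R ϖ c 𝔫) (hd : H26DI.IsDichPt t c 𝔫)
    (hT1 : H10G3.Through R c 𝔫 V₁) (hT3 : H10G3.Through R c 𝔫 V₃) :
    H10G3.Through R c 𝔫 V₂ := by
  have ht0 : t ≠ 0 := by
    intro h0
    apply ht
    rw [h0]
    exact isAlgebraic_zero
  have hc : c = t ∨ c = t⁻¹ := hd.elim Or.inl (fun h => Or.inr h.1)
  have hp := h𝔫.1.isPrime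
  obtain ⟨c', 𝔫', hc', hcl', -, hloc⟩ :=
    H26WT.exists_dich_image w hww hwR ϖ hϖ t ht0 hHW 𝔫 h𝔫 hd
  have hp' := hcl'.1.isPrime
  have hm : ∀ V : ValuationSubring F, V = V₁ ∨ V = V₂ ∨ V = V₃ →
      ∀ y : Chart R c, (y : F) ∈ V := fun V hV y =>
    chart_mem3 R K ϖ hϖ t ht V₁ V₂ V₃ hO c hc V hV y
  have hm' : ∀ V : ValuationSubring F, V = V₁ ∨ V = V₂ ∨ V = V₃ →
      ∀ y : Chart R c', (y : F) ∈ V := fun V hV y =>
    chart_mem3 R K ϖ hϖ t ht V₁ V₂ V₃ hO c' hc' V hV y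
  have h21 : ∀ x : F, x ∈ V₁ ↔ w x ∈ V₂ := by
    intro x
    rw [h12, hww]
  have hT2' : H10G3.Through R c' 𝔫' V₂ :=
    (through_transport R w hww c c' 𝔫 𝔫' hp hp' (fun x => (hloc x).1) V₁ V₂ h12
      (hm V₁ (Or.inl rfl)) (hm' V₂ (Or.inr (Or.inl rfl)))).1 hT1
  have hT3' : H10G3.Through R c' 𝔫' V₃ :=
    (through_transport R w hww c c' 𝔫 𝔫' hp hp' (fun x => (hloc x).1) V₃ V₃ h33
      (hm V₃ (Or.inr (Or.inr rfl))) (hm' V₃ (Or.inr (Or.inr rfl)))).1 hT3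
  have hT1' : H10G3.Through R c' 𝔫' V₁ := (hα c' hc' 𝔫' hp').1 hT2' hT3'
  exact (through_transport R w hww c c' 𝔫 𝔫' hp hp' (fun x => (hloc x).1) V₂ V₁ h21
    (hm V₂ (Or.inr (Or.inl rfl))) (hm' V₁ (Or.inl rfl))).2 hT1'

end beta

section betaTriple

variable (R : Type) [CommRing R] [IsDomain R] [IsDiscreteValuationRing R]
  (K : Type) [Field K] [CharZero K] [Algebra R K] [IsFractionRing R K]
  (F : Type) [Field F] [Algebra K F] [Algebra R F] [IsScalarTower R K F]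
  (F' : Type) [Field F'] [Algebra K F'] [Algebra R F'] [IsScalarTower R K F']

/-- **the `β`-step `V₁, V₃ ∋ 𝔫 ⇒ V₂ ∋ 𝔫` at every closed dich point, from `Triple`**
(= `hD` of `H26R2.hR2_of_triple`). -/
theorem beta_of_triple (ϖ : R) (hϖ : Irreducible ϖ) (t : F) (ht : Transcendental K t)
    (hfin : FiniteDimensional K⟮t⟯ F)
    (q n : ℕ) (hq : 0 < q) (φα φβ : F' →+* F) (Nα Nβ : F →* F')
    (V₁ V₂ V₃ : ValuationSubring F) (V₁' V₂' : ValuationSubring F') (b₃ : F)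
    (hT : H4S36.Triple R K F F' ϖ t q n φα φβ Nα Nβ V₁ V₂ V₃ V₁' V₂' b₃)
    (t' : F') (htt : φα t' = t) (hfin' : FiniteDimensional K⟮t'⟯ F')
    (hsep : ∃ e : F', IsInt R t' e ∧ V₁'.valuation e < 1 ∧ ¬ V₂'.valuation e < 1)
    (hsepi : ∃ e : F', IsInt R t'⁻¹ e ∧ V₁'.valuation e < 1 ∧ ¬ V₂'.valuation e < 1)
    (hN : ∀ c' : F', c' = t' ∨ c' = t'⁻¹ → ∀ b : F, IsInt R (φα c') b → IsInt R c' (Nα b))
    (w : F →+* F) (hww : ∀ x, w (w x) = x)
    (hwR : ∀ r : R, w (algebraMap R F r) = algebraMap R F r)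
    (hHW : H26WT.HWAt R w t)
    (h12 : ∀ x : F, x ∈ V₂ ↔ w x ∈ V₁) (h33 : ∀ x : F, x ∈ V₃ ↔ w x ∈ V₃)
    {c : F} (𝔫 : Ideal (Chart R c)) (h𝔫 : IsClosedPt R ϖ c 𝔫) (hd : H26DI.IsDichPt t c 𝔫)
    (hT1 : H10G3.Through R c 𝔫 V₁) (hT3 : H10G3.Through R c 𝔫 V₃) :
    H10G3.Through R c 𝔫 V₂ :=
  beta_dich R K ϖ hϖ t ht V₁ V₂ V₃ (fun x hx => (hT.hO x).1 hx) w hww hwR hHW h12 h33
    (fun c hc 𝔫 h𝔫 => alphaAt_of_triple R K F F' ϖ hϖ t ht hfin q n hq φα φβ Nα Nβ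
      V₁ V₂ V₃ V₁' V₂' b₃ hT t' htt hfin' hsep hsepi hN c hc 𝔫 h𝔫) 𝔫 h𝔫 hd hT1 hT3

end betaTriple

section sep

variable (R : Type) [CommRing R] [IsDomain R] [IsDiscreteValuationRing R]
  (K : Type) [Field K] [CharZero K] [Algebra R K] [IsFractionRing R K]
  {F' : Type} [Field F'] [Algebra K F'] [Algebra R F'] [IsScalarTower R K F']

/-- **the directed separation witness in the chart `c'`** from a comaximality witness. -/
theorem sep_of_comax (ϖ : R) (hϖ : Irreducible ϖ) (c' : F')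
    (V₁' V₂' : ValuationSubring F')
    (hO' : ∀ x : F', GInt R ϖ c' x ↔ x ∈ V₁' ∧ x ∈ V₂')
    (hint1 : IsInt R c' (1 : F'))
    (e : F') (he1 : e ∈ V₁') (he2 : e ∈ V₂') (h1 : V₁'.valuation e < 1)
    (h2 : V₂'.valuation (1 - e) < 1) :
    ∃ a : F', IsInt R c' a ∧ V₁'.valuation a < 1 ∧ ¬ V₂'.valuation a < 1 := by
  obtain ⟨s, hs, hse⟩ := (hO' e).2 ⟨he1, he2⟩
  have hs0 : s ≠ 0 := by
    intro h0
    exact hs.2 0 (Subalgebra.zero_mem _) (by rw [h0, mul_zero])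
  -- `s` is a unit at `V₁'`, `V₂'`
  have hsint : IsInt R c' s := by
    have : s = algebraMap (Algebra.adjoin R {c'}) F' ⟨s, hs.1⟩ := rfl
    unfold IsInt
    rw [this]
    exact isIntegral_algebraMap
  have hsG : GInt R ϖ c' s := ⟨s, hs, by
    have h : IsInt R c' (s * s) := by
      unfold IsInt at hsint ⊢
      exact hsint.mul hsint
    exact h⟩
  have hsiG : GInt R ϖ c' s⁻¹ := ⟨s, hs, by rw [mul_inv_cancel₀ hs0]; exact hint1⟩
  obtain ⟨hs1, hs2⟩ := (hO' s).1 hsG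
  obtain ⟨hsi1, hsi2⟩ := (hO' s⁻¹).1 hsiG
  have hunit : ∀ V : ValuationSubring F', s ∈ V → s⁻¹ ∈ V → V.valuation s = 1 := by
    intro V h h'
    rw [← V.valuation_le_one_iff] at h h'
    rw [map_inv₀] at h'
    have hv0 : V.valuation s ≠ 0 := (V.valuation.ne_zero_iff).2 hs0
    exact le_antisymm h ((inv_le_one₀ (zero_lt_iff.2 hv0)).1 h')
  have hv1 := hunit V₁' hs1 hsi1
  have hv2 := hunit V₂' hs2 hsi2
  have he2' : V₂'.valuation e = 1 := by
    have h3 : V₂'.valuation (1 - (1 - e)) = V₂'.valuation (1 : F') := by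
      apply Valuation.map_sub_eq_of_lt_left
      rw [map_one]
      exact h2
    rwa [sub_sub_cancel, map_one] at h3
  refine ⟨s * e, hse, ?_, ?_⟩
  · rw [map_mul, hv1, one_mul]
    exact h1
  · rw [map_mul, hv2, one_mul, he2']
    exact lt_irrefl _

end sep

section norm

variable (R : Type) [CommRing R] {F' F : Type} [Field F'] [Field F] [Algebra R F'] [Algebra R F]
  [Algebra F' F] [IsScalarTower R F' F]

/-- **the norm of an element of the chart `φ c'` lies in the chart `c'`.** -/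
theorem isInt_norm (c' : F') (b : F) (hb : IsInt R (algebraMap F' F c') b) :
    IsInt R c' (Algebra.norm F' b) := by
  have h1 : IsIntegral (Algebra.adjoin R {c'}) b := by
    obtain ⟨p, hp, hpx⟩ := hb
    obtain ⟨p₀, hp₀⟩ := Polynomial.map_surjective (H6CM.adjoinMap R (F := F) c')
      (H6CM.adjoinMap_surjective R c') p
    have hmem : p ∈ Polynomial.lifts (H6CM.adjoinMap R (F := F) c') :=
      (Polynomial.mem_lifts _).2 ⟨p₀, hp₀⟩
    obtain ⟨r, hr, -, hrm⟩ := Polynomial.lifts_and_degree_eq_and_monic hmem hp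
    refine ⟨r, hrm, ?_⟩
    have h : (algebraMap (Algebra.adjoin R {algebraMap F' F c'}) F).comp
        (H6CM.adjoinMap R (F := F) c') = algebraMap (Algebra.adjoin R {c'}) F := by
      ext x
      rfl
    rw [← h, ← Polynomial.eval₂_map, hr]
    exact hpx
  exact Algebra.isIntegral_norm F' h1

end norm

end H18D3

end
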