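import Mathlib
import Fermat.Agent.S36.InjLDefs_helper4
import Fermat.Agent.S36.NormK_helper13
import Fermat.Agent.S36.ChartMap_helper6
import Fermat.Agent.S18.Defs

/-!
# Item 86 (S36), sub-lemmas (NINT) + (NBASE) for (HalfAt) (helper29, for helper17)

Setting: `K₁ ⊆ ℚ̄`, `R` a commutative ring with `R → K₁ → F, F'` (e.g. `R = descVal A K₁` or a
valuation subring of `K₁`), `F = FK K₁ (M q q)`, `F' = FK K₁ (M q)`.

* `H29NI.isInt_norm_gen` (generic): `y` integral over `R[φ c']` ⟹ `N_{F/F'} y` integral over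
  `R[c']`  (`Algebra.isIntegral_norm`).
* `H29NI.nint_alpha`, `H29NI.nint_beta` : (NINT) for `H4S36.normAKH`, `H4S36.normBKH`.
* `H29NI.nbase_alpha`, `H29NI.nbase_beta` : (NBASE) `N_α (α m) = m ^ q`, `N_β (β m) = m ^ q`.
-/

set_option autoImplicit false
set_option synthInstance.maxHeartbeats 400000
set_option maxHeartbeats 1000000
set_option linter.style.haveILetI false
set_option linter.style.longLine false
set_option linter.unusedSectionVars false
set_option linter.unusedVariables false

noncomputable section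

open ModularCurve AlgebraicCurve H7S18

namespace H29NI

local notation "Qb" => AlgebraicClosure ℚ

section Gen

variable (R : Type) [CommRing R] {F₀ F : Type} [Field F₀] [Field F] [Algebra R F₀] [Algebra R F]
  [Algebra F₀ F] [IsScalarTower R F₀ F]

/-- **(NINT), generic**: the norm of an element integral over `R[φ c']` is integral over
`R[c']`. -/
theorem isInt_norm_gen (c' : F₀) (y : F) (hy : IsInt R (algebraMap F₀ F c') y) :
    IsInt R c' (Algebra.norm F₀ y) := by
  unfold IsInt at hy ⊢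
  have h1 : IsIntegral (Algebra.adjoin R {c'}) y := by
    obtain ⟨p, hp, hpy⟩ := hy
    have hl : p ∈ Polynomial.lifts (H6CM.adjoinMap R (F := F) c') :=
      (Polynomial.mem_lifts _).2
        (Polynomial.map_surjective _ (H6CM.adjoinMap_surjective R (F := F) c') p)
    obtain ⟨p₀, hp₀, -, hp₀m⟩ := Polynomial.lifts_and_natDegree_eq_and_monic hl hp
    refine ⟨p₀, hp₀m, ?_⟩
    rw [← hp₀, Polynomial.eval₂_map] at hpy
    exact hpy
  exact Algebra.isIntegral_norm F₀ h1

end Gen

section Conc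

variable (K₁ : IntermediateField ℚ Qb) (M q : ℕ) [NeZero M] [NeZero q]
  (R : Type) [CommRing R] [Algebra R K₁]
  [Algebra R (FK K₁ (M * q * q))] [IsScalarTower R K₁ (FK K₁ (M * q * q))]
  [Algebra R (FK K₁ (M * q))] [IsScalarTower R K₁ (FK K₁ (M * q))]

/-- **(NINT)** along `α`. -/
theorem nint_alpha (c' : FK K₁ (M * q)) (y : FK K₁ (M * q * q))
    (hy : IsInt R (heckeAlphaBar K₁ (M * q) q c') y) :
    IsInt R c' (H4S36.normAKH K₁ M q y) := by
  letI := algebraAlong (heckeAlphaBar K₁ (M * q) q)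
  haveI : IsScalarTower R (FK K₁ (M * q)) (FK K₁ (M * q * q)) := by
    refine IsScalarTower.of_algebraMap_eq (fun x => ?_)
    rw [IsScalarTower.algebraMap_apply R K₁ (FK K₁ (M * q * q)),
      IsScalarTower.algebraMap_apply R K₁ (FK K₁ (M * q))]
    exact ((heckeAlphaBar K₁ (M * q) q).commutes _).symm
  exact isInt_norm_gen R c' y hy

/-- **(NINT)** along `β`. -/
theorem nint_beta (c' : FK K₁ (M * q)) (y : FK K₁ (M * q * q))
    (hy : IsInt R (heckeBetaBar K₁ (M * q) q c') y) :
    IsInt R c' (H4S36.normBKH K₁ M q y) := by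
  letI := algebraAlong (heckeBetaBar K₁ (M * q) q)
  haveI : IsScalarTower R (FK K₁ (M * q)) (FK K₁ (M * q * q)) := by
    refine IsScalarTower.of_algebraMap_eq (fun x => ?_)
    rw [IsScalarTower.algebraMap_apply R K₁ (FK K₁ (M * q * q)),
      IsScalarTower.algebraMap_apply R K₁ (FK K₁ (M * q))]
    exact ((heckeBetaBar K₁ (M * q) q).commutes _).symm
  exact isInt_norm_gen R c' y hy

end Conc

section Base

variable (K₁ : IntermediateField ℚ Qb) (M q : ℕ) [NeZero M] [NeZero q]

/-- **(NBASE)** along `α`: `N_α (α m) = m ^ q`. -/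
theorem nbase_alpha (hq : q.Prime) (m : FK K₁ (M * q)) :
    H4S36.normAKH K₁ M q (heckeAlphaBar K₁ (M * q) q m) = m ^ q := by
  letI := algebraAlong (heckeAlphaBar K₁ (M * q) q)
  have h := Algebra.norm_algebraMap (R := FK K₁ (M * q)) (S := FK K₁ (M * q * q)) m
  rw [H13N3.finrank_alphaK ↥K₁ (M * q) q hq (dvd_mul_left q M)] at h
  exact h

/-- **(NBASE)** along `β`: `N_β (β m) = m ^ q`. -/
theorem nbase_beta (hq : q.Prime) (hqM : ¬ q ∣ M) (m : FK K₁ (M * q)) :
    H4S36.normBKH K₁ M q (heckeBetaBar K₁ (M * q) q m) = m ^ q := by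
  letI := algebraAlong (heckeBetaBar K₁ (M * q) q)
  have h := Algebra.norm_algebraMap (R := FK K₁ (M * q)) (S := FK K₁ (M * q * q)) m
  rw [H13N3.finrank_betaK K₁ M q hq hqM] at h
  exact h

end Base

end H29NI

end
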