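import Mathlib
import Fermat.Agent.S36.Dich3Beta_helper18
import Fermat.Agent.S36.HW2_helper24
import Fermat.Agent.S36.TripleEasy_helper11
import Fermat.Agent.S36.NormInt_helper29
import Fermat.Agent.S34.PairGaussFinal_helper8
import Fermat.Agent.S35.FWComp_helper10
import Fermat.Agent.S18.C6e_helper9
import Fermat.Agent.S18.C6b_helper4
import Fermat.Agent.S18.C12bAux_helper7

/-!
# Item 86 (S36), slice (DICH3), CONCRETE (helper18)

Level `M q q` over a number field `K₁ ⊆ ℚ̄`, `R = descVal A K₁`, `ϖ` any uniformizer,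
`V₁ = cV1`, `V₂ = cV2`, `V₁' = cV1'`, `V₂' = cV2'` (`S36/TripleDefs_helper4.lean`), `V₃` any
valuation ring stable under `W_{q²}` (`h33`; for `cV3` this is `H24V3.wq2_mem_V3_iff`) with
`H4S36.Triple`.

* `H18D3.base_lower` : the base function `t'` of level `M q` with `α t' = t`;
* `H18D3.hsep_conc`  : the directed separation witness of level `M q` in the charts `t'`, `t'⁻¹`;
* `H18D3.dich3_conc` : **`Dich3At` at every closed point of both charts**;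
* `H18D3.beta_conc`  : `V₁, V₃ ∋ 𝔫 ⇒ V₂ ∋ 𝔫` at the closed dich points;
* `H18D3.alpha_conc` : the `α`-steps at every prime of both charts.
-/

set_option autoImplicit false
set_option synthInstance.maxHeartbeats 400000
set_option maxHeartbeats 1000000
set_option linter.unusedSectionVars false
set_option linter.unusedVariables false
set_option linter.style.haveILetI false
set_option linter.style.longLine false

noncomputable section

open IntermediateField AlgebraicCurve ModularCurve H7S18 H4S34 RH24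

namespace H18D3

section conc

variable (M : ℕ) [NeZero M] (q : ℕ) [NeZero q] (hq : q.Prime) (hqM : ¬ q ∣ M)
  (hTame : TameLevel q M)
  (A : ValuationSubring (AlgebraicClosure ℚ)) (hA : A.LiesOverPrime q)
  (K₁ : IntermediateField ℚ (AlgebraicClosure ℚ)) (hfin : FiniteDimensional ℚ K₁)
  [IsDiscreteValuationRing ↥(descVal A K₁)]
  [Algebra ↥(descVal A K₁) (FK K₁ (M * q * q))]
  [IsScalarTower ↥(descVal A K₁) K₁ (FK K₁ (M * q * q))]
  [Algebra ↥(descVal A K₁) (FK K₁ (M * q))]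
  [IsScalarTower ↥(descVal A K₁) K₁ (FK K₁ (M * q))]

include hTame in
/-- the base function of level `M q` and its image under `α`. -/
theorem base_lower (t₀ : LaurentSeries ℚ) (ht₀ : IsBase (baseKind q) t₀)
    (t : FK K₁ (M * q * q)) (ht : (t : LaurentSeries K₁) = coeffEmb K₁ t₀) :
    ∃ t' : FK K₁ (M * q), (t' : LaurentSeries K₁) = coeffEmb K₁ t₀ ∧
      (heckeAlphaBar K₁ (M * q) q).toRingHom t' = t ∧ Transcendental K₁ t' ∧
      FiniteDimensional K₁⟮t'⟯ (FK K₁ (M * q)) ∧ Transcendental K₁ t ∧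
      FiniteDimensional K₁⟮t⟯ (FK K₁ (M * q * q)) := by
  have hi : baseKind q = 1 ∨ (baseKind q = 2 ∧ 2 ∣ M * q) ∨ (baseKind q = 3 ∧ 3 ∣ M * q) := by
    rcases h7_baseKind_ok hTame with h | h | h
    · exact Or.inl h
    · exact Or.inr (Or.inl ⟨h.1, Dvd.dvd.mul_right h.2 q⟩)
    · exact Or.inr (Or.inr ⟨h.1, Dvd.dvd.mul_right h.2 q⟩)
  have hi2 : baseKind q = 1 ∨ (baseKind q = 2 ∧ 2 ∣ M * q * q) ∨
      (baseKind q = 3 ∧ 3 ∣ M * q * q) := by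
    rcases hi with h | h | h
    · exact Or.inl h
    · exact Or.inr (Or.inl ⟨h.1, Dvd.dvd.mul_right h.2 q⟩)
    · exact Or.inr (Or.inr ⟨h.1, Dvd.dvd.mul_right h.2 q⟩)
  obtain ⟨t', ht'coe, ht'tr, ht'fin, -⟩ := H9C6e.fieldBasics (M * q) (baseKind q) hi t₀ ht₀ K₁
  obtain ⟨t₂, ht₂coe, ht₂tr, ht₂fin, -⟩ :=
    H9C6e.fieldBasics (M * q * q) (baseKind q) hi2 t₀ ht₀ K₁
  have e2 : t₂ = t := Subtype.ext (ht₂coe.trans ht.symm)
  subst e2
  refine ⟨t', ht'coe, ?_, ht'tr, ht'fin, ht₂tr, ht₂fin⟩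
  apply Subtype.ext
  show ((heckeAlphaBar K₁ (M * q) q t' : FK K₁ (M * q * q)) : LaurentSeries K₁) = _
  rw [coe_heckeAlphaBar, ht'coe, ht₂coe]

include hTame hA hfin in
/-- **the directed separation witness of level `M q`** in the charts `t'`, `t'⁻¹`. -/
theorem hsep_conc (ϖ : ↥(descVal A K₁)) (hϖ : Irreducible ϖ)
    (t₀ : LaurentSeries ℚ) (ht₀ : IsBase (baseKind q) t₀)
    (t' : FK K₁ (M * q)) (ht' : (t' : LaurentSeries K₁) = coeffEmb K₁ t₀)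
    (htr : Transcendental K₁ t')
    (c' : FK K₁ (M * q)) (hc' : c' = t' ∨ c' = t'⁻¹) :
    ∃ e : FK K₁ (M * q), IsInt ↥(descVal A K₁) c' e ∧
      (H4S36.cV1' K₁ (descVal A K₁) M q).valuation e < 1 ∧
      ¬ (H4S36.cV2' K₁ (descVal A K₁) M q hq hqM).valuation e < 1 := by
  haveI : Fact q.Prime := ⟨hq⟩
  obtain ⟨-, hnu, -⟩ := H4DVR.dvrStatement q A hA K₁ hfin
  haveI : CharP (IsLocalRing.ResidueField ↥(descVal A K₁)) q := by
    have h0 : ((q : ℕ) : IsLocalRing.ResidueField ↥(descVal A K₁)) = 0 := by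
      have h3 := (IsLocalRing.residue_eq_zero_iff ((q : ℕ) : ↥(descVal A K₁))).mpr
        ((IsLocalRing.mem_maximalIdeal _).mpr hnu)
      rwa [map_natCast] at h3
    exact (CharP.charP_iff_prime_eq_zero hq).mpr h0
  obtain ⟨e, he1, he2, h1, h2⟩ := H10FC.gauss_comax M q hq hqM K₁ (descVal A K₁)
  have htrR : Transcendental ↥(descVal A K₁) t' := H19S18.h19_transc ↥(descVal A K₁) K₁ htr
  have htrR' : Transcendental ↥(descVal A K₁) t'⁻¹ :=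
    H19S18.h19_transc ↥(descVal A K₁) K₁ (H19S18.h19_transc_inv K₁ htr)
  have hO₀ : ∀ x : FK K₁ (M * q), GInt ↥(descVal A K₁) ϖ t' x ↔
      x ∈ H4S36.cV1' K₁ (descVal A K₁) M q ∧ x ∈ H4S36.cV2' K₁ (descVal A K₁) M q hq hqM :=
    fun x => (H8PB.h8pg_pairGauss M q hq hqM hTame A hA K₁ hfin ϖ hϖ t₀ ht₀ t' ht' x).1
  have hO' : ∀ x : FK K₁ (M * q), GInt ↥(descVal A K₁) ϖ c' x ↔
      x ∈ H4S36.cV1' K₁ (descVal A K₁) M q ∧ x ∈ H4S36.cV2' K₁ (descVal A K₁) M q hq hqM := by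
    intro x
    rcases hc' with rfl | rfl
    · exact hO₀ x
    · rw [H19S18.h19_gint_inv_iff ↥(descVal A K₁) htrR htrR' hϖ x]
      exact hO₀ x
  have hint1 : IsInt ↥(descVal A K₁) c' (1 : FK K₁ (M * q)) := isIntegral_one
  exact sep_of_comax ↥(descVal A K₁) ϖ hϖ c' _ _ hO' hint1 e he1 he2 h1 h2

variable (ϖ : ↥(descVal A K₁)) (hϖ : Irreducible ϖ)
  (t₀ : LaurentSeries ℚ) (ht₀ : IsBase (baseKind q) t₀)
  (t : FK K₁ (M * q * q)) (ht : (t : LaurentSeries K₁) = coeffEmb K₁ t₀) (n : ℕ)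
  (V₃ : ValuationSubring (FK K₁ (M * q * q))) (b₃ : FK K₁ (M * q * q))
  (hT : H4S36.Triple ↥(descVal A K₁) K₁ (FK K₁ (M * q * q)) (FK K₁ (M * q)) ϖ t q n
    (heckeAlphaBar K₁ (M * q) q).toRingHom (heckeBetaBar K₁ (M * q) q).toRingHom
    (H4S36.normAKH K₁ M q) (H4S36.normBKH K₁ M q)
    (H4S36.cV1 K₁ (descVal A K₁) M q) (H4S36.cV2 K₁ (descVal A K₁) M q hq hqM) V₃
    (H4S36.cV1' K₁ (descVal A K₁) M q) (H4S36.cV2' K₁ (descVal A K₁) M q hq hqM) b₃)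
  (h33 : ∀ x : FK K₁ (M * q * q), x ∈ V₃ ↔ H12WQ.wq2KHom K₁ M q hq hqM x ∈ V₃)

include hTame hA hfin hϖ ht₀ ht hT in
/-- **the `α`-steps at every prime of both charts**, concrete. -/
theorem alpha_conc (c : FK K₁ (M * q * q)) (hc : c = t ∨ c = t⁻¹)
    (𝔫 : Ideal (Chart ↥(descVal A K₁) c)) (h𝔫 : 𝔫.IsPrime) :
    AlphaAt ↥(descVal A K₁) c 𝔫 (H4S36.cV1 K₁ (descVal A K₁) M q)
      (H4S36.cV2 K₁ (descVal A K₁) M q hq hqM) V₃ := by
  obtain ⟨t', ht'coe, htt, ht'tr, ht'fin, httr, htfin⟩ := base_lower M q hTame K₁ t₀ ht₀ t ht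
  exact alphaAt_of_triple ↥(descVal A K₁) K₁ (FK K₁ (M * q * q)) (FK K₁ (M * q)) ϖ hϖ t httr
    htfin q n hq.pos _ _ _ _ _ _ V₃ _ _ b₃ hT t' htt ht'fin
    (hsep_conc M q hq hqM hTame A hA K₁ hfin ϖ hϖ t₀ ht₀ t' ht'coe ht'tr t' (Or.inl rfl))
    (hsep_conc M q hq hqM hTame A hA K₁ hfin ϖ hϖ t₀ ht₀ t' ht'coe ht'tr t'⁻¹ (Or.inr rfl))
    (fun c' _ b hb => H29NI.nint_alpha K₁ M q ↥(descVal A K₁) c' b hb) c hc 𝔫 h𝔫

include hTame hA hfin hϖ ht₀ ht hT h33 in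
/-- **(DICH3), concrete**: `Dich3At` (= the second half of `H10G3.Gen3At`, `hD` of
`H19LA.PointLeaves`) at every closed point of both charts. -/
theorem dich3_conc :
    (∀ 𝔫 : Ideal (Chart ↥(descVal A K₁) t), IsClosedPt ↥(descVal A K₁) ϖ t 𝔫 →
      Dich3At ↥(descVal A K₁) t 𝔫 (H4S36.cV1 K₁ (descVal A K₁) M q)
        (H4S36.cV2 K₁ (descVal A K₁) M q hq hqM) V₃) ∧
    (∀ 𝔫 : Ideal (Chart ↥(descVal A K₁) t⁻¹), IsClosedPt ↥(descVal A K₁) ϖ t⁻¹ 𝔫 →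
      Dich3At ↥(descVal A K₁) t⁻¹ 𝔫 (H4S36.cV1 K₁ (descVal A K₁) M q)
        (H4S36.cV2 K₁ (descVal A K₁) M q hq hqM) V₃) := by
  obtain ⟨t', ht'coe, htt, ht'tr, ht'fin, httr, htfin⟩ := base_lower M q hTame K₁ t₀ ht₀ t ht
  refine dich3_all ↥(descVal A K₁) K₁ ϖ hϖ t httr htfin _ _ V₃
    (fun x hx => (hT.hO x).1 hx) (H12WQ.wq2KHom K₁ M q hq hqM)
    (H12WQ.wq2KHom_invol K₁ M q hq hqM) ?_
    (H24HW.h24hw_HW2 M q hq hqM hTame A hA K₁ hfin t₀ ht₀ t ht) (fun x => Iff.rfl) h33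
    (fun c hc 𝔫 h𝔫 => alpha_conc M q hq hqM hTame A hA K₁ hfin ϖ hϖ t₀ ht₀ t ht n V₃ b₃ hT
      c hc 𝔫 h𝔫) H20CC.h20cc_chartChange
  intro r
  rw [IsScalarTower.algebraMap_apply ↥(descVal A K₁) K₁ (FK K₁ (M * q * q))]
  exact H12WQ.wq2KHom_const K₁ M q hq hqM _

include hTame hA hfin hϖ ht₀ ht hT h33 in
/-- **the `β`-step, concrete**: `V₁, V₃ ∋ 𝔫 ⇒ V₂ ∋ 𝔫` at the closed dich points
(= `hD` of `H26R2.hR2_of_triple`). -/
theorem beta_conc {c : FK K₁ (M * q * q)} (𝔫 : Ideal (Chart ↥(descVal A K₁) c))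
    (h𝔫 : IsClosedPt ↥(descVal A K₁) ϖ c 𝔫) (hd : H26DI.IsDichPt t c 𝔫)
    (hT1 : H10G3.Through ↥(descVal A K₁) c 𝔫 (H4S36.cV1 K₁ (descVal A K₁) M q))
    (hT3 : H10G3.Through ↥(descVal A K₁) c 𝔫 V₃) :
    H10G3.Through ↥(descVal A K₁) c 𝔫 (H4S36.cV2 K₁ (descVal A K₁) M q hq hqM) := by
  obtain ⟨t', ht'coe, htt, ht'tr, ht'fin, httr, htfin⟩ := base_lower M q hTame K₁ t₀ ht₀ t ht
  refine beta_dich ↥(descVal A K₁) K₁ ϖ hϖ t httr _ _ V₃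
    (fun x hx => (hT.hO x).1 hx) (H12WQ.wq2KHom K₁ M q hq hqM)
    (H12WQ.wq2KHom_invol K₁ M q hq hqM) ?_
    (H24HW.h24hw_HW2 M q hq hqM hTame A hA K₁ hfin t₀ ht₀ t ht) (fun x => Iff.rfl) h33
    (fun c hc 𝔫 h𝔫 => alpha_conc M q hq hqM hTame A hA K₁ hfin ϖ hϖ t₀ ht₀ t ht n V₃ b₃ hT
      c hc 𝔫 h𝔫) 𝔫 h𝔫 hd hT1 hT3
  intro r
  rw [IsScalarTower.algebraMap_apply ↥(descVal A K₁) K₁ (FK K₁ (M * q * q))]
  exact H12WQ.wq2KHom_const K₁ M q hq hqM _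

end conc

end H18D3

end
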