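import Mathlib
import Fermat.Agent.S36.Dich3Conc_helper18
import Fermat.Agent.S36.TGV3W_helper24

/-!
# Item 86 (S36), slice (DICH3), CONCRETE for `cV1 cV2 cV3` (helper18)

`H18D3.dich3_cV3`, `H18D3.beta_cV3`, `H18D3.alpha_cV3` : the theorems of
`S36/Dich3Conc_helper18.lean` with `V₃ := H4S36.cV3 …` (`h33 := H24V3.wq2_mem_V3_iff`).
-/

set_option autoImplicit false
set_option synthInstance.maxHeartbeats 400000
set_option maxHeartbeats 1000000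
set_option linter.unusedSectionVars false
set_option linter.unusedVariables false
set_option linter.style.haveILetI false
set_option linter.style.longLine false

noncomputable section

open IntermediateField AlgebraicCurve ModularCurve H7S18 H4S34 RH24

namespace H18D3

section cv3

variable (M : ℕ) [NeZero M] (q : ℕ) [NeZero q] (hq : q.Prime) (hqM : ¬ q ∣ M)
  (hTame : TameLevel q M)
  (A : ValuationSubring (AlgebraicClosure ℚ)) (hA : A.LiesOverPrime q)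
  (K₁ : IntermediateField ℚ (AlgebraicClosure ℚ)) (hfin : FiniteDimensional ℚ K₁)
  (hunr : Irreducible ((q : ℕ) : ↥(descVal A K₁)))
  (K₃ : IntermediateField ℚ (AlgebraicClosure ℚ)) (h13 : K₁ ≤ K₃)
  (ζ : (↥K₃)ˣ) (hζ : IsPrimitiveRoot ζ q)
  [IsDiscreteValuationRing ↥(descVal A K₁)] [IsDiscreteValuationRing ↥(descVal A K₃)]
  [Fact q.Prime] [CharP (IsLocalRing.ResidueField ↥(descVal A K₁)) q]
  (B : H28GV.GVBasis (descVal A K₁) (IsLocalRing.residue ↥(descVal A K₁)) M)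
  [Algebra ↥(descVal A K₁) (FK K₁ (M * q * q))]
  [IsScalarTower ↥(descVal A K₁) K₁ (FK K₁ (M * q * q))]
  [Algebra ↥(descVal A K₁) (FK K₁ (M * q))]
  [IsScalarTower ↥(descVal A K₁) K₁ (FK K₁ (M * q))]

include hunr B in
/-- `cV3` is stable under `W_{q²}`. -/
theorem h33_cV3 (x : FK K₁ (M * q * q)) :
    x ∈ H4S36.cV3 K₁ M q hq hqM K₃ (descVal A K₃) h13 ζ hζ ↔
      H12WQ.wq2KHom K₁ M q hq hqM x ∈ H4S36.cV3 K₁ M q hq hqM K₃ (descVal A K₃) h13 ζ hζ :=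
  (H24V3.wq2_mem_V3_iff (descVal A K₁) (descVal A K₃) M q h13 (fun _ => Iff.rfl) hq hunr hqM B
    (H4S36.sq_dvd_level M q) (H4S36.cube_not_dvd_level M q hq hqM) ζ hζ x).symm

variable (ϖ : ↥(descVal A K₁)) (hϖ : Irreducible ϖ)
  (t₀ : LaurentSeries ℚ) (ht₀ : IsBase (baseKind q) t₀)
  (t : FK K₁ (M * q * q)) (ht : (t : LaurentSeries K₁) = coeffEmb K₁ t₀) (n : ℕ)
  (b₃ : FK K₁ (M * q * q))
  (hT : H4S36.Triple ↥(descVal A K₁) K₁ (FK K₁ (M * q * q)) (FK K₁ (M * q)) ϖ t q n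
    (heckeAlphaBar K₁ (M * q) q).toRingHom (heckeBetaBar K₁ (M * q) q).toRingHom
    (H4S36.normAKH K₁ M q) (H4S36.normBKH K₁ M q)
    (H4S36.cV1 K₁ (descVal A K₁) M q) (H4S36.cV2 K₁ (descVal A K₁) M q hq hqM)
    (H4S36.cV3 K₁ M q hq hqM K₃ (descVal A K₃) h13 ζ hζ)
    (H4S36.cV1' K₁ (descVal A K₁) M q) (H4S36.cV2' K₁ (descVal A K₁) M q hq hqM) b₃)

include hTame hA hfin hunr B hϖ ht₀ ht hT in
/-- **(DICH3), concrete, for `cV1 cV2 cV3`**: `hD` at every closed point of both charts. -/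
theorem dich3_cV3 :
    (∀ 𝔫 : Ideal (Chart ↥(descVal A K₁) t), IsClosedPt ↥(descVal A K₁) ϖ t 𝔫 →
      Dich3At ↥(descVal A K₁) t 𝔫 (H4S36.cV1 K₁ (descVal A K₁) M q)
        (H4S36.cV2 K₁ (descVal A K₁) M q hq hqM)
        (H4S36.cV3 K₁ M q hq hqM K₃ (descVal A K₃) h13 ζ hζ)) ∧
    (∀ 𝔫 : Ideal (Chart ↥(descVal A K₁) t⁻¹), IsClosedPt ↥(descVal A K₁) ϖ t⁻¹ 𝔫 →
      Dich3At ↥(descVal A K₁) t⁻¹ 𝔫 (H4S36.cV1 K₁ (descVal A K₁) M q)
        (H4S36.cV2 K₁ (descVal A K₁) M q hq hqM)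
        (H4S36.cV3 K₁ M q hq hqM K₃ (descVal A K₃) h13 ζ hζ)) :=
  dich3_conc M q hq hqM hTame A hA K₁ hfin ϖ hϖ t₀ ht₀ t ht n _ b₃ hT
    (h33_cV3 M q hq hqM A K₁ hunr K₃ h13 ζ hζ B)

include hTame hA hfin hunr B hϖ ht₀ ht hT in
/-- **the `β`-step, concrete, for `cV1 cV2 cV3`** (closed dich points). -/
theorem beta_cV3 {c : FK K₁ (M * q * q)} (𝔫 : Ideal (Chart ↥(descVal A K₁) c))
    (h𝔫 : IsClosedPt ↥(descVal A K₁) ϖ c 𝔫) (hd : H26DI.IsDichPt t c 𝔫)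
    (hT1 : H10G3.Through ↥(descVal A K₁) c 𝔫 (H4S36.cV1 K₁ (descVal A K₁) M q))
    (hT3 : H10G3.Through ↥(descVal A K₁) c 𝔫
      (H4S36.cV3 K₁ M q hq hqM K₃ (descVal A K₃) h13 ζ hζ)) :
    H10G3.Through ↥(descVal A K₁) c 𝔫 (H4S36.cV2 K₁ (descVal A K₁) M q hq hqM) :=
  beta_conc M q hq hqM hTame A hA K₁ hfin ϖ hϖ t₀ ht₀ t ht n _ b₃ hT
    (h33_cV3 M q hq hqM A K₁ hunr K₃ h13 ζ hζ B) 𝔫 h𝔫 hd hT1 hT3

end cv3

end H18D3

end
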