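import Mathlib
import Fermat.Agent.S36.TripleDefs_helper4
import Fermat.Agent.S36.Gen3Asm_helper10

/-!
# Item 86 (S36, Carayol), leaf (HalfAt) (helper17): INTERFACE

The cross-level data `H10G3.HalfAt` (chart form of `H17T3.HalfDataC`) at the TRIPLE points of the
charts `c ∈ {t, t⁻¹}` of the level `M q q` over the unramified number field `K₁`, for the concrete
objects of `S36/TripleDefs_helper4.lean` (`cV1, cV2, cV3, cV1', cV2'`), `α = heckeAlphaBar`,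
`β = heckeBetaBar`, norms `normAKH`, `normBKH`.

* `H17HB.HalfAlphaStatement` : `HalfAt … φα Nα cV3 cV1' cV2' n ε (1 + q r)` at every closed point
  `𝔫` through which `cV1, cV2, cV3` pass, for every unit `ε` of `B_𝔫`.
* `H17HB.ImgPt R ϖ t W c 𝔫`  : the point `𝔫` of the chart `c` has a `W`-image point on one of the
  charts `t`, `t⁻¹` (`W = W_{q²}`; from `H26WT.exists_dich_image` + (H_W) at level `M q q`, or
  from (WPT2) at the non-cuspidal points).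
* `H17HB.HalfBetaStatement`  : `HalfAt … φβ Nβ cV3 cV2' cV1' n ε (1 + q r)` at every such point
  which has a `W`-image point.

Both statements carry the concrete `H4S36.Triple` as a hypothesis (TRIPLE-ASM).
-/

set_option autoImplicit false
set_option synthInstance.maxHeartbeats 400000
set_option maxHeartbeats 4000000

noncomputable section

open IntermediateField AlgebraicCurve ModularCurve H7S18 H4S34 RH24

namespace H17HB

local notation "Qb" => AlgebraicClosure ℚ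

/-- `𝔫` has a `W`-image point `𝔫₂` on one of the charts `t`, `t⁻¹`:
`InLoc c₂ 𝔫₂ x ↔ InLoc c 𝔫 (W x)`.  (Conclusion of `H26WT.exists_dich_image` / of (WPT2).) -/
def ImgPt (R : Type) [CommRing R] {F : Type} [Field F] [Algebra R F] (ϖ : R) (t : F)
    (W : F →+* F) (c : F) (𝔫 : Ideal (Chart R c)) : Prop :=
  ∃ (c₂ : F) (𝔫₂ : Ideal (Chart R c₂)), (c₂ = t ∨ c₂ = t⁻¹) ∧ IsClosedPt R ϖ c₂ 𝔫₂ ∧
    ∀ x : F, InLoc R c₂ 𝔫₂ x ↔ InLoc R c 𝔫 (W x)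

/-- **(HalfAt), `α`** at the triple points of both charts. -/
def HalfAlphaStatement : Prop :=
  ∀ (M : ℕ) [NeZero M] (q : ℕ) [NeZero q] (hq : q.Prime) (hqM : ¬ q ∣ M) (_ : TameLevel q M)
    (A : ValuationSubring Qb) (_ : A.LiesOverPrime q)
    (K₁ : IntermediateField ℚ Qb) (_ : FiniteDimensional ℚ K₁)
    (_ : Irreducible ((q : ℕ) : ↥(descVal A K₁)))
    (_ : ∃ ζ : K₁, IsPrimitiveRoot ζ (branchIndex (baseKind q) M))
    [IsDiscreteValuationRing ↥(descVal A K₁)]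
    (K₃ : IntermediateField ℚ Qb) (_ : FiniteDimensional ℚ K₃) (h13 : K₁ ≤ K₃)
    [IsDiscreteValuationRing ↥(descVal A K₃)]
    (ζ : (↥K₃)ˣ) (hζ : IsPrimitiveRoot ζ q)
    [Algebra ↥(descVal A K₁) (FK K₁ (M * q * q))]
    [IsScalarTower ↥(descVal A K₁) K₁ (FK K₁ (M * q * q))]
    [Algebra ↥(descVal A K₁) (FK K₁ (M * q))]
    [IsScalarTower ↥(descVal A K₁) K₁ (FK K₁ (M * q))]
    (t₀ : LaurentSeries ℚ) (_ : IsBase (baseKind q) t₀)
    (t : FK K₁ (M * q * q)) (_ : (t : LaurentSeries K₁) = coeffEmb K₁ t₀)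
    (n : ℕ) (_ : 0 < n) (_ : ¬ q ∣ n)
    (_ : H4S36.Triple ↥(descVal A K₁) K₁ (FK K₁ (M * q * q)) (FK K₁ (M * q))
      ((q : ℕ) : ↥(descVal A K₁)) t q n
      (heckeAlphaBar K₁ (M * q) q).toRingHom (heckeBetaBar K₁ (M * q) q).toRingHom
      (H4S36.normAKH K₁ M q) (H4S36.normBKH K₁ M q)
      (H4S36.cV1 K₁ (descVal A K₁) M q) (H4S36.cV2 K₁ (descVal A K₁) M q hq hqM)
      (H4S36.cV3 K₁ M q hq hqM K₃ (descVal A K₃) h13 ζ hζ)
      (H4S36.cV1' K₁ (descVal A K₁) M q) (H4S36.cV2' K₁ (descVal A K₁) M q hq hqM)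
      (H4S36.cb3 K₁ M q))
    (c : FK K₁ (M * q * q)) (_ : c = t ∨ c = t⁻¹)
    (𝔫 : Ideal (Chart ↥(descVal A K₁) c))
    (_ : IsClosedPt ↥(descVal A K₁) ((q : ℕ) : ↥(descVal A K₁)) c 𝔫)
    (_ : H10G3.Through ↥(descVal A K₁) c 𝔫 (H4S36.cV1 K₁ (descVal A K₁) M q))
    (_ : H10G3.Through ↥(descVal A K₁) c 𝔫 (H4S36.cV2 K₁ (descVal A K₁) M q hq hqM))
    (_ : H10G3.Through ↥(descVal A K₁) c 𝔫
      (H4S36.cV3 K₁ M q hq hqM K₃ (descVal A K₃) h13 ζ hζ))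
    (ε : FK K₁ (M * q * q)) (_ : InLoc ↥(descVal A K₁) c 𝔫 ε)
    (_ : InLoc ↥(descVal A K₁) c 𝔫 ε⁻¹) (_ : ε ≠ 0) (r : ↥(descVal A K₁)),
    H10G3.HalfAt ↥(descVal A K₁) c 𝔫 (heckeAlphaBar K₁ (M * q) q).toRingHom
      (H4S36.normAKH K₁ M q) (H4S36.cV3 K₁ M q hq hqM K₃ (descVal A K₃) h13 ζ hζ)
      (H4S36.cV1' K₁ (descVal A K₁) M q) (H4S36.cV2' K₁ (descVal A K₁) M q hq hqM) n ε
      (algebraMap ↥(descVal A K₁) (FK K₁ (M * q)) (1 + ((q : ℕ) : ↥(descVal A K₁)) * r))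

/-- **(HalfAt), `β`** at the triple points of both charts which have a `W`-image point. -/
def HalfBetaStatement : Prop :=
  ∀ (M : ℕ) [NeZero M] (q : ℕ) [NeZero q] (hq : q.Prime) (hqM : ¬ q ∣ M) (_ : TameLevel q M)
    (A : ValuationSubring Qb) (_ : A.LiesOverPrime q)
    (K₁ : IntermediateField ℚ Qb) (_ : FiniteDimensional ℚ K₁)
    (_ : Irreducible ((q : ℕ) : ↥(descVal A K₁)))
    (_ : ∃ ζ : K₁, IsPrimitiveRoot ζ (branchIndex (baseKind q) M))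
    [IsDiscreteValuationRing ↥(descVal A K₁)]
    (K₃ : IntermediateField ℚ Qb) (_ : FiniteDimensional ℚ K₃) (h13 : K₁ ≤ K₃)
    [IsDiscreteValuationRing ↥(descVal A K₃)]
    (ζ : (↥K₃)ˣ) (hζ : IsPrimitiveRoot ζ q)
    [Algebra ↥(descVal A K₁) (FK K₁ (M * q * q))]
    [IsScalarTower ↥(descVal A K₁) K₁ (FK K₁ (M * q * q))]
    [Algebra ↥(descVal A K₁) (FK K₁ (M * q))]
    [IsScalarTower ↥(descVal A K₁) K₁ (FK K₁ (M * q))]
    (t₀ : LaurentSeries ℚ) (_ : IsBase (baseKind q) t₀)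
    (t : FK K₁ (M * q * q)) (_ : (t : LaurentSeries K₁) = coeffEmb K₁ t₀)
    (n : ℕ) (_ : 0 < n) (_ : ¬ q ∣ n)
    (_ : H4S36.Triple ↥(descVal A K₁) K₁ (FK K₁ (M * q * q)) (FK K₁ (M * q))
      ((q : ℕ) : ↥(descVal A K₁)) t q n
      (heckeAlphaBar K₁ (M * q) q).toRingHom (heckeBetaBar K₁ (M * q) q).toRingHom
      (H4S36.normAKH K₁ M q) (H4S36.normBKH K₁ M q)
      (H4S36.cV1 K₁ (descVal A K₁) M q) (H4S36.cV2 K₁ (descVal A K₁) M q hq hqM)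
      (H4S36.cV3 K₁ M q hq hqM K₃ (descVal A K₃) h13 ζ hζ)
      (H4S36.cV1' K₁ (descVal A K₁) M q) (H4S36.cV2' K₁ (descVal A K₁) M q hq hqM)
      (H4S36.cb3 K₁ M q))
    (c : FK K₁ (M * q * q)) (_ : c = t ∨ c = t⁻¹)
    (𝔫 : Ideal (Chart ↥(descVal A K₁) c))
    (_ : IsClosedPt ↥(descVal A K₁) ((q : ℕ) : ↥(descVal A K₁)) c 𝔫)
    (_ : H10G3.Through ↥(descVal A K₁) c 𝔫 (H4S36.cV1 K₁ (descVal A K₁) M q))
    (_ : H10G3.Through ↥(descVal A K₁) c 𝔫 (H4S36.cV2 K₁ (descVal A K₁) M q hq hqM))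
    (_ : H10G3.Through ↥(descVal A K₁) c 𝔫
      (H4S36.cV3 K₁ M q hq hqM K₃ (descVal A K₃) h13 ζ hζ))
    (_ : ImgPt ↥(descVal A K₁) ((q : ℕ) : ↥(descVal A K₁)) t
      (H12WQ.wq2KHom K₁ M q hq hqM) c 𝔫)
    (ε : FK K₁ (M * q * q)) (_ : InLoc ↥(descVal A K₁) c 𝔫 ε)
    (_ : InLoc ↥(descVal A K₁) c 𝔫 ε⁻¹) (_ : ε ≠ 0) (r : ↥(descVal A K₁)),
    H10G3.HalfAt ↥(descVal A K₁) c 𝔫 (heckeBetaBar K₁ (M * q) q).toRingHom
      (H4S36.normBKH K₁ M q) (H4S36.cV3 K₁ M q hq hqM K₃ (descVal A K₃) h13 ζ hζ)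
      (H4S36.cV2' K₁ (descVal A K₁) M q hq hqM) (H4S36.cV1' K₁ (descVal A K₁) M q) n ε
      (algebraMap ↥(descVal A K₁) (FK K₁ (M * q)) (1 + ((q : ℕ) : ↥(descVal A K₁)) * r))

end H17HB

end
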