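/-
helper17: item 86 (S36, Carayol), slice (TOR3) — the cross-level data `HalfDataC` at a triple
point, from chart-level inputs (Mathlib only, on top of `Tor3C_helper17`).

Setting: `A` = chart ring of the lower level (`⊆ F'`), `S` = chart ring of the upper level
(`⊆ F`), `f : A → S` the restriction of `φ = α^*` (or `β^*`), `S` integral over `A`;
`𝔫` a prime of `S` which is the ONLY prime of `S` over `𝔫 ∩ A` (slice TRI, helper18);
`B = S_𝔫` (`φB : B → F`).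

* `h17t3_dvd_of_unique` : every `s ∉ 𝔫` divides the image of some `m ∈ A`, `m ∉ 𝔫 ∩ A`
  (going-up for ideals + uniqueness);
* `h17t3_norm_mem`      : `x ∈ B ⟹ φ (Nm x) ∈ B` (norm of chart elements is in the lower chart);
* `h17t3_half_core`     : `HalfDataC φ Nm φB V₃ V₁' V₂' n ε cN` with `B' = φ⁻¹(B)`, from
  (T2-chart) `∀ y ∈ S, ∃ a ∈ A, y ≡ φ a mod 𝔪(V₃)` (slice CU3, helper9), lying over, `B`
  `n`-root closed.
-/
import Mathlib
import Fermat.Agent.S36.Tor3C_helper17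

set_option autoImplicit false
set_option linter.unusedSectionVars false
set_option linter.unusedVariables false
set_option linter.style.haveILetI false

namespace H17T3

section Half

/-- **(INT)** if `𝔫` is the only prime of `S` over `𝔫 ∩ A` (`S` integral over `A`), then every
`s ∉ 𝔫` divides the image of some `m ∈ A` with `f m ∉ 𝔫`. -/
theorem h17t3_dvd_of_unique {A S : Type*} [CommRing A] [CommRing S] (f : A →+* S)
    (hint : f.IsIntegral) (𝔫 : Ideal S) [h𝔫 : 𝔫.IsPrime]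
    (huniq : ∀ 𝔮 : Ideal S, 𝔮.IsPrime → 𝔮.comap f = 𝔫.comap f → 𝔮 = 𝔫)
    (s : S) (hs : s ∉ 𝔫) : ∃ (m : A) (b : S), f m ∉ 𝔫 ∧ s * b = f m := by
  by_contra hcon
  letI : Algebra A S := f.toAlgebra
  haveI : Algebra.IsIntegral A S := ⟨hint⟩
  have hle : (Ideal.span {s}).comap (algebraMap A S) ≤ 𝔫.comap (algebraMap A S) := by
    intro m hm
    rw [Ideal.mem_comap] at hm ⊢
    obtain ⟨b, hb⟩ := Ideal.mem_span_singleton'.mp hm
    by_contra hmn
    exact hcon ⟨m, b, hmn, by rw [mul_comm]; exact hb⟩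
  obtain ⟨Q, hQ, hQp, hQc⟩ := Ideal.exists_ideal_over_prime_of_isIntegral
    (𝔫.comap (algebraMap A S)) (Ideal.span {s}) hle
  have hQn : Q = 𝔫 := huniq Q hQp hQc
  apply hs
  rw [← hQn]
  exact hQ (Ideal.subset_span (Set.mem_singleton s))

variable {F F' A S B : Type*} [Field F] [Field F'] [CommRing A] [CommRing S] [CommRing B]

/-- **norms of elements of the local ring**: `x ∈ B = S_𝔫 ⟹ φ (Nm x) ∈ B`. -/
theorem h17t3_norm_mem (φ : F' →+* F) (Nm : F →* F') (ιA : A →+* F') (ιS : S →+* F)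
    (f : A →+* S) (hf : ∀ a, ιS (f a) = φ (ιA a)) (hint : f.IsIntegral)
    (d : ℕ) (hNint : ∀ y : S, ∃ a : A, ιA a = Nm (ιS y)) (hNbase : ∀ m : F', Nm (φ m) = m ^ d)
    (𝔫 : Ideal S) [h𝔫 : 𝔫.IsPrime]
    (huniq : ∀ 𝔮 : Ideal S, 𝔮.IsPrime → 𝔮.comap f = 𝔫.comap f → 𝔮 = 𝔫)
    (x : F) (hx : ∃ a s : S, s ∉ 𝔫 ∧ ιS s * x = ιS a) :
    ∃ a s : S, s ∉ 𝔫 ∧ ιS s * φ (Nm x) = ιS a := by
  obtain ⟨a, s, hs, e⟩ := hx
  obtain ⟨m, b, hm, hsb⟩ := h17t3_dvd_of_unique f hint 𝔫 huniq s hs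
  -- `φ (ιA m) * x = ιS (a * b)`
  have h1 : φ (ιA m) * x = ιS (a * b) := by
    rw [← hf, ← hsb, map_mul, map_mul, mul_comm (ιS s) (ιS b), mul_assoc, e, mul_comm]
  obtain ⟨a', ha'⟩ := hNint (a * b)
  have h2 : ιA m ^ d * Nm x = ιA a' := by
    rw [ha', ← h1, map_mul, hNbase]
  refine ⟨f a', f m ^ d, ?_, ?_⟩
  · intro h
    exact hm (h𝔫.mem_of_pow_mem d h)
  · rw [map_pow, hf, hf, ← map_pow, ← map_mul, h2]

/-- `V' = φ⁻¹ V` in membership form. -/
theorem mem_of_lying_over (φ : F' →+* F) (V : ValuationSubring F) (V' : ValuationSubring F')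
    (hl : ∀ x : F', V'.valuation x < 1 → V.valuation (φ x) < 1) (x : F') (hx : φ x ∈ V) :
    x ∈ V' := by
  by_contra hx'
  have h3 : 1 < V'.valuation x :=
    not_le.mp (fun h => hx' ((V'.valuation_le_one_iff _).mp h))
  have hx0 : x ≠ 0 := by
    intro h0
    apply hx'
    rw [h0]
    exact V'.zero_mem
  have h1 : V'.valuation x⁻¹ < 1 := by
    rw [map_inv₀]
    exact inv_lt_one_of_one_lt₀ h3
  have h6 : V.valuation (φ x⁻¹) < 1 := hl _ h1
  have h4 : V.valuation (φ x) ≤ 1 := (V.valuation_le_one_iff _).mpr hx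
  have h5 : V.valuation (φ x⁻¹) * V.valuation (φ x) = 1 := by
    rw [← map_mul, ← map_mul, inv_mul_cancel₀ hx0, map_one, map_one]
  have : V.valuation (φ x⁻¹) * V.valuation (φ x) < 1 := by
    calc V.valuation (φ x⁻¹) * V.valuation (φ x) ≤ V.valuation (φ x⁻¹) * 1 :=
          mul_le_mul' le_rfl h4
      _ = V.valuation (φ x⁻¹) := mul_one _
      _ < 1 := h6
  rw [h5] at this
  exact lt_irrefl _ this

/-- **(TOR3) the cross-level data at a triple point**, from chart-level inputs. -/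
theorem h17t3_half_core (φ : F' →+* F) (Nm : F →* F') (ιA : A →+* F') (ιS : S →+* F)
    (f : A →+* S) (hf : ∀ a, ιS (f a) = φ (ιA a)) (hint : f.IsIntegral)
    (d n : ℕ) (hNint : ∀ y : S, ∃ a : A, ιA a = Nm (ιS y))
    (hNbase : ∀ m : F', Nm (φ m) = m ^ d)
    (𝔫 : Ideal S) [h𝔫 : 𝔫.IsPrime]
    (huniq : ∀ 𝔮 : Ideal S, 𝔮.IsPrime → 𝔮.comap f = 𝔫.comap f → 𝔮 = 𝔫)
    (φB : B →+* F)
    (hB : ∀ x : F, (∃ b, φB b = x) ↔ ∃ a s : S, s ∉ 𝔫 ∧ ιS s * x = ιS a)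
    (hBroot : ∀ z : F, (∃ b, φB b = z ^ n) → ∃ b, φB b = z)
    (V₁ V₂ V₃ : ValuationSubring F) (V₁' V₂' : ValuationSubring F')
    (hS₁ : ∀ y : S, ιS y ∈ V₁) (hS₂ : ∀ y : S, ιS y ∈ V₂) (hS₃ : ∀ y : S, ιS y ∈ V₃)
    (hT₁ : ∀ s : S, s ∉ 𝔫 → V₁.valuation (ιS s) = 1)
    (hT₂ : ∀ s : S, s ∉ 𝔫 → V₂.valuation (ιS s) = 1)
    (hT₃ : ∀ s : S, s ∉ 𝔫 → V₃.valuation (ιS s) = 1)
    (hl₁ : ∀ x : F', V₁'.valuation x < 1 → V₁.valuation (φ x) < 1)
    (hl₂ : ∀ x : F', V₂'.valuation x < 1 → V₂.valuation (φ x) < 1)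
    (hT2 : ∀ y : S, ∃ a : A, Cg V₃ (ιS y) (φ (ιA a)))
    (ε : B) (hε : IsUnit ε) (cN : F') (hcN : ∃ b, φB b = φ cN) :
    HalfDataC φ Nm φB V₃ V₁' V₂' n ε cN := by
  -- `B ⊆ V_i`
  have hBV : ∀ (V : ValuationSubring F), (∀ y : S, ιS y ∈ V) →
      (∀ s : S, s ∉ 𝔫 → V.valuation (ιS s) = 1) → ∀ x : F, (∃ b, φB b = x) → x ∈ V := by
    intro V hSV hTV x hx
    obtain ⟨a, s, hs, e⟩ := (hB x).mp hx
    have h1 := congrArg V.valuation e
    rw [map_mul, hTV s hs, one_mul] at h1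
    rw [← V.valuation_le_one_iff, h1]
    exact (V.valuation_le_one_iff _).mpr (hSV a)
  refine ⟨⟨φB.range.comap φ, ?_, ?_, ?_, ?_, ?_, ?_⟩⟩
  · intro x hx
    exact mem_of_lying_over φ V₁ V₁' hl₁ x (hBV V₁ hS₁ hT₁ _ (by simpa using hx))
  · intro x hx
    exact mem_of_lying_over φ V₂ V₂' hl₂ x (hBV V₂ hS₂ hT₂ _ (by simpa using hx))
  · intro x hx
    simpa using hx
  · intro x hx
    have h1 : ∃ b, φB b = φ x ^ n := by simpa using hx
    have h2 := hBroot (φ x) h1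
    simpa using h2
  · -- (T2)
    intro b
    obtain ⟨a, s, hs, e⟩ := (hB (φB b)).mp ⟨b, rfl⟩
    obtain ⟨da, hda⟩ := hT2 a
    obtain ⟨ds, hds⟩ := hT2 s
    have hs1 : V₃.valuation (ιS s) = 1 := hT₃ s hs
    have hds1 : V₃.valuation (φ (ιA ds)) = 1 := cg_val_eq_one (cg_symm hds) hs1
    have hs0 : ιS s ≠ 0 := by
      intro h0
      rw [h0, map_zero] at hs1
      exact zero_ne_one hs1
    have hφds0 : φ (ιA ds) ≠ 0 := by
      intro h0
      rw [h0, map_zero] at hds1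
      exact zero_ne_one hds1
    have hds0 : ιA ds ≠ 0 := by
      intro h0
      rw [h0, map_zero] at hφds0
      exact hφds0 rfl
    have hfds : f ds ∉ 𝔫 := by
      intro hmem
      -- `s - f ds` is small at `V₃`, hence in `𝔫`
      have h1 : s - f ds ∈ 𝔫 := by
        by_contra hnot
        have h2 := hT₃ _ hnot
        have h3 : V₃.valuation (ιS (s - f ds)) < 1 := by
          rw [map_sub, hf]
          exact hds
        rw [h2] at h3
        exact lt_irrefl _ h3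
      have h4 : s = (s - f ds) + f ds := by ring
      rw [h4] at hs
      exact hs (𝔫.add_mem h1 hmem)
    refine ⟨ιA da * (ιA ds)⁻¹, ?_, ?_⟩
    · -- membership in `B'`
      have h1 : ∃ b, φB b = φ (ιA da * (ιA ds)⁻¹) := by
        rw [hB]
        refine ⟨f da, f ds, hfds, ?_⟩
        rw [hf, hf, map_mul, map_inv₀]
        field_simp
      simpa using h1
    · -- the congruence
      have hb : φB b = ιS a * (ιS s)⁻¹ := by
        rw [← e]
        field_simp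
      rw [hb, map_mul, map_inv₀]
      have hsi : (ιS s)⁻¹ ∈ V₃ := by
        rw [← V₃.valuation_le_one_iff, map_inv₀, hs1, inv_one]
      have hφda : φ (ιA da) ∈ V₃ := by
        rw [← hf]
        exact hS₃ _
      exact cg_mul hda (cg_inv hds hds1) hφda hsi
  · -- norms of units
    obtain ⟨εi, hεi⟩ := hε.exists_right_inv
    have hε0 : φB ε * φB εi = 1 := by rw [← map_mul, hεi, map_one]
    have hφε0 : φB ε ≠ 0 := left_ne_zero_of_mul_eq_one hε0
    have hinv : φB εi = (φB ε)⁻¹ := eq_inv_of_mul_eq_one_right hε0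
    have h1 : ∃ a s : S, s ∉ 𝔫 ∧ ιS s * φ (Nm (φB εi)) = ιS a :=
      h17t3_norm_mem φ Nm ιA ιS f hf hint d hNint hNbase 𝔫 huniq (φB εi)
        ((hB _).mp ⟨εi, rfl⟩)
    obtain ⟨b₁, hb₁⟩ := (hB _).mpr h1
    obtain ⟨b₂, hb₂⟩ := hcN
    have h2 : Nm (φB εi) = (Nm (φB ε))⁻¹ := by
      rw [hinv]
      exact nm_inv Nm hφε0
    have h3 : ∃ b, φB b = φ (cN * (Nm (φB ε))⁻¹) := by
      refine ⟨b₂ * b₁, ?_⟩
      rw [map_mul, map_mul, hb₁, hb₂, h2]
    simpa using h3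

end Half

end H17T3
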