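import Mathlib
import Fermat.Agent.S36.Tor3Half_helper17
import Fermat.Agent.S36.Gen3Asm_helper10
import Fermat.Agent.S36.Tri_helper18
import Fermat.Agent.S36.Dich3_helper18

/-!
# Item 86 (S36, Carayol), leaf (HalfAt) (helper17): the generic `α`-theorem

Chart form, generic: `A = Chart R c'` (lower level), `S = Chart R c` (upper level),
`f : A → S` the restriction of `φ = α^*` (integral), norms of chart elements are chart elements.
At a TRIPLE point `𝔫` of `S` (`V₁, V₂, V₃` pass through `𝔫`):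

* `H17HB.tri_alpha`  : `𝔫` is the only prime of `S` over `𝔫 ∩ A`  (TRI), from
  (U) `rad(ϖ S) ⊇ P₁ ∩ P₂ ∩ P₃`, chart-level residue degree one of `V₃` (`hT2`), and the two
  norm congruences `cNα₁`, `cNα₂` of `H4S36.Triple` (no going-down, no separation witness);
* `H17HB.halfAt_alpha_core` : `H10G3.HalfAt R c 𝔫 φ Nm V₃ V₁' V₂' n ε cN` for every unit `ε` of
  `B_𝔫` (via `H17T3.h17t3_half_core`).
-/

set_option autoImplicit false
set_option synthInstance.maxHeartbeats 400000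
set_option maxHeartbeats 1000000
set_option linter.unusedSectionVars false
set_option linter.unusedVariables false
set_option linter.style.haveILetI false

noncomputable section

open IntermediateField H4S34 H17T3

namespace H17HB

section Tri

variable (R : Type) [CommRing R] {F : Type} [Field F] [Algebra R F]
  {F' : Type} [Field F'] [Algebra R F']

/-- a non-unit of `V` among the elements of `V` -/
theorem val_eq_one_of_not_lt (V : ValuationSubring F) {x : F} (hx : x ∈ V)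
    (h : ¬ V.valuation x < 1) : V.valuation x = 1 :=
  le_antisymm ((V.valuation_le_one_iff x).mpr hx) (not_lt.mp h)

/-- **(TRI), `α`**: at a triple point `𝔫`, `𝔫` is the only prime of the upper chart over
`𝔫 ∩ A`. -/
theorem tri_alpha (φ : F' →+* F) (Nm : F →* F') (c' : F') (c : F)
    (f : Chart R c' →+* Chart R c) (hf : ∀ a, ((f a : Chart R c) : F) = φ (a : F'))
    (hNint : ∀ y : Chart R c, ∃ a : Chart R c', (a : F') = Nm (y : F))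
    (V₁ V₂ V₃ : ValuationSubring F) (V₁' : ValuationSubring F')
    (hS₁ : ∀ y : Chart R c, (y : F) ∈ V₁) (hS₂ : ∀ y : Chart R c, (y : F) ∈ V₂)
    (hS₃ : ∀ y : Chart R c, (y : F) ∈ V₃)
    (hA₁ : ∀ a : Chart R c', (a : F') ∈ V₁')
    (q : ℕ) (hq : 0 < q)
    (cN₁ : ∀ x : F, V₁.valuation x = 1 → V₃.valuation x = 1 → ∀ a : F', a ∈ V₁' →
      Cg V₃ x (φ a) → Cg V₁ (φ (Nm x)) (x * φ a ^ (q - 1)))
    (cN₂ : ∀ x : F, V₂.valuation x = 1 → Cg V₂ (φ (Nm x)) (x ^ q))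
    (hT2 : ∀ y : Chart R c, ∃ a : Chart R c', Cg V₃ (y : F) (φ (a : F')))
    (ϖS : Chart R c)
    (hU3 : ∀ x : Chart R c, V₁.valuation (x : F) < 1 → V₂.valuation (x : F) < 1 →
      V₃.valuation (x : F) < 1 → ∃ m : ℕ, ∃ z : Chart R c, x ^ m = ϖS * z)
    (ϖA : Chart R c') (hϖ : f ϖA = ϖS)
    (𝔫 : Ideal (Chart R c)) [h𝔫 : 𝔫.IsPrime] (hϖ𝔫 : ϖS ∈ 𝔫)
    (hT₁ : ∀ s : Chart R c, s ∉ 𝔫 → V₁.valuation (s : F) = 1)
    (hT₂ : ∀ s : Chart R c, s ∉ 𝔫 → V₂.valuation (s : F) = 1)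
    (hT₃ : ∀ s : Chart R c, s ∉ 𝔫 → V₃.valuation (s : F) = 1)
    (𝔮 : Ideal (Chart R c)) (h𝔮 : 𝔮.IsPrime) (hc : 𝔮.comap f = 𝔫.comap f) : 𝔮 = 𝔫 := by
  classical
  -- the three centres
  have hP𝔫 : ∀ (V : ValuationSubring F) (hS : ∀ y : Chart R c, (y : F) ∈ V),
      (∀ s : Chart R c, s ∉ 𝔫 → V.valuation (s : F) = 1) → H18D3.centre R c V hS ≤ 𝔫 := by
    intro V hS hT x hx
    by_contra hxn
    have h1 := hT x hxn
    have h2 : V.valuation (x : F) < 1 := (H18D3.mem_centre R c V hS x).mp hx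
    rw [h1] at h2
    exact lt_irrefl _ h2
  have h1𝔫 := hP𝔫 V₁ hS₁ hT₁
  have h2𝔫 := hP𝔫 V₂ hS₂ hT₂
  have h3𝔫 := hP𝔫 V₃ hS₃ hT₃
  have hle : ∀ (V : ValuationSubring F) (y : Chart R c), (y : F) ∈ V →
      V.valuation (y : F) ≤ 1 := fun V y hy => (V.valuation_le_one_iff _).mpr hy
  have hone : (1 : Chart R c') ∉ 𝔫.comap f := by
    intro h
    have : f 1 ∈ 𝔫 := h
    rw [map_one] at this
    exact h𝔫.ne_top ((Ideal.eq_top_iff_one 𝔫).mpr this)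
  have hntop : 𝔫.comap f ≠ ⊤ := fun h => hone (h ▸ Submodule.mem_top)
  -- `ϖ ∈ 𝔮`
  have hϖ𝔮 : ϖS ∈ 𝔮 := by
    have h1 : ϖA ∈ 𝔫.comap f := by
      show f ϖA ∈ 𝔫
      rw [hϖ]; exact hϖ𝔫
    rw [← hc] at h1
    have h2 : f ϖA ∈ 𝔮 := h1
    rwa [hϖ] at h2
  -- some centre lies in `𝔮`
  have hsome : H18D3.centre R c V₁ hS₁ ≤ 𝔮 ∨ H18D3.centre R c V₂ hS₂ ≤ 𝔮 ∨
      H18D3.centre R c V₃ hS₃ ≤ 𝔮 := by
    by_contra hcon
    rw [not_or, not_or] at hcon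
    obtain ⟨n1, n2, n3⟩ := hcon
    obtain ⟨x₁, hx₁, hx₁q⟩ := Set.not_subset.mp n1
    obtain ⟨x₂, hx₂, hx₂q⟩ := Set.not_subset.mp n2
    obtain ⟨x₃, hx₃, hx₃q⟩ := Set.not_subset.mp n3
    have v1 : V₁.valuation (x₁ : F) < 1 := (H18D3.mem_centre R c V₁ hS₁ x₁).mp hx₁
    have v2 : V₂.valuation (x₂ : F) < 1 := (H18D3.mem_centre R c V₂ hS₂ x₂).mp hx₂
    have v3 : V₃.valuation (x₃ : F) < 1 := (H18D3.mem_centre R c V₃ hS₃ x₃).mp hx₃
    have hx : ((x₁ * x₂ * x₃ : Chart R c) : F) = (x₁ : F) * (x₂ : F) * (x₃ : F) := rfl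
    have w1 : V₁.valuation ((x₁ * x₂ * x₃ : Chart R c) : F) < 1 := by
      rw [hx, map_mul, map_mul]
      calc V₁.valuation (x₁ : F) * V₁.valuation (x₂ : F) * V₁.valuation (x₃ : F)
          ≤ V₁.valuation (x₁ : F) * 1 * 1 :=
            mul_le_mul' (mul_le_mul' le_rfl (hle V₁ x₂ (hS₁ x₂))) (hle V₁ x₃ (hS₁ x₃))
        _ = V₁.valuation (x₁ : F) := by rw [mul_one, mul_one]
        _ < 1 := v1
    have w2 : V₂.valuation ((x₁ * x₂ * x₃ : Chart R c) : F) < 1 := by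
      rw [hx, map_mul, map_mul]
      calc V₂.valuation (x₁ : F) * V₂.valuation (x₂ : F) * V₂.valuation (x₃ : F)
          ≤ 1 * V₂.valuation (x₂ : F) * 1 :=
            mul_le_mul' (mul_le_mul' (hle V₂ x₁ (hS₂ x₁)) le_rfl) (hle V₂ x₃ (hS₂ x₃))
        _ = V₂.valuation (x₂ : F) := by rw [mul_one, one_mul]
        _ < 1 := v2
    have w3 : V₃.valuation ((x₁ * x₂ * x₃ : Chart R c) : F) < 1 := by
      rw [hx, map_mul, map_mul]
      calc V₃.valuation (x₁ : F) * V₃.valuation (x₂ : F) * V₃.valuation (x₃ : F)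
          ≤ 1 * 1 * V₃.valuation (x₃ : F) :=
            mul_le_mul' (mul_le_mul' (hle V₃ x₁ (hS₃ x₁)) (hle V₃ x₂ (hS₃ x₂))) le_rfl
        _ = V₃.valuation (x₃ : F) := by rw [one_mul, one_mul]
        _ < 1 := v3
    obtain ⟨m, z, hz⟩ := hU3 _ w1 w2 w3
    have h1 : (x₁ * x₂ * x₃) ^ m ∈ 𝔮 := by
      rw [hz]
      exact 𝔮.mul_mem_right _ hϖ𝔮
    have h2 : x₁ * x₂ * x₃ ∈ 𝔮 := h𝔮.mem_of_pow_mem m h1
    rcases h𝔮.mem_or_mem h2 with h | h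
    · rcases h𝔮.mem_or_mem h with h' | h'
      · exact hx₁q h'
      · exact hx₂q h'
    · exact hx₃q h
  -- residue degree one at `V₃`
  have hpi₃ : ∀ b : Chart R c, ∃ m : ℕ, 0 < m ∧ ∃ s a : Chart R c',
      s ∉ 𝔫.comap f ∧ f s * b ^ m - f a ∈ H18D3.centre R c V₃ hS₃ := by
    intro b
    obtain ⟨a, ha⟩ := hT2 b
    refine ⟨1, one_pos, 1, a, hone, ?_⟩
    rw [H18D3.mem_centre]
    have e : ((f 1 * b ^ 1 - f a : Chart R c) : F) = (b : F) - φ (a : F') := by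
      rw [map_one, one_mul, pow_one]
      show (b : F) - ((f a : Chart R c) : F) = _
      rw [hf]
    rw [e]
    exact ha
  -- purely inseparable at `V₂`
  have hpi₂ : ∀ b : Chart R c, ∃ m : ℕ, 0 < m ∧ ∃ s a : Chart R c',
      s ∉ 𝔫.comap f ∧ f s * b ^ m - f a ∈ H18D3.centre R c V₂ hS₂ := by
    refine H18TR.hpi_of_frob' f (𝔫.comap f) hntop _ q hq ?_
    intro b hb
    have hb1 : V₂.valuation (b : F) = 1 :=
      val_eq_one_of_not_lt V₂ (hS₂ b) (fun h => hb ((H18D3.mem_centre R c V₂ hS₂ b).mpr h))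
    obtain ⟨a, ha⟩ := hNint b
    refine ⟨a, ?_⟩
    rw [H18D3.mem_centre]
    have e : ((b ^ q - f a : Chart R c) : F) = (b : F) ^ q - φ (Nm (b : F)) := by
      show ((b : F)) ^ q - ((f a : Chart R c) : F) = _
      rw [hf, ha]
    rw [e]
    exact cg_symm (cN₂ _ hb1)
  -- residue degree one at `V₁`, locally at `𝔫`
  have hpi₁' : ∀ b : Chart R c, b ∉ 𝔫 → ∃ s a : Chart R c',
      s ∉ 𝔫.comap f ∧ f s * b - f a ∈ H18D3.centre R c V₁ hS₁ := by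
    intro b hb
    have hb1 : V₁.valuation (b : F) = 1 := hT₁ b hb
    have hb3 : V₃.valuation (b : F) = 1 := hT₃ b hb
    obtain ⟨a₃, ha₃⟩ := hT2 b
    obtain ⟨a, ha⟩ := hNint b
    have hcg := cN₁ _ hb1 hb3 _ (hA₁ a₃) ha₃
    refine ⟨a₃ ^ (q - 1), a, ?_, ?_⟩
    · intro hmem
      have h1 : f (a₃ ^ (q - 1)) ∈ 𝔫 := hmem
      rw [map_pow] at h1
      have h2 : f a₃ ∈ 𝔫 := h𝔫.mem_of_pow_mem _ h1
      have h3 : b - f a₃ ∈ H18D3.centre R c V₃ hS₃ := by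
        rw [H18D3.mem_centre]
        have e : ((b - f a₃ : Chart R c) : F) = (b : F) - φ (a₃ : F') := by
          show (b : F) - ((f a₃ : Chart R c) : F) = _
          rw [hf]
        rw [e]
        exact ha₃
      have h4 : b - f a₃ + f a₃ ∈ 𝔫 := 𝔫.add_mem (h3𝔫 h3) h2
      rw [sub_add_cancel] at h4
      exact hb h4
    · rw [H18D3.mem_centre]
      have e : ((f (a₃ ^ (q - 1)) * b - f a : Chart R c) : F) =
          (b : F) * φ (a₃ : F') ^ (q - 1) - φ (Nm (b : F)) := by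
        rw [map_pow]
        show ((f a₃ : Chart R c) : F) ^ (q - 1) * (b : F) - ((f a : Chart R c) : F) = _
        rw [hf, hf, ha, mul_comm]
      rw [e]
      exact cg_symm hcg
  have hpi₁ : ∀ b : Chart R c, ∃ m : ℕ, 0 < m ∧ ∃ s a : Chart R c',
      s ∉ 𝔫.comap f ∧ f s * b ^ m - f a ∈ H18D3.centre R c V₁ hS₁ := by
    intro b
    by_cases hb : b ∈ 𝔫
    · have hb1 : b + 1 ∉ 𝔫 := by
        intro h
        have h2 : b + 1 - b ∈ 𝔫 := 𝔫.sub_mem h hb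
        rw [add_sub_cancel_left] at h2
        exact h𝔫.ne_top ((Ideal.eq_top_iff_one 𝔫).mpr h2)
      obtain ⟨s, a, hs, hsa⟩ := hpi₁' (b + 1) hb1
      refine ⟨1, one_pos, s, a - s, hs, ?_⟩
      have e : f s * b ^ 1 - f (a - s) = f s * (b + 1) - f a := by
        rw [map_sub, pow_one]; ring
      rw [e]
      exact hsa
    · obtain ⟨s, a, hs, hsa⟩ := hpi₁' b hb
      exact ⟨1, one_pos, s, a, hs, by rw [pow_one]; exact hsa⟩
  rcases hsome with h | h | h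
  · exact H18TR.eq_of_pi f (𝔫.comap f) _ hpi₁ 𝔮 𝔫 h𝔮 h𝔫 hc rfl h h1𝔫
  · exact H18TR.eq_of_pi f (𝔫.comap f) _ hpi₂ 𝔮 𝔫 h𝔮 h𝔫 hc rfl h h2𝔫
  · exact H18TR.eq_of_pi f (𝔫.comap f) _ hpi₃ 𝔮 𝔫 h𝔮 h𝔫 hc rfl h h3𝔫

end Tri

section Core

variable (R : Type) [CommRing R] [IsDomain R] [IsDiscreteValuationRing R]
  (K : Type) [Field K] [CharZero K] [Algebra R K] [IsFractionRing R K]
  {F : Type} [Field F] [Algebra K F] [Algebra R F] [IsScalarTower R K F]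
  {F' : Type} [Field F'] [Algebra R F']

/-- `HalfDataC` in `B`-form gives the chart form `HalfAt`. -/
theorem halfAt_of_halfDataC (c : F) (𝔫 : Ideal (Chart R c)) [h𝔫 : 𝔫.IsPrime]
    (B : Type) [CommRing B] [Algebra (Chart R c) B] [IsLocalization.AtPrime B 𝔫]
    [Algebra B F] [IsScalarTower (Chart R c) B F]
    (φ : F' →+* F) (Nm : F →* F')
    (V₃ : ValuationSubring F) (V₁' V₂' : ValuationSubring F') (n : ℕ) (ε : F) (cN : F')
    (εB : B) (hεB : algebraMap B F εB = ε)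
    (h : H17T3.HalfDataC φ Nm (algebraMap B F) V₃ V₁' V₂' n εB cN) :
    H10G3.HalfAt R c 𝔫 φ Nm V₃ V₁' V₂' n ε cN := by
  obtain ⟨⟨B', a1, a2, a3, a4, a5, a6⟩⟩ := h
  refine ⟨B', a1, a2, fun x hx => ?_, a4, fun b hb => ?_, ?_⟩
  · exact (H22BR.inLoc_iff R c 𝔫 B _).mpr (a3 x hx)
  · obtain ⟨bB, hbB⟩ := (H22BR.inLoc_iff R c 𝔫 B b).mp hb
    obtain ⟨b', hb', hcg⟩ := a5 bB
    refine ⟨b', hb', ?_⟩
    rw [← hbB]
    exact hcg
  · rw [← hεB]; exact a6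

/-- **(HalfAt), generic `α`-theorem** at a triple point `𝔫` of the chart `c`. -/
theorem halfAt_alpha_core (φ : F' →+* F) (Nm : F →* F') (c' : F') (c : F)
    [FiniteDimensional K⟮c⟯ F]
    (f : Chart R c' →+* Chart R c) (hf : ∀ a, ((f a : Chart R c) : F) = φ (a : F'))
    (hint : f.IsIntegral)
    (d : ℕ) (hNint : ∀ y : Chart R c, ∃ a : Chart R c', (a : F') = Nm (y : F))
    (hNbase : ∀ m : F', Nm (φ m) = m ^ d)
    (V₁ V₂ V₃ : ValuationSubring F) (V₁' V₂' : ValuationSubring F')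
    (hS₁ : ∀ y : Chart R c, (y : F) ∈ V₁) (hS₂ : ∀ y : Chart R c, (y : F) ∈ V₂)
    (hS₃ : ∀ y : Chart R c, (y : F) ∈ V₃)
    (hl₁ : ∀ x : F', V₁'.valuation x < 1 → V₁.valuation (φ x) < 1)
    (hl₂ : ∀ x : F', V₂'.valuation x < 1 → V₂.valuation (φ x) < 1)
    (q : ℕ) (hq : 0 < q)
    (cN₁ : ∀ x : F, V₁.valuation x = 1 → V₃.valuation x = 1 → ∀ a : F', a ∈ V₁' →
      Cg V₃ x (φ a) → Cg V₁ (φ (Nm x)) (x * φ a ^ (q - 1)))
    (cN₂ : ∀ x : F, V₂.valuation x = 1 → Cg V₂ (φ (Nm x)) (x ^ q))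
    (hT2 : ∀ y : Chart R c, ∃ a : Chart R c', Cg V₃ (y : F) (φ (a : F')))
    (ϖS : Chart R c)
    (hU3 : ∀ x : Chart R c, V₁.valuation (x : F) < 1 → V₂.valuation (x : F) < 1 →
      V₃.valuation (x : F) < 1 → ∃ m : ℕ, ∃ z : Chart R c, x ^ m = ϖS * z)
    (ϖA : Chart R c') (hϖ : f ϖA = ϖS)
    (𝔫 : Ideal (Chart R c)) (h𝔫 : 𝔫.IsPrime) (hϖ𝔫 : ϖS ∈ 𝔫)
    (hT₁ : H10G3.Through R c 𝔫 V₁) (hT₂ : H10G3.Through R c 𝔫 V₂)
    (hT₃ : H10G3.Through R c 𝔫 V₃)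
    (n : ℕ) (hn : 0 < n)
    (ε : F) (hε : InLoc R c 𝔫 ε) (hε' : InLoc R c 𝔫 ε⁻¹) (hε0 : ε ≠ 0)
    (cN : F') (hcN : InLoc R c 𝔫 (φ cN)) :
    H10G3.HalfAt R c 𝔫 φ Nm V₃ V₁' V₂' n ε cN := by
  classical
  haveI := h𝔫
  haveI := H22BR.bsub_atPrime R K c 𝔫
  haveI := H22BR.bsub_tower R K c 𝔫
  haveI := H22BR.loc_isDomain R c 𝔫 (H22BR.Bsub R K c 𝔫)
  haveI := H22BR.loc_isLocalRing R c 𝔫 (H22BR.Bsub R K c 𝔫)
  haveI := H22BR.loc_isFractionRing R K c 𝔫 (H22BR.Bsub R K c 𝔫)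
  haveI := H22BR.loc_intClosed R K c 𝔫 (H22BR.Bsub R K c 𝔫)
  have hφB : Function.Injective (algebraMap (H22BR.Bsub R K c 𝔫) F) :=
    fun x y h => Subtype.ext h
  have hA₁ : ∀ a : Chart R c', (a : F') ∈ V₁' := by
    intro a
    refine mem_of_lying_over φ V₁ V₁' hl₁ _ ?_
    rw [← hf]
    exact hS₁ _
  have huniq := tri_alpha R φ Nm c' c f hf hNint V₁ V₂ V₃ V₁' hS₁ hS₂ hS₃ hA₁ q hq cN₁ cN₂
    hT2 ϖS hU3 ϖA hϖ 𝔫 hϖ𝔫 hT₁ hT₂ hT₃
  obtain ⟨εB, hεu, hεB⟩ := H10G3.wire_unit R c 𝔫 (H22BR.Bsub R K c 𝔫) hφB ε hε hε' hε0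
  have hB : ∀ x : F, (∃ b, algebraMap (H22BR.Bsub R K c 𝔫) F b = x) ↔
      ∃ a s : Chart R c, s ∉ 𝔫 ∧
        (algebraMap (Chart R c) F) s * x = (algebraMap (Chart R c) F) a := by
    intro x
    exact (H22BR.inLoc_iff R c 𝔫 (H22BR.Bsub R K c 𝔫) x).symm
  have hBroot : ∀ z : F, (∃ b, algebraMap (H22BR.Bsub R K c 𝔫) F b = z ^ n) →
      ∃ b, algebraMap (H22BR.Bsub R K c 𝔫) F b = z := by
    rintro z ⟨b, hb⟩
    have hz : IsIntegral (H22BR.Bsub R K c 𝔫) z := by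
      refine ⟨Polynomial.X ^ n - Polynomial.C b, Polynomial.monic_X_pow_sub_C b hn.ne', ?_⟩
      rw [Polynomial.eval₂_sub, Polynomial.eval₂_X_pow, Polynomial.eval₂_C, hb, sub_self]
    exact IsIntegrallyClosed.algebraMap_eq_of_integral hz
  have hcN' : ∃ b, algebraMap (H22BR.Bsub R K c 𝔫) F b = φ cN :=
    RingHom.mem_range.mp ((H22BR.inLoc_iff R c 𝔫 (H22BR.Bsub R K c 𝔫) _).mp hcN)
  have key := h17t3_half_core φ Nm (algebraMap (Chart R c') F') (algebraMap (Chart R c) F)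
    f hf hint d n hNint hNbase 𝔫 (fun 𝔮 h𝔮 hc => huniq 𝔮 h𝔮 hc)
    (algebraMap (H22BR.Bsub R K c 𝔫) F) hB hBroot V₁ V₂ V₃ V₁' V₂' hS₁ hS₂ hS₃ hT₁ hT₂ hT₃
    hl₁ hl₂ hT2 εB hεu cN hcN'
  exact halfAt_of_halfDataC R c 𝔫 (H22BR.Bsub R K c 𝔫) φ Nm V₃ V₁' V₂' n ε cN εB hεB key

end Core

end H17HB

end
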