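import Mathlib
import Fermat.Agent.S36.HalfGen_helper17
import Fermat.Agent.S36.ChartMap_helper6
import Fermat.Agent.S18.TBase_helper19

/-!
# Item 86 (S36, Carayol), leaf (HalfAt) (helper17): generic wrappers for the concrete `α`-wiring

* `H17HB.mem_iff_of_lt_iff`   : lying over in membership form, from the `< 1` form;
* `H17HB.isInt_of_map`        : integrality over `R[c']` descends along an injective `φ`
  (`φ a` integral over `R[φ c']` ⟹ `a` integral over `R[c']`);
* `H17HB.hU3_of_hJ`           : (U) `x ∈ P₁ ∩ P₂ ∩ P₃ ⟹ x ^ m ∈ ϖ M₀` from `(hJ)` + Lemma U;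
* `H17HB.halfAt_alpha_alg`    : `H17HB.halfAt_alpha_core` for `φ = algebraMap F' F`,
  `f = H6CM.chartMap`, with `hT2` given modulo the descent of integrality.
-/

set_option autoImplicit false
set_option synthInstance.maxHeartbeats 400000
set_option maxHeartbeats 1000000
set_option linter.unusedSectionVars false
set_option linter.unusedVariables false
set_option linter.style.haveILetI false

noncomputable section

open IntermediateField H4S34 H7S18 H17T3

namespace H17HB

section Val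

variable {F F' : Type*} [Field F] [Field F']

/-- lying over, membership form. -/
theorem mem_iff_of_lt_iff (φ : F' →+* F) (V : ValuationSubring F) (V' : ValuationSubring F')
    (h : ∀ x : F', V'.valuation x < 1 ↔ V.valuation (φ x) < 1) (x : F') :
    x ∈ V' ↔ φ x ∈ V := by
  constructor
  · intro hx
    by_contra hx'
    have h3 : 1 < V.valuation (φ x) :=
      not_le.mp (fun h' => hx' ((V.valuation_le_one_iff _).mp h'))
    have hx0 : φ x ≠ 0 := by
      intro h0
      apply hx'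
      rw [h0]
      exact V.zero_mem
    have h1 : V.valuation (φ x⁻¹) < 1 := by
      rw [map_inv₀, map_inv₀]
      exact inv_lt_one_of_one_lt₀ h3
    have h2 : V'.valuation x⁻¹ < 1 := (h _).mpr h1
    rw [map_inv₀] at h2
    have hx1 : V'.valuation x ≤ 1 := (V'.valuation_le_one_iff _).mpr hx
    have hv0 : V'.valuation x ≠ 0 := by
      intro h0
      rw [h0, inv_zero] at h2
      have hx00 : x = 0 := (map_eq_zero _).mp h0
      exact hx0 (by rw [hx00, map_zero])
    have h4 : 1 < V'.valuation x := (inv_lt_one₀ (zero_lt_iff.mpr hv0)).mp h2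
    exact absurd hx1 (not_le.mpr h4)
  · exact mem_of_lying_over φ V V' (fun y => (h y).mp) x

end Val

section Desc

variable (R : Type) [CommRing R] {F₀ F : Type} [Field F₀] [Field F] [Algebra R F₀] [Algebra R F]
  [Algebra F₀ F] [IsScalarTower R F₀ F]

/-- integrality over `R[c']` descends along `F₀ → F`. -/
theorem isInt_of_map (c' a : F₀)
    (h : IsInt R (algebraMap F₀ F c') (algebraMap F₀ F a)) : IsInt R c' a := by
  obtain ⟨p, hp, hpx⟩ := h
  have hlift : p ∈ Polynomial.lifts (H6CM.adjoinMap R (F := F) c') := by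
    rw [Polynomial.lifts_iff_coeff_lifts]
    intro k
    exact H6CM.adjoinMap_surjective R c' _
  obtain ⟨p', hp'map, -, hp'mon⟩ := Polynomial.lifts_and_degree_eq_and_monic hlift hp
  refine ⟨p', hp'mon, ?_⟩
  apply (algebraMap F₀ F).injective
  rw [map_zero, Polynomial.hom_eval₂]
  have hcomp : (algebraMap F₀ F).comp (algebraMap (Algebra.adjoin R {c'}) F₀) =
      (algebraMap (Algebra.adjoin R {algebraMap F₀ F c'}) F).comp
        (H6CM.adjoinMap R (F := F) c') := by
    ext x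
    rfl
  rw [hcomp, ← Polynomial.eval₂_map, hp'map]
  exact hpx

end Desc

section U

variable (R : Type) [CommRing R] [IsDomain R] [IsDiscreteValuationRing R]
  (K : Type) [Field K] [CharZero K] [Algebra R K] [IsFractionRing R K]
  {F : Type} [Field F] [Algebra K F] [Algebra R F] [IsScalarTower R K F]

/-- **(U)** in the chart `c`: an element of the three centres has a power in `ϖ M₀`. -/
theorem hU3_of_hJ (ϖ : R) (t c : F)
    (hU : ∀ y : F, GInt R ϖ t y → IsInt R c (algebraMap R F ϖ * y) → IsInt R c y)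
    (V₁ V₂ V₃ : ValuationSubring F) (m : ℕ)
    (hJ : ∀ x : F, V₁.valuation x < 1 → V₂.valuation x < 1 → V₃.valuation x < 1 →
      ModPi R ϖ t (x ^ m) 0)
    (x : Chart R c) (h1 : V₁.valuation (x : F) < 1) (h2 : V₂.valuation (x : F) < 1)
    (h3 : V₃.valuation (x : F) < 1) :
    ∃ k : ℕ, ∃ z : Chart R c, x ^ k = H10G3.chartOf R c ϖ * z := by
  obtain ⟨z, hz, e⟩ := hJ (x : F) h1 h2 h3
  rw [sub_zero] at e
  have hzI : IsInt R c z := by
    refine hU z hz ?_
    rw [← e]
    exact (x ^ m).2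
  exact ⟨m, ⟨z, hzI⟩, Subtype.ext (by
    show (x : F) ^ m = algebraMap R F ϖ * z
    exact e)⟩

end U

section Alg

variable (R : Type) [CommRing R] [IsDomain R] [IsDiscreteValuationRing R]
  (K : Type) [Field K] [CharZero K] [Algebra R K] [IsFractionRing R K]
  {F : Type} [Field F] [Algebra K F] [Algebra R F] [IsScalarTower R K F]
  {F' : Type} [Field F'] [Algebra R F'] [Algebra F' F] [IsScalarTower R F' F]

/-- **(HalfAt), generic `α`-theorem**, algebra form: `φ = algebraMap F' F`, chart `c = φ c'`. -/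
theorem halfAt_alpha_alg (Nm : F →* F') (c' : F')
    [FiniteDimensional K⟮algebraMap F' F c'⟯ F]
    (d : ℕ) (hNint : ∀ y : F, IsInt R (algebraMap F' F c') y → IsInt R c' (Nm y))
    (hNbase : ∀ m : F', Nm (algebraMap F' F m) = m ^ d)
    (V₁ V₂ V₃ : ValuationSubring F) (V₁' V₂' : ValuationSubring F')
    (hS₁ : ∀ y : Chart R (algebraMap F' F c'), (y : F) ∈ V₁)
    (hS₂ : ∀ y : Chart R (algebraMap F' F c'), (y : F) ∈ V₂)
    (hS₃ : ∀ y : Chart R (algebraMap F' F c'), (y : F) ∈ V₃)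
    (hl₁ : ∀ x : F', V₁'.valuation x < 1 → V₁.valuation (algebraMap F' F x) < 1)
    (hl₂ : ∀ x : F', V₂'.valuation x < 1 → V₂.valuation (algebraMap F' F x) < 1)
    (q : ℕ) (hq : 0 < q)
    (cN₁ : ∀ x : F, V₁.valuation x = 1 → V₃.valuation x = 1 → ∀ a : F', a ∈ V₁' →
      Cg V₃ x (algebraMap F' F a) →
        Cg V₁ (algebraMap F' F (Nm x)) (x * algebraMap F' F a ^ (q - 1)))
    (cN₂ : ∀ x : F, V₂.valuation x = 1 → Cg V₂ (algebraMap F' F (Nm x)) (x ^ q))
    (hT2 : ∀ y : Chart R (algebraMap F' F c'), ∃ a : F',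
      IsInt R (algebraMap F' F c') (algebraMap F' F a) ∧
        V₃.valuation ((y : F) - algebraMap F' F a) < 1)
    (ϖ : R) (t : F)
    (hU : ∀ y : F, GInt R ϖ t y →
      IsInt R (algebraMap F' F c') (algebraMap R F ϖ * y) → IsInt R (algebraMap F' F c') y)
    (m : ℕ)
    (hJ : ∀ x : F, V₁.valuation x < 1 → V₂.valuation x < 1 → V₃.valuation x < 1 →
      ModPi R ϖ t (x ^ m) 0)
    (𝔫 : Ideal (Chart R (algebraMap F' F c')))
    (h𝔫 : IsClosedPt R ϖ (algebraMap F' F c') 𝔫)
    (hT₁ : H10G3.Through R (algebraMap F' F c') 𝔫 V₁)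
    (hT₂ : H10G3.Through R (algebraMap F' F c') 𝔫 V₂)
    (hT₃ : H10G3.Through R (algebraMap F' F c') 𝔫 V₃)
    (n : ℕ) (hn : 0 < n)
    (ε : F) (hε : InLoc R (algebraMap F' F c') 𝔫 ε)
    (hε' : InLoc R (algebraMap F' F c') 𝔫 ε⁻¹) (hε0 : ε ≠ 0) (r : R) :
    H10G3.HalfAt R (algebraMap F' F c') 𝔫 (algebraMap F' F) Nm V₃ V₁' V₂' n ε
      (algebraMap R F' r) := by
  classical
  have hp : 𝔫.IsPrime := h𝔫.1.isPrime
  refine halfAt_alpha_core R K (algebraMap F' F) Nm c' (algebraMap F' F c')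
    (H6CM.chartMap R c') (fun a => rfl) (H6CM.chartMap_isIntegral R c') d ?_ hNbase
    V₁ V₂ V₃ V₁' V₂' hS₁ hS₂ hS₃ hl₁ hl₂ q hq cN₁ cN₂ ?_
    (H10G3.chartOf R (algebraMap F' F c') ϖ)
    (fun x h1 h2 h3 => hU3_of_hJ R ϖ t (algebraMap F' F c') hU V₁ V₂ V₃ m hJ x h1 h2 h3)
    (H10G3.chartOf R c' ϖ) ?_ 𝔫 hp (h𝔫.2 _ rfl) hT₁ hT₂ hT₃ n hn ε hε hε' hε0
    (algebraMap R F' r) ?_
  · intro y
    exact ⟨⟨Nm (y : F), hNint _ y.2⟩, rfl⟩
  · intro y
    obtain ⟨a, ha, hay⟩ := hT2 y
    exact ⟨⟨a, isInt_of_map R c' a ha⟩, hay⟩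
  · apply Subtype.ext
    show algebraMap F' F (algebraMap R F' ϖ) = algebraMap R F ϖ
    exact (IsScalarTower.algebraMap_apply R F' F ϖ).symm
  · have e : algebraMap F' F (algebraMap R F' r) = algebraMap R F r :=
      (IsScalarTower.algebraMap_apply R F' F r).symm
    rw [e]
    exact ⟨H10G3.chartOf R _ r, 1, (Ideal.ne_top_iff_one 𝔫).mp hp.ne_top, by
      rw [OneMemClass.coe_one, one_mul]; rfl⟩

end Alg

end H17HB

end
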