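import Mathlib
import Fermat.Agent.S36.HalfDefs_helper17
import Fermat.Agent.S36.HalfGen2_helper17
import Fermat.Agent.S36.ResFieldTG_helper9
import Fermat.Agent.S36.NormInt_helper29
import Fermat.Agent.S36.Dich3_helper18

/-!
# Item 86 (S36, Carayol), leaf (HalfAt) (helper17): the concrete `α`-statement

`H17HB.halfAlpha : H17HB.HalfAlphaStatement` — the cross-level data `H10G3.HalfAt` along
`α = heckeAlphaBar` at the triple points of the charts `c ∈ {t, t⁻¹}` of the level `M q q`.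

Inputs: the generic theorem `H17HB.halfAt_alpha_alg`, (CU3) `H9CU.comp_unif3_sq` (helper9) with
`H9CU.coord_of_TG`, `H9CU.h3lev_cV3`, `H9CU.h3J_cV3`, the norm lemmas `H29NI.nint_alpha`,
`H29NI.nbase_alpha` (helper29), Lemma U (`H19S18`), and the fields `hO, hJ, hα₁, hα₂, cNα₁, cNα₂`
of the concrete `H4S36.Triple`.
-/

set_option autoImplicit false
set_option synthInstance.maxHeartbeats 400000
set_option maxHeartbeats 4000000
set_option linter.unusedSectionVars false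
set_option linter.unusedVariables false
set_option linter.style.haveILetI false

noncomputable section

open IntermediateField AlgebraicCurve ModularCurve H7S18 H4S34 RH24

namespace H17HB

local notation "Qb" => AlgebraicClosure ℚ

/-- **(HalfAt), `α`**: the concrete statement. -/
theorem halfAlpha : HalfAlphaStatement := by
  intro M _ q _ hq hqM hT A hA K₁ hfin hunr hζe _ K₃ hfin₃ h13 _ ζ hζ _ _ _ _ t₀ ht₀ t ht n hn hqn
    hTr c hc 𝔫 h𝔫 hT₁ hT₂ hT₃ ε hε hε' hε0 r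
  classical
  have hML : M ∣ M * q * q := ⟨q * q, by ring⟩
  obtain ⟨htr, hcfin, hFE, tM, htM, hcF, hcM⟩ :=
    H9CU.sq_basics M q hT K₁ (M * q * q) hML t₀ ht₀ t ht c hc
  have hFF' : laurentBaseChange K₁ (modularFunctionFieldFull M) ≤
      laurentBaseChange K₁ (modularFunctionFieldFull (M * q)) :=
    H28PL.laurentBaseChange_le K₁ (full_degeneracy_le (Dvd.intro q rfl))
  have htrR : Transcendental ↥(descVal A K₁) t := H19S18.h19_transc ↥(descVal A K₁) ↥K₁ htr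
  have htrR' : Transcendental ↥(descVal A K₁) t⁻¹ :=
    H19S18.h19_transc ↥(descVal A K₁) ↥K₁ (H19S18.h19_transc_inv ↥K₁ htr)
  -- chart elements are Gauss-integral
  have hG : ∀ y : FK K₁ (M * q * q), IsInt ↥(descVal A K₁) c y →
      GInt ↥(descVal A K₁) ((q : ℕ) : ↥(descVal A K₁)) t y := by
    intro y hy
    rcases hc with h | h
    · rw [h] at hy
      exact H19S18.h19_gint_of_isInt ↥(descVal A K₁) htrR hunr hy
    · rw [h] at hy
      exact H19S18.h19_gint_of_isInt_inv ↥(descVal A K₁) htrR htrR' hunr hy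
  -- Lemma U
  have hU : ∀ y : FK K₁ (M * q * q), GInt ↥(descVal A K₁) ((q : ℕ) : ↥(descVal A K₁)) t y →
      IsInt ↥(descVal A K₁) c
        (algebraMap ↥(descVal A K₁) (FK K₁ (M * q * q)) ((q : ℕ) : ↥(descVal A K₁)) * y) →
      IsInt ↥(descVal A K₁) c y := by
    intro y hy h
    rcases hc with h' | h'
    · rw [h'] at h ⊢
      exact H19S18.h19_lemmaU ↥(descVal A K₁) htrR hunr hy h
    · rw [h'] at h ⊢
      exact H19S18.h19_lemmaU_inv ↥(descVal A K₁) htrR htrR' hunr hy h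
  have hS₁ : ∀ y : Chart ↥(descVal A K₁) c,
      (y : FK K₁ (M * q * q)) ∈ H4S36.cV1 K₁ (descVal A K₁) M q :=
    fun y => ((hTr.hO _).mp (hG _ y.2)).1
  have hS₂ : ∀ y : Chart ↥(descVal A K₁) c,
      (y : FK K₁ (M * q * q)) ∈ H4S36.cV2 K₁ (descVal A K₁) M q hq hqM :=
    fun y => ((hTr.hO _).mp (hG _ y.2)).2.1
  have hS₃ : ∀ y : Chart ↥(descVal A K₁) c,
      (y : FK K₁ (M * q * q)) ∈ H4S36.cV3 K₁ M q hq hqM K₃ (descVal A K₃) h13 ζ hζ :=
    fun y => ((hTr.hO _).mp (hG _ y.2)).2.2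
  -- (CU3): residue comparison of `V₃` with the level `M` on the chart
  have hCU := (H9CU.comp_unif3_sq M q hq hqM hT A hA K₁ hfin hζe (M * q * q)
    (H4S36.cV3 K₁ M q hq hqM K₃ (descVal A K₃) h13 ζ hζ) (H8TG.h8tg_dvd1 M q)
    (H9CU.h3lev_cV3 M q hq hqM A K₁ K₃ h13 ζ hζ)
    (H8TG.J0 ↥K₁ (M * q * q)) (H8TG.J2 ↥K₁ (M * q * q) q (H8TG.h8tg_dvd2 M q)) rfl rfl
    (H9CU.h3J_cV3 M q hq hqM A hA K₁ K₃ h13 ζ hζ)
    ((q : ℕ) : ↥(descVal A K₁)) hunr t₀ ht₀ t ht c hc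
    (fun x hx => H9CU.coord_of_TG M q hq hqM hT A hA K₁ hfin hunr K₃ hfin₃ h13 ζ hζ
      t₀ ht₀ t ht x hx)
    (H18D3.centre ↥(descVal A K₁) c (H4S36.cV3 K₁ M q hq hqM K₃ (descVal A K₃) h13 ζ hζ) hS₃)
    (H18D3.mem_centre ↥(descVal A K₁) c _ hS₃)).1.2
  -- the algebra structure along `α`
  letI algFF : Algebra (FK K₁ (M * q)) (FK K₁ (M * q * q)) :=
    algebraAlong (heckeAlphaBar K₁ (M * q) q)
  haveI towFF : IsScalarTower ↥(descVal A K₁) (FK K₁ (M * q)) (FK K₁ (M * q * q)) := by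
    refine IsScalarTower.of_algebraMap_eq (fun x => ?_)
    rw [IsScalarTower.algebraMap_apply ↥(descVal A K₁) K₁ (FK K₁ (M * q * q)),
      IsScalarTower.algebraMap_apply ↥(descVal A K₁) K₁ (FK K₁ (M * q))]
    exact ((heckeAlphaBar K₁ (M * q) q).commutes _).symm
  -- elements of level `M` come from the level `M q`
  have hlev : ∀ x : FK K₁ (M * q * q),
      (x : LaurentSeries K₁) ∈ laurentBaseChange K₁ (modularFunctionFieldFull M) →
      ∃ a : FK K₁ (M * q), algebraMap (FK K₁ (M * q)) (FK K₁ (M * q * q)) a = x := by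
    intro x hx
    refine ⟨⟨(x : LaurentSeries K₁), hFF' hx⟩, ?_⟩
    apply Subtype.ext
    show ((heckeAlphaBar K₁ (M * q) q ⟨(x : LaurentSeries K₁), hFF' hx⟩ : FK K₁ (M * q * q)) :
      LaurentSeries K₁) = (x : LaurentSeries K₁)
    rw [coe_heckeAlphaBar]
  obtain ⟨c', hc'⟩ := hlev c hcF
  clear hcM hcF
  subst hc'
  have hT2 : ∀ y : Chart ↥(descVal A K₁) (algebraMap (FK K₁ (M * q)) (FK K₁ (M * q * q)) c'),
      ∃ a : FK K₁ (M * q),
        IsInt ↥(descVal A K₁) (algebraMap (FK K₁ (M * q)) (FK K₁ (M * q * q)) c')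
          (algebraMap (FK K₁ (M * q)) (FK K₁ (M * q * q)) a) ∧
        (H4S36.cV3 K₁ M q hq hqM K₃ (descVal A K₃) h13 ζ hζ).valuation
          ((y : FK K₁ (M * q * q)) - algebraMap (FK K₁ (M * q)) (FK K₁ (M * q * q)) a) < 1 := by
    intro y
    obtain ⟨d, hd, hyd⟩ := hCU y
    obtain ⟨a, ha⟩ := hlev _ hd
    refine ⟨a, ?_, ?_⟩
    · rw [ha]
      exact d.2
    · rw [ha]
      exact (H18D3.mem_centre ↥(descVal A K₁) _ _ hS₃ (y - d)).mp hyd
  exact halfAt_alpha_alg ↥(descVal A K₁) ↥K₁ (H4S36.normAKH K₁ M q) c' q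
    (fun y hy => H29NI.nint_alpha K₁ M q ↥(descVal A K₁) c' y hy)
    (H29NI.nbase_alpha K₁ M q hq)
    (H4S36.cV1 K₁ (descVal A K₁) M q) (H4S36.cV2 K₁ (descVal A K₁) M q hq hqM)
    (H4S36.cV3 K₁ M q hq hqM K₃ (descVal A K₃) h13 ζ hζ)
    (H4S36.cV1' K₁ (descVal A K₁) M q) (H4S36.cV2' K₁ (descVal A K₁) M q hq hqM)
    hS₁ hS₂ hS₃ (fun x => (hTr.hα₁ x).mp) (fun x => (hTr.hα₂ x).mp) q hq.pos
    hTr.cNα₁ hTr.cNα₂ hT2 ((q : ℕ) : ↥(descVal A K₁)) t hU q hTr.hJ 𝔫 h𝔫 hT₁ hT₂ hT₃ n hn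
    ε hε hε' hε0 (1 + ((q : ℕ) : ↥(descVal A K₁)) * r)

end H17HB

end
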