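import Mathlib
import Fermat.Agent.S36.Gen3Asm_helper10

/-!
# Item 86 (S36, Carayol), leaf (HalfAt) (helper17): transport of `H10G3.HalfAt` by an involution

Generic (no modular input): `W : F → F`, `W' : F' → F'` involutions with `W ∘ φα = φβ ∘ W'`,
`Nβ ∘ W = W' ∘ Nα`, `W` preserving `𝔪(V₃)`, `W'` exchanging `V₁'` and `V₂'`.
If `𝔫₂` is the `W`-image point of `𝔫` (`InLoc c₂ 𝔫₂ x ↔ InLoc c 𝔫 (W x)`), then

  `HalfAt c₂ 𝔫₂ φα Nα V₃ V₁' V₂' n (W ε) cN  ⟹  HalfAt c 𝔫 φβ Nβ V₃ V₂' V₁' n ε cN`.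

Also: `HalfAt` depends on `(c, 𝔫)` only through `InLoc` (`halfAt_congr`).
-/

set_option autoImplicit false
set_option linter.unusedSectionVars false
set_option linter.unusedVariables false
set_option linter.style.haveILetI false

noncomputable section

open H4S34

namespace H17HB

section Transport

variable (R : Type) [CommRing R] {F : Type} [Field F] [Algebra R F] {F' : Type*} [Field F']

/-- `HalfAt` depends on the point only through its local ring. -/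
theorem halfAt_congr (c c₂ : F) (𝔫 : Ideal (Chart R c)) (𝔫₂ : Ideal (Chart R c₂))
    (hloc : ∀ x : F, InLoc R c₂ 𝔫₂ x ↔ InLoc R c 𝔫 x)
    (φ : F' →+* F) (Nm : F →* F') (V₃ : ValuationSubring F) (V₁' V₂' : ValuationSubring F')
    (n : ℕ) (ε : F) (cN : F')
    (h : H10G3.HalfAt R c₂ 𝔫₂ φ Nm V₃ V₁' V₂' n ε cN) :
    H10G3.HalfAt R c 𝔫 φ Nm V₃ V₁' V₂' n ε cN := by
  obtain ⟨B', a1, a2, a3, a4, a5, a6⟩ := h
  refine ⟨B', a1, a2, fun x hx => (hloc _).mp (a3 x hx), a4, fun b hb => ?_, a6⟩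
  exact a5 b ((hloc b).mpr hb)

/-- **transport of `HalfAt` by an involution**: `β` from `α`. -/
theorem halfAt_beta_of_alpha (c c₂ : F) (𝔫 : Ideal (Chart R c)) (𝔫₂ : Ideal (Chart R c₂))
    (W : F →+* F) (W' : F' →+* F') (hWW : ∀ x, W (W x) = x) (hW'W' : ∀ x, W' (W' x) = x)
    (φα φβ : F' →+* F) (Nα Nβ : F →* F')
    (hWα : ∀ y, W (φα y) = φβ (W' y))
    (hNW : ∀ x, Nβ (W x) = W' (Nα x))
    (V₃ : ValuationSubring F) (V₁' V₂' : ValuationSubring F')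
    (hV₃ : ∀ x, V₃.valuation (W x) < 1 ↔ V₃.valuation x < 1)
    (hV' : ∀ x : F', x ∈ V₁' ↔ W' x ∈ V₂')
    (hloc : ∀ x : F, InLoc R c₂ 𝔫₂ x ↔ InLoc R c 𝔫 (W x))
    (n : ℕ) (ε : F) (cN : F') (hcN : W' cN = cN)
    (h : H10G3.HalfAt R c₂ 𝔫₂ φα Nα V₃ V₁' V₂' n (W ε) cN) :
    H10G3.HalfAt R c 𝔫 φβ Nβ V₃ V₂' V₁' n ε cN := by
  obtain ⟨B', a1, a2, a3, a4, a5, a6⟩ := h
  refine ⟨B'.comap W', ?_, ?_, ?_, ?_, ?_, ?_⟩
  · intro x hx
    have h1 : W' x ∈ V₁' := a1 _ (Subring.mem_comap.mp hx)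
    have h2 := (hV' (W' x)).mp h1
    rwa [hW'W'] at h2
  · intro x hx
    have h1 : W' x ∈ V₂' := a2 _ (Subring.mem_comap.mp hx)
    exact (hV' x).mpr h1
  · intro x hx
    have h1 := a3 _ (Subring.mem_comap.mp hx)
    have h2 := (hloc _).mp h1
    rwa [hWα, hW'W'] at h2
  · intro x hx
    have h1 : W' x ^ n ∈ B' := by
      have := Subring.mem_comap.mp hx
      rwa [map_pow] at this
    exact Subring.mem_comap.mpr (a4 _ h1)
  · intro b hb
    have hb' : InLoc R c₂ 𝔫₂ (W b) := (hloc _).mpr (by rwa [hWW])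
    obtain ⟨b', hb'B, hb'v⟩ := a5 _ hb'
    refine ⟨W' b', Subring.mem_comap.mpr (by rwa [hW'W']), ?_⟩
    have h1 : b - φβ (W' b') = W (W b - φα b') := by
      rw [map_sub, hWW, hWα]
    rw [h1]
    exact (hV₃ _).mpr hb'v
  · apply Subring.mem_comap.mpr
    have h1 : Nβ ε = W' (Nα (W ε)) := by
      rw [← hNW, hWW]
    rw [map_mul, hcN, map_inv₀, h1, hW'W']
    exact a6

end Transport

end H17HB

end
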