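/-
helper10: item 86 (S36, Carayol), leaf (HALF-β-WIRE):

  `H17HB.HalfAlphaStatement → H17HB.HalfBetaStatement`.

The `β`-half of `HalfAt` at a triple point `𝔫` with a `W`-image point `𝔫₂` (`W = W_{q²}`) is the
`W`-transport (`H17HB.halfAt_beta_of_alpha`) of the `α`-half at `𝔫₂` for the unit `W ε`:
`W ∘ α = β ∘ W_q`, `N_β ∘ W = W_q ∘ N_α`, `W` exchanges `cV1` and `cV2` and fixes `cV3`,
`W_q` exchanges `cV1'` and `cV2'`; the image point `𝔫₂` is again a triple point.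
-/
import Mathlib
import Fermat.Agent.S36.HalfDefs_helper17
import Fermat.Agent.S36.HalfTr_helper17
import Fermat.Agent.S36.NormK_helper13
import Fermat.Agent.S36.TripleBeta3_helper24
import Fermat.Agent.S18.C7a_helper1
import Fermat.Agent.S18.GVBasisGen_helper28

set_option autoImplicit false
set_option linter.unusedSectionVars false
set_option linter.unusedVariables false
set_option linter.style.haveILetI false
set_option synthInstance.maxHeartbeats 400000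
set_option maxHeartbeats 4000000

noncomputable section

open IntermediateField AlgebraicCurve ModularCurve H7S18 H4S34 RH24 H28GV

namespace H10HB

section Gen

variable (R : Type) [CommRing R] {F : Type} [Field F] [Algebra R F]

/-- a unit of `B_𝔫` is a unit of every `V` through `𝔫`. -/
theorem through_unit (c : F) (𝔫 : Ideal (Chart R c)) (h𝔫 : 𝔫.IsPrime) (V : ValuationSubring F)
    (hT : H10G3.Through R c 𝔫 V) (x : F) (hx : InLoc R c 𝔫 x) (hx' : InLoc R c 𝔫 x⁻¹)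
    (hx0 : x ≠ 0) : V.valuation x = 1 := by
  obtain ⟨a, u, hu, e⟩ := hx
  obtain ⟨a', u', hu', e'⟩ := hx'
  have h1 : (u * u' : Chart R c) = a * a' := by
    apply Subtype.ext
    push_cast
    rw [← e, ← e']
    field_simp
  have huu : u * u' ∉ 𝔫 := fun h => (h𝔫.mem_or_mem h).elim hu hu'
  have ha : a ∉ 𝔫 := fun h => huu (h1 ▸ 𝔫.mul_mem_right a' h)
  have hva := hT a ha
  have hvu := hT u hu
  have h2 := congrArg V.valuation e
  rw [Valuation.map_mul, hvu, one_mul, hva] at h2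
  exact h2

/-- `v(x) = 1` iff `x, x⁻¹ ∈ V` (`x ≠ 0`). -/
theorem val_eq_one_iff_mem (V : ValuationSubring F) (x : F) (hx0 : x ≠ 0) :
    V.valuation x = 1 ↔ x ∈ V ∧ x⁻¹ ∈ V := by
  rw [← V.valuation_le_one_iff, ← V.valuation_le_one_iff, map_inv₀]
  have h0 : V.valuation x ≠ 0 := (Valuation.ne_zero_iff _).mpr hx0
  constructor
  · intro h
    rw [h]
    simp
  · rintro ⟨h1, h2⟩
    refine le_antisymm h1 ?_
    rwa [inv_le_one₀ (zero_lt_iff.mpr h0)] at h2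

/-- **the image point of a point through `V'` is through `V`**, when `x ∈ V ↔ W x ∈ V'`. -/
theorem through_image (c c₂ : F) (𝔫 : Ideal (Chart R c)) (𝔫₂ : Ideal (Chart R c₂))
    (h𝔫 : 𝔫.IsPrime) (h𝔫₂ : 𝔫₂.IsPrime) (W : F →+* F)
    (hloc : ∀ x : F, InLoc R c₂ 𝔫₂ x ↔ InLoc R c 𝔫 (W x))
    (V V' : ValuationSubring F) (hVV' : ∀ x : F, x ∈ V ↔ W x ∈ V')
    (hT : H10G3.Through R c 𝔫 V') : H10G3.Through R c₂ 𝔫₂ V := by
  intro s hs
  have hs0 : (s : F) ≠ 0 := by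
    intro h0
    apply hs
    have : s = 0 := Subtype.ext h0
    rw [this]
    exact 𝔫₂.zero_mem
  have h1 : InLoc R c₂ 𝔫₂ (s : F) := ⟨s, 1, fun h => h𝔫₂.ne_top ((Ideal.eq_top_iff_one _).mpr h),
    by push_cast; rw [one_mul]⟩
  have h2 : InLoc R c₂ 𝔫₂ (s : F)⁻¹ := ⟨1, s, hs, by push_cast; exact mul_inv_cancel₀ hs0⟩
  have h3 := (hloc _).mp h1
  have h4 := (hloc _).mp h2
  rw [map_inv₀] at h4
  have hW0 : W (s : F) ≠ 0 := by
    intro h0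
    exact hs0 (W.injective (h0.trans (map_zero W).symm))
  have h5 := through_unit R c 𝔫 h𝔫 V' hT _ h3 h4 hW0
  rw [val_eq_one_iff_mem V' _ hW0] at h5
  rw [val_eq_one_iff_mem V _ hs0]
  refine ⟨(hVV' _).mpr h5.1, (hVV' _).mpr ?_⟩
  rw [map_inv₀]
  exact h5.2

end Gen

/-- **(HALF-β-WIRE)**: the `β`-half of `HalfAt` from the `α`-half, by `W_{q²}`-transport. -/
theorem halfBeta_of_alpha (hα : H17HB.HalfAlphaStatement) : H17HB.HalfBetaStatement := by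
  intro M _ q _ hq hqM hT A hA K₁ hfin hunr hζe _ K₃ hfin₃ h13 _ ζ hζ _ _ _ _ t₀ ht₀ t ht n hn
    hqn hTr c hc 𝔫 h𝔫 hT₁ hT₂ hT₃ hImg ε hε hε' hε0 r
  obtain ⟨c₂, 𝔫₂, hc₂, h𝔫₂, hloc⟩ := hImg
  haveI hqF : Fact q.Prime := ⟨hq⟩
  obtain ⟨hperf, hcharp⟩ := H1S18.c7Perfect q A hA K₁
  haveI := hcharp
  have hchar : ∀ r : ℕ, r.Prime → r ∣ M →
      (r : IsLocalRing.ResidueField ↥(descVal A K₁)) ≠ 0 := by
    intro r hr hrM h0
    have h1 := (CharP.cast_eq_zero_iff (IsLocalRing.ResidueField ↥(descVal A K₁)) q r).mp h0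
    have h2 : q = r := (Nat.prime_dvd_prime_iff_eq hq hr).mp h1
    exact hqM (h2 ▸ hrM)
  obtain ⟨B⟩ := gv_basis_nonempty_gen (descVal A K₁) (IsLocalRing.residue ↥(descVal A K₁)) M hchar
  have hR : ∀ c : ↥K₁, c ∈ descVal A K₁ ↔ IntermediateField.inclusion h13 c ∈ descVal A K₃ :=
    fun c => Iff.rfl
  have hp := h𝔫.1.isPrime
  have hp₂ := h𝔫₂.1.isPrime
  have hWW := H12WQ.wq2KHom_invol K₁ M q hq hqM
  have hW'W' := H12AL.wqKHom_invol K₁ M q hq hqM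
  -- the three components at the image point
  have h12 : ∀ x : FK K₁ (M * q * q), x ∈ H4S36.cV1 K₁ (descVal A K₁) M q ↔
      H12WQ.wq2KHom K₁ M q hq hqM x ∈ H4S36.cV2 K₁ (descVal A K₁) M q hq hqM := by
    intro x
    unfold H4S36.cV2 H4S36.cV1
    rw [ValuationSubring.mem_comap, hWW]
  have h21 : ∀ x : FK K₁ (M * q * q), x ∈ H4S36.cV2 K₁ (descVal A K₁) M q hq hqM ↔
      H12WQ.wq2KHom K₁ M q hq hqM x ∈ H4S36.cV1 K₁ (descVal A K₁) M q := by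
    intro x
    unfold H4S36.cV2 H4S36.cV1
    rw [ValuationSubring.mem_comap]
  have h33 : ∀ x : FK K₁ (M * q * q),
      x ∈ H4S36.cV3 K₁ M q hq hqM K₃ (descVal A K₃) h13 ζ hζ ↔
      H12WQ.wq2KHom K₁ M q hq hqM x ∈ H4S36.cV3 K₁ M q hq hqM K₃ (descVal A K₃) h13 ζ hζ :=
    fun x => (H24V3.cV3_wq2_mem_iff K₁ (descVal A K₁) M q hq hqM K₃ (descVal A K₃) h13 hR hunr B
      ζ hζ x).symm
  have hT₁' := through_image ↥(descVal A K₁) c c₂ 𝔫 𝔫₂ hp hp₂ (H12WQ.wq2KHom K₁ M q hq hqM)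
    hloc _ _ h12 hT₂
  have hT₂' := through_image ↥(descVal A K₁) c c₂ 𝔫 𝔫₂ hp hp₂ (H12WQ.wq2KHom K₁ M q hq hqM)
    hloc _ _ h21 hT₁
  have hT₃' := through_image ↥(descVal A K₁) c c₂ 𝔫 𝔫₂ hp hp₂ (H12WQ.wq2KHom K₁ M q hq hqM)
    hloc _ _ h33 hT₃
  -- the unit `W ε`
  have hWε : InLoc ↥(descVal A K₁) c₂ 𝔫₂ (H12WQ.wq2KHom K₁ M q hq hqM ε) := by
    rw [hloc, hWW]
    exact hε
  have hWε' : InLoc ↥(descVal A K₁) c₂ 𝔫₂ (H12WQ.wq2KHom K₁ M q hq hqM ε)⁻¹ := by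
    rw [← map_inv₀, hloc, hWW]
    exact hε'
  have hWε0 : H12WQ.wq2KHom K₁ M q hq hqM ε ≠ 0 := by
    intro h0
    exact hε0 ((H12WQ.wq2KHom K₁ M q hq hqM).injective (h0.trans (map_zero _).symm))
  have h := hα M q hq hqM hT A hA K₁ hfin hunr hζe K₃ hfin₃ h13 ζ hζ t₀ ht₀ t ht n hn hqn hTr
    c₂ hc₂ 𝔫₂ h𝔫₂ hT₁' hT₂' hT₃' (H12WQ.wq2KHom K₁ M q hq hqM ε) hWε hWε' hWε0 r
  refine H17HB.halfAt_beta_of_alpha ↥(descVal A K₁) c c₂ 𝔫 𝔫₂
    (H12WQ.wq2KHom K₁ M q hq hqM) (H12AL.wqKHom K₁ M q hq hqM) hWW hW'W'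
    (heckeAlphaBar K₁ (M * q) q).toRingHom (heckeBetaBar K₁ (M * q) q).toRingHom
    (H4S36.normAKH K₁ M q) (H4S36.normBKH K₁ M q) ?_ ?_
    (H4S36.cV3 K₁ M q hq hqM K₃ (descVal A K₃) h13 ζ hζ)
    (H4S36.cV1' K₁ (descVal A K₁) M q) (H4S36.cV2' K₁ (descVal A K₁) M q hq hqM) ?_ ?_
    hloc n ε _ ?_ h
  · intro y
    exact H13N3.wq2KHom_alpha K₁ M q hq hqM y
  · intro x
    rw [H4S36.normBKH_apply, H4S36.normAKH_apply]
    exact H13N3.normBK_wq2K K₁ M q hq hqM x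
  · intro x
    exact H24V3.cV3_wq2_lt_iff K₁ (descVal A K₁) M q hq hqM K₃ (descVal A K₃) h13 hR hunr B
      ζ hζ x
  · intro x
    unfold H4S36.cV1' H4S36.cV2'
    rw [H10FC.mem_gaussVal2, hW'W', H10FC.mem_gaussVal]
  · exact H10FC.w_algebraMap M q hq hqM K₁ (descVal A K₁) _

end H10HB

end
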