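/-
helper10: item 86 (S36), leaf **(WPT2)**: the `W_{q²}`-image point at level `M q²` (statement).

`R = descVal A K₁`, `F = FK K₁ (M q q)`, `W = H12WQ.wq2KHom K₁ M q hq hqM`, `t` the base function
of kind `baseKind q`, `ϖ` any irreducible element of `R`.  At every CLOSED point `𝔫` of a chart
`c ∈ {t, t⁻¹}` with `j ∈ B_𝔫` (a non-cuspidal point) there is a closed point `𝔫'` of the chart
`t` with `W (B_𝔫') = B_𝔫` and `W (𝔪_{B_𝔫'}) = 𝔪_{B_𝔫}`:

  `∀ x, (InLoc R t 𝔫' x ↔ InLoc R c 𝔫 (W x)) ∧ (InMax t 𝔫' x ↔ InMax c 𝔫 (W x))`.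

Consumer: the `β`-half of `HalfAt` (helper17), by `W`-transport of the `α`-half.
-/
import Mathlib
import Fermat.Agent.S34.WTransport_helper26
import Fermat.Agent.S34.HW_helper24
import Fermat.Agent.S36.ALQ2_helper12
import Fermat.Agent.S36.TGIncl_helper8

set_option autoImplicit false
set_option linter.unusedSectionVars false
set_option linter.unusedVariables false
set_option linter.style.haveILetI false
set_option synthInstance.maxHeartbeats 400000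

open Polynomial IntermediateField ModularCurve

noncomputable section

namespace H10WP

open H27CS H4S34 H7S18

/-- **(WPT2)**: the `W_{q²}`-image point of a non-cuspidal closed point. -/
def WPT2Statement : Prop :=
  ∀ (M : ℕ) [NeZero M] (q : ℕ) [NeZero q] (hq : q.Prime) (hqM : ¬ q ∣ M) (_ : TameLevel q M)
    (A : ValuationSubring (AlgebraicClosure ℚ)) (_ : A.LiesOverPrime q)
    (K₁ : IntermediateField ℚ (AlgebraicClosure ℚ)) (_ : FiniteDimensional ℚ K₁)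
    [Algebra ↥(descVal A K₁) (FK K₁ (M * q * q))]
    [IsScalarTower ↥(descVal A K₁) K₁ (FK K₁ (M * q * q))]
    (ϖ : ↥(descVal A K₁)) (_ : Irreducible ϖ)
    (t₀ : LaurentSeries ℚ) (_ : IsBase (baseKind q) t₀)
    (t : FK K₁ (M * q * q)) (_ : (t : LaurentSeries K₁) = coeffEmb K₁ t₀)
    (c : FK K₁ (M * q * q)) (_ : c = t ∨ c = t⁻¹)
    (𝔫 : Ideal (Chart ↥(descVal A K₁) c)),
    IsClosedPt ↥(descVal A K₁) ϖ c 𝔫 →
    InLoc ↥(descVal A K₁) c 𝔫 (H8TG.J0 K₁ (M * q * q)) →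
    ∃ 𝔫' : Ideal (Chart ↥(descVal A K₁) t), IsClosedPt ↥(descVal A K₁) ϖ t 𝔫' ∧
      ∀ x : FK K₁ (M * q * q),
        (InLoc ↥(descVal A K₁) t 𝔫' x ↔
          InLoc ↥(descVal A K₁) c 𝔫 (H12WQ.wq2KHom K₁ M q hq hqM x)) ∧
        (H26WT.InMax t 𝔫' x ↔ H26WT.InMax c 𝔫 (H12WQ.wq2KHom K₁ M q hq hqM x))

/-- **(H_W) for `W_{q²}`**: at every prime dich point `𝔫` of a chart `c ∈ {t, t⁻¹}`: `W t ∈ B_𝔫`,
or `(W t)⁻¹ ∈ B_𝔫` and `W t ∉ B_𝔫`. -/
def HWSqStatement : Prop :=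
  ∀ (M : ℕ) [NeZero M] (q : ℕ) [NeZero q] (hq : q.Prime) (hqM : ¬ q ∣ M) (_ : TameLevel q M)
    (A : ValuationSubring (AlgebraicClosure ℚ)) (_ : A.LiesOverPrime q)
    (K₁ : IntermediateField ℚ (AlgebraicClosure ℚ)) (_ : FiniteDimensional ℚ K₁)
    [Algebra ↥(descVal A K₁) (FK K₁ (M * q * q))]
    [IsScalarTower ↥(descVal A K₁) K₁ (FK K₁ (M * q * q))]
    (t₀ : LaurentSeries ℚ) (_ : IsBase (baseKind q) t₀)
    (t : FK K₁ (M * q * q)) (_ : (t : LaurentSeries K₁) = coeffEmb K₁ t₀),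
    H26WT.HWAt ↥(descVal A K₁) (H12WQ.wq2KHom K₁ M q hq hqM) t

end H10WP

end
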