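/-
helper10: item 86 (S36), leaf **(WPT2)**: the `W_{q²}`-image point at level `M q²`, PROVED,
together with `(H_W)` for `W_{q²}` (`H10WP.HWSqStatement`).

Proof: `W j = j(𝐪^{q²})`, and `Φ_q(j, j(𝐪^q)) = 0 = Φ_q(j(𝐪^q), j(𝐪^{q²}))`; so the abstract
two-step lemmas of `WPT2Abs_helper10` apply with `J = j`, `J₁ = j(𝐪^q)`, `J₂ = W j`, `T = t`,
`T' = W t`.  The image point is `H26WT.exists_image_point`.
-/
import Mathlib
import Fermat.Agent.S36.WPT2Abs_helper10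
import Fermat.Agent.S36.WPT2Defs_helper10

set_option autoImplicit false
set_option linter.unusedSectionVars false
set_option linter.unusedVariables false
set_option linter.style.haveILetI false
set_option synthInstance.maxHeartbeats 400000

open Polynomial IntermediateField ModularCurve

noncomputable section

namespace H10WP

open H27CS H4S34 H7S18

set_option maxHeartbeats 1600000 in
/-- the core: with `W = W_{q²}`, at every prime `𝔫` of a chart `c` (with `F / K₁(c)` finite):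
`j ∈ B_𝔫 ⇒ W t ∈ B_𝔫`; and at every prime dich point `W t ∈ B_𝔫` or `(W t)⁻¹ ∈ B_𝔫`. -/
theorem wpt_core (M : ℕ) [NeZero M] (q : ℕ) [NeZero q] (hq : q.Prime) (hqM : ¬ q ∣ M)
    (hT : TameLevel q M)
    (A : ValuationSubring (AlgebraicClosure ℚ)) (hA : A.LiesOverPrime q)
    (K₁ : IntermediateField ℚ (AlgebraicClosure ℚ)) (hfin : FiniteDimensional ℚ K₁)
    [Algebra ↥(descVal A K₁) (FK K₁ (M * q * q))]
    [IsScalarTower ↥(descVal A K₁) K₁ (FK K₁ (M * q * q))]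
    (t₀ : LaurentSeries ℚ) (ht₀ : IsBase (baseKind q) t₀)
    (t : FK K₁ (M * q * q)) (ht : (t : LaurentSeries K₁) = coeffEmb K₁ t₀) :
    t ≠ 0 ∧ FiniteDimensional K₁⟮t⟯ (FK K₁ (M * q * q)) ∧
      FiniteDimensional K₁⟮t⁻¹⟯ (FK K₁ (M * q * q)) ∧
      (∀ (c : FK K₁ (M * q * q)), FiniteDimensional K₁⟮c⟯ (FK K₁ (M * q * q)) →
        ∀ 𝔫 : Ideal (Chart ↥(descVal A K₁) c), 𝔫.IsPrime →
        InLoc ↥(descVal A K₁) c 𝔫 (H8TG.J0 K₁ (M * q * q)) →
        InLoc ↥(descVal A K₁) c 𝔫 (H12WQ.wq2KHom K₁ M q hq hqM t)) ∧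
      (∀ (c : FK K₁ (M * q * q)) (𝔫 : Ideal (Chart ↥(descVal A K₁) c)), 𝔫.IsPrime →
        H26DI.IsDichPt t c 𝔫 →
        InLoc ↥(descVal A K₁) c 𝔫 (H12WQ.wq2KHom K₁ M q hq hqM t) ∨
          InLoc ↥(descVal A K₁) c 𝔫 (H12WQ.wq2KHom K₁ M q hq hqM t)⁻¹) := by
  haveI : Fact q.Prime := ⟨hq⟩
  obtain ⟨hdvr, -, hunits⟩ := H4DVR.dvrStatement q A hA K₁ hfin
  haveI := hdvr
  -- field basics
  have hi : baseKind q = 1 ∨ (baseKind q = 2 ∧ 2 ∣ M * q * q) ∨
      (baseKind q = 3 ∧ 3 ∣ M * q * q) := by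
    unfold baseKind
    by_cases h2 : q = 2
    · rw [if_pos h2]
      exact Or.inr (Or.inr ⟨rfl, Dvd.dvd.mul_right (Dvd.dvd.mul_right (hT.2.1 h2) q) q⟩)
    · rw [if_neg h2]
      by_cases h3 : q = 3
      · rw [if_pos h3]
        exact Or.inr (Or.inl ⟨rfl, Dvd.dvd.mul_right (Dvd.dvd.mul_right (hT.2.2 h3) q) q⟩)
      · rw [if_neg h3]
        exact Or.inl rfl
  obtain ⟨t', ht', httr, hfd, -⟩ := H9C6e.fieldBasics (M * q * q) (baseKind q) hi t₀ ht₀ K₁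
  have htt : t' = t := Subtype.ext (ht'.trans ht.symm)
  subst htt
  have ht0 : t' ≠ 0 := by
    rintro rfl
    exact httr (isAlgebraic_zero)
  have hfd' : FiniteDimensional K₁⟮t'⁻¹⟯ (FK K₁ (M * q * q)) :=
    H21S18.finiteDimensional_transport (H21S18.adjoin_inv_eq (K := K₁) t').symm hfd
  -- the modular equation
  obtain ⟨Φ, Tp, Gp, hΦmon, hΦdeg, -, -, -, hMt⟩ := H15U.exists_modTriple q
  have hΦ : IsModPoly q Φ := fun A' _ ζ hζ => (hMt A' ζ hζ).1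
  -- the relation
  obtain ⟨G, k, hG, hk, hG0, hrel⟩ := H24HW.exists_rel_tame K₁ q hq t₀ ht₀
  -- elements of `F`
  have hjmemM : jqModC K₁ ∈ laurentBaseChange K₁ (modularFunctionFieldFull M) :=
    H28GV.gv_mem_base_of_full M (jqModC_mem_full K₁ M)
  set jF : FK K₁ (M * q * q) := H8TG.J0 K₁ (M * q * q) with hjF
  set J₁ : FK K₁ (M * q * q) :=
    H8TG.J1 K₁ (M * q * q) q (Dvd.intro_left (M * q) rfl) with hJ₁
  set W := H12WQ.wq2KHom K₁ M q hq hqM with hW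
  set ι : FK K₁ (M * q * q) →+* LaurentSeries K₁ :=
    (laurentBaseChange K₁ (modularFunctionFieldFull (M * q * q))).val.toRingHom with hι
  have hιinj : Function.Injective ι := Subtype.val_injective
  have hιt : ι t' = coeffEmb K₁ t₀ := ht'
  have hιj : ι jF = jqModC K₁ := rfl
  have hιJ₁ : ι J₁ = qExpand K₁ q (jqModC K₁) := rfl
  have hιWj : ι (W jF) = qExpand K₁ q (qExpand K₁ q (jqModC K₁)) :=
    H12WQ.coe_wq2KHom_of_level_M K₁ M q hq hqM jF (H8TG.J0 K₁ (M * q)) rfl hjmemM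
  have hjF0 : jF ≠ 0 := by
    intro h0
    have := congrArg ι h0
    rw [hιj, map_zero] at this
    exact jqModC_ne_zero_of_nontrivial K₁ this
  have hJ₂0 : W jF ≠ 0 := by
    intro h0
    apply hjF0
    exact W.injective (h0.trans (map_zero _).symm)
  have hqinj : Function.Injective (qExpand K₁ q) := (qExpand K₁ q).injective
  have hJ₁0 : J₁ ≠ 0 := by
    intro h0
    have := congrArg ι h0
    rw [hιJ₁, map_zero] at this
    exact jqModC_ne_zero_of_nontrivial K₁ (hqinj (this.trans (map_zero _).symm))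
  have hroot : ev2 Φ (jqModC K₁) (qExpand K₁ q (jqModC K₁)) = 0 :=
    H15U.Phi_root q Φ Tp Gp hMt K₁
  have hΦ1 : ev2 Φ jF J₁ = 0 := by
    apply hιinj
    rw [map_ev2, hιj, hιJ₁, map_zero]
    exact hroot
  have hΦ2 : ev2 Φ J₁ (W jF) = 0 := by
    apply hιinj
    rw [map_ev2, hιJ₁, hιWj, map_zero]
    have := congrArg (qExpand K₁ q) hroot
    rwa [map_ev2, map_zero] at this
  have hrelE : ev t' G = jF * t' ^ k := by
    apply hιinj
    rw [map_ev, map_mul, map_pow, hιt, hιj]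
    exact hrel
  have hrelW : ev (W t') G = W jF * (W t') ^ k := by
    rw [← map_ev, hrelE, map_mul, map_pow]
  have hu : k = 0 ∨ IsUnit (((G.coeff 0 : ℤ) : ↥(descVal A K₁))) := by
    rcases hG0 with h | ⟨n, hn0, hqn, hGn⟩
    · exact Or.inl h
    · right
      rw [hGn, Int.cast_natCast]
      exact hunits n hqn hn0
  refine ⟨ht0, hfd, hfd', ?_, ?_⟩
  · intro c hfdc 𝔫 h𝔫 hj
    haveI := hfdc
    haveI := h𝔫
    exact wp_generic_mem ↥(descVal A K₁) K₁ c 𝔫 hΦmon jF J₁ (W jF) (W t') hΦ1 hΦ2 G hG k hk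
      hrelW hj
  · intro c 𝔫 h𝔫 hdich
    haveI := h𝔫
    have hfdc : FiniteDimensional K₁⟮c⟯ (FK K₁ (M * q * q)) := by
      rcases hdich with rfl | ⟨rfl, -⟩
      · exact hfd
      · exact hfd'
    haveI := hfdc
    exact wp_generic ↥(descVal A K₁) K₁ c 𝔫 hΦ hΦmon hΦdeg jF J₁ (W jF) t' (W t') hJ₁0 hJ₂0
      hΦ1 hΦ2 G hG k hk hrelE hrelW hu ht0 hdich

/-- **(H_W) for `W_{q²}`**, proved. -/
theorem hwSq : HWSqStatement := by
  intro M _ q _ hq hqM hT A hA K₁ hfin _ _ t₀ ht₀ t ht c 𝔫 h𝔫 hdich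
  obtain ⟨-, -, -, -, key⟩ := wpt_core M q hq hqM hT A hA K₁ hfin t₀ ht₀ t ht
  by_cases hin : InLoc ↥(descVal A K₁) c 𝔫 (H12WQ.wq2KHom K₁ M q hq hqM t)
  · exact Or.inl hin
  · exact Or.inr ⟨(key c 𝔫 h𝔫 hdich).resolve_left hin, hin⟩

/-- **(WPT2)**, proved. -/
theorem wpt2 : WPT2Statement := by
  intro M _ q _ hq hqM hT A hA K₁ hfin _ _ ϖ hϖ t₀ ht₀ t ht c hc 𝔫 h𝔫 hj
  obtain ⟨ht0, hfd, hfd', hmem, key⟩ := wpt_core M q hq hqM hT A hA K₁ hfin t₀ ht₀ t ht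
  haveI : Fact q.Prime := ⟨hq⟩
  obtain ⟨hdvr, -, -⟩ := H4DVR.dvrStatement q A hA K₁ hfin
  haveI := hdvr
  have hp := h𝔫.1.isPrime
  have hfdc : FiniteDimensional K₁⟮c⟯ (FK K₁ (M * q * q)) := by
    rcases hc with rfl | rfl
    · exact hfd
    · exact hfd'
  have hww := H12WQ.wq2KHom_invol K₁ M q hq hqM
  have hwR : ∀ r : ↥(descVal A K₁),
      H12WQ.wq2KHom K₁ M q hq hqM (algebraMap ↥(descVal A K₁) (FK K₁ (M * q * q)) r) =
      algebraMap ↥(descVal A K₁) (FK K₁ (M * q * q)) r := by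
    intro r
    rw [IsScalarTower.algebraMap_apply ↥(descVal A K₁) K₁ (FK K₁ (M * q * q))]
    exact H12WQ.wq2KHom_const K₁ M q hq hqM _
  -- (i)
  have hA' : InLoc ↥(descVal A K₁) c 𝔫 (H12WQ.wq2KHom K₁ M q hq hqM t) := hmem c hfdc 𝔫 hp hj
  obtain ⟨𝔫', hcl, -, -, h2, h3⟩ :=
    H26WT.exists_image_point (R := ↥(descVal A K₁)) (E := FK K₁ (M * q * q)) (c' := t)
      (H12WQ.wq2KHom K₁ M q hq hqM) hww hwR ϖ hϖ h𝔫 hA'
  have hp' := hcl.1.isPrime
  -- (ii)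
  have hkey := key t 𝔫' hp' (Or.inl rfl)
  have hcc : InLoc ↥(descVal A K₁) c 𝔫 c := H26WT.inLoc_coe hp (H26WT.chartGen ↥(descVal A K₁) c)
  have hwc : InLoc ↥(descVal A K₁) t 𝔫' (H12WQ.wq2KHom K₁ M q hq hqM c) := by
    rcases hc with rfl | rfl
    · rcases hkey with h | h
      · exact h
      · by_contra hnot
        have h3' := h2 _ (H26WT.inMax_inv_of_not_inLoc h hnot)
        rw [map_inv₀, hww] at h3'
        refine H26WT.inMax_inv_absurd hp (inv_ne_zero ht0) h3' ?_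
        rw [inv_inv]
        exact hcc
    · rw [map_inv₀]
      rcases hkey with h | h
      · by_cases hm : H26WT.InMax t 𝔫' (H12WQ.wq2KHom K₁ M q hq hqM t)
        · exfalso
          have h3' := h2 _ hm
          rw [hww] at h3'
          exact H26WT.inMax_inv_absurd hp ht0 h3' hcc
        · exact H26WT.inLoc_inv h hm
      · exact h
  exact ⟨𝔫', hcl, h3 hwc⟩

end H10WP

end
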