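import Mathlib
import Fermat.Agent.S36.HalfAlpha_helper17
import Fermat.Agent.S36.WPT2_helper10
import Fermat.Agent.S36.HalfBeta_helper10

/-!
# Item 86 (S36, Carayol), leaf (HalfAt) (helper17): the fields `hHα`, `hHβ` of
`H19LA.PointLeaves` for the concrete objects

* `H17HB.imgPt_of_dich` : every closed dich point `𝔫` of a chart `c ∈ {t, t⁻¹}` of the level
  `M q q` has a `W_{q²}`-image point (`H17HB.ImgPt`), from `H10WP.hwSq` +
  `H26WT.exists_dich_image`;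
* `H17HB.hHα_field` : the field `hHα` of `H19LA.PointLeaves` at every closed point of the charts
  `c ∈ {t, t⁻¹}` (from `H17HB.halfAlpha`);
* `H17HB.halfBeta`  : `H17HB.HalfBetaStatement` (helper10's `W`-wire applied to `halfAlpha`);
* `H17HB.hHβ_field` : the field `hHβ` of `H19LA.PointLeaves` at every closed dich point.
-/

set_option autoImplicit false
set_option synthInstance.maxHeartbeats 400000
set_option maxHeartbeats 4000000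
set_option linter.unusedSectionVars false
set_option linter.unusedVariables false
set_option linter.style.haveILetI false

noncomputable section

open IntermediateField AlgebraicCurve ModularCurve H7S18 H4S34 RH24

namespace H17HB

local notation "Qb" => AlgebraicClosure ℚ

/-- **the `W_{q²}`-image point of a closed dich point** of the level `M q q`. -/
theorem imgPt_of_dich (M : ℕ) [NeZero M] (q : ℕ) [NeZero q] (hq : q.Prime) (hqM : ¬ q ∣ M)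
    (hT : TameLevel q M)
    (A : ValuationSubring Qb) (hA : A.LiesOverPrime q)
    (K₁ : IntermediateField ℚ Qb) (hfin : FiniteDimensional ℚ K₁)
    [Algebra ↥(descVal A K₁) (FK K₁ (M * q * q))]
    [IsScalarTower ↥(descVal A K₁) K₁ (FK K₁ (M * q * q))]
    (ϖ : ↥(descVal A K₁)) (hϖ : Irreducible ϖ)
    (t₀ : LaurentSeries ℚ) (ht₀ : IsBase (baseKind q) t₀)
    (t : FK K₁ (M * q * q)) (ht : (t : LaurentSeries K₁) = coeffEmb K₁ t₀)
    (c : FK K₁ (M * q * q)) (𝔫 : Ideal (Chart ↥(descVal A K₁) c))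
    (h𝔫 : IsClosedPt ↥(descVal A K₁) ϖ c 𝔫) (hd : H26DI.IsDichPt t c 𝔫) :
    ImgPt ↥(descVal A K₁) ϖ t (H12WQ.wq2KHom K₁ M q hq hqM) c 𝔫 := by
  haveI : Fact q.Prime := ⟨hq⟩
  obtain ⟨hdvr, -, -⟩ := H4DVR.dvrStatement q A hA K₁ hfin
  haveI := hdvr
  obtain ⟨ht0, -, -, -, -⟩ := H10WP.wpt_core M q hq hqM hT A hA K₁ hfin t₀ ht₀ t ht
  have hww := H12WQ.wq2KHom_invol K₁ M q hq hqM
  have hwR : ∀ r : ↥(descVal A K₁),
      H12WQ.wq2KHom K₁ M q hq hqM (algebraMap ↥(descVal A K₁) (FK K₁ (M * q * q)) r) =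
      algebraMap ↥(descVal A K₁) (FK K₁ (M * q * q)) r := by
    intro r
    rw [IsScalarTower.algebraMap_apply ↥(descVal A K₁) K₁ (FK K₁ (M * q * q))]
    exact H12WQ.wq2KHom_const K₁ M q hq hqM _
  obtain ⟨c', 𝔫', hc', hcl, -, hiff⟩ :=
    H26WT.exists_dich_image (R := ↥(descVal A K₁)) (E := FK K₁ (M * q * q))
      (H12WQ.wq2KHom K₁ M q hq hqM) hww hwR ϖ hϖ t ht0
      (H10WP.hwSq M q hq hqM hT A hA K₁ hfin t₀ ht₀ t ht) 𝔫 h𝔫 hd
  exact ⟨c', 𝔫', hc', hcl, fun x => (hiff x).1⟩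

/-- **the field `hHα` of `H19LA.PointLeaves`** for the concrete objects, at every closed point of
the charts `c ∈ {t, t⁻¹}`. -/
theorem hHα_field (M : ℕ) [NeZero M] (q : ℕ) [NeZero q] (hq : q.Prime) (hqM : ¬ q ∣ M)
    (hT : TameLevel q M)
    (A : ValuationSubring Qb) (hA : A.LiesOverPrime q)
    (K₁ : IntermediateField ℚ Qb) (hfin : FiniteDimensional ℚ K₁)
    (hunr : Irreducible ((q : ℕ) : ↥(descVal A K₁)))
    (hζe : ∃ ζ : K₁, IsPrimitiveRoot ζ (branchIndex (baseKind q) M))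
    [IsDiscreteValuationRing ↥(descVal A K₁)]
    (K₃ : IntermediateField ℚ Qb) (hfin₃ : FiniteDimensional ℚ K₃) (h13 : K₁ ≤ K₃)
    [IsDiscreteValuationRing ↥(descVal A K₃)]
    (ζ : (↥K₃)ˣ) (hζ : IsPrimitiveRoot ζ q)
    [Algebra ↥(descVal A K₁) (FK K₁ (M * q * q))]
    [IsScalarTower ↥(descVal A K₁) K₁ (FK K₁ (M * q * q))]
    [Algebra ↥(descVal A K₁) (FK K₁ (M * q))]
    [IsScalarTower ↥(descVal A K₁) K₁ (FK K₁ (M * q))]
    (t₀ : LaurentSeries ℚ) (ht₀ : IsBase (baseKind q) t₀)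
    (t : FK K₁ (M * q * q)) (ht : (t : LaurentSeries K₁) = coeffEmb K₁ t₀)
    (n : ℕ) (hn : 0 < n) (hqn : ¬ q ∣ n)
    (hTr : H4S36.Triple ↥(descVal A K₁) K₁ (FK K₁ (M * q * q)) (FK K₁ (M * q))
      ((q : ℕ) : ↥(descVal A K₁)) t q n
      (heckeAlphaBar K₁ (M * q) q).toRingHom (heckeBetaBar K₁ (M * q) q).toRingHom
      (H4S36.normAKH K₁ M q) (H4S36.normBKH K₁ M q)
      (H4S36.cV1 K₁ (descVal A K₁) M q) (H4S36.cV2 K₁ (descVal A K₁) M q hq hqM)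
      (H4S36.cV3 K₁ M q hq hqM K₃ (descVal A K₃) h13 ζ hζ)
      (H4S36.cV1' K₁ (descVal A K₁) M q) (H4S36.cV2' K₁ (descVal A K₁) M q hq hqM)
      (H4S36.cb3 K₁ M q))
    (c : FK K₁ (M * q * q)) (hc : c = t ∨ c = t⁻¹)
    (𝔫 : Ideal (Chart ↥(descVal A K₁) c))
    (h𝔫 : IsClosedPt ↥(descVal A K₁) ((q : ℕ) : ↥(descVal A K₁)) c 𝔫) :
    H10G3.Through ↥(descVal A K₁) c 𝔫 (H4S36.cV1 K₁ (descVal A K₁) M q) →
    H10G3.Through ↥(descVal A K₁) c 𝔫 (H4S36.cV2 K₁ (descVal A K₁) M q hq hqM) →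
    H10G3.Through ↥(descVal A K₁) c 𝔫 (H4S36.cV3 K₁ M q hq hqM K₃ (descVal A K₃) h13 ζ hζ) →
    ∀ (ε : FK K₁ (M * q * q)) (r : ↥(descVal A K₁)), ε ≠ 0 →
      InLoc ↥(descVal A K₁) c 𝔫 ε → InLoc ↥(descVal A K₁) c 𝔫 ε⁻¹ →
      H10G3.HalfAt ↥(descVal A K₁) c 𝔫 (heckeAlphaBar K₁ (M * q) q).toRingHom
        (H4S36.normAKH K₁ M q) (H4S36.cV3 K₁ M q hq hqM K₃ (descVal A K₃) h13 ζ hζ)
        (H4S36.cV1' K₁ (descVal A K₁) M q) (H4S36.cV2' K₁ (descVal A K₁) M q hq hqM) n ε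
        (algebraMap ↥(descVal A K₁) (FK K₁ (M * q)) (1 + ((q : ℕ) : ↥(descVal A K₁)) * r)) :=
  fun h1 h2 h3 ε r hε0 hε hε' =>
    halfAlpha M q hq hqM hT A hA K₁ hfin hunr hζe K₃ hfin₃ h13 ζ hζ t₀ ht₀ t ht n hn hqn hTr
      c hc 𝔫 h𝔫 h1 h2 h3 ε hε hε' hε0 r

/-- **(HalfAt), `β`**: the concrete statement. -/
theorem halfBeta : HalfBetaStatement := H10HB.halfBeta_of_alpha halfAlpha

/-- **the field `hHβ` of `H19LA.PointLeaves`** for the concrete objects, at every closed dich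
point of the charts `c ∈ {t, t⁻¹}`. -/
theorem hHβ_field
    (M : ℕ) [NeZero M] (q : ℕ) [NeZero q] (hq : q.Prime) (hqM : ¬ q ∣ M)
    (hT : TameLevel q M)
    (A : ValuationSubring Qb) (hA : A.LiesOverPrime q)
    (K₁ : IntermediateField ℚ Qb) (hfin : FiniteDimensional ℚ K₁)
    (hunr : Irreducible ((q : ℕ) : ↥(descVal A K₁)))
    (hζe : ∃ ζ : K₁, IsPrimitiveRoot ζ (branchIndex (baseKind q) M))
    [IsDiscreteValuationRing ↥(descVal A K₁)]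
    (K₃ : IntermediateField ℚ Qb) (hfin₃ : FiniteDimensional ℚ K₃) (h13 : K₁ ≤ K₃)
    [IsDiscreteValuationRing ↥(descVal A K₃)]
    (ζ : (↥K₃)ˣ) (hζ : IsPrimitiveRoot ζ q)
    [Algebra ↥(descVal A K₁) (FK K₁ (M * q * q))]
    [IsScalarTower ↥(descVal A K₁) K₁ (FK K₁ (M * q * q))]
    [Algebra ↥(descVal A K₁) (FK K₁ (M * q))]
    [IsScalarTower ↥(descVal A K₁) K₁ (FK K₁ (M * q))]
    (t₀ : LaurentSeries ℚ) (ht₀ : IsBase (baseKind q) t₀)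
    (t : FK K₁ (M * q * q)) (ht : (t : LaurentSeries K₁) = coeffEmb K₁ t₀)
    (n : ℕ) (hn : 0 < n) (hqn : ¬ q ∣ n)
    (hTr : H4S36.Triple ↥(descVal A K₁) K₁ (FK K₁ (M * q * q)) (FK K₁ (M * q))
      ((q : ℕ) : ↥(descVal A K₁)) t q n
      (heckeAlphaBar K₁ (M * q) q).toRingHom (heckeBetaBar K₁ (M * q) q).toRingHom
      (H4S36.normAKH K₁ M q) (H4S36.normBKH K₁ M q)
      (H4S36.cV1 K₁ (descVal A K₁) M q) (H4S36.cV2 K₁ (descVal A K₁) M q hq hqM)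
      (H4S36.cV3 K₁ M q hq hqM K₃ (descVal A K₃) h13 ζ hζ)
      (H4S36.cV1' K₁ (descVal A K₁) M q) (H4S36.cV2' K₁ (descVal A K₁) M q hq hqM)
      (H4S36.cb3 K₁ M q))
    (c : FK K₁ (M * q * q))
    (𝔫 : Ideal (Chart ↥(descVal A K₁) c))
    (h𝔫 : IsClosedPt ↥(descVal A K₁) ((q : ℕ) : ↥(descVal A K₁)) c 𝔫)
    (hd : H26DI.IsDichPt t c 𝔫) :
    H10G3.Through ↥(descVal A K₁) c 𝔫 (H4S36.cV1 K₁ (descVal A K₁) M q) →
    H10G3.Through ↥(descVal A K₁) c 𝔫 (H4S36.cV2 K₁ (descVal A K₁) M q hq hqM) →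
    H10G3.Through ↥(descVal A K₁) c 𝔫 (H4S36.cV3 K₁ M q hq hqM K₃ (descVal A K₃) h13 ζ hζ) →
    ∀ (ε : FK K₁ (M * q * q)) (r : ↥(descVal A K₁)), ε ≠ 0 →
      InLoc ↥(descVal A K₁) c 𝔫 ε → InLoc ↥(descVal A K₁) c 𝔫 ε⁻¹ →
      H10G3.HalfAt ↥(descVal A K₁) c 𝔫 (heckeBetaBar K₁ (M * q) q).toRingHom
        (H4S36.normBKH K₁ M q) (H4S36.cV3 K₁ M q hq hqM K₃ (descVal A K₃) h13 ζ hζ)
        (H4S36.cV2' K₁ (descVal A K₁) M q hq hqM) (H4S36.cV1' K₁ (descVal A K₁) M q) n ε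
        (algebraMap ↥(descVal A K₁) (FK K₁ (M * q)) (1 + ((q : ℕ) : ↥(descVal A K₁)) * r)) :=
  fun h1 h2 h3 ε r hε0 hε hε' =>
    halfBeta M q hq hqM hT A hA K₁ hfin hunr hζe K₃ hfin₃ h13 ζ hζ t₀ ht₀ t ht n hn hqn hTr
      c (hd.elim Or.inl (fun h => Or.inr h.1)) 𝔫 h𝔫 h1 h2 h3
      (imgPt_of_dich M q hq hqM hT A hA K₁ hfin ((q : ℕ) : ↥(descVal A K₁)) hunr
        t₀ ht₀ t ht c 𝔫 h𝔫 hd) ε hε hε' hε0 r

end H17HB

end
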