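import Mathlib
import Fermat.Agent.S36.Gen3Loc_helper10
import Fermat.Agent.S36.L1UAll_helper2

/-!
# helper19 — S36 (Carayol), item 86: (LOC-ASM), generic top assembly, POINTWISE form

Generic setting of `H10G3.mlocLeaf_of_gen3_loc` (`R` a DVR, `K`, `F ⊇ F'`, `Triple`).

* `H19LA.PointLeaves R ϖ c 𝔫 n j …` : ALL the local leaves at ONE closed point `𝔫` of the chart
  `c` (`c = t` or `c = t⁻¹`):
  - `hBR` : branch roots at `𝔫` (`H10G3.BRAt`, helper9);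
  - `hR2`, `hR3`, `hC3` : two generators (`H2L1.TwoGenAt`) if `𝔫` lies on `V₁ ∪ V₂`, resp. on
    `V₃` only and `j ∈ B_𝔫`, resp. on `V₃` only and `j ∉ B_𝔫` (helper26, helper20, helper7);
  - `hD` : (DICH3) all three components pass through `𝔫` or at most one (helper18);
  - `hHα`, `hHβ` : `H10G3.HalfAt` if `𝔫` is a triple point, for EVERY unit `ε` of `B_𝔫` and every
    constant `1 + ϖ r` (helper17).
* `H19LA.gen3At_of_pointLeaves` : `PointLeaves` at `𝔫` ⟹ `H10G3.Gen3At` at `𝔫`.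
* `H19LA.mlocLeaf_of_pointLeaves` : `Triple` + `PointLeaves` at the closed points of the chart
  `t` and of the chart `t⁻¹` + (for the closed points of the chart `t⁻¹` outside a set `S∞`) the
  package `Gen3At ∧ BRAt` obtained elsewhere (chart change) ⟹ `H4S36.MLocLeaf`.
-/

set_option autoImplicit false
set_option synthInstance.maxHeartbeats 400000
set_option linter.unusedSectionVars false
set_option linter.unusedVariables false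
set_option linter.style.haveILetI false

noncomputable section

open Polynomial IntermediateField AlgebraicCurve H4S34 H7S18

namespace H19LA

/-- all the local leaves at ONE closed point `𝔫` of the chart `c` -/
structure PointLeaves (R : Type) [CommRing R] {F : Type} [Field F] [Algebra R F]
    {F' : Type} [Field F'] [Algebra R F'] (ϖ : R) (c : F) (𝔫 : Ideal (Chart R c))
    (n : ℕ) (j : F)
    (V₁ V₂ V₃ : ValuationSubring F) (φα φβ : F' →+* F) (Nα Nβ : F →* F')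
    (V₁' V₂' : ValuationSubring F') : Prop where
  /-- (hBR): branch roots at `𝔫` -/
  hBR : H10G3.BRAt R c 𝔫 V₁ V₂ V₃ n
  /-- (R2): two generators if `𝔫` lies on `V₁ ∪ V₂` -/
  hR2 : (H10G3.Through R c 𝔫 V₁ ∨ H10G3.Through R c 𝔫 V₂) → H2L1.TwoGenAt R c 𝔫
  /-- (R3): two generators if `𝔫` lies on `V₃` only and is not a cusp -/
  hR3 : ¬ H10G3.Through R c 𝔫 V₁ → ¬ H10G3.Through R c 𝔫 V₂ → H10G3.Through R c 𝔫 V₃ →
    InLoc R c 𝔫 j → H2L1.TwoGenAt R c 𝔫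
  /-- (CUSP3): two generators if `𝔫` lies on `V₃` only and is a cusp -/
  hC3 : ¬ H10G3.Through R c 𝔫 V₁ → ¬ H10G3.Through R c 𝔫 V₂ → H10G3.Through R c 𝔫 V₃ →
    ¬ InLoc R c 𝔫 j → H2L1.TwoGenAt R c 𝔫
  /-- (DICH3): all three components pass through `𝔫`, or at most one -/
  hD : (H10G3.Through R c 𝔫 V₁ ∧ H10G3.Through R c 𝔫 V₂ ∧ H10G3.Through R c 𝔫 V₃) ∨
    ∀ V : ValuationSubring F, V = V₁ ∨ V = V₂ ∨ V = V₃ →
      ∀ W : ValuationSubring F, W = V₁ ∨ W = V₂ ∨ W = V₃ →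
        H10G3.Through R c 𝔫 V → H10G3.Through R c 𝔫 W → V = W
  /-- (HALF-α) if `𝔫` is a triple point -/
  hHα : H10G3.Through R c 𝔫 V₁ → H10G3.Through R c 𝔫 V₂ → H10G3.Through R c 𝔫 V₃ →
    ∀ (ε : F) (r : R), ε ≠ 0 → InLoc R c 𝔫 ε → InLoc R c 𝔫 ε⁻¹ →
      H10G3.HalfAt R c 𝔫 φα Nα V₃ V₁' V₂' n ε (algebraMap R F' (1 + ϖ * r))
  /-- (HALF-β) if `𝔫` is a triple point -/
  hHβ : H10G3.Through R c 𝔫 V₁ → H10G3.Through R c 𝔫 V₂ → H10G3.Through R c 𝔫 V₃ →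
    ∀ (ε : F) (r : R), ε ≠ 0 → InLoc R c 𝔫 ε → InLoc R c 𝔫 ε⁻¹ →
      H10G3.HalfAt R c 𝔫 φβ Nβ V₃ V₂' V₁' n ε (algebraMap R F' (1 + ϖ * r))

section Gen

variable (R : Type) [CommRing R] [IsDomain R] [IsDiscreteValuationRing R]
  (K : Type) [Field K] [CharZero K] [Algebra R K] [IsFractionRing R K]
  {F : Type} [Field F] [Algebra K F] [Algebra R F] [IsScalarTower R K F]
  {F' : Type} [Field F'] [Algebra R F']

/-- **two generators at one closed point** from the three cases. -/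
theorem twoGenAt_of_cases (ϖ : R) (hϖ : Irreducible ϖ) {c : F} (hc : Transcendental K c)
    (hfin : FiniteDimensional K⟮c⟯ F) (j : F) (V₁ V₂ V₃ : ValuationSubring F)
    (hO : ∀ x : F, GInt R ϖ c x ↔ x ∈ V₁ ∧ x ∈ V₂ ∧ x ∈ V₃)
    (𝔫 : Ideal (Chart R c)) (h𝔫 : IsClosedPt R ϖ c 𝔫)
    (hR2 : (H10G3.Through R c 𝔫 V₁ ∨ H10G3.Through R c 𝔫 V₂) → H2L1.TwoGenAt R c 𝔫)
    (hR3 : ¬ H10G3.Through R c 𝔫 V₁ → ¬ H10G3.Through R c 𝔫 V₂ → H10G3.Through R c 𝔫 V₃ →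
      InLoc R c 𝔫 j → H2L1.TwoGenAt R c 𝔫)
    (hC3 : ¬ H10G3.Through R c 𝔫 V₁ → ¬ H10G3.Through R c 𝔫 V₂ → H10G3.Through R c 𝔫 V₃ →
      ¬ InLoc R c 𝔫 j → H2L1.TwoGenAt R c 𝔫) :
    H2L1.TwoGenAt R c 𝔫 := by
  classical
  haveI := hfin
  have h𝒱 : ∀ V, V ∈ ({V₁, V₂, V₃} : Finset (ValuationSubring F)) ↔
      V = V₁ ∨ V = V₂ ∨ V = V₃ := by
    intro V
    rw [Finset.mem_insert, Finset.mem_insert, Finset.mem_singleton]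
  have hO' : ∀ x : F, GInt R ϖ c x ↔
      ∀ V ∈ ({V₁, V₂, V₃} : Finset (ValuationSubring F)), x ∈ V := by
    intro x
    rw [hO x]
    constructor
    · rintro ⟨h1, h2, h3⟩ V hV
      rcases (h𝒱 V).1 hV with rfl | rfl | rfl
      · exact h1
      · exact h2
      · exact h3
    · intro h
      exact ⟨h V₁ ((h𝒱 V₁).2 (Or.inl rfl)), h V₂ ((h𝒱 V₂).2 (Or.inr (Or.inl rfl))),
        h V₃ ((h𝒱 V₃).2 (Or.inr (Or.inr rfl)))⟩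
  have hchart : ∀ V ∈ ({V₁, V₂, V₃} : Finset (ValuationSubring F)), ∀ y : Chart R c,
      (y : F) ∈ V := fun V hV y => H26R2.chart_mem_of_hO R K hϖ hc _ hO' hV y
  by_cases hT1 : H10G3.Through R c 𝔫 V₁
  · exact hR2 (Or.inl hT1)
  by_cases hT2 : H10G3.Through R c 𝔫 V₂
  · exact hR2 (Or.inr hT2)
  have hT3 : H10G3.Through R c 𝔫 V₃ := by
    obtain ⟨V, hV, hle, -⟩ := H2L1.exists_comp_le R K ϖ hϖ hc _ hO' 𝔫 h𝔫
    have hT := (H2L1.through_iff R 𝔫 V (hchart V hV)).1 hle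
    rcases (h𝒱 V).1 hV with rfl | rfl | rfl
    · exact absurd hT hT1
    · exact absurd hT hT2
    · exact hT
  by_cases hj : InLoc R c 𝔫 j
  · exact hR3 hT1 hT2 hT3 hj
  · exact hC3 hT1 hT2 hT3 hj

/-- **(L1-STRONG) at one closed point** from two generators. -/
theorem l1StrongAt_of_twoGenAt (ϖ : R) (hϖ : Irreducible ϖ) {c : F} (hc : Transcendental K c)
    (hfin : FiniteDimensional K⟮c⟯ F) (n : ℕ) (hn : 0 < n) (V₁ V₂ V₃ : ValuationSubring F)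
    (hO : ∀ x : F, GInt R ϖ c x ↔ x ∈ V₁ ∧ x ∈ V₂ ∧ x ∈ V₃)
    (v : F) (hv : v ≠ 0) (hv1 : H4S36.One3 V₁ V₂ V₃ v)
    (hdiv : ∀ V : Place K F, (n : ℤ) ∣ V.ord v)
    (𝔫 : Ideal (Chart R c)) (h𝔫 : IsClosedPt R ϖ c 𝔫) (htwo : H2L1.TwoGenAt R c 𝔫) :
    H26R2.L1StrongAt R c 𝔫 n v := by
  classical
  haveI := hfin
  have h𝒱 : ∀ V, V ∈ ({V₁, V₂, V₃} : Finset (ValuationSubring F)) ↔
      V = V₁ ∨ V = V₂ ∨ V = V₃ := by
    intro V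
    rw [Finset.mem_insert, Finset.mem_insert, Finset.mem_singleton]
  have hO' : ∀ x : F, GInt R ϖ c x ↔
      ∀ V ∈ ({V₁, V₂, V₃} : Finset (ValuationSubring F)), x ∈ V := by
    intro x
    rw [hO x]
    constructor
    · rintro ⟨h1, h2, h3⟩ V hV
      rcases (h𝒱 V).1 hV with rfl | rfl | rfl
      · exact h1
      · exact h2
      · exact h3
    · intro h
      exact ⟨h V₁ ((h𝒱 V₁).2 (Or.inl rfl)), h V₂ ((h𝒱 V₂).2 (Or.inr (Or.inl rfl))),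
        h V₃ ((h𝒱 V₃).2 (Or.inr (Or.inr rfl)))⟩
  have hval : ∀ V ∈ ({V₁, V₂, V₃} : Finset (ValuationSubring F)), V.valuation v = 1 := by
    intro V hV
    rcases (h𝒱 V).1 hV with rfl | rfl | rfl
    · exact H10G3.val_one_of_lt _ hv1.1
    · exact H10G3.val_one_of_lt _ hv1.2.1
    · exact H10G3.val_one_of_lt _ hv1.2.2
  obtain ⟨P, hP, hP0, hPle, hPne, g, x, hg𝔫, hx𝔫, hgen⟩ := htwo
  exact H26R2.l1Strong_of_two_gen R K ϖ hϖ hc n hn v hv hdiv _ hO' 𝔫 h𝔫.1.isPrime P hP hP0 hPle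
    hPne g x hg𝔫 hx𝔫 hgen (fun V hV _ => hval V hV)

/-- **`Gen3At` at ONE closed point of the chart `c`** from the leaves at this point. -/
theorem gen3At_of_pointLeaves (ϖ : R) (hϖ : Irreducible ϖ) {c : F} (hc : Transcendental K c)
    (hfin : FiniteDimensional K⟮c⟯ F) (n : ℕ) (hn : 0 < n) (j : F)
    (V₁ V₂ V₃ : ValuationSubring F) (φα φβ : F' →+* F) (Nα Nβ : F →* F')
    (V₁' V₂' : ValuationSubring F')
    (hO : ∀ x : F, GInt R ϖ c x ↔ x ∈ V₁ ∧ x ∈ V₂ ∧ x ∈ V₃)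
    (𝔫 : Ideal (Chart R c)) (h𝔫 : IsClosedPt R ϖ c 𝔫)
    (hL : PointLeaves R ϖ c 𝔫 n j V₁ V₂ V₃ φα φβ Nα Nβ V₁' V₂')
    (v : F) (hv : v ≠ 0) (hv1 : H4S36.One3 V₁ V₂ V₃ v)
    (hdiv : ∀ V : Place K F, (n : ℤ) ∣ V.ord v) (rα rβ : R) :
    H10G3.Gen3At R c 𝔫 V₁ V₂ V₃ φα φβ Nα Nβ V₁' V₂' n v
      (algebraMap R F' (1 + ϖ * rα)) (algebraMap R F' (1 + ϖ * rβ)) := by
  have htwo : H2L1.TwoGenAt R c 𝔫 :=
    twoGenAt_of_cases R K ϖ hϖ hc hfin j V₁ V₂ V₃ hO 𝔫 h𝔫 hL.hR2 hL.hR3 hL.hC3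
  obtain ⟨ε, y, hy0, hε, hε', hε0, hveq⟩ :=
    l1StrongAt_of_twoGenAt R K ϖ hϖ hc hfin n hn V₁ V₂ V₃ hO v hv hv1 hdiv 𝔫 h𝔫 htwo
  refine ⟨⟨ε, y, hy0, hε0, hε, hε', hveq, fun ⟨h1, h2, h3⟩ => ?_⟩, hL.hD⟩
  exact ⟨hL.hHα h1 h2 h3 ε rα hε0 hε hε', hL.hHβ h1 h2 h3 ε rβ hε0 hε hε'⟩

end Gen

section Leaf

variable (R : Type) [CommRing R] [IsDomain R] [IsDiscreteValuationRing R]
  (K : Type) [Field K] [CharZero K] [Algebra R K] [IsFractionRing R K]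
  (F : Type) [Field F] [Algebra K F] [Algebra R F] [IsScalarTower R K F]
  (F' : Type) [Field F'] [Algebra K F'] [Algebra R F'] [IsScalarTower R K F']

/-- **(LOC-ASM), generic, pointwise**: `Triple` + the leaves at the closed points of the chart
`t`, the leaves at the closed points of the chart `t⁻¹` in `S∞` (e.g. `t⁻¹ ∈ 𝔫`), and the
package (`BRAt`, `Gen3At`) at the other closed points of the chart `t⁻¹` (chart change)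
⟹ `MLocLeaf`. -/
theorem mlocLeaf_of_pointLeaves (ϖ : R) (hϖ : Irreducible ϖ) (t : F) (ht : Transcendental K t)
    (hfin : FiniteDimensional K⟮t⟯ F)
    (q n : ℕ) (hq : 2 ≤ q) (hn : IsUnit (n : R)) (hζ : ∃ ζ : R, IsPrimitiveRoot ζ n)
    (φα φβ : F' →+* F) (Nα Nβ : F →* F')
    (V₁ V₂ V₃ : ValuationSubring F) (V₁' V₂' : ValuationSubring F') (b₃ : F)
    (hT : H4S36.Triple R K F F' ϖ t q n φα φβ Nα Nβ V₁ V₂ V₃ V₁' V₂' b₃)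
    (j : F) (Sinf : Ideal (Chart R t⁻¹) → Prop)
    (hLz : ∀ 𝔫 : Ideal (Chart R t), IsClosedPt R ϖ t 𝔫 →
      PointLeaves R ϖ t 𝔫 n j V₁ V₂ V₃ φα φβ Nα Nβ V₁' V₂')
    (hLi : ∀ 𝔫 : Ideal (Chart R t⁻¹), IsClosedPt R ϖ t⁻¹ 𝔫 → Sinf 𝔫 →
      PointLeaves R ϖ t⁻¹ 𝔫 n j V₁ V₂ V₃ φα φβ Nα Nβ V₁' V₂')
    (hCC : ∀ 𝔫 : Ideal (Chart R t⁻¹), IsClosedPt R ϖ t⁻¹ 𝔫 → ¬ Sinf 𝔫 →
      ∃ 𝔫₀ : Ideal (Chart R t), IsClosedPt R ϖ t 𝔫₀ ∧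
        (H10G3.BRAt R t 𝔫₀ V₁ V₂ V₃ n → H10G3.BRAt R t⁻¹ 𝔫 V₁ V₂ V₃ n) ∧
        ∀ (v : F) (cα cβ : F'),
          H10G3.Gen3At R t 𝔫₀ V₁ V₂ V₃ φα φβ Nα Nβ V₁' V₂' n v cα cβ →
          H10G3.Gen3At R t⁻¹ 𝔫 V₁ V₂ V₃ φα φβ Nα Nβ V₁' V₂' n v cα cβ) :
    H4S36.MLocLeaf R K F F' ϖ t q n Nα Nβ V₁ V₂ V₃ := by
  classical
  have hn0 : 0 < n := by
    rcases Nat.eq_zero_or_pos n with h | h
    · exfalso
      rw [h, Nat.cast_zero] at hn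
      exact not_isUnit_zero hn
    · exact h
  have ht' : Transcendental K t⁻¹ := H19S18.h19_transc_inv K ht
  have htR : Transcendental R t := H19S18.h19_transc R K ht
  have htR' : Transcendental R t⁻¹ := H19S18.h19_transc R K ht'
  haveI := hfin
  have hfin' : FiniteDimensional K⟮t⁻¹⟯ F :=
    H21S18.finiteDimensional_transport (H21S18.adjoin_inv_eq (K := K) t).symm hfin
  have hOi : ∀ x : F, GInt R ϖ t⁻¹ x ↔ x ∈ V₁ ∧ x ∈ V₂ ∧ x ∈ V₃ := fun x =>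
    (H19S18.h19_gint_inv_iff R htR htR' hϖ x).trans (hT.hO x)
  refine H10G3.mlocLeaf_of_gen3_loc R K F F' ϖ hϖ t ht hfin q n hq hn hζ φα φβ Nα Nβ V₁ V₂ V₃
    V₁' V₂' b₃ hT (fun 𝔫 h𝔫 => (hLz 𝔫 h𝔫).hBR) ?_ ?_
  · intro 𝔫 h𝔫
    by_cases hS : Sinf 𝔫
    · exact (hLi 𝔫 h𝔫 hS).hBR
    · obtain ⟨𝔫₀, h𝔫₀, hbr, -⟩ := hCC 𝔫 h𝔫 hS
      exact hbr (hLz 𝔫₀ h𝔫₀).hBR
  · intro v hv0 hv1 hdiv rα rβ _ _
    have hz : ∀ 𝔫 : Ideal (Chart R t), IsClosedPt R ϖ t 𝔫 →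
        H10G3.Gen3At R t 𝔫 V₁ V₂ V₃ φα φβ Nα Nβ V₁' V₂' n v
          (algebraMap R F' (1 + ϖ * rα)) (algebraMap R F' (1 + ϖ * rβ)) := fun 𝔫 h𝔫 =>
      gen3At_of_pointLeaves R K ϖ hϖ ht hfin n hn0 j V₁ V₂ V₃ φα φβ Nα Nβ
        V₁' V₂' hT.hO 𝔫 h𝔫 (hLz 𝔫 h𝔫) v hv0 hv1 hdiv rα rβ
    refine ⟨hz, fun 𝔫 h𝔫 => ?_⟩
    by_cases hS : Sinf 𝔫
    · exact gen3At_of_pointLeaves R K ϖ hϖ ht' hfin' n hn0 j V₁ V₂ V₃ φα φβ Nα Nβ
        V₁' V₂' hOi 𝔫 h𝔫 (hLi 𝔫 h𝔫 hS) v hv0 hv1 hdiv rα rβ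
    · obtain ⟨𝔫₀, h𝔫₀, -, hg⟩ := hCC 𝔫 h𝔫 hS
      exact hg v _ _ (hz 𝔫₀ h𝔫₀)

end Leaf

end H19LA
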