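/-
helper2: item 86 (S36), (LOC-ASM) part: CHANGE OF CHART for the local packages.

All the local packages of the S36 chain at a closed point `𝔫` of a chart `c`
(`H10G3.Through`, `H26R2.L1StrongAt`, `H10G3.HalfAt`, `H10G3.Gen3At`, `H10G3.BRAt`) depend on
`(c, 𝔫)` only through the local ring `B_𝔫` (`H4S34.InLoc R c 𝔫`).  Hence, by helper20's
`H20CC.h20cc_chartChange`, the closed points of the chart `t⁻¹` at which `t⁻¹` is a unit are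
covered by the chart `t`:

* `H2CC.through_iff_units` : `Through 𝔫 V ↔` every unit of `B_𝔫` is a unit of `V`;
* `H2CC.through_congr`, `l1StrongAt_congr`, `halfAt_congr`, `gen3At_congr`, `brAt_congr`;
* `H2CC.forall_inv` : a property of closed points which only depends on the local ring holds at
  every closed point of the chart `t⁻¹` as soon as it holds at every closed point of the chart
  `t` and at the closed points of `t⁻¹` over `t = ∞`;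
* `H2CC.l1Strong_inv_all`, `gen3At_inv_all`, `brAt_inv_all` : the three instances.
-/
import Mathlib
import Fermat.Agent.S34.ChartChange_helper20
import Fermat.Agent.S36.Gen3Loc_helper10
import Fermat.Agent.S36.L1Strong_helper26
import Fermat.Agent.S36.R2Val_helper26

set_option autoImplicit false
set_option linter.unusedSectionVars false
set_option linter.unusedVariables false
set_option linter.style.haveILetI false
set_option synthInstance.maxHeartbeats 400000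
set_option maxHeartbeats 1000000

noncomputable section

namespace H2CC

open Polynomial IntermediateField H7S18 H4S34 AlgebraicCurve

section Congr

variable (R : Type) [CommRing R] [IsDomain R] [IsDiscreteValuationRing R]
  {F : Type} [Field F] [Algebra R F]
  {F' : Type*} [Field F']

/-- `V` passes through `𝔫` iff every unit of `B_𝔫` is a unit of `V`. -/
theorem through_iff_units (c : F) (𝔫 : Ideal (Chart R c)) (V : ValuationSubring F)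
    (hchart : ∀ y : Chart R c, (y : F) ∈ V) :
    H10G3.Through R c 𝔫 V ↔
      ∀ x : F, x ≠ 0 → InLoc R c 𝔫 x → InLoc R c 𝔫 x⁻¹ → V.valuation x = 1 := by
  constructor
  · intro hT x hx0 hx hx'
    have h1 := H10G3.wire_mem R c 𝔫 V hchart hT x hx
    have h2 := H10G3.wire_mem R c 𝔫 V hchart hT x⁻¹ hx'
    rw [← V.valuation_le_one_iff] at h1 h2
    rw [map_inv₀] at h2
    have hv0 : V.valuation x ≠ 0 := (Valuation.ne_zero_iff _).2 hx0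
    refine le_antisymm h1 ?_
    have h3 := (inv_le_one₀ (zero_lt_iff.2 hv0)).1 h2
    exact h3
  · intro h s hs
    have hs0 : (s : F) ≠ 0 := by
      intro h0
      apply hs
      have : s = 0 := Subtype.ext (by rw [h0]; rfl)
      rw [this]
      exact 𝔫.zero_mem
    refine h (s : F) hs0 ⟨s * s, s, hs, ?_⟩ ⟨1, s, hs, ?_⟩
    · rfl
    · rw [mul_inv_cancel₀ hs0]
      rfl

variable {c c' : F} (𝔫 : Ideal (Chart R c)) (𝔫' : Ideal (Chart R c'))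

/-- `Through` only depends on the local ring. -/
theorem through_congr (hiff : ∀ x : F, InLoc R c 𝔫 x ↔ InLoc R c' 𝔫' x)
    (V : ValuationSubring F) (hchart : ∀ y : Chart R c, (y : F) ∈ V)
    (hchart' : ∀ y : Chart R c', (y : F) ∈ V) :
    H10G3.Through R c 𝔫 V ↔ H10G3.Through R c' 𝔫' V := by
  rw [through_iff_units R c 𝔫 V hchart, through_iff_units R c' 𝔫' V hchart']
  constructor
  · intro h x hx0 hx hx'
    exact h x hx0 ((hiff x).2 hx) ((hiff x⁻¹).2 hx')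
  · intro h x hx0 hx hx'
    exact h x hx0 ((hiff x).1 hx) ((hiff x⁻¹).1 hx')

/-- `L1StrongAt` only depends on the local ring. -/
theorem l1StrongAt_congr (hiff : ∀ x : F, InLoc R c 𝔫 x ↔ InLoc R c' 𝔫' x) (n : ℕ) (v : F)
    (h : H26R2.L1StrongAt R c 𝔫 n v) : H26R2.L1StrongAt R c' 𝔫' n v := by
  obtain ⟨ε, y, hy0, hε, hε', hε0, hv⟩ := h
  exact ⟨ε, y, hy0, (hiff ε).1 hε, (hiff ε⁻¹).1 hε', hε0, hv⟩

/-- `HalfAt` only depends on the local ring. -/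
theorem halfAt_congr (hiff : ∀ x : F, InLoc R c 𝔫 x ↔ InLoc R c' 𝔫' x)
    (φ : F' →+* F) (Nm : F →* F') (V₃ : ValuationSubring F) (V₁' V₂' : ValuationSubring F')
    (n : ℕ) (ε : F) (cN : F')
    (h : H10G3.HalfAt R c 𝔫 φ Nm V₃ V₁' V₂' n ε cN) :
    H10G3.HalfAt R c' 𝔫' φ Nm V₃ V₁' V₂' n ε cN := by
  obtain ⟨B', h1, h2, h3, h4, h5, h6⟩ := h
  exact ⟨B', h1, h2, fun x hx => (hiff _).1 (h3 x hx), h4,
    fun b hb => h5 b ((hiff b).2 hb), h6⟩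

/-- `Gen3At` only depends on the local ring. -/
theorem gen3At_congr (hiff : ∀ x : F, InLoc R c 𝔫 x ↔ InLoc R c' 𝔫' x)
    (V₁ V₂ V₃ : ValuationSubring F)
    (hchart : ∀ V : ValuationSubring F, V = V₁ ∨ V = V₂ ∨ V = V₃ →
      ∀ y : Chart R c, (y : F) ∈ V)
    (hchart' : ∀ V : ValuationSubring F, V = V₁ ∨ V = V₂ ∨ V = V₃ →
      ∀ y : Chart R c', (y : F) ∈ V)
    (φα φβ : F' →+* F) (Nα Nβ : F →* F') (V₁' V₂' : ValuationSubring F')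
    (n : ℕ) (v : F) (cα cβ : F')
    (h : H10G3.Gen3At R c 𝔫 V₁ V₂ V₃ φα φβ Nα Nβ V₁' V₂' n v cα cβ) :
    H10G3.Gen3At R c' 𝔫' V₁ V₂ V₃ φα φβ Nα Nβ V₁' V₂' n v cα cβ := by
  have hT : ∀ V : ValuationSubring F, V = V₁ ∨ V = V₂ ∨ V = V₃ →
      (H10G3.Through R c 𝔫 V ↔ H10G3.Through R c' 𝔫' V) :=
    fun V hV => through_congr R 𝔫 𝔫' hiff V (hchart V hV) (hchart' V hV)
  have hT1 := hT V₁ (Or.inl rfl)
  have hT2 := hT V₂ (Or.inr (Or.inl rfl))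
  have hT3 := hT V₃ (Or.inr (Or.inr rfl))
  obtain ⟨⟨ε, y, hy0, hε0, hε, hε', hv, hH⟩, hD⟩ := h
  refine ⟨⟨ε, y, hy0, hε0, (hiff ε).1 hε, (hiff ε⁻¹).1 hε', hv, ?_⟩, ?_⟩
  · rintro ⟨a1, a2, a3⟩
    obtain ⟨hα, hβ⟩ := hH ⟨hT1.2 a1, hT2.2 a2, hT3.2 a3⟩
    exact ⟨halfAt_congr R 𝔫 𝔫' hiff φα Nα V₃ V₁' V₂' n ε cα hα,
      halfAt_congr R 𝔫 𝔫' hiff φβ Nβ V₃ V₂' V₁' n ε cβ hβ⟩
  · rcases hD with ⟨a1, a2, a3⟩ | hD
    · exact Or.inl ⟨hT1.1 a1, hT2.1 a2, hT3.1 a3⟩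
    · refine Or.inr ?_
      intro V hV W hW hTV hTW
      exact hD V hV W hW ((hT V hV).2 hTV) ((hT W hW).2 hTW)

/-- `BRAt` only depends on the local ring. -/
theorem brAt_congr (hiff : ∀ x : F, InLoc R c 𝔫 x ↔ InLoc R c' 𝔫' x)
    (V₁ V₂ V₃ : ValuationSubring F)
    (hchart : ∀ V : ValuationSubring F, V = V₁ ∨ V = V₂ ∨ V = V₃ →
      ∀ y : Chart R c, (y : F) ∈ V)
    (hchart' : ∀ V : ValuationSubring F, V = V₁ ∨ V = V₂ ∨ V = V₃ →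
      ∀ y : Chart R c', (y : F) ∈ V)
    (n : ℕ) (h : H10G3.BRAt R c 𝔫 V₁ V₂ V₃ n) : H10G3.BRAt R c' 𝔫' V₁ V₂ V₃ n := by
  intro V hV hTV z a ha hza
  obtain ⟨d, hd, hzd⟩ := h V hV
    ((through_congr R 𝔫 𝔫' hiff V (hchart V hV) (hchart' V hV)).2 hTV) z a ((hiff a).2 ha) hza
  exact ⟨d, (hiff d).1 hd, hzd⟩

end Congr

section All

variable (R : Type) [CommRing R] [IsDomain R] [IsDiscreteValuationRing R]
  (K : Type) [Field K] [CharZero K] [Algebra R K] [IsFractionRing R K]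
  {F : Type} [Field F] [Algebra K F] [Algebra R F] [IsScalarTower R K F]
  {F' : Type*} [Field F']

/-- **change of chart, abstract form**: a family of properties of the closed points of the two
charts which only depends on the local ring holds at every closed point of the chart `t⁻¹` as
soon as it holds at every closed point of the chart `t` and at the closed points of the chart
`t⁻¹` over `t = ∞`. -/
theorem forall_inv (ϖ : R) (hϖ : Irreducible ϖ) {t : F} (ht : Transcendental K t)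
    [hfin : FiniteDimensional K⟮t⟯ F]
    (P₀ : Ideal (Chart R t) → Prop) (Pinf : Ideal (Chart R t⁻¹) → Prop)
    (hcongr : ∀ (𝔫₀ : Ideal (Chart R t)) (𝔫 : Ideal (Chart R t⁻¹)),
      (∀ x : F, InLoc R t 𝔫₀ x ↔ InLoc R t⁻¹ 𝔫 x) → P₀ 𝔫₀ → Pinf 𝔫)
    (h0 : ∀ 𝔫₀ : Ideal (Chart R t), IsClosedPt R ϖ t 𝔫₀ → P₀ 𝔫₀)
    (hinf : ∀ 𝔫 : Ideal (Chart R t⁻¹), IsClosedPt R ϖ t⁻¹ 𝔫 →
      (∀ y : Chart R t⁻¹, (y : F) = t⁻¹ → y ∈ 𝔫) → Pinf 𝔫)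
    (𝔫 : Ideal (Chart R t⁻¹)) (h𝔫 : IsClosedPt R ϖ t⁻¹ 𝔫) : Pinf 𝔫 := by
  classical
  by_cases hc : ∀ y : Chart R t⁻¹, (y : F) = t⁻¹ → y ∈ 𝔫
  · exact hinf 𝔫 h𝔫 hc
  · rw [not_forall] at hc
    obtain ⟨y, hy⟩ := hc
    rw [Classical.not_imp] at hy
    obtain ⟨𝔫₀, h𝔫₀, hiff⟩ := H20CC.h20cc_chartChange R K F ϖ hϖ t ht hfin 𝔫 h𝔫 ⟨y, hy.1, hy.2⟩
    exact hcongr 𝔫₀ 𝔫 hiff (h0 𝔫₀ h𝔫₀)

/-- both charts lie in every `V ∈ {V₁, V₂, V₃}` (from `O = V₁ ∩ V₂ ∩ V₃` in the chart `t`). -/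
theorem chart_mem_both (ϖ : R) (hϖ : Irreducible ϖ) {t : F} (ht : Transcendental K t)
    (V₁ V₂ V₃ : ValuationSubring F)
    (hO : ∀ x : F, GInt R ϖ t x → x ∈ V₁ ∧ x ∈ V₂ ∧ x ∈ V₃) :
    (∀ V : ValuationSubring F, V = V₁ ∨ V = V₂ ∨ V = V₃ → ∀ y : Chart R t, (y : F) ∈ V) ∧
    (∀ V : ValuationSubring F, V = V₁ ∨ V = V₂ ∨ V = V₃ →
      ∀ y : Chart R t⁻¹, (y : F) ∈ V) := by
  have htR := H19S18.h19_transc R K ht
  have ht0 : t ≠ 0 := fun h0 => by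
    rw [h0] at ht
    exact ht (isAlgebraic_zero)
  have ht' : Transcendental K t⁻¹ := fun h => ht (by simpa using h.inv)
  have htR' := H19S18.h19_transc R K ht'
  have key : ∀ x : F, GInt R ϖ t x → ∀ V : ValuationSubring F, V = V₁ ∨ V = V₂ ∨ V = V₃ →
      x ∈ V := by
    intro x hx V hV
    obtain ⟨a1, a2, a3⟩ := hO x hx
    rcases hV with rfl | rfl | rfl
    · exact a1
    · exact a2
    · exact a3
  refine ⟨fun V hV y => key _ (H19S18.h19_gint_of_isInt R htR hϖ y.2) V hV, fun V hV y => ?_⟩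
  have h1 : GInt R ϖ t⁻¹ (y : F) := H19S18.h19_gint_of_isInt R htR' hϖ y.2
  exact key _ ((H19S18.h19_gint_inv_iff R htR htR' hϖ _).1 h1) V hV

/-- **(L1-STRONG) at every closed point of the chart `t⁻¹`**, from the chart `t` and the points
over `t = ∞`. -/
theorem l1Strong_inv_all (ϖ : R) (hϖ : Irreducible ϖ) {t : F} (ht : Transcendental K t)
    [hfin : FiniteDimensional K⟮t⟯ F] (n : ℕ) (v : F)
    (h0 : ∀ 𝔫₀ : Ideal (Chart R t), IsClosedPt R ϖ t 𝔫₀ → H26R2.L1StrongAt R t 𝔫₀ n v)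
    (hinf : ∀ 𝔫 : Ideal (Chart R t⁻¹), IsClosedPt R ϖ t⁻¹ 𝔫 →
      (∀ y : Chart R t⁻¹, (y : F) = t⁻¹ → y ∈ 𝔫) → H26R2.L1StrongAt R t⁻¹ 𝔫 n v)
    (𝔫 : Ideal (Chart R t⁻¹)) (h𝔫 : IsClosedPt R ϖ t⁻¹ 𝔫) :
    H26R2.L1StrongAt R t⁻¹ 𝔫 n v :=
  forall_inv R K ϖ hϖ ht (fun 𝔫₀ => H26R2.L1StrongAt R t 𝔫₀ n v)
    (fun 𝔫 => H26R2.L1StrongAt R t⁻¹ 𝔫 n v)
    (fun 𝔫₀ 𝔫 hiff h => l1StrongAt_congr R 𝔫₀ 𝔫 hiff n v h) h0 hinf 𝔫 h𝔫

/-- **`Gen3At` at every closed point of the chart `t⁻¹`**, from the chart `t` and the points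
over `t = ∞`. -/
theorem gen3At_inv_all (ϖ : R) (hϖ : Irreducible ϖ) {t : F} (ht : Transcendental K t)
    [hfin : FiniteDimensional K⟮t⟯ F]
    (V₁ V₂ V₃ : ValuationSubring F)
    (hO : ∀ x : F, GInt R ϖ t x → x ∈ V₁ ∧ x ∈ V₂ ∧ x ∈ V₃)
    (φα φβ : F' →+* F) (Nα Nβ : F →* F') (V₁' V₂' : ValuationSubring F')
    (n : ℕ) (v : F) (cα cβ : F')
    (h0 : ∀ 𝔫₀ : Ideal (Chart R t), IsClosedPt R ϖ t 𝔫₀ →
      H10G3.Gen3At R t 𝔫₀ V₁ V₂ V₃ φα φβ Nα Nβ V₁' V₂' n v cα cβ)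
    (hinf : ∀ 𝔫 : Ideal (Chart R t⁻¹), IsClosedPt R ϖ t⁻¹ 𝔫 →
      (∀ y : Chart R t⁻¹, (y : F) = t⁻¹ → y ∈ 𝔫) →
      H10G3.Gen3At R t⁻¹ 𝔫 V₁ V₂ V₃ φα φβ Nα Nβ V₁' V₂' n v cα cβ)
    (𝔫 : Ideal (Chart R t⁻¹)) (h𝔫 : IsClosedPt R ϖ t⁻¹ 𝔫) :
    H10G3.Gen3At R t⁻¹ 𝔫 V₁ V₂ V₃ φα φβ Nα Nβ V₁' V₂' n v cα cβ := by
  obtain ⟨hc, hc'⟩ := chart_mem_both R K ϖ hϖ ht V₁ V₂ V₃ hO
  exact forall_inv R K ϖ hϖ ht
    (fun 𝔫₀ => H10G3.Gen3At R t 𝔫₀ V₁ V₂ V₃ φα φβ Nα Nβ V₁' V₂' n v cα cβ)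
    (fun 𝔫 => H10G3.Gen3At R t⁻¹ 𝔫 V₁ V₂ V₃ φα φβ Nα Nβ V₁' V₂' n v cα cβ)
    (fun 𝔫₀ 𝔫 hiff h => gen3At_congr R 𝔫₀ 𝔫 hiff V₁ V₂ V₃ hc hc' φα φβ Nα Nβ V₁' V₂' n v
      cα cβ h) h0 hinf 𝔫 h𝔫

/-- **`BRAt` at every closed point of the chart `t⁻¹`**, from the chart `t` and the points over
`t = ∞`. -/
theorem brAt_inv_all (ϖ : R) (hϖ : Irreducible ϖ) {t : F} (ht : Transcendental K t)
    [hfin : FiniteDimensional K⟮t⟯ F]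
    (V₁ V₂ V₃ : ValuationSubring F)
    (hO : ∀ x : F, GInt R ϖ t x → x ∈ V₁ ∧ x ∈ V₂ ∧ x ∈ V₃) (n : ℕ)
    (h0 : ∀ 𝔫₀ : Ideal (Chart R t), IsClosedPt R ϖ t 𝔫₀ → H10G3.BRAt R t 𝔫₀ V₁ V₂ V₃ n)
    (hinf : ∀ 𝔫 : Ideal (Chart R t⁻¹), IsClosedPt R ϖ t⁻¹ 𝔫 →
      (∀ y : Chart R t⁻¹, (y : F) = t⁻¹ → y ∈ 𝔫) → H10G3.BRAt R t⁻¹ 𝔫 V₁ V₂ V₃ n)
    (𝔫 : Ideal (Chart R t⁻¹)) (h𝔫 : IsClosedPt R ϖ t⁻¹ 𝔫) :
    H10G3.BRAt R t⁻¹ 𝔫 V₁ V₂ V₃ n := by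
  obtain ⟨hc, hc'⟩ := chart_mem_both R K ϖ hϖ ht V₁ V₂ V₃ hO
  exact forall_inv R K ϖ hϖ ht (fun 𝔫₀ => H10G3.BRAt R t 𝔫₀ V₁ V₂ V₃ n)
    (fun 𝔫 => H10G3.BRAt R t⁻¹ 𝔫 V₁ V₂ V₃ n)
    (fun 𝔫₀ 𝔫 hiff h => brAt_congr R 𝔫₀ 𝔫 hiff V₁ V₂ V₃ hc hc' n h) h0 hinf 𝔫 h𝔫

end All

end H2CC
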