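/-
helper2: item 86 (S36), (LOC-ASM): the chart-change hypothesis `hCC` of helper19's
`H19LA.mlocLeaf_of_pointLeaves` is discharged (by `H20CC.h20cc_chartChange` + `H2CC.*_congr`),
with `S∞ := {𝔫 | t⁻¹ ∈ 𝔫}` (the closed points of the chart `t⁻¹` over `t = ∞`).

* `H2CC.hCC_of_chartChange`        : the hypothesis `hCC`;
* `H2CC.mlocLeaf_of_pointLeaves_inf` : `Triple` + `PointLeaves` at the closed points of the chart
  `t` + `PointLeaves` at the closed points of the chart `t⁻¹` with `t⁻¹ ∈ 𝔫` ⟹ `MLocLeaf`.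
-/
import Mathlib
import Fermat.Agent.S36.LocAsm2_helper19
import Fermat.Agent.S36.LocCC_helper2

set_option autoImplicit false
set_option linter.unusedSectionVars false
set_option linter.unusedVariables false
set_option linter.style.haveILetI false
set_option synthInstance.maxHeartbeats 400000
set_option maxHeartbeats 1000000

noncomputable section

namespace H2CC

open Polynomial IntermediateField H7S18 H4S34 AlgebraicCurve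

section Asm

variable (R : Type) [CommRing R] [IsDomain R] [IsDiscreteValuationRing R]
  (K : Type) [Field K] [CharZero K] [Algebra R K] [IsFractionRing R K]
  (F : Type) [Field F] [Algebra K F] [Algebra R F] [IsScalarTower R K F]
  (F' : Type) [Field F'] [Algebra K F'] [Algebra R F'] [IsScalarTower R K F']

/-- the closed points of the chart `t⁻¹` over `t = ∞`. -/
def AtInf (t : F) (𝔫 : Ideal (Chart R t⁻¹)) : Prop :=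
  ∀ y : Chart R t⁻¹, (y : F) = t⁻¹ → y ∈ 𝔫

/-- **the chart-change hypothesis `hCC`** of `H19LA.mlocLeaf_of_pointLeaves`. -/
theorem hCC_of_chartChange (ϖ : R) (hϖ : Irreducible ϖ) (t : F) (ht : Transcendental K t)
    (hfin : FiniteDimensional K⟮t⟯ F) (n : ℕ)
    (φα φβ : F' →+* F) (Nα Nβ : F →* F')
    (V₁ V₂ V₃ : ValuationSubring F) (V₁' V₂' : ValuationSubring F')
    (hO : ∀ x : F, GInt R ϖ t x → x ∈ V₁ ∧ x ∈ V₂ ∧ x ∈ V₃)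
    (𝔫 : Ideal (Chart R t⁻¹)) (h𝔫 : IsClosedPt R ϖ t⁻¹ 𝔫) (hS : ¬ AtInf R F t 𝔫) :
    ∃ 𝔫₀ : Ideal (Chart R t), IsClosedPt R ϖ t 𝔫₀ ∧
      (H10G3.BRAt R t 𝔫₀ V₁ V₂ V₃ n → H10G3.BRAt R t⁻¹ 𝔫 V₁ V₂ V₃ n) ∧
      ∀ (v : F) (cα cβ : F'),
        H10G3.Gen3At R t 𝔫₀ V₁ V₂ V₃ φα φβ Nα Nβ V₁' V₂' n v cα cβ →
        H10G3.Gen3At R t⁻¹ 𝔫 V₁ V₂ V₃ φα φβ Nα Nβ V₁' V₂' n v cα cβ := by
  classical
  obtain ⟨hc, hc'⟩ := chart_mem_both R K ϖ hϖ ht V₁ V₂ V₃ hO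
  unfold AtInf at hS
  rw [not_forall] at hS
  obtain ⟨y, hy⟩ := hS
  rw [Classical.not_imp] at hy
  obtain ⟨𝔫₀, h𝔫₀, hiff⟩ := H20CC.h20cc_chartChange R K F ϖ hϖ t ht hfin 𝔫 h𝔫 ⟨y, hy.1, hy.2⟩
  exact ⟨𝔫₀, h𝔫₀, fun h => brAt_congr R 𝔫₀ 𝔫 hiff V₁ V₂ V₃ hc hc' n h,
    fun v cα cβ h => gen3At_congr R 𝔫₀ 𝔫 hiff V₁ V₂ V₃ hc hc' φα φβ Nα Nβ V₁' V₂' n v cα cβ h⟩

/-- **(LOC-ASM), generic, pointwise, chart change discharged**: `Triple` + the leaves at the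
closed points of the chart `t` + the leaves at the closed points of the chart `t⁻¹` over
`t = ∞` ⟹ `MLocLeaf`. -/
theorem mlocLeaf_of_pointLeaves_inf (ϖ : R) (hϖ : Irreducible ϖ) (t : F)
    (ht : Transcendental K t) (hfin : FiniteDimensional K⟮t⟯ F)
    (q n : ℕ) (hq : 2 ≤ q) (hn : IsUnit (n : R)) (hζ : ∃ ζ : R, IsPrimitiveRoot ζ n)
    (φα φβ : F' →+* F) (Nα Nβ : F →* F')
    (V₁ V₂ V₃ : ValuationSubring F) (V₁' V₂' : ValuationSubring F') (b₃ : F)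
    (hT : H4S36.Triple R K F F' ϖ t q n φα φβ Nα Nβ V₁ V₂ V₃ V₁' V₂' b₃)
    (j : F)
    (hLz : ∀ 𝔫 : Ideal (Chart R t), IsClosedPt R ϖ t 𝔫 →
      H19LA.PointLeaves R ϖ t 𝔫 n j V₁ V₂ V₃ φα φβ Nα Nβ V₁' V₂')
    (hLi : ∀ 𝔫 : Ideal (Chart R t⁻¹), IsClosedPt R ϖ t⁻¹ 𝔫 →
      (∀ y : Chart R t⁻¹, (y : F) = t⁻¹ → y ∈ 𝔫) →
      H19LA.PointLeaves R ϖ t⁻¹ 𝔫 n j V₁ V₂ V₃ φα φβ Nα Nβ V₁' V₂') :
    H4S36.MLocLeaf R K F F' ϖ t q n Nα Nβ V₁ V₂ V₃ :=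
  H19LA.mlocLeaf_of_pointLeaves R K F F' ϖ hϖ t ht hfin q n hq hn hζ φα φβ Nα Nβ V₁ V₂ V₃
    V₁' V₂' b₃ hT j (AtInf R F t) hLz hLi
    (fun 𝔫 h𝔫 hS => hCC_of_chartChange R K F F' ϖ hϖ t ht hfin n φα φβ Nα Nβ V₁ V₂ V₃ V₁' V₂'
      (fun x hx => (hT.hO x).1 hx) 𝔫 h𝔫 hS)

end Asm

end H2CC
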