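import Mathlib
import Fermat.Agent.S36.LocAsm3_helper2
import Fermat.Agent.S36.BranchRootV2_helper9
import Fermat.Agent.S36.InjUAsm_helper4

/-!
# helper19 — S36 (Carayol), item 86: (LOC-ASM), the CONCRETE call

Context of the concrete leaves (`S36/TripleDefs_helper4.lean`): `q` prime, `q ∤ M`,
`TameLevel q M`, `A ⊆ ℚ̄` over `q`, `K₁ ⊆ ℚ̄` finite with `q` a uniformizer of
`R = descVal A K₁`, `K₃ ⊇ K₁` with a primitive `q`-th root of unity, level `M q q`,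
`cV1 cV2 cV3 cV1' cV2' cb3`, `j = H8TG.J0`.

* `H19LA.mlocLeaf_conc` : the concrete `H4S36.Triple` + `H19LA.PointLeaves` at the dich points
  (all closed points of the chart `t`; the closed points of the chart `t⁻¹` over `t = ∞`:
  `H26DI.IsDichPt t c 𝔫`) ⟹ the concrete `H4S36.MLocLeaf`.
* `H19LA.pointLeaves_conc` : `PointLeaves` at a dich point from the six leaves
  (R2), (R3), (CUSP3), (DICH3), (HALF-α), (HALF-β); the branch roots are helper9's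
  `H9CU.brAt_qq`.
-/

set_option autoImplicit false
set_option synthInstance.maxHeartbeats 400000
set_option maxHeartbeats 4000000
set_option linter.unusedSectionVars false
set_option linter.unusedVariables false
set_option linter.style.haveILetI false
set_option linter.style.longLine false

noncomputable section

open Polynomial IntermediateField AlgebraicCurve ModularCurve H7S18 H4S34 H4S36 RH24

namespace H19LA

local notation "Qb" => AlgebraicClosure ℚ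

section concrete

variable (M : ℕ) [NeZero M] (q : ℕ) [NeZero q] (hq : q.Prime) (hqM : ¬ q ∣ M)
  (hT : TameLevel q M)
  (A : ValuationSubring Qb) (hA : A.LiesOverPrime q)
  (K₁ : IntermediateField ℚ Qb) (hfin : FiniteDimensional ℚ K₁)
  (hunr : Irreducible ((q : ℕ) : ↥(descVal A K₁)))
  (hζe : ∃ ζ' : K₁, IsPrimitiveRoot ζ' (branchIndex (baseKind q) M))
  (K₃ : IntermediateField ℚ Qb) (hfin₃ : FiniteDimensional ℚ K₃)
  (h13 : K₁ ≤ K₃) (ζ : (↥K₃)ˣ) (hζ : IsPrimitiveRoot ζ q)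
  [IsDiscreteValuationRing ↥(descVal A K₁)] [IsDiscreteValuationRing ↥(descVal A K₃)]
  [Algebra ↥(descVal A K₁) (FK K₁ (M * q * q))]
  [IsScalarTower ↥(descVal A K₁) K₁ (FK K₁ (M * q * q))]
  [Algebra ↥(descVal A K₁) (FK K₁ (M * q))]
  [IsScalarTower ↥(descVal A K₁) K₁ (FK K₁ (M * q))]
  (t₀ : LaurentSeries ℚ) (ht₀ : IsBase (baseKind q) t₀)
  (t : FK K₁ (M * q * q)) (ht : (t : LaurentSeries K₁) = coeffEmb K₁ t₀)
  (n : ℕ) (hn : 0 < n) (hqn : ¬ q ∣ n) (hζn : ∃ ζ' : K₁, IsPrimitiveRoot ζ' n)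

include hq hT hA hfin hunr ht₀ ht hn hqn hζn in
/-- **(LOC-ASM), concrete**: the concrete `Triple` + the leaves at the dich points ⟹ the
concrete `MLocLeaf`. -/
theorem mlocLeaf_conc (j : FK K₁ (M * q * q))
    (hTr : Triple ↥(descVal A K₁) K₁ (FK K₁ (M * q * q)) (FK K₁ (M * q))
      ((q : ℕ) : ↥(descVal A K₁)) t q n
      (heckeAlphaBar K₁ (M * q) q).toRingHom (heckeBetaBar K₁ (M * q) q).toRingHom
      (normAKH K₁ M q) (normBKH K₁ M q)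
      (cV1 K₁ (descVal A K₁) M q) (cV2 K₁ (descVal A K₁) M q hq hqM)
      (cV3 K₁ M q hq hqM K₃ (descVal A K₃) h13 ζ hζ)
      (cV1' K₁ (descVal A K₁) M q) (cV2' K₁ (descVal A K₁) M q hq hqM) (cb3 K₁ M q))
    (hLeaf : ∀ (c : FK K₁ (M * q * q)) (𝔫 : Ideal (Chart ↥(descVal A K₁) c)),
      IsClosedPt ↥(descVal A K₁) ((q : ℕ) : ↥(descVal A K₁)) c 𝔫 → H26DI.IsDichPt t c 𝔫 →
      PointLeaves ↥(descVal A K₁) ((q : ℕ) : ↥(descVal A K₁)) c 𝔫 n j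
        (cV1 K₁ (descVal A K₁) M q) (cV2 K₁ (descVal A K₁) M q hq hqM)
        (cV3 K₁ M q hq hqM K₃ (descVal A K₃) h13 ζ hζ)
        (heckeAlphaBar K₁ (M * q) q).toRingHom (heckeBetaBar K₁ (M * q) q).toRingHom
        (normAKH K₁ M q) (normBKH K₁ M q)
        (cV1' K₁ (descVal A K₁) M q) (cV2' K₁ (descVal A K₁) M q hq hqM)) :
    MLocLeaf ↥(descVal A K₁) K₁ (FK K₁ (M * q * q)) (FK K₁ (M * q))
      ((q : ℕ) : ↥(descVal A K₁)) t q n (normAKH K₁ M q) (normBKH K₁ M q)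
      (cV1 K₁ (descVal A K₁) M q) (cV2 K₁ (descVal A K₁) M q hq hqM)
      (cV3 K₁ M q hq hqM K₃ (descVal A K₃) h13 ζ hζ) := by
  classical
  haveI : Fact q.Prime := ⟨hq⟩
  obtain ⟨htr, htfin, -⟩ :=
    H9CU.sq_basics M q hT K₁ (M * q * q) ⟨q * q, by ring⟩ t₀ ht₀ t ht t (Or.inl rfl)
  obtain ⟨-, -, hunit⟩ := H4DVR.dvrStatement q A hA K₁ hfin
  have hnu : IsUnit ((n : ℕ) : ↥(descVal A K₁)) := hunit n hqn hn
  have hζR : ∃ ζ' : ↥(descVal A K₁), IsPrimitiveRoot ζ' n := by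
    obtain ⟨ζ', hζ'⟩ := hζn
    have hmem : ζ' ∈ descVal A K₁ := h7_mem_of_pow_eq_one _ _ _ hn hζ'.pow_eq_one
    refine ⟨⟨ζ', hmem⟩, ?_⟩
    exact IsPrimitiveRoot.of_map_of_injective (f := (descVal A K₁).subtype)
      (by exact hζ') Subtype.val_injective
  exact H2CC.mlocLeaf_of_pointLeaves_inf ↥(descVal A K₁) K₁ (FK K₁ (M * q * q)) (FK K₁ (M * q))
    ((q : ℕ) : ↥(descVal A K₁)) hunr t htr htfin q n hq.two_le hnu hζR _ _ _ _ _ _ _ _ _ _ hTr j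
    (fun 𝔫 h𝔫 => hLeaf t 𝔫 h𝔫 (Or.inl rfl))
    (fun 𝔫 h𝔫 hinf => hLeaf t⁻¹ 𝔫 h𝔫 (Or.inr ⟨rfl, hinf⟩))

include hT hA hfin hunr hζe hfin₃ ht₀ ht hn in
/-- **`PointLeaves` at a dich point** from the six leaves; (hBR) is `H9CU.brAt_qq`. -/
theorem pointLeaves_conc (j : FK K₁ (M * q * q))
    (hTr : Triple ↥(descVal A K₁) K₁ (FK K₁ (M * q * q)) (FK K₁ (M * q))
      ((q : ℕ) : ↥(descVal A K₁)) t q n
      (heckeAlphaBar K₁ (M * q) q).toRingHom (heckeBetaBar K₁ (M * q) q).toRingHom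
      (normAKH K₁ M q) (normBKH K₁ M q)
      (cV1 K₁ (descVal A K₁) M q) (cV2 K₁ (descVal A K₁) M q hq hqM)
      (cV3 K₁ M q hq hqM K₃ (descVal A K₃) h13 ζ hζ)
      (cV1' K₁ (descVal A K₁) M q) (cV2' K₁ (descVal A K₁) M q hq hqM) (cb3 K₁ M q))
    (c : FK K₁ (M * q * q)) (𝔫 : Ideal (Chart ↥(descVal A K₁) c))
    (h𝔫 : IsClosedPt ↥(descVal A K₁) ((q : ℕ) : ↥(descVal A K₁)) c 𝔫)
    (hd : H26DI.IsDichPt t c 𝔫)
    (hR2 : (H10G3.Through ↥(descVal A K₁) c 𝔫 (cV1 K₁ (descVal A K₁) M q) ∨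
        H10G3.Through ↥(descVal A K₁) c 𝔫 (cV2 K₁ (descVal A K₁) M q hq hqM)) →
      H2L1.TwoGenAt ↥(descVal A K₁) c 𝔫)
    (hR3 : ¬ H10G3.Through ↥(descVal A K₁) c 𝔫 (cV1 K₁ (descVal A K₁) M q) →
      ¬ H10G3.Through ↥(descVal A K₁) c 𝔫 (cV2 K₁ (descVal A K₁) M q hq hqM) →
      H10G3.Through ↥(descVal A K₁) c 𝔫 (cV3 K₁ M q hq hqM K₃ (descVal A K₃) h13 ζ hζ) →
      InLoc ↥(descVal A K₁) c 𝔫 j → H2L1.TwoGenAt ↥(descVal A K₁) c 𝔫)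
    (hC3 : ¬ H10G3.Through ↥(descVal A K₁) c 𝔫 (cV1 K₁ (descVal A K₁) M q) →
      ¬ H10G3.Through ↥(descVal A K₁) c 𝔫 (cV2 K₁ (descVal A K₁) M q hq hqM) →
      H10G3.Through ↥(descVal A K₁) c 𝔫 (cV3 K₁ M q hq hqM K₃ (descVal A K₃) h13 ζ hζ) →
      ¬ InLoc ↥(descVal A K₁) c 𝔫 j → H2L1.TwoGenAt ↥(descVal A K₁) c 𝔫)
    (hD : (H10G3.Through ↥(descVal A K₁) c 𝔫 (cV1 K₁ (descVal A K₁) M q) ∧
        H10G3.Through ↥(descVal A K₁) c 𝔫 (cV2 K₁ (descVal A K₁) M q hq hqM) ∧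
        H10G3.Through ↥(descVal A K₁) c 𝔫
          (cV3 K₁ M q hq hqM K₃ (descVal A K₃) h13 ζ hζ)) ∨
      ∀ V : ValuationSubring (FK K₁ (M * q * q)),
        V = cV1 K₁ (descVal A K₁) M q ∨ V = cV2 K₁ (descVal A K₁) M q hq hqM ∨
          V = cV3 K₁ M q hq hqM K₃ (descVal A K₃) h13 ζ hζ →
        ∀ W : ValuationSubring (FK K₁ (M * q * q)),
          W = cV1 K₁ (descVal A K₁) M q ∨ W = cV2 K₁ (descVal A K₁) M q hq hqM ∨
            W = cV3 K₁ M q hq hqM K₃ (descVal A K₃) h13 ζ hζ →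
          H10G3.Through ↥(descVal A K₁) c 𝔫 V → H10G3.Through ↥(descVal A K₁) c 𝔫 W → V = W)
    (hHα : H10G3.Through ↥(descVal A K₁) c 𝔫 (cV1 K₁ (descVal A K₁) M q) →
      H10G3.Through ↥(descVal A K₁) c 𝔫 (cV2 K₁ (descVal A K₁) M q hq hqM) →
      H10G3.Through ↥(descVal A K₁) c 𝔫 (cV3 K₁ M q hq hqM K₃ (descVal A K₃) h13 ζ hζ) →
      ∀ (ε : FK K₁ (M * q * q)) (r : ↥(descVal A K₁)), ε ≠ 0 →
        InLoc ↥(descVal A K₁) c 𝔫 ε → InLoc ↥(descVal A K₁) c 𝔫 ε⁻¹ →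
        H10G3.HalfAt ↥(descVal A K₁) c 𝔫 (heckeAlphaBar K₁ (M * q) q).toRingHom
          (normAKH K₁ M q) (cV3 K₁ M q hq hqM K₃ (descVal A K₃) h13 ζ hζ)
          (cV1' K₁ (descVal A K₁) M q) (cV2' K₁ (descVal A K₁) M q hq hqM) n ε
          (algebraMap ↥(descVal A K₁) (FK K₁ (M * q)) (1 + ((q : ℕ) : ↥(descVal A K₁)) * r)))
    (hHβ : H10G3.Through ↥(descVal A K₁) c 𝔫 (cV1 K₁ (descVal A K₁) M q) →
      H10G3.Through ↥(descVal A K₁) c 𝔫 (cV2 K₁ (descVal A K₁) M q hq hqM) →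
      H10G3.Through ↥(descVal A K₁) c 𝔫 (cV3 K₁ M q hq hqM K₃ (descVal A K₃) h13 ζ hζ) →
      ∀ (ε : FK K₁ (M * q * q)) (r : ↥(descVal A K₁)), ε ≠ 0 →
        InLoc ↥(descVal A K₁) c 𝔫 ε → InLoc ↥(descVal A K₁) c 𝔫 ε⁻¹ →
        H10G3.HalfAt ↥(descVal A K₁) c 𝔫 (heckeBetaBar K₁ (M * q) q).toRingHom
          (normBKH K₁ M q) (cV3 K₁ M q hq hqM K₃ (descVal A K₃) h13 ζ hζ)
          (cV2' K₁ (descVal A K₁) M q hq hqM) (cV1' K₁ (descVal A K₁) M q) n ε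
          (algebraMap ↥(descVal A K₁) (FK K₁ (M * q)) (1 + ((q : ℕ) : ↥(descVal A K₁)) * r))) :
    PointLeaves ↥(descVal A K₁) ((q : ℕ) : ↥(descVal A K₁)) c 𝔫 n j
      (cV1 K₁ (descVal A K₁) M q) (cV2 K₁ (descVal A K₁) M q hq hqM)
      (cV3 K₁ M q hq hqM K₃ (descVal A K₃) h13 ζ hζ)
      (heckeAlphaBar K₁ (M * q) q).toRingHom (heckeBetaBar K₁ (M * q) q).toRingHom
      (normAKH K₁ M q) (normBKH K₁ M q)
      (cV1' K₁ (descVal A K₁) M q) (cV2' K₁ (descVal A K₁) M q hq hqM) where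
  hBR := H9CU.brAt_qq M q hq hqM hT A hA K₁ hfin hunr hζe K₃ hfin₃ h13 ζ hζ t₀ ht₀ t ht hTr.wg
    c (hd.elim Or.inl (fun h => Or.inr h.1)) 𝔫 h𝔫 n hn
  hR2 := hR2
  hR3 := hR3
  hC3 := hC3
  hD := hD
  hHα := hHα
  hHβ := hHβ

end concrete

end H19LA
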