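import Fermat.Agent.S36.LocF3_helper12
import Fermat.Agent.S36.UnrField_helper29
import Fermat.Agent.S36.UnrInertia_helper29

/-!
# Item 86 (S36), slice (LOC-F), part 4 (helper12): the Frobenius automorphism of the base field
`L = H29DU.unrPart A K₁` (`K₁` normal), as required by `H12LF.pinsep_unr`, `pinsep_lower`,
`fibre_R1`.

* `H12LF.exists_frob_unrPart` : there is `γ : L ≃ₐ[ℚ] L` preserving `R = A ∩ L` (with its
  inverse) and with `γ a ≡ a^q` modulo the maximal ideal of `R`.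
-/

set_option autoImplicit false
set_option linter.style.longLine false
set_option linter.unusedSectionVars false
set_option linter.unusedVariables false
set_option linter.style.haveILetI false
set_option synthInstance.maxHeartbeats 400000
set_option maxHeartbeats 1000000

noncomputable section

open ModularCurve H7S18

namespace H12LF

local notation "Qb" => AlgebraicClosure ℚ

/-- an automorphism of `ℚ̄` which maps an intermediate field `L` onto itself restricts to an
automorphism of `L`. -/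
theorem exists_restrict (L : IntermediateField ℚ Qb) (σ : Qb ≃ₐ[ℚ] Qb)
    (hσ : ∀ c : Qb, σ c ∈ L ↔ c ∈ L) :
    ∃ γ : ↥L ≃ₐ[ℚ] ↥L, (∀ a : ↥L, ((γ a : ↥L) : Qb) = σ (a : Qb)) ∧
      (∀ a : ↥L, ((γ.symm a : ↥L) : Qb) = σ.symm (a : Qb)) := by
  classical
  let f : ↥L →ₐ[ℚ] ↥L :=
    ((σ : Qb →ₐ[ℚ] Qb).comp L.val).codRestrict L.toSubalgebra (fun a => (hσ _).mpr a.2)
  have hf : ∀ a : ↥L, ((f a : ↥L) : Qb) = σ (a : Qb) := fun a => rfl
  have hbij : Function.Bijective f := by
    constructor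
    · exact f.toRingHom.injective
    · intro c
      have hc : σ.symm (c : Qb) ∈ L := by
        rw [← hσ]
        rw [AlgEquiv.apply_symm_apply]
        exact c.2
      refine ⟨⟨σ.symm (c : Qb), hc⟩, Subtype.ext ?_⟩
      rw [hf]
      exact AlgEquiv.apply_symm_apply σ _
  refine ⟨AlgEquiv.ofBijective f hbij, fun a => hf a, fun a => ?_⟩
  have h1 : ((AlgEquiv.ofBijective f hbij) ((AlgEquiv.ofBijective f hbij).symm a) : ↥L) = a :=
    AlgEquiv.apply_symm_apply _ a
  have h2 : σ ((((AlgEquiv.ofBijective f hbij).symm a : ↥L)) : Qb) = (a : Qb) := by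
    have := congrArg (fun x : ↥L => (x : Qb)) h1
    exact this
  rw [← h2, AlgEquiv.symm_apply_apply]

/-- **the Frobenius automorphism of `L = unrPart A K₁`** (`K₁` normal over `ℚ`). -/
theorem exists_frob_unrPart (A : ValuationSubring Qb) (q : ℕ) (hq : q.Prime)
    (hA : A.LiesOverPrime q) (K₁ : IntermediateField ℚ Qb) [Normal ℚ K₁] :
    ∃ γ : ↥(H29DU.unrPart A K₁) ≃ₐ[ℚ] ↥(H29DU.unrPart A K₁),
      (∀ a : ↥(H29DU.unrPart A K₁), a ∈ descVal A (H29DU.unrPart A K₁) →
        γ a ∈ descVal A (H29DU.unrPart A K₁)) ∧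
      (∀ a : ↥(H29DU.unrPart A K₁), a ∈ descVal A (H29DU.unrPart A K₁) →
        γ.symm a ∈ descVal A (H29DU.unrPart A K₁)) ∧
      (∀ a : ↥(H29DU.unrPart A K₁), a ∈ descVal A (H29DU.unrPart A K₁) →
        γ a - a ^ q ∈ (descVal A (H29DU.unrPart A K₁)).nonunits) := by
  obtain ⟨σ, hσ⟩ := Fermat.Agent.H9.h9_exists_isFrobeniusAt A hq hA
  obtain ⟨γ, hγ, hγ'⟩ := exists_restrict (H29DU.unrPart A K₁) σ
    (H29DU.frobenius_mem_unrPart_iff A K₁ hσ)
  refine ⟨γ, ?_, ?_, ?_⟩
  · intro a ha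
    change algebraMap ↥(H29DU.unrPart A K₁) Qb (γ a) ∈ A
    change ((γ a : ↥(H29DU.unrPart A K₁)) : Qb) ∈ A
    rw [hγ]
    exact H29GU.mem_of_decomposition A hσ.mem_decompositionSubgroup ha
  · intro a ha
    change ((γ.symm a : ↥(H29DU.unrPart A K₁)) : Qb) ∈ A
    rw [hγ']
    exact H29GU.mem_of_decomposition A
      ((A.decompositionSubgroup ℚ).inv_mem hσ.mem_decompositionSubgroup) ha
  · intro a ha
    rw [H29UN.mem_nonunits_descVal]
    have e : (((γ a - a ^ q : ↥(H29DU.unrPart A K₁))) : Qb) = σ (a : Qb) - (a : Qb) ^ q := by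
      push_cast
      rw [hγ]
    rw [e]
    exact H29CHEB.h29cheb_frob_sub_mem A σ q hσ (a : Qb) ha

end H12LF

end
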