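/-
helper16: item 86 (S36), LOC, leaf (G0-Nq): PROOFS of `H16G0.G0NqStatement` and
`H16G0.G0Nq2Statement` (interface: `S36/G0NqDefs_helper16.lean`).

* `H16G0.regData_of_left` (generic, `H26DI.TwoComp`): if only `P₁` passes through the closed
  point `𝔫` and `x` is a uniformizer of `(M₀ / P₁)_𝔫`, then `𝔫 B_𝔫 = (ϖ, x)`, `(ϖ)` is prime in
  `B_𝔫`, `x / ϖ ∉ B_𝔫` and `P₁ B_𝔫 = ϖ B_𝔫`;
* `H16G0.unif1_at` : uniformizers on the first component at the level `M q`, at a FIXED number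
  field `K₁ ∋ ζ_{e₀}` (Normal-free form of `H9UF.compUnif1Statement`, with helper9's
  `H9CU.levelNormal_at`);
* `H16G0.unif2_at` : the same on the second component (helper26's `W`-transport);
* `H16G0.g0Nq : G0NqStatement`, `H16G0.g0Nq2 : G0Nq2Statement`.
-/
import Mathlib
import Fermat.Agent.S36.G0NqDefs_helper16
import Fermat.Agent.S36.CompUnifSq_helper9
import Fermat.Agent.S34.PairGaussFinal_helper8
import Fermat.Agent.S34.ResDeg1Stmt_helper8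
import Fermat.Agent.S34.DichAsm_helper22
import Fermat.Agent.S34.CompUnif2_helper26

set_option autoImplicit false
set_option synthInstance.maxHeartbeats 400000
set_option maxHeartbeats 1000000
set_option linter.unusedSectionVars false
set_option linter.unusedVariables false
set_option linter.style.haveILetI false

noncomputable section

open Polynomial IntermediateField ModularCurve H7S18 H4S34 H26DI H28GV

namespace H16G0

section generic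

variable {R : Type} [CommRing R] {E : Type} [Field E] [Algebra R E]

/-- **regular point, explicit form**: only `P₁` passes through `𝔫`. -/
theorem regData_of_left {ϖ : R} {t : E} {P₁ P₂ : Ideal (Chart R t)} (h : TwoComp R ϖ t P₁ P₂)
    (hϖ0 : algebraMap R E ϖ ≠ 0)
    (𝔫 : Ideal (Chart R t)) (h𝔫 : IsClosedPt R ϖ t 𝔫) (h1 : P₁ ≤ 𝔫) (h2 : ¬ P₂ ≤ 𝔫)
    (x : Chart R t) (hx : UnifAt P₁ 𝔫 x) :
    RegData R ϖ t 𝔫 x ∧
      ∀ z : Chart R t, z ∈ P₁ → InLoc R t 𝔫 ((z : E) * (algebraMap R E ϖ)⁻¹) := by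
  haveI := h𝔫.1
  have h𝔫p : 𝔫.IsPrime := Ideal.IsMaximal.isPrime h𝔫.1
  obtain ⟨s₂, hs₂P, hs₂𝔫⟩ := SetLike.not_le_iff_exists.mp h2
  have hP1 := h.prime1
  obtain ⟨yϖ, hyϖ⟩ := exists_chart_coe R t ϖ
  have hyϖ1 : yϖ ∈ P₁ := (h.pi_mem yϖ hyϖ).1
  have key : ∀ z : Chart R t, z ∈ P₁ → InLoc R t 𝔫 ((z : E) * (algebraMap R E ϖ)⁻¹) := by
    intro z hz
    obtain ⟨a', ha'⟩ := h.cap (s₂ * z) (P₁.mul_mem_left _ hz) (P₂.mul_mem_right _ hs₂P)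
    refine ⟨a', s₂, hs₂𝔫, ?_⟩
    have e : (s₂ : E) * (z : E) = algebraMap R E ϖ * a' := ha'
    field_simp
    linear_combination e
  refine ⟨⟨hx.1, ?_, ?_, ?_⟩, key⟩
  · intro y hy
    obtain ⟨u, hu, c, hc⟩ := hx.2.2 y hy
    obtain ⟨a, ha⟩ := h.cap (s₂ * (u * y - c * x)) (P₁.mul_mem_left _ hc)
      (P₂.mul_mem_right _ hs₂P)
    refine ⟨s₂ * u, a, s₂ * c, fun hmem => ?_, ?_⟩
    · rcases h𝔫p.mem_or_mem hmem with h' | h'
      · exact hs₂𝔫 h'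
      · exact hu h'
    · have e : ((s₂ * (u * y - c * x) : Chart R t) : E) = algebraMap R E ϖ * a := ha
      have e' : ((s₂ * (u * y - c * x) : Chart R t) : E) =
          (s₂ : E) * ((u : E) * (y : E) - (c : E) * (x : E)) := rfl
      rw [e'] at e
      show ((s₂ : E) * (u : E)) * (y : E) = (a : E) * algebraMap R E ϖ + ((s₂ : E) * (c : E)) * x
      linear_combination e
  · intro a b hab
    obtain ⟨a₀, s, hs, hsa⟩ := hab
    have hmul : s * (a * b) = yϖ * a₀ := by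
      apply Subtype.ext
      show (s : E) * ((a : E) * (b : E)) = (yϖ : E) * (a₀ : E)
      rw [hyϖ, ← hsa]
      field_simp
    have hmem : s * (a * b) ∈ P₁ := by
      rw [hmul]
      exact P₁.mul_mem_right _ hyϖ1
    have hs1 : s ∉ P₁ := fun h' => hs (h1 h')
    have hab1 : a * b ∈ P₁ := (hP1.mem_or_mem hmem).resolve_left hs1
    rcases hP1.mem_or_mem hab1 with h' | h'
    · exact Or.inl (key a h')
    · exact Or.inr (key b h')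
  · rintro ⟨a₀, s, hs, hsa⟩
    have hmul : s * x = yϖ * a₀ := by
      apply Subtype.ext
      show (s : E) * (x : E) = (yϖ : E) * (a₀ : E)
      rw [hyϖ, ← hsa]
      field_simp
    have hmem : s * x ∈ P₁ := by
      rw [hmul]
      exact P₁.mul_mem_right _ hyϖ1
    rcases hP1.mem_or_mem hmem with h' | h'
    · exact hs (h1 h')
    · exact hx.2.1 h'

end generic

section concrete

variable (M : ℕ) [NeZero M] (q : ℕ) [NeZero q] (hq : q.Prime) (hqM : ¬ q ∣ M)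
  (hT : TameLevel q M)
  (A : ValuationSubring (AlgebraicClosure ℚ)) (hA : A.LiesOverPrime q)
  (K₁ : IntermediateField ℚ (AlgebraicClosure ℚ)) (hfin : FiniteDimensional ℚ K₁)
  (hζ : ∃ ζ : K₁, IsPrimitiveRoot ζ (branchIndex (baseKind q) M))
  [Algebra ↥(descVal A K₁) (FK K₁ (M * q))]
  [IsScalarTower ↥(descVal A K₁) K₁ (FK K₁ (M * q))]
  (ϖ : ↥(descVal A K₁)) (hϖ : Irreducible ϖ)
  (t₀ : LaurentSeries ℚ) (ht₀ : IsBase (baseKind q) t₀)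
  (t : FK K₁ (M * q)) (ht : (t : LaurentSeries K₁) = coeffEmb K₁ t₀)

include hq hqM hT hA hfin hζ hϖ ht₀ ht in
/-- **(I2), first component, at a fixed `K₁ ∋ ζ_{e₀}`** (no normality of `K₁ / ℚ`). -/
theorem unif1_at (c : FK K₁ (M * q)) (hc : c = t ∨ c = t⁻¹)
    (P₁ : Ideal (Chart ↥(descVal A K₁) c)) (hP₁ : IsComp1 A K₁ c P₁)
    (𝔫 : Ideal (Chart ↥(descVal A K₁) c)) (h𝔫 : 𝔫.IsMaximal) (hle : P₁ ≤ 𝔫) :
    ∃ x, UnifAt P₁ 𝔫 x := by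
  haveI : Fact q.Prime := ⟨hq⟩
  obtain ⟨hdvr, -, -⟩ := H4DVR.dvrStatement q A hA K₁ hfin
  haveI := hdvr
  have hPG := H8PB.h8pg_pairGauss
  have hRD := H8PB.h8pb_resDegOneStatement
  obtain ⟨hcK, hcfin⟩ := H9UF.chart_basics M q hT K₁ t₀ ht₀ t ht c hc
  obtain ⟨tM, htM, hFE, hcF, hcM⟩ := H9UF.level_basics M q hT K₁ t₀ ht₀ t ht c hc
  letI algRF : Algebra ↥(descVal A K₁) (FK K₁ M) :=
    ((algebraMap K₁ (FK K₁ M)).comp (algebraMap ↥(descVal A K₁) K₁)).toAlgebra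
  haveI towRF : IsScalarTower ↥(descVal A K₁) K₁ (FK K₁ M) :=
    IsScalarTower.of_algebraMap_eq (fun _ => rfl)
  have hin := H9UF.chart_inG hPG M q hq hqM hT A hA K₁ hfin ϖ hϖ t₀ ht₀ t ht c hc
  refine H9UF.unif_gen (descVal A K₁) (laurentBaseChange K₁ (modularFunctionFieldFull M))
    (laurentBaseChange K₁ (modularFunctionFieldFull (M * q))) hFE c hcF ?_ ?_ ?_ hcK hcfin
    ϖ hϖ P₁ hP₁ ?_ 𝔫 h𝔫 hle
  · exact fun y => (hin y).1
  · intro y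
    exact hRD M q hq hqM hT A hA K₁ hfin (y : FK K₁ (M * q)) (hin y).1 (hin y).2
  · exact fun y n cf hcf hy hrel =>
      H9CU.levelNormal_at M q hq hqM hT A hA K₁ hfin hζ ϖ hϖ t₀ ht₀ tM htM ⟨_, hcF⟩ hcM
        y n cf hcf hy hrel
  · exact H9UF.comp_inter hPG M q hq hqM hT A hA K₁ hfin ϖ hϖ t₀ ht₀ t ht c hc P₁ hP₁

include hq hqM hT hA hfin hζ hϖ ht₀ ht in
/-- **(I2), second component, at a fixed `K₁ ∋ ζ_{e₀}`** (no normality of `K₁ / ℚ`). -/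
theorem unif2_at (c : FK K₁ (M * q))
    (P₂ : Ideal (Chart ↥(descVal A K₁) c)) (hP₂ : IsComp2 hq hqM A K₁ c P₂)
    (𝔫 : Ideal (Chart ↥(descVal A K₁) c)) (h𝔫 : IsClosedPt ↥(descVal A K₁) ϖ c 𝔫)
    (hd : IsDichPt t c 𝔫) (h2 : P₂ ≤ 𝔫) :
    ∃ x, UnifAt P₂ 𝔫 x := by
  haveI : Fact q.Prime := ⟨hq⟩
  obtain ⟨hdvr, -, -⟩ := H4DVR.dvrStatement q A hA K₁ hfin
  haveI := hdvr
  have hPG := H8PB.h8pg_pairGauss
  have hHW := H24HW.h24hw_HW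
  have htr : Transcendental K₁ t := H22DA.base_transcendental M q hT K₁ t₀ ht₀ t ht
  have ht0 : t ≠ 0 := H21S18.ne_zero_of_transcendental htr
  have htrR : Transcendental ↥(descVal A K₁) t := H19S18.h19_transc ↥(descVal A K₁) K₁ htr
  have htr' : Transcendental K₁ t⁻¹ := H19S18.h19_transc_inv K₁ htr
  have htrR' : Transcendental ↥(descVal A K₁) t⁻¹ :=
    H19S18.h19_transc ↥(descVal A K₁) K₁ htr'
  have hPG' := hPG M q hq hqM hT A hA K₁ hfin ϖ hϖ t₀ ht₀ t ht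
  have hwR : ∀ r : ↥(descVal A K₁),
      H12AL.wqKHom K₁ M q hq hqM (algebraMap ↥(descVal A K₁) (FK K₁ (M * q)) r) =
      algebraMap ↥(descVal A K₁) (FK K₁ (M * q)) r := by
    intro r
    rw [IsScalarTower.algebraMap_apply ↥(descVal A K₁) K₁ (FK K₁ (M * q))]
    exact H12AL.wqKHom_const K₁ M q hq hqM _
  have hint : ∀ c : FK K₁ (M * q), (c = t ∨ c = t⁻¹) → ∀ y : Chart ↥(descVal A K₁) c,
      GInt ↥(descVal A K₁) ϖ t (y : FK K₁ (M * q)) := by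
    intro c hc y
    rcases hc with rfl | rfl
    · exact H19S18.h19_gint_of_isInt ↥(descVal A K₁) htrR hϖ y.2
    · exact H19S18.h19_gint_of_isInt_inv ↥(descVal A K₁) htrR htrR' hϖ y.2
  refine H26WT.unif2_of_unif1 (R := ↥(descVal A K₁)) (E := FK K₁ (M * q))
    (H12AL.wqKHom K₁ M q hq hqM) (H12AL.wqKHom_invol K₁ M q hq hqM) hwR ϖ hϖ t ht0
    (fun c 𝔫 h𝔫 hd => hHW M q hq hqM hT A hA K₁ hfin t₀ ht₀ t ht c 𝔫 h𝔫 hd)
    (fun x => H8PB.InG (descVal A K₁) ((x : FK K₁ (M * q)) : LaurentSeries K₁))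
    (fun x => H8PB.InGm (descVal A K₁) ((x : FK K₁ (M * q)) : LaurentSeries K₁))
    ?_ ?_ ?_ ?_ ?_ P₂ hP₂ 𝔫 h𝔫 hd h2
  · intro x y hx hy
    have := H26WT.inGm_mul_inG (descVal A K₁) hx hy
    exact this
  · intro x y hx hy hxy
    exact H26WT.inGm_or_of_mul (descVal A K₁) hx hy hxy
  · intro c hc y
    exact (hPG' y).1.mp (hint c hc y)
  · intro c hc
    obtain ⟨P₁, -, hP1, -⟩ := H22DA.exists_comp hPG M q hq hqM hT A hA K₁ hfin ϖ hϖ t₀ ht₀ t ht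
      c hc
    exact ⟨P₁, hP1⟩
  · intro c P₁ hP₁ 𝔫 h𝔫 hd hle1
    have hc : c = t ∨ c = t⁻¹ := hd.elim Or.inl (fun h => Or.inr h.1)
    exact unif1_at M q hq hqM hT A hA K₁ hfin hζ ϖ hϖ t₀ ht₀ t ht c hc P₁ hP₁ 𝔫 h𝔫.1 hle1

end concrete

/-- **(G0-Nq)**, first component. -/
theorem g0Nq : G0NqStatement := by
  intro M _ q _ hq hqM hT A hA K₁ hfin hζ _ _ ϖ hϖ t₀ ht₀ t ht c hc 𝔫 h𝔫 g hg hg2
  haveI : Fact q.Prime := ⟨hq⟩
  obtain ⟨hdvr, -, -⟩ := H4DVR.dvrStatement q A hA K₁ hfin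
  haveI := hdvr
  have hPG := H8PB.h8pg_pairGauss
  obtain ⟨P₁, P₂, hP1, hP2⟩ :=
    H22DA.exists_comp hPG M q hq hqM hT A hA K₁ hfin ϖ hϖ t₀ ht₀ t ht c hc
  have htc := H22DA.twoComp hPG M q hq hqM hT A hA K₁ hfin ϖ hϖ t₀ ht₀ t ht c hc P₁ P₂ hP1 hP2
  have hϖ0 : algebraMap ↥(descVal A K₁) (FK K₁ (M * q)) ϖ ≠ 0 := by
    intro h0
    apply hϖ.ne_zero
    exact H19S18.h19_algebraMap_injective ↥(descVal A K₁) K₁ (h0.trans (map_zero _).symm)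
  have h2 : ¬ P₂ ≤ 𝔫 := fun h => hg (h ((hP2 g).mpr hg2))
  have h1 : P₁ ≤ 𝔫 := (htc.le_or_le 𝔫 h𝔫).resolve_right h2
  obtain ⟨x, hx⟩ := unif1_at M q hq hqM hT A hA K₁ hfin hζ ϖ hϖ t₀ ht₀ t ht c hc P₁ hP1 𝔫
    h𝔫.1 h1
  obtain ⟨hreg, hkey⟩ := regData_of_left htc hϖ0 𝔫 h𝔫 h1 h2 x hx
  exact ⟨x, hreg, fun h => hx.2.1 ((hP1 x).mpr h), fun y hy => hkey y ((hP1 y).mpr hy)⟩

/-- **(G0-Nq)**, second component. -/
theorem g0Nq2 : G0Nq2Statement := by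
  intro M _ q _ hq hqM hT A hA K₁ hfin hζ _ _ ϖ hϖ t₀ ht₀ t ht c 𝔫 h𝔫 hd g hg hg1
  have hc : c = t ∨ c = t⁻¹ := hd.elim Or.inl (fun h => Or.inr h.1)
  haveI : Fact q.Prime := ⟨hq⟩
  obtain ⟨hdvr, -, -⟩ := H4DVR.dvrStatement q A hA K₁ hfin
  haveI := hdvr
  have hPG := H8PB.h8pg_pairGauss
  obtain ⟨P₁, P₂, hP1, hP2⟩ :=
    H22DA.exists_comp hPG M q hq hqM hT A hA K₁ hfin ϖ hϖ t₀ ht₀ t ht c hc
  have htc := H22DA.twoComp hPG M q hq hqM hT A hA K₁ hfin ϖ hϖ t₀ ht₀ t ht c hc P₁ P₂ hP1 hP2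
  have hϖ0 : algebraMap ↥(descVal A K₁) (FK K₁ (M * q)) ϖ ≠ 0 := by
    intro h0
    apply hϖ.ne_zero
    exact H19S18.h19_algebraMap_injective ↥(descVal A K₁) K₁ (h0.trans (map_zero _).symm)
  have h1 : ¬ P₁ ≤ 𝔫 := fun h => hg (h ((hP1 g).mpr hg1))
  have h2 : P₂ ≤ 𝔫 := (htc.le_or_le 𝔫 h𝔫).resolve_left h1
  obtain ⟨x, hx⟩ := unif2_at M q hq hqM hT A hA K₁ hfin hζ ϖ hϖ t₀ ht₀ t ht c P₂ hP2 𝔫
    h𝔫 hd h2
  obtain ⟨hreg, hkey⟩ := regData_of_left htc.symm hϖ0 𝔫 h𝔫 h2 h1 x hx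
  exact ⟨x, hreg, fun h => hx.2.1 ((hP2 x).mpr h), fun y hy => hkey y ((hP2 y).mpr hy)⟩

end H16G0

end
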