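/-
helper26, item 86 (S36, Carayol), LOC, leaf (R2-INST): the wiring of (R2) against the generic
record `H4S36.Triple` (helper4) = the hypothesis `hR2` of `H2L1.l1uAll` (helper2).

Generic setting of `H4S36.MLocLeaf` / `H10G3.Gen3At`: `R` a DVR, `K = Frac R`, `F / K(t)` finite,
`𝒱 = {V₁, V₂, V₃}` the vertical components (`hO : O_F = ⋂ V`), chart `c` (`c = t` or `c = t⁻¹`),
`𝔫` a closed point of the chart.

* `H26R2.hO_inv`               : `hO` in the chart `t⁻¹`;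
* `H26R2.hϖ₀_of_ordAt`, `H26R2.hcrt₁`, `H26R2.hcrt₂`, `H26R2.hO_of_triple`, `hϖ𝒱_of_triple` :
  the hypotheses `hϖ₀`, `hcrt`, `hO` of `two_gen_val` / `two_gen_R2_val` from the fields
  `hd`, `wa`, `wg`, `hO`, `he₃` of `H4S36.Triple`;
* `H26R2.twoGenAt_single_gen`  : **single-component points**: `V₀` through `𝔫`, the other
  components not, `u` a uniformizer of the component at `𝔫` (CU3)  ⟹  `H2L1.TwoGenAt` (`(ϖ, u)`);
* `H26R2.twoGenAt_R2_gen`      : **(R2)**: `φ : A → M₀` injective integral (the chart map of `α`),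
  `P_{V₀} ∩ A` locally principal at the image point (R1), only `V₀` over `V₀ ∩ A`, CU3 for `V₀`
  ⟹  `H2L1.TwoGenAt` (`(φ x'', u)`);
* `H26R2.twoGenAt_single₁`     : points of `C₁` only, from the `Triple`;
* `H26R2.twoGenAt_alpha₂`      : points of `C₂` (triple points and `C₂`-only points), via `α`,
  from the `Triple`;
* `H26R2.hR2_of_triple`        : **the hypothesis `hR2` of `H2L1.l1uAll`** at the closed point `𝔫`.
-/
import Mathlib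
import Fermat.Agent.S36.L1Strong_helper26
import Fermat.Agent.S36.InjGenDefs_helper4
import Fermat.Agent.S36.L1UAll_helper2

set_option autoImplicit false
set_option linter.style.haveILetI false
set_option linter.unusedSectionVars false
set_option linter.unusedVariables false
set_option synthInstance.maxHeartbeats 400000

noncomputable section

namespace H26R2

open Polynomial IntermediateField H7S18 H4S34 AlgebraicCurve

section basic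

variable (R : Type) [CommRing R] [IsDomain R] [IsDiscreteValuationRing R]
  (K : Type) [Field K] [CharZero K] [Algebra R K] [IsFractionRing R K]
  {F : Type} [Field F] [Algebra K F] [Algebra R F] [IsScalarTower R K F]

/-- `hO` in the chart `t⁻¹`. -/
theorem hO_inv {ϖ : R} (hϖ : Irreducible ϖ) {t : F} (ht : Transcendental K t)
    (𝒱 : Finset (ValuationSubring F)) (hO : ∀ x : F, GInt R ϖ t x ↔ ∀ V ∈ 𝒱, x ∈ V) :
    ∀ x : F, GInt R ϖ t⁻¹ x ↔ ∀ V ∈ 𝒱, x ∈ V := by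
  intro x
  have htR : Transcendental R t := H19S18.h19_transc R K ht
  have htR' : Transcendental R t⁻¹ := H19S18.h19_transc R K (H19S18.h19_transc_inv K ht)
  rw [H19S18.h19_gint_inv_iff R htR htR' hϖ x]
  exact hO x

end basic

section ord

variable {F : Type} [Field F]

/-- `hϖ₀` from discreteness: if every `x ≠ 0` is `π ^ k · unit` at `V` (`v(π) < 1`), then
`v(x) < 1 → v(x) ≤ v(π)`. -/
theorem hϖ₀_of_ordAt (V : ValuationSubring F) (π : F) (hπ : V.valuation π < 1)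
    (hd : ∀ x : F, x ≠ 0 → ∃ k : ℤ, H4S36.OrdAt V π x k) :
    ∀ x : F, V.valuation x < 1 → V.valuation x ≤ V.valuation π := by
  intro x hx
  by_cases hx0 : x = 0
  · rw [hx0, map_zero]
    exact zero_le
  obtain ⟨k, hk⟩ := hd x hx0
  unfold H4S36.OrdAt at hk
  have hπ0 : π ≠ 0 := by
    intro h0
    by_cases hk0 : k = 0
    · rw [hk0, neg_zero, zpow_zero, mul_one] at hk
      rw [hk] at hx
      exact lt_irrefl _ hx
    · rw [h0, zero_zpow _ (neg_ne_zero.2 hk0), mul_zero, map_zero] at hk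
      exact zero_ne_one hk
  have hvπ0 : V.valuation π ≠ 0 := (Valuation.ne_zero_iff _).2 hπ0
  have hxk : V.valuation x = V.valuation π ^ k := by
    rw [map_mul, map_zpow₀, zpow_neg] at hk
    have h1 : V.valuation π ^ k ≠ 0 := zpow_ne_zero k hvπ0
    calc V.valuation x = V.valuation x * (V.valuation π ^ k)⁻¹ * V.valuation π ^ k := by
          rw [mul_assoc, inv_mul_cancel₀ h1, mul_one]
      _ = V.valuation π ^ k := by rw [hk, one_mul]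
  have hk1 : 1 ≤ k := by
    by_contra hcon
    have hk0 : k ≤ 0 := by omega
    have h1 : (1 : ValuationSubring.ValueGroup V) ≤ V.valuation π ^ k := by
      obtain ⟨m, rfl⟩ : ∃ m : ℕ, k = -(m : ℤ) := ⟨k.natAbs, by omega⟩
      rw [zpow_neg, zpow_natCast]
      rw [one_le_inv₀ (pow_pos (zero_lt_iff.2 hvπ0) m)]
      exact pow_le_one₀ zero_le hπ.le
    rw [hxk] at hx
    exact absurd hx (not_lt.2 h1)
  rw [hxk]
  obtain ⟨m, rfl⟩ : ∃ m : ℕ, k = (m : ℤ) + 1 := ⟨(k - 1).natAbs, by omega⟩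
  rw [zpow_add_one₀ hvπ0, zpow_natCast]
  calc V.valuation π ^ m * V.valuation π ≤ 1 * V.valuation π :=
        mul_le_mul_left (pow_le_one₀ zero_le hπ.le) _
    _ = V.valuation π := one_mul _

/-- `OrdAt V π x 0` : `v(x) = 1`. -/
theorem val_of_ordAt_zero {V : ValuationSubring F} {π x : F} (h : H4S36.OrdAt V π x 0) :
    V.valuation x = 1 := by
  unfold H4S36.OrdAt at h
  rwa [neg_zero, zpow_zero, mul_one] at h

/-- two elements of the same order have the same valuation. -/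
theorem val_eq_of_ordAt {V : ValuationSubring F} {π x y : F} {k : ℤ}
    (hx : H4S36.OrdAt V π x k) (hy : H4S36.OrdAt V π y k) : V.valuation x = V.valuation y := by
  unfold H4S36.OrdAt at hx hy
  rw [map_mul] at hx hy
  have h0 : V.valuation (π ^ (-k)) ≠ 0 := by
    intro h0
    rw [h0, mul_zero] at hx
    exact zero_ne_one hx
  exact mul_right_cancel₀ h0 (hx.trans hy.symm)

/-- `OrdAt V π π 1`. -/
theorem ordAt_self {V : ValuationSubring F} {π : F} (hπ0 : π ≠ 0) : H4S36.OrdAt V π π 1 := by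
  unfold H4S36.OrdAt
  rw [zpow_neg, zpow_one, mul_inv_cancel₀ hπ0, map_one]

end ord

section gen

variable (R : Type) [CommRing R] [IsDomain R] [IsDiscreteValuationRing R]
  (K : Type) [Field K] [CharZero K] [Algebra R K] [IsFractionRing R K]
  {F : Type} [Field F] [Algebra K F] [Algebra R F] [IsScalarTower R K F]

/-- **single-component points ⟹ two generators** `(ϖ, u)`, generic form. -/
theorem twoGenAt_single_gen (ϖ : R) (hϖ : Irreducible ϖ) {c : F} (hc : Transcendental K c)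
    [hfin : FiniteDimensional K⟮c⟯ F]
    (𝒱 : Finset (ValuationSubring F)) (hO : ∀ x : F, GInt R ϖ c x ↔ ∀ V ∈ 𝒱, x ∈ V)
    (V₀ : ValuationSubring F) (hV₀ : V₀ ∈ 𝒱)
    (hϖ₀ : ∀ x : F, V₀.valuation x < 1 → V₀.valuation x ≤ V₀.valuation (algebraMap R F ϖ))
    (hcrt : ∃ e : F, V₀.valuation (e - 1) < 1 ∧
      ∀ V ∈ 𝒱, V ≠ V₀ → V.valuation e ≤ V.valuation (algebraMap R F ϖ))
    (𝔫 : Ideal (Chart R c)) (h𝔫 : IsClosedPt R ϖ c 𝔫)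
    (hP𝔫 : ∀ y : Chart R c, V₀.valuation (y : F) < 1 → y ∈ 𝔫)
    (hsep : ∀ V ∈ 𝒱, V ≠ V₀ → ∃ g : Chart R c, V.valuation (g : F) < 1 ∧ g ∉ 𝔫)
    (u : Chart R c) (hu : u ∈ 𝔫)
    (hunif : ∀ y ∈ 𝔫, ∃ s d : Chart R c, s ∉ 𝔫 ∧ V₀.valuation ((s : F) * y - d * u) < 1) :
    H2L1.TwoGenAt R c 𝔫 := by
  have h𝔫p : 𝔫.IsPrime := h𝔫.1.isPrime
  have hinjR : Function.Injective (algebraMap R F) := H19S18.h19_algebraMap_injective R K
  have hϖF : algebraMap R F ϖ ≠ 0 := fun h0 => hϖ.ne_zero (hinjR (by rw [h0, map_zero]))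
  let ϖM : Chart R c :=
    algebraMap (Algebra.adjoin R {c}) (Chart R c) (algebraMap R (Algebra.adjoin R {c}) ϖ)
  have hϖMcoe : (ϖM : F) = algebraMap R F ϖ := rfl
  have hϖM0 : ϖM ≠ 0 := by
    intro h0
    apply hϖF
    rw [← hϖMcoe, h0]
    rfl
  have h1𝔫 : (1 : Chart R c) ∉ 𝔫 := fun h => h𝔫p.ne_top ((Ideal.eq_top_iff_one _).2 h)
  have hgen := two_gen_val R K ϖ hϖ hc 𝒱 hO V₀ hV₀ hϖ₀ hcrt 𝔫 h𝔫p hP𝔫 ϖM hϖMcoe ϖM hϖM0
    ⟨1, 1, h1𝔫, rfl⟩ (fun V hV hne => Or.inr (hsep V hV hne)) u hunif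
  exact H2L1.twoGenAt_of_gens R K ϖ hϖ hc 𝒱 hO 𝔫 h𝔫 ϖM u (h𝔫.2 _ hϖMcoe) hu hgen

/-- **(R2) ⟹ two generators** `(φ x'', u)`, generic form. -/
theorem twoGenAt_R2_gen (ϖ : R) (hϖ : Irreducible ϖ) {c : F} (hc : Transcendental K c)
    [hfin : FiniteDimensional K⟮c⟯ F]
    (𝒱 : Finset (ValuationSubring F)) (hO : ∀ x : F, GInt R ϖ c x ↔ ∀ V ∈ 𝒱, x ∈ V)
    (V₀ : ValuationSubring F) (hV₀ : V₀ ∈ 𝒱)
    (hϖV₀ : V₀.valuation (algebraMap R F ϖ) < 1)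
    (hϖ₀ : ∀ x : F, V₀.valuation x < 1 → V₀.valuation x ≤ V₀.valuation (algebraMap R F ϖ))
    (hcrt : ∃ e : F, V₀.valuation (e - 1) < 1 ∧
      ∀ V ∈ 𝒱, V ≠ V₀ → V.valuation e ≤ V.valuation (algebraMap R F ϖ))
    (𝔫 : Ideal (Chart R c)) (h𝔫 : IsClosedPt R ϖ c 𝔫)
    (hP𝔫 : ∀ y : Chart R c, V₀.valuation (y : F) < 1 → y ∈ 𝔫)
    (u : Chart R c) (hu : u ∈ 𝔫)
    (hunif : ∀ y ∈ 𝔫, ∃ s d : Chart R c, s ∉ 𝔫 ∧ V₀.valuation ((s : F) * y - d * u) < 1)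
    {A : Type*} [CommRing A] [IsDomain A] [IsIntegrallyClosed A]
    (φ : A →+* Chart R c) (hφ : Function.Injective φ) (hint : φ.IsIntegral)
    (ϖA : A) (hϖA : ((φ ϖA : Chart R c) : F) = algebraMap R F ϖ)
    (x'' : A) (hx0 : x'' ≠ 0) (hxV : V₀.valuation ((φ x'' : Chart R c) : F) < 1)
    (hprin : ∀ y : A, V₀.valuation ((φ y : Chart R c) : F) < 1 →
      ∃ s d : A, φ s ∉ 𝔫 ∧ s * y = d * x'')
    (hother : ∀ V ∈ 𝒱, V ≠ V₀ → ∃ y : A,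
      ¬ (V.valuation ((φ y : Chart R c) : F) < 1 ↔ V₀.valuation ((φ y : Chart R c) : F) < 1)) :
    H2L1.TwoGenAt R c 𝔫 :=
  H2L1.twoGenAt_of_gens R K ϖ hϖ hc 𝒱 hO 𝔫 h𝔫 (φ x'') u (hP𝔫 _ hxV) hu
    (two_gen_R2_val R K ϖ hϖ hc 𝒱 hO V₀ hV₀ hϖV₀ hϖ₀ hcrt 𝔫 h𝔫.1.isPrime hP𝔫 u hunif φ hφ hint
      ϖA hϖA x'' hx0 hxV hprin hother)

end gen

section triple

variable (R : Type) [CommRing R] [IsDomain R] [IsDiscreteValuationRing R]
  (K : Type) [Field K] [CharZero K] [Algebra R K] [IsFractionRing R K]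
  {F : Type} [Field F] [Algebra K F] [Algebra R F] [IsScalarTower R K F]
  {F' : Type} [Field F'] [Algebra K F'] [Algebra R F'] [IsScalarTower R K F']

variable {ϖ : R} {t : F} {q n : ℕ} {φα φβ : F' →+* F} {Nα Nβ : F →* F'}
  {V₁ V₂ V₃ : ValuationSubring F} {V₁' V₂' : ValuationSubring F'} {b₃ : F}

/-- `v(Ψ) ≤ 1` for `Ψ ≡ 1`. -/
theorem val_le_one_of_cg_one {V : ValuationSubring F} {Ψ : F} (h : H17T3.Cg V Ψ 1) :
    V.valuation Ψ ≤ 1 := by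
  unfold H17T3.Cg at h
  have e : Ψ = (Ψ - 1) + 1 := by ring
  rw [e]
  exact le_trans (V.valuation.map_add _ _) (max_le h.le (le_of_eq (map_one _)))

/-- `hO` of the `Triple` in `Finset` form. -/
theorem hO_of_triple (hT : H4S36.Triple R K F F' ϖ t q n φα φβ Nα Nβ V₁ V₂ V₃ V₁' V₂' b₃)
    (𝒱 : Finset (ValuationSubring F)) (h𝒱 : ∀ V, V ∈ 𝒱 ↔ V = V₁ ∨ V = V₂ ∨ V = V₃) :
    ∀ x : F, GInt R ϖ t x ↔ ∀ V ∈ 𝒱, x ∈ V := by
  intro x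
  rw [hT.hO x]
  constructor
  · rintro ⟨h1, h2, h3⟩ V hV
    rcases (h𝒱 V).1 hV with h | h | h
    · rw [h]; exact h1
    · rw [h]; exact h2
    · rw [h]; exact h3
  · intro h
    exact ⟨h V₁ ((h𝒱 V₁).2 (Or.inl rfl)), h V₂ ((h𝒱 V₂).2 (Or.inr (Or.inl rfl))),
      h V₃ ((h𝒱 V₃).2 (Or.inr (Or.inr rfl)))⟩

/-- `v₃(ϖ) < 1`. -/
theorem hϖ₃_of_triple (hT : H4S36.Triple R K F F' ϖ t q n φα φβ Nα Nβ V₁ V₂ V₃ V₁' V₂' b₃)
    (hq : 2 ≤ q) : V₃.valuation (algebraMap R F ϖ) < 1 := by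
  have he₃ := hT.he₃
  have hq1 : ((q : ℤ) - 1) = ((q - 1 : ℕ) : ℤ) := by
    rw [Nat.cast_sub (by omega : 1 ≤ q)]; rfl
  unfold H4S36.OrdAt at he₃
  rw [hq1, zpow_neg, zpow_natCast] at he₃
  have hb₃0 : b₃ ≠ 0 := by
    intro h0
    rw [h0, zero_pow (by omega : q - 1 ≠ 0), inv_zero, mul_zero, map_zero] at he₃
    exact zero_ne_one he₃
  have e : algebraMap R F ϖ = algebraMap R F ϖ * (b₃ ^ (q - 1))⁻¹ * b₃ ^ (q - 1) := by
    field_simp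
  rw [e, Valuation.map_mul, he₃, one_mul, map_pow]
  exact pow_lt_one₀ zero_le hT.hb₃ (by omega)

/-- the vertical components contain `ϖ`. -/
theorem hϖ𝒱_of_triple (hT : H4S36.Triple R K F F' ϖ t q n φα φβ Nα Nβ V₁ V₂ V₃ V₁' V₂' b₃)
    (hq : 2 ≤ q)
    (𝒱 : Finset (ValuationSubring F)) (h𝒱 : ∀ V, V ∈ 𝒱 ↔ V = V₁ ∨ V = V₂ ∨ V = V₃) :
    ∀ V ∈ 𝒱, V.valuation (algebraMap R F ϖ) < 1 := by
  intro V hV
  rcases (h𝒱 V).1 hV with h | h | h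
  · rw [h]; exact hT.hϖ₁
  · rw [h]; exact hT.hϖ₂
  · rw [h]; exact hϖ₃_of_triple R K hT hq

/-- the CRT element at `V₁`. -/
theorem hcrt₁ (hT : H4S36.Triple R K F F' ϖ t q n φα φβ Nα Nβ V₁ V₂ V₃ V₁' V₂' b₃)
    (hϖF : algebraMap R F ϖ ≠ 0) :
    ∃ e : F, V₁.valuation (e - 1) < 1 ∧
      V₂.valuation e ≤ V₂.valuation (algebraMap R F ϖ) ∧
      V₃.valuation e ≤ V₃.valuation (algebraMap R F ϖ) := by
  obtain ⟨g, hg0, h1, h2, h3⟩ := hT.wa 0 1 ((q : ℤ) - 1)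
  have hg1 : V₁.valuation g = 1 := val_of_ordAt_zero h1
  have hg2 : V₂.valuation g = V₂.valuation (algebraMap R F ϖ) :=
    val_eq_of_ordAt h2 (ordAt_self hϖF)
  have hg3 : V₃.valuation g = V₃.valuation (algebraMap R F ϖ) := val_eq_of_ordAt h3 hT.he₃
  obtain ⟨Ψ, hΨ1, hΨ2, hΨ3⟩ := hT.wg g⁻¹ 1 1 (by rw [map_inv₀, hg1, inv_one]) (map_one _)
    (map_one _)
  refine ⟨g * Ψ, ?_, ?_, ?_⟩
  · have e : g * Ψ - 1 = g * (Ψ - g⁻¹) := by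
      rw [mul_sub, mul_inv_cancel₀ hg0]
    rw [e, map_mul, hg1, one_mul]
    exact hΨ1
  · rw [map_mul, hg2]
    calc V₂.valuation (algebraMap R F ϖ) * V₂.valuation Ψ
        ≤ V₂.valuation (algebraMap R F ϖ) * 1 := mul_le_mul_right (val_le_one_of_cg_one hΨ2) _
      _ = V₂.valuation (algebraMap R F ϖ) := mul_one _
  · rw [map_mul, hg3]
    calc V₃.valuation (algebraMap R F ϖ) * V₃.valuation Ψ
        ≤ V₃.valuation (algebraMap R F ϖ) * 1 := mul_le_mul_right (val_le_one_of_cg_one hΨ3) _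
      _ = V₃.valuation (algebraMap R F ϖ) := mul_one _

/-- the CRT element at `V₂`. -/
theorem hcrt₂ (hT : H4S36.Triple R K F F' ϖ t q n φα φβ Nα Nβ V₁ V₂ V₃ V₁' V₂' b₃)
    (hϖF : algebraMap R F ϖ ≠ 0) :
    ∃ e : F, V₂.valuation (e - 1) < 1 ∧
      V₁.valuation e ≤ V₁.valuation (algebraMap R F ϖ) ∧
      V₃.valuation e ≤ V₃.valuation (algebraMap R F ϖ) := by
  obtain ⟨g, hg0, h1, h2, h3⟩ := hT.wa 1 0 ((q : ℤ) - 1)
  have hg2 : V₂.valuation g = 1 := val_of_ordAt_zero h2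
  have hg1 : V₁.valuation g = V₁.valuation (algebraMap R F ϖ) :=
    val_eq_of_ordAt h1 (ordAt_self hϖF)
  have hg3 : V₃.valuation g = V₃.valuation (algebraMap R F ϖ) := val_eq_of_ordAt h3 hT.he₃
  obtain ⟨Ψ, hΨ1, hΨ2, hΨ3⟩ := hT.wg 1 g⁻¹ 1 (map_one _) (by rw [map_inv₀, hg2, inv_one])
    (map_one _)
  refine ⟨g * Ψ, ?_, ?_, ?_⟩
  · have e : g * Ψ - 1 = g * (Ψ - g⁻¹) := by
      rw [mul_sub, mul_inv_cancel₀ hg0]
    rw [e, map_mul, hg2, one_mul]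
    exact hΨ2
  · rw [map_mul, hg1]
    calc V₁.valuation (algebraMap R F ϖ) * V₁.valuation Ψ
        ≤ V₁.valuation (algebraMap R F ϖ) * 1 := mul_le_mul_right (val_le_one_of_cg_one hΨ1) _
      _ = V₁.valuation (algebraMap R F ϖ) := mul_one _
  · rw [map_mul, hg3]
    calc V₃.valuation (algebraMap R F ϖ) * V₃.valuation Ψ
        ≤ V₃.valuation (algebraMap R F ϖ) * 1 := mul_le_mul_right (val_le_one_of_cg_one hΨ3) _
      _ = V₃.valuation (algebraMap R F ϖ) := mul_one _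

/-- **points of `C₁` only**: two generators `(ϖ, u)`. -/
theorem twoGenAt_single₁
    (hT : H4S36.Triple R K F F' ϖ t q n φα φβ Nα Nβ V₁ V₂ V₃ V₁' V₂' b₃)
    (hϖ : Irreducible ϖ) {c : F} (hc : Transcendental K c) [hfin : FiniteDimensional K⟮c⟯ F]
    (hct : ∀ x : F, GInt R ϖ c x ↔ GInt R ϖ t x)
    (𝒱 : Finset (ValuationSubring F)) (h𝒱 : ∀ V, V ∈ 𝒱 ↔ V = V₁ ∨ V = V₂ ∨ V = V₃)
    (𝔫 : Ideal (Chart R c)) (h𝔫 : IsClosedPt R ϖ c 𝔫)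
    (h1 : H10G3.Through R c 𝔫 V₁) (h2 : ¬ H10G3.Through R c 𝔫 V₂)
    (h3 : ¬ H10G3.Through R c 𝔫 V₃)
    (u : Chart R c) (hu : u ∈ 𝔫)
    (hunif : ∀ y ∈ 𝔫, ∃ s d : Chart R c, s ∉ 𝔫 ∧ V₁.valuation ((s : F) * y - d * u) < 1) :
    H2L1.TwoGenAt R c 𝔫 := by
  have hO : ∀ x : F, GInt R ϖ c x ↔ ∀ V ∈ 𝒱, x ∈ V :=
    fun x => (hct x).trans (hO_of_triple R K hT 𝒱 h𝒱 x)
  have hinjR : Function.Injective (algebraMap R F) := H19S18.h19_algebraMap_injective R K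
  have hϖF : algebraMap R F ϖ ≠ 0 := fun h0 => hϖ.ne_zero (hinjR (by rw [h0, map_zero]))
  have hV₁ : V₁ ∈ 𝒱 := (h𝒱 V₁).2 (Or.inl rfl)
  have hchart : ∀ V ∈ 𝒱, ∀ y : Chart R c, (y : F) ∈ V :=
    fun V hV y => chart_mem_of_hO R K hϖ hc 𝒱 hO hV y
  have hnot : ∀ V ∈ 𝒱, ¬ H10G3.Through R c 𝔫 V →
      ∃ g : Chart R c, V.valuation (g : F) < 1 ∧ g ∉ 𝔫 := by
    intro V hV hnT
    unfold H10G3.Through at hnT
    obtain ⟨s, hs'⟩ := not_forall.1 hnT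
    obtain ⟨hs, hs1⟩ := Classical.not_imp.1 hs'
    exact ⟨s, lt_of_le_of_ne ((V.valuation_le_one_iff _).2 (hchart V hV s)) hs1, hs⟩
  obtain ⟨e, he1, he2, he3⟩ := hcrt₁ R K hT hϖF
  refine twoGenAt_single_gen R K ϖ hϖ hc 𝒱 hO V₁ hV₁
    (hϖ₀_of_ordAt V₁ _ hT.hϖ₁ hT.hd₁) ⟨e, he1, ?_⟩ 𝔫 h𝔫
    ((H2L1.through_iff R 𝔫 V₁ (hchart V₁ hV₁)).2 h1) ?_ u hu hunif
  · intro V hV hne
    rcases (h𝒱 V).1 hV with h | h | h
    · exact absurd h hne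
    · rw [h]; exact he2
    · rw [h]; exact he3
  · intro V hV hne
    rcases (h𝒱 V).1 hV with h | h | h
    · exact absurd h hne
    · rw [h]; exact hnot V₂ ((h𝒱 V₂).2 (Or.inr (Or.inl rfl))) h2
    · rw [h]; exact hnot V₃ ((h𝒱 V₃).2 (Or.inr (Or.inr rfl))) h3

/-- **points of `C₂` only**: two generators `(ϖ, u)`. -/
theorem twoGenAt_single₂
    (hT : H4S36.Triple R K F F' ϖ t q n φα φβ Nα Nβ V₁ V₂ V₃ V₁' V₂' b₃)
    (hϖ : Irreducible ϖ) {c : F} (hc : Transcendental K c) [hfin : FiniteDimensional K⟮c⟯ F]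
    (hct : ∀ x : F, GInt R ϖ c x ↔ GInt R ϖ t x)
    (𝒱 : Finset (ValuationSubring F)) (h𝒱 : ∀ V, V ∈ 𝒱 ↔ V = V₁ ∨ V = V₂ ∨ V = V₃)
    (𝔫 : Ideal (Chart R c)) (h𝔫 : IsClosedPt R ϖ c 𝔫)
    (h1 : ¬ H10G3.Through R c 𝔫 V₁) (h2 : H10G3.Through R c 𝔫 V₂)
    (h3 : ¬ H10G3.Through R c 𝔫 V₃)
    (u : Chart R c) (hu : u ∈ 𝔫)
    (hunif : ∀ y ∈ 𝔫, ∃ s d : Chart R c, s ∉ 𝔫 ∧ V₂.valuation ((s : F) * y - d * u) < 1) :
    H2L1.TwoGenAt R c 𝔫 := by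
  have hO : ∀ x : F, GInt R ϖ c x ↔ ∀ V ∈ 𝒱, x ∈ V :=
    fun x => (hct x).trans (hO_of_triple R K hT 𝒱 h𝒱 x)
  have hinjR : Function.Injective (algebraMap R F) := H19S18.h19_algebraMap_injective R K
  have hϖF : algebraMap R F ϖ ≠ 0 := fun h0 => hϖ.ne_zero (hinjR (by rw [h0, map_zero]))
  have hV₂ : V₂ ∈ 𝒱 := (h𝒱 V₂).2 (Or.inr (Or.inl rfl))
  have hchart : ∀ V ∈ 𝒱, ∀ y : Chart R c, (y : F) ∈ V :=
    fun V hV y => chart_mem_of_hO R K hϖ hc 𝒱 hO hV y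
  have hnot : ∀ V ∈ 𝒱, ¬ H10G3.Through R c 𝔫 V →
      ∃ g : Chart R c, V.valuation (g : F) < 1 ∧ g ∉ 𝔫 := by
    intro V hV hnT
    unfold H10G3.Through at hnT
    obtain ⟨s, hs'⟩ := not_forall.1 hnT
    obtain ⟨hs, hs1⟩ := Classical.not_imp.1 hs'
    exact ⟨s, lt_of_le_of_ne ((V.valuation_le_one_iff _).2 (hchart V hV s)) hs1, hs⟩
  obtain ⟨e, he2, he1, he3⟩ := hcrt₂ R K hT hϖF
  refine twoGenAt_single_gen R K ϖ hϖ hc 𝒱 hO V₂ hV₂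
    (hϖ₀_of_ordAt V₂ _ hT.hϖ₂ hT.hd₂) ⟨e, he2, ?_⟩ 𝔫 h𝔫
    ((H2L1.through_iff R 𝔫 V₂ (hchart V₂ hV₂)).2 h2) ?_ u hu hunif
  · intro V hV hne
    rcases (h𝒱 V).1 hV with h | h | h
    · rw [h]; exact he1
    · exact absurd h hne
    · rw [h]; exact he3
  · intro V hV hne
    rcases (h𝒱 V).1 hV with h | h | h
    · rw [h]; exact hnot V₁ ((h𝒱 V₁).2 (Or.inl rfl)) h1
    · exact absurd h hne
    · rw [h]; exact hnot V₃ ((h𝒱 V₃).2 (Or.inr (Or.inr rfl))) h3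

/-- **(R2) at the points of `C₂`** (triple points and points of `C₂` only), via `α`:
`A` the chart ring downstairs (`ι : A → F'`), `φ : A → M₀` the chart map of `α`, `P₂' ⊆ A`
locally principal at the image point (`hprin`: (R1) at the supersingular points, (G0) at the
points of `C₂'` only), `u` a uniformizer of `C₂` at `𝔫` (CU3). -/
theorem twoGenAt_alpha₂
    (hT : H4S36.Triple R K F F' ϖ t q n φα φβ Nα Nβ V₁ V₂ V₃ V₁' V₂' b₃)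
    (hϖ : Irreducible ϖ) {c : F} (hc : Transcendental K c) [hfin : FiniteDimensional K⟮c⟯ F]
    (hct : ∀ x : F, GInt R ϖ c x ↔ GInt R ϖ t x)
    (𝒱 : Finset (ValuationSubring F)) (h𝒱 : ∀ V, V ∈ 𝒱 ↔ V = V₁ ∨ V = V₂ ∨ V = V₃)
    (𝔫 : Ideal (Chart R c)) (h𝔫 : IsClosedPt R ϖ c 𝔫)
    (h2 : H10G3.Through R c 𝔫 V₂)
    (u : Chart R c) (hu : u ∈ 𝔫)
    (hunif : ∀ y ∈ 𝔫, ∃ s d : Chart R c, s ∉ 𝔫 ∧ V₂.valuation ((s : F) * y - d * u) < 1)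
    {A : Type*} [CommRing A] [IsDomain A] [IsIntegrallyClosed A]
    (ι : A →+* F') (hι : Function.Injective ι)
    (φ : A →+* Chart R c) (hint : φ.IsIntegral)
    (hφα : ∀ y : A, ((φ y : Chart R c) : F) = φα (ι y))
    (ϖA : A) (hϖA : ι ϖA = algebraMap R F' ϖ)
    (hsep' : ∃ y : A, ¬ (V₁'.valuation (ι y) < 1 ↔ V₂'.valuation (ι y) < 1))
    (x'' : A) (hx0 : x'' ≠ 0) (hxV : V₂'.valuation (ι x'') < 1)
    (hprin : ∀ y : A, V₂'.valuation (ι y) < 1 → ∃ s d : A, φ s ∉ 𝔫 ∧ s * y = d * x'') :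
    H2L1.TwoGenAt R c 𝔫 := by
  have hO : ∀ x : F, GInt R ϖ c x ↔ ∀ V ∈ 𝒱, x ∈ V :=
    fun x => (hct x).trans (hO_of_triple R K hT 𝒱 h𝒱 x)
  have hinjR : Function.Injective (algebraMap R F) := H19S18.h19_algebraMap_injective R K
  have hϖF : algebraMap R F ϖ ≠ 0 := fun h0 => hϖ.ne_zero (hinjR (by rw [h0, map_zero]))
  have hV₂ : V₂ ∈ 𝒱 := (h𝒱 V₂).2 (Or.inr (Or.inl rfl))
  have hchart : ∀ V ∈ 𝒱, ∀ y : Chart R c, (y : F) ∈ V :=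
    fun V hV y => chart_mem_of_hO R K hϖ hc 𝒱 hO hV y
  have hφ : Function.Injective φ := by
    intro a b hab
    apply hι
    apply φα.injective
    rw [← hφα, ← hφα, hab]
  have hϖA' : ((φ ϖA : Chart R c) : F) = algebraMap R F ϖ := by
    rw [hφα, hϖA, IsScalarTower.algebraMap_apply R K F', hT.hφα,
      ← IsScalarTower.algebraMap_apply R K F]
  obtain ⟨e, he2, he1, he3⟩ := hcrt₂ R K hT hϖF
  obtain ⟨y₀, hy₀⟩ := hsep'
  refine twoGenAt_R2_gen R K ϖ hϖ hc 𝒱 hO V₂ hV₂ hT.hϖ₂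
    (hϖ₀_of_ordAt V₂ _ hT.hϖ₂ hT.hd₂) ⟨e, he2, ?_⟩ 𝔫 h𝔫
    ((H2L1.through_iff R 𝔫 V₂ (hchart V₂ hV₂)).2 h2) u hu hunif φ hφ hint ϖA hϖA' x'' hx0
    ?_ ?_ ?_
  · intro V hV hne
    rcases (h𝒱 V).1 hV with h | h | h
    · rw [h]; exact he1
    · exact absurd h hne
    · rw [h]; exact he3
  · rw [hφα]
    exact (hT.hα₂ _).1 hxV
  · intro y hy
    rw [hφα] at hy
    exact hprin y ((hT.hα₂ _).2 hy)
  · intro V hV hne
    refine ⟨y₀, ?_⟩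
    rw [hφα]
    rcases (h𝒱 V).1 hV with h | h | h
    · rw [h, ← hT.hα₁, ← hT.hα₂]
      exact hy₀
    · exact absurd h hne
    · rw [h, ← hT.hα₃, ← hT.hα₂]
      exact hy₀

/-- **the hypothesis `hR2` of `H2L1.l1uAll`** at the closed point `𝔫` of the chart `c`:
two generators at every closed point of `C₁ ∪ C₂`, from
* (DICH3) `hD` : a point of `C₁` and `C₃` is a point of `C₂`;
* (CU3) `hCU1`, `hCU2` : uniformizers of `C₁`, `C₂` at `𝔫`;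
* (R1)/(G0) `hprin` : `P₂'` is locally principal at the image of `𝔫` under `α`. -/
theorem hR2_of_triple
    (hT : H4S36.Triple R K F F' ϖ t q n φα φβ Nα Nβ V₁ V₂ V₃ V₁' V₂' b₃)
    (hϖ : Irreducible ϖ) {c : F} (hc : Transcendental K c) [hfin : FiniteDimensional K⟮c⟯ F]
    (hct : ∀ x : F, GInt R ϖ c x ↔ GInt R ϖ t x)
    (𝒱 : Finset (ValuationSubring F)) (h𝒱 : ∀ V, V ∈ 𝒱 ↔ V = V₁ ∨ V = V₂ ∨ V = V₃)
    (𝔫 : Ideal (Chart R c)) (h𝔫 : IsClosedPt R ϖ c 𝔫)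
    (hD : H10G3.Through R c 𝔫 V₁ → H10G3.Through R c 𝔫 V₃ → H10G3.Through R c 𝔫 V₂)
    (hCU1 : H10G3.Through R c 𝔫 V₁ → ∃ u ∈ 𝔫, ∀ y ∈ 𝔫, ∃ s d : Chart R c, s ∉ 𝔫 ∧
      V₁.valuation ((s : F) * y - d * u) < 1)
    (hCU2 : H10G3.Through R c 𝔫 V₂ → ∃ u ∈ 𝔫, ∀ y ∈ 𝔫, ∃ s d : Chart R c, s ∉ 𝔫 ∧
      V₂.valuation ((s : F) * y - d * u) < 1)
    {A : Type*} [CommRing A] [IsDomain A] [IsIntegrallyClosed A]
    (ι : A →+* F') (hι : Function.Injective ι)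
    (φ : A →+* Chart R c) (hint : φ.IsIntegral)
    (hφα : ∀ y : A, ((φ y : Chart R c) : F) = φα (ι y))
    (ϖA : A) (hϖA : ι ϖA = algebraMap R F' ϖ)
    (hsep' : ∃ y : A, ¬ (V₁'.valuation (ι y) < 1 ↔ V₂'.valuation (ι y) < 1))
    (hprin : H10G3.Through R c 𝔫 V₂ → ∃ x'' : A, x'' ≠ 0 ∧ V₂'.valuation (ι x'') < 1 ∧
      ∀ y : A, V₂'.valuation (ι y) < 1 → ∃ s d : A, φ s ∉ 𝔫 ∧ s * y = d * x'')
    (h12 : H10G3.Through R c 𝔫 V₁ ∨ H10G3.Through R c 𝔫 V₂) :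
    H2L1.TwoGenAt R c 𝔫 := by
  by_cases h2 : H10G3.Through R c 𝔫 V₂
  · obtain ⟨u, hu, hunif⟩ := hCU2 h2
    obtain ⟨x'', hx0, hxV, hp⟩ := hprin h2
    exact twoGenAt_alpha₂ R K hT hϖ hc hct 𝒱 h𝒱 𝔫 h𝔫 h2 u hu hunif ι hι φ hint hφα ϖA hϖA
      hsep' x'' hx0 hxV hp
  · have h1 : H10G3.Through R c 𝔫 V₁ := h12.resolve_right h2
    have h3 : ¬ H10G3.Through R c 𝔫 V₃ := fun h3 => h2 (hD h1 h3)
    obtain ⟨u, hu, hunif⟩ := hCU1 h1
    exact twoGenAt_single₁ R K hT hϖ hc hct 𝒱 h𝒱 𝔫 h𝔫 h1 h2 h3 u hu hunif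

end triple

end H26R2

end
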