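/-
helper26, item 86 (S36, Carayol), LOC, leaf (R2-INST), part 2: the hypotheses (H5) (chart map of
`α`) and (H7) (`hprin`) of `H26R2.hR2_of_triple` from the chart downstairs.

Generic setting of `H4S36.Triple`; `c' ∈ F'` the chart function downstairs, `φα c' = c`.

* `H26R2.hprin_of_twoGen`     : two local generators at a closed point `𝔫'` of a chart + a
  component `P_{V₀'} ≤ 𝔫'`  ⟹  `P_{V₀'}` is locally principal at `𝔫'` (element form `hprin`);
* `H26R2.hR2_of_triple_alpha` : **the hypothesis `hR2` of `H2L1.l1uAll`** at the closed point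
  `𝔫` of the chart `c = φα c'` from
  (DICH3) `hD`, (CU3) `hCU1`, `hCU2` upstairs, and downstairs: `hO'` (PairGauss in the chart
  `c'`), `hsep'` (`P₁' ≠ P₂'`), `hTG'` (two generators at every closed point of `C₂'`:
  (R1) at the supersingular points, (G0) at the other points).
-/
import Mathlib
import Fermat.Agent.S36.R2Triple_helper26
import Fermat.Agent.S36.ChartMap_helper6
import Fermat.Agent.S36.R1Gen_helper5

set_option autoImplicit false
set_option linter.style.haveILetI false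
set_option linter.unusedSectionVars false
set_option linter.unusedVariables false
set_option synthInstance.maxHeartbeats 400000

noncomputable section

namespace H26R2

open Polynomial IntermediateField H7S18 H4S34 AlgebraicCurve

section prin

variable (R : Type) [CommRing R] [IsDomain R] [IsDiscreteValuationRing R]
  (K : Type) [Field K] [CharZero K] [Algebra R K] [IsFractionRing R K]
  {F : Type} [Field F] [Algebra K F] [Algebra R F] [IsScalarTower R K F]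

/-- **`hprin` from two generators**: at a closed point `𝔫` of the chart with two local
generators, a component `P_{V₀} ≤ 𝔫` is locally principal. -/
theorem hprin_of_twoGen (ϖ : R) (hϖ : Irreducible ϖ) {c : F} (hc : Transcendental K c)
    [hfin : FiniteDimensional K⟮c⟯ F]
    (𝒱 : Finset (ValuationSubring F)) (hO : ∀ x : F, GInt R ϖ c x ↔ ∀ V ∈ 𝒱, x ∈ V)
    (V₀ : ValuationSubring F) (hV₀ : V₀ ∈ 𝒱)
    (hϖV₀ : V₀.valuation (algebraMap R F ϖ) < 1)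
    (𝔫 : Ideal (Chart R c)) (h𝔫 : 𝔫.IsMaximal)
    (hle : ∀ y : Chart R c, V₀.valuation (y : F) < 1 → y ∈ 𝔫)
    (g x : Chart R c) (hg : g ∈ 𝔫) (hx : x ∈ 𝔫)
    (hgen : ∀ y ∈ 𝔫, ∃ s a b : Chart R c, s ∉ 𝔫 ∧ (s : F) * y = a * (g : F) + b * x) :
    ∃ x'' : Chart R c, x'' ≠ 0 ∧ V₀.valuation (x'' : F) < 1 ∧
      ∀ y : Chart R c, V₀.valuation (y : F) < 1 →
        ∃ s d : Chart R c, s ∉ 𝔫 ∧ s * y = d * x'' := by
  haveI := hfin
  haveI : IsNoetherianRing (Chart R c) := H21LR.chart_noeth R K hc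
  haveI : IsFractionRing (Chart R c) F := H21LR.chart_isFractionRing R K hc
  haveI h𝔫p : 𝔫.IsPrime := h𝔫.isPrime
  have hmem : ∀ y : Chart R c, (y : F) ∈ V₀ := fun y => chart_mem_of_hO R K hϖ hc 𝒱 hO hV₀ y
  set P : Ideal (Chart R c) := compIdeal R V₀ hmem with hPdef
  have hP : P.IsPrime := compIdeal_isPrime R V₀ hmem
  have hinjR : Function.Injective (algebraMap R F) := H19S18.h19_algebraMap_injective R K
  have hϖF : algebraMap R F ϖ ≠ 0 := fun h0 => hϖ.ne_zero (hinjR (by rw [h0, map_zero]))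
  let ϖM : Chart R c :=
    algebraMap (Algebra.adjoin R {c}) (Chart R c) (algebraMap R (Algebra.adjoin R {c}) ϖ)
  have hϖMcoe : (ϖM : F) = algebraMap R F ϖ := rfl
  have hP0 : P ≠ ⊥ := by
    intro h0
    have h1 : ϖM ∈ P := hϖV₀
    rw [h0, Ideal.mem_bot] at h1
    apply hϖF
    rw [← hϖMcoe, h1]
    rfl
  have hPle : P ≤ 𝔫 := fun y hy => hle y hy
  have hPne : P ≠ 𝔫 := by
    intro h
    apply H2L1.compIdeal_not_isMaximal R K ϖ hϖ hc 𝒱 hO V₀ hV₀ hmem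
    rw [← hPdef, h]
    exact h𝔫
  have hgen' : ∀ y ∈ 𝔫, ∃ s a b : Chart R c, s ∉ 𝔫 ∧ s * y = a * g + b * x := by
    intro y hy
    obtain ⟨s, a, b, hs, e⟩ := hgen y hy
    refine ⟨s, a, b, hs, Subtype.ext ?_⟩
    push_cast
    rw [e]
  obtain ⟨x'', hx0, hxP, hpr⟩ := H5R1.principal_of_two_gen (A := Chart R c) F 𝔫 P hP hP0 hPle
    hPne g x hg hx hgen'
  exact ⟨x'', hx0, hxP, fun y hy => hpr y hy⟩

end prin

section alpha

variable (R : Type) [CommRing R] [IsDomain R] [IsDiscreteValuationRing R]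
  (K : Type) [Field K] [CharZero K] [Algebra R K] [IsFractionRing R K]
  {F : Type} [Field F] [Algebra K F] [Algebra R F] [IsScalarTower R K F]
  {F' : Type} [Field F'] [Algebra K F'] [Algebra R F'] [IsScalarTower R K F']

variable {ϖ : R} {t : F} {q n : ℕ} {φα φβ : F' →+* F} {Nα Nβ : F →* F'}
  {V₁ V₂ V₃ : ValuationSubring F} {V₁' V₂' : ValuationSubring F'} {b₃ : F}

/-- **the hypothesis `hR2` of `H2L1.l1uAll`** at the closed point `𝔫` of the chart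
`c = φα c'`, from (DICH3), (CU3) upstairs and the two-generator property downstairs at the
closed points of `C₂'`. -/
theorem hR2_of_triple_alpha
    (hT : H4S36.Triple R K F F' ϖ t q n φα φβ Nα Nβ V₁ V₂ V₃ V₁' V₂' b₃)
    (hϖ : Irreducible ϖ) {c : F} (hc : Transcendental K c) [hfin : FiniteDimensional K⟮c⟯ F]
    (hct : ∀ x : F, GInt R ϖ c x ↔ GInt R ϖ t x)
    (𝒱 : Finset (ValuationSubring F)) (h𝒱 : ∀ V, V ∈ 𝒱 ↔ V = V₁ ∨ V = V₂ ∨ V = V₃)
    (𝔫 : Ideal (Chart R c)) (h𝔫 : IsClosedPt R ϖ c 𝔫)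
    (hD : H10G3.Through R c 𝔫 V₁ → H10G3.Through R c 𝔫 V₃ → H10G3.Through R c 𝔫 V₂)
    (hCU1 : H10G3.Through R c 𝔫 V₁ → ∃ u ∈ 𝔫, ∀ y ∈ 𝔫, ∃ s d : Chart R c, s ∉ 𝔫 ∧
      V₁.valuation ((s : F) * y - d * u) < 1)
    (hCU2 : H10G3.Through R c 𝔫 V₂ → ∃ u ∈ 𝔫, ∀ y ∈ 𝔫, ∃ s d : Chart R c, s ∉ 𝔫 ∧
      V₂.valuation ((s : F) * y - d * u) < 1)
    {c' : F'} (hc' : Transcendental K c') [hfin' : FiniteDimensional K⟮c'⟯ F']
    (hcc : φα c' = c)
    (hO' : ∀ x : F', GInt R ϖ c' x ↔ x ∈ V₁' ∧ x ∈ V₂')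
    (hsep' : ∃ y : Chart R c', ¬ (V₁'.valuation (y : F') < 1 ↔ V₂'.valuation (y : F') < 1))
    (hTG' : ∀ 𝔫' : Ideal (Chart R c'), IsClosedPt R ϖ c' 𝔫' →
      (∀ y : Chart R c', V₂'.valuation (y : F') < 1 → y ∈ 𝔫') →
      ∃ g x : Chart R c', g ∈ 𝔫' ∧ x ∈ 𝔫' ∧
        ∀ y ∈ 𝔫', ∃ s a b : Chart R c', s ∉ 𝔫' ∧ (s : F') * y = a * (g : F') + b * x)
    (h12 : H10G3.Through R c 𝔫 V₁ ∨ H10G3.Through R c 𝔫 V₂) :
    H2L1.TwoGenAt R c 𝔫 := by
  classical
  subst hcc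
  haveI := hfin
  haveI := hfin'
  letI : Algebra F' F := φα.toAlgebra
  have hφR : ∀ r : R, φα (algebraMap R F' r) = algebraMap R F r := by
    intro r
    rw [IsScalarTower.algebraMap_apply R K F', hT.hφα, ← IsScalarTower.algebraMap_apply R K F]
  haveI : IsScalarTower R F' F := IsScalarTower.of_algebraMap_eq (fun r => (hφR r).symm)
  haveI : IsIntegrallyClosed (Chart R c') := H22BR.chart_intClosed R K c'
  let φ : Chart R c' →+* Chart R (φα c') := H6CM.chartMap R (F := F) c'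
  have hφcoe : ∀ y : Chart R c', ((φ y : Chart R (φα c')) : F) = φα (y : F') := fun _ => rfl
  have hint : φ.IsIntegral := H6CM.chartMap_isIntegral R (F := F) c'
  -- the data downstairs
  let 𝒱' : Finset (ValuationSubring F') := {V₁', V₂'}
  have h𝒱' : ∀ V, V ∈ 𝒱' ↔ V = V₁' ∨ V = V₂' := by
    intro V
    rw [Finset.mem_insert, Finset.mem_singleton]
  have hOf' : ∀ x : F', GInt R ϖ c' x ↔ ∀ V ∈ 𝒱', x ∈ V := by
    intro x
    rw [hO' x]
    constructor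
    · rintro ⟨h1, h2⟩ V hV
      rcases (h𝒱' V).1 hV with h | h
      · rw [h]; exact h1
      · rw [h]; exact h2
    · intro h
      exact ⟨h V₁' ((h𝒱' V₁').2 (Or.inl rfl)), h V₂' ((h𝒱' V₂').2 (Or.inr rfl))⟩
  have hV₂' : V₂' ∈ 𝒱' := (h𝒱' V₂').2 (Or.inr rfl)
  have hO : ∀ x : F, GInt R ϖ (φα c') x ↔ ∀ V ∈ 𝒱, x ∈ V :=
    fun x => (hct x).trans (hO_of_triple R K hT 𝒱 h𝒱 x)
  have hchart : ∀ V ∈ 𝒱, ∀ y : Chart R (φα c'), (y : F) ∈ V :=
    fun V hV y => chart_mem_of_hO R K hϖ hc 𝒱 hO hV y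
  have hV₂ : V₂ ∈ 𝒱 := (h𝒱 V₂).2 (Or.inr (Or.inl rfl))
  refine hR2_of_triple R K hT hϖ hc hct 𝒱 h𝒱 𝔫 h𝔫 hD hCU1 hCU2
    (algebraMap (Chart R c') F') (fun a b hab => Subtype.ext hab) φ hint hφcoe
    (algebraMap (Algebra.adjoin R {c'}) (Chart R c') (algebraMap R (Algebra.adjoin R {c'}) ϖ))
    rfl hsep' ?_ h12
  intro h2
  -- the image point
  haveI h𝔫max : 𝔫.IsMaximal := h𝔫.1
  have h𝔫'max : (𝔫.comap φ).IsMaximal :=
    Ideal.isMaximal_comap_of_isIntegral_of_isMaximal' φ hint 𝔫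
  have h𝔫' : IsClosedPt R ϖ c' (𝔫.comap φ) := by
    refine ⟨h𝔫'max, fun y hy => ?_⟩
    rw [Ideal.mem_comap]
    apply h𝔫.2
    rw [hφcoe, hy, hφR]
  have hle2 : ∀ y : Chart R (φα c'), V₂.valuation (y : F) < 1 → y ∈ 𝔫 :=
    (H2L1.through_iff R 𝔫 V₂ (hchart V₂ hV₂)).2 h2
  have hle' : ∀ y : Chart R c', V₂'.valuation (y : F') < 1 → y ∈ 𝔫.comap φ := by
    intro y hy
    rw [Ideal.mem_comap]
    apply hle2
    rw [hφcoe]
    exact (hT.hα₂ _).1 hy
  obtain ⟨g, x, hg, hx, hgen⟩ := hTG' (𝔫.comap φ) h𝔫' hle'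
  obtain ⟨x'', hx0, hxV, hpr⟩ := hprin_of_twoGen R K ϖ hϖ hc' 𝒱' hOf' V₂' hV₂' hT.hϖ₂'
    (𝔫.comap φ) h𝔫'max hle' g x hg hx hgen
  exact ⟨x'', hx0, hxV, fun y hy => hpr y hy⟩

end alpha

end H26R2

end
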