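/-
helper26, item 86 (S36, Carayol), LOC, leaf (R2-INST), part 3: the final generic form of (R2).

* `H26R2.hsep_of_comax`        : `hsep'` (the two components downstairs are distinct, witness in
  the chart) from PairGauss downstairs and a comaximality witness
  (`H10FC.gauss_comax` in the application);
* `H26R2.hR2_of_triple_alpha'` : **the hypothesis `hR2` of `H2L1.l1uAll` / the field `hR2` of
  `H19LA.ChartLeaves`** at the closed point `𝔫` of the chart `c = φα c'`; the two-generator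
  property downstairs is only needed at THE IMAGE POINT `𝔫' = 𝔫 ∩ M₀'` (so that it can be fed
  with statements about dichotomy points).
-/
import Mathlib
import Fermat.Agent.S36.R2Alpha_helper26

set_option autoImplicit false
set_option linter.style.haveILetI false
set_option linter.unusedSectionVars false
set_option linter.unusedVariables false
set_option synthInstance.maxHeartbeats 400000

noncomputable section

namespace H26R2

open Polynomial IntermediateField H7S18 H4S34 AlgebraicCurve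

section sep

variable (R : Type) [CommRing R] [IsDomain R] [IsDiscreteValuationRing R]
  (K : Type) [Field K] [CharZero K] [Algebra R K] [IsFractionRing R K]
  {F' : Type} [Field F'] [Algebra K F'] [Algebra R F'] [IsScalarTower R K F']

/-- **the two components downstairs are distinct**, with a witness in the chart. -/
theorem hsep_of_comax (ϖ : R) (hϖ : Irreducible ϖ) {c' : F'} (hc' : Transcendental K c')
    (V₁' V₂' : ValuationSubring F')
    (hO' : ∀ x : F', GInt R ϖ c' x ↔ x ∈ V₁' ∧ x ∈ V₂')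
    (hcomax : ∃ e : F', V₁'.valuation e < 1 ∧ V₂'.valuation (1 - e) < 1) :
    ∃ y : Chart R c', ¬ (V₁'.valuation (y : F') < 1 ↔ V₂'.valuation (y : F') < 1) := by
  classical
  obtain ⟨e, he1, he2⟩ := hcomax
  have he2' : V₂'.valuation e = 1 := by
    have h1 : V₂'.valuation (1 - e) < V₂'.valuation (1 : F') := by
      rw [map_one]; exact he2
    have h2 := Valuation.map_sub_eq_of_lt_left (v := V₂'.valuation) (x := (1 : F'))
      (y := 1 - e) h1
    rw [map_one] at h2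
    have e' : (1 : F') - (1 - e) = e := by ring
    rw [e'] at h2
    exact h2
  have hg : GInt R ϖ c' e := by
    rw [hO']
    exact ⟨(V₁'.valuation_le_one_iff e).1 he1.le, (V₂'.valuation_le_one_iff e).1 he2'.le⟩
  obtain ⟨s, hs, hse⟩ := hg
  let 𝒱' : Finset (ValuationSubring F') := {V₁', V₂'}
  have h𝒱' : ∀ V, V ∈ 𝒱' ↔ V = V₁' ∨ V = V₂' := by
    intro V
    rw [Finset.mem_insert, Finset.mem_singleton]
  have hOf' : ∀ x : F', GInt R ϖ c' x ↔ ∀ V ∈ 𝒱', x ∈ V := by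
    intro x
    rw [hO' x]
    constructor
    · rintro ⟨h1, h2⟩ V hV
      rcases (h𝒱' V).1 hV with h | h
      · rw [h]; exact h1
      · rw [h]; exact h2
    · intro h
      exact ⟨h V₁' ((h𝒱' V₁').2 (Or.inl rfl)), h V₂' ((h𝒱' V₂').2 (Or.inr rfl))⟩
  have hs1 : V₁'.valuation s = 1 :=
    gaussUnit_val R K hϖ hc' 𝒱' hOf' ((h𝒱' V₁').2 (Or.inl rfl)) hs
  have hs2 : V₂'.valuation s = 1 :=
    gaussUnit_val R K hϖ hc' 𝒱' hOf' ((h𝒱' V₂').2 (Or.inr rfl)) hs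
  refine ⟨⟨s * e, hse⟩, ?_⟩
  intro h
  have h1 : V₁'.valuation (s * e) < 1 := by
    rw [map_mul, hs1, one_mul]; exact he1
  have h2 : V₂'.valuation (s * e) < 1 := h.1 h1
  rw [map_mul, hs2, he2', one_mul] at h2
  exact lt_irrefl _ h2

end sep

section alpha

variable (R : Type) [CommRing R] [IsDomain R] [IsDiscreteValuationRing R]
  (K : Type) [Field K] [CharZero K] [Algebra R K] [IsFractionRing R K]
  {F : Type} [Field F] [Algebra K F] [Algebra R F] [IsScalarTower R K F]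
  {F' : Type} [Field F'] [Algebra K F'] [Algebra R F'] [IsScalarTower R K F']

variable {ϖ : R} {t : F} {q n : ℕ} {φα φβ : F' →+* F} {Nα Nβ : F →* F'}
  {V₁ V₂ V₃ : ValuationSubring F} {V₁' V₂' : ValuationSubring F'} {b₃ : F}

/-- **the hypothesis `hR2`** at the closed point `𝔫` of the chart `c = φα c'`, final generic
form: the two generators downstairs are only needed at the image point. -/
theorem hR2_of_triple_alpha'
    (hT : H4S36.Triple R K F F' ϖ t q n φα φβ Nα Nβ V₁ V₂ V₃ V₁' V₂' b₃)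
    (hϖ : Irreducible ϖ) {c : F} (hc : Transcendental K c) [hfin : FiniteDimensional K⟮c⟯ F]
    (hct : ∀ x : F, GInt R ϖ c x ↔ GInt R ϖ t x)
    (𝒱 : Finset (ValuationSubring F)) (h𝒱 : ∀ V, V ∈ 𝒱 ↔ V = V₁ ∨ V = V₂ ∨ V = V₃)
    (𝔫 : Ideal (Chart R c)) (h𝔫 : IsClosedPt R ϖ c 𝔫)
    (hD : H10G3.Through R c 𝔫 V₁ → H10G3.Through R c 𝔫 V₃ → H10G3.Through R c 𝔫 V₂)
    (hCU1 : H10G3.Through R c 𝔫 V₁ → ∃ u ∈ 𝔫, ∀ y ∈ 𝔫, ∃ s d : Chart R c, s ∉ 𝔫 ∧
      V₁.valuation ((s : F) * y - d * u) < 1)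
    (hCU2 : H10G3.Through R c 𝔫 V₂ → ∃ u ∈ 𝔫, ∀ y ∈ 𝔫, ∃ s d : Chart R c, s ∉ 𝔫 ∧
      V₂.valuation ((s : F) * y - d * u) < 1)
    {c' : F'} (hc' : Transcendental K c') [hfin' : FiniteDimensional K⟮c'⟯ F']
    (hcc : φα c' = c)
    (hO' : ∀ x : F', GInt R ϖ c' x ↔ x ∈ V₁' ∧ x ∈ V₂')
    (hcomax : ∃ e : F', V₁'.valuation e < 1 ∧ V₂'.valuation (1 - e) < 1)
    (hTG' : ∀ 𝔫' : Ideal (Chart R c'), IsClosedPt R ϖ c' 𝔫' →
      (∀ y : Chart R c', V₂'.valuation (y : F') < 1 → y ∈ 𝔫') →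
      (∀ y : Chart R c', y ∈ 𝔫' ↔ ∃ z ∈ 𝔫, (z : F) = φα (y : F')) →
      ∃ g x : Chart R c', g ∈ 𝔫' ∧ x ∈ 𝔫' ∧
        ∀ y ∈ 𝔫', ∃ s a b : Chart R c', s ∉ 𝔫' ∧ (s : F') * y = a * (g : F') + b * x)
    (h12 : H10G3.Through R c 𝔫 V₁ ∨ H10G3.Through R c 𝔫 V₂) :
    H2L1.TwoGenAt R c 𝔫 := by
  classical
  subst hcc
  haveI := hfin
  haveI := hfin'
  letI : Algebra F' F := φα.toAlgebra
  have hφR : ∀ r : R, φα (algebraMap R F' r) = algebraMap R F r := by
    intro r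
    rw [IsScalarTower.algebraMap_apply R K F', hT.hφα, ← IsScalarTower.algebraMap_apply R K F]
  haveI : IsScalarTower R F' F := IsScalarTower.of_algebraMap_eq (fun r => (hφR r).symm)
  haveI : IsIntegrallyClosed (Chart R c') := H22BR.chart_intClosed R K c'
  let φ : Chart R c' →+* Chart R (φα c') := H6CM.chartMap R (F := F) c'
  have hφcoe : ∀ y : Chart R c', ((φ y : Chart R (φα c')) : F) = φα (y : F') := fun _ => rfl
  have hint : φ.IsIntegral := H6CM.chartMap_isIntegral R (F := F) c'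
  let 𝒱' : Finset (ValuationSubring F') := {V₁', V₂'}
  have h𝒱' : ∀ V, V ∈ 𝒱' ↔ V = V₁' ∨ V = V₂' := by
    intro V
    rw [Finset.mem_insert, Finset.mem_singleton]
  have hOf' : ∀ x : F', GInt R ϖ c' x ↔ ∀ V ∈ 𝒱', x ∈ V := by
    intro x
    rw [hO' x]
    constructor
    · rintro ⟨h1, h2⟩ V hV
      rcases (h𝒱' V).1 hV with h | h
      · rw [h]; exact h1
      · rw [h]; exact h2
    · intro h
      exact ⟨h V₁' ((h𝒱' V₁').2 (Or.inl rfl)), h V₂' ((h𝒱' V₂').2 (Or.inr rfl))⟩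
  have hV₂' : V₂' ∈ 𝒱' := (h𝒱' V₂').2 (Or.inr rfl)
  have hO : ∀ x : F, GInt R ϖ (φα c') x ↔ ∀ V ∈ 𝒱, x ∈ V :=
    fun x => (hct x).trans (hO_of_triple R K hT 𝒱 h𝒱 x)
  have hchart : ∀ V ∈ 𝒱, ∀ y : Chart R (φα c'), (y : F) ∈ V :=
    fun V hV y => chart_mem_of_hO R K hϖ hc 𝒱 hO hV y
  have hV₂ : V₂ ∈ 𝒱 := (h𝒱 V₂).2 (Or.inr (Or.inl rfl))
  have hsep' := hsep_of_comax R K ϖ hϖ hc' V₁' V₂' hO' hcomax
  refine hR2_of_triple R K hT hϖ hc hct 𝒱 h𝒱 𝔫 h𝔫 hD hCU1 hCU2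
    (algebraMap (Chart R c') F') (fun a b hab => Subtype.ext hab) φ hint hφcoe
    (algebraMap (Algebra.adjoin R {c'}) (Chart R c') (algebraMap R (Algebra.adjoin R {c'}) ϖ))
    rfl hsep' ?_ h12
  intro h2
  haveI h𝔫max : 𝔫.IsMaximal := h𝔫.1
  have h𝔫'max : (𝔫.comap φ).IsMaximal :=
    Ideal.isMaximal_comap_of_isIntegral_of_isMaximal' φ hint 𝔫
  have h𝔫' : IsClosedPt R ϖ c' (𝔫.comap φ) := by
    refine ⟨h𝔫'max, fun y hy => ?_⟩
    rw [Ideal.mem_comap]
    apply h𝔫.2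
    rw [hφcoe, hy, hφR]
  have hle2 : ∀ y : Chart R (φα c'), V₂.valuation (y : F) < 1 → y ∈ 𝔫 :=
    (H2L1.through_iff R 𝔫 V₂ (hchart V₂ hV₂)).2 h2
  have hle' : ∀ y : Chart R c', V₂'.valuation (y : F') < 1 → y ∈ 𝔫.comap φ := by
    intro y hy
    rw [Ideal.mem_comap]
    apply hle2
    rw [hφcoe]
    exact (hT.hα₂ _).1 hy
  have himg : ∀ y : Chart R c', y ∈ 𝔫.comap φ ↔ ∃ z ∈ 𝔫, (z : F) = φα (y : F') := by
    intro y
    rw [Ideal.mem_comap]
    constructor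
    · intro h
      exact ⟨φ y, h, hφcoe y⟩
    · rintro ⟨z, hz, e⟩
      have : φ y = z := Subtype.ext (by rw [hφcoe, e])
      rw [this]
      exact hz
  obtain ⟨g, x, hg, hx, hgen⟩ := hTG' (𝔫.comap φ) h𝔫' hle' himg
  obtain ⟨x'', hx0, hxV, hpr⟩ := hprin_of_twoGen R K ϖ hϖ hc' 𝒱' hOf' V₂' hV₂' hT.hϖ₂'
    (𝔫.comap φ) h𝔫'max hle' g x hg hx hgen
  exact ⟨x'', hx0, hxV, fun y hy => hpr y hy⟩

end alpha

end H26R2

end
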