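import Mathlib
import Fermat.Agent.S36.ResFieldTG_helper9
import Fermat.Agent.S36.TripleTG_helper8
import Fermat.Agent.S36.LocWire_helper10
import Fermat.Agent.S36.R2Val_helper26
import Fermat.Agent.S34.WTransport_helper26

/-!
# Item 86 (S36), (R2-INST): the concrete hypotheses (H3), (H4), (H6) of
`H26R2.hR2_of_triple` (helper8, second of helper26)

Level `M q q` over `K₁` (finite, `q` a uniformizer of `R = descVal A K₁`), charts `c = t, t⁻¹`.

* `H8R2.cu3_C1` **(H3)**: uniformizer of `C₁` at a closed point through `cV1`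
  (`H9CU.unif1_sq` + TripleGauss coordinates);
* `H8R2.cu3_C2` **(H4)**: the same for `cV2`, by the `W_{q²}`-transport `H26WT.unif2_of_unif1`,
  with `(H_W2) : H26WT.HWAt R W_{q²} t` as a hypothesis (dich points);
* `H8R2.hsep'` **(H6)**: an element of the chart of level `M q` separating `cV1'` and `cV2'`.
-/

set_option autoImplicit false
set_option linter.unusedSectionVars false
set_option linter.style.longLine false
set_option linter.unusedVariables false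
set_option linter.style.haveILetI false
set_option synthInstance.maxHeartbeats 400000

open Polynomial IntermediateField ModularCurve H7S18 H4S34 H26DI H28GV H8PB H4S36 H10FC

noncomputable section

namespace H8R2

section generic

variable (R : Type) [CommRing R] [IsDomain R] [IsDiscreteValuationRing R]
  {E : Type} [Field E] [Algebra R E]

/-- a Gauss unit of the chart `c` is a unit of every valuation ring containing `O_E` -/
theorem gaussUnit_val_one {ϖ : R} (hϖ : Irreducible ϖ) {c : E} (hc : Transcendental R c)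
    (V : ValuationSubring E) (hV : ∀ x : E, GInt R ϖ c x → x ∈ V)
    {s : E} (hs : IsGaussUnit R ϖ c s) : V.valuation s = 1 := by
  have hs0 : s ≠ 0 := by
    intro h0
    exact hs.2 0 (Subalgebra.zero_mem _) (by rw [h0, mul_zero])
  have h1 : s ∈ V := hV s (H19S18.h19_gint_of_isInt R hc hϖ (H19S18.h19_mem_T_isInt R c hs.1))
  have h2 : s⁻¹ ∈ V := by
    refine hV s⁻¹ ⟨s, hs, ?_⟩
    rw [mul_inv_cancel₀ hs0]
    have := H19S18.h19_isInt_algebraMap R c 1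
    rwa [map_one] at this
  have h1' : V.valuation s ≤ 1 := (V.valuation_le_one_iff _).2 h1
  have h2' : V.valuation s⁻¹ ≤ 1 := (V.valuation_le_one_iff _).2 h2
  rw [map_inv₀] at h2'
  have hv0 : V.valuation s ≠ 0 := (V.valuation.ne_zero_iff).2 hs0
  exact le_antisymm h1' ((inv_le_one₀ (zero_lt_iff.2 hv0)).1 h2')

/-- **separation, directed form**: if `e ∈ O_E` is in the maximal ideal of `V₁` and a unit of
`V₂`, then some element integral over `R[c]` is in `𝔪(V₁)` and not in `𝔪(V₂)`. -/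
theorem sep_dir {ϖ : R} (hϖ : Irreducible ϖ) {c : E} (hc : Transcendental R c)
    (V₁ V₂ : ValuationSubring E) (hV₁ : ∀ x : E, GInt R ϖ c x → x ∈ V₁)
    (hV₂ : ∀ x : E, GInt R ϖ c x → x ∈ V₂)
    (e : E) (he : GInt R ϖ c e) (he1 : V₁.valuation e < 1) (he2 : V₂.valuation e = 1) :
    ∃ y : E, IsInt R c y ∧ V₁.valuation y < 1 ∧ ¬ V₂.valuation y < 1 := by
  obtain ⟨s, hs, hint⟩ := he
  refine ⟨s * e, hint, ?_, ?_⟩
  · rw [map_mul, gaussUnit_val_one R hϖ hc V₁ hV₁ hs, one_mul]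
    exact he1
  · rw [map_mul, gaussUnit_val_one R hϖ hc V₂ hV₂ hs, one_mul, he2]
    exact lt_irrefl _

/-- **separation in the chart**: if `e ∈ O_E` is in the maximal ideal of `V₁` and a unit of
`V₂`, then some element of the chart `M₀(c)` separates `V₁` and `V₂`. -/
theorem sep_chart {ϖ : R} (hϖ : Irreducible ϖ) {c : E} (hc : Transcendental R c)
    (V₁ V₂ : ValuationSubring E) (hV₁ : ∀ x : E, GInt R ϖ c x → x ∈ V₁)
    (hV₂ : ∀ x : E, GInt R ϖ c x → x ∈ V₂)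
    (e : E) (he : GInt R ϖ c e) (he1 : V₁.valuation e < 1) (he2 : V₂.valuation e = 1) :
    ∃ y : Chart R c, ¬ (V₁.valuation (y : E) < 1 ↔ V₂.valuation (y : E) < 1) := by
  obtain ⟨s, hs, hint⟩ := he
  refine ⟨⟨s * e, hint⟩, ?_⟩
  have h1 : V₁.valuation (s * e) < 1 := by
    rw [map_mul, gaussUnit_val_one R hϖ hc V₁ hV₁ hs, one_mul]
    exact he1
  have h2 : V₂.valuation (s * e) = 1 := by
    rw [map_mul, gaussUnit_val_one R hϖ hc V₂ hV₂ hs, one_mul]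
    exact he2
  intro h
  have h3 : V₂.valuation (s * e) < 1 := h.mp h1
  rw [h2] at h3
  exact lt_irrefl _ h3

end generic

section concrete

open H8TG

variable (M : ℕ) [NeZero M] (q : ℕ) [NeZero q] (hq : q.Prime) (hqM : ¬ q ∣ M)
  (hT : TameLevel q M)
  (A : ValuationSubring (AlgebraicClosure ℚ)) (hA : A.LiesOverPrime q)
  (K₁ : IntermediateField ℚ (AlgebraicClosure ℚ)) (hfin : FiniteDimensional ℚ K₁)
  (hunr : Irreducible ((q : ℕ) : ↥(descVal A K₁)))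
  (K₃ : IntermediateField ℚ (AlgebraicClosure ℚ)) (hfin₃ : FiniteDimensional ℚ K₃)
  (h13 : K₁ ≤ K₃) (ζ : (↥K₃)ˣ) (hζ : IsPrimitiveRoot ζ q)
  (hζe : ∃ ζ' : K₁, IsPrimitiveRoot ζ' (branchIndex (baseKind q) M))

variable [IsDiscreteValuationRing ↥(descVal A K₁)] [IsDiscreteValuationRing ↥(descVal A K₃)]

section upper

variable [Algebra ↥(descVal A K₁) (FK K₁ (M * q * q))]
  [IsScalarTower ↥(descVal A K₁) K₁ (FK K₁ (M * q * q))]
  (t₀ : LaurentSeries ℚ) (ht₀ : IsBase (baseKind q) t₀)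
  (t : FK K₁ (M * q * q)) (ht : (t : LaurentSeries K₁) = coeffEmb K₁ t₀)

include hT ht₀ ht in
/-- the base function of level `M q q` is transcendental -/
theorem r2_transc : Transcendental K₁ t := by
  have hadm : baseKind q = 1 ∨ (baseKind q = 2 ∧ 2 ∣ M * q * q) ∨
      (baseKind q = 3 ∧ 3 ∣ M * q * q) := by
    rcases h8pg_baseKind_ok hT with h | ⟨h, h'⟩ | ⟨h, h'⟩
    · exact Or.inl h
    · exact Or.inr (Or.inl ⟨h, Dvd.dvd.mul_right h' q⟩)
    · exact Or.inr (Or.inr ⟨h, Dvd.dvd.mul_right h' q⟩)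
  obtain ⟨tL, htL, htrKL, -, -⟩ := H9C6e.fieldBasics (M * q * q) (baseKind q) hadm t₀ ht₀ K₁
  have etL : tL = t := Subtype.ext (htL.trans ht.symm)
  rw [etL] at htrKL
  exact htrKL

include hT ht₀ ht hunr in
/-- the elements of both charts are `GInt` -/
theorem r2_chart_gint (c : FK K₁ (M * q * q)) (hc : c = t ∨ c = t⁻¹)
    (y : Chart ↥(descVal A K₁) c) :
    GInt ↥(descVal A K₁) ((q : ℕ) : ↥(descVal A K₁)) t (y : FK K₁ (M * q * q)) := by
  have htr := r2_transc M q hT K₁ t₀ ht₀ t ht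
  have htrR : Transcendental ↥(descVal A K₁) t := H19S18.h19_transc ↥(descVal A K₁) K₁ htr
  have htr' : Transcendental K₁ t⁻¹ := H19S18.h19_transc_inv K₁ htr
  have htrR' : Transcendental ↥(descVal A K₁) t⁻¹ :=
    H19S18.h19_transc ↥(descVal A K₁) K₁ htr'
  rcases hc with rfl | rfl
  · exact H19S18.h19_gint_of_isInt ↥(descVal A K₁) htrR hunr y.2
  · exact H19S18.h19_gint_of_isInt_inv ↥(descVal A K₁) htrR htrR' hunr y.2

include hq hqM hT hA hfin hunr hfin₃ h13 hζ ht₀ ht in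
/-- the charts lie in `cV1` -/
theorem r2_chart_mem1 (c : FK K₁ (M * q * q)) (hc : c = t ∨ c = t⁻¹)
    (y : Chart ↥(descVal A K₁) c) : (y : FK K₁ (M * q * q)) ∈ cV1 K₁ (descVal A K₁) M q :=
  ((tg_hO M q hq hqM hT A hA K₁ hfin hunr K₃ hfin₃ h13 ζ hζ t₀ ht₀ t ht _).mp
    (r2_chart_gint M q hT A K₁ hunr t₀ ht₀ t ht c hc y)).1

include hq hqM hT hA hfin hunr hfin₃ h13 hζ ht₀ ht in
/-- the charts lie in `cV2` -/
theorem r2_chart_mem2 (c : FK K₁ (M * q * q)) (hc : c = t ∨ c = t⁻¹)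
    (y : Chart ↥(descVal A K₁) c) :
    (y : FK K₁ (M * q * q)) ∈ cV2 K₁ (descVal A K₁) M q hq hqM :=
  ((tg_hO M q hq hqM hT A hA K₁ hfin hunr K₃ hfin₃ h13 ζ hζ t₀ ht₀ t ht _).mp
    (r2_chart_gint M q hT A K₁ hunr t₀ ht₀ t ht c hc y)).2.1

set_option maxHeartbeats 1000000 in
include hq hqM hT hA hfin hunr hfin₃ h13 hζ hζe ht₀ ht in
/-- uniformizer of the first component at a maximal ideal containing it (`UnifAt` form) -/
theorem r2_unif1 (c : FK K₁ (M * q * q)) (hc : c = t ∨ c = t⁻¹)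
    (P₁ : Ideal (Chart ↥(descVal A K₁) c))
    (hP₁ : ∀ y : Chart ↥(descVal A K₁) c,
      y ∈ P₁ ↔ (cV1 K₁ (descVal A K₁) M q).valuation (y : FK K₁ (M * q * q)) < 1)
    (𝔫 : Ideal (Chart ↥(descVal A K₁) c)) (h𝔫 : 𝔫.IsMaximal) (hle : P₁ ≤ 𝔫) :
    ∃ x, UnifAt P₁ 𝔫 x := by
  refine H9CU.unif1_sq M q hq hqM hT A hA K₁ hfin hζe (M * q * q) ⟨q * q, by ring⟩
    ((q : ℕ) : ↥(descVal A K₁)) hunr t₀ ht₀ t ht c hc
    (fun x hx => H9CU.coord_of_TG M q hq hqM hT A hA K₁ hfin hunr K₃ hfin₃ h13 ζ hζ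
      t₀ ht₀ t ht x hx) P₁ (fun y => ?_) 𝔫 h𝔫 hle
  rw [hP₁]
  exact gaussVal_lt_one (descVal A K₁) (M * q * q) _

set_option maxHeartbeats 1000000 in
include hq hqM hT hA hfin hunr hfin₃ h13 hζ hζe ht₀ ht in
/-- **(H3)**: uniformizer of `C₁` at a closed point through `cV1`. -/
theorem cu3_C1 (c : FK K₁ (M * q * q)) (hc : c = t ∨ c = t⁻¹)
    (𝔫 : Ideal (Chart ↥(descVal A K₁) c)) (h𝔫 : 𝔫.IsMaximal)
    (hth : H10G3.Through ↥(descVal A K₁) c 𝔫 (cV1 K₁ (descVal A K₁) M q)) :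
    ∃ u ∈ 𝔫, ∀ y ∈ 𝔫, ∃ s d : Chart ↥(descVal A K₁) c, s ∉ 𝔫 ∧
      (cV1 K₁ (descVal A K₁) M q).valuation
        ((s : FK K₁ (M * q * q)) * y - d * u) < 1 := by
  have hmem := r2_chart_mem1 M q hq hqM hT A hA K₁ hfin hunr K₃ hfin₃ h13 ζ hζ t₀ ht₀ t ht c hc
  have hle : H26R2.compIdeal ↥(descVal A K₁) (cV1 K₁ (descVal A K₁) M q) hmem ≤ 𝔫 := by
    intro y hy
    by_contra hn
    have h1 := hth y hn
    have h2 : (cV1 K₁ (descVal A K₁) M q).valuation (y : FK K₁ (M * q * q)) < 1 := hy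
    rw [h1] at h2
    exact lt_irrefl _ h2
  obtain ⟨x, hx1, -, hx3⟩ := r2_unif1 M q hq hqM hT A hA K₁ hfin hunr K₃ hfin₃ h13 ζ hζ hζe
    t₀ ht₀ t ht c hc _ (fun y => H26R2.mem_compIdeal ↥(descVal A K₁) _ hmem y) 𝔫 h𝔫 hle
  refine ⟨x, hx1, fun y hy => ?_⟩
  obtain ⟨u, hu, d, hd⟩ := hx3 y hy
  refine ⟨u, d, hu, ?_⟩
  have h := (H26R2.mem_compIdeal ↥(descVal A K₁) _ hmem _).mp hd
  push_cast at h
  exact h

set_option maxHeartbeats 1000000 in
include hq hqM hT hA hfin hunr hfin₃ h13 hζ hζe ht₀ ht in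
/-- **(H4)**: uniformizer of `C₂` at a closed dich point through `cV2`, from `(H_W2)`. -/
theorem cu3_C2
    (hHW : H26WT.HWAt ↥(descVal A K₁) (H12WQ.wq2KHom K₁ M q hq hqM) t)
    (c : FK K₁ (M * q * q))
    (𝔫 : Ideal (Chart ↥(descVal A K₁) c))
    (h𝔫 : IsClosedPt ↥(descVal A K₁) ((q : ℕ) : ↥(descVal A K₁)) c 𝔫)
    (hd : IsDichPt t c 𝔫)
    (hth : H10G3.Through ↥(descVal A K₁) c 𝔫 (cV2 K₁ (descVal A K₁) M q hq hqM)) :
    ∃ u ∈ 𝔫, ∀ y ∈ 𝔫, ∃ s d : Chart ↥(descVal A K₁) c, s ∉ 𝔫 ∧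
      (cV2 K₁ (descVal A K₁) M q hq hqM).valuation
        ((s : FK K₁ (M * q * q)) * y - d * u) < 1 := by
  have hc : c = t ∨ c = t⁻¹ := hd.elim Or.inl (fun h => Or.inr h.1)
  have htr := r2_transc M q hT K₁ t₀ ht₀ t ht
  have ht0 : t ≠ 0 := H21S18.ne_zero_of_transcendental htr
  have hmem2 := r2_chart_mem2 M q hq hqM hT A hA K₁ hfin hunr K₃ hfin₃ h13 ζ hζ t₀ ht₀ t ht c hc
  have hle : H26R2.compIdeal ↥(descVal A K₁) (cV2 K₁ (descVal A K₁) M q hq hqM) hmem2 ≤ 𝔫 := by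
    intro y hy
    by_contra hn
    have h1 := hth y hn
    have h2 : (cV2 K₁ (descVal A K₁) M q hq hqM).valuation (y : FK K₁ (M * q * q)) < 1 := hy
    rw [h1] at h2
    exact lt_irrefl _ h2
  have key := H26WT.unif2_of_unif1 (R := ↥(descVal A K₁)) (E := FK K₁ (M * q * q))
    (H12WQ.wq2KHom K₁ M q hq hqM) (H12WQ.wq2KHom_invol K₁ M q hq hqM)
    (tg_W_algebraMap K₁ (descVal A K₁) M q hq hqM) ((q : ℕ) : ↥(descVal A K₁)) hunr t ht0 hHW
    (fun x => x ∈ cV1 K₁ (descVal A K₁) M q)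
    (fun x => (cV1 K₁ (descVal A K₁) M q).valuation x < 1)
    ?_ ?_ ?_ ?_ ?_
    (H26R2.compIdeal ↥(descVal A K₁) (cV2 K₁ (descVal A K₁) M q hq hqM) hmem2)
    ?_ 𝔫 h𝔫 hd hle
  · obtain ⟨x, hx1, -, hx3⟩ := key
    refine ⟨x, hx1, fun y hy => ?_⟩
    obtain ⟨u, hu, d, hdd⟩ := hx3 y hy
    refine ⟨u, d, hu, ?_⟩
    have h := (H26R2.mem_compIdeal ↥(descVal A K₁) _ hmem2 _).mp hdd
    push_cast at h
    exact h
  · intro x y hx hy
    show (cV1 K₁ (descVal A K₁) M q).valuation (x * y) < 1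
    rw [map_mul]
    have hy1 : (cV1 K₁ (descVal A K₁) M q).valuation y ≤ 1 :=
      ((cV1 K₁ (descVal A K₁) M q).valuation_le_one_iff y).mpr hy
    calc (cV1 K₁ (descVal A K₁) M q).valuation x * (cV1 K₁ (descVal A K₁) M q).valuation y
        ≤ (cV1 K₁ (descVal A K₁) M q).valuation x * 1 := mul_le_mul' le_rfl hy1
      _ = (cV1 K₁ (descVal A K₁) M q).valuation x := mul_one _
      _ < 1 := hx
  · intro x y hx hy hxy
    have hxy' : (cV1 K₁ (descVal A K₁) M q).valuation (x * y) < 1 := hxy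
    rw [map_mul] at hxy'
    by_contra hcon
    rw [not_or] at hcon
    have hx1 : (cV1 K₁ (descVal A K₁) M q).valuation x = 1 :=
      le_antisymm (((cV1 K₁ (descVal A K₁) M q).valuation_le_one_iff x).mpr hx)
        (not_lt.mp hcon.1)
    have hy1 : (cV1 K₁ (descVal A K₁) M q).valuation y = 1 :=
      le_antisymm (((cV1 K₁ (descVal A K₁) M q).valuation_le_one_iff y).mpr hy)
        (not_lt.mp hcon.2)
    rw [hx1, hy1, one_mul] at hxy'
    exact lt_irrefl _ hxy'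
  · intro c' hc' y
    exact ⟨r2_chart_mem1 M q hq hqM hT A hA K₁ hfin hunr K₃ hfin₃ h13 ζ hζ t₀ ht₀ t ht c' hc' y,
      r2_chart_mem2 M q hq hqM hT A hA K₁ hfin hunr K₃ hfin₃ h13 ζ hζ t₀ ht₀ t ht c' hc' y⟩
  · intro c' hc'
    exact ⟨H26R2.compIdeal ↥(descVal A K₁) (cV1 K₁ (descVal A K₁) M q)
      (r2_chart_mem1 M q hq hqM hT A hA K₁ hfin hunr K₃ hfin₃ h13 ζ hζ t₀ ht₀ t ht c' hc'),
      fun y => H26R2.mem_compIdeal ↥(descVal A K₁) _ _ y⟩
  · intro c' P₁ hP₁ 𝔫' h𝔫' hd' hle'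
    have hc' : c' = t ∨ c' = t⁻¹ := hd'.elim Or.inl (fun h => Or.inr h.1)
    exact r2_unif1 M q hq hqM hT A hA K₁ hfin hunr K₃ hfin₃ h13 ζ hζ hζe t₀ ht₀ t ht c' hc'
      P₁ hP₁ 𝔫' h𝔫'.1 hle'
  · intro y
    rw [H26R2.mem_compIdeal]
    unfold cV2
    rw [comap_val_lt_one]
    rfl

end upper

section lower

variable [Algebra ↥(descVal A K₁) (FK K₁ (M * q))]
  [IsScalarTower ↥(descVal A K₁) K₁ (FK K₁ (M * q))]
  (t₀ : LaurentSeries ℚ) (ht₀ : IsBase (baseKind q) t₀)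
  (t' : FK K₁ (M * q)) (ht' : (t' : LaurentSeries K₁) = coeffEmb K₁ t₀)

set_option maxHeartbeats 1000000 in
include hT hA hfin hunr ht₀ ht' in
/-- **(H6), directed form** (both charts of level `M q`): an element integral over `R[c']`
which lies in `𝔪(cV1')` and not in `𝔪(cV2')`. -/
theorem hsep_dir (c' : FK K₁ (M * q)) (hc' : c' = t' ∨ c' = t'⁻¹) :
    ∃ e : FK K₁ (M * q), IsInt ↥(descVal A K₁) c' e ∧
      (cV1' K₁ (descVal A K₁) M q).valuation e < 1 ∧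
      ¬ (cV2' K₁ (descVal A K₁) M q hq hqM).valuation e < 1 := by
  haveI hqF : Fact q.Prime := ⟨hq⟩
  obtain ⟨hperf, hcharp⟩ := H1S18.c7Perfect q A hA K₁
  haveI := hcharp
  obtain ⟨tN, htN, htrK, -, -⟩ :=
    H9C6e.fieldBasics (M * q) (baseKind q) (h8pg_baseKind_ok hT) t₀ ht₀ K₁
  have etN : tN = t' := Subtype.ext (htN.trans ht'.symm)
  rw [etN] at htrK
  have htrR : Transcendental ↥(descVal A K₁) t' := H19S18.h19_transc ↥(descVal A K₁) K₁ htrK
  have htr' : Transcendental K₁ t'⁻¹ := H19S18.h19_transc_inv K₁ htrK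
  have htrR' : Transcendental ↥(descVal A K₁) t'⁻¹ :=
    H19S18.h19_transc ↥(descVal A K₁) K₁ htr'
  have hPG : ∀ x : FK K₁ (M * q),
      GInt ↥(descVal A K₁) ((q : ℕ) : ↥(descVal A K₁)) t' x ↔
        x ∈ cV1' K₁ (descVal A K₁) M q ∧ x ∈ cV2' K₁ (descVal A K₁) M q hq hqM :=
    fun x => (h8pg_pairGauss M q hq hqM hT A hA K₁ hfin _ hunr t₀ ht₀ t' ht' x).1
  have hGc : ∀ x : FK K₁ (M * q),
      GInt ↥(descVal A K₁) ((q : ℕ) : ↥(descVal A K₁)) c' x ↔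
        GInt ↥(descVal A K₁) ((q : ℕ) : ↥(descVal A K₁)) t' x := by
    intro x
    rcases hc' with rfl | rfl
    · exact Iff.rfl
    · exact H19S18.h19_gint_inv_iff ↥(descVal A K₁) htrR htrR' hunr x
  have hcR : Transcendental ↥(descVal A K₁) c' := by
    rcases hc' with rfl | rfl
    · exact htrR
    · exact htrR'
  obtain ⟨e, he1, he2, he3, he4⟩ := gauss_comax M q hq hqM K₁ (descVal A K₁)
  have he5 : (cV2' K₁ (descVal A K₁) M q hq hqM).valuation e = 1 := by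
    have h := Valuation.map_one_sub_of_lt (v := (gaussVal2 M q hq hqM K₁ (descVal A K₁)).valuation)
      (x := 1 - e) he4
    rw [sub_sub_cancel] at h
    exact h
  exact sep_dir ↥(descVal A K₁) hunr hcR (cV1' K₁ (descVal A K₁) M q)
    (cV2' K₁ (descVal A K₁) M q hq hqM)
    (fun x hx => ((hPG x).mp ((hGc x).mp hx)).1)
    (fun x hx => ((hPG x).mp ((hGc x).mp hx)).2)
    e ((hGc e).mpr ((hPG e).mpr ⟨he1, he2⟩)) he3 he5

include hT hA hfin hunr ht₀ ht' in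
/-- **(H6)**: an element of the chart `M₀(c')` of level `M q` separating `cV1'` and `cV2'`. -/
theorem hsep' (c' : FK K₁ (M * q)) (hc' : c' = t' ∨ c' = t'⁻¹) :
    ∃ y : Chart ↥(descVal A K₁) c',
      ¬ ((cV1' K₁ (descVal A K₁) M q).valuation (y : FK K₁ (M * q)) < 1 ↔
        (cV2' K₁ (descVal A K₁) M q hq hqM).valuation (y : FK K₁ (M * q)) < 1) := by
  obtain ⟨e, he, h1, h2⟩ := hsep_dir M q hq hqM hT A hA K₁ hfin hunr t₀ ht₀ t' ht' c' hc'
  exact ⟨⟨e, he⟩, fun h => h2 (h.mp h1)⟩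

end lower

end concrete

end H8R2

end
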