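/-
helper26, item 86 (S36, Carayol), LOC, leaf (R2-INST), CONCRETE: the field `hR2` of
`H19LA.PointLeaves` at the dich points of the charts `t`, `t⁻¹` of level `M q q`.

* `H26R2.hR2_of_triple_point` : generic form (in `H4S36.Triple`) with the hypotheses in the
  shapes delivered by the leaf owners: `hD` in the shape of `H19LA.PointLeaves.hD` (helper18),
  `hsep'` (helper8), two generators downstairs at the image point only;
* `H26R2.r2_point` : **the concrete leaf**: level `M q q` over `K₁` (`q` a uniformizer of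
  `R = descVal A K₁`), `V₁ = cV1`, `V₂ = cV2`, `V₁' = cV1'`, `V₂' = cV2'`, `φα = heckeAlphaBar`,
  `V₃`, `b₃`, `φβ`, `Nα`, `Nβ` ANY data completing them to a `H4S36.Triple`; `𝔫` a closed
  DICH point of the chart `c`.  Inputs: helper1's leaf `H1R1.R1NodeStatement` (as a
  hypothesis), `M` rigid, a Frobenius `γ` on `K₁`, `ζ_{e₀} ∈ K₁`, and (DICH3) at `𝔫`.
  Uses: `H8R2.cu3_C1`, `H8R2.cu3_C2`, `H8R2.hsep'` (helper8), `H24HW.h24hw_HW2` (helper24),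
  `H16G0.g0Nq2` (helper16), `H8PB.h8pg_pairGauss` (helper8), `H6CM.chartMap` (helper6),
  `H5R1.principal_of_two_gen` (helper5).
-/
import Mathlib
import Fermat.Agent.S36.R2Beta_helper26
import Fermat.Agent.S36.R2CU_helper8
import Fermat.Agent.S36.HW2_helper24
import Fermat.Agent.S36.R1Defs_helper1
import Fermat.Agent.S36.G0Nq_helper16

set_option autoImplicit false
set_option linter.style.haveILetI false
set_option linter.style.longLine false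
set_option linter.unusedSectionVars false
set_option linter.unusedVariables false
set_option synthInstance.maxHeartbeats 400000
set_option maxHeartbeats 1000000

noncomputable section

namespace H26R2

open Polynomial IntermediateField ModularCurve H7S18 H4S34 AlgebraicCurve H26DI H4S36 H10FC

section abs

variable {R : Type} [CommRing R] {E : Type} [Field E] [Algebra R E]

/-- two generators `(ϖ, x₀)` in coercion form (from `H16G0.RegData`). -/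
theorem twoGen_coe_of_reg (ϖ : R) {c : E} (𝔫 : Ideal (Chart R c)) (h𝔫 : IsClosedPt R ϖ c 𝔫)
    (x₀ : Chart R c) (hx₀ : x₀ ∈ 𝔫)
    (hgen : ∀ y ∈ 𝔫, ∃ s a b : Chart R c, s ∉ 𝔫 ∧
      (s : E) * y = a * algebraMap R E ϖ + b * x₀) :
    ∃ g x : Chart R c, g ∈ 𝔫 ∧ x ∈ 𝔫 ∧
      ∀ y ∈ 𝔫, ∃ s a b : Chart R c, s ∉ 𝔫 ∧ (s : E) * y = a * (g : E) + b * x := by
  let ϖM : Chart R c :=
    algebraMap (Algebra.adjoin R {c}) (Chart R c) (algebraMap R (Algebra.adjoin R {c}) ϖ)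
  have hϖMcoe : (ϖM : E) = algebraMap R E ϖ := rfl
  refine ⟨ϖM, x₀, h𝔫.2 _ hϖMcoe, hx₀, fun y hy => ?_⟩
  obtain ⟨s, a, b, hs, e⟩ := hgen y hy
  exact ⟨s, a, b, hs, by rw [hϖMcoe]; exact e⟩

/-- two generators in coercion form (from `H1R1.TwoGenAt`). -/
theorem twoGen_coe_of_chart {c : E} (𝔫 : Ideal (Chart R c)) (h : H1R1.TwoGenAt 𝔫) :
    ∃ g x : Chart R c, g ∈ 𝔫 ∧ x ∈ 𝔫 ∧
      ∀ y ∈ 𝔫, ∃ s a b : Chart R c, s ∉ 𝔫 ∧ (s : E) * y = a * (g : E) + b * x := by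
  obtain ⟨g, x, hg, hx, hgen⟩ := h
  refine ⟨g, x, hg, hx, fun y hy => ?_⟩
  obtain ⟨s, a, b, hs, e⟩ := hgen y hy
  refine ⟨s, a, b, hs, ?_⟩
  have := congrArg (fun z : Chart R c => (z : E)) e
  simpa using this

/-- the chart function belongs to `𝔫` (element form). -/
theorem exists_chart_gen {c : E} (𝔫 : Ideal (Chart R c))
    (hinf : ∀ y : Chart R c, (y : E) = c → y ∈ 𝔫) : ∃ z ∈ 𝔫, (z : E) = c :=
  ⟨H26WT.chartGen R c, hinf _ rfl, rfl⟩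

end abs

section point

variable (R : Type) [CommRing R] [IsDomain R] [IsDiscreteValuationRing R]
  (K : Type) [Field K] [CharZero K] [Algebra R K] [IsFractionRing R K]
  {F : Type} [Field F] [Algebra K F] [Algebra R F] [IsScalarTower R K F]
  {F' : Type} [Field F'] [Algebra K F'] [Algebra R F'] [IsScalarTower R K F']

variable {ϖ : R} {t : F} {q n : ℕ} {φα φβ : F' →+* F} {Nα Nβ : F →* F'}
  {V₁ V₂ V₃ : ValuationSubring F} {V₁' V₂' : ValuationSubring F'} {b₃ : F}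

/-- **the hypothesis `hR2`** at the closed point `𝔫` of the chart `c = φα c'`, with the
hypotheses in the shapes delivered by the leaf owners. -/
theorem hR2_of_triple_point
    (hT : H4S36.Triple R K F F' ϖ t q n φα φβ Nα Nβ V₁ V₂ V₃ V₁' V₂' b₃)
    (hϖ : Irreducible ϖ) {c : F} (hc : Transcendental K c) [hfin : FiniteDimensional K⟮c⟯ F]
    (hct : ∀ x : F, GInt R ϖ c x ↔ GInt R ϖ t x)
    (𝔫 : Ideal (Chart R c)) (h𝔫 : IsClosedPt R ϖ c 𝔫)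
    (hD : (H10G3.Through R c 𝔫 V₁ ∧ H10G3.Through R c 𝔫 V₂ ∧ H10G3.Through R c 𝔫 V₃) ∨
      ∀ V : ValuationSubring F, V = V₁ ∨ V = V₂ ∨ V = V₃ →
        ∀ W : ValuationSubring F, W = V₁ ∨ W = V₂ ∨ W = V₃ →
          H10G3.Through R c 𝔫 V → H10G3.Through R c 𝔫 W → V = W)
    (hCU1 : H10G3.Through R c 𝔫 V₁ → ∃ u ∈ 𝔫, ∀ y ∈ 𝔫, ∃ s d : Chart R c, s ∉ 𝔫 ∧
      V₁.valuation ((s : F) * y - d * u) < 1)
    (hCU2 : H10G3.Through R c 𝔫 V₂ → ∃ u ∈ 𝔫, ∀ y ∈ 𝔫, ∃ s d : Chart R c, s ∉ 𝔫 ∧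
      V₂.valuation ((s : F) * y - d * u) < 1)
    {c' : F'} (hc' : Transcendental K c') [hfin' : FiniteDimensional K⟮c'⟯ F']
    (hcc : φα c' = c)
    (hO' : ∀ x : F', GInt R ϖ c' x ↔ x ∈ V₁' ∧ x ∈ V₂')
    (hsep' : ∃ y : Chart R c', ¬ (V₁'.valuation (y : F') < 1 ↔ V₂'.valuation (y : F') < 1))
    (hTG' : ∀ 𝔫' : Ideal (Chart R c'), IsClosedPt R ϖ c' 𝔫' →
      (∀ y : Chart R c', V₂'.valuation (y : F') < 1 → y ∈ 𝔫') →
      (∀ y : Chart R c', y ∈ 𝔫' ↔ ∃ z ∈ 𝔫, (z : F) = φα (y : F')) →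
      ∃ g x : Chart R c', g ∈ 𝔫' ∧ x ∈ 𝔫' ∧
        ∀ y ∈ 𝔫', ∃ s a b : Chart R c', s ∉ 𝔫' ∧ (s : F') * y = a * (g : F') + b * x)
    (h12 : H10G3.Through R c 𝔫 V₁ ∨ H10G3.Through R c 𝔫 V₂) :
    H2L1.TwoGenAt R c 𝔫 := by
  classical
  subst hcc
  haveI := hfin
  haveI := hfin'
  letI : Algebra F' F := φα.toAlgebra
  have hφR : ∀ r : R, φα (algebraMap R F' r) = algebraMap R F r := by
    intro r
    rw [IsScalarTower.algebraMap_apply R K F', hT.hφα, ← IsScalarTower.algebraMap_apply R K F]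
  haveI : IsScalarTower R F' F := IsScalarTower.of_algebraMap_eq (fun r => (hφR r).symm)
  haveI : IsIntegrallyClosed (Chart R c') := H22BR.chart_intClosed R K c'
  let φ : Chart R c' →+* Chart R (φα c') := H6CM.chartMap R (F := F) c'
  have hφcoe : ∀ y : Chart R c', ((φ y : Chart R (φα c')) : F) = φα (y : F') := fun _ => rfl
  have hint : φ.IsIntegral := H6CM.chartMap_isIntegral R (F := F) c'
  let 𝒱 : Finset (ValuationSubring F) := {V₁, V₂, V₃}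
  have h𝒱 : ∀ V, V ∈ 𝒱 ↔ V = V₁ ∨ V = V₂ ∨ V = V₃ := by
    intro V
    rw [Finset.mem_insert, Finset.mem_insert, Finset.mem_singleton]
  let 𝒱' : Finset (ValuationSubring F') := {V₁', V₂'}
  have h𝒱' : ∀ V, V ∈ 𝒱' ↔ V = V₁' ∨ V = V₂' := by
    intro V
    rw [Finset.mem_insert, Finset.mem_singleton]
  have hOf' : ∀ x : F', GInt R ϖ c' x ↔ ∀ V ∈ 𝒱', x ∈ V := by
    intro x
    rw [hO' x]
    constructor
    · rintro ⟨h1, h2⟩ V hV
      rcases (h𝒱' V).1 hV with h | h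
      · rw [h]; exact h1
      · rw [h]; exact h2
    · intro h
      exact ⟨h V₁' ((h𝒱' V₁').2 (Or.inl rfl)), h V₂' ((h𝒱' V₂').2 (Or.inr rfl))⟩
  have hV₂' : V₂' ∈ 𝒱' := (h𝒱' V₂').2 (Or.inr rfl)
  have hO : ∀ x : F, GInt R ϖ (φα c') x ↔ ∀ V ∈ 𝒱, x ∈ V :=
    fun x => (hct x).trans (hO_of_triple R K hT 𝒱 h𝒱 x)
  have hchart : ∀ V ∈ 𝒱, ∀ y : Chart R (φα c'), (y : F) ∈ V :=
    fun V hV y => chart_mem_of_hO R K hϖ hc 𝒱 hO hV y
  have hV₂ : V₂ ∈ 𝒱 := (h𝒱 V₂).2 (Or.inr (Or.inl rfl))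
  -- `V₁ ≠ V₃`
  have h13 : V₁ ≠ V₃ := by
    intro h
    obtain ⟨y, hy⟩ := hsep'
    apply hy
    rw [hT.hβ₁, hT.hβ₃, h]
  have hD' : H10G3.Through R (φα c') 𝔫 V₁ → H10G3.Through R (φα c') 𝔫 V₃ →
      H10G3.Through R (φα c') 𝔫 V₂ := by
    intro h1 h3
    rcases hD with h | h
    · exact h.2.1
    · exact absurd (h V₁ (Or.inl rfl) V₃ (Or.inr (Or.inr rfl)) h1 h3) h13
  refine hR2_of_triple R K hT hϖ hc hct 𝒱 h𝒱 𝔫 h𝔫 hD' hCU1 hCU2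
    (algebraMap (Chart R c') F') (fun a b hab => Subtype.ext hab) φ hint hφcoe
    (algebraMap (Algebra.adjoin R {c'}) (Chart R c') (algebraMap R (Algebra.adjoin R {c'}) ϖ))
    rfl hsep' ?_ h12
  intro h2
  haveI h𝔫max : 𝔫.IsMaximal := h𝔫.1
  have h𝔫'max : (𝔫.comap φ).IsMaximal :=
    Ideal.isMaximal_comap_of_isIntegral_of_isMaximal' φ hint 𝔫
  have h𝔫' : IsClosedPt R ϖ c' (𝔫.comap φ) := by
    refine ⟨h𝔫'max, fun y hy => ?_⟩
    rw [Ideal.mem_comap]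
    apply h𝔫.2
    rw [hφcoe, hy, hφR]
  have hle2 : ∀ y : Chart R (φα c'), V₂.valuation (y : F) < 1 → y ∈ 𝔫 :=
    (H2L1.through_iff R 𝔫 V₂ (hchart V₂ hV₂)).2 h2
  have hle' : ∀ y : Chart R c', V₂'.valuation (y : F') < 1 → y ∈ 𝔫.comap φ := by
    intro y hy
    rw [Ideal.mem_comap]
    apply hle2
    rw [hφcoe]
    exact (hT.hα₂ _).1 hy
  have himg : ∀ y : Chart R c', y ∈ 𝔫.comap φ ↔ ∃ z ∈ 𝔫, (z : F) = φα (y : F') := by
    intro y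
    rw [Ideal.mem_comap]
    constructor
    · intro h
      exact ⟨φ y, h, hφcoe y⟩
    · rintro ⟨z, hz, e⟩
      have : φ y = z := Subtype.ext (by rw [hφcoe, e])
      rw [this]
      exact hz
  obtain ⟨g, x, hg, hx, hgen⟩ := hTG' (𝔫.comap φ) h𝔫' hle' himg
  obtain ⟨x'', hx0, hxV, hpr⟩ := hprin_of_twoGen R K ϖ hϖ hc' 𝒱' hOf' V₂' hV₂' hT.hϖ₂'
    (𝔫.comap φ) h𝔫'max hle' g x hg hx hgen
  exact ⟨x'', hx0, hxV, fun y hy => hpr y hy⟩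

end point

section concrete

variable (M : ℕ) [NeZero M] (q : ℕ) [NeZero q] (hq : q.Prime) (hqM : ¬ q ∣ M)
  (hT : TameLevel q M) (hRig : H14LE.Rigid M)
  (A : ValuationSubring (AlgebraicClosure ℚ)) (hA : A.LiesOverPrime q)
  (K₁ : IntermediateField ℚ (AlgebraicClosure ℚ)) (hfin : FiniteDimensional ℚ K₁)
  (hunr : Irreducible ((q : ℕ) : ↥(descVal A K₁)))
  (K₃ : IntermediateField ℚ (AlgebraicClosure ℚ)) (hfin₃ : FiniteDimensional ℚ K₃)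
  (h13 : K₁ ≤ K₃) (ζ : (↥K₃)ˣ) (hζ : IsPrimitiveRoot ζ q)
  (hζe : ∃ ζ' : K₁, IsPrimitiveRoot ζ' (branchIndex (baseKind q) M))
  (γ : K₁ ≃ₐ[ℚ] K₁)
  (hγ : ∀ a : K₁, a ∈ descVal A K₁ → γ a ∈ descVal A K₁)
  (hγ' : ∀ a : K₁, a ∈ descVal A K₁ → γ.symm a ∈ descVal A K₁)
  (hfrob : ∀ a : K₁, a ∈ descVal A K₁ → γ a - a ^ q ∈ (descVal A K₁).nonunits)

variable [IsDiscreteValuationRing ↥(descVal A K₁)] [IsDiscreteValuationRing ↥(descVal A K₃)]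
  [Algebra ↥(descVal A K₁) (FK K₁ (M * q * q))]
  [IsScalarTower ↥(descVal A K₁) K₁ (FK K₁ (M * q * q))]
  [Algebra ↥(descVal A K₁) (FK K₁ (M * q))]
  [IsScalarTower ↥(descVal A K₁) K₁ (FK K₁ (M * q))]
  (t₀ : LaurentSeries ℚ) (ht₀ : IsBase (baseKind q) t₀)
  (t : FK K₁ (M * q * q)) (ht : (t : LaurentSeries K₁) = coeffEmb K₁ t₀)

include hT hRig hA hfin hunr hfin₃ h13 hζ hζe hγ hγ' hfrob ht₀ ht in
/-- **(R2-INST), the concrete leaf**: the field `hR2` of `H19LA.PointLeaves` at a closed dich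
point `𝔫` of the chart `c` of level `M q q`. -/
theorem r2_point (hR1 : H1R1.R1NodeStatement)
    (n : ℕ) (φβ : FK K₁ (M * q) →+* FK K₁ (M * q * q))
    (Nα Nβ : FK K₁ (M * q * q) →* FK K₁ (M * q))
    (V₃ : ValuationSubring (FK K₁ (M * q * q))) (b₃ : FK K₁ (M * q * q))
    (hTr : H4S36.Triple ↥(descVal A K₁) ↥K₁ (FK K₁ (M * q * q)) (FK K₁ (M * q))
      ((q : ℕ) : ↥(descVal A K₁)) t q n
      (heckeAlphaBar K₁ (M * q) q).toRingHom φβ Nα Nβ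
      (cV1 K₁ (descVal A K₁) M q) (cV2 K₁ (descVal A K₁) M q hq hqM) V₃
      (cV1' K₁ (descVal A K₁) M q) (cV2' K₁ (descVal A K₁) M q hq hqM) b₃)
    (c : FK K₁ (M * q * q)) (𝔫 : Ideal (Chart ↥(descVal A K₁) c))
    (h𝔫 : IsClosedPt ↥(descVal A K₁) ((q : ℕ) : ↥(descVal A K₁)) c 𝔫)
    (hd : IsDichPt t c 𝔫)
    (hD : (H10G3.Through ↥(descVal A K₁) c 𝔫 (cV1 K₁ (descVal A K₁) M q) ∧
        H10G3.Through ↥(descVal A K₁) c 𝔫 (cV2 K₁ (descVal A K₁) M q hq hqM) ∧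
        H10G3.Through ↥(descVal A K₁) c 𝔫 V₃) ∨
      ∀ V : ValuationSubring (FK K₁ (M * q * q)),
        V = cV1 K₁ (descVal A K₁) M q ∨ V = cV2 K₁ (descVal A K₁) M q hq hqM ∨ V = V₃ →
        ∀ W : ValuationSubring (FK K₁ (M * q * q)),
          W = cV1 K₁ (descVal A K₁) M q ∨ W = cV2 K₁ (descVal A K₁) M q hq hqM ∨ W = V₃ →
          H10G3.Through ↥(descVal A K₁) c 𝔫 V → H10G3.Through ↥(descVal A K₁) c 𝔫 W → V = W)
    (h12 : H10G3.Through ↥(descVal A K₁) c 𝔫 (cV1 K₁ (descVal A K₁) M q) ∨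
      H10G3.Through ↥(descVal A K₁) c 𝔫 (cV2 K₁ (descVal A K₁) M q hq hqM)) :
    H2L1.TwoGenAt ↥(descVal A K₁) c 𝔫 := by
  classical
  haveI hqF : Fact q.Prime := ⟨hq⟩
  have hc : c = t ∨ c = t⁻¹ := hd.elim Or.inl (fun h => Or.inr h.1)
  -- upstairs
  have htr : Transcendental K₁ t := H8R2.r2_transc M q hT K₁ t₀ ht₀ t ht
  have htrR : Transcendental ↥(descVal A K₁) t := H19S18.h19_transc ↥(descVal A K₁) K₁ htr
  have htri : Transcendental K₁ t⁻¹ := H19S18.h19_transc_inv K₁ htr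
  have htrRi : Transcendental ↥(descVal A K₁) t⁻¹ :=
    H19S18.h19_transc ↥(descVal A K₁) K₁ htri
  have hctr : Transcendental K₁ c := by
    rcases hc with h | h
    · rw [h]; exact htr
    · rw [h]; exact htri
  haveI hcfin : FiniteDimensional K₁⟮c⟯ (FK K₁ (M * q * q)) :=
    (H9CU.sq_basics M q hT K₁ (M * q * q) ⟨q * q, by ring⟩ t₀ ht₀ t ht c hc).2.1
  have hct : ∀ x : FK K₁ (M * q * q),
      GInt ↥(descVal A K₁) ((q : ℕ) : ↥(descVal A K₁)) c x ↔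
        GInt ↥(descVal A K₁) ((q : ℕ) : ↥(descVal A K₁)) t x := by
    intro x
    rcases hc with h | h
    · rw [h]
    · rw [h]
      exact H19S18.h19_gint_inv_iff ↥(descVal A K₁) htrR htrRi hunr x
  -- downstairs
  obtain ⟨t', ht', htr', hfin', -⟩ :=
    H9C6e.fieldBasics (M * q) (baseKind q) (H8PB.h8pg_baseKind_ok hT) t₀ ht₀ K₁
  have htrR' : Transcendental ↥(descVal A K₁) t' := H19S18.h19_transc ↥(descVal A K₁) K₁ htr'
  have htri' : Transcendental K₁ t'⁻¹ := H19S18.h19_transc_inv K₁ htr'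
  have htrRi' : Transcendental ↥(descVal A K₁) t'⁻¹ :=
    H19S18.h19_transc ↥(descVal A K₁) K₁ htri'
  haveI := hfin'
  haveI hfini' : FiniteDimensional K₁⟮t'⁻¹⟯ (FK K₁ (M * q)) :=
    H21S18.finiteDimensional_transport (H21S18.adjoin_inv_eq (K := K₁) t').symm hfin'
  have hαt : (heckeAlphaBar K₁ (M * q) q).toRingHom t' = t :=
    Subtype.ext ((coe_heckeAlphaBar (M * q) q t').trans (ht'.trans ht.symm))
  have hPG : ∀ x : FK K₁ (M * q),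
      GInt ↥(descVal A K₁) ((q : ℕ) : ↥(descVal A K₁)) t' x ↔
        x ∈ cV1' K₁ (descVal A K₁) M q ∧ x ∈ cV2' K₁ (descVal A K₁) M q hq hqM :=
    fun x => (H8PB.h8pg_pairGauss M q hq hqM hT A hA K₁ hfin _ hunr t₀ ht₀ t' ht' x).1
  -- the chart downstairs
  obtain ⟨c', hc', hc'tr, hc'fin, hcc, hd'⟩ : ∃ c' : FK K₁ (M * q), (c' = t' ∨ c' = t'⁻¹) ∧
      Transcendental K₁ c' ∧ FiniteDimensional K₁⟮c'⟯ (FK K₁ (M * q)) ∧
      (heckeAlphaBar K₁ (M * q) q).toRingHom c' = c ∧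
      (c' = t' ∨ (c' = t'⁻¹ ∧ c = t⁻¹ ∧
        ∀ y : Chart ↥(descVal A K₁) c, (y : FK K₁ (M * q * q)) = t⁻¹ → y ∈ 𝔫)) := by
    rcases hd with h | ⟨h, hinf⟩
    · exact ⟨t', Or.inl rfl, htr', hfin', hαt.trans h.symm, Or.inl rfl⟩
    · refine ⟨t'⁻¹, Or.inr rfl, htri', hfini', ?_, Or.inr ⟨rfl, h, hinf⟩⟩
      rw [map_inv₀, hαt, h]
  haveI := hc'fin
  have hO' : ∀ x : FK K₁ (M * q),
      GInt ↥(descVal A K₁) ((q : ℕ) : ↥(descVal A K₁)) c' x ↔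
        x ∈ cV1' K₁ (descVal A K₁) M q ∧ x ∈ cV2' K₁ (descVal A K₁) M q hq hqM := by
    intro x
    rcases hc' with h | h
    · rw [h]; exact hPG x
    · rw [h]
      exact (H19S18.h19_gint_inv_iff ↥(descVal A K₁) htrR' htrRi' hunr x).trans (hPG x)
  have hsep' := H8R2.hsep' M q hq hqM hT A hA K₁ hfin hunr t₀ ht₀ t' ht' c' hc'
  have hHW := H24HW.h24hw_HW2 M q hq hqM hT A hA K₁ hfin t₀ ht₀ t ht
  refine hR2_of_triple_point ↥(descVal A K₁) ↥K₁ hTr hunr hctr hct 𝔫 h𝔫 hD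
    (fun hth => H8R2.cu3_C1 M q hq hqM hT A hA K₁ hfin hunr K₃ hfin₃ h13 ζ hζ hζe t₀ ht₀ t ht
      c hc 𝔫 h𝔫.1 hth)
    (fun hth => H8R2.cu3_C2 M q hq hqM hT A hA K₁ hfin hunr K₃ hfin₃ h13 ζ hζ hζe t₀ ht₀ t ht
      hHW c 𝔫 h𝔫 hd hth)
    hc'tr hcc hO' hsep' ?_ h12
  -- two generators at the image point
  intro 𝔫' h𝔫' hle' himg
  have hd'' : IsDichPt t' c' 𝔫' := by
    rcases hd' with h | ⟨h, hct', hinf⟩
    · exact Or.inl h
    · refine Or.inr ⟨h, fun y hy => ?_⟩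
      rw [himg]
      obtain ⟨z, hz, hzc⟩ := exists_chart_gen 𝔫 (fun y hy => hinf y (hy.trans hct'))
      refine ⟨z, hz, ?_⟩
      rw [hzc, hy, map_inv₀, hαt, hct']
  obtain ⟨P₁, P₂, hP1, hP2⟩ := H22DA.exists_comp H8PB.h8pg_pairGauss M q hq hqM hT A hA K₁ hfin
    ((q : ℕ) : ↥(descVal A K₁)) hunr t₀ ht₀ t' ht' c' hc'
  have h2 : P₂ ≤ 𝔫' := by
    intro y hy
    apply hle'
    exact (gaussVal2_lt_one M q hq hqM K₁ (descVal A K₁) _).2 ((hP2 y).1 hy)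
  by_cases h1 : P₁ ≤ 𝔫'
  · obtain ⟨⟨g, x, hg, hx, hgen⟩, -, -⟩ := hR1 M q hq hqM hT hRig A hA K₁ hfin hζe γ hγ hγ' hfrob
      ((q : ℕ) : ↥(descVal A K₁)) hunr (Associated.refl _) t₀ ht₀ t' ht' c' hc' P₁ P₂ hP1 hP2
      𝔫' h𝔫' h1 h2
    exact twoGen_coe_of_chart 𝔫' ⟨g, x, hg, hx, hgen⟩
  · obtain ⟨g, hgP, hg𝔫⟩ := SetLike.not_le_iff_exists.mp h1
    obtain ⟨x₀, hreg, -, -⟩ := H16G0.g0Nq2 M q hq hqM hT A hA K₁ hfin hζe
      ((q : ℕ) : ↥(descVal A K₁)) hunr t₀ ht₀ t' ht' c' 𝔫' h𝔫' hd'' g hg𝔫 ((hP1 g).1 hgP)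
    obtain ⟨hx₀, hgen, -, -⟩ := hreg
    exact twoGen_coe_of_reg ((q : ℕ) : ↥(descVal A K₁)) 𝔫' h𝔫' x₀ hx₀ hgen

end concrete

end H26R2

end
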