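/-
helper15: item 86 (S36), LOC, DISC route, slice LOC-D part (D2-SER): the Gauss content of the
discriminant of `Ψ(Y) = Φ_p(j(s^p), Y) / (Y - j(s))`  (level `N' p²` over level `N' p`, via `α`).

Conventions of `H28S28` / `H21DG`: series in `s`; the `p + 1` roots of `Φ_p(j(s^p), Y)` are
`x_∞ = j(s^{p²})` and `x_b = j(ζ^b s)`, `b < p`; the root `x_0 = j(s)` is the trivial one, and the
`p` conjugates of `j(s^{p²})` over level `N' p` are the `x_i`, `i ≠ some 0`.

* `H15D2.pairProd2`        : `∏_{i ≠ i'} (x_i - x_{i'})` over `i, i' ≠ some 0`;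
* `H15D2.pairProd_eq`      : `H21DG.pairProd = pairProd2 · rowZ · colZ`;
* `H15D2.lc_pairProd2_sq`  : `lc(pairProd2)² = (p^(p-2))²`;
* `H15D2.disc2 p Φ`        : `Res_Y(Ψ₀, ∂Ψ₀) ∈ ℤ((s))`, `Ψ₀ = Φ(j(s^p), Y) /ₘ (Y - j(s))`;
* `H15D2.coeffMap_disc2`   : its image in `A((s))` is `pairProd2 A p ζ` (INTEGRALITY of the product);
* `H15D2.coeffMap_disc2_compl` : the same in the form `∏ a, ∏ b ∈ {a}ᶜ, (x b - x a)` over the
                              subtype `{i // i ≠ some 0}` (the form of `H21DF.discr_pow_eq_prod_ne`);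
* `H15D2.exists_coeff_disc2` : some coefficient of `disc2 p Φ` is `± p^(p-2)`;
* `H15D2.d2_bound_pow`     : **(D2), Gauss form**: `disc2 = ϖ^m u`, `u` Gauss-integral ⟹ `m ≤ e (p-2)`.
Nothing here is proved by a placeholder.
-/
import Mathlib
import Fermat.Agent.S36.DiscBound_helper21

set_option autoImplicit false
set_option linter.unusedSectionVars false
set_option linter.unusedVariables false
set_option linter.style.haveILetI false

noncomputable section

namespace H15D2

open HahnSeries Polynomial ModularCurve H28S28 H21DG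

section idx

variable (p : ℕ) [NeZero p]

/-- the index of the trivial conjugate `x_0 = j(s)`. -/
def zi : Option (Fin p) := some ⟨0, Nat.pos_of_ne_zero (NeZero.ne p)⟩

/-- the index set of the conjugates of `j(s^{p²})` over level `N' p`. -/
def idx2 : Finset (Option (Fin p)) := Finset.univ.erase (zi p)

theorem mem_idx2 (i : Option (Fin p)) : i ∈ idx2 p ↔ i ≠ zi p := by
  simp [idx2]

theorem card_idx2 : (idx2 p).card = p := by
  rw [idx2, Finset.card_erase_of_mem (Finset.mem_univ _), Finset.card_univ, Fintype.card_option,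
    Fintype.card_fin]
  simp

end idx

section tw

variable (A : Type) [CommRing A]

theorem tw_one' (x : LaurentSeries A) : tw (1 : Aˣ) x = x := by
  ext n
  rw [tw_coeff, one_zpow, Units.val_one, one_mul]

theorem xconj_zi (p : ℕ) [NeZero p] (ζ : Aˣ) : xconj A p ζ (zi p) = jqModC A := by
  show tw (ζ ^ ((⟨0, Nat.pos_of_ne_zero (NeZero.ne p)⟩ : Fin p) : ℕ)) (jqModC A) = jqModC A
  rw [pow_zero, tw_one']

end tw

section pair2

variable (A : Type) [CommRing A] [IsDomain A] (p : ℕ) [NeZero p] (ζ : Aˣ)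

/-- the product of all differences of two distinct conjugates of `j(s^{p²})` over level `N' p`. -/
def pairProd2 : LaurentSeries A :=
  ∏ i ∈ idx2 p, ∏ i' ∈ idx2 p, dconj A p ζ i i'

/-- the row of the trivial conjugate. -/
def rowZ : LaurentSeries A := ∏ i' : Option (Fin p), dconj A p ζ (zi p) i'

/-- the column of the trivial conjugate. -/
def colZ : LaurentSeries A := ∏ i ∈ idx2 p, dconj A p ζ i (zi p)

theorem dconj_self (i : Option (Fin p)) : dconj A p ζ i i = 1 := by
  rw [dconj, if_pos rfl]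

theorem pairProd_eq : pairProd A p ζ = pairProd2 A p ζ * rowZ A p ζ * colZ A p ζ := by
  classical
  unfold pairProd pairProd2 rowZ colZ idx2
  rw [← Finset.mul_prod_erase Finset.univ _ (Finset.mem_univ (zi p))]
  have h1 : ∀ i ∈ (Finset.univ : Finset (Option (Fin p))).erase (zi p),
      ∏ i' : Option (Fin p), dconj A p ζ i i' =
        dconj A p ζ i (zi p) * ∏ i' ∈ (Finset.univ : Finset (Option (Fin p))).erase (zi p),
          dconj A p ζ i i' := by
    intro i _
    rw [Finset.mul_prod_erase Finset.univ _ (Finset.mem_univ (zi p))]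
  rw [Finset.prod_congr rfl h1, Finset.prod_mul_distrib]
  ring

variable {A p ζ}

theorem lc_rowZ (hp : 2 ≤ p) (hη : IsPrimitiveRoot ((ζ⁻¹ : Aˣ) : A) p) :
    (rowZ A p ζ).leadingCoeff = -(p : A) := by
  have hp0 : 0 < p := by omega
  unfold rowZ
  rw [lc_prod, Fintype.prod_option]
  have h1 : (dconj A p ζ (zi p) none).leadingCoeff = -1 := lc_dconj_some_none hp _
  have h2 : ∀ b' : Fin p, (dconj A p ζ (zi p) (some b')).leadingCoeff =
      if (⟨0, hp0⟩ : Fin p) = b' then (1 : A)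
        else ((ζ⁻¹ : Aˣ) : A) ^ ((⟨0, hp0⟩ : Fin p) : ℕ) - ((ζ⁻¹ : Aˣ) : A) ^ (b' : ℕ) :=
    fun b' => lc_dconj_some_some hη _ b'
  rw [h1]
  simp only [h2]
  rw [cyc_prod_fin hp0 hη ⟨0, hp0⟩]
  simp

theorem lc_colZ_sq (hp : 2 ≤ p) (hη : IsPrimitiveRoot ((ζ⁻¹ : Aˣ) : A) p) :
    (colZ A p ζ).leadingCoeff ^ 2 = (p : A) ^ 2 := by
  classical
  have hp0 : 0 < p := by omega
  have hcol : colZ A p ζ = ∏ i : Option (Fin p), dconj A p ζ i (zi p) := by
    unfold colZ idx2
    exact Finset.prod_erase _ (dconj_self A p ζ (zi p))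
  rw [hcol, lc_prod, Fintype.prod_option]
  have h1 : (dconj A p ζ none (zi p)).leadingCoeff = 1 := lc_dconj_none_some hp _
  have h2 : ∀ b : Fin p, (dconj A p ζ (some b) (zi p)).leadingCoeff =
      if b = (⟨0, hp0⟩ : Fin p) then (1 : A)
        else ((ζ⁻¹ : Aˣ) : A) ^ (b : ℕ) - ((ζ⁻¹ : Aˣ) : A) ^ ((⟨0, hp0⟩ : Fin p) : ℕ) :=
    fun b => lc_dconj_some_some hη b _
  rw [h1, one_mul]
  simp only [h2]
  have h3 := cyc_prod_fin hp0 hη ⟨0, hp0⟩
  have h4 : (∏ b : Fin p, (if b = (⟨0, hp0⟩ : Fin p) then (1 : A)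
        else ((ζ⁻¹ : Aˣ) : A) ^ (b : ℕ) - ((ζ⁻¹ : Aˣ) : A) ^ ((⟨0, hp0⟩ : Fin p) : ℕ))) ^ 2 =
      (∏ b' : Fin p, (if (⟨0, hp0⟩ : Fin p) = b' then (1 : A)
        else ((ζ⁻¹ : Aˣ) : A) ^ ((⟨0, hp0⟩ : Fin p) : ℕ) - ((ζ⁻¹ : Aˣ) : A) ^ (b' : ℕ))) ^ 2 := by
    rw [← Finset.prod_pow, ← Finset.prod_pow]
    refine Finset.prod_congr rfl (fun b _ => ?_)
    by_cases hb : b = (⟨0, hp0⟩ : Fin p)
    · rw [if_pos hb, if_pos hb.symm]
    · rw [if_neg hb, if_neg (fun h => hb h.symm)]
      ring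
  rw [h4, h3]
  simp

/-- **(D2), series form**: the leading coefficient `c` of the product of all differences of two
distinct conjugates of `j(s^{p²})` over level `N' p` satisfies `c² = (p^(p-2))²`. -/
theorem lc_pairProd2_sq (hp : 2 ≤ p) (hη : IsPrimitiveRoot ((ζ⁻¹ : Aˣ) : A) p)
    (hpA : (p : A) ≠ 0) :
    (pairProd2 A p ζ).leadingCoeff ^ 2 = ((p : A) ^ (p - 2)) ^ 2 := by
  have h1 := lc_pairProd_sq (A := A) (p := p) (ζ := ζ) hp hη
  rw [pairProd_eq, HahnSeries.leadingCoeff_mul, HahnSeries.leadingCoeff_mul, mul_pow, mul_pow,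
    lc_rowZ hp hη, lc_colZ_sq hp hη] at h1
  have h2 : (pairProd2 A p ζ).leadingCoeff ^ 2 * (p : A) ^ 4 =
      ((p : A) ^ (p - 2)) ^ 2 * (p : A) ^ 4 := by
    have e1 : ((p : A) ^ (p - 2)) ^ 2 * (p : A) ^ 4 = (p : A) ^ (2 * p) := by
      rw [← pow_mul, ← _root_.pow_add]
      congr 1
      omega
    rw [e1, ← h1]
    ring
  exact mul_right_cancel₀ (pow_ne_zero 4 hpA) h2

theorem pairProd2_ne_zero (hp : 2 ≤ p) (hη : IsPrimitiveRoot ((ζ⁻¹ : Aˣ) : A) p)
    (hpA : (p : A) ≠ 0) : pairProd2 A p ζ ≠ 0 := by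
  intro h0
  have h1 := lc_pairProd2_sq hp hη hpA
  rw [h0, HahnSeries.leadingCoeff_zero] at h1
  exact pow_ne_zero _ (pow_ne_zero _ hpA) (by rw [← h1]; ring)

end pair2

section poly2

variable (A : Type) [CommRing A] [IsDomain A] (p : ℕ) [NeZero p] (ζ : Aˣ)

/-- `Ψ` over `A((s))`: the product over the non-trivial conjugates. -/
def psiA : Polynomial (LaurentSeries A) :=
  ∏ i ∈ idx2 p, (X - Polynomial.C (xconj A p ζ i))

theorem psiA_natDegree : (psiA A p ζ).natDegree = p := by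
  rw [psiA, natDegree_finsetProd_X_sub_C_eq_card, card_idx2]

/-- the derivative of `Ψ` at the root `x_i`. -/
theorem eval_derivative_psiA (i : Option (Fin p)) (hi : i ∈ idx2 p) :
    eval (xconj A p ζ i) (derivative (psiA A p ζ)) = ∏ i' ∈ idx2 p, dconj A p ζ i i' := by
  classical
  rw [psiA, derivative_prod_finset, eval_finsetSum, Finset.sum_eq_single i]
  · rw [eval_mul, derivative_sub, derivative_X, derivative_C, sub_zero, eval_one, mul_one,
      eval_prod, ← Finset.prod_erase (idx2 p) (f := fun i' => dconj A p ζ i i') (a := i)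
        (by rw [dconj, if_pos rfl])]
    refine Finset.prod_congr rfl (fun k hk => ?_)
    rw [eval_sub, eval_X, eval_C, dconj, if_neg (fun h => (Finset.mem_erase.1 hk).1 h.symm)]
  · intro a _ hai
    rw [eval_mul, eval_prod]
    have himem : i ∈ (idx2 p).erase a :=
      Finset.mem_erase.2 ⟨fun h => hai h.symm, hi⟩
    rw [Finset.prod_eq_zero himem, zero_mul]
    rw [eval_sub, eval_X, eval_C, sub_self]
  · intro h
    exact absurd hi h

/-- the resultant of `Ψ` and `∂Ψ` is the product of all differences. -/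
theorem resultant_psiA :
    resultant (psiA A p ζ) (derivative (psiA A p ζ)) p (p - 1) = pairProd2 A p ζ := by
  classical
  have hdeg := psiA_natDegree A p ζ
  have hdeg' : (derivative (psiA A p ζ)).natDegree ≤ p - 1 := by
    refine (natDegree_derivative_le _).trans ?_
    rw [hdeg]
  have hlc : ∏ i ∈ idx2 p, (X - Polynomial.C (xconj A p ζ i)).leadingCoeff ≠ 0 := by
    simp
  have h1 := resultant_prod_left (idx2 p) (fun i => X - Polynomial.C (xconj A p ζ i))
    (derivative (psiA A p ζ)) (p - 1) hlc hdeg'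
  have h2 : (∏ i ∈ idx2 p, (X - Polynomial.C (xconj A p ζ i))) = psiA A p ζ := rfl
  rw [h2, hdeg] at h1
  rw [h1, pairProd2]
  refine Finset.prod_congr rfl (fun i hi => ?_)
  rw [natDegree_X_sub_C, resultant_X_sub_C_left _ _ _ hdeg', eval_derivative_psiA A p ζ i hi]

/-- `Ψ` is the quotient of `∏ (X - x_i)` by `X - j(s)`. -/
theorem divByMonic_prod :
    (∏ i : Option (Fin p), (X - Polynomial.C (xconj A p ζ i))) /ₘ
      (X - Polynomial.C (jqModC A)) = psiA A p ζ := by
  classical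
  rw [← Finset.mul_prod_erase Finset.univ _ (Finset.mem_univ (zi p)), xconj_zi]
  exact mul_divByMonic_cancel_left _ (monic_X_sub_C _)

end poly2

section int

variable (p : ℕ) [NeZero p]

/-- `Ψ₀ = Φ(j(s^p), Y) /ₘ (Y - j(s)) ∈ ℤ((s))[Y]`. -/
def psi0 (Φ : Polynomial (Polynomial ℤ)) : Polynomial (LaurentSeries ℤ) :=
  (Φ.map (baseEval ℤ p)) /ₘ (X - Polynomial.C (jqModC ℤ))

/-- **the discriminant of level `N' p²` over level `N' p`, as an integral series**:
`Res_Y(Ψ₀, ∂Ψ₀) ∈ ℤ((s))`. -/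
def disc2 (Φ : Polynomial (Polynomial ℤ)) : LaurentSeries ℤ :=
  resultant (psi0 p Φ) (derivative (psi0 p Φ)) p (p - 1)

variable (A : Type) [CommRing A]

theorem coeffMap_comp_baseEval :
    (coeffMap (Int.castRingHom A)).comp (baseEval ℤ p) = baseEval A p := by
  apply Polynomial.ringHom_ext
  · intro a
    simp
  · show coeffMap (Int.castRingHom A) (baseEval ℤ p X) = baseEval A p X
    simp only [baseEval, Polynomial.coe_eval₂RingHom, Polynomial.eval₂_X]
    rw [coeffMap_qExpand, coeffMap_jqModC]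

theorem psi0_map (Φ : Polynomial (Polynomial ℤ)) :
    (psi0 p Φ).map (coeffMap (Int.castRingHom A)) =
      (Φ.map (baseEval A p)) /ₘ (X - Polynomial.C (jqModC A)) := by
  rw [psi0, map_divByMonic _ (monic_X_sub_C _), Polynomial.map_map, coeffMap_comp_baseEval,
    Polynomial.map_sub, Polynomial.map_X, Polynomial.map_C, coeffMap_jqModC]

variable [IsDomain A] (ζ : Aˣ)

/-- **integrality of the product of differences**: `pairProd2` is the image of the integral
series `disc2 p Φ`. -/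
theorem coeffMap_disc2 (Φ : Polynomial (Polynomial ℤ))
    (hΦ : Φ.map (baseEval A p) =
      ∏ i : Option (Fin p), (X - Polynomial.C (xconj A p ζ i))) :
    coeffMap (Int.castRingHom A) (disc2 p Φ) = pairProd2 A p ζ := by
  rw [disc2, ← resultant_map_map, ← derivative_map, psi0_map, hΦ, divByMonic_prod,
    resultant_psiA]

/-- the same, in the form of `H21DF.discr_pow_eq_prod_ne` over the subtype `{i // i ≠ some 0}`. -/
theorem pairProd2_eq_compl :
    pairProd2 A p ζ =
      ∏ a : {i : Option (Fin p) // i ≠ zi p},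
        ∏ b ∈ ({a}ᶜ : Finset {i : Option (Fin p) // i ≠ zi p}),
          (xconj A p ζ b.1 - xconj A p ζ a.1) := by
  classical
  -- first swap the roles of the two indices
  have hswap : pairProd2 A p ζ = ∏ a ∈ idx2 p, ∏ b ∈ idx2 p, dconj A p ζ b a := by
    unfold pairProd2
    rw [Finset.prod_comm]
  rw [hswap]
  have hsub : ∀ f : Option (Fin p) → LaurentSeries A,
      ∏ a ∈ idx2 p, f a = ∏ a : {i : Option (Fin p) // i ≠ zi p}, f a.1 := by
    intro f
    rw [← Finset.prod_subtype (idx2 p) (fun i => mem_idx2 p i) f]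
  rw [hsub]
  refine Finset.prod_congr rfl (fun a _ => ?_)
  rw [hsub]
  rw [← Finset.prod_erase (Finset.univ : Finset {i : Option (Fin p) // i ≠ zi p})
    (f := fun b => dconj A p ζ b.1 a.1) (a := a) (dconj_self A p ζ a.1)]
  refine Finset.prod_congr ?_ (fun b hb => ?_)
  · ext b
    simp [Finset.mem_erase]
  · have hba : b ≠ a := by
      simpa using hb
    rw [dconj, if_neg (fun h => hba (Subtype.ext h))]

theorem coeffMap_disc2_compl (Φ : Polynomial (Polynomial ℤ))
    (hΦ : Φ.map (baseEval A p) =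
      ∏ i : Option (Fin p), (X - Polynomial.C (xconj A p ζ i))) :
    coeffMap (Int.castRingHom A) (disc2 p Φ) =
      ∏ a : {i : Option (Fin p) // i ≠ zi p},
        ∏ b ∈ ({a}ᶜ : Finset {i : Option (Fin p) // i ≠ zi p}),
          (xconj A p ζ b.1 - xconj A p ζ a.1) := by
  rw [coeffMap_disc2 p A ζ Φ hΦ, pairProd2_eq_compl]

end int

section final

/-- some coefficient of `disc2 p Φ` is `± p^(p-2)`. -/
theorem exists_coeff_disc2 (p : ℕ) [NeZero p] (hp : 2 ≤ p) (Φ : Polynomial (Polynomial ℤ))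
    (hΦ : ∀ (A : Type) [CommRing A] (ζ : Aˣ), (Polynomial.cyclotomic p A).eval (ζ : A) = 0 →
      Φ.map (baseEval A p) = ∏ i : Option (Fin p), (X - Polynomial.C (xconj A p ζ i))) :
    ∃ n : ℤ, (disc2 p Φ).coeff n = (p : ℤ) ^ (p - 2) ∨ (disc2 p Φ).coeff n = -(p : ℤ) ^ (p - 2) := by
  have hpC : ((p : ℕ) : ℂ) ≠ 0 := by
    have := NeZero.ne p
    exact_mod_cast this
  have hc := coeffMap_disc2 p ℂ (zetaC p) Φ (hΦ ℂ (zetaC p) (zetaC_cyclotomic p))
  have hsq := lc_pairProd2_sq (A := ℂ) (p := p) (ζ := zetaC p) hp (zetaC_inv_prim p) hpC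
  rw [← hc, HahnSeries.leadingCoeff_eq, coeffMap_coeff] at hsq
  refine ⟨(coeffMap (Int.castRingHom ℂ) (disc2 p Φ)).order, ?_⟩
  set a := (disc2 p Φ).coeff (coeffMap (Int.castRingHom ℂ) (disc2 p Φ)).order with ha
  have hZ : a ^ 2 = ((p : ℤ) ^ (p - 2)) ^ 2 := by
    have h1 : ((a ^ 2 : ℤ) : ℂ) = ((((p : ℤ) ^ (p - 2)) ^ 2 : ℤ) : ℂ) := by
      push_cast
      simpa using hsq
    exact_mod_cast h1
  exact sq_eq_sq_iff_eq_or_eq_neg.1 hZ

variable {K : Type} [Field K] [CharZero K] (R : ValuationSubring K)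

open H8PB in
/-- **(D2), Gauss form**: the discriminant of level `N' p²` over level `N' p` has Gauss
valuation `≤ p - 2` (times the ramification index `e`). -/
theorem d2_bound_pow (p : ℕ) [NeZero p] (hp : p.Prime) (Φ : Polynomial (Polynomial ℤ))
    (hΦ : ∀ (A : Type) [CommRing A] (ζ : Aˣ), (Polynomial.cyclotomic p A).eval (ζ : A) = 0 →
      Φ.map (baseEval A p) = ∏ i : Option (Fin p), (X - Polynomial.C (xconj A p ζ i)))
    (hR : R.LiesOverPrime p)
    (ϖ : R) (hϖ : ¬ IsUnit ϖ) (e : ℕ) (ε : Rˣ) (hpe : ((p : ℕ) : R) = (ε : R) * ϖ ^ e)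
    (m : ℕ) (u : LaurentSeries K) (hu : InG R u)
    (h : coeffMap (Int.castRingHom K) (disc2 p Φ) = HahnSeries.C ((ϖ : K) ^ m) * u) :
    m ≤ e * (p - 2) := by
  obtain ⟨n, hn⟩ := exists_coeff_disc2 p hp.two_le Φ hΦ
  exact H21DB.gauss_bound_pow R p hp hR (p - 2) _ n
    (H21DB.not_dvd_of_eq_or p hp (p - 2) _ hn) ϖ hϖ e ε hpe m u hu h

end final

end H15D2

end
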