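import Fermat.Agent.S36.NormK_helper13
import Fermat.Agent.S28.WP3Sub

/-!
# Item 86 (S36), slice (NORM), part 4 (helper13): the two norm formulas over `K₁`

`K₁ ≤ K₃` intermediate fields of `ℚ̄/ℚ`, `ζ ∈ K₃` a primitive `q`-th root of unity, `q` prime,
`q ∤ M`, `F₁ = FK K₁ (M q)`, `F₂ = FK K₁ (M q q)`, `c = H13N3.incK` the coefficient extension
`F → K₃((𝐪))`.

* **[N1]** `H13N3.normK_beta_twist` : `c (N_β x)(𝐪^q) = ∏_{b<q} tw (ζ^b) (c x)`;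
* **[N2]** `H13N3.normK_alpha_iota` : `c (N_α x) = ∏_{b<q} ι_b x`, `ι_0 = c`, and for `0 < b < q`
  `ι_b = H3V3.iota3 … (ζ^b)` (`H13N3.iotaB_zero`, `H13N3.iotaB_of_pos`).
-/

set_option autoImplicit false
set_option linter.style.haveILetI false
set_option linter.unusedSectionVars false
set_option linter.unusedVariables false

noncomputable section

open AlgebraicCurve IntermediateField
open ModularCurve RH24 H28S28 HahnSeries H7S18

namespace H13N3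

variable {K₁ K₃ : IntermediateField ℚ Kbar} (h13 : K₁ ≤ K₃)

/-- the coefficient extension `FK K₁ N → K₃((𝐪))` -/
def incK (N : ℕ) [NeZero N] : FK ↥K₁ N →+* LaurentSeries ↥K₃ :=
  (coeffMap (IntermediateField.inclusion h13 : ↥K₁ →+* ↥K₃)).comp
    (laurentBaseChange ↥K₁ (modularFunctionFieldFull N)).toSubfield.subtype

theorem incK_apply (N : ℕ) [NeZero N] (x : FK ↥K₁ N) :
    incK h13 N x =
      coeffMap (IntermediateField.inclusion h13 : ↥K₁ →+* ↥K₃) (x : LaurentSeries ↥K₁) := rfl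

theorem incK_injective (N : ℕ) [NeZero N] : Function.Injective (incK h13 N) :=
  (incK h13 N).injective

theorem incK_JgenK (N : ℕ) [NeZero N] (d : Dv N) [NeZero d.1] :
    incK h13 N (H3V3.JgenK ↥K₁ d) = qExpand ↥K₃ d.1 (jqModC ↥K₃) := by
  rw [incK_apply, H3V3.coe_JgenK, H1S18.coeffMap_coeffEmb_hom, H28GV.gv_coeffEmb_qExpand,
    H28GV.gv_coeffEmb_jq]

variable (M q : ℕ) [NeZero M] [NeZero q]

/-! ### [N1] -/

/-- the twist embeddings `x ↦ x(ζ^b 𝐪)` of `F₂` -/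
def twEmbK (ζ : (↥K₃)ˣ) (b : ℕ) : FK ↥K₁ (M * q * q) →+* LaurentSeries ↥K₃ :=
  (tw (ζ ^ b)).comp (incK h13 (M * q * q))

theorem twEmbK_apply (ζ : (↥K₃)ˣ) (b : ℕ) (x : FK ↥K₁ (M * q * q)) :
    twEmbK h13 M q ζ b x = tw (ζ ^ b) (incK h13 (M * q * q) x) := rfl

/-- the base embedding `y ↦ y(𝐪^q)` of `F₁` -/
def betaEmbK : FK ↥K₁ (M * q) →+* LaurentSeries ↥K₃ :=
  (qExpand ↥K₃ q).comp (incK h13 (M * q))

theorem betaEmbK_apply (y : FK ↥K₁ (M * q)) :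
    betaEmbK h13 M q y = qExpand ↥K₃ q (incK h13 (M * q) y) := rfl

theorem incK_beta (y : FK ↥K₁ (M * q)) :
    incK h13 (M * q * q) (heckeBetaBar ↥K₁ (M * q) q y) = qExpand ↥K₃ q (incK h13 (M * q) y) := by
  rw [incK_apply, incK_apply, coe_heckeBetaBar, coeffMap_qExpand]

theorem incK_alpha (y : FK ↥K₁ (M * q)) :
    incK h13 (M * q * q) (heckeAlphaBar ↥K₁ (M * q) q y) = incK h13 (M * q) y := by
  rw [incK_apply, incK_apply, coe_heckeAlphaBar]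

theorem twEmbK_beta (ζ : (↥K₃)ˣ) (hζ : ζ ^ q = 1) (b : ℕ) (y : FK ↥K₁ (M * q)) :
    twEmbK h13 M q ζ b (heckeBetaBar ↥K₁ (M * q) q y) = betaEmbK h13 M q y := by
  rw [twEmbK_apply, betaEmbK_apply, incK_beta]
  apply H18WP3.h18_tw_qExpand_of_pow_eq_one
  rw [← pow_mul, mul_comm, pow_mul, hζ, one_pow]

/-- the generator `J = j(𝐪)` of level `N` -/
def J1K (N : ℕ) [NeZero N] : FK ↥K₁ N := H3V3.JgenK ↥K₁ (⟨1, one_dvd N⟩ : Dv N)

theorem incK_J1K (N : ℕ) [NeZero N] : incK h13 N (J1K N) = jqModC ↥K₃ := by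
  haveI : NeZero (⟨1, one_dvd N⟩ : Dv N).1 := ⟨one_ne_zero⟩
  rw [J1K, incK_JgenK]
  exact qExpand_one_apply _

theorem twEmbK_J_coeff (ζ : (↥K₃)ˣ) (b : ℕ) :
    (twEmbK h13 M q ζ b (J1K (M * q * q))).coeff (-1) =
      (((ζ ^ b) ^ (-1 : ℤ) : (↥K₃)ˣ) : ↥K₃) := by
  rw [twEmbK_apply, tw_coeff, incK_J1K, coeff_jqModC_neg_one, mul_one]

theorem zeta_pow_inj (ζ : (↥K₃)ˣ) (hζ : IsPrimitiveRoot ζ q) {b b' : ℕ} (hb : b < q) (hb' : b' < q)
    (h : (((ζ ^ b) ^ (-1 : ℤ) : (↥K₃)ˣ) : ↥K₃) = (((ζ ^ b') ^ (-1 : ℤ) : (↥K₃)ˣ) : ↥K₃)) :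
    b = b' := by
  have h1 : ((ζ ^ b) ^ (-1 : ℤ) : (↥K₃)ˣ) = (ζ ^ b') ^ (-1 : ℤ) := Units.ext h
  have h2 : ζ ^ b = ζ ^ b' := by
    have := congrArg (fun u : (↥K₃)ˣ => u ^ (-1 : ℤ)) h1
    simpa using this
  exact hζ.pow_inj hb hb' h2

theorem twEmbK_injective (ζ : (↥K₃)ˣ) (hζ : IsPrimitiveRoot ζ q) :
    Function.Injective (fun b : Fin q => twEmbK h13 M q ζ (b : ℕ)) := by
  intro b b' h
  have h0 := congrArg (fun σ : FK ↥K₁ (M * q * q) →+* LaurentSeries ↥K₃ =>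
    (σ (J1K (M * q * q))).coeff (-1)) h
  simp only [twEmbK_J_coeff] at h0
  exact Fin.ext (zeta_pow_inj q ζ hζ b.2 b'.2 h0)

set_option synthInstance.maxHeartbeats 400000 in
set_option maxHeartbeats 1600000 in
theorem finiteDimensional_betaK (hq : q.Prime) (hqM : ¬ q ∣ M) :
    letI := algebraAlong (heckeBetaBar ↥K₁ (M * q) q)
    FiniteDimensional (FK ↥K₁ (M * q)) (FK ↥K₁ (M * q * q)) := by
  letI := algebraAlong (heckeBetaBar ↥K₁ (M * q) q)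
  apply Module.finite_of_finrank_pos
  rw [finrank_betaK K₁ M q hq hqM]
  exact hq.pos

set_option synthInstance.maxHeartbeats 400000 in
set_option maxHeartbeats 1600000 in
theorem finiteDimensional_alphaK (hq : q.Prime) :
    letI := algebraAlong (heckeAlphaBar ↥K₁ (M * q) q)
    FiniteDimensional (FK ↥K₁ (M * q)) (FK ↥K₁ (M * q * q)) := by
  letI := algebraAlong (heckeAlphaBar ↥K₁ (M * q) q)
  apply Module.finite_of_finrank_pos
  rw [finrank_alphaK ↥K₁ (M * q) q hq (dvd_mul_left q M)]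
  exact hq.pos

set_option synthInstance.maxHeartbeats 400000 in
set_option maxHeartbeats 1600000 in
/-- **[N1] over `K₁`: the norm along `β` is the product of the twists**:
`c (N_β x)(𝐪^q) = ∏_{b<q} (c x)(ζ^b 𝐪)`. -/
theorem normK_beta_twist (hq : q.Prime) (hqM : ¬ q ∣ M) (ζ : (↥K₃)ˣ)
    (hζ : IsPrimitiveRoot ζ q) (x : FK ↥K₁ (M * q * q)) :
    qExpand ↥K₃ q (incK h13 (M * q) (normBK K₁ M q x)) =
      ∏ b ∈ Finset.range q, tw (ζ ^ b) (incK h13 (M * q * q) x) := by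
  classical
  letI iA : Algebra (FK ↥K₁ (M * q)) (FK ↥K₁ (M * q * q)) :=
    algebraAlong (heckeBetaBar ↥K₁ (M * q) q)
  haveI hfd : FiniteDimensional (FK ↥K₁ (M * q)) (FK ↥K₁ (M * q * q)) :=
    finiteDimensional_betaK M q hq hqM
  have hrank : Module.finrank (FK ↥K₁ (M * q)) (FK ↥K₁ (M * q * q)) = q :=
    finrank_betaK K₁ M q hq hqM
  haveI : CharZero (FK ↥K₁ (M * q)) :=
    charZero_of_injective_algebraMap (algebraMap ↥K₁ (FK ↥K₁ (M * q))).injective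
  haveI : Algebra.IsSeparable (FK ↥K₁ (M * q)) (FK ↥K₁ (M * q * q)) := inferInstance
  have h := norm_eq_prod_of_embs (betaEmbK h13 M q) (fun b : Fin q => twEmbK h13 M q ζ (b : ℕ))
    (fun b y => twEmbK_beta h13 M q ζ hζ.pow_eq_one (b : ℕ) y) (twEmbK_injective h13 M q ζ hζ)
    (by rw [Fintype.card_fin, hrank]) x
  rw [Fin.prod_univ_eq_prod_range (fun b => twEmbK h13 M q ζ b x) q] at h
  exact h

/-! ### [N2] -/

omit [NeZero M] [NeZero q] in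
theorem sq_dvd_level : q ^ 2 ∣ M * q * q := ⟨M, by ring⟩

omit [NeZero M] [NeZero q] in
theorem not_cube_dvd_level (hq : q.Prime) (hqM : ¬ q ∣ M) : ¬ q ^ 3 ∣ M * q * q := by
  intro h
  have h1 : q ^ 2 * q ∣ q ^ 2 * M := by
    have e1 : q ^ 2 * q = q ^ 3 := by ring
    have e2 : q ^ 2 * M = M * q * q := by ring
    rw [e1, e2]
    exact h
  exact hqM ((Nat.mul_dvd_mul_iff_left (pow_pos hq.pos 2)).mp h1)

omit [NeZero M] [NeZero q] in
theorem not_sq_dvd_level (hq : q.Prime) (hqM : ¬ q ∣ M) : ¬ q ^ 2 ∣ M * q := by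
  intro h
  have h1 : q * q ∣ q * M := by
    have e1 : q * q = q ^ 2 := by ring
    rw [e1, mul_comm q M]
    exact h
  exact hqM ((Nat.mul_dvd_mul_iff_left hq.pos).mp h1)

omit [NeZero q] in
theorem prim_pow (hq : q.Prime) (ζ : (↥K₃)ˣ) (hζ : IsPrimitiveRoot ζ q) (b : ℕ) (hb0 : b ≠ 0)
    (hbq : b < q) : IsPrimitiveRoot (ζ ^ b) q := by
  apply hζ.pow_of_coprime
  refine ((Nat.Prime.coprime_iff_not_dvd hq).mpr ?_).symm
  intro h
  exact absurd (Nat.le_of_dvd (Nat.pos_of_ne_zero hb0) h) (not_le.mpr hbq)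

omit [NeZero q] in
theorem not_prim_one (hq : q.Prime) : ¬ IsPrimitiveRoot (1 : (↥K₃)ˣ) q := by
  intro h
  have := h.eq_orderOf
  rw [orderOf_one] at this
  exact hq.one_lt.ne' this

open Classical in
/-- the family of the `q` embeddings of `F₂` over `α F₁`: `ι_0 = c`, `ι_b = ι₃^{(ζ^b)}`. -/
def iotaB (hq : q.Prime) (hqM : ¬ q ∣ M) (ζ : (↥K₃)ˣ) (b : ℕ) :
    FK ↥K₁ (M * q * q) →+* LaurentSeries ↥K₃ :=
  if h : IsPrimitiveRoot (ζ ^ b) q then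
    H3V3.iota3 (M * q * q) q h13 hq (sq_dvd_level M q) (not_cube_dvd_level M q hq hqM) (ζ ^ b) h
  else incK h13 (M * q * q)

theorem iotaB_zero (hq : q.Prime) (hqM : ¬ q ∣ M) (ζ : (↥K₃)ˣ) :
    iotaB h13 M q hq hqM ζ 0 = incK h13 (M * q * q) := by
  unfold iotaB
  rw [dif_neg]
  rw [pow_zero]
  exact not_prim_one q hq

theorem iotaB_of_prim (hq : q.Prime) (hqM : ¬ q ∣ M) (ζ : (↥K₃)ˣ) (b : ℕ)
    (h : IsPrimitiveRoot (ζ ^ b) q) :
    iotaB h13 M q hq hqM ζ b =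
      H3V3.iota3 (M * q * q) q h13 hq (sq_dvd_level M q) (not_cube_dvd_level M q hq hqM)
        (ζ ^ b) h := by
  unfold iotaB
  rw [dif_pos h]

theorem iotaB_alpha (hq : q.Prime) (hqM : ¬ q ∣ M) (ζ : (↥K₃)ˣ) (b : ℕ)
    (y : FK ↥K₁ (M * q)) :
    iotaB h13 M q hq hqM ζ b (heckeAlphaBar ↥K₁ (M * q) q y) = incK h13 (M * q) y := by
  by_cases h : IsPrimitiveRoot (ζ ^ b) q
  · rw [iotaB_of_prim h13 M q hq hqM ζ b h,
      H3V3.iota3_of_level (M * q * q) q h13 hq (sq_dvd_level M q) (not_cube_dvd_level M q hq hqM)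
        (ζ ^ b) h (M * q) (dvd_mul_right (M * q) q) (not_sq_dvd_level M q hq hqM)
        (heckeAlphaBar ↥K₁ (M * q) q y) (by rw [coe_heckeAlphaBar]; exact y.2),
      coe_heckeAlphaBar]
    rfl
  · unfold iotaB
    rw [dif_neg h, incK_alpha]

/-- the generator `J₂ = j(𝐪^{q²})` of level `M q q` -/
def J2K : FK ↥K₁ (M * q * q) :=
  H3V3.JgenK ↥K₁ (⟨q ^ 2, sq_dvd_level M q⟩ : Dv (M * q * q))

theorem iotaB_J2K_of_prim (hq : q.Prime) (hqM : ¬ q ∣ M) (ζ : (↥K₃)ˣ) (b : ℕ)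
    (h : IsPrimitiveRoot (ζ ^ b) q) :
    iotaB h13 M q hq hqM ζ b (J2K M q) = tw (ζ ^ b) (jqModC ↥K₃) := by
  rw [iotaB_of_prim h13 M q hq hqM ζ b h, J2K,
    H3V3.iota3_Jhigh (M * q * q) q h13 hq (sq_dvd_level M q) (not_cube_dvd_level M q hq hqM)
      (ζ ^ b) h (⟨q ^ 2, sq_dvd_level M q⟩ : Dv (M * q * q)) 1 (by simp),
    qExpand_one_apply, H28GV.gv_coeffEmb_jq]

theorem incK_J2K : incK h13 (M * q * q) (J2K M q) = qExpand ↥K₃ (q ^ 2) (jqModC ↥K₃) := by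
  haveI : NeZero (⟨q ^ 2, sq_dvd_level M q⟩ : Dv (M * q * q)).1 :=
    ⟨pow_ne_zero 2 (NeZero.ne q)⟩
  rw [J2K, incK_JgenK]

/-- the coefficient of `𝐪⁻¹` of `ι_b J₂` -/
def cfB (ζ : (↥K₃)ˣ) (b : ℕ) : ↥K₃ :=
  if b = 0 then 0 else (((ζ ^ b) ^ (-1 : ℤ) : (↥K₃)ˣ) : ↥K₃)

theorem iotaB_J2K_coeff (hq : q.Prime) (hqM : ¬ q ∣ M) (ζ : (↥K₃)ˣ)
    (hζ : IsPrimitiveRoot ζ q) (b : ℕ) (hbq : b < q) :
    (iotaB h13 M q hq hqM ζ b (J2K M q)).coeff (-1) = cfB ζ b := by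
  by_cases hb0 : b = 0
  · subst hb0
    haveI : NeZero (q ^ 2) := ⟨pow_ne_zero 2 (NeZero.ne q)⟩
    rw [iotaB_zero, incK_J2K, cfB, if_pos rfl, qExpand_coeff_of_not_dvd]
    intro h
    have h2 : (2 : ℤ) ≤ ((q ^ 2 : ℕ) : ℤ) := by
      have := hq.two_le
      have h3 : 2 ≤ q ^ 2 := by nlinarith
      exact_mod_cast h3
    have h4 := Int.le_of_dvd (by norm_num) ((dvd_neg).mp h)
    omega
  · rw [iotaB_J2K_of_prim h13 M q hq hqM ζ b (prim_pow q hq ζ hζ b hb0 hbq), tw_coeff,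
      coeff_jqModC_neg_one, mul_one, cfB, if_neg hb0]

theorem cfB_inj (ζ : (↥K₃)ˣ) (hζ : IsPrimitiveRoot ζ q) {b b' : ℕ} (hb : b < q) (hb' : b' < q)
    (h : cfB ζ b = cfB ζ b') : b = b' := by
  unfold cfB at h
  by_cases hb0 : b = 0
  · by_cases hb0' : b' = 0
    · rw [hb0, hb0']
    · rw [if_pos hb0, if_neg hb0'] at h
      exact absurd h.symm (Units.ne_zero _)
  · by_cases hb0' : b' = 0
    · rw [if_neg hb0, if_pos hb0'] at h
      exact absurd h (Units.ne_zero _)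
    · rw [if_neg hb0, if_neg hb0'] at h
      exact zeta_pow_inj q ζ hζ hb hb' h

theorem iotaB_injective (hq : q.Prime) (hqM : ¬ q ∣ M) (ζ : (↥K₃)ˣ)
    (hζ : IsPrimitiveRoot ζ q) :
    Function.Injective (fun b : Fin q => iotaB h13 M q hq hqM ζ (b : ℕ)) := by
  intro b b' h
  have h0 := congrArg (fun σ : FK ↥K₁ (M * q * q) →+* LaurentSeries ↥K₃ =>
    (σ (J2K M q)).coeff (-1)) h
  simp only [iotaB_J2K_coeff h13 M q hq hqM ζ hζ _ b.2,
    iotaB_J2K_coeff h13 M q hq hqM ζ hζ _ b'.2] at h0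
  exact Fin.ext (cfB_inj q ζ hζ b.2 b'.2 h0)

set_option synthInstance.maxHeartbeats 400000 in
set_option maxHeartbeats 1600000 in
/-- **[N2] over `K₁`: the norm along `α` is the product of the `q` conjugates**
`ι_0 = c` (expansion at `∞`) and `ι_b = ι₃^{(ζ^b)}`, `0 < b < q` (expansions at the third cusp). -/
theorem normK_alpha_iota (hq : q.Prime) (hqM : ¬ q ∣ M) (ζ : (↥K₃)ˣ)
    (hζ : IsPrimitiveRoot ζ q) (x : FK ↥K₁ (M * q * q)) :
    incK h13 (M * q) (normAK K₁ M q x) =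
      ∏ b ∈ Finset.range q, iotaB h13 M q hq hqM ζ b x := by
  classical
  letI iA : Algebra (FK ↥K₁ (M * q)) (FK ↥K₁ (M * q * q)) :=
    algebraAlong (heckeAlphaBar ↥K₁ (M * q) q)
  haveI hfd : FiniteDimensional (FK ↥K₁ (M * q)) (FK ↥K₁ (M * q * q)) :=
    finiteDimensional_alphaK M q hq
  have hrank : Module.finrank (FK ↥K₁ (M * q)) (FK ↥K₁ (M * q * q)) = q :=
    finrank_alphaK ↥K₁ (M * q) q hq (dvd_mul_left q M)
  haveI : CharZero (FK ↥K₁ (M * q)) :=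
    charZero_of_injective_algebraMap (algebraMap ↥K₁ (FK ↥K₁ (M * q))).injective
  haveI : Algebra.IsSeparable (FK ↥K₁ (M * q)) (FK ↥K₁ (M * q * q)) := inferInstance
  have h := norm_eq_prod_of_embs (incK h13 (M * q))
    (fun b : Fin q => iotaB h13 M q hq hqM ζ (b : ℕ))
    (fun b y => iotaB_alpha h13 M q hq hqM ζ (b : ℕ) y) (iotaB_injective h13 M q hq hqM ζ hζ)
    (by rw [Fintype.card_fin, hrank]) x
  rw [Fin.prod_univ_eq_prod_range (fun b => iotaB h13 M q hq hqM ζ b x) q] at h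
  exact h

/-- [N2], with the factor at `∞` split off. -/
theorem normK_alpha_iota' (hq : q.Prime) (hqM : ¬ q ∣ M) (ζ : (↥K₃)ˣ)
    (hζ : IsPrimitiveRoot ζ q) (x : FK ↥K₁ (M * q * q)) :
    incK h13 (M * q) (normAK K₁ M q x) =
      incK h13 (M * q * q) x * ∏ b ∈ Finset.Ico 1 q, iotaB h13 M q hq hqM ζ b x := by
  rw [normK_alpha_iota h13 M q hq hqM ζ hζ x, Finset.range_eq_Ico,
    Finset.prod_eq_prod_Ico_succ_bot hq.pos, iotaB_zero]

end H13N3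

end
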