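import Mathlib
import Fermat.Agent.S36.NormKF_helper13
import Fermat.Agent.S36.DiscField_helper21
import Fermat.Agent.S36.DiscD2_helper15
import Fermat.Agent.S36.TripleDefs_helper4
import Fermat.Agent.S28.DegreeBounds

/-!
# Item 86 (S36), slice LOC-D, part (R3-D) (helper28): the discriminant of level `M q²` over
level `M q`

`K₁ ≤ K₃ ⊆ ℚ̄`, `q` prime, `q ∤ M`, `F₀ = FK K₁ (M q)`, `F = FK K₁ (M q q)` (an `F₀`-algebra along
`α`, the inclusion), `J₂ = j(𝐪^{q²}) = H13N3.J2K M q`, `Φ` the modular polynomial of level `q`.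

* `H28RD.sig` : the `q` embeddings `F → K₃((𝐪))` over `F₀`, indexed by
  `H28RD.Idx q = {i : Option (Fin q) // i ≠ some 0}` (helper13's `iotaB`):
  `sig_alpha`, `sig_J2K : σ_a J₂ = xconj K₃ q ζ a`, `sig_J2K_injective`;
* **`H28RD.incK_discr`** : `c₃ (discr_{F₀} (1, J₂, …, J₂^{q-1})) = ± coeffMap (disc2 q Φ)`
  (`H21DF.discr_pow_eq_prod_ne` + `H15D2.coeffMap_disc2_compl`);
* **`H28RD.coe_discr`** : the same in `K₁((𝐪))` (no `K₃`, no `ζ`);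
* **`H28RD.discr_bound`** : `discr = ϖ^m u`, `u` Gauss-integral ⟹ `m ≤ e (q - 2)`;
* **`H28RD.hdval_R3`** : `¬ v₁'(discr / ϖ^m) < 1` for `e (q - 2) ≤ m` (`v₁'` the Gauss valuation of
  level `M q`), the hypothesis `hdval` of `H20R3.two_gen_of_disc'`;
* **`H28RD.hdval_cV1'`** : the same in the concrete shape of the call (helper20): algebra
  `algebraAlong (heckeAlphaBar K₁ (M q) q)`, `b i = (H8TG.J2 K₁ (M q q) q _) ^ i`, `V' = H4S36.cV1'`,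
  `q = ε ϖ` (`K₁` unramified at `q`), `m = q - 2`; no `Φ` (`H28S28.h10_hasModEq_all`);
  `hdval_cV1'_e` : the same with `q = ε ϖ^e`, `e (q - 2) ≤ m`.
-/

set_option autoImplicit false
set_option linter.unusedSectionVars false
set_option linter.unusedVariables false
set_option linter.style.haveILetI false
set_option linter.style.longLine false
set_option synthInstance.maxHeartbeats 400000

noncomputable section

open AlgebraicCurve IntermediateField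
open ModularCurve RH24 H28S28 HahnSeries H7S18

namespace H28RD

/-! ### the index set -/

/-- the index set of the `q` conjugates of `j(𝐪^{q²})` over level `M q` -/
abbrev Idx (q : ℕ) [NeZero q] : Type := {i : Option (Fin q) // i ≠ H15D2.zi q}

/-- `none ↦ 0`, `some b ↦ b` -/
def idxNat (q : ℕ) : Option (Fin q) → ℕ
  | none => 0
  | some b => (b : ℕ)

theorem idxNat_lt (q : ℕ) [NeZero q] (i : Option (Fin q)) : idxNat q i < q := by
  cases i with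
  | none => exact Nat.pos_of_ne_zero (NeZero.ne q)
  | some b => exact b.2

theorem idxNat_some_ne_zero (q : ℕ) [NeZero q] (b : Fin q) (h : some b ≠ H15D2.zi q) :
    idxNat q (some b) ≠ 0 := by
  intro h0
  apply h
  unfold H15D2.zi
  congr 1
  exact Fin.ext h0

theorem idxNat_inj (q : ℕ) [NeZero q] (a a' : Idx q) (h : idxNat q a.1 = idxNat q a'.1) :
    a = a' := by
  obtain ⟨i, hi⟩ := a
  obtain ⟨i', hi'⟩ := a'
  apply Subtype.ext
  show i = i'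
  cases i with
  | none =>
    cases i' with
    | none => rfl
    | some b' => exact absurd h.symm (idxNat_some_ne_zero q b' hi')
  | some b =>
    cases i' with
    | none => exact absurd h (idxNat_some_ne_zero q b hi)
    | some b' =>
      congr 1
      exact Fin.ext h

theorem card_Idx (q : ℕ) [NeZero q] : Fintype.card (Idx q) = q := by
  rw [Fintype.card_of_subtype (H15D2.idx2 q) (fun i => H15D2.mem_idx2 q i)]
  exact H15D2.card_idx2 q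

theorem qExpand_congr_level (A : Type) [CommRing A] {n n' : ℕ} [NeZero n] [NeZero n']
    (h : n = n') (x : LaurentSeries A) : qExpand A n x = qExpand A n' x := by
  subst h
  rfl

/-! ### the embeddings -/

variable {K₁ K₃ : IntermediateField ℚ Kbar} (h13 : K₁ ≤ K₃) (M q : ℕ) [NeZero M] [NeZero q]

/-- the `q` embeddings of `F = FK K₁ (M q q)` over `F₀ = FK K₁ (M q)` -/
def sig (hq : q.Prime) (hqM : ¬ q ∣ M) (ζ : (↥K₃)ˣ) (a : Idx q) :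
    FK ↥K₁ (M * q * q) →+* LaurentSeries ↥K₃ :=
  H13N3.iotaB h13 M q hq hqM ζ (idxNat q a.1)

theorem sig_alpha (hq : q.Prime) (hqM : ¬ q ∣ M) (ζ : (↥K₃)ˣ) (a : Idx q)
    (y : FK ↥K₁ (M * q)) :
    sig h13 M q hq hqM ζ a (heckeAlphaBar ↥K₁ (M * q) q y) = H13N3.incK h13 (M * q) y :=
  H13N3.iotaB_alpha h13 M q hq hqM ζ _ y

theorem sig_J2K (hq : q.Prime) (hqM : ¬ q ∣ M) (ζ : (↥K₃)ˣ) (hζ : IsPrimitiveRoot ζ q)
    (a : Idx q) :
    sig h13 M q hq hqM ζ a (H13N3.J2K M q) = xconj ↥K₃ q ζ a.1 := by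
  obtain ⟨i, hi⟩ := a
  cases i with
  | none =>
    show H13N3.iotaB h13 M q hq hqM ζ 0 (H13N3.J2K M q) = qExpand ↥K₃ (q * q) (jqModC ↥K₃)
    rw [H13N3.iotaB_zero, H13N3.incK_J2K]
    exact qExpand_congr_level ↥K₃ (sq q) _
  | some b =>
    show H13N3.iotaB h13 M q hq hqM ζ (b : ℕ) (H13N3.J2K M q) = tw (ζ ^ (b : ℕ)) (jqModC ↥K₃)
    exact H13N3.iotaB_J2K_of_prim h13 M q hq hqM ζ b
      (H13N3.prim_pow q hq ζ hζ b (idxNat_some_ne_zero q b hi) b.2)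

theorem sig_J2K_injective (hq : q.Prime) (hqM : ¬ q ∣ M) (ζ : (↥K₃)ˣ)
    (hζ : IsPrimitiveRoot ζ q) :
    Function.Injective (fun a : Idx q => sig h13 M q hq hqM ζ a (H13N3.J2K M q)) := by
  intro a a' h
  have h0 := congrArg (fun x : LaurentSeries ↥K₃ => x.coeff (-1)) h
  simp only [sig] at h0
  rw [H13N3.iotaB_J2K_coeff h13 M q hq hqM ζ hζ _ (idxNat_lt q a.1),
    H13N3.iotaB_J2K_coeff h13 M q hq hqM ζ hζ _ (idxNat_lt q a'.1)] at h0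
  exact idxNat_inj q a a' (H13N3.cfB_inj q ζ hζ (idxNat_lt q a.1) (idxNat_lt q a'.1) h0)

/-! ### the discriminant -/

/-- **(R3-D)**: `c₃ (discr_{F₀} (1, J₂, …, J₂^{q-1})) = ± coeffMap (disc2 q Φ)`. -/
theorem incK_discr [Algebra (FK ↥K₁ (M * q)) (FK ↥K₁ (M * q * q))]
    [FiniteDimensional (FK ↥K₁ (M * q)) (FK ↥K₁ (M * q * q))]
    (halg : ∀ x, algebraMap (FK ↥K₁ (M * q)) (FK ↥K₁ (M * q * q)) x =
      heckeAlphaBar ↥K₁ (M * q) q x)
    (hfr : Module.finrank (FK ↥K₁ (M * q)) (FK ↥K₁ (M * q * q)) = q)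
    (hq : q.Prime) (hqM : ¬ q ∣ M) (ζ : (↥K₃)ˣ) (hζ : IsPrimitiveRoot ζ q)
    (Φ : Polynomial (Polynomial ℤ))
    (hΦ : Φ.map (baseEval ↥K₃ q) =
      ∏ i : Option (Fin q), (Polynomial.X - Polynomial.C (xconj ↥K₃ q ζ i))) :
    H13N3.incK h13 (M * q)
        (Algebra.discr (FK ↥K₁ (M * q)) (fun i : Fin q => H13N3.J2K (K₁ := K₁) M q ^ (i : ℕ))) =
      ((H21DF.vsign q : ℤ) : LaurentSeries ↥K₃) *
        coeffMap (Int.castRingHom ↥K₃) (H15D2.disc2 q Φ) := by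
  haveI : CharZero (FK ↥K₁ (M * q)) :=
    charZero_of_injective_algebraMap (algebraMap ↥K₁ (FK ↥K₁ (M * q))).injective
  have e : Fin q ≃ Idx q := (Fintype.equivFinOfCardEq (card_Idx q)).symm
  rw [H21DF.discr_pow_eq_prod_ne q hfr e (H13N3.incK h13 (M * q)) (sig h13 M q hq hqM ζ)
    (fun a x => by rw [halg]; exact sig_alpha h13 M q hq hqM ζ a x) (H13N3.J2K M q)
    (sig_J2K_injective h13 M q hq hqM ζ hζ),
    H15D2.coeffMap_disc2_compl q ↥K₃ ζ Φ hΦ]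
  congr 1
  refine Finset.prod_congr rfl (fun a _ => Finset.prod_congr rfl (fun b _ => ?_))
  rw [sig_J2K h13 M q hq hqM ζ hζ, sig_J2K h13 M q hq hqM ζ hζ]

/-! ### the statement in `K₁((𝐪))` -/

/-- a primitive `q`-th root of unity in `K₃ = ⊤` -/
theorem exists_zeta_top (q : ℕ) [NeZero q] :
    ∃ ζ : (↥(⊤ : IntermediateField ℚ Kbar))ˣ, IsPrimitiveRoot ζ q := by
  haveI : NeZero ((q : ℕ) : ℚ) := ⟨by exact_mod_cast NeZero.ne q⟩
  obtain ⟨ζ, hζ⟩ := HasEnoughRootsOfUnity.exists_primitiveRoot Kbar q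
  have h1 : IsPrimitiveRoot (⟨ζ, IntermediateField.mem_top⟩ : ↥(⊤ : IntermediateField ℚ Kbar)) q :=
    IsPrimitiveRoot.of_map_of_injective (f := (⊤ : IntermediateField ℚ Kbar).val) hζ
      (⊤ : IntermediateField ℚ Kbar).val.injective
  have hu : IsUnit (⟨ζ, IntermediateField.mem_top⟩ : ↥(⊤ : IntermediateField ℚ Kbar)) :=
    h1.isUnit (NeZero.ne q)
  refine ⟨hu.unit, ?_⟩
  rw [← IsPrimitiveRoot.coe_units_iff, IsUnit.unit_spec]
  exact h1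

/-- **(R3-D) over `K₁`**: `discr_{F₀} (1, J₂, …, J₂^{q-1}) = ± disc2 q Φ` as series. -/
theorem coe_discr {K₁ : IntermediateField ℚ Kbar} (M q : ℕ) [NeZero M] [NeZero q]
    [Algebra (FK ↥K₁ (M * q)) (FK ↥K₁ (M * q * q))]
    [FiniteDimensional (FK ↥K₁ (M * q)) (FK ↥K₁ (M * q * q))]
    (halg : ∀ x, algebraMap (FK ↥K₁ (M * q)) (FK ↥K₁ (M * q * q)) x =
      heckeAlphaBar ↥K₁ (M * q) q x)
    (hfr : Module.finrank (FK ↥K₁ (M * q)) (FK ↥K₁ (M * q * q)) = q)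
    (hq : q.Prime) (hqM : ¬ q ∣ M) (Φ : Polynomial (Polynomial ℤ))
    (hΦ : ∀ (A : Type) [CommRing A] (ζ : Aˣ), (Polynomial.cyclotomic q A).eval (ζ : A) = 0 →
      Φ.map (baseEval A q) = ∏ i : Option (Fin q), (Polynomial.X - Polynomial.C (xconj A q ζ i))) :
    ((Algebra.discr (FK ↥K₁ (M * q)) (fun i : Fin q => H13N3.J2K (K₁ := K₁) M q ^ (i : ℕ)) :
        FK ↥K₁ (M * q)) : LaurentSeries ↥K₁) =
      ((H21DF.vsign q : ℤ) : LaurentSeries ↥K₁) *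
        coeffMap (Int.castRingHom ↥K₁) (H15D2.disc2 q Φ) := by
  obtain ⟨ζ, hζ⟩ := exists_zeta_top q
  have h13 : K₁ ≤ (⊤ : IntermediateField ℚ Kbar) := le_top
  have hroot : (Polynomial.cyclotomic q ↥(⊤ : IntermediateField ℚ Kbar)).eval
      ((ζ : (↥(⊤ : IntermediateField ℚ Kbar))ˣ) : ↥(⊤ : IntermediateField ℚ Kbar)) = 0 :=
    ((IsPrimitiveRoot.coe_units_iff.2 hζ).isRoot_cyclotomic
      (Nat.pos_of_ne_zero (NeZero.ne q))).eq_zero
  have h := incK_discr h13 M q halg hfr hq hqM ζ hζ Φ (hΦ _ ζ hroot)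
  rw [H13N3.incK_apply] at h
  apply (coeffMap (IntermediateField.inclusion h13 : ↥K₁ →+* ↥(⊤ : IntermediateField ℚ Kbar))).injective
  have hc : coeffMap (IntermediateField.inclusion h13 : ↥K₁ →+* ↥(⊤ : IntermediateField ℚ Kbar))
      (coeffMap (Int.castRingHom ↥K₁) (H15D2.disc2 q Φ)) =
      coeffMap (Int.castRingHom ↥(⊤ : IntermediateField ℚ Kbar)) (H15D2.disc2 q Φ) := by
    rw [coeffMap_coeffMap]
    exact coeffMap_congr (RingHom.ext_int _ _) _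
  rw [h, map_mul, map_intCast, hc]

/-! ### the Gauss bound -/

open H8PB in
/-- **(R3-D), Gauss bound**: `discr = ϖ^m u`, `u` Gauss-integral ⟹ `m ≤ e (q - 2)`. -/
theorem discr_bound {K₁ : IntermediateField ℚ Kbar} (M q : ℕ) [NeZero M] [NeZero q]
    [Algebra (FK ↥K₁ (M * q)) (FK ↥K₁ (M * q * q))]
    [FiniteDimensional (FK ↥K₁ (M * q)) (FK ↥K₁ (M * q * q))]
    (halg : ∀ x, algebraMap (FK ↥K₁ (M * q)) (FK ↥K₁ (M * q * q)) x =
      heckeAlphaBar ↥K₁ (M * q) q x)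
    (hfr : Module.finrank (FK ↥K₁ (M * q)) (FK ↥K₁ (M * q * q)) = q)
    (hq : q.Prime) (hqM : ¬ q ∣ M) (Φ : Polynomial (Polynomial ℤ))
    (hΦ : ∀ (A : Type) [CommRing A] (ζ : Aˣ), (Polynomial.cyclotomic q A).eval (ζ : A) = 0 →
      Φ.map (baseEval A q) = ∏ i : Option (Fin q), (Polynomial.X - Polynomial.C (xconj A q ζ i)))
    (R₁ : ValuationSubring ↥K₁) (hR : R₁.LiesOverPrime q)
    (ϖ : R₁) (hϖ : ¬ IsUnit ϖ) (e : ℕ) (ε : R₁ˣ) (hpe : ((q : ℕ) : R₁) = (ε : R₁) * ϖ ^ e)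
    (m : ℕ) (u : LaurentSeries ↥K₁) (hu : InG R₁ u)
    (h : ((Algebra.discr (FK ↥K₁ (M * q)) (fun i : Fin q => H13N3.J2K (K₁ := K₁) M q ^ (i : ℕ)) :
        FK ↥K₁ (M * q)) : LaurentSeries ↥K₁) = HahnSeries.C ((ϖ : ↥K₁) ^ m) * u) :
    m ≤ e * (q - 2) := by
  rw [coe_discr M q halg hfr hq hqM Φ hΦ] at h
  have hs : ((H21DF.vsign q : ℤ) : LaurentSeries ↥K₁) * ((H21DF.vsign q : ℤ) : LaurentSeries ↥K₁) = 1 := by
    rcases H21DF.vsign_eq q with h1 | h1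
    · rw [h1]
      push_cast
      ring
    · rw [h1]
      push_cast
      ring
  have hu' : InG R₁ (((H21DF.vsign q : ℤ) : LaurentSeries ↥K₁) * u) := by
    rcases H21DF.vsign_eq q with h1 | h1
    · have e1 : (((1 : ℤ) : ℤ) : LaurentSeries ↥K₁) * u = u := by
        push_cast
        ring
      rw [h1, e1]
      exact hu
    · have e1 : (((-1 : ℤ) : ℤ) : LaurentSeries ↥K₁) * u = -u := by
        push_cast
        ring
      rw [h1, e1]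
      exact H10FC.inG_neg R₁ hu
  refine H15D2.d2_bound_pow R₁ q hq Φ hΦ hR ϖ hϖ e ε hpe m _ hu' ?_
  calc coeffMap (Int.castRingHom ↥K₁) (H15D2.disc2 q Φ)
      = ((H21DF.vsign q : ℤ) : LaurentSeries ↥K₁) * (((H21DF.vsign q : ℤ) : LaurentSeries ↥K₁) *
          coeffMap (Int.castRingHom ↥K₁) (H15D2.disc2 q Φ)) := by
        rw [← mul_assoc, hs, one_mul]
    _ = HahnSeries.C ((ϖ : ↥K₁) ^ m) * (((H21DF.vsign q : ℤ) : LaurentSeries ↥K₁) * u) := by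
        rw [h]
        ring

/-- **(R3-D), the hypothesis `hdval` of `H20R3.two_gen_of_disc'`**: the Gauss valuation of level
`M q` of `discr / ϖ^m` is not `< 1`, for `e (q - 2) ≤ m`. -/
theorem hdval_R3 {K₁ : IntermediateField ℚ Kbar} (M q : ℕ) [NeZero M] [NeZero q]
    [Algebra (FK ↥K₁ (M * q)) (FK ↥K₁ (M * q * q))]
    [FiniteDimensional (FK ↥K₁ (M * q)) (FK ↥K₁ (M * q * q))]
    (halg : ∀ x, algebraMap (FK ↥K₁ (M * q)) (FK ↥K₁ (M * q * q)) x =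
      heckeAlphaBar ↥K₁ (M * q) q x)
    (hfr : Module.finrank (FK ↥K₁ (M * q)) (FK ↥K₁ (M * q * q)) = q)
    (hq : q.Prime) (hqM : ¬ q ∣ M) (Φ : Polynomial (Polynomial ℤ))
    (hΦ : ∀ (A : Type) [CommRing A] (ζ : Aˣ), (Polynomial.cyclotomic q A).eval (ζ : A) = 0 →
      Φ.map (baseEval A q) = ∏ i : Option (Fin q), (Polynomial.X - Polynomial.C (xconj A q ζ i)))
    (R₁ : ValuationSubring ↥K₁) [IsDiscreteValuationRing R₁] (hR : R₁.LiesOverPrime q)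
    [Algebra ↥R₁ (FK ↥K₁ (M * q))] [IsScalarTower ↥R₁ ↥K₁ (FK ↥K₁ (M * q))]
    (ϖ : R₁) (hϖ : Irreducible ϖ) (e : ℕ) (ε : R₁ˣ) (hpe : ((q : ℕ) : R₁) = (ε : R₁) * ϖ ^ e)
    (m : ℕ) (hm : e * (q - 2) ≤ m) :
    ¬ (H10FC.gaussVal R₁ (M * q)).valuation
        (Algebra.discr (FK ↥K₁ (M * q)) (fun i : Fin q => H13N3.J2K (K₁ := K₁) M q ^ (i : ℕ)) *
          (algebraMap ↥R₁ (FK ↥K₁ (M * q)) ϖ ^ m)⁻¹) < 1 := by
  intro hlt
  have hmem := H10FC.gaussVal_unif M q K₁ R₁ hϖ _ hlt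
  rw [H10FC.mem_gaussVal] at hmem
  have hϖ0 : (algebraMap ↥R₁ (FK ↥K₁ (M * q)) ϖ) ≠ 0 := by
    intro h
    have h1 := congrArg (fun z : FK ↥K₁ (M * q) => (z : LaurentSeries ↥K₁)) h
    simp only [H10FC.coe_algebraMap_unif] at h1
    have h2 := congrArg (fun z : LaurentSeries ↥K₁ => z.coeff 0) h1
    simp only [HahnSeries.C_apply, HahnSeries.coeff_single_same] at h2
    have h3 : (ϖ : ↥K₁) = 0 := h2
    exact hϖ.ne_zero (Subtype.ext h3)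
  set d := Algebra.discr (FK ↥K₁ (M * q)) (fun i : Fin q => H13N3.J2K (K₁ := K₁) M q ^ (i : ℕ)) with hd
  set u : FK ↥K₁ (M * q) := d * (algebraMap ↥R₁ (FK ↥K₁ (M * q)) ϖ ^ m)⁻¹ *
    (algebraMap ↥R₁ (FK ↥K₁ (M * q)) ϖ)⁻¹ with hu
  have hdu : d = algebraMap ↥R₁ (FK ↥K₁ (M * q)) ϖ ^ (m + 1) * u := by
    rw [hu, pow_succ]
    field_simp
  have hcoe : ((d : FK ↥K₁ (M * q)) : LaurentSeries ↥K₁) =
      HahnSeries.C ((ϖ : ↥K₁) ^ (m + 1)) * ((u : FK ↥K₁ (M * q)) : LaurentSeries ↥K₁) := by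
    conv_lhs => rw [hdu]
    show ((algebraMap ↥R₁ (FK ↥K₁ (M * q)) ϖ ^ (m + 1) : FK ↥K₁ (M * q)) : LaurentSeries ↥K₁) *
      ((u : FK ↥K₁ (M * q)) : LaurentSeries ↥K₁) = _
    congr 1
    rw [map_pow]
    show ((algebraMap ↥R₁ (FK ↥K₁ (M * q)) ϖ : FK ↥K₁ (M * q)) : LaurentSeries ↥K₁) ^ (m + 1) = _
    rw [H10FC.coe_algebraMap_unif]
  have hb := discr_bound M q halg hfr hq hqM Φ hΦ R₁ hR ϖ hϖ.not_isUnit e ε hpe (m + 1) _ hmem hcoe
  omega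

/-! ### the concrete shape -/

/-- the modular polynomial of level `q` exists -/
theorem exists_modPoly (q : ℕ) [NeZero q] (hq : q.Prime) :
    ∃ Φ : Polynomial (Polynomial ℤ),
      ∀ (A : Type) [CommRing A] (ζ : Aˣ), (Polynomial.cyclotomic q A).eval (ζ : A) = 0 →
        Φ.map (baseEval A q) =
          ∏ i : Option (Fin q), (Polynomial.X - Polynomial.C (xconj A q ζ i)) := by
  obtain ⟨Φ, -, -, h⟩ := h10_exists_modPoly q (h10_hasModEq_all q hq)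
  exact ⟨Φ, h⟩

/-- helper13's `J2K` is helper8's `J2` -/
theorem J2K_eq_J2 {K₁ : IntermediateField ℚ Kbar} (M q : ℕ) [NeZero M] [NeZero q]
    (h : q * q ∣ M * q * q) :
    H13N3.J2K (K₁ := K₁) M q = H8TG.J2 ↥K₁ (M * q * q) q h := by
  apply Subtype.ext
  haveI : NeZero (⟨q ^ 2, H13N3.sq_dvd_level M q⟩ : Dv (M * q * q)).1 :=
    ⟨pow_ne_zero 2 (NeZero.ne q)⟩
  show ((H3V3.JgenK ↥K₁ (⟨q ^ 2, H13N3.sq_dvd_level M q⟩ : Dv (M * q * q)) :
    FK ↥K₁ (M * q * q)) : LaurentSeries ↥K₁) = qExpand ↥K₁ (q * q) (jqModC ↥K₁)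
  rw [H3V3.coe_JgenK, H28GV.gv_coeffEmb_qExpand, H28GV.gv_coeffEmb_jq]
  exact qExpand_congr_level ↥K₁ (sq q) _

theorem liesOver_of_unif {K₁ : IntermediateField ℚ Kbar} (R₁ : ValuationSubring ↥K₁)
    (q : ℕ) (ϖ : R₁) (hϖ : ¬ IsUnit ϖ) (e : ℕ) (he : e ≠ 0) (ε : R₁ˣ)
    (hpe : ((q : ℕ) : R₁) = (ε : R₁) * ϖ ^ e) : R₁.LiesOverPrime q := by
  show ((q : ℕ) : ↥K₁) ∈ R₁.nonunits
  rw [ValuationSubring.mem_nonunits_iff_exists_mem_maximalIdeal]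
  have hq' : ((q : ℕ) : ↥K₁) = (((q : ℕ) : R₁) : ↥K₁) := by simp
  have hmem : ((q : ℕ) : ↥K₁) ∈ R₁ := by
    rw [hq']
    exact ((q : ℕ) : R₁).2
  refine ⟨hmem, ?_⟩
  have e1 : (⟨((q : ℕ) : ↥K₁), hmem⟩ : R₁) = ((q : ℕ) : R₁) := Subtype.ext hq'
  rw [e1, hpe, IsLocalRing.mem_maximalIdeal, mem_nonunits_iff]
  intro hu
  have h1 : IsUnit (ϖ ^ e) := isUnit_of_mul_isUnit_right hu
  exact hϖ ((isUnit_pow_iff he).1 h1)

set_option maxHeartbeats 1600000 in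
/-- **(D-val) for (R3), general ramification index**. -/
theorem hdval_cV1'_e (K₁ : IntermediateField ℚ Kbar) (R₁ : ValuationSubring ↥K₁)
    [IsDiscreteValuationRing R₁] (M q : ℕ) [NeZero M] [NeZero q] (hq : q.Prime) (hqM : ¬ q ∣ M)
    [Algebra ↥R₁ (FK ↥K₁ (M * q))] [IsScalarTower ↥R₁ ↥K₁ (FK ↥K₁ (M * q))]
    (ϖ : R₁) (hϖ : Irreducible ϖ) (e : ℕ) (he : e ≠ 0) (ε : R₁ˣ)
    (hpe : ((q : ℕ) : R₁) = (ε : R₁) * ϖ ^ e)
    (m : ℕ) (hm : e * (q - 2) ≤ m) (h : q * q ∣ M * q * q) :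
    letI := algebraAlong (heckeAlphaBar ↥K₁ (M * q) q)
    ¬ (H4S36.cV1' K₁ R₁ M q).valuation
        (Algebra.discr (FK ↥K₁ (M * q))
            (fun i : Fin q => H8TG.J2 ↥K₁ (M * q * q) q h ^ (i : ℕ)) *
          (algebraMap ↥R₁ (FK ↥K₁ (M * q)) ϖ ^ m)⁻¹) < 1 := by
  letI iA : Algebra (FK ↥K₁ (M * q)) (FK ↥K₁ (M * q * q)) :=
    algebraAlong (heckeAlphaBar ↥K₁ (M * q) q)
  haveI hfd : FiniteDimensional (FK ↥K₁ (M * q)) (FK ↥K₁ (M * q * q)) :=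
    H13N3.finiteDimensional_alphaK M q hq
  have hrank : Module.finrank (FK ↥K₁ (M * q)) (FK ↥K₁ (M * q * q)) = q :=
    H13N3.finrank_alphaK ↥K₁ (M * q) q hq (dvd_mul_left q M)
  obtain ⟨Φ, hΦ⟩ := exists_modPoly q hq
  have hR := liesOver_of_unif R₁ q ϖ hϖ.not_isUnit e he ε hpe
  have key := hdval_R3 (K₁ := K₁) M q (fun x => rfl) hrank hq hqM Φ hΦ R₁ hR ϖ hϖ e ε hpe m hm
  rw [J2K_eq_J2 M q h] at key
  exact key

set_option maxHeartbeats 1600000 in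
/-- **(D-val) for (R3)**, `K₁` unramified at `q` (`q = ε ϖ`), `m = q - 2`: the hypothesis `hdval`
of the concrete call of `H20R3.two_gen_of_disc'`. -/
theorem hdval_cV1' (K₁ : IntermediateField ℚ Kbar) (R₁ : ValuationSubring ↥K₁)
    [IsDiscreteValuationRing R₁] (M q : ℕ) [NeZero M] [NeZero q] (hq : q.Prime) (hqM : ¬ q ∣ M)
    [Algebra ↥R₁ (FK ↥K₁ (M * q))] [IsScalarTower ↥R₁ ↥K₁ (FK ↥K₁ (M * q))]
    (ϖ : R₁) (hϖ : Irreducible ϖ) (ε : R₁ˣ) (hpe : ((q : ℕ) : R₁) = (ε : R₁) * ϖ)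
    (h : q * q ∣ M * q * q) :
    letI := algebraAlong (heckeAlphaBar ↥K₁ (M * q) q)
    ¬ (H4S36.cV1' K₁ R₁ M q).valuation
        (Algebra.discr (FK ↥K₁ (M * q))
            (fun i : Fin q => H8TG.J2 ↥K₁ (M * q * q) q h ^ (i : ℕ)) *
          (algebraMap ↥R₁ (FK ↥K₁ (M * q)) ϖ ^ (q - 2))⁻¹) < 1 :=
  hdval_cV1'_e K₁ R₁ M q hq hqM ϖ hϖ 1 one_ne_zero ε (by rw [pow_one]; exact hpe) (q - 2)
    (by rw [one_mul]) h

end H28RD

end
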