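/-
helper16: item 86 (S36), LOC, leaf (G0-VAL): `H16G0.g0Nq`, `H16G0.g0Nq2` in the VALUATION
language of the architect's concrete objects `H4S36.cV1' = H10FC.gaussVal R₁ (M q)`,
`H4S36.cV2' = H10FC.gaussVal2 M q hq hqM K₁ R₁` (`R₁ = descVal A K₁`).

* `H16G0.g0Val`  : at a closed point `𝔫` of the chart `c ∈ {t, t⁻¹}` of level `M q` which is
  not on `C₂'` (`g ∉ 𝔫`, `v₂'(g) < 1`): `x₀` with `H16G0.RegData`, `¬ v₁'(x₀) < 1` and
  `hprin : v₁'(y) < 1 → y / ϖ ∈ B_𝔫`   (= the inputs `x₀ hG0 hx₀ hprin` of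
  `H20R3.two_gen_of_triple`);
* `H16G0.g0Val2` : the same with `C₁'`, `C₂'` exchanged (points `H26DI.IsDichPt t c 𝔫`).
Base: ANY number field `K₁ ∋ ζ_{e₀}`, `e₀ = branchIndex (baseKind q) M` (no normality).
-/
import Mathlib
import Fermat.Agent.S36.G0Nq_helper16
import Fermat.Agent.S36.TripleDefs_helper4

set_option autoImplicit false
set_option synthInstance.maxHeartbeats 400000
set_option maxHeartbeats 1000000
set_option linter.unusedSectionVars false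
set_option linter.unusedVariables false
set_option linter.style.haveILetI false

noncomputable section

open Polynomial IntermediateField ModularCurve H7S18 H4S34 H26DI

namespace H16G0

variable (M : ℕ) [NeZero M] (q : ℕ) [NeZero q] (hq : q.Prime) (hqM : ¬ q ∣ M)
  (hT : TameLevel q M)
  (A : ValuationSubring (AlgebraicClosure ℚ)) (hA : A.LiesOverPrime q)
  (K₁ : IntermediateField ℚ (AlgebraicClosure ℚ)) (hfin : FiniteDimensional ℚ K₁)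
  (hζ : ∃ ζ : K₁, IsPrimitiveRoot ζ (branchIndex (baseKind q) M))
  [IsDiscreteValuationRing ↥(descVal A K₁)]
  [Algebra ↥(descVal A K₁) (FK K₁ (M * q))]
  [IsScalarTower ↥(descVal A K₁) K₁ (FK K₁ (M * q))]
  (ϖ : ↥(descVal A K₁)) (hϖ : Irreducible ϖ)
  (t₀ : LaurentSeries ℚ) (ht₀ : IsBase (baseKind q) t₀)
  (t : FK K₁ (M * q)) (ht : (t : LaurentSeries K₁) = coeffEmb K₁ t₀)

include hT hA hfin hζ hϖ ht₀ ht in
/-- **(G0-VAL)**, first component. -/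
theorem g0Val (c : FK K₁ (M * q)) (hc : c = t ∨ c = t⁻¹)
    (𝔫 : Ideal (Chart ↥(descVal A K₁) c)) (h𝔫 : IsClosedPt ↥(descVal A K₁) ϖ c 𝔫)
    (g : Chart ↥(descVal A K₁) c) (hg : g ∉ 𝔫)
    (hg2 : (H4S36.cV2' K₁ (descVal A K₁) M q hq hqM).valuation (g : FK K₁ (M * q)) < 1) :
    ∃ x₀ : Chart ↥(descVal A K₁) c, RegData ↥(descVal A K₁) ϖ c 𝔫 x₀ ∧
      ¬ (H4S36.cV1' K₁ (descVal A K₁) M q).valuation (x₀ : FK K₁ (M * q)) < 1 ∧
      ∀ y : Chart ↥(descVal A K₁) c,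
        (H4S36.cV1' K₁ (descVal A K₁) M q).valuation (y : FK K₁ (M * q)) < 1 →
        InLoc ↥(descVal A K₁) c 𝔫
          ((y : FK K₁ (M * q)) * (algebraMap ↥(descVal A K₁) (FK K₁ (M * q)) ϖ)⁻¹) := by
  obtain ⟨x₀, h1, h2, h3⟩ := g0Nq M q hq hqM hT A hA K₁ hfin hζ ϖ hϖ t₀ ht₀ t ht c hc 𝔫 h𝔫 g hg
    ((H10FC.gaussVal2_lt_one M q hq hqM K₁ (descVal A K₁) _).mp hg2)
  refine ⟨x₀, h1, fun h => h2 ?_, fun y hy => h3 y ?_⟩
  · exact (H10FC.gaussVal_lt_one (descVal A K₁) (M * q) _).mp h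
  · exact (H10FC.gaussVal_lt_one (descVal A K₁) (M * q) _).mp hy

include hT hA hfin hζ hϖ ht₀ ht in
/-- **(G0-VAL)**, second component. -/
theorem g0Val2 (c : FK K₁ (M * q))
    (𝔫 : Ideal (Chart ↥(descVal A K₁) c)) (h𝔫 : IsClosedPt ↥(descVal A K₁) ϖ c 𝔫)
    (hd : IsDichPt t c 𝔫)
    (g : Chart ↥(descVal A K₁) c) (hg : g ∉ 𝔫)
    (hg1 : (H4S36.cV1' K₁ (descVal A K₁) M q).valuation (g : FK K₁ (M * q)) < 1) :
    ∃ x₀ : Chart ↥(descVal A K₁) c, RegData ↥(descVal A K₁) ϖ c 𝔫 x₀ ∧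
      ¬ (H4S36.cV2' K₁ (descVal A K₁) M q hq hqM).valuation (x₀ : FK K₁ (M * q)) < 1 ∧
      ∀ y : Chart ↥(descVal A K₁) c,
        (H4S36.cV2' K₁ (descVal A K₁) M q hq hqM).valuation (y : FK K₁ (M * q)) < 1 →
        InLoc ↥(descVal A K₁) c 𝔫
          ((y : FK K₁ (M * q)) * (algebraMap ↥(descVal A K₁) (FK K₁ (M * q)) ϖ)⁻¹) := by
  obtain ⟨x₀, h1, h2, h3⟩ := g0Nq2 M q hq hqM hT A hA K₁ hfin hζ ϖ hϖ t₀ ht₀ t ht c 𝔫 h𝔫 hd g hg
    ((H10FC.gaussVal_lt_one (descVal A K₁) (M * q) _).mp hg1)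
  refine ⟨x₀, h1, fun h => h2 ?_, fun y hy => h3 y ?_⟩
  · exact (H10FC.gaussVal2_lt_one M q hq hqM K₁ (descVal A K₁) _).mp h
  · exact (H10FC.gaussVal2_lt_one M q hq hqM K₁ (descVal A K₁) _).mp hy

end H16G0

end
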