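import Mathlib
import Fermat.Agent.S36.TGIncl_helper8
import Fermat.Agent.S37.R2U4PairDeg_helper2

/-!
# Item 86 (S36), LOC-DISC leaf (MINPOLY): the minimal polynomials of `j(𝐪^q)` and `j(𝐪^{q²})`
(helper28)

`K₁ ⊆ ℚ̄`, `R` a valuation subring of `K₁` of residue characteristic `q`, `q ∤ M`,
`Φ` a modular polynomial of level `q` (`H28S28.h10IsModPoly q Φ`), `J = j(𝐪)`, `J₁ = j(𝐪^q)`,
`J₂ = j(𝐪^{q²})`.

* `H28MP.minpoly_eq_of_adjoin_top` (Mathlib only): a monic polynomial of degree `[F : F₀]`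
  with root a generator of `F / F₀` is the minimal polynomial;
* **(M1)** `H28MP.minpoly_J1` : over `F₀ = FK K₁ M`, in `F = FK K₁ (M q)`:
  `minpoly F₀ J₁ = Φ(J, Y)` (`= H28MP.phiAt`), of degree `q + 1 = [F : F₀]`, `adjoin_J1`;
* **(M2)** `H28MP.minpoly_J2` : over `F₀ = FK K₁ (M q)`, in `F = FK K₁ L`, `L = M q q`:
  `minpoly F₀ J₂ = Ψ := Φ(J₁, Y) /ₘ (Y - J)` (`= H28MP.psiAt`), of degree `q = [F : F₀]`;
* the power bases `pbJ1`, `pbJ2` (`gen`, `dim`, `minpoly_gen`);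
* the images in `K₁((𝐪))[Y]`: `map_phiAt`, `map_psiAt`.

The algebra structure `F₀ → F` is ANY one that is the inclusion on Laurent series
(hypothesis `hc`), e.g. `algebraAlong (heckeAlphaBar K₁ _ q)` or `(H8TG.incl ..).toAlgebra`.
-/

set_option autoImplicit false
set_option linter.unusedSectionVars false
set_option linter.unusedVariables false
set_option linter.style.haveILetI false
set_option linter.style.longLine false
set_option synthInstance.maxHeartbeats 400000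

noncomputable section

open ModularCurve HahnSeries H28GV H7S18 Polynomial

namespace H28MP

/-! ### generic -/

section generic

variable {F₀ F : Type*} [Field F₀] [Field F] [Algebra F₀ F]

/-- a monic polynomial of degree `[F : F₀]` killing a generator is the minimal polynomial -/
theorem minpoly_eq_of_adjoin_top (Y : F) (P : Polynomial F₀) (hP : P.Monic)
    (hroot : Polynomial.aeval Y P = 0) (htop : Algebra.adjoin F₀ {Y} = ⊤)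
    (hdeg : P.natDegree = Module.finrank F₀ F) : minpoly F₀ Y = P := by
  have hint : IsIntegral F₀ Y := ⟨P, hP, hroot⟩
  have h1 : Module.finrank F₀ F = (minpoly F₀ Y).natDegree := by
    have h := (PowerBasis.ofAdjoinEqTop hint htop).finrank
    rw [PowerBasis.ofAdjoinEqTop_dim] at h
    exact h
  have hdvd : minpoly F₀ Y ∣ P := minpoly.dvd F₀ Y hroot
  exact (Polynomial.eq_of_monic_of_dvd_of_natDegree_le (minpoly.monic hint) hP hdvd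
    (by rw [hdeg, h1])).symm

/-- the generator from a span by powers -/
theorem adjoin_eq_top_of_span (Y : F) (n : ℕ)
    (h : ∀ x : F, ∃ c : Fin n → F₀, x = ∑ k : Fin n, algebraMap F₀ F (c k) * Y ^ (k : ℕ)) :
    Algebra.adjoin F₀ {Y} = ⊤ := by
  have hY : Y ∈ Algebra.adjoin F₀ {Y} := Algebra.subset_adjoin (Set.mem_singleton Y)
  rw [eq_top_iff]
  intro x _
  obtain ⟨c, hx⟩ := h x
  rw [hx]
  exact sum_mem (fun k _ => mul_mem (Subalgebra.algebraMap_mem _ (c k)) (pow_mem hY _))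

end generic

/-! ### the polynomials -/

section polys

variable (K : Type) [Field K] [Algebra ℚ K]

/-- `Φ(a, Y)` for `a` in a modular function field -/
def phiAt {N : ℕ} [NeZero N] (Φ : Polynomial (Polynomial ℤ)) (a : FK K N) :
    Polynomial (FK K N) :=
  Φ.map (Polynomial.eval₂RingHom (Int.castRingHom (FK K N)) a)

theorem phiAt_monic {N : ℕ} [NeZero N] (Φ : Polynomial (Polynomial ℤ)) (hΦ : Φ.Monic)
    (a : FK K N) : (phiAt K Φ a).Monic := hΦ.map _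

theorem phiAt_natDegree {N : ℕ} [NeZero N] (Φ : Polynomial (Polynomial ℤ)) (hΦ : Φ.Monic)
    (a : FK K N) : (phiAt K Φ a).natDegree = Φ.natDegree := hΦ.natDegree_map _

/-- the value map of a modular function field -/
abbrev valHom (N : ℕ) [NeZero N] : FK K N →+* LaurentSeries K :=
  (laurentBaseChange K (modularFunctionFieldFull N)).val.toRingHom

theorem valHom_apply (N : ℕ) [NeZero N] (x : FK K N) :
    valHom K N x = (x : LaurentSeries K) := rfl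

theorem valHom_injective (N : ℕ) [NeZero N] : Function.Injective (valHom K N) :=
  Subtype.val_injective

theorem valHom_comp_eval {N : ℕ} [NeZero N] (a : FK K N) :
    (valHom K N).comp (Polynomial.eval₂RingHom (Int.castRingHom (FK K N)) a) =
      H28S28.h10ev (a : LaurentSeries K) := by
  refine Polynomial.ringHom_ext' (Subsingleton.elim _ _) ?_
  simp [H28S28.h10ev]

/-- **the image of `Φ(a, Y)` in `K((𝐪))[Y]`** -/
theorem map_phiAt {N : ℕ} [NeZero N] (Φ : Polynomial (Polynomial ℤ)) (a : FK K N) :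
    (phiAt K Φ a).map (valHom K N) = Φ.map (H28S28.h10ev (a : LaurentSeries K)) := by
  rw [phiAt, Polynomial.map_map, valHom_comp_eval]

/-- evaluation of `Φ(a, Y)` at a series -/
theorem eval₂_phiAt {N : ℕ} [NeZero N] (Φ : Polynomial (Polynomial ℤ)) (a : FK K N)
    (x : LaurentSeries K) :
    (phiAt K Φ a).eval₂ (valHom K N) x = H28S28.h10ev2 Φ (a : LaurentSeries K) x := by
  rw [phiAt, Polynomial.eval₂_map, valHom_comp_eval]
  rfl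

end polys

/-! ### evaluation in an extension which is the inclusion on series -/

section ext

variable (K : Type) [Field K] [Algebra ℚ K]
variable {N L : ℕ} [NeZero N] [NeZero L] [Algebra (FK K N) (FK K L)]

theorem valHom_comp_algebraMap
    (hc : ∀ x : FK K N, ((algebraMap (FK K N) (FK K L) x : FK K L) : LaurentSeries K) =
      (x : LaurentSeries K)) :
    (valHom K L).comp (algebraMap (FK K N) (FK K L)) = valHom K N :=
  RingHom.ext fun x => hc x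

/-- the value of `aeval y P` as a series -/
theorem coe_aeval
    (hc : ∀ x : FK K N, ((algebraMap (FK K N) (FK K L) x : FK K L) : LaurentSeries K) =
      (x : LaurentSeries K)) (P : Polynomial (FK K N)) (y : FK K L) :
    ((Polynomial.aeval y P : FK K L) : LaurentSeries K) =
      P.eval₂ (valHom K N) (y : LaurentSeries K) := by
  have h1 : ((Polynomial.aeval y P : FK K L) : LaurentSeries K) =
      valHom K L (Polynomial.eval₂ (algebraMap (FK K N) (FK K L)) y P) := rfl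
  rw [h1, Polynomial.hom_eval₂, valHom_comp_algebraMap K hc]
  rfl

end ext

/-! ### (M1): `j(𝐪^q)` over the level `M` -/

section M1

variable (K₁ : IntermediateField ℚ RH24.Kbar) (R : ValuationSubring ↥K₁)
variable (M q : ℕ) [NeZero M] [NeZero q]
variable [CharP (IsLocalRing.ResidueField R) q]
variable [Algebra (FK ↥K₁ M) (FK ↥K₁ (M * q))]

/-- `J₁ = j(𝐪^q)` in `F_{K₁}(M q)` -/
abbrev gJ1 : FK ↥K₁ (M * q) := H8TG.J1 ↥K₁ (M * q) q (dvd_mul_left q M)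

/-- `Φ(J, Y)` over `F_{K₁}(M)` -/
abbrev phi1 (Φ : Polynomial (Polynomial ℤ)) : Polynomial (FK ↥K₁ M) :=
  phiAt ↥K₁ Φ (H8TG.J0 ↥K₁ M)

/-- the degree `[F(Mq) : F(M)] = q + 1` -/
theorem finrank_M1 (hq : q.Prime) (hqM : ¬ q ∣ M)
    (hc : ∀ x : FK ↥K₁ M, ((algebraMap (FK ↥K₁ M) (FK ↥K₁ (M * q)) x : FK ↥K₁ (M * q)) :
      LaurentSeries ↥K₁) = (x : LaurentSeries ↥K₁)) :
    Module.finrank (FK ↥K₁ M) (FK ↥K₁ (M * q)) = q + 1 := by
  have h := H2PD.finrank_mul_psi (k := ↥K₁) (dvd_mul_right M q)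
    (fun r hr _ => by exact_mod_cast hr.ne_zero)
    (laurentBaseChange ↥K₁ (modularFunctionFieldFull M))
    (laurentBaseChange ↥K₁ (modularFunctionFieldFull (M * q)))
    (H28GV.gv_bar_eq ↥K₁ M) (H28GV.gv_bar_eq ↥K₁ (M * q)) hc
  have hpsi : dedekindPsi (M * q) = (q + 1) * dedekindPsi M := by
    rw [mul_comm M q]
    exact H28S28.h10_psi_mul_of_not_dvd hq (NeZero.ne M) hqM
  rw [hpsi] at h
  exact Nat.eq_of_mul_eq_mul_right (H28UG.c7_dedekindPsi_pos M) h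

/-- **the span**: `F(Mq) = Σ_{k ≤ q} F(M) · J₁^k` -/
theorem span_J1 (hq : q.Prime) (hqM : ¬ q ∣ M) (B : GVBasis R (IsLocalRing.residue R) M)
    (hc : ∀ x : FK ↥K₁ M, ((algebraMap (FK ↥K₁ M) (FK ↥K₁ (M * q)) x : FK ↥K₁ (M * q)) :
      LaurentSeries ↥K₁) = (x : LaurentSeries ↥K₁))
    (x : FK ↥K₁ (M * q)) :
    ∃ c : Fin (q + 1) → FK ↥K₁ M,
      x = ∑ k : Fin (q + 1), algebraMap (FK ↥K₁ M) (FK ↥K₁ (M * q)) (c k) *
        gJ1 K₁ M q ^ (k : ℕ) := by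
  classical
  obtain ⟨c0, hc0, hx, -⟩ := H8PB.h8pb_span K₁ R M q hq hqM B x
  have hmem : ∀ p : Fin (dedekindPsi M) × Fin (q + 1),
      c0 p * gvEps R (B.y p.1) ∈ laurentBaseChange ↥K₁ (modularFunctionFieldFull M) :=
    fun p => gv_mem_base_of_full M
      (mul_mem (H8PB.h8pb_adjoin_le K₁ M (hc0 p)) (B.eps_mem p.1))
  refine ⟨fun k => ∑ a : Fin (dedekindPsi M), ⟨_, hmem (a, k)⟩, ?_⟩
  apply Subtype.ext
  rw [hx, H8TG.coe_sum, Fintype.sum_prod_type, Finset.sum_comm]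
  refine Finset.sum_congr rfl (fun k _ => ?_)
  rw [MulMemClass.coe_mul, hc, SubmonoidClass.coe_pow, H8TG.coe_J1, H8TG.coe_sum,
    Finset.sum_mul]
  refine Finset.sum_congr rfl (fun a _ => ?_)
  show c0 (a, k) * gvEps R (B.y a * (qExpand R q (jqModC R)) ^ (k : ℕ)) = _
  rw [map_mul, map_pow, H8PB.coeffMap_qExpand_eps K₁ R q, H8PB.h8pb_eps_jq, mul_assoc]

/-- `J₁` generates `F(Mq)` over `F(M)` -/
theorem adjoin_J1 (hq : q.Prime) (hqM : ¬ q ∣ M) (B : GVBasis R (IsLocalRing.residue R) M)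
    (hc : ∀ x : FK ↥K₁ M, ((algebraMap (FK ↥K₁ M) (FK ↥K₁ (M * q)) x : FK ↥K₁ (M * q)) :
      LaurentSeries ↥K₁) = (x : LaurentSeries ↥K₁)) :
    Algebra.adjoin (FK ↥K₁ M) {gJ1 K₁ M q} = ⊤ :=
  adjoin_eq_top_of_span _ (q + 1) (span_J1 K₁ R M q hq hqM B hc)

/-- `Φ(J, J₁) = 0` -/
theorem aeval_J1 (Φ : Polynomial (Polynomial ℤ)) (hΦ : H28S28.h10IsModPoly q Φ)
    (hc : ∀ x : FK ↥K₁ M, ((algebraMap (FK ↥K₁ M) (FK ↥K₁ (M * q)) x : FK ↥K₁ (M * q)) :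
      LaurentSeries ↥K₁) = (x : LaurentSeries ↥K₁)) :
    Polynomial.aeval (gJ1 K₁ M q) (phi1 K₁ M Φ) = 0 := by
  apply Subtype.ext
  rw [coe_aeval ↥K₁ hc, eval₂_phiAt, H8TG.coe_J0, H8TG.coe_J1]
  haveI : NeZero (1 * q) := ⟨by rw [one_mul]; exact NeZero.ne q⟩
  have h := H28S28.h10_root q Φ hΦ ↥K₁ 1
  rw [qExpand_one_apply, qExpand_congr (one_mul q)] at h
  exact h

/-- **(M1)** `minpoly_{F(M)} j(𝐪^q) = Φ(J, Y)` -/
theorem minpoly_J1 (hq : q.Prime) (hqM : ¬ q ∣ M) (B : GVBasis R (IsLocalRing.residue R) M)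
    (Φ : Polynomial (Polynomial ℤ)) (hΦ : H28S28.h10IsModPoly q Φ)
    (hc : ∀ x : FK ↥K₁ M, ((algebraMap (FK ↥K₁ M) (FK ↥K₁ (M * q)) x : FK ↥K₁ (M * q)) :
      LaurentSeries ↥K₁) = (x : LaurentSeries ↥K₁)) :
    minpoly (FK ↥K₁ M) (gJ1 K₁ M q) = phi1 K₁ M Φ :=
  minpoly_eq_of_adjoin_top _ _ (phiAt_monic ↥K₁ Φ hΦ.1 _) (aeval_J1 K₁ M q Φ hΦ hc)
    (adjoin_J1 K₁ R M q hq hqM B hc)
    (by rw [phiAt_natDegree ↥K₁ Φ hΦ.1, hΦ.2.1, finrank_M1 K₁ M q hq hqM hc])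

theorem isIntegral_J1 (Φ : Polynomial (Polynomial ℤ)) (hΦ : H28S28.h10IsModPoly q Φ)
    (hc : ∀ x : FK ↥K₁ M, ((algebraMap (FK ↥K₁ M) (FK ↥K₁ (M * q)) x : FK ↥K₁ (M * q)) :
      LaurentSeries ↥K₁) = (x : LaurentSeries ↥K₁)) :
    IsIntegral (FK ↥K₁ M) (gJ1 K₁ M q) :=
  ⟨phi1 K₁ M Φ, phiAt_monic ↥K₁ Φ hΦ.1 _, aeval_J1 K₁ M q Φ hΦ hc⟩

/-- the power basis `1, J₁, …, J₁^q` of `F(Mq) / F(M)` -/
def pbJ1 (hq : q.Prime) (hqM : ¬ q ∣ M) (B : GVBasis R (IsLocalRing.residue R) M)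
    (Φ : Polynomial (Polynomial ℤ)) (hΦ : H28S28.h10IsModPoly q Φ)
    (hc : ∀ x : FK ↥K₁ M, ((algebraMap (FK ↥K₁ M) (FK ↥K₁ (M * q)) x : FK ↥K₁ (M * q)) :
      LaurentSeries ↥K₁) = (x : LaurentSeries ↥K₁)) :
    PowerBasis (FK ↥K₁ M) (FK ↥K₁ (M * q)) :=
  PowerBasis.ofAdjoinEqTop (isIntegral_J1 K₁ M q Φ hΦ hc) (adjoin_J1 K₁ R M q hq hqM B hc)

theorem pbJ1_gen (hq : q.Prime) (hqM : ¬ q ∣ M) (B : GVBasis R (IsLocalRing.residue R) M)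
    (Φ : Polynomial (Polynomial ℤ)) (hΦ : H28S28.h10IsModPoly q Φ)
    (hc : ∀ x : FK ↥K₁ M, ((algebraMap (FK ↥K₁ M) (FK ↥K₁ (M * q)) x : FK ↥K₁ (M * q)) :
      LaurentSeries ↥K₁) = (x : LaurentSeries ↥K₁)) :
    (pbJ1 K₁ R M q hq hqM B Φ hΦ hc).gen = gJ1 K₁ M q :=
  PowerBasis.ofAdjoinEqTop_gen _ _

theorem pbJ1_dim (hq : q.Prime) (hqM : ¬ q ∣ M) (B : GVBasis R (IsLocalRing.residue R) M)
    (Φ : Polynomial (Polynomial ℤ)) (hΦ : H28S28.h10IsModPoly q Φ)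
    (hc : ∀ x : FK ↥K₁ M, ((algebraMap (FK ↥K₁ M) (FK ↥K₁ (M * q)) x : FK ↥K₁ (M * q)) :
      LaurentSeries ↥K₁) = (x : LaurentSeries ↥K₁)) :
    (pbJ1 K₁ R M q hq hqM B Φ hΦ hc).dim = q + 1 := by
  rw [← PowerBasis.finrank, finrank_M1 K₁ M q hq hqM hc]

theorem pbJ1_minpoly (hq : q.Prime) (hqM : ¬ q ∣ M) (B : GVBasis R (IsLocalRing.residue R) M)
    (Φ : Polynomial (Polynomial ℤ)) (hΦ : H28S28.h10IsModPoly q Φ)
    (hc : ∀ x : FK ↥K₁ M, ((algebraMap (FK ↥K₁ M) (FK ↥K₁ (M * q)) x : FK ↥K₁ (M * q)) :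
      LaurentSeries ↥K₁) = (x : LaurentSeries ↥K₁)) :
    minpoly (FK ↥K₁ M) (pbJ1 K₁ R M q hq hqM B Φ hΦ hc).gen = phi1 K₁ M Φ := by
  rw [pbJ1_gen]
  exact minpoly_J1 K₁ R M q hq hqM B Φ hΦ hc

end M1

/-! ### (M2): `j(𝐪^{q²})` over the level `M q` -/

section M2

variable (K₁ : IntermediateField ℚ RH24.Kbar) (R : ValuationSubring ↥K₁)
variable (M q : ℕ) [NeZero M] [NeZero q]
variable [CharP (IsLocalRing.ResidueField R) q]
variable (L : ℕ) [NeZero L] [Algebra (FK ↥K₁ (M * q)) (FK ↥K₁ L)]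

/-- `Φ(J₁, Y)` over `F_{K₁}(M q)` -/
abbrev phi2 (Φ : Polynomial (Polynomial ℤ)) : Polynomial (FK ↥K₁ (M * q)) :=
  phiAt ↥K₁ Φ (H8TG.J1 ↥K₁ (M * q) q (dvd_mul_left q M))

/-- `Ψ(Y) = Φ(J₁, Y) / (Y - J)` over `F_{K₁}(M q)` -/
def psi2 (Φ : Polynomial (Polynomial ℤ)) : Polynomial (FK ↥K₁ (M * q)) :=
  phi2 K₁ M q Φ /ₘ (Polynomial.X - Polynomial.C (H8TG.J0 ↥K₁ (M * q)))

/-- `Φ(J₁, J) = 0` -/
theorem isRoot_J0 (Φ : Polynomial (Polynomial ℤ)) (hΦ : H28S28.h10IsModPoly q Φ) :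
    (phi2 K₁ M q Φ).IsRoot (H8TG.J0 ↥K₁ (M * q)) := by
  show (phi2 K₁ M q Φ).eval (H8TG.J0 ↥K₁ (M * q)) = 0
  apply valHom_injective ↥K₁ (M * q)
  rw [map_zero, ← Polynomial.eval₂_at_apply, eval₂_phiAt, valHom_apply, H8TG.coe_J0,
    H8TG.coe_J1]
  haveI : NeZero (1 * q) := ⟨by rw [one_mul]; exact NeZero.ne q⟩
  have h := H28S28.h10_root' q Φ hΦ ↥K₁ 1
  rw [qExpand_one_apply, qExpand_congr (one_mul q)] at h
  exact h

/-- `(Y - J) Ψ = Φ(J₁, Y)` -/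
theorem psi2_fac (Φ : Polynomial (Polynomial ℤ)) (hΦ : H28S28.h10IsModPoly q Φ) :
    (Polynomial.X - Polynomial.C (H8TG.J0 ↥K₁ (M * q))) * psi2 K₁ M q Φ = phi2 K₁ M q Φ :=
  Polynomial.mul_divByMonic_eq_iff_isRoot.mpr (isRoot_J0 K₁ M q Φ hΦ)

theorem psi2_monic (Φ : Polynomial (Polynomial ℤ)) (hΦ : H28S28.h10IsModPoly q Φ) :
    (psi2 K₁ M q Φ).Monic :=
  (Polynomial.monic_X_sub_C (H8TG.J0 ↥K₁ (M * q))).of_mul_monic_left
    (by rw [psi2_fac K₁ M q Φ hΦ]; exact phiAt_monic ↥K₁ Φ hΦ.1 _)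

theorem psi2_natDegree (Φ : Polynomial (Polynomial ℤ)) (hΦ : H28S28.h10IsModPoly q Φ) :
    (psi2 K₁ M q Φ).natDegree = q := by
  unfold psi2
  rw [Polynomial.natDegree_divByMonic _ (Polynomial.monic_X_sub_C _),
    phiAt_natDegree ↥K₁ Φ hΦ.1, hΦ.2.1, Polynomial.natDegree_X_sub_C]
  omega

/-- **the image of `Ψ` in `K₁((𝐪))[Y]`**: `(Y - j(𝐪)) · Ψ = Φ(j(𝐪^q), Y)` -/
theorem map_psi2 (Φ : Polynomial (Polynomial ℤ)) (hΦ : H28S28.h10IsModPoly q Φ) :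
    (Polynomial.X - Polynomial.C (jqModC ↥K₁)) * (psi2 K₁ M q Φ).map (valHom ↥K₁ (M * q)) =
      Φ.map (H28S28.h10ev (qExpand ↥K₁ q (jqModC ↥K₁))) := by
  have h := congrArg (Polynomial.map (valHom ↥K₁ (M * q))) (psi2_fac K₁ M q Φ hΦ)
  rw [Polynomial.map_mul, Polynomial.map_sub, Polynomial.map_X, Polynomial.map_C, map_phiAt,
    valHom_apply, H8TG.coe_J0, H8TG.coe_J1] at h
  exact h

/-- the degree `[F(Mqq) : F(Mq)] = q` -/
theorem finrank_M2 (hq : q.Prime) (hL : L = M * q * q)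
    (hc : ∀ x : FK ↥K₁ (M * q), ((algebraMap (FK ↥K₁ (M * q)) (FK ↥K₁ L) x : FK ↥K₁ L) :
      LaurentSeries ↥K₁) = (x : LaurentSeries ↥K₁)) :
    Module.finrank (FK ↥K₁ (M * q)) (FK ↥K₁ L) = q := by
  have hdvd : M * q ∣ L := by rw [hL]; exact dvd_mul_right (M * q) q
  have h := H2PD.finrank_mul_psi (k := ↥K₁) hdvd
    (fun r hr _ => by exact_mod_cast hr.ne_zero)
    (laurentBaseChange ↥K₁ (modularFunctionFieldFull (M * q)))
    (laurentBaseChange ↥K₁ (modularFunctionFieldFull L))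
    (H28GV.gv_bar_eq ↥K₁ (M * q)) (H28GV.gv_bar_eq ↥K₁ L) hc
  have hpsi : dedekindPsi L = q * dedekindPsi (M * q) := by
    rw [hL, mul_comm (M * q) q]
    exact H28S28.h10_psi_mul_of_dvd hq (mul_ne_zero (NeZero.ne M) hq.ne_zero)
      (dvd_mul_left q M)
  rw [hpsi] at h
  exact Nat.eq_of_mul_eq_mul_right (H28UG.c7_dedekindPsi_pos (M * q)) h

/-- **the span**: `F(Mqq) = Σ_{k < q} F(Mq) · J₂^k` -/
theorem span_J2 (hq : q.Prime) (hqM : ¬ q ∣ M) (B : GVBasis R (IsLocalRing.residue R) M)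
    (hL : L = M * q * q) (h2 : q * q ∣ L)
    (hc : ∀ x : FK ↥K₁ (M * q), ((algebraMap (FK ↥K₁ (M * q)) (FK ↥K₁ L) x : FK ↥K₁ L) :
      LaurentSeries ↥K₁) = (x : LaurentSeries ↥K₁))
    (x : FK ↥K₁ L) :
    ∃ c : Fin q → FK ↥K₁ (M * q),
      x = ∑ k : Fin q, algebraMap (FK ↥K₁ (M * q)) (FK ↥K₁ L) (c k) *
        H8TG.J2 ↥K₁ L q h2 ^ (k : ℕ) := by
  have h1 : M * q ∣ L := by rw [hL]; exact dvd_mul_right (M * q) q
  obtain ⟨c, hx⟩ := H8TG.h8tg_spanFK K₁ R M q hq hqM B L hL h1 h2 x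
  refine ⟨c, ?_⟩
  rw [hx]
  refine Finset.sum_congr rfl (fun k _ => ?_)
  congr 1
  apply Subtype.ext
  rw [H8TG.coe_incl, hc]

/-- `J₂` generates `F(Mqq)` over `F(Mq)` -/
theorem adjoin_J2 (hq : q.Prime) (hqM : ¬ q ∣ M) (B : GVBasis R (IsLocalRing.residue R) M)
    (hL : L = M * q * q) (h2 : q * q ∣ L)
    (hc : ∀ x : FK ↥K₁ (M * q), ((algebraMap (FK ↥K₁ (M * q)) (FK ↥K₁ L) x : FK ↥K₁ L) :
      LaurentSeries ↥K₁) = (x : LaurentSeries ↥K₁)) :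
    Algebra.adjoin (FK ↥K₁ (M * q)) {H8TG.J2 ↥K₁ L q h2} = ⊤ :=
  adjoin_eq_top_of_span _ q (span_J2 K₁ R M q L hq hqM B hL h2 hc)

/-- `Ψ(J₂) = 0` -/
theorem aeval_J2 (hq : q.Prime) (Φ : Polynomial (Polynomial ℤ))
    (hΦ : H28S28.h10IsModPoly q Φ) (h2 : q * q ∣ L)
    (hc : ∀ x : FK ↥K₁ (M * q), ((algebraMap (FK ↥K₁ (M * q)) (FK ↥K₁ L) x : FK ↥K₁ L) :
      LaurentSeries ↥K₁) = (x : LaurentSeries ↥K₁)) :
    Polynomial.aeval (H8TG.J2 ↥K₁ L q h2) (psi2 K₁ M q Φ) = 0 := by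
  have hroot : Polynomial.aeval (H8TG.J2 ↥K₁ L q h2) (phi2 K₁ M q Φ) = 0 := by
    apply Subtype.ext
    rw [coe_aeval ↥K₁ hc, eval₂_phiAt, H8TG.coe_J1, H8TG.coe_J2]
    exact H28S28.h10_root q Φ hΦ ↥K₁ q
  rw [← psi2_fac K₁ M q Φ hΦ, map_mul] at hroot
  rcases mul_eq_zero.mp hroot with h | h
  · exfalso
    rw [map_sub, Polynomial.aeval_X, Polynomial.aeval_C] at h
    have h' : ((H8TG.J2 ↥K₁ L q h2 : FK ↥K₁ L) : LaurentSeries ↥K₁) =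
        ((algebraMap (FK ↥K₁ (M * q)) (FK ↥K₁ L) (H8TG.J0 ↥K₁ (M * q)) : FK ↥K₁ L) :
          LaurentSeries ↥K₁) := congrArg Subtype.val (sub_eq_zero.mp h)
    rw [H8TG.coe_J2, hc, H8TG.coe_J0] at h'
    exact H8TG.h8tg_J_ne_J2 ↥K₁ q hq.one_lt h'.symm
  · exact h

/-- **(M2)** `minpoly_{F(Mq)} j(𝐪^{q²}) = Ψ` -/
theorem minpoly_J2 (hq : q.Prime) (hqM : ¬ q ∣ M) (B : GVBasis R (IsLocalRing.residue R) M)
    (Φ : Polynomial (Polynomial ℤ)) (hΦ : H28S28.h10IsModPoly q Φ)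
    (hL : L = M * q * q) (h2 : q * q ∣ L)
    (hc : ∀ x : FK ↥K₁ (M * q), ((algebraMap (FK ↥K₁ (M * q)) (FK ↥K₁ L) x : FK ↥K₁ L) :
      LaurentSeries ↥K₁) = (x : LaurentSeries ↥K₁)) :
    minpoly (FK ↥K₁ (M * q)) (H8TG.J2 ↥K₁ L q h2) = psi2 K₁ M q Φ :=
  minpoly_eq_of_adjoin_top _ _ (psi2_monic K₁ M q Φ hΦ) (aeval_J2 K₁ M q L hq Φ hΦ h2 hc)
    (adjoin_J2 K₁ R M q L hq hqM B hL h2 hc)
    (by rw [psi2_natDegree K₁ M q Φ hΦ, finrank_M2 K₁ M q L hq hL hc])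

theorem isIntegral_J2 (hq : q.Prime) (Φ : Polynomial (Polynomial ℤ))
    (hΦ : H28S28.h10IsModPoly q Φ) (h2 : q * q ∣ L)
    (hc : ∀ x : FK ↥K₁ (M * q), ((algebraMap (FK ↥K₁ (M * q)) (FK ↥K₁ L) x : FK ↥K₁ L) :
      LaurentSeries ↥K₁) = (x : LaurentSeries ↥K₁)) :
    IsIntegral (FK ↥K₁ (M * q)) (H8TG.J2 ↥K₁ L q h2) :=
  ⟨psi2 K₁ M q Φ, psi2_monic K₁ M q Φ hΦ, aeval_J2 K₁ M q L hq Φ hΦ h2 hc⟩

/-- the power basis `1, J₂, …, J₂^{q-1}` of `F(Mqq) / F(Mq)` -/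
def pbJ2 (hq : q.Prime) (hqM : ¬ q ∣ M) (B : GVBasis R (IsLocalRing.residue R) M)
    (Φ : Polynomial (Polynomial ℤ)) (hΦ : H28S28.h10IsModPoly q Φ)
    (hL : L = M * q * q) (h2 : q * q ∣ L)
    (hc : ∀ x : FK ↥K₁ (M * q), ((algebraMap (FK ↥K₁ (M * q)) (FK ↥K₁ L) x : FK ↥K₁ L) :
      LaurentSeries ↥K₁) = (x : LaurentSeries ↥K₁)) :
    PowerBasis (FK ↥K₁ (M * q)) (FK ↥K₁ L) :=
  PowerBasis.ofAdjoinEqTop (isIntegral_J2 K₁ M q L hq Φ hΦ h2 hc)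
    (adjoin_J2 K₁ R M q L hq hqM B hL h2 hc)

theorem pbJ2_gen (hq : q.Prime) (hqM : ¬ q ∣ M) (B : GVBasis R (IsLocalRing.residue R) M)
    (Φ : Polynomial (Polynomial ℤ)) (hΦ : H28S28.h10IsModPoly q Φ)
    (hL : L = M * q * q) (h2 : q * q ∣ L)
    (hc : ∀ x : FK ↥K₁ (M * q), ((algebraMap (FK ↥K₁ (M * q)) (FK ↥K₁ L) x : FK ↥K₁ L) :
      LaurentSeries ↥K₁) = (x : LaurentSeries ↥K₁)) :
    (pbJ2 K₁ R M q L hq hqM B Φ hΦ hL h2 hc).gen = H8TG.J2 ↥K₁ L q h2 :=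
  PowerBasis.ofAdjoinEqTop_gen _ _

theorem pbJ2_dim (hq : q.Prime) (hqM : ¬ q ∣ M) (B : GVBasis R (IsLocalRing.residue R) M)
    (Φ : Polynomial (Polynomial ℤ)) (hΦ : H28S28.h10IsModPoly q Φ)
    (hL : L = M * q * q) (h2 : q * q ∣ L)
    (hc : ∀ x : FK ↥K₁ (M * q), ((algebraMap (FK ↥K₁ (M * q)) (FK ↥K₁ L) x : FK ↥K₁ L) :
      LaurentSeries ↥K₁) = (x : LaurentSeries ↥K₁)) :
    (pbJ2 K₁ R M q L hq hqM B Φ hΦ hL h2 hc).dim = q := by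
  rw [← PowerBasis.finrank, finrank_M2 K₁ M q L hq hL hc]

theorem pbJ2_minpoly (hq : q.Prime) (hqM : ¬ q ∣ M) (B : GVBasis R (IsLocalRing.residue R) M)
    (Φ : Polynomial (Polynomial ℤ)) (hΦ : H28S28.h10IsModPoly q Φ)
    (hL : L = M * q * q) (h2 : q * q ∣ L)
    (hc : ∀ x : FK ↥K₁ (M * q), ((algebraMap (FK ↥K₁ (M * q)) (FK ↥K₁ L) x : FK ↥K₁ L) :
      LaurentSeries ↥K₁) = (x : LaurentSeries ↥K₁)) :
    minpoly (FK ↥K₁ (M * q)) (pbJ2 K₁ R M q L hq hqM B Φ hΦ hL h2 hc).gen =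
      psi2 K₁ M q Φ := by
  rw [pbJ2_gen]
  exact minpoly_J2 K₁ R M q L hq hqM B Φ hΦ hL h2 hc

end M2

/-! ### the standard algebra structures (`heckeAlphaBar`) -/

section std

variable (K₁ : IntermediateField ℚ RH24.Kbar) (R : ValuationSubring ↥K₁)
variable (M q : ℕ) [NeZero M] [NeZero q]
variable [CharP (IsLocalRing.ResidueField R) q]

omit [NeZero M] [NeZero q] in
theorem sq_dvd : q * q ∣ M * q * q := ⟨M, by ring⟩

/-- (M1) along `α = heckeAlphaBar K₁ M q` -/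
theorem minpoly_J1_alpha (hq : q.Prime) (hqM : ¬ q ∣ M)
    (B : GVBasis R (IsLocalRing.residue R) M)
    (Φ : Polynomial (Polynomial ℤ)) (hΦ : H28S28.h10IsModPoly q Φ) :
    letI := AlgebraicCurve.algebraAlong (heckeAlphaBar ↥K₁ M q)
    minpoly (FK ↥K₁ M) (gJ1 K₁ M q) = phi1 K₁ M Φ := by
  letI := AlgebraicCurve.algebraAlong (heckeAlphaBar ↥K₁ M q)
  exact minpoly_J1 K₁ R M q hq hqM B Φ hΦ (fun x => coe_heckeAlphaBar M q x)

/-- (M2) along `α = heckeAlphaBar K₁ (M q) q` -/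
theorem minpoly_J2_alpha (hq : q.Prime) (hqM : ¬ q ∣ M)
    (B : GVBasis R (IsLocalRing.residue R) M)
    (Φ : Polynomial (Polynomial ℤ)) (hΦ : H28S28.h10IsModPoly q Φ) :
    letI := AlgebraicCurve.algebraAlong (heckeAlphaBar ↥K₁ (M * q) q)
    minpoly (FK ↥K₁ (M * q)) (H8TG.J2 ↥K₁ (M * q * q) q (sq_dvd M q)) = psi2 K₁ M q Φ := by
  letI := AlgebraicCurve.algebraAlong (heckeAlphaBar ↥K₁ (M * q) q)
  exact minpoly_J2 K₁ R M q (M * q * q) hq hqM B Φ hΦ rfl (sq_dvd M q)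
    (fun x => coe_heckeAlphaBar (M * q) q x)

end std

end H28MP

end
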