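import Mathlib
import Fermat.Agent.S36.ChartMap_helper6
import Fermat.Agent.S36.MinPoly_helper28

/-!
# Item 86 (S36), LOC, (R3-INST), slice (D-b) (helper3): integrality of `J₂ = j(𝐪^{q²})` at the
closed points of the lower chart where `j` is finite

* generic (Mathlib only): `H3IJ.isIntegral_of_root` (a root of a monic polynomial with integral
  coefficients is integral), `H3IJ.locSub` (the localization of the integral closure inside
  `F`), `H3IJ.mem_locSub_of_root` (it is integrally closed);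
* `H3IJ.hb_of_root` : chart form (`F₀ ⊆ F`, `𝔫₀` a prime of `Chart R t₀`);
* `H3IJ.hb_J2` : **(D-b)** for `b i = J₂ ^ i` at the levels `M q ⊆ M q q` along `α`.
-/

set_option autoImplicit false
set_option linter.unusedSectionVars false
set_option linter.unusedVariables false
set_option linter.style.longLine false
set_option linter.style.haveILetI false
set_option synthInstance.maxHeartbeats 400000

noncomputable section

open Polynomial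

namespace H3IJ

/-! ### generic -/

section Generic

variable {A₀ : Type} [CommRing A₀] {F : Type} [Field F] [Algebra A₀ F]

/-- a root of a monic polynomial with integral coefficients is integral. -/
theorem isIntegral_of_root (Q : Polynomial F) (hQ : Q.Monic) (y : F) (hy : Q.eval y = 0)
    (hc : ∀ k, IsIntegral A₀ (Q.coeff k)) : IsIntegral A₀ y := by
  have hl : Q ∈ Polynomial.lifts (algebraMap (integralClosure A₀ F) F) := by
    rw [Polynomial.lifts_iff_coeff_lifts]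
    intro k
    exact ⟨⟨Q.coeff k, hc k⟩, rfl⟩
  obtain ⟨q, hq, -, hqm⟩ := Polynomial.lifts_and_natDegree_eq_and_monic hl hQ
  have h1 : IsIntegral (integralClosure A₀ F) y :=
    ⟨q, hqm, by rw [← Polynomial.eval_map, hq]; exact hy⟩
  have h2 : y ∈ integralClosure (integralClosure A₀ F) F := h1
  rw [integralClosure_idem] at h2
  obtain ⟨c, hc⟩ := Algebra.mem_bot.1 h2
  rw [← hc]
  exact c.2

/-- the localization of the integral closure of `A₀` in `F` at a submonoid `S` of integral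
elements, as a subring of `F`. -/
def locSub (S : Submonoid F) (hS : ∀ s ∈ S, IsIntegral A₀ s) : Subring F where
  carrier := {x | ∃ s ∈ S, IsIntegral A₀ (s * x)}
  mul_mem' := by
    rintro x y ⟨s, hs, hx⟩ ⟨s', hs', hy⟩
    refine ⟨s * s', S.mul_mem hs hs', ?_⟩
    have e : s * s' * (x * y) = (s * x) * (s' * y) := by ring
    rw [e]
    exact hx.mul hy
  one_mem' := ⟨1, S.one_mem, by rw [mul_one]; exact isIntegral_one⟩
  add_mem' := by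
    rintro x y ⟨s, hs, hx⟩ ⟨s', hs', hy⟩
    refine ⟨s * s', S.mul_mem hs hs', ?_⟩
    have e : s * s' * (x + y) = s' * (s * x) + s * (s' * y) := by ring
    rw [e]
    exact ((hS s' hs').mul hx).add ((hS s hs).mul hy)
  zero_mem' := ⟨1, S.one_mem, by rw [mul_zero]; exact isIntegral_zero⟩
  neg_mem' := by
    rintro x ⟨s, hs, hx⟩
    exact ⟨s, hs, by rw [mul_neg]; exact hx.neg⟩

theorem mem_locSub (S : Submonoid F) (hS : ∀ s ∈ S, IsIntegral A₀ s) (x : F) :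
    x ∈ locSub S hS ↔ ∃ s ∈ S, IsIntegral A₀ (s * x) := Iff.rfl

theorem mem_locSub_of_isIntegral (S : Submonoid F) (hS : ∀ s ∈ S, IsIntegral A₀ s) {x : F}
    (hx : IsIntegral A₀ x) : x ∈ locSub S hS :=
  ⟨1, S.one_mem, by rwa [one_mul]⟩

/-- finitely many elements of `locSub` have a common denominator. -/
theorem exists_common_denom (S : Submonoid F) (hS : ∀ s ∈ S, IsIntegral A₀ s)
    (c : ℕ → F) (hc : ∀ k, c k ∈ locSub S hS) (n : ℕ) :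
    ∃ s ∈ S, ∀ k < n, IsIntegral A₀ (s * c k) := by
  induction n with
  | zero => exact ⟨1, S.one_mem, fun k hk => absurd hk (Nat.not_lt_zero k)⟩
  | succ n ih =>
    obtain ⟨s, hs, h⟩ := ih
    obtain ⟨s', hs', h'⟩ := hc n
    refine ⟨s * s', S.mul_mem hs hs', fun k hk => ?_⟩
    rcases Nat.lt_succ_iff_lt_or_eq.1 hk with hk' | rfl
    · have e : s * s' * c k = s' * (s * c k) := by ring
      rw [e]
      exact (hS s' hs').mul (h k hk')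
    · have e : s * s' * c k = s * (s' * c k) := by ring
      rw [e]
      exact (hS s hs).mul h'

/-- **`locSub` is integrally closed in `F`**: a root of a monic polynomial with coefficients
in `locSub` is in `locSub`. -/
theorem mem_locSub_of_root (S : Submonoid F) (hS : ∀ s ∈ S, IsIntegral A₀ s)
    (P : Polynomial F) (hP : P.Monic) (x : F) (hx : P.eval x = 0)
    (hcoeff : ∀ k, P.coeff k ∈ locSub S hS) : x ∈ locSub S hS := by
  obtain ⟨s, hs, h⟩ := exists_common_denom S hS (fun k => P.coeff k) hcoeff P.natDegree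
  refine ⟨s, hs, ?_⟩
  apply isIntegral_of_root (A₀ := A₀) (Polynomial.scaleRoots P s)
    ((Polynomial.monic_scaleRoots_iff s).2 hP) (s * x)
  · rw [Polynomial.scaleRoots_eval_mul, hx, mul_zero]
  · intro k
    rw [Polynomial.coeff_scaleRoots]
    rcases lt_trichotomy k P.natDegree with hk | hk | hk
    · obtain ⟨m, hm⟩ : ∃ m, P.natDegree - k = m + 1 := ⟨P.natDegree - k - 1, by omega⟩
      rw [hm, pow_succ]
      have e : P.coeff k * (s ^ m * s) = s ^ m * (s * P.coeff k) := by ring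
      rw [e]
      exact ((hS s hs).pow m).mul (h k hk)
    · rw [hk, Nat.sub_self, pow_zero, mul_one, hP.coeff_natDegree]
      exact isIntegral_one
    · rw [Polynomial.coeff_eq_zero_of_natDegree_lt hk, zero_mul]
      exact isIntegral_zero

end Generic

/-! ### chart form -/

section ChartForm

open H4S34

variable (R : Type) [CommRing R] {F₀ F : Type} [Field F₀] [Field F] [Algebra R F₀] [Algebra R F]
  [Algebra F₀ F] [IsScalarTower R F₀ F]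

/-- the images in `F` of the elements of the lower chart outside `𝔫₀`. -/
def denomS (t₀ : F₀) (𝔫₀ : Ideal (Chart R t₀)) (h𝔫₀ : 𝔫₀.IsPrime) : Submonoid F :=
  haveI := h𝔫₀
  𝔫₀.primeCompl.map
    (((algebraMap F₀ F).comp (algebraMap (Chart R t₀) F₀) : Chart R t₀ →+* F) : Chart R t₀ →* F)

theorem mem_denomS (t₀ : F₀) (𝔫₀ : Ideal (Chart R t₀)) (h𝔫₀ : 𝔫₀.IsPrime) (x : F) :
    x ∈ denomS R (F := F) t₀ 𝔫₀ h𝔫₀ ↔ ∃ s : Chart R t₀, s ∉ 𝔫₀ ∧ algebraMap F₀ F (s : F₀) = x := by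
  unfold denomS
  rw [Submonoid.mem_map]
  constructor
  · rintro ⟨s, hs, rfl⟩
    exact ⟨s, hs, rfl⟩
  · rintro ⟨s, hs, rfl⟩
    exact ⟨s, hs, rfl⟩

theorem isIntegral_denomS (t₀ : F₀) (𝔫₀ : Ideal (Chart R t₀)) (h𝔫₀ : 𝔫₀.IsPrime) :
    ∀ s ∈ denomS R (F := F) t₀ 𝔫₀ h𝔫₀,
      IsIntegral (Algebra.adjoin R {algebraMap F₀ F t₀}) s := by
  intro s hs
  obtain ⟨s₀, -, rfl⟩ := (mem_denomS R t₀ 𝔫₀ h𝔫₀ s).1 hs
  exact (H6CM.chartMap R (F := F) t₀ s₀).2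

/-- the local ring of the upper chart at the points above `𝔫₀`, as a subring of `F`. -/
def locF (t₀ : F₀) (𝔫₀ : Ideal (Chart R t₀)) (h𝔫₀ : 𝔫₀.IsPrime) : Subring F :=
  locSub (A₀ := Algebra.adjoin R {algebraMap F₀ F t₀}) (denomS R (F := F) t₀ 𝔫₀ h𝔫₀)
    (isIntegral_denomS R t₀ 𝔫₀ h𝔫₀)

theorem mem_locF (t₀ : F₀) (𝔫₀ : Ideal (Chart R t₀)) (h𝔫₀ : 𝔫₀.IsPrime) (x : F) :
    x ∈ locF R (F := F) t₀ 𝔫₀ h𝔫₀ ↔
      ∃ (s : Chart R t₀) (c : Chart R (algebraMap F₀ F t₀)), s ∉ 𝔫₀ ∧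
        algebraMap F₀ F (s : F₀) * x = (c : F) := by
  unfold locF
  rw [mem_locSub]
  constructor
  · rintro ⟨s, hs, hx⟩
    obtain ⟨s₀, hs₀, rfl⟩ := (mem_denomS R t₀ 𝔫₀ h𝔫₀ s).1 hs
    exact ⟨s₀, ⟨_, hx⟩, hs₀, rfl⟩
  · rintro ⟨s₀, c, hs₀, hx⟩
    refine ⟨algebraMap F₀ F (s₀ : F₀), (mem_denomS R t₀ 𝔫₀ h𝔫₀ _).2 ⟨s₀, hs₀, rfl⟩, ?_⟩
    rw [hx]
    exact c.2

/-- elements of the local ring of the lower chart at `𝔫₀` map into `locF`. -/
theorem map_mem_locF (t₀ : F₀) (𝔫₀ : Ideal (Chart R t₀)) (h𝔫₀ : 𝔫₀.IsPrime) {y : F₀}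
    (hy : InLoc R t₀ 𝔫₀ y) : algebraMap F₀ F y ∈ locF R (F := F) t₀ 𝔫₀ h𝔫₀ := by
  obtain ⟨a, s, hs, e⟩ := hy
  rw [mem_locF]
  refine ⟨s, H6CM.chartMap R (F := F) t₀ a, hs, ?_⟩
  rw [H6CM.coe_chartMap, ← e, map_mul]

/-- **`locF` is integrally closed in `F`**. -/
theorem mem_locF_of_root (t₀ : F₀) (𝔫₀ : Ideal (Chart R t₀)) (h𝔫₀ : 𝔫₀.IsPrime)
    (P : Polynomial F) (hP : P.Monic) (x : F) (hx : P.eval x = 0)
    (hcoeff : ∀ k, P.coeff k ∈ locF R (F := F) t₀ 𝔫₀ h𝔫₀) : x ∈ locF R (F := F) t₀ 𝔫₀ h𝔫₀ :=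
  mem_locSub_of_root _ _ P hP x hx hcoeff

/-- integer polynomial expressions stay in a subring. -/
theorem eval₂_int_mem (B : Subring F) {y : F} (hy : y ∈ B) (p : Polynomial ℤ) :
    p.eval₂ (Int.castRingHom F) y ∈ B := by
  rw [Polynomial.eval₂_eq_sum_range]
  refine B.sum_mem fun i _ => B.mul_mem ?_ (B.pow_mem hy i)
  rw [eq_intCast]
  exact intCast_mem B _

/-- a root `x` of `Φ(y, X)`, `Φ ∈ ℤ[Y][X]` monic, `y ∈ locF`, is in `locF`. -/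
theorem mem_locF_of_modEq (t₀ : F₀) (𝔫₀ : Ideal (Chart R t₀)) (h𝔫₀ : 𝔫₀.IsPrime)
    (Φ : Polynomial (Polynomial ℤ)) (hΦ : Φ.Monic) {y x : F}
    (hy : y ∈ locF R (F := F) t₀ 𝔫₀ h𝔫₀)
    (hx : (Φ.map (Polynomial.eval₂RingHom (Int.castRingHom F) y)).eval x = 0) :
    x ∈ locF R (F := F) t₀ 𝔫₀ h𝔫₀ := by
  refine mem_locF_of_root R t₀ 𝔫₀ h𝔫₀ _ (hΦ.map _) x hx fun k => ?_
  rw [Polynomial.coeff_map]
  exact eval₂_int_mem _ hy _

end ChartForm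

/-! ### the concrete instance: `J₂` over the level `M q` -/

section Concrete

open H4S34 H7S18 ModularCurve HahnSeries H28GV

variable (K : Type) [Field K] [Algebra ℚ K]

/-- `Φ(a, b) = 0` in `F_K(N)` iff it holds for the series. -/
theorem eval_phi_eq_zero {N : ℕ} [NeZero N] (Φ : Polynomial (Polynomial ℤ)) (a b : FK K N)
    (h : H28S28.h10ev2 Φ (a : LaurentSeries K) (b : LaurentSeries K) = 0) :
    (Φ.map (Polynomial.eval₂RingHom (Int.castRingHom (FK K N)) a)).eval b = 0 := by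
  apply H28MP.valHom_injective K N
  rw [map_zero, ← Polynomial.eval₂_at_apply]
  exact (H28MP.eval₂_phiAt K Φ a (b : LaurentSeries K)).trans h

variable (K₁ : IntermediateField ℚ RH24.Kbar) (M q : ℕ) [NeZero M] [NeZero q]
variable (R : Type) [CommRing R] [Algebra R (FK ↥K₁ (M * q))] [Algebra R (FK ↥K₁ (M * q * q))]
  [Algebra (FK ↥K₁ (M * q)) (FK ↥K₁ (M * q * q))]
  [IsScalarTower R (FK ↥K₁ (M * q)) (FK ↥K₁ (M * q * q))]

/-- **`J₂ ∈ locF`**: `j(𝐪^{q²})` is integral at the points above a closed point of the lower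
chart at which `j` is finite. -/
theorem J2_mem_locF (Φ : Polynomial (Polynomial ℤ)) (hΦ : H28S28.h10IsModPoly q Φ)
    (hc : ∀ x : FK ↥K₁ (M * q),
      ((algebraMap (FK ↥K₁ (M * q)) (FK ↥K₁ (M * q * q)) x : FK ↥K₁ (M * q * q)) :
        LaurentSeries ↥K₁) = (x : LaurentSeries ↥K₁))
    (t₀ : FK ↥K₁ (M * q)) (𝔫₀ : Ideal (Chart R t₀)) (h𝔫₀ : 𝔫₀.IsPrime)
    (hJ : InLoc R t₀ 𝔫₀ (H8TG.J0 ↥K₁ (M * q))) (h2 : q * q ∣ M * q * q) :
    H8TG.J2 ↥K₁ (M * q * q) q h2 ∈ locF R (F := FK ↥K₁ (M * q * q)) t₀ 𝔫₀ h𝔫₀ := by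
  haveI : NeZero (1 * q) := ⟨by rw [one_mul]; exact NeZero.ne q⟩
  haveI : NeZero (q * q) := ⟨mul_ne_zero (NeZero.ne q) (NeZero.ne q)⟩
  -- `J ∈ locF`
  have h0 := map_mem_locF R (F := FK ↥K₁ (M * q * q)) t₀ 𝔫₀ h𝔫₀ hJ
  -- `J₁ ∈ locF`
  have h1 : algebraMap (FK ↥K₁ (M * q)) (FK ↥K₁ (M * q * q))
      (H8TG.J1 ↥K₁ (M * q) q (dvd_mul_left q M)) ∈
      locF R (F := FK ↥K₁ (M * q * q)) t₀ 𝔫₀ h𝔫₀ := by
    refine mem_locF_of_modEq R t₀ 𝔫₀ h𝔫₀ Φ hΦ.1 h0 (eval_phi_eq_zero ↥K₁ Φ _ _ ?_)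
    rw [hc, hc, H8TG.coe_J0, H8TG.coe_J1]
    have h := H28S28.h10_root q Φ hΦ ↥K₁ 1
    rw [qExpand_one_apply, qExpand_congr (one_mul q)] at h
    exact h
  -- `J₂ ∈ locF`
  refine mem_locF_of_modEq R t₀ 𝔫₀ h𝔫₀ Φ hΦ.1 h1 (eval_phi_eq_zero ↥K₁ Φ _ _ ?_)
  rw [hc, H8TG.coe_J1, H8TG.coe_J2]
  exact H28S28.h10_root q Φ hΦ ↥K₁ q

/-- **(D-b)**: the hypothesis `hb` of `H20R3.two_gen_of_triple` / `H20R3.hR3_field` for
`b i = J₂ ^ i`. -/
theorem hb_J2 (Φ : Polynomial (Polynomial ℤ)) (hΦ : H28S28.h10IsModPoly q Φ)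
    (hc : ∀ x : FK ↥K₁ (M * q),
      ((algebraMap (FK ↥K₁ (M * q)) (FK ↥K₁ (M * q * q)) x : FK ↥K₁ (M * q * q)) :
        LaurentSeries ↥K₁) = (x : LaurentSeries ↥K₁))
    (t₀ : FK ↥K₁ (M * q)) (𝔫₀ : Ideal (Chart R t₀)) (h𝔫₀ : 𝔫₀.IsPrime)
    (hJ : InLoc R t₀ 𝔫₀ (H8TG.J0 ↥K₁ (M * q))) (h2 : q * q ∣ M * q * q) (i : ℕ) :
    ∃ (s : Chart R t₀)
      (c : Chart R (algebraMap (FK ↥K₁ (M * q)) (FK ↥K₁ (M * q * q)) t₀)), s ∉ 𝔫₀ ∧
      algebraMap (FK ↥K₁ (M * q)) (FK ↥K₁ (M * q * q)) (s : FK ↥K₁ (M * q)) *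
        H8TG.J2 ↥K₁ (M * q * q) q h2 ^ i = (c : FK ↥K₁ (M * q * q)) :=
  (mem_locF R t₀ 𝔫₀ h𝔫₀ _).1
    (Subring.pow_mem _ (J2_mem_locF K₁ M q R Φ hΦ hc t₀ 𝔫₀ h𝔫₀ hJ h2) i)

/-- **(D-b)** in the exact shape of the hypothesis `hb` of `H20R3.hR3_field`
(`b i = J₂ ^ i`, `i : Fin q`, `j₀ = J` at level `M q`). -/
theorem hb_J2_field (Φ : Polynomial (Polynomial ℤ)) (hΦ : H28S28.h10IsModPoly q Φ)
    (hc : ∀ x : FK ↥K₁ (M * q),
      ((algebraMap (FK ↥K₁ (M * q)) (FK ↥K₁ (M * q * q)) x : FK ↥K₁ (M * q * q)) :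
        LaurentSeries ↥K₁) = (x : LaurentSeries ↥K₁))
    (ϖ : R) (t₀ : FK ↥K₁ (M * q)) (h2 : q * q ∣ M * q * q) :
    ∀ 𝔫₀ : Ideal (Chart R t₀), IsClosedPt R ϖ t₀ 𝔫₀ → InLoc R t₀ 𝔫₀ (H8TG.J0 ↥K₁ (M * q)) →
      ∀ i : Fin q, ∃ (s : Chart R t₀)
        (c : Chart R (algebraMap (FK ↥K₁ (M * q)) (FK ↥K₁ (M * q * q)) t₀)), s ∉ 𝔫₀ ∧
        algebraMap (FK ↥K₁ (M * q)) (FK ↥K₁ (M * q * q)) (s : FK ↥K₁ (M * q)) *
          (fun i : Fin q => H8TG.J2 ↥K₁ (M * q * q) q h2 ^ (i : ℕ)) i =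
            (c : FK ↥K₁ (M * q * q)) :=
  fun 𝔫₀ h𝔫₀ hJ i => hb_J2 K₁ M q R Φ hΦ hc t₀ 𝔫₀ h𝔫₀.1.isPrime hJ h2 (i : ℕ)

end Concrete

/-! ### `φα`-form (the shape of `hb` in `H20R3.hR3_of_record`) -/

section PhiForm

open H4S34 H7S18 ModularCurve HahnSeries H28GV

variable (K₁ : IntermediateField ℚ RH24.Kbar) (M q : ℕ) [NeZero M] [NeZero q]
variable (R : Type) [CommRing R] [Algebra R (FK ↥K₁ (M * q))] [Algebra R (FK ↥K₁ (M * q * q))]

/-- **(D-b)**, `φα`-form: `φα = (heckeAlphaBar K₁ (M q) q).toRingHom`, `b i = J₂ ^ i`,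
`j₀ = J` (level `M q`), any chart parameter `c'` of the lower level. -/
theorem hb_J2_phi
    (hcomp : ∀ r : R, (heckeAlphaBar ↥K₁ (M * q) q).toRingHom (algebraMap R (FK ↥K₁ (M * q)) r) =
      algebraMap R (FK ↥K₁ (M * q * q)) r)
    (Φ : Polynomial (Polynomial ℤ)) (hΦ : H28S28.h10IsModPoly q Φ)
    (ϖ : R) (c' : FK ↥K₁ (M * q)) (h2 : q * q ∣ M * q * q)
    (𝔫₀ : Ideal (Chart R c')) (h𝔫₀ : IsClosedPt R ϖ c' 𝔫₀)
    (hJ : InLoc R c' 𝔫₀ (H8TG.J0 ↥K₁ (M * q))) (i : Fin q) :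
    ∃ (s : Chart R c') (c : Chart R ((heckeAlphaBar ↥K₁ (M * q) q).toRingHom c')), s ∉ 𝔫₀ ∧
      (heckeAlphaBar ↥K₁ (M * q) q).toRingHom (s : FK ↥K₁ (M * q)) *
        (fun i : Fin q => H8TG.J2 ↥K₁ (M * q * q) q h2 ^ (i : ℕ)) i =
          (c : FK ↥K₁ (M * q * q)) := by
  letI : Algebra (FK ↥K₁ (M * q)) (FK ↥K₁ (M * q * q)) :=
    (heckeAlphaBar ↥K₁ (M * q) q).toRingHom.toAlgebra
  haveI : IsScalarTower R (FK ↥K₁ (M * q)) (FK ↥K₁ (M * q * q)) :=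
    IsScalarTower.of_algebraMap_eq (fun r => (hcomp r).symm)
  exact hb_J2_field K₁ M q R Φ hΦ (fun x => coe_heckeAlphaBar (M * q) q x) ϖ c' h2 𝔫₀ h𝔫₀ hJ i

end PhiForm

end H3IJ

end
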