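/-
helper20: item 86 (S36), LOC, DISC route, slice (R3-INST), layer 2: (R3) in the language of the
architect's `H4S36.Triple` (valuation rings `V₁, V₂, V₃` upstairs, `V₁', V₂'` downstairs).

Generic setting: `R` a DVR, `K = Frac R`, `F / F'` finite (`F'` = level `N' q`, `F` = level
`N' q²`, `Algebra F' F` = `α`), lower chart `A = Chart R t'`, upper chart
`B = Chart R (algebraMap F' F t')`, `𝔫₀` a closed point of `A` which is NOT on `C₂'`
(`g ∉ 𝔫₀`, `v₂'(g) < 1`) with helper16's (G0) data (`H16G0.RegData`, `x₀` a unit at `V₁'`,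
`P₁' A_{𝔫₀} = ϖ A_{𝔫₀}`).

* `H20R3.inLoc_div_pow`      : `x ∈ A_{𝔫₀}`, `x / ϖ^m ∈ V₁'` ⟹ `x / ϖ^m ∈ A_{𝔫₀}`;
* `H20R3.exists_frac_val_one`: `V₁' = A_{P₁'}`: every `p ∈ V₁'` is `a / s`, `v₁'(s) = 1`;
* `H20R3.hpi1_of_resdeg`     : residue degree one of a component `V` over `V₁'` at the level of
                               valuation rings (`Triple.f₁α`, `Triple.f₃α`) ⟹ the local form
                               `hpi1` (denominators outside `𝔫₀`);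
* `H20R3.comp_of_over`       : every point of `B` above `𝔫₀` lies on `C₁` or `C₃`;
* `H20R3.two_gen_of_triple`  : **(R3)**: two local generators at every point above `𝔫₀`, from
                               `H6LD.DiscChartStatement`, the `Triple` fields `hO, hϖ₁', hd₁',
                               hα₁, hα₃, hα₂, f₁α, f₃α`, (G0) at `𝔫₀`, (E) and (D).
-/
import Mathlib
import Fermat.Agent.S36.R3Gen_helper20
import Fermat.Agent.S36.R2Val_helper26
import Fermat.Agent.S36.TriField_helper18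
import Fermat.Agent.S36.G0NqDefs_helper16

set_option autoImplicit false
set_option linter.unusedSectionVars false
set_option linter.unusedVariables false
set_option linter.style.haveILetI false
set_option synthInstance.maxHeartbeats 400000

noncomputable section

namespace H20R3

open Polynomial IntermediateField AlgebraicCurve H7S18 H4S34 H26WT

section val

variable {R : Type} [CommRing R] {E : Type} [Field E] [Algebra R E]
variable {c : E} {𝔫 : Ideal (Chart R c)}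

/-- elements of the chart outside `𝔫` are units at a valuation ring centred in `𝔫`. -/
theorem val_eq_one_of_not_mem (V : ValuationSubring E) (hVA : ∀ y : Chart R c, (y : E) ∈ V)
    (hV𝔫 : ∀ y : Chart R c, V.valuation (y : E) < 1 → y ∈ 𝔫) {s : Chart R c} (hs : s ∉ 𝔫) :
    V.valuation (s : E) = 1 := by
  have h1 : V.valuation (s : E) ≤ 1 := (V.valuation_le_one_iff _).2 (hVA s)
  rcases lt_or_eq_of_le h1 with h | h
  · exact absurd (hV𝔫 s h) hs
  · exact h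

/-- `P_V A_𝔫 = ϖ A_𝔫` ⟹ the centre of `V` is contained in `𝔫`. -/
theorem center_le_of_prin (h𝔫 : 𝔫.IsPrime) (ϖ : R) (hϖ0 : algebraMap R E ϖ ≠ 0)
    (hϖ𝔫 : ∀ y : Chart R c, (y : E) = algebraMap R E ϖ → y ∈ 𝔫)
    (V : ValuationSubring E)
    (hprin : ∀ y : Chart R c, V.valuation (y : E) < 1 →
      InLoc R c 𝔫 ((y : E) * (algebraMap R E ϖ)⁻¹))
    (y : Chart R c) (hy : V.valuation (y : E) < 1) : y ∈ 𝔫 := by
  obtain ⟨a, s, hs, e⟩ := hprin y hy
  -- `s y = a ϖ`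
  have hϖint : IsIntegral (Algebra.adjoin R {c}) (algebraMap R E ϖ) := by
    have : algebraMap R E ϖ =
        algebraMap (Algebra.adjoin R {c}) E (algebraMap R (Algebra.adjoin R {c}) ϖ) := rfl
    rw [this]
    exact isIntegral_algebraMap
  let ϖ' : Chart R c := ⟨algebraMap R E ϖ, hϖint⟩
  have hϖ' : ϖ' ∈ 𝔫 := hϖ𝔫 ϖ' rfl
  have e2 : s * y = a * ϖ' := by
    apply Subtype.ext
    push_cast
    change (s : E) * y = a * algebraMap R E ϖ
    rw [← e]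
    field_simp
  have h1 : s * y ∈ 𝔫 := by
    rw [e2]
    exact 𝔫.mul_mem_left _ hϖ'
  rcases h𝔫.mem_or_mem h1 with h | h
  · exact absurd h hs
  · exact h

/-- **(L)**: if `P_V A_𝔫 = ϖ A_𝔫`, then `x ∈ A_𝔫`, `x / ϖ^m ∈ V` ⟹ `x / ϖ^m ∈ A_𝔫`. -/
theorem inLoc_div_pow (h𝔫 : 𝔫.IsPrime) (ϖ : R) (hϖ0 : algebraMap R E ϖ ≠ 0)
    (V : ValuationSubring E) (hVA : ∀ y : Chart R c, (y : E) ∈ V)
    (hV𝔫 : ∀ y : Chart R c, V.valuation (y : E) < 1 → y ∈ 𝔫)
    (hVϖ : V.valuation (algebraMap R E ϖ) < 1)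
    (hprin : ∀ y : Chart R c, V.valuation (y : E) < 1 →
      InLoc R c 𝔫 ((y : E) * (algebraMap R E ϖ)⁻¹)) :
    ∀ (m : ℕ) (x : E), InLoc R c 𝔫 x → x * (algebraMap R E ϖ ^ m)⁻¹ ∈ V →
      InLoc R c 𝔫 (x * (algebraMap R E ϖ ^ m)⁻¹) := by
  intro m
  induction m with
  | zero =>
      intro x hx _
      rw [pow_zero, inv_one, mul_one]
      exact hx
  | succ m ih =>
      intro x hx hxV
      set π : E := algebraMap R E ϖ with hπ
      obtain ⟨a, s, hs, e⟩ := hx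
      have hs1 := val_eq_one_of_not_mem V hVA hV𝔫 hs
      have hπm : V.valuation (π ^ (m + 1)) < 1 := by
        rw [pow_succ, map_mul]
        have h1 : V.valuation (π ^ m) ≤ 1 :=
          (V.valuation_le_one_iff _).2 (V.pow_mem ((V.valuation_le_one_iff _).1 hVϖ.le) m)
        calc V.valuation (π ^ m) * V.valuation π ≤ 1 * V.valuation π := by gcongr
          _ = V.valuation π := one_mul _
          _ < 1 := hVϖ
      have hxlt : V.valuation x < 1 := by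
        have e1 : x = π ^ (m + 1) * (x * (π ^ (m + 1))⁻¹) := by
          have : π ^ (m + 1) ≠ 0 := pow_ne_zero _ hϖ0
          field_simp
        rw [e1, map_mul]
        have h1 : V.valuation (x * (π ^ (m + 1))⁻¹) ≤ 1 := (V.valuation_le_one_iff _).2 hxV
        calc V.valuation (π ^ (m + 1)) * V.valuation (x * (π ^ (m + 1))⁻¹)
            ≤ V.valuation (π ^ (m + 1)) * 1 := by gcongr
          _ = V.valuation (π ^ (m + 1)) := mul_one _
          _ < 1 := hπm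
      have halt : V.valuation (a : E) < 1 := by
        rw [← e, map_mul, hs1, one_mul]
        exact hxlt
      have h1 : InLoc R c 𝔫 ((a : E) * π⁻¹) := hprin a halt
      have hs0 : (s : E) ≠ 0 := by
        intro h
        rw [h, map_zero] at hs1
        exact zero_ne_one hs1
      have hsinv : InLoc R c 𝔫 ((s : E))⁻¹ := by
        refine inLoc_inv (inLoc_coe h𝔫 s) ?_
        intro h
        exact hs ((inMax_coe_iff h𝔫 s).1 h)
      have h2 : InLoc R c 𝔫 (x * π⁻¹) := by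
        have e2 : x * π⁻¹ = (a : E) * π⁻¹ * ((s : E))⁻¹ := by
          rw [← e]
          field_simp
        rw [e2]
        exact inLoc_mul h𝔫 h1 hsinv
      have e3 : x * (π ^ (m + 1))⁻¹ = x * π⁻¹ * (π ^ m)⁻¹ := by
        rw [pow_succ, mul_inv]
        ring
      rw [e3]
      apply ih _ h2
      rw [← e3]
      exact hxV

end val

section chart

variable (R : Type) [CommRing R] [IsDomain R] [IsDiscreteValuationRing R]
  (K : Type) [Field K] [CharZero K] [Algebra R K] [IsFractionRing R K]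
  {E : Type} [Field E] [Algebra K E] [Algebra R E] [IsScalarTower R K E]

/-- **`V = A_{P_V}`**: if `ϖ` is a uniformizer of `V` (`hd`) and `P_V A_𝔫 = ϖ A_𝔫`, every
`p ∈ V` is `a / s` with `a, s` in the chart and `v(s) = 1`. -/
theorem exists_frac_val_one {c : E} [hfin : FiniteDimensional K⟮c⟯ E]
    (𝔫 : Ideal (Chart R c)) (h𝔫 : 𝔫.IsPrime) (ϖ : R) (hϖ0 : algebraMap R E ϖ ≠ 0)
    (V : ValuationSubring E) (hVA : ∀ y : Chart R c, (y : E) ∈ V)
    (hV𝔫 : ∀ y : Chart R c, V.valuation (y : E) < 1 → y ∈ 𝔫)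
    (hVϖ : V.valuation (algebraMap R E ϖ) < 1)
    (hprin : ∀ y : Chart R c, V.valuation (y : E) < 1 →
      InLoc R c 𝔫 ((y : E) * (algebraMap R E ϖ)⁻¹))
    (hd : ∀ x : E, x ≠ 0 → ∃ k : ℤ, V.valuation (x * algebraMap R E ϖ ^ (-k)) = 1)
    (p : E) (hp : p ∈ V) :
    ∃ a s : Chart R c, V.valuation (s : E) = 1 ∧ (s : E) * p = a := by
  set π : E := algebraMap R E ϖ with hπ
  haveI := H22BR.chart_isFractionRing R K c
  obtain ⟨a₀, s₀, hs₀, e₀⟩ := IsFractionRing.div_surjective (A := Chart R c) p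
  have hs₀0 : (s₀ : E) ≠ 0 := by
    intro h
    have : s₀ = 0 := Subtype.ext h
    exact (nonZeroDivisors.ne_zero hs₀) this
  have e₀' : (a₀ : E) = s₀ * p := by
    have : algebraMap (Chart R c) E a₀ / algebraMap (Chart R c) E s₀ = p := e₀
    have h2 : (algebraMap (Chart R c) E a₀ : E) = (a₀ : E) := rfl
    have h3 : (algebraMap (Chart R c) E s₀ : E) = (s₀ : E) := rfl
    rw [h2, h3] at this
    rw [← this]
    field_simp
  obtain ⟨k, hk⟩ := hd (s₀ : E) hs₀0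
  -- `k ≥ 0`
  have hπV : π ∈ V := (V.valuation_le_one_iff _).1 hVϖ.le
  obtain ⟨n, rfl | rfl⟩ := Int.eq_nat_or_neg k
  swap
  · -- `k = -n`: `v(s₀ π^n) = 1` forces `n = 0`
    rw [neg_neg, zpow_natCast] at hk
    have hn : n = 0 := by
      by_contra hn
      have h1 : V.valuation ((s₀ : E) * π ^ n) < 1 := by
        rw [map_mul]
        have h2 : V.valuation (s₀ : E) ≤ 1 := (V.valuation_le_one_iff _).2 (hVA s₀)
        have h3 : V.valuation (π ^ n) < 1 := by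
          obtain ⟨i, rfl⟩ : ∃ i, n = i + 1 := ⟨n - 1, by omega⟩
          rw [pow_succ, map_mul]
          have h4 : V.valuation (π ^ i) ≤ 1 := (V.valuation_le_one_iff _).2 (V.pow_mem hπV i)
          calc V.valuation (π ^ i) * V.valuation π ≤ 1 * V.valuation π := by gcongr
            _ = V.valuation π := one_mul _
            _ < 1 := hVϖ
        calc V.valuation (s₀ : E) * V.valuation (π ^ n) ≤ 1 * V.valuation (π ^ n) := by gcongr
          _ = V.valuation (π ^ n) := one_mul _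
          _ < 1 := h3
      rw [hk] at h1
      exact lt_irrefl _ h1
    subst hn
    rw [pow_zero, mul_one] at hk
    exact ⟨a₀, s₀, hk, e₀'.symm⟩
  · rw [zpow_neg, zpow_natCast] at hk
    have hL := inLoc_div_pow h𝔫 ϖ hϖ0 V hVA hV𝔫 hVϖ hprin n
    have hs1 : InLoc R c 𝔫 ((s₀ : E) * (π ^ n)⁻¹) :=
      hL _ (inLoc_coe h𝔫 s₀) ((V.valuation_le_one_iff _).1 hk.le)
    have hpn : π ^ n ≠ 0 := pow_ne_zero _ hϖ0
    have ea : (a₀ : E) * (π ^ n)⁻¹ = p * ((s₀ : E) * (π ^ n)⁻¹) := by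
      rw [e₀']
      ring
    have ha1 : InLoc R c 𝔫 ((a₀ : E) * (π ^ n)⁻¹) := by
      refine hL _ (inLoc_coe h𝔫 a₀) ?_
      rw [ea]
      exact V.mul_mem _ _ hp ((V.valuation_le_one_iff _).1 hk.le)
    obtain ⟨cs, us, hus, es⟩ := hs1
    obtain ⟨ca, ua, hua, ea'⟩ := ha1
    have hus1 := val_eq_one_of_not_mem V hVA hV𝔫 hus
    have hua1 := val_eq_one_of_not_mem V hVA hV𝔫 hua
    refine ⟨ca * us, ua * cs, ?_, ?_⟩
    · push_cast
      rw [map_mul, hua1, one_mul, ← es, map_mul, hus1, one_mul]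
      exact hk
    · push_cast
      rw [← es, ← ea', e₀']
      field_simp

end chart

section comp

variable (R : Type) [CommRing R] [IsDomain R] [IsDiscreteValuationRing R]
  (K : Type) [Field K] [CharZero K] [Algebra R K] [IsFractionRing R K]
  (F₀ F : Type) [Field F₀] [Algebra K F₀] [Algebra R F₀] [IsScalarTower R K F₀]
  [Field F] [Algebra K F] [Algebra R F] [IsScalarTower R K F]
  [Algebra F₀ F] [IsScalarTower K F₀ F] [IsScalarTower R F₀ F] [FiniteDimensional F₀ F]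

/-- `x ∈ V'` if `V'` lies under `V` and `algebraMap x ∈ V`. -/
theorem mem_of_map_mem (V' : ValuationSubring F₀) (V : ValuationSubring F)
    (hα : ∀ x : F₀, V'.valuation x < 1 ↔ V.valuation (algebraMap F₀ F x) < 1)
    {x : F₀} (hx : algebraMap F₀ F x ∈ V) : x ∈ V' := by
  by_contra h
  have hx0 : x ≠ 0 := by
    intro h0
    apply h
    rw [h0]
    exact V'.zero_mem
  have h1 : V'.valuation x⁻¹ < 1 := by
    rw [← V'.valuation_le_one_iff, not_le] at h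
    rw [map_inv₀]
    exact inv_lt_one_of_one_lt₀ h
  have h2 := (hα _).1 h1
  rw [map_inv₀, map_inv₀] at h2
  have h3 : V.valuation (algebraMap F₀ F x) ≤ 1 := (V.valuation_le_one_iff _).2 hx
  have h4 : V.valuation (algebraMap F₀ F x) ≠ 0 := by
    rw [Valuation.ne_zero_iff]
    exact fun h => hx0 ((algebraMap F₀ F).injective (h.trans (map_zero _).symm))
  have h5 : 1 ≤ (V.valuation (algebraMap F₀ F x))⁻¹ := by
    rw [one_le_inv₀ (zero_lt_iff.2 h4)]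
    exact h3
  exact absurd h2 (not_lt.2 h5)

/-- **residue degree one, from valuation rings to the local form.**  `V` a valuation ring of
`F` over `V'` (`hα`), of residue degree one over `V'` (`hf`), `V' = A_{P'}` locally principal
at `𝔫₀` with (G0) data: then every `b : B` is `≡ φ a / φ s` modulo `P_V` with `s ∉ 𝔫₀`. -/
theorem hpi1_of_resdeg (ϖ : R) (hϖ : Irreducible ϖ) (t₀ : F₀) (ht₀ : Transcendental K t₀)
    (hfin₀ : FiniteDimensional K⟮t₀⟯ F₀)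
    (𝔫₀ : Ideal (Chart R t₀)) (h𝔫₀ : IsClosedPt R ϖ t₀ 𝔫₀)
    (V' : ValuationSubring F₀) (hV'A : ∀ y : Chart R t₀, (y : F₀) ∈ V')
    (hV'ϖ : V'.valuation (algebraMap R F₀ ϖ) < 1)
    (hd' : ∀ x : F₀, x ≠ 0 → ∃ k : ℤ, V'.valuation (x * algebraMap R F₀ ϖ ^ (-k)) = 1)
    (x₀ : Chart R t₀) (hG0 : H16G0.RegData R ϖ t₀ 𝔫₀ x₀)
    (hprin : ∀ y : Chart R t₀, V'.valuation (y : F₀) < 1 →
      InLoc R t₀ 𝔫₀ ((y : F₀) * (algebraMap R F₀ ϖ)⁻¹))
    (V : ValuationSubring F) (hVB : ∀ y : Chart R (algebraMap F₀ F t₀), (y : F) ∈ V)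
    (hα : ∀ x : F₀, V'.valuation x < 1 ↔ V.valuation (algebraMap F₀ F x) < 1)
    (hf : ∀ x : F, x ∈ V → ∃ p : F₀, p ∈ V' ∧ V.valuation (x - algebraMap F₀ F p) < 1)
    (b : Chart R (algebraMap F₀ F t₀)) :
    ∃ s a : Chart R t₀, s ∉ 𝔫₀ ∧
      H6CM.chartMap R t₀ s * b - H6CM.chartMap R t₀ a ∈ H26R2.compIdeal R V hVB := by
  have hϖ0 : algebraMap R F₀ ϖ ≠ 0 := by
    rw [IsScalarTower.algebraMap_apply R K F₀]
    intro h
    have h1 := (algebraMap K F₀).injective (h.trans (map_zero _).symm)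
    exact hϖ.ne_zero ((IsFractionRing.injective R K) (h1.trans (map_zero _).symm))
  have hprime : 𝔫₀.IsPrime := h𝔫₀.1.isPrime
  have hV'𝔫 : ∀ y : Chart R t₀, V'.valuation (y : F₀) < 1 → y ∈ 𝔫₀ :=
    fun y hy => center_le_of_prin hprime ϖ hϖ0 h𝔫₀.2 V' hprin y hy
  haveI : IsNoetherianRing (Chart R t₀) := H22BR.chart_noeth R K ht₀
  -- field level
  have hf1 : ∀ b : Chart R (algebraMap F₀ F t₀), ∃ s a : Chart R t₀,
      s ∉ H26R2.compIdeal R V' hV'A ∧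
      H6CM.chartMap R t₀ s * b - H6CM.chartMap R t₀ a ∈ H26R2.compIdeal R V hVB := by
    intro b
    obtain ⟨p, hpV', hbp⟩ := hf (b : F) (hVB b)
    obtain ⟨a, s, hs1, e⟩ :=
      exists_frac_val_one R K 𝔫₀ hprime ϖ hϖ0 V' hV'A hV'𝔫 hV'ϖ hprin hd' p hpV'
    refine ⟨s, a, ?_, ?_⟩
    · rw [H26R2.mem_compIdeal, hs1]
      exact lt_irrefl _
    · rw [H26R2.mem_compIdeal]
      push_cast
      rw [H6CM.coe_chartMap, H6CM.coe_chartMap, ← e, map_mul, ← mul_sub, map_mul]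
      have h1 : V.valuation (algebraMap F₀ F (s : F₀)) ≤ 1 :=
        (V.valuation_le_one_iff _).2 (hVB (H6CM.chartMap R t₀ s))
      calc V.valuation (algebraMap F₀ F (s : F₀)) * V.valuation ((b : F) - algebraMap F₀ F p)
          ≤ 1 * V.valuation ((b : F) - algebraMap F₀ F p) := by gcongr
        _ = V.valuation ((b : F) - algebraMap F₀ F p) := one_mul _
        _ < 1 := hbp
  haveI hP : (H26R2.compIdeal R V hVB).IsPrime := H26R2.compIdeal_isPrime R V hVB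
  haveI hP' : (H26R2.compIdeal R V' hV'A).IsPrime := H26R2.compIdeal_isPrime R V' hV'A
  haveI := hprime
  have hPP' : (H26R2.compIdeal R V hVB).comap (H6CM.chartMap R (F := F) t₀) =
      H26R2.compIdeal R V' hV'A := by
    ext y
    rw [Ideal.mem_comap, H26R2.mem_compIdeal, H26R2.mem_compIdeal, H6CM.coe_chartMap]
    exact (hα _).symm
  have hle : H26R2.compIdeal R V' hV'A ≤ 𝔫₀ := fun y hy => hV'𝔫 y hy
  obtain ⟨hx₀, hgen, -, -⟩ := hG0
  have hun : ∀ z ∈ 𝔫₀, ∃ u : Chart R t₀, u ∉ 𝔫₀ ∧ ∃ c : Chart R t₀,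
      u * z - c * x₀ ∈ H26R2.compIdeal R V' hV'A := by
    intro z hz
    obtain ⟨s, a, b', hs, e⟩ := hgen z hz
    refine ⟨s, hs, b', ?_⟩
    rw [H26R2.mem_compIdeal]
    push_cast
    rw [e, add_sub_cancel_right, map_mul]
    have h1 : V'.valuation (a : F₀) ≤ 1 := (V'.valuation_le_one_iff _).2 (hV'A a)
    calc V'.valuation (a : F₀) * V'.valuation (algebraMap R F₀ ϖ)
        ≤ 1 * V'.valuation (algebraMap R F₀ ϖ) := by gcongr
      _ = V'.valuation (algebraMap R F₀ ϖ) := one_mul _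
      _ < 1 := hV'ϖ
  exact H18TR.hpi1_of_field (H6CM.chartMap R (F := F) t₀) (H6CM.chartMap_isIntegral R t₀)
    (H26R2.compIdeal R V hVB) (H26R2.compIdeal R V' hV'A) 𝔫₀ hPP' hle x₀ hx₀ hun hf1 b

/-- **every point above `𝔫₀` lies on `C₁` or `C₃`** if `𝔫₀` is not on `C₂'`. -/
theorem comp_of_over (ϖ : R) (hϖ : Irreducible ϖ) (t₀ : F₀)
    (ht : Transcendental K (algebraMap F₀ F t₀))
    (hfin : FiniteDimensional K⟮algebraMap F₀ F t₀⟯ F)
    (𝔫₀ : Ideal (Chart R t₀)) (h𝔫₀ : IsClosedPt R ϖ t₀ 𝔫₀)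
    (V₁ V₂ V₃ : ValuationSubring F) (V₂' : ValuationSubring F₀)
    (hO : ∀ x : F, GInt R ϖ (algebraMap F₀ F t₀) x ↔ x ∈ V₁ ∧ x ∈ V₂ ∧ x ∈ V₃)
    (hα₂ : ∀ x : F₀, V₂'.valuation x < 1 ↔ V₂.valuation (algebraMap F₀ F x) < 1)
    (g : Chart R t₀) (hg : g ∉ 𝔫₀) (hg2 : V₂'.valuation (g : F₀) < 1)
    (hV₁B : ∀ y : Chart R (algebraMap F₀ F t₀), (y : F) ∈ V₁)
    (hV₃B : ∀ y : Chart R (algebraMap F₀ F t₀), (y : F) ∈ V₃)
    (𝔫 : Ideal (Chart R (algebraMap F₀ F t₀))) (h𝔫 : 𝔫.IsMaximal)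
    (hover : ∀ y ∈ 𝔫₀, H6CM.chartMap R t₀ y ∈ 𝔫) :
    H26R2.compIdeal R V₁ hV₁B ≤ 𝔫 ∨ H26R2.compIdeal R V₃ hV₃B ≤ 𝔫 := by
  classical
  haveI := hfin
  haveI : IsNoetherianRing (Chart R (algebraMap F₀ F t₀)) := H22BR.chart_noeth R K ht
  haveI h𝔫p : 𝔫.IsPrime := h𝔫.isPrime
  have hinjF : Function.Injective (algebraMap R F) := H19S18.h19_algebraMap_injective R K
  -- the element `ϖ` of the upper chart
  have hϖint : IsIntegral (Algebra.adjoin R {t₀}) (algebraMap R F₀ ϖ) := by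
    have : algebraMap R F₀ ϖ =
        algebraMap (Algebra.adjoin R {t₀}) F₀ (algebraMap R (Algebra.adjoin R {t₀}) ϖ) := rfl
    rw [this]
    exact isIntegral_algebraMap
  let ϖ₀ : Chart R t₀ := ⟨algebraMap R F₀ ϖ, hϖint⟩
  have hϖ₀ : ϖ₀ ∈ 𝔫₀ := h𝔫₀.2 ϖ₀ rfl
  set ϖ' : Chart R (algebraMap F₀ F t₀) := H6CM.chartMap R t₀ ϖ₀ with hϖ'
  have hϖ'coe : (ϖ' : F) = algebraMap R F ϖ := by
    rw [hϖ', H6CM.coe_chartMap]
    exact (IsScalarTower.algebraMap_apply R F₀ F ϖ).symm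
  have hϖ'𝔫 : ϖ' ∈ 𝔫 := hover ϖ₀ hϖ₀
  have hϖ'0 : ϖ' ≠ 0 := by
    intro h
    have h1 : (ϖ' : F) = 0 := by rw [h]; rfl
    rw [hϖ'coe] at h1
    exact hϖ.ne_zero (hinjF (h1.trans (map_zero _).symm))
  -- a minimal prime over `ϖ'` below `𝔫`
  have hle : Ideal.span {ϖ'} ≤ 𝔫 := by
    rw [Ideal.span_le, Set.singleton_subset_iff]
    exact hϖ'𝔫
  obtain ⟨p, hpmin, hp𝔫⟩ := Ideal.exists_minimalPrimes_le hle
  haveI hpp : p.IsPrime := hpmin.1.1
  have hϖ'p : ϖ' ∈ p := hpmin.1.2 (Ideal.subset_span (Set.mem_singleton _))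
  have hh1 : p.height ≤ 1 :=
    Ideal.height_le_one_of_isPrincipal_of_mem_minimalPrimes (Ideal.span {ϖ'}) p hpmin
  have hh0 : p.height ≠ 0 := by
    intro h0
    have : p = ⊥ := Ideal.height_eq_zero_iff_eq_bot.1 h0
    rw [this] at hϖ'p
    exact hϖ'0 ((Submodule.mem_bot _).1 hϖ'p)
  have hh : p.height = 1 := by
    have h2 : 1 ≤ p.height := Order.one_le_iff_pos.2 (pos_iff_ne_zero.2 hh0)
    exact le_antisymm hh1 h2
  have hO' : ∀ x : F, GInt R ϖ (algebraMap F₀ F t₀) x ↔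
      ∀ V ∈ ({V₁, V₂, V₃} : Finset (ValuationSubring F)), x ∈ V := by
    intro x
    rw [hO x]
    constructor
    · rintro ⟨h1, h2, h3⟩ V hV
      rw [Finset.mem_insert, Finset.mem_insert, Finset.mem_singleton] at hV
      rcases hV with rfl | rfl | rfl
      · exact h1
      · exact h2
      · exact h3
    · intro h
      exact ⟨h V₁ (by simp), h V₂ (by simp), h V₃ (by simp)⟩
  obtain ⟨V, hV, hpV⟩ := H26R2.vert_prime_cases R K hϖ ht _ hO' p hpp hh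
    (fun y hy => by
      have : y = ϖ' := Subtype.ext (hy.trans hϖ'coe.symm)
      rw [this]
      exact hϖ'p)
  rw [Finset.mem_insert, Finset.mem_insert, Finset.mem_singleton] at hV
  have hmemp : ∀ y : Chart R (algebraMap F₀ F t₀), V.valuation (y : F) < 1 → y ∈ 𝔫 := by
    intro y hy
    apply hp𝔫
    rw [hpV, H26R2.mem_compIdeal]
    exact hy
  rcases hV with rfl | rfl | rfl
  · left
    intro y hy
    exact hmemp y ((H26R2.mem_compIdeal R V hV₁B y).1 hy)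
  · exfalso
    have h1 : H6CM.chartMap R (F := F) t₀ g ∈ 𝔫 := by
      apply hmemp
      rw [H6CM.coe_chartMap]
      exact (hα₂ _).1 hg2
    have h2 : g ∈ 𝔫.comap (H6CM.chartMap R (F := F) t₀) := h1
    rw [comap_eq_of_over (H6CM.chartMap R (F := F) t₀) 𝔫₀ h𝔫₀.1 𝔫 h𝔫.ne_top hover] at h2
    exact hg h2
  · right
    intro y hy
    exact hmemp y ((H26R2.mem_compIdeal R V hV₃B y).1 hy)

/-- **(R3) in the language of `H4S36.Triple`**: two local generators at every closed point of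
the upper chart above a closed point `𝔫₀` of the lower chart which is not on `C₂'`. -/
theorem two_gen_of_triple (hdisc : H6LD.DiscChartStatement)
    (ϖ : R) (hϖ : Irreducible ϖ) (t₀ : F₀) (ht₀ : Transcendental K t₀)
    (hfin₀ : FiniteDimensional K⟮t₀⟯ F₀) (hfin : FiniteDimensional K⟮algebraMap F₀ F t₀⟯ F)
    -- fields of `H4S36.Triple` (with `φα = algebraMap F₀ F`)
    (V₁ V₂ V₃ : ValuationSubring F) (V₁' V₂' : ValuationSubring F₀)
    (hO : ∀ x : F, GInt R ϖ (algebraMap F₀ F t₀) x ↔ x ∈ V₁ ∧ x ∈ V₂ ∧ x ∈ V₃)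
    (hϖ₁' : V₁'.valuation (algebraMap R F₀ ϖ) < 1)
    (hd₁' : ∀ x : F₀, x ≠ 0 → ∃ k : ℤ, V₁'.valuation (x * algebraMap R F₀ ϖ ^ (-k)) = 1)
    (hα₁ : ∀ x : F₀, V₁'.valuation x < 1 ↔ V₁.valuation (algebraMap F₀ F x) < 1)
    (hα₃ : ∀ x : F₀, V₁'.valuation x < 1 ↔ V₃.valuation (algebraMap F₀ F x) < 1)
    (hα₂ : ∀ x : F₀, V₂'.valuation x < 1 ↔ V₂.valuation (algebraMap F₀ F x) < 1)
    (f₁α : ∀ x : F, x ∈ V₁ → ∃ p : F₀, p ∈ V₁' ∧ V₁.valuation (x - algebraMap F₀ F p) < 1)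
    (f₃α : ∀ x : F, x ∈ V₃ → ∃ p : F₀, p ∈ V₁' ∧ V₃.valuation (x - algebraMap F₀ F p) < 1)
    -- the point `𝔫₀`: not on `C₂'`, with (G0) data
    (𝔫₀ : Ideal (Chart R t₀)) (h𝔫₀ : IsClosedPt R ϖ t₀ 𝔫₀)
    (g : Chart R t₀) (hg : g ∉ 𝔫₀) (hg2 : V₂'.valuation (g : F₀) < 1)
    (x₀ : Chart R t₀) (hG0 : H16G0.RegData R ϖ t₀ 𝔫₀ x₀)
    (hx₀ : ¬ V₁'.valuation (x₀ : F₀) < 1)
    (hprin : ∀ y : Chart R t₀, V₁'.valuation (y : F₀) < 1 →
      InLoc R t₀ 𝔫₀ ((y : F₀) * (algebraMap R F₀ ϖ)⁻¹))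
    -- degree, (E), (D)
    (r m : ℕ) (hr : Module.finrank F₀ F = r) (hml : m + 2 ≤ r)
    (j₀ : F₀) (hj₀ : InLoc R t₀ 𝔫₀ j₀)
    (hE : ∀ V : Place K F, 0 ≤ V.ord (algebraMap F₀ F j₀) →
      ∃ u : F₀, V.ord (algebraMap F₀ F u) = 1)
    (b : Fin r → F)
    (hb : ∀ i, ∃ (s : Chart R t₀) (c : Chart R (algebraMap F₀ F t₀)), s ∉ 𝔫₀ ∧
      algebraMap F₀ F s * b i = c)
    (hdval : ¬ V₁'.valuation (Algebra.discr F₀ b * (algebraMap R F₀ ϖ ^ m)⁻¹) < 1)
    (𝔫 : Ideal (Chart R (algebraMap F₀ F t₀))) (h𝔫 : 𝔫.IsMaximal)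
    (hover : ∀ y ∈ 𝔫₀, H6CM.chartMap R t₀ y ∈ 𝔫) :
    ∃ g x : Chart R (algebraMap F₀ F t₀), g ∈ 𝔫 ∧ x ∈ 𝔫 ∧
      ∀ y ∈ 𝔫, ∃ s a c : Chart R (algebraMap F₀ F t₀), s ∉ 𝔫 ∧
        (s : F) * y = a * (g : F) + c * x := by
  have hϖ0 : algebraMap R F₀ ϖ ≠ 0 := by
    rw [IsScalarTower.algebraMap_apply R K F₀]
    intro h
    have h1 := (algebraMap K F₀).injective (h.trans (map_zero _).symm)
    exact hϖ.ne_zero ((IsFractionRing.injective R K) (h1.trans (map_zero _).symm))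
  have hprime : 𝔫₀.IsPrime := h𝔫₀.1.isPrime
  have ht : Transcendental K (algebraMap F₀ F t₀) := by
    intro h
    apply ht₀
    have h1 : IsAlgebraic K ((IsScalarTower.toAlgHom K F₀ F) t₀) := h
    exact (isAlgebraic_algHom_iff (IsScalarTower.toAlgHom K F₀ F)
      (algebraMap F₀ F).injective).1 h1
  have htR : Transcendental R (algebraMap F₀ F t₀) := H19S18.h19_transc R K ht
  -- the charts lie in the valuation rings
  have hV₁B : ∀ y : Chart R (algebraMap F₀ F t₀), (y : F) ∈ V₁ :=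
    fun y => ((hO y).1 (H19S18.h19_gint_of_isInt R htR hϖ y.2)).1
  have hV₃B : ∀ y : Chart R (algebraMap F₀ F t₀), (y : F) ∈ V₃ :=
    fun y => ((hO y).1 (H19S18.h19_gint_of_isInt R htR hϖ y.2)).2.2
  have hV'A : ∀ y : Chart R t₀, (y : F₀) ∈ V₁' :=
    fun y => mem_of_map_mem F₀ F V₁' V₁ hα₁ (hV₁B (H6CM.chartMap R t₀ y))
  have hV'𝔫 : ∀ y : Chart R t₀, V₁'.valuation (y : F₀) < 1 → y ∈ 𝔫₀ :=
    fun y hy => center_le_of_prin hprime ϖ hϖ0 h𝔫₀.2 V₁' hprin y hy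
  -- the two components above
  let P : Bool → Ideal (Chart R (algebraMap F₀ F t₀)) := fun i =>
    if i then H26R2.compIdeal R V₁ hV₁B else H26R2.compIdeal R V₃ hV₃B
  have hpi1 : ∀ i, ∀ b : Chart R (algebraMap F₀ F t₀), ∃ s a : Chart R t₀, s ∉ 𝔫₀ ∧
      H6CM.chartMap R t₀ s * b - H6CM.chartMap R t₀ a ∈ P i := by
    intro i b
    cases i
    · exact hpi1_of_resdeg R K F₀ F ϖ hϖ t₀ ht₀ hfin₀ 𝔫₀ h𝔫₀ V₁' hV'A hϖ₁' hd₁' x₀ hG0 hprin
        V₃ hV₃B hα₃ f₃α b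
    · exact hpi1_of_resdeg R K F₀ F ϖ hϖ t₀ ht₀ hfin₀ 𝔫₀ h𝔫₀ V₁' hV'A hϖ₁' hd₁' x₀ hG0 hprin
        V₁ hV₁B hα₁ f₁α b
  have hcomp : ∀ 𝔫' : Ideal (Chart R (algebraMap F₀ F t₀)), 𝔫'.IsMaximal →
      (∀ y ∈ 𝔫₀, H6CM.chartMap R t₀ y ∈ 𝔫') → ∃ i, P i ≤ 𝔫' := by
    intro 𝔫' h𝔫' hover'
    rcases comp_of_over R K F₀ F ϖ hϖ t₀ ht hfin 𝔫₀ h𝔫₀ V₁ V₂ V₃ V₂' hO hα₂ g hg hg2
      hV₁B hV₃B 𝔫' h𝔫' hover' with h | h
    · exact ⟨true, h⟩
    · exact ⟨false, h⟩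
  exact two_gen_of_disc' R K F₀ F hdisc ϖ hϖ t₀ ht₀ hfin₀ hfin 𝔫₀ h𝔫₀ hG0.regAt V₁' hV'A hV'𝔫
    hϖ₁' ⟨x₀, hG0.1, hx₀⟩ P hpi1 hcomp r m hr (by rw [Fintype.card_bool]; exact hml) j₀ hj₀ hE
    b hb hdval 𝔫 h𝔫 hover

end comp

end H20R3

end
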