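/-
helper20: item 86 (S36), LOC, DISC route, slice (R3-INST), layer 3: the field `hR3` of
helper19's `H19LA.ChartLeaves` in the language of `H4S36.Triple`.

* `H20R3.coeff_mul_pow_mem` : (Mathlib only) `u` integral over the normal domain `A`, `x ∈ Frac A`
                              nonzero with `x u` integral ⟹ `a_i x^(n-i) ∈ A` for the coefficients
                              of the minimal polynomial of `u` (scaling of minimal polynomials);
* `H20R3.inLoc_descent`     : **descent**: `x ∈ F₀` and `x ∈ B_𝔫` ⟹ `x ∈ A_{𝔫 ∩ A}`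
                              (no going-down: one coefficient `a_i` is a unit at `𝔫 ∩ A`);
* `H20R3.closedPt_comap`    : the image of a closed point of the upper chart is a closed point;
* `H20R3.exists_not_mem_of_not_through` : **(TRI)**: if `V₂` does not pass through `𝔫`, then
                              `𝔫 ∩ A` is not on `C₂'` (`V₂` the only component over `V₂'`,
                              radicial: the hypotheses `huniqα`, `hpiα` of `H18D3.dich3_val`);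
* `H20R3.two_gen_R3`        : two local generators at every closed point `𝔫` of the upper chart
                              with `V₂ ∌ 𝔫`, `j ∈ B_𝔫`;
* `H20R3.hR3_field`         : the same as `H2L1.TwoGenAt` = field `hR3` of `H19LA.ChartLeaves`.
-/
import Mathlib
import Fermat.Agent.S36.R3Triple_helper20
import Fermat.Agent.S36.Dich3_helper18
import Fermat.Agent.S36.L1UAll_helper2

set_option autoImplicit false
set_option linter.unusedSectionVars false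
set_option linter.unusedVariables false
set_option linter.style.haveILetI false
set_option synthInstance.maxHeartbeats 400000

noncomputable section

namespace H20R3

open Polynomial IntermediateField AlgebraicCurve H7S18 H4S34 H26WT

section descent

variable {A F₀ F : Type*} [CommRing A] [IsDomain A] [IsIntegrallyClosed A] [Field F₀] [Field F]
  [Algebra A F₀] [IsFractionRing A F₀] [Algebra F₀ F] [Algebra A F] [IsScalarTower A F₀ F]

/-- **scaling the minimal polynomial**: `u` integral over the normal domain `A`, `x ∈ Frac A`,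
`x ≠ 0`, `x u` integral over `A`.  Then `a_i x^(n-i) ∈ A` for the coefficients `a_i` of the
minimal polynomial of `u` over `A` (`n` its degree). -/
theorem coeff_mul_pow_mem (u : F) (hu : IsIntegral A u) (x : F₀) (hx : x ≠ 0)
    (hb : IsIntegral A (algebraMap F₀ F x * u)) (i : ℕ) :
    ∃ c : A, algebraMap A F₀ ((minpoly A u).coeff i) * x ^ ((minpoly A u).natDegree - i) =
      algebraMap A F₀ c := by
  set f := minpoly F₀ u with hf
  set g := minpoly F₀ (algebraMap F₀ F x * u) with hg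
  have hfe : f = (minpoly A u).map (algebraMap A F₀) :=
    minpoly.isIntegrallyClosed_eq_field_fractions' F₀ hu
  have hge : g = (minpoly A (algebraMap F₀ F x * u)).map (algebraMap A F₀) :=
    minpoly.isIntegrallyClosed_eq_field_fractions' F₀ hb
  have huF : IsIntegral F₀ u := hu.tower_top
  have hbF : IsIntegral F₀ (algebraMap F₀ F x * u) := hb.tower_top
  have hfm : f.Monic := minpoly.monic huF
  have hgm : g.Monic := minpoly.monic hbF
  have h1 : aeval (algebraMap F₀ F x * u) (scaleRoots f x) = 0 :=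
    scaleRoots_aeval_eq_zero (minpoly.aeval F₀ u)
  have hdvd1 : g ∣ scaleRoots f x := minpoly.dvd F₀ _ h1
  have h2 : aeval (algebraMap F₀ F x⁻¹ * (algebraMap F₀ F x * u)) (scaleRoots g x⁻¹) = 0 :=
    scaleRoots_aeval_eq_zero (minpoly.aeval F₀ _)
  have e2 : algebraMap F₀ F x⁻¹ * (algebraMap F₀ F x * u) = u := by
    rw [← mul_assoc, ← map_mul, inv_mul_cancel₀ hx, map_one, one_mul]
  rw [e2] at h2
  have hdvd2 : f ∣ scaleRoots g x⁻¹ := minpoly.dvd F₀ _ h2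
  have hdeg2 : f.natDegree ≤ g.natDegree := by
    have := natDegree_le_of_dvd hdvd2 (scaleRoots_ne_zero hgm.ne_zero x⁻¹)
    rwa [natDegree_scaleRoots] at this
  have heq : scaleRoots f x = g := by
    refine eq_of_monic_of_dvd_of_natDegree_le hgm ((monic_scaleRoots_iff x).2 hfm) hdvd1 ?_
    rw [natDegree_scaleRoots]
    exact hdeg2
  refine ⟨(minpoly A (algebraMap F₀ F x * u)).coeff i, ?_⟩
  have h3 := congrArg (fun p => p.coeff i) heq
  simp only [coeff_scaleRoots] at h3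
  rw [hfe, hge, coeff_map, coeff_map, natDegree_map_eq_of_injective
    (IsFractionRing.injective A F₀)] at h3
  exact h3

end descent

section chart

variable (R : Type) [CommRing R] [IsDomain R] [IsDiscreteValuationRing R]
  (K : Type) [Field K] [CharZero K] [Algebra R K] [IsFractionRing R K]
  (F₀ F : Type) [Field F₀] [Algebra K F₀] [Algebra R F₀] [IsScalarTower R K F₀]
  [Field F] [Algebra K F] [Algebra R F] [IsScalarTower R K F]
  [Algebra F₀ F] [IsScalarTower K F₀ F] [IsScalarTower R F₀ F] [FiniteDimensional F₀ F]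

/-- evaluation of a polynomial over the lower chart at an element of the upper chart. -/
theorem coe_eval₂_chartMap (t₀ : F₀) (u : Chart R (algebraMap F₀ F t₀))
    (p : (Chart R t₀)[X]) :
    ((Polynomial.eval₂ (H6CM.chartMap R (F := F) t₀) u p : Chart R (algebraMap F₀ F t₀)) : F) =
      Polynomial.eval₂ (algebraMap (Chart R t₀) F) (u : F) p := by
  change (algebraMap (Chart R (algebraMap F₀ F t₀)) F)
    (Polynomial.eval₂ (H6CM.chartMap R (F := F) t₀) u p) = _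
  rw [Polynomial.hom_eval₂]
  have h3 : (algebraMap (Chart R (algebraMap F₀ F t₀)) F).comp (H6CM.chartMap R (F := F) t₀) =
      algebraMap (Chart R t₀) F := by
    ext a
    rfl
  rw [h3]
  rfl

/-- elements of the upper chart are integral over the lower chart. -/
theorem isIntegral_chart_up (t₀ : F₀) (u : Chart R (algebraMap F₀ F t₀)) :
    IsIntegral (Chart R t₀) (u : F) := by
  obtain ⟨p, hp, hpu⟩ := H6CM.chartMap_isIntegral R (F := F) t₀ u
  refine ⟨p, hp, ?_⟩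
  rw [← coe_eval₂_chartMap R F₀ F t₀ u p, hpu]
  rfl

/-- **descent**: an element of `F₀` which lies in `B_𝔫` lies in `A_{𝔫 ∩ A}`. -/
theorem inLoc_descent (t₀ : F₀) (hfin₀ : FiniteDimensional K⟮t₀⟯ F₀)
    (𝔫 : Ideal (Chart R (algebraMap F₀ F t₀))) (h𝔫 : 𝔫.IsPrime) (x : F₀)
    (hx : InLoc R (algebraMap F₀ F t₀) 𝔫 (algebraMap F₀ F x)) :
    InLoc R t₀ (𝔫.comap (H6CM.chartMap R (F := F) t₀)) x := by
  have hprime₀ : (𝔫.comap (H6CM.chartMap R (F := F) t₀)).IsPrime := Ideal.comap_isPrime _ 𝔫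
  by_cases hx0 : x = 0
  · rw [hx0]
    exact inLoc_zero hprime₀
  haveI := H22BR.chart_isFractionRing R K t₀
  haveI := H22BR.chart_intClosed R K t₀
  obtain ⟨b, u, hu, e⟩ := hx
  have huI : IsIntegral (Chart R t₀) (u : F) := isIntegral_chart_up R F₀ F t₀ u
  have hbI : IsIntegral (Chart R t₀) (algebraMap F₀ F x * (u : F)) := by
    rw [mul_comm, e]
    exact isIntegral_chart_up R F₀ F t₀ b
  set P := minpoly (Chart R t₀) (u : F) with hP
  have hPm : P.Monic := minpoly.monic huI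
  have key := coeff_mul_pow_mem (A := Chart R t₀) (F₀ := F₀) (u : F) huI x hx0 hbI
  -- some coefficient below the top is outside `𝔫 ∩ A`
  have hex : ∃ i, i < P.natDegree ∧ P.coeff i ∉ 𝔫.comap (H6CM.chartMap R (F := F) t₀) := by
    by_contra hcon
    push Not at hcon
    apply hu
    have h0 : Polynomial.eval₂ (H6CM.chartMap R (F := F) t₀) u P = 0 := by
      apply Subtype.ext
      rw [coe_eval₂_chartMap R F₀ F t₀ u P]
      exact minpoly.aeval (Chart R t₀) (u : F)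
    rw [Polynomial.eval₂_eq_sum_range, Finset.sum_range_succ, hPm.coeff_natDegree, map_one,
      one_mul] at h0
    have h4 : u ^ P.natDegree = - ∑ i ∈ Finset.range P.natDegree,
        H6CM.chartMap R (F := F) t₀ (P.coeff i) * u ^ i := by
      rw [eq_neg_iff_add_eq_zero, add_comm]
      exact h0
    have h5 : u ^ P.natDegree ∈ 𝔫 := by
      rw [h4]
      refine 𝔫.neg_mem (𝔫.sum_mem ?_)
      intro i hi
      exact 𝔫.mul_mem_right _ (hcon i (Finset.mem_range.1 hi))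
    exact h𝔫.mem_of_pow_mem _ h5
  obtain ⟨i, hi, hai⟩ := hex
  obtain ⟨c, hc⟩ := key i
  have hk : 0 < P.natDegree - i := Nat.sub_pos_of_lt hi
  have hpow : InLoc R t₀ (𝔫.comap (H6CM.chartMap R (F := F) t₀)) (x ^ (P.natDegree - i)) :=
    ⟨c, P.coeff i, hai, hc⟩
  refine inLoc_of_forall_isIntegral hprime₀ _ ?_
  intro T _ _ hT
  exact IsIntegral.of_pow hk (hT _ hpow)

/-- the image of a closed point of the upper chart is a closed point of the lower chart. -/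
theorem closedPt_comap (ϖ : R) (t₀ : F₀) (𝔫 : Ideal (Chart R (algebraMap F₀ F t₀)))
    (h𝔫 : IsClosedPt R ϖ (algebraMap F₀ F t₀) 𝔫) :
    IsClosedPt R ϖ t₀ (𝔫.comap (H6CM.chartMap R (F := F) t₀)) := by
  haveI := h𝔫.1
  refine ⟨Ideal.isMaximal_comap_of_isIntegral_of_isMaximal' _ (H6CM.chartMap_isIntegral R t₀) 𝔫,
    ?_⟩
  intro y hy
  rw [Ideal.mem_comap]
  apply h𝔫.2
  rw [H6CM.coe_chartMap, hy]
  exact (IsScalarTower.algebraMap_apply R F₀ F ϖ).symm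

/-- **(TRI)**: if `V₂` is the only component over `V₂'` and is radicial over it at `𝔫`, and
`V₂` does not pass through `𝔫`, then `𝔫 ∩ A` is not on `C₂'`. -/
theorem exists_not_mem_of_not_through (t₀ : F₀) (hfin₀ : FiniteDimensional K⟮t₀⟯ F₀)
    (V₂ : ValuationSubring F) (V₂' : ValuationSubring F₀)
    (hV₂B : ∀ y : Chart R (algebraMap F₀ F t₀), (y : F) ∈ V₂)
    (hα₂ : ∀ x : F₀, V₂'.valuation x < 1 ↔ V₂.valuation (algebraMap F₀ F x) < 1)
    (huniq : ∀ p : Ideal (Chart R (algebraMap F₀ F t₀)), p.IsPrime →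
      (∀ a : Chart R t₀, H6CM.chartMap R t₀ a ∈ p ↔
        V₂.valuation ((H6CM.chartMap R (F := F) t₀ a : Chart R (algebraMap F₀ F t₀)) : F) < 1) →
      ∀ y : Chart R (algebraMap F₀ F t₀), y ∈ p ↔ V₂.valuation (y : F) < 1)
    (𝔫 : Ideal (Chart R (algebraMap F₀ F t₀))) (h𝔫 : 𝔫.IsPrime)
    (hpi : ∀ b : Chart R (algebraMap F₀ F t₀), ∃ m : ℕ, 0 < m ∧ ∃ s a : Chart R t₀,
      H6CM.chartMap R t₀ s ∉ 𝔫 ∧
      V₂.valuation (((H6CM.chartMap R (F := F) t₀ s : Chart R (algebraMap F₀ F t₀)) : F) *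
        (b : F) ^ m -
        ((H6CM.chartMap R (F := F) t₀ a : Chart R (algebraMap F₀ F t₀)) : F)) < 1)
    (hT : ¬ H10G3.Through R (algebraMap F₀ F t₀) 𝔫 V₂) :
    ∃ g : Chart R t₀, g ∉ 𝔫.comap (H6CM.chartMap R (F := F) t₀) ∧
      V₂'.valuation (g : F₀) < 1 := by
  by_contra hcon
  push Not at hcon
  apply hT
  rw [H18D3.through_iff R _ 𝔫 V₂ hV₂B]
  haveI := H22BR.chart_intClosed R K t₀
  haveI hcV : (H18D3.centre R (algebraMap F₀ F t₀) V₂ hV₂B).IsPrime :=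
    H18D3.centre_isPrime R _ V₂ hV₂B
  haveI : ((H18D3.centre R (algebraMap F₀ F t₀) V₂ hV₂B).comap
      (H6CM.chartMap R (F := F) t₀)).IsPrime := Ideal.comap_isPrime _ _
  have hle : (H18D3.centre R (algebraMap F₀ F t₀) V₂ hV₂B).comap
      (H6CM.chartMap R (F := F) t₀) ≤ 𝔫.comap (H6CM.chartMap R (F := F) t₀) := by
    intro a ha
    rw [Ideal.mem_comap, H18D3.mem_centre, H6CM.coe_chartMap] at ha
    by_contra hna
    exact absurd ((hα₂ _).2 ha) (not_lt.2 (hcon a hna))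
  refine H18D3.le_of_unique_point (H6CM.chartMap R (F := F) t₀) (H6CM.chartMap_injective R t₀)
    (H6CM.chartMap_isIntegral R t₀)
    ((H18D3.centre R (algebraMap F₀ F t₀) V₂ hV₂B).comap (H6CM.chartMap R (F := F) t₀))
    (H18D3.centre R (algebraMap F₀ F t₀) V₂ hV₂B) ?_ 𝔫 h𝔫 hle ?_
    (H18D3.centre R (algebraMap F₀ F t₀) V₂ hV₂B) hcV hle
  · intro p hp hpc
    ext y
    rw [H18D3.mem_centre]
    refine huniq p hp (fun a => ?_) y
    rw [← Ideal.mem_comap, hpc, Ideal.mem_comap, H18D3.mem_centre]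
  · intro b
    obtain ⟨m, hm, s, a, hs, h⟩ := hpi b
    refine ⟨m, hm, s, a, hs, ?_⟩
    rw [H18D3.mem_centre]
    push_cast
    exact h

/-- **(R3), pointwise**: two local generators at a closed point `𝔫` of the upper chart through
which `V₂` does not pass and at which `j` is regular. -/
theorem two_gen_R3 (hdisc : H6LD.DiscChartStatement)
    (ϖ : R) (hϖ : Irreducible ϖ) (t₀ : F₀) (ht₀ : Transcendental K t₀)
    (hfin₀ : FiniteDimensional K⟮t₀⟯ F₀) (hfin : FiniteDimensional K⟮algebraMap F₀ F t₀⟯ F)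
    -- fields of `H4S36.Triple` (with `φα = algebraMap F₀ F`)
    (V₁ V₂ V₃ : ValuationSubring F) (V₁' V₂' : ValuationSubring F₀)
    (hO : ∀ x : F, GInt R ϖ (algebraMap F₀ F t₀) x ↔ x ∈ V₁ ∧ x ∈ V₂ ∧ x ∈ V₃)
    (hϖ₁' : V₁'.valuation (algebraMap R F₀ ϖ) < 1)
    (hd₁' : ∀ x : F₀, x ≠ 0 → ∃ k : ℤ, V₁'.valuation (x * algebraMap R F₀ ϖ ^ (-k)) = 1)
    (hα₁ : ∀ x : F₀, V₁'.valuation x < 1 ↔ V₁.valuation (algebraMap F₀ F x) < 1)
    (hα₃ : ∀ x : F₀, V₁'.valuation x < 1 ↔ V₃.valuation (algebraMap F₀ F x) < 1)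
    (hα₂ : ∀ x : F₀, V₂'.valuation x < 1 ↔ V₂.valuation (algebraMap F₀ F x) < 1)
    (f₁α : ∀ x : F, x ∈ V₁ → ∃ p : F₀, p ∈ V₁' ∧ V₁.valuation (x - algebraMap F₀ F p) < 1)
    (f₃α : ∀ x : F, x ∈ V₃ → ∃ p : F₀, p ∈ V₁' ∧ V₃.valuation (x - algebraMap F₀ F p) < 1)
    -- (TRI): `V₂` is the only component over `V₂'`, radicial (as in `H18D3.dich3_val`)
    (huniq : ∀ p : Ideal (Chart R (algebraMap F₀ F t₀)), p.IsPrime →
      (∀ a : Chart R t₀, H6CM.chartMap R t₀ a ∈ p ↔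
        V₂.valuation ((H6CM.chartMap R (F := F) t₀ a : Chart R (algebraMap F₀ F t₀)) : F) < 1) →
      ∀ y : Chart R (algebraMap F₀ F t₀), y ∈ p ↔ V₂.valuation (y : F) < 1)
    -- (G0) at the closed points of the lower chart which are not on `C₂'` (helper16)
    (hG0 : ∀ 𝔫₀ : Ideal (Chart R t₀), IsClosedPt R ϖ t₀ 𝔫₀ →
      ∀ g : Chart R t₀, g ∉ 𝔫₀ → V₂'.valuation (g : F₀) < 1 →
      ∃ x₀ : Chart R t₀, H16G0.RegData R ϖ t₀ 𝔫₀ x₀ ∧ ¬ V₁'.valuation (x₀ : F₀) < 1 ∧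
        ∀ y : Chart R t₀, V₁'.valuation (y : F₀) < 1 →
          InLoc R t₀ 𝔫₀ ((y : F₀) * (algebraMap R F₀ ϖ)⁻¹))
    -- degree, (E), (D)
    (r m : ℕ) (hr : Module.finrank F₀ F = r) (hml : m + 2 ≤ r)
    (j₀ : F₀)
    (hE : ∀ V : Place K F, 0 ≤ V.ord (algebraMap F₀ F j₀) →
      ∃ u : F₀, V.ord (algebraMap F₀ F u) = 1)
    (b : Fin r → F)
    (hb : ∀ 𝔫₀ : Ideal (Chart R t₀), IsClosedPt R ϖ t₀ 𝔫₀ → InLoc R t₀ 𝔫₀ j₀ →
      ∀ i, ∃ (s : Chart R t₀) (c : Chart R (algebraMap F₀ F t₀)), s ∉ 𝔫₀ ∧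
        algebraMap F₀ F s * b i = c)
    (hdval : ¬ V₁'.valuation (Algebra.discr F₀ b * (algebraMap R F₀ ϖ ^ m)⁻¹) < 1)
    -- the point
    (𝔫 : Ideal (Chart R (algebraMap F₀ F t₀))) (h𝔫 : IsClosedPt R ϖ (algebraMap F₀ F t₀) 𝔫)
    (hpi : ∀ b : Chart R (algebraMap F₀ F t₀), ∃ m : ℕ, 0 < m ∧ ∃ s a : Chart R t₀,
      H6CM.chartMap R t₀ s ∉ 𝔫 ∧
      V₂.valuation (((H6CM.chartMap R (F := F) t₀ s : Chart R (algebraMap F₀ F t₀)) : F) *
        (b : F) ^ m -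
        ((H6CM.chartMap R (F := F) t₀ a : Chart R (algebraMap F₀ F t₀)) : F)) < 1)
    (hT₂ : ¬ H10G3.Through R (algebraMap F₀ F t₀) 𝔫 V₂)
    (hj : InLoc R (algebraMap F₀ F t₀) 𝔫 (algebraMap F₀ F j₀)) :
    ∃ g x : Chart R (algebraMap F₀ F t₀), g ∈ 𝔫 ∧ x ∈ 𝔫 ∧
      ∀ y ∈ 𝔫, ∃ s a c : Chart R (algebraMap F₀ F t₀), s ∉ 𝔫 ∧
        (s : F) * y = a * (g : F) + c * x := by
  have ht : Transcendental K (algebraMap F₀ F t₀) := by
    intro h
    apply ht₀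
    have h1 : IsAlgebraic K ((IsScalarTower.toAlgHom K F₀ F) t₀) := h
    exact (isAlgebraic_algHom_iff (IsScalarTower.toAlgHom K F₀ F)
      (algebraMap F₀ F).injective).1 h1
  have htR : Transcendental R (algebraMap F₀ F t₀) := H19S18.h19_transc R K ht
  have hV₂B : ∀ y : Chart R (algebraMap F₀ F t₀), (y : F) ∈ V₂ :=
    fun y => ((hO y).1 (H19S18.h19_gint_of_isInt R htR hϖ y.2)).2.1
  have h𝔫₀ := closedPt_comap R F₀ F ϖ t₀ 𝔫 h𝔫
  obtain ⟨g, hg, hg2⟩ := exists_not_mem_of_not_through R K F₀ F t₀ hfin₀ V₂ V₂' hV₂B hα₂ huniq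
    𝔫 h𝔫.1.isPrime hpi hT₂
  obtain ⟨x₀, hx₀reg, hx₀val, hprin⟩ := hG0 _ h𝔫₀ g hg hg2
  have hj₀ := inLoc_descent R K F₀ F t₀ hfin₀ 𝔫 h𝔫.1.isPrime j₀ hj
  exact two_gen_of_triple R K F₀ F hdisc ϖ hϖ t₀ ht₀ hfin₀ hfin V₁ V₂ V₃ V₁' V₂' hO hϖ₁' hd₁'
    hα₁ hα₃ hα₂ f₁α f₃α _ h𝔫₀ g hg hg2 x₀ hx₀reg hx₀val hprin r m hr hml j₀ hj₀ hE b
    (hb _ h𝔫₀ hj₀) hdval 𝔫 h𝔫.1 (fun y hy => hy)

/-- **the field `hR3` of `H19LA.ChartLeaves`** (helper19) for the chart `c = algebraMap F₀ F c₀`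
and `j = algebraMap F₀ F j₀`: two generators (`H2L1.TwoGenAt`) at the non-cuspidal closed
points through which `V₂` does not pass. -/
theorem hR3_field (hdisc : H6LD.DiscChartStatement)
    (ϖ : R) (hϖ : Irreducible ϖ) (t₀ : F₀) (ht₀ : Transcendental K t₀)
    (hfin₀ : FiniteDimensional K⟮t₀⟯ F₀)
    (c : F) (hc : c = algebraMap F₀ F t₀) (hfin : FiniteDimensional K⟮c⟯ F)
    (V₁ V₂ V₃ : ValuationSubring F) (V₁' V₂' : ValuationSubring F₀)
    (hO : ∀ x : F, GInt R ϖ c x ↔ x ∈ V₁ ∧ x ∈ V₂ ∧ x ∈ V₃)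
    (hϖ₁' : V₁'.valuation (algebraMap R F₀ ϖ) < 1)
    (hd₁' : ∀ x : F₀, x ≠ 0 → ∃ k : ℤ, V₁'.valuation (x * algebraMap R F₀ ϖ ^ (-k)) = 1)
    (hα₁ : ∀ x : F₀, V₁'.valuation x < 1 ↔ V₁.valuation (algebraMap F₀ F x) < 1)
    (hα₃ : ∀ x : F₀, V₁'.valuation x < 1 ↔ V₃.valuation (algebraMap F₀ F x) < 1)
    (hα₂ : ∀ x : F₀, V₂'.valuation x < 1 ↔ V₂.valuation (algebraMap F₀ F x) < 1)
    (f₁α : ∀ x : F, x ∈ V₁ → ∃ p : F₀, p ∈ V₁' ∧ V₁.valuation (x - algebraMap F₀ F p) < 1)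
    (f₃α : ∀ x : F, x ∈ V₃ → ∃ p : F₀, p ∈ V₁' ∧ V₃.valuation (x - algebraMap F₀ F p) < 1)
    (huniq : ∀ p : Ideal (Chart R (algebraMap F₀ F t₀)), p.IsPrime →
      (∀ a : Chart R t₀, H6CM.chartMap R t₀ a ∈ p ↔
        V₂.valuation ((H6CM.chartMap R (F := F) t₀ a : Chart R (algebraMap F₀ F t₀)) : F) < 1) →
      ∀ y : Chart R (algebraMap F₀ F t₀), y ∈ p ↔ V₂.valuation (y : F) < 1)
    (hpi : ∀ 𝔫 : Ideal (Chart R (algebraMap F₀ F t₀)),
      IsClosedPt R ϖ (algebraMap F₀ F t₀) 𝔫 →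
      ∀ b : Chart R (algebraMap F₀ F t₀), ∃ m : ℕ, 0 < m ∧ ∃ s a : Chart R t₀,
      H6CM.chartMap R t₀ s ∉ 𝔫 ∧
      V₂.valuation (((H6CM.chartMap R (F := F) t₀ s : Chart R (algebraMap F₀ F t₀)) : F) *
        (b : F) ^ m -
        ((H6CM.chartMap R (F := F) t₀ a : Chart R (algebraMap F₀ F t₀)) : F)) < 1)
    (hG0 : ∀ 𝔫₀ : Ideal (Chart R t₀), IsClosedPt R ϖ t₀ 𝔫₀ →
      ∀ g : Chart R t₀, g ∉ 𝔫₀ → V₂'.valuation (g : F₀) < 1 →
      ∃ x₀ : Chart R t₀, H16G0.RegData R ϖ t₀ 𝔫₀ x₀ ∧ ¬ V₁'.valuation (x₀ : F₀) < 1 ∧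
        ∀ y : Chart R t₀, V₁'.valuation (y : F₀) < 1 →
          InLoc R t₀ 𝔫₀ ((y : F₀) * (algebraMap R F₀ ϖ)⁻¹))
    (r m : ℕ) (hr : Module.finrank F₀ F = r) (hml : m + 2 ≤ r)
    (j : F) (j₀ : F₀) (hjj : j = algebraMap F₀ F j₀)
    (hE : ∀ V : Place K F, 0 ≤ V.ord (algebraMap F₀ F j₀) →
      ∃ u : F₀, V.ord (algebraMap F₀ F u) = 1)
    (b : Fin r → F)
    (hb : ∀ 𝔫₀ : Ideal (Chart R t₀), IsClosedPt R ϖ t₀ 𝔫₀ → InLoc R t₀ 𝔫₀ j₀ →
      ∀ i, ∃ (s : Chart R t₀) (c : Chart R (algebraMap F₀ F t₀)), s ∉ 𝔫₀ ∧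
        algebraMap F₀ F s * b i = c)
    (hdval : ¬ V₁'.valuation (Algebra.discr F₀ b * (algebraMap R F₀ ϖ ^ m)⁻¹) < 1) :
    ∀ 𝔫 : Ideal (Chart R c), IsClosedPt R ϖ c 𝔫 →
      ¬ H10G3.Through R c 𝔫 V₁ → ¬ H10G3.Through R c 𝔫 V₂ → H10G3.Through R c 𝔫 V₃ →
      InLoc R c 𝔫 j → H2L1.TwoGenAt R c 𝔫 := by
  subst hc
  subst hjj
  intro 𝔫 h𝔫 _ hT₂ _ hj
  classical
  have ht : Transcendental K (algebraMap F₀ F t₀) := by
    intro h
    apply ht₀
    have h1 : IsAlgebraic K ((IsScalarTower.toAlgHom K F₀ F) t₀) := h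
    exact (isAlgebraic_algHom_iff (IsScalarTower.toAlgHom K F₀ F)
      (algebraMap F₀ F).injective).1 h1
  obtain ⟨g, x, hg, hx, hgen⟩ := two_gen_R3 R K F₀ F hdisc ϖ hϖ t₀ ht₀ hfin₀ hfin V₁ V₂ V₃ V₁'
    V₂' hO hϖ₁' hd₁' hα₁ hα₃ hα₂ f₁α f₃α huniq hG0 r m hr hml j₀ hE b hb hdval 𝔫 h𝔫
    (hpi 𝔫 h𝔫) hT₂ hj
  have hO' : ∀ x : F, GInt R ϖ (algebraMap F₀ F t₀) x ↔
      ∀ V ∈ ({V₁, V₂, V₃} : Finset (ValuationSubring F)), x ∈ V := by
    intro x
    rw [hO x]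
    constructor
    · rintro ⟨h1, h2, h3⟩ V hV
      rw [Finset.mem_insert, Finset.mem_insert, Finset.mem_singleton] at hV
      rcases hV with rfl | rfl | rfl
      · exact h1
      · exact h2
      · exact h3
    · intro h
      exact ⟨h V₁ (by simp), h V₂ (by simp), h V₃ (by simp)⟩
  haveI := hfin
  exact H2L1.twoGenAt_of_gens R K ϖ hϖ ht _ hO' 𝔫 h𝔫 g x hg hx hgen

end chart

end H20R3

end
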