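/-
helper20: item 86 (S36), LOC, DISC route, slice (R3-INST), layer 4: the field `hR3` of
helper19's `H19LA.ChartLeaves` for BOTH charts, from the architect's record `H4S36.Triple`
(same shape of hypotheses as helper18's `H18D3.alphaAt_of_triple`).

* `H20R3.hR3_chart`     : one chart `c = φα c'`, `φα : F' →+* F` a ring homomorphism;
* `H20R3.hR3_of_record` : both charts `t = φα t'`, `t⁻¹`, from `Triple` + `hsep` + `hN` (norm
                          integrality) + (G0) (helper16 `g0Val`) + degree + (E) (helper5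
                          `locE_L`) + (D) (`hb`: helper3, `hdval`: helper28/helper15).
-/
import Mathlib
import Fermat.Agent.S36.R3Final_helper20
import Fermat.Agent.S36.Dich3Alpha_helper18
import Fermat.Agent.S36.InjGenDefs_helper4
import Fermat.Agent.S18.Connected_helper21

set_option autoImplicit false
set_option linter.unusedSectionVars false
set_option linter.unusedVariables false
set_option linter.style.haveILetI false
set_option synthInstance.maxHeartbeats 400000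

noncomputable section

namespace H20R3

open Polynomial IntermediateField AlgebraicCurve H7S18 H4S34 H26WT

section record

variable (R : Type) [CommRing R] [IsDomain R] [IsDiscreteValuationRing R]
  (K : Type) [Field K] [CharZero K] [Algebra R K] [IsFractionRing R K]
  (F : Type) [Field F] [Algebra K F] [Algebra R F] [IsScalarTower R K F]
  (F' : Type) [Field F'] [Algebra K F'] [Algebra R F'] [IsScalarTower R K F']

/-- **(R3) for one chart** `c = φα c'`, in the language of ring homomorphisms. -/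
theorem hR3_chart (hdisc : H6LD.DiscChartStatement)
    (ϖ : R) (hϖ : Irreducible ϖ) (φα : F' →+* F)
    (hφK : ∀ c : K, φα (algebraMap K F' c) = algebraMap K F c)
    (c' : F') (hfin' : FiniteDimensional K⟮c'⟯ F')
    (hc : Transcendental K (φα c')) (hfin : FiniteDimensional K⟮φα c'⟯ F)
    (q : ℕ) (hq : 0 < q)
    (V₁ V₂ V₃ : ValuationSubring F) (V₁' V₂' : ValuationSubring F')
    (hO : ∀ x : F, GInt R ϖ (φα c') x ↔ x ∈ V₁ ∧ x ∈ V₂ ∧ x ∈ V₃)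
    (hϖ₂ : V₂.valuation (algebraMap R F ϖ) < 1)
    (hϖ₁' : V₁'.valuation (algebraMap R F' ϖ) < 1)
    (hd₁' : ∀ x : F', x ≠ 0 → ∃ k : ℤ, V₁'.valuation (x * algebraMap R F' ϖ ^ (-k)) = 1)
    (hα₁ : ∀ x : F', V₁'.valuation x < 1 ↔ V₁.valuation (φα x) < 1)
    (hα₃ : ∀ x : F', V₁'.valuation x < 1 ↔ V₃.valuation (φα x) < 1)
    (hα₂ : ∀ x : F', V₂'.valuation x < 1 ↔ V₂.valuation (φα x) < 1)
    (f₁α : ∀ x : F, x ∈ V₁ → ∃ p : F', p ∈ V₁' ∧ V₁.valuation (x - φα p) < 1)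
    (f₃α : ∀ x : F, x ∈ V₃ → ∃ p : F', p ∈ V₁' ∧ V₃.valuation (x - φα p) < 1)
    (hsep : ∃ e : F', IsInt R c' e ∧ V₁'.valuation e < 1 ∧ ¬ V₂'.valuation e < 1)
    (hrad : ∀ b : F, IsInt R (φα c') b → V₂.valuation b = 1 →
      ∃ a : F', IsInt R c' a ∧ V₂.valuation (b ^ q - φα a) < 1)
    (hG0 : ∀ 𝔫₀ : Ideal (Chart R c'), IsClosedPt R ϖ c' 𝔫₀ →
      ∀ g : Chart R c', g ∉ 𝔫₀ → V₂'.valuation (g : F') < 1 →
      ∃ x₀ : Chart R c', H16G0.RegData R ϖ c' 𝔫₀ x₀ ∧ ¬ V₁'.valuation (x₀ : F') < 1 ∧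
        ∀ y : Chart R c', V₁'.valuation (y : F') < 1 →
          InLoc R c' 𝔫₀ ((y : F') * (algebraMap R F' ϖ)⁻¹))
    (hfinα : letI := φα.toAlgebra; FiniteDimensional F' F)
    (r m : ℕ) (hr : letI := φα.toAlgebra; Module.finrank F' F = r) (hml : m + 2 ≤ r)
    (j₀ : F')
    (hE : ∀ V : Place K F, 0 ≤ V.ord (φα j₀) → ∃ u : F', V.ord (φα u) = 1)
    (b : Fin r → F)
    (hb : ∀ 𝔫₀ : Ideal (Chart R c'), IsClosedPt R ϖ c' 𝔫₀ → InLoc R c' 𝔫₀ j₀ →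
      ∀ i, ∃ (s : Chart R c') (c : Chart R (φα c')), s ∉ 𝔫₀ ∧ φα (s : F') * b i = c)
    (hdval : letI := φα.toAlgebra;
      ¬ V₁'.valuation (Algebra.discr F' b * (algebraMap R F' ϖ ^ m)⁻¹) < 1) :
    ∀ 𝔫 : Ideal (Chart R (φα c')), IsClosedPt R ϖ (φα c') 𝔫 →
      ¬ H10G3.Through R (φα c') 𝔫 V₁ → ¬ H10G3.Through R (φα c') 𝔫 V₂ →
      H10G3.Through R (φα c') 𝔫 V₃ →
      InLoc R (φα c') 𝔫 (φα j₀) → H2L1.TwoGenAt R (φα c') 𝔫 := by
  classical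
  have hφR : ∀ r : R, φα (algebraMap R F' r) = algebraMap R F r := by
    intro r
    rw [IsScalarTower.algebraMap_apply R K F', hφK, ← IsScalarTower.algebraMap_apply R K F]
  letI : Algebra F' F := φα.toAlgebra
  haveI : IsScalarTower R F' F := IsScalarTower.of_algebraMap_eq (fun r => (hφR r).symm)
  haveI : IsScalarTower K F' F := IsScalarTower.of_algebraMap_eq (fun c => (hφK c).symm)
  haveI : FiniteDimensional F' F := hfinα
  have hc'tr : Transcendental K c' := by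
    intro h
    apply hc
    have h1 : IsAlgebraic K ((IsScalarTower.toAlgHom K F' F) c') :=
      (isAlgebraic_algHom_iff (IsScalarTower.toAlgHom K F' F) (algebraMap F' F).injective).2 h
    exact h1
  have htR : Transcendental R (φα c') := H19S18.h19_transc R K hc
  have hV₂ : ∀ y : Chart R (φα c'), (y : F) ∈ V₂ :=
    fun y => ((hO y).1 (H19S18.h19_gint_of_isInt R htR hϖ y.2)).2.1
  let f : Chart R c' →+* Chart R (φα c') := H6CM.chartMap R (F := F) c'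
  have hint : f.IsIntegral := H6CM.chartMap_isIntegral R c'
  have hcoe : ∀ a : Chart R c', ((f a : Chart R (φα c')) : F) = φα (a : F') := fun a => rfl
  have hsep₁ : ∃ e : F', IsInt R c' e ∧ V₁.valuation (φα e) < 1 ∧ ¬ V₂.valuation (φα e) < 1 := by
    obtain ⟨e, he, he1, he2⟩ := hsep
    exact ⟨e, he, (hα₁ e).1 he1, fun h => he2 ((hα₂ e).2 h)⟩
  have hsep₃ : ∃ e : F', IsInt R c' e ∧ V₃.valuation (φα e) < 1 ∧ ¬ V₂.valuation (φα e) < 1 := by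
    obtain ⟨e, he, he1, he2⟩ := hsep
    exact ⟨e, he, (hα₃ e).1 he1, fun h => he2 ((hα₂ e).2 h)⟩
  have huniq : ∀ p : Ideal (Chart R (φα c')), p.IsPrime →
      (∀ a : Chart R c', f a ∈ p ↔ V₂.valuation ((f a : Chart R (φα c')) : F) < 1) →
      ∀ y : Chart R (φα c'), y ∈ p ↔ V₂.valuation (y : F) < 1 := fun p hp hpc y =>
    H18D3.huniq_of_sep R K ϖ hϖ φα hφR c' hc V₁ V₂ V₃ hO hϖ₂ hsep₁ hsep₃ f hcoe hint p hp hpc y
  have hpi : ∀ 𝔫 : Ideal (Chart R (φα c')), IsClosedPt R ϖ (φα c') 𝔫 →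
      ∀ b : Chart R (φα c'), ∃ m : ℕ, 0 < m ∧ ∃ s a : Chart R c', f s ∉ 𝔫 ∧
      V₂.valuation (((f s : Chart R (φα c')) : F) * (b : F) ^ m -
        ((f a : Chart R (φα c')) : F)) < 1 := by
    intro 𝔫 h𝔫 b
    have h1 : f 1 ∉ 𝔫 := by
      rw [map_one]
      exact 𝔫.ne_top_iff_one.1 h𝔫.1.ne_top
    have hf1 : ((f 1 : Chart R (φα c')) : F) = 1 := by
      rw [map_one]
      rfl
    by_cases hbv : V₂.valuation (b : F) < 1
    · refine ⟨1, Nat.one_pos, 1, 0, h1, ?_⟩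
      rw [hf1, map_zero]
      have : ((0 : Chart R (φα c')) : F) = 0 := rfl
      rw [this, one_mul, pow_one, sub_zero]
      exact hbv
    · have hb1 : V₂.valuation (b : F) = 1 :=
        le_antisymm ((V₂.valuation_le_one_iff _).2 (hV₂ b)) (not_lt.1 hbv)
      obtain ⟨a, ha, hab⟩ := hrad (b : F) b.2 hb1
      refine ⟨q, hq, 1, ⟨a, ha⟩, h1, ?_⟩
      rw [hf1, one_mul, hcoe]
      exact hab
  exact hR3_field R K F' F hdisc ϖ hϖ c' hc'tr hfin' (φα c') rfl hfin V₁ V₂ V₃ V₁' V₂' hO hϖ₁'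
    hd₁' hα₁ hα₃ hα₂ f₁α f₃α huniq hpi hG0 r m hr hml (φα j₀) j₀ rfl hE b hb hdval

/-- **the field `hR3` of `H19LA.ChartLeaves` for both charts, from `H4S36.Triple`.** -/
theorem hR3_of_record (hdisc : H6LD.DiscChartStatement)
    (ϖ : R) (hϖ : Irreducible ϖ) (t : F) (ht : Transcendental K t)
    (hfin : FiniteDimensional K⟮t⟯ F)
    (q n : ℕ) (hq : 0 < q) (φα φβ : F' →+* F) (Nα Nβ : F →* F')
    (V₁ V₂ V₃ : ValuationSubring F) (V₁' V₂' : ValuationSubring F') (b₃ : F)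
    (hT : H4S36.Triple R K F F' ϖ t q n φα φβ Nα Nβ V₁ V₂ V₃ V₁' V₂' b₃)
    (t' : F') (htt : φα t' = t) (hfin' : FiniteDimensional K⟮t'⟯ F')
    (hsep : ∃ e : F', IsInt R t' e ∧ V₁'.valuation e < 1 ∧ ¬ V₂'.valuation e < 1)
    (hsepi : ∃ e : F', IsInt R t'⁻¹ e ∧ V₁'.valuation e < 1 ∧ ¬ V₂'.valuation e < 1)
    (hN : ∀ c' : F', c' = t' ∨ c' = t'⁻¹ → ∀ b : F, IsInt R (φα c') b → IsInt R c' (Nα b))
    (hG0 : ∀ c' : F', c' = t' ∨ c' = t'⁻¹ →
      ∀ 𝔫₀ : Ideal (Chart R c'), IsClosedPt R ϖ c' 𝔫₀ →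
      ∀ g : Chart R c', g ∉ 𝔫₀ → V₂'.valuation (g : F') < 1 →
      ∃ x₀ : Chart R c', H16G0.RegData R ϖ c' 𝔫₀ x₀ ∧ ¬ V₁'.valuation (x₀ : F') < 1 ∧
        ∀ y : Chart R c', V₁'.valuation (y : F') < 1 →
          InLoc R c' 𝔫₀ ((y : F') * (algebraMap R F' ϖ)⁻¹))
    (hfinα : letI := φα.toAlgebra; FiniteDimensional F' F)
    (r m : ℕ) (hr : letI := φα.toAlgebra; Module.finrank F' F = r) (hml : m + 2 ≤ r)
    (j₀ : F')
    (hE : ∀ V : Place K F, 0 ≤ V.ord (φα j₀) → ∃ u : F', V.ord (φα u) = 1)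
    (b : Fin r → F)
    (hb : ∀ c' : F', c' = t' ∨ c' = t'⁻¹ →
      ∀ 𝔫₀ : Ideal (Chart R c'), IsClosedPt R ϖ c' 𝔫₀ → InLoc R c' 𝔫₀ j₀ →
      ∀ i, ∃ (s : Chart R c') (c : Chart R (φα c')), s ∉ 𝔫₀ ∧ φα (s : F') * b i = c)
    (hdval : letI := φα.toAlgebra;
      ¬ V₁'.valuation (Algebra.discr F' b * (algebraMap R F' ϖ ^ m)⁻¹) < 1)
    (c : F) (hc : c = t ∨ c = t⁻¹) :
    ∀ 𝔫 : Ideal (Chart R c), IsClosedPt R ϖ c 𝔫 →
      ¬ H10G3.Through R c 𝔫 V₁ → ¬ H10G3.Through R c 𝔫 V₂ → H10G3.Through R c 𝔫 V₃ →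
      InLoc R c 𝔫 (φα j₀) → H2L1.TwoGenAt R c 𝔫 := by
  have htR : Transcendental R t := H19S18.h19_transc R K ht
  have ht' : Transcendental K t⁻¹ := H19S18.h19_transc_inv K ht
  have htR' : Transcendental R t⁻¹ := H19S18.h19_transc R K ht'
  have hradq : ∀ c' : F', c' = t' ∨ c' = t'⁻¹ → ∀ b : F, IsInt R (φα c') b →
      V₂.valuation b = 1 → ∃ a : F', IsInt R c' a ∧ V₂.valuation (b ^ q - φα a) < 1 := by
    intro c' hc' b hb hb1
    refine ⟨Nα b, hN c' hc' b hb, ?_⟩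
    have h := hT.cNα₂ b hb1
    have h' : V₂.valuation (φα (Nα b) - b ^ q) < 1 := h
    rw [Valuation.map_sub_swap]
    exact h'
  have hd₁' : ∀ x : F', x ≠ 0 → ∃ k : ℤ, V₁'.valuation (x * algebraMap R F' ϖ ^ (-k)) = 1 :=
    fun x hx => hT.hd₁' x hx
  have f₁α : ∀ x : F, x ∈ V₁ → ∃ p : F', p ∈ V₁' ∧ V₁.valuation (x - φα p) < 1 :=
    fun x hx => hT.f₁α x hx
  have f₃α : ∀ x : F, x ∈ V₃ → ∃ p : F', p ∈ V₁' ∧ V₃.valuation (x - φα p) < 1 :=
    fun x hx => hT.f₃α x hx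
  rcases hc with hc | hc
  · have e : c = φα t' := hc.trans htt.symm
    subst e
    have hfinc : FiniteDimensional K⟮φα t'⟯ F := by rw [htt]; exact hfin
    have hO : ∀ x : F, GInt R ϖ (φα t') x ↔ x ∈ V₁ ∧ x ∈ V₂ ∧ x ∈ V₃ := by
      intro x
      rw [htt]
      exact hT.hO x
    exact hR3_chart R K F F' hdisc ϖ hϖ φα hT.hφα t' hfin' (by rw [htt]; exact ht) hfinc q hq
      V₁ V₂ V₃ V₁' V₂' hO hT.hϖ₂ hT.hϖ₁' hd₁' hT.hα₁ hT.hα₃ hT.hα₂ f₁α f₃α hsep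
      (hradq t' (Or.inl rfl)) (hG0 t' (Or.inl rfl)) hfinα r m hr hml j₀ hE b
      (hb t' (Or.inl rfl)) hdval
  · have e : c = φα t'⁻¹ := by rw [hc, map_inv₀, htt]
    subst e
    have e2 : φα t'⁻¹ = t⁻¹ := by rw [map_inv₀, htt]
    have hfinc : FiniteDimensional K⟮φα t'⁻¹⟯ F := by
      rw [e2]
      exact H21S18.finiteDimensional_transport (H21S18.adjoin_inv_eq (K := K) t).symm hfin
    have hfinc' : FiniteDimensional K⟮t'⁻¹⟯ F' :=
      H21S18.finiteDimensional_transport (H21S18.adjoin_inv_eq (K := K) t').symm hfin'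
    have hO : ∀ x : F, GInt R ϖ (φα t'⁻¹) x ↔ x ∈ V₁ ∧ x ∈ V₂ ∧ x ∈ V₃ := by
      intro x
      rw [e2, H19S18.h19_gint_inv_iff R htR htR' hϖ x]
      exact hT.hO x
    exact hR3_chart R K F F' hdisc ϖ hϖ φα hT.hφα t'⁻¹ hfinc' (by rw [e2]; exact ht') hfinc q hq
      V₁ V₂ V₃ V₁' V₂' hO hT.hϖ₂ hT.hϖ₁' hd₁' hT.hα₁ hT.hα₃ hT.hα₂ f₁α f₃α hsepi
      (hradq t'⁻¹ (Or.inr rfl)) (hG0 t'⁻¹ (Or.inr rfl)) hfinα r m hr hml j₀ hE b
      (hb t'⁻¹ (Or.inr rfl)) hdval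

end record

end H20R3

end
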