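/-
helper16: item 86 (S36), LOC, DISC route, (R3): the CONCRETE call of helper20's
`H20R3.hR3_of_record` at the levels `F' = FK K₁ (M q)`, `F = FK K₁ (M q q)`, `α = heckeAlphaBar`,
`R = descVal A K₁`, `V₁' = H4S36.cV1'`, `V₂' = H4S36.cV2'`.

`H16R3.hR3_conc` : the field `hR3` of `H19LA.ChartLeaves` for both charts `c = t`, `c = t⁻¹`,
with `j = α j₀`.  DISCHARGED inside:
* `t'` (the base function of level `M q`), `α t' = t`, finiteness  (`H9C6e.fieldBasics`);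
* `hsep`, `hsepi`  (`H18D3.sep_of_comax` + `H10FC.gauss_comax` + `H8PB.h8pg_pairGauss`);
* `hN`             (`H29NI.nint_alpha`);
* `hG0`            (`H16G0.g0Val`, both lower charts);
* `hfinα`, `hr`    (`H13N3.finrank_alphaK`), `r = q`, `m = q - 2`;
* `hE`             (`H5EL.locE_alpha`, level `M q` rigid);
* `hdisc`          (`H6LD.discChart`).
REMAINING hypotheses of `hR3_conc`: the `Triple` record `hTr` (TRIPLE-ASM) and (D) = `b`,
`hb`, `hdval`.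

`H16R3.hR3_qq` : the same with (D) discharged (`b i = J₂ ^ i`, `j₀ = J`: `H3IJ.hb_J2_phi` of
helper3, `H28RD.hdval_cV1'` of helper28; `K₁` unramified: `hunr : Irreducible (q : R)`).
ONLY remaining hypotheses: `hRig : H14LE.Rigid (M q)` and the `Triple` record `hTr`.
-/
import Mathlib
import Fermat.Agent.S36.R3Record_helper20
import Fermat.Agent.S36.G0Val_helper16
import Fermat.Agent.S36.Dich3Beta_helper18
import Fermat.Agent.S36.NormInt_helper29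
import Fermat.Agent.S36.LocEL_helper5
import Fermat.Agent.S36.LocDisc_helper6
import Fermat.Agent.S36.DiscR3_helper28
import Fermat.Agent.S36.IntJ2_helper3

set_option autoImplicit false
set_option linter.unusedSectionVars false
set_option linter.unusedVariables false
set_option linter.style.haveILetI false
set_option linter.style.longLine false
set_option synthInstance.maxHeartbeats 400000
set_option maxHeartbeats 1000000

noncomputable section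

open Polynomial IntermediateField AlgebraicCurve ModularCurve H7S18 H4S34

namespace H16R3

local notation "Qb" => AlgebraicClosure ℚ

section conc

variable (M : ℕ) [NeZero M] (q : ℕ) [NeZero q] (hq : q.Prime) (hqM : ¬ q ∣ M)
  (hT : TameLevel q M) (hRig : H14LE.Rigid (M * q))
  (A : ValuationSubring Qb) (hA : A.LiesOverPrime q)
  (K₁ : IntermediateField ℚ Qb) (hfin : FiniteDimensional ℚ K₁)
  (hζe : ∃ ζ : K₁, IsPrimitiveRoot ζ (branchIndex (baseKind q) M))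
  [IsDiscreteValuationRing ↥(descVal A K₁)]
  [Algebra ↥(descVal A K₁) (FK K₁ (M * q * q))]
  [IsScalarTower ↥(descVal A K₁) K₁ (FK K₁ (M * q * q))]
  [Algebra ↥(descVal A K₁) (FK K₁ (M * q))]
  [IsScalarTower ↥(descVal A K₁) K₁ (FK K₁ (M * q))]
  (ϖ : ↥(descVal A K₁)) (hϖ : Irreducible ϖ)
  (t₀ : LaurentSeries ℚ) (ht₀ : IsBase (baseKind q) t₀)
  (t : FK K₁ (M * q * q)) (ht : (t : LaurentSeries K₁) = coeffEmb K₁ t₀)
  (t' : FK K₁ (M * q)) (ht' : (t' : LaurentSeries K₁) = coeffEmb K₁ t₀)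

include hT ht₀ ht in
/-- the base function of level `M q q` is transcendental, and `F` is finite over `K₁(t)` -/
theorem base_basics_sq :
    Transcendental K₁ t ∧ FiniteDimensional K₁⟮t⟯ (FK K₁ (M * q * q)) := by
  have hi : baseKind q = 1 ∨ (baseKind q = 2 ∧ 2 ∣ M * q * q) ∨
      (baseKind q = 3 ∧ 3 ∣ M * q * q) := by
    rcases H28PL.baseKind_ok hT with h | h | h
    · exact Or.inl h
    · exact Or.inr (Or.inl ⟨h.1, Dvd.dvd.mul_right (Dvd.dvd.mul_right h.2 q) q⟩)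
    · exact Or.inr (Or.inr ⟨h.1, Dvd.dvd.mul_right (Dvd.dvd.mul_right h.2 q) q⟩)
  obtain ⟨t₁, ht₁coe, ht₁tr, ht₁fin, -⟩ :=
    H9C6e.fieldBasics (M * q * q) (baseKind q) hi t₀ ht₀ K₁
  have htt : t₁ = t := Subtype.ext (ht₁coe.trans ht.symm)
  rw [htt] at ht₁tr ht₁fin
  exact ⟨ht₁tr, ht₁fin⟩

include hT ht₀ ht' in
/-- the base function of level `M q` is transcendental, and `F'` is finite over `K₁(t')` -/
theorem base_basics_q :
    Transcendental K₁ t' ∧ FiniteDimensional K₁⟮t'⟯ (FK K₁ (M * q)) := by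
  have hi : baseKind q = 1 ∨ (baseKind q = 2 ∧ 2 ∣ M * q) ∨ (baseKind q = 3 ∧ 3 ∣ M * q) := by
    rcases H28PL.baseKind_ok hT with h | h | h
    · exact Or.inl h
    · exact Or.inr (Or.inl ⟨h.1, Dvd.dvd.mul_right h.2 q⟩)
    · exact Or.inr (Or.inr ⟨h.1, Dvd.dvd.mul_right h.2 q⟩)
  obtain ⟨t₁, ht₁coe, ht₁tr, ht₁fin, -⟩ := H9C6e.fieldBasics (M * q) (baseKind q) hi t₀ ht₀ K₁
  have htt : t₁ = t' := Subtype.ext (ht₁coe.trans ht'.symm)
  rw [htt] at ht₁tr ht₁fin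
  exact ⟨ht₁tr, ht₁fin⟩

include hq hT hA hfin hϖ ht₀ ht' in
/-- **the separation witnesses of level `M q`** in both charts. -/
theorem sep_conc (c' : FK K₁ (M * q)) (hc' : c' = t' ∨ c' = t'⁻¹) :
    ∃ e : FK K₁ (M * q), IsInt ↥(descVal A K₁) c' e ∧
      (H4S36.cV1' K₁ (descVal A K₁) M q).valuation e < 1 ∧
      ¬ (H4S36.cV2' K₁ (descVal A K₁) M q hq hqM).valuation e < 1 := by
  haveI : Fact q.Prime := ⟨hq⟩
  obtain ⟨-, hnu, -⟩ := H4DVR.dvrStatement q A hA K₁ hfin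
  haveI : CharP (IsLocalRing.ResidueField ↥(descVal A K₁)) q := by
    have h0 : ((q : ℕ) : IsLocalRing.ResidueField ↥(descVal A K₁)) = 0 := by
      have h3 := (IsLocalRing.residue_eq_zero_iff ((q : ℕ) : ↥(descVal A K₁))).mpr
        ((IsLocalRing.mem_maximalIdeal _).mpr hnu)
      rwa [map_natCast] at h3
    exact (CharP.charP_iff_prime_eq_zero hq).mpr h0
  obtain ⟨htr, -⟩ := base_basics_q M q hT K₁ t₀ ht₀ t' ht'
  have htrR : Transcendental ↥(descVal A K₁) t' := H19S18.h19_transc ↥(descVal A K₁) K₁ htr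
  have htrR' : Transcendental ↥(descVal A K₁) t'⁻¹ :=
    H19S18.h19_transc ↥(descVal A K₁) K₁ (H19S18.h19_transc_inv K₁ htr)
  have hPG := H8PB.h8pg_pairGauss M q hq hqM hT A hA K₁ hfin ϖ hϖ t₀ ht₀ t' ht'
  have hO' : ∀ x : FK K₁ (M * q), GInt ↥(descVal A K₁) ϖ c' x ↔
      x ∈ H4S36.cV1' K₁ (descVal A K₁) M q ∧
        x ∈ H4S36.cV2' K₁ (descVal A K₁) M q hq hqM := by
    intro x
    rcases hc' with rfl | rfl
    · exact (hPG x).1
    · rw [H19S18.h19_gint_inv_iff ↥(descVal A K₁) htrR htrR' hϖ x]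
      exact (hPG x).1
  obtain ⟨e, he1, he2, hev1, hev2⟩ := H10FC.gauss_comax M q hq hqM K₁ (descVal A K₁)
  exact H18D3.sep_of_comax ↥(descVal A K₁) ϖ hϖ c' _ _ hO' isIntegral_one e he1 he2 hev1 hev2

include hq hqM hT hRig hA hfin hζe hϖ ht₀ ht ht' in
/-- **(R3), concrete**: the field `hR3` of `H19LA.ChartLeaves` at the level `M q q`, both
charts, from the `Triple` record and (D). -/
theorem hR3_conc (n : ℕ) (φβ : FK K₁ (M * q) →+* FK K₁ (M * q * q))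
    (Nβ : FK K₁ (M * q * q) →* FK K₁ (M * q))
    (V₁ V₂ V₃ : ValuationSubring (FK K₁ (M * q * q))) (b₃ : FK K₁ (M * q * q))
    (hTr : H4S36.Triple ↥(descVal A K₁) K₁ (FK K₁ (M * q * q)) (FK K₁ (M * q)) ϖ t q n
      (heckeAlphaBar K₁ (M * q) q).toRingHom φβ (H4S36.normAKH K₁ M q) Nβ V₁ V₂ V₃
      (H4S36.cV1' K₁ (descVal A K₁) M q) (H4S36.cV2' K₁ (descVal A K₁) M q hq hqM) b₃)
    (j₀ : FK K₁ (M * q)) (hj₀ : (j₀ : LaurentSeries K₁) = jqModC K₁)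
    (b : Fin q → FK K₁ (M * q * q))
    (hb : ∀ c' : FK K₁ (M * q), c' = t' ∨ c' = t'⁻¹ →
      ∀ 𝔫₀ : Ideal (Chart ↥(descVal A K₁) c'), IsClosedPt ↥(descVal A K₁) ϖ c' 𝔫₀ →
      InLoc ↥(descVal A K₁) c' 𝔫₀ j₀ →
      ∀ i, ∃ (s : Chart ↥(descVal A K₁) c')
        (c : Chart ↥(descVal A K₁) ((heckeAlphaBar K₁ (M * q) q).toRingHom c')), s ∉ 𝔫₀ ∧
        (heckeAlphaBar K₁ (M * q) q).toRingHom (s : FK K₁ (M * q)) * b i = c)
    (hdval : letI := (heckeAlphaBar K₁ (M * q) q).toRingHom.toAlgebra;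
      ¬ (H4S36.cV1' K₁ (descVal A K₁) M q).valuation
        (Algebra.discr (FK K₁ (M * q)) b *
          (algebraMap ↥(descVal A K₁) (FK K₁ (M * q)) ϖ ^ (q - 2))⁻¹) < 1)
    (c : FK K₁ (M * q * q)) (hc : c = t ∨ c = t⁻¹) :
    ∀ 𝔫 : Ideal (Chart ↥(descVal A K₁) c), IsClosedPt ↥(descVal A K₁) ϖ c 𝔫 →
      ¬ H10G3.Through ↥(descVal A K₁) c 𝔫 V₁ → ¬ H10G3.Through ↥(descVal A K₁) c 𝔫 V₂ →
      H10G3.Through ↥(descVal A K₁) c 𝔫 V₃ →
      InLoc ↥(descVal A K₁) c 𝔫 ((heckeAlphaBar K₁ (M * q) q).toRingHom j₀) →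
      H2L1.TwoGenAt ↥(descVal A K₁) c 𝔫 := by
  obtain ⟨htr, htfin⟩ := base_basics_sq M q hT K₁ t₀ ht₀ t ht
  obtain ⟨htr', htfin'⟩ := base_basics_q M q hT K₁ t₀ ht₀ t' ht'
  have htt : (heckeAlphaBar K₁ (M * q) q).toRingHom t' = t := by
    apply Subtype.ext
    show ((heckeAlphaBar K₁ (M * q) q t' : FK K₁ (M * q * q)) : LaurentSeries K₁) = _
    rw [coe_heckeAlphaBar, ht', ht]
  have hr : letI := (heckeAlphaBar K₁ (M * q) q).toRingHom.toAlgebra;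
      Module.finrank (FK K₁ (M * q)) (FK K₁ (M * q * q)) = q :=
    H13N3.finrank_alphaK ↥K₁ (M * q) q hq (dvd_mul_left q M)
  have hfinα : letI := (heckeAlphaBar K₁ (M * q) q).toRingHom.toAlgebra;
      FiniteDimensional (FK K₁ (M * q)) (FK K₁ (M * q * q)) := by
    letI := (heckeAlphaBar K₁ (M * q) q).toRingHom.toAlgebra
    apply Module.finite_of_finrank_pos
    rw [hr]
    exact hq.pos
  have hE : ∀ V : Place K₁ (FK K₁ (M * q * q)),
      0 ≤ V.ord ((heckeAlphaBar K₁ (M * q) q).toRingHom j₀) →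
      ∃ u : FK K₁ (M * q), V.ord ((heckeAlphaBar K₁ (M * q) q).toRingHom u) = 1 :=
    H5EL.locE_alpha (M * q) q hRig K₁ j₀ hj₀
  exact H20R3.hR3_of_record ↥(descVal A K₁) K₁ (FK K₁ (M * q * q)) (FK K₁ (M * q))
    H6LD.discChart ϖ hϖ t htr htfin q n hq.pos
    (heckeAlphaBar K₁ (M * q) q).toRingHom φβ (H4S36.normAKH K₁ M q) Nβ V₁ V₂ V₃ _ _ b₃ hTr
    t' htt htfin'
    (sep_conc M q hq hqM hT A hA K₁ hfin ϖ hϖ t₀ ht₀ t' ht' t' (Or.inl rfl))
    (sep_conc M q hq hqM hT A hA K₁ hfin ϖ hϖ t₀ ht₀ t' ht' t'⁻¹ (Or.inr rfl))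
    (fun c' _ y hy => H29NI.nint_alpha K₁ M q ↥(descVal A K₁) c' y hy)
    (fun c' hc' 𝔫₀ h𝔫₀ g hg hg2 =>
      H16G0.g0Val M q hq hqM hT A hA K₁ hfin hζe ϖ hϖ t₀ ht₀ t' ht' c' hc' 𝔫₀ h𝔫₀ g hg hg2)
    hfinα q (q - 2) hr (by have := hq.two_le; omega) j₀ hE b hb hdval c hc

include hq hqM hT hRig hA hfin hζe hϖ ht₀ ht ht' in
/-- **(R3), concrete, (D) discharged**: `K₁` unramified at `q`; the only inputs left are the
rigidity of the level `M q` and the `Triple` record. -/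
theorem hR3_qq (hunr : Irreducible ((q : ℕ) : ↥(descVal A K₁)))
    (n : ℕ) (φβ : FK K₁ (M * q) →+* FK K₁ (M * q * q))
    (Nβ : FK K₁ (M * q * q) →* FK K₁ (M * q))
    (V₁ V₂ V₃ : ValuationSubring (FK K₁ (M * q * q))) (b₃ : FK K₁ (M * q * q))
    (hTr : H4S36.Triple ↥(descVal A K₁) K₁ (FK K₁ (M * q * q)) (FK K₁ (M * q)) ϖ t q n
      (heckeAlphaBar K₁ (M * q) q).toRingHom φβ (H4S36.normAKH K₁ M q) Nβ V₁ V₂ V₃
      (H4S36.cV1' K₁ (descVal A K₁) M q) (H4S36.cV2' K₁ (descVal A K₁) M q hq hqM) b₃)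
    (c : FK K₁ (M * q * q)) (hc : c = t ∨ c = t⁻¹) :
    ∀ 𝔫 : Ideal (Chart ↥(descVal A K₁) c), IsClosedPt ↥(descVal A K₁) ϖ c 𝔫 →
      ¬ H10G3.Through ↥(descVal A K₁) c 𝔫 V₁ → ¬ H10G3.Through ↥(descVal A K₁) c 𝔫 V₂ →
      H10G3.Through ↥(descVal A K₁) c 𝔫 V₃ →
      InLoc ↥(descVal A K₁) c 𝔫 (H8TG.J0 ↥K₁ (M * q * q)) →
      H2L1.TwoGenAt ↥(descVal A K₁) c 𝔫 := by
  have h2 : q * q ∣ M * q * q := H4S36.qq_dvd_level M q
  obtain ⟨Φ, hΦ⟩ := H28S28.h10_exists_modPoly q (H28S28.h10_hasModEq_all q hq)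
  have hcomp : ∀ r : ↥(descVal A K₁),
      (heckeAlphaBar K₁ (M * q) q).toRingHom (algebraMap ↥(descVal A K₁) (FK K₁ (M * q)) r) =
        algebraMap ↥(descVal A K₁) (FK K₁ (M * q * q)) r := by
    intro r
    rw [IsScalarTower.algebraMap_apply ↥(descVal A K₁) K₁ (FK K₁ (M * q * q)),
      IsScalarTower.algebraMap_apply ↥(descVal A K₁) K₁ (FK K₁ (M * q))]
    exact (heckeAlphaBar K₁ (M * q) q).commutes _
  obtain ⟨ε, hε⟩ := IsDiscreteValuationRing.associated_of_irreducible ↥(descVal A K₁) hϖ hunr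
  have hpe : ((q : ℕ) : ↥(descVal A K₁)) = (ε : ↥(descVal A K₁)) * ϖ := by
    rw [← hε, mul_comm]
  have hJ : (heckeAlphaBar K₁ (M * q) q).toRingHom (H8TG.J0 ↥K₁ (M * q)) =
      H8TG.J0 ↥K₁ (M * q * q) := by
    apply Subtype.ext
    show ((heckeAlphaBar K₁ (M * q) q (H8TG.J0 ↥K₁ (M * q)) : FK K₁ (M * q * q)) :
      LaurentSeries K₁) = _
    rw [coe_heckeAlphaBar]
    rfl
  have key := hR3_conc M q hq hqM hT hRig A hA K₁ hfin hζe ϖ hϖ t₀ ht₀ t ht t' ht' n φβ Nβ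
    V₁ V₂ V₃ b₃ hTr (H8TG.J0 ↥K₁ (M * q)) rfl
    (fun i : Fin q => H8TG.J2 ↥K₁ (M * q * q) q h2 ^ (i : ℕ))
    (fun c' _ 𝔫₀ h𝔫₀ hJ' i =>
      H3IJ.hb_J2_phi K₁ M q ↥(descVal A K₁) hcomp Φ hΦ ϖ c' h2 𝔫₀ h𝔫₀ hJ' i)
    (H28RD.hdval_cV1' K₁ (descVal A K₁) M q hq hqM ϖ hϖ ε hpe h2) c hc
  rw [hJ] at key
  exact key

end conc

end H16R3

end
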