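import Mathlib
import Fermat.Agent.S36.LocConc_helper19
import Fermat.Agent.S36.HalfConc_helper17
import Fermat.Agent.S36.R3Conc_helper16
import Fermat.Agent.S36.R2Point_helper26
import Fermat.Agent.S36.Dich3CV3_helper18
import Fermat.Agent.S36.ConcFinal_helper4
import Fermat.Agent.S36.LocF4_helper12
import Fermat.Agent.S36.Cusp3Conc_helper7

/-!
# helper19 — S36 (Carayol), item 86: (LOC-ASM), the FINAL collection

`H4S36.ConcMLocStatement` (the one remaining statement of the chain of `S36/ConcFinal_helper4`)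
from the concrete leaves:

* (hBR)   `H9CU.brAt_qq` (helper9), inside `H19LA.pointLeaves_conc`;
* (DICH3) `H18D3.dich3_cV3` (helper18);
* (HALF)  `H17HB.hHα_field`, `H17HB.hHβ_field` (helper17, helper10);
* (R3)    `H16R3.hR3_qq` (helper20, helper16, DISC crew);
* (R2)    `H26R2.r2_point` (helper26, helper8, helper5), with helper1's leaf
          `H1R1.R1NodeStatement` as a HYPOTHESIS;
* (CUSP3) `H7C3.hC3_conc` (helper7, helper27, helper15, helper23).

Main results: `H19LA.concMLocAt_of` (one field), `H19LA.concMLocStatement_of` (`U`-form).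
-/

set_option autoImplicit false
set_option synthInstance.maxHeartbeats 400000
set_option maxHeartbeats 4000000
set_option linter.unusedSectionVars false
set_option linter.unusedVariables false
set_option linter.style.haveILetI false
set_option linter.style.longLine false

noncomputable section

open Polynomial IntermediateField AlgebraicCurve ModularCurve H7S18 H4S34 H4S36 RH24

namespace H19LA

local notation "Qb" => AlgebraicClosure ℚ

section one

variable (M : ℕ) [NeZero M] (q : ℕ) [NeZero q] [NeZero (M * q)] [NeZero (M * q * q)]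
  (hq : q.Prime) (hqM : ¬ q ∣ M)

/-- **(MLOC) at ONE field `L`** from the leaves. -/
theorem concMLocAt_of (hR1 : H1R1.R1NodeStatement)
    (hT : TameLevel q M) (hRig : H14LE.Rigid M)
    (A : ValuationSubring Qb) (hA : A.LiesOverPrime q) (n : ℕ) (hn : 0 < n) (hqn : ¬ q ∣ n)
    (L : IntermediateField ℚ Qb) (hfin : FiniteDimensional ℚ L)
    (hunr : Irreducible ((q : ℕ) : ↥(descVal A L)))
    (hζe : ∃ ζ' : L, IsPrimitiveRoot ζ' (branchIndex (baseKind q) M))
    (hζn : ∃ ζ' : L, IsPrimitiveRoot ζ' n)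
    (γ : L ≃ₐ[ℚ] L)
    (hγ : ∀ a : L, a ∈ descVal A L → γ a ∈ descVal A L)
    (hγ' : ∀ a : L, a ∈ descVal A L → γ.symm a ∈ descVal A L)
    (hfrob : ∀ a : L, a ∈ descVal A L → γ a - a ^ q ∈ (descVal A L).nonunits) :
    ConcMLocAt M q hq hqM A n L := by
  classical
  intro K₃ hfin₃ h13 ζ hζ hK₃ _ _ _ _ _ _ t₀ ht₀ t ht hTr
  haveI hqF : Fact q.Prime := ⟨hq⟩
  haveI := H11TA.charP_descVal q hq A hA L
  obtain ⟨B⟩ := H11TA.nonempty_gvBasis M q hq hqM A hA L
  have hRig' : H14LE.Rigid (M * q) := H14LE.rigid_mono (Dvd.intro q rfl) hRig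
  obtain ⟨t', ht', -⟩ :=
    H9C6e.fieldBasics (M * q) (baseKind q) (H8PB.h8pg_baseKind_ok hT) t₀ ht₀ L
  have hDall := H18D3.dich3_cV3 M q hq hqM hT A hA L hfin hunr K₃ h13 ζ hζ B
    ((q : ℕ) : ↥(descVal A L)) hunr t₀ ht₀ t ht n (cb3 L M q) hTr
  refine mlocLeaf_conc M q hq hqM hT A hA L hfin hunr K₃ h13 ζ hζ t₀ ht₀ t ht n hn hqn hζn
    (H8TG.J0 ↥L (M * q * q)) hTr ?_
  intro c 𝔫 h𝔫 hd
  have hc : c = t ∨ c = t⁻¹ := hd.elim Or.inl (fun h => Or.inr h.1)
  have hD : (H10G3.Through ↥(descVal A L) c 𝔫 (cV1 L (descVal A L) M q) ∧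
        H10G3.Through ↥(descVal A L) c 𝔫 (cV2 L (descVal A L) M q hq hqM) ∧
        H10G3.Through ↥(descVal A L) c 𝔫
          (cV3 L M q hq hqM K₃ (descVal A K₃) h13 ζ hζ)) ∨
      ∀ V : ValuationSubring (FK L (M * q * q)),
        V = cV1 L (descVal A L) M q ∨ V = cV2 L (descVal A L) M q hq hqM ∨
          V = cV3 L M q hq hqM K₃ (descVal A K₃) h13 ζ hζ →
        ∀ W : ValuationSubring (FK L (M * q * q)),
          W = cV1 L (descVal A L) M q ∨ W = cV2 L (descVal A L) M q hq hqM ∨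
            W = cV3 L M q hq hqM K₃ (descVal A K₃) h13 ζ hζ →
          H10G3.Through ↥(descVal A L) c 𝔫 V → H10G3.Through ↥(descVal A L) c 𝔫 W → V = W := by
    rcases hc with rfl | rfl
    · exact hDall.1 𝔫 h𝔫
    · exact hDall.2 𝔫 h𝔫
  refine pointLeaves_conc M q hq hqM hT A hA L hfin hunr hζe K₃ hfin₃ h13 ζ hζ t₀ ht₀ t ht n hn
    (H8TG.J0 ↥L (M * q * q)) hTr c 𝔫 h𝔫 hd ?_ ?_ ?_ hD ?_ ?_
  · -- (R2)
    intro h12
    exact H26R2.r2_point M q hq hqM hT hRig A hA L hfin hunr K₃ hfin₃ h13 ζ hζ hζe γ hγ hγ' hfrob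
      t₀ ht₀ t ht hR1 n _ _ _ _ _ hTr c 𝔫 h𝔫 hd hD h12
  · -- (R3)
    exact H16R3.hR3_qq M q hq hqM hT hRig' A hA L hfin hζe ((q : ℕ) : ↥(descVal A L)) hunr
      t₀ ht₀ t ht t' ht' hunr n _ _ _ _ _ _ hTr c hc 𝔫 h𝔫
  · -- (CUSP3)
    exact H7C3.hC3_conc M q hq hqM hT A hA L hfin hunr hζe K₃ hfin₃ h13 ζ hζ t₀ ht₀ t ht
      hTr.hd₃ c hc 𝔫 h𝔫
  · -- (HALF-α)
    exact H17HB.hHα_field M q hq hqM hT A hA L hfin hunr hζe K₃ hfin₃ h13 ζ hζ t₀ ht₀ t ht
      n hn hqn hTr c hc 𝔫 h𝔫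
  · -- (HALF-β)
    exact H17HB.hHβ_field M q hq hqM hT A hA L hfin hunr hζe K₃ hfin₃ h13 ζ hζ t₀ ht₀ t ht
      n hn hqn hTr c 𝔫 h𝔫 hd

end one

/-- **`H4S36.ConcMLocStatement`** from helper1's leaf (R1). -/
theorem concMLocStatement_of (hR1 : H1R1.R1NodeStatement) :
    ConcMLocStatement := by
  intro M q _ _ _ _ hq hqM hRT
  have hT : TameLevel q M := hRT.2.1
  refine uForm_of_forall (branchIndex (baseKind q) M) h7_branchIndex_pos ?_
  intro A hA n hn hqn K₁ hK₁ hnor hζn hζm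
  haveI := hK₁
  haveI := hnor
  obtain ⟨γ, hγ, hγ', hfrob⟩ := H12LF.exists_frob_unrPart A q hq hA K₁
  exact concMLocAt_of M q hq hqM hR1 hT hRT.1 A hA n hn hqn (H29DU.unrPart A K₁)
    (H29DU.finiteDimensional_unrPart A K₁) (H29DU.irreducible_unrPart A K₁ q hq hA)
    (exists_primitiveRoot_unrPart hq A hA (h7_branchIndex_coprime hq hT) K₁ hζm)
    (exists_primitiveRoot_unrPart hq A hA hqn K₁ hζn) γ hγ hγ' hfrob

end H19LA
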