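import Mathlib
import Fermat.Agent.S35.TPPlusDefs_helper11

/-!
# helper19 — S36 (Carayol), formal part: the transfer principle with a FIFTH clause (statement)

`H19S36.TP5Statement` = `H11S35.TPPlusStatement` (same hypotheses, same four clauses, same
`(M, ρ)`) with a fifth clause: for a set `H ⊆ G`, a word `P` in the Hecke operators and `C : ℕ`, if

  `C • P(TJ) x = 0`  for all `x = emb (p^k) a` that are fixed by `H`,

then `C • P(c) • v = 0` for every `v` in the eigenlattice that is fixed by `ρ(H)`.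
-/

set_option autoImplicit false

noncomputable section

namespace H19S36

/-- **TP5**: `H11S35.TPPlusStatement` with the clause on `H`-invariants. -/
def TP5Statement : Prop :=
  ∀ (G : Type) [Group G] (J : Type) [AddCommGroup J] [DistribMulAction G J]
    (ι : Type) [Fintype ι] [DecidableEq ι] (D : H23EA.h23eaDatum G J ι)
    (p : ℕ) [Fact p.Prime]
    (𝒪 : Type) [CommRing 𝒪] [IsDomain 𝒪] [IsDiscreteValuationRing 𝒪]
    [IsAdicComplete (IsLocalRing.maximalIdeal 𝒪) 𝒪]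
    (_hp : (p : 𝒪) ∈ IsLocalRing.maximalIdeal 𝒪) (_hp0 : (p : 𝒪) ≠ 0)
    (τ : Type) (Tmat : τ → Matrix ι ι ℤ) (TJ : τ → (J →+ J)) (c : τ → 𝒪)
    (_hT : ∀ n : ℕ, 0 < n → ∀ (t : τ) (a : ι → ℤ),
      D.emb n ((Tmat t).mulVec a) = TJ t (D.emb n a))
    (_hcommJ : ∀ (t : τ) (σ : G) (x : J), σ • TJ t x = TJ t (σ • x))
    (_heig : ∃ v : ι → 𝒪, v ≠ 0 ∧
      ∀ t, ((Tmat t).map (Int.cast : ℤ → 𝒪)).mulVec v = c t • v),
    ∃ (M : Type) (_ : AddCommGroup M) (_ : Module 𝒪 M) (_ : Module.Free 𝒪 M)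
      (_ : Module.Finite 𝒪 M) (_ : Nontrivial M) (ρ : G →* Module.End 𝒪 M),
      (∀ (σ : G) (n : ℕ), (∀ a, σ • D.emb (p ^ n) a = D.emb (p ^ n) a) →
        ∀ v : M, ρ σ v - v ∈ (IsLocalRing.maximalIdeal 𝒪 ^ n) • (⊤ : Submodule 𝒪 M)) ∧
      (∀ σ : G, (∀ k a, σ • D.emb (p ^ k) a = D.emb (p ^ k) a) → ρ σ = 1) ∧
      (∀ (σ : G) (t : τ) (ℓ : ℤ),
        (∀ k a, σ • σ • D.emb (p ^ k) a - TJ t (σ • D.emb (p ^ k) a) + ℓ • D.emb (p ^ k) a = 0) →
        ρ σ * ρ σ - c t • ρ σ + (ℓ : 𝒪) • (1 : Module.End 𝒪 M) = 0) ∧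
      (∀ (σ : G) (P : FreeAlgebra ℤ τ) (F : Polynomial ℤ),
        (∀ k a,
          Polynomial.aeval ((DistribSMul.toAddMonoidHom J σ).toIntLinearMap : Module.End ℤ J) F
            (FreeAlgebra.lift ℤ (fun t => (TJ t).toIntLinearMap) P (D.emb (p ^ k) a)) = 0) →
        FreeAlgebra.lift ℤ c P • Polynomial.aeval (ρ σ) F = 0) ∧
      (∀ (H : Set G) (P : FreeAlgebra ℤ τ) (C : ℕ),
        (∀ k a, (∀ σ ∈ H, σ • D.emb (p ^ k) a = D.emb (p ^ k) a) →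
          C • FreeAlgebra.lift ℤ (fun t => (TJ t).toIntLinearMap) P (D.emb (p ^ k) a) = 0) →
        ∀ v : M, (∀ σ ∈ H, ρ σ v = v) → (C : 𝒪) • (FreeAlgebra.lift ℤ c P • v) = 0)

end H19S36

end
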