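import Mathlib

/-!
# helper19 — S36 (Carayol), formal part: square-zero Kolchin in ANY rank (Mathlib only)

A group `H` of operators on a module `V` without `2`-torsion such that `(h - 1)² = 0` for every
`h ∈ H` has a common fixed vector `≠ 0` (if `V ≠ 0`).  No field, no finiteness, no Burnside.

With `N_h := h - 1`:
* `h⁻¹ = 1 - N_h`;
* computing `(a b)⁻¹` twice: `N_a N_b = - N_b N_a`;
* the pair `(a, b c)`: `N_a N_b N_c = - N_a N_b N_c`, hence `N_a N_b N_c = 0`;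
* a fixed vector: `N_a N_b v ≠ 0`, else `N_a v ≠ 0`, else any `v ≠ 0`.

This is what the final assembly of `S36` needs: the `λ`-adic representation `ρ'` of `S35` lives on
a rank-2 lattice `Λ` that is coupled to the Hecke eigenlattice `(Mod, ρ)` only through quadratic
relations, so "unipotent on inertia" transfers to `Mod` as `(ρ τ - 1)² = 0`, in any rank.
-/

set_option autoImplicit false

namespace H19S36

section SqZero

variable {R : Type*} [CommRing R] {V : Type*} [AddCommGroup V] [Module R V]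
variable {G : Type*} [Group G]

/-- if `(ρ σ - 1)² = 0` then `ρ σ⁻¹ = 1 - (ρ σ - 1)` -/
theorem h19sq_inv (ρ : G →* Module.End R V) (σ : G) (h : (ρ σ - 1) * (ρ σ - 1) = 0) :
    ρ σ⁻¹ = 1 - (ρ σ - 1) := by
  have h1 : ρ σ⁻¹ * ρ σ = 1 := by rw [← map_mul, inv_mul_cancel, map_one]
  have h2 : ρ σ * (1 - (ρ σ - 1)) = 1 := by
    have h3 : ρ σ * (1 - (ρ σ - 1)) = 1 - (ρ σ - 1) * (ρ σ - 1) := by noncomm_ring
    rw [h3, h, sub_zero]
  calc ρ σ⁻¹ = ρ σ⁻¹ * (ρ σ * (1 - (ρ σ - 1))) := by rw [h2, mul_one]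
    _ = (ρ σ⁻¹ * ρ σ) * (1 - (ρ σ - 1)) := by rw [mul_assoc]
    _ = 1 - (ρ σ - 1) := by rw [h1, one_mul]

/-- anticommutation of the nilpotent parts -/
theorem h19sq_anti (ρ : G →* Module.End R V) (H : Subgroup G)
    (hH : ∀ σ ∈ H, (ρ σ - 1) * (ρ σ - 1) = 0) {a b : G} (ha : a ∈ H) (hb : b ∈ H) :
    (ρ a - 1) * (ρ b - 1) + (ρ b - 1) * (ρ a - 1) = 0 := by
  have hab := h19sq_inv ρ (a * b) (hH _ (H.mul_mem ha hb))
  have ha' := h19sq_inv ρ a (hH a ha)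
  have hb' := h19sq_inv ρ b (hH b hb)
  rw [mul_inv_rev, map_mul, ha', hb', map_mul] at hab
  have key : (ρ a - 1) * (ρ b - 1) + (ρ b - 1) * (ρ a - 1) =
      (1 - (ρ b - 1)) * (1 - (ρ a - 1)) - (1 - (ρ a * ρ b - 1)) := by noncomm_ring
  rw [key, hab, sub_self]

/-- triple products of the nilpotent parts vanish (no `2`-torsion) -/
theorem h19sq_triple (h2 : ∀ v : V, v + v = 0 → v = 0) (ρ : G →* Module.End R V)
    (H : Subgroup G) (hH : ∀ σ ∈ H, (ρ σ - 1) * (ρ σ - 1) = 0) {a b c : G}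
    (ha : a ∈ H) (hb : b ∈ H) (hc : c ∈ H) :
    (ρ a - 1) * (ρ b - 1) * (ρ c - 1) = 0 := by
  have e1 := h19sq_anti ρ H hH ha hb
  have e2 := h19sq_anti ρ H hH ha hc
  have e3 := h19sq_anti ρ H hH ha (H.mul_mem hb hc)
  rw [map_mul] at e3
  have e1' : (ρ b - 1) * (ρ a - 1) + (ρ a - 1) * (ρ b - 1) = 0 := by rw [add_comm]; exact e1
  have e2' : (ρ c - 1) * (ρ a - 1) + (ρ a - 1) * (ρ c - 1) = 0 := by rw [add_comm]; exact e2
  have key : (ρ a - 1) * (ρ b - 1) * (ρ c - 1) + (ρ a - 1) * (ρ b - 1) * (ρ c - 1) =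
      ((ρ a - 1) * (ρ b * ρ c - 1) + (ρ b * ρ c - 1) * (ρ a - 1))
        - ((ρ a - 1) * (ρ b - 1) + (ρ b - 1) * (ρ a - 1))
        - ((ρ a - 1) * (ρ c - 1) + (ρ c - 1) * (ρ a - 1))
        - (ρ b - 1) * ((ρ c - 1) * (ρ a - 1) + (ρ a - 1) * (ρ c - 1))
        + ((ρ b - 1) * (ρ a - 1) + (ρ a - 1) * (ρ b - 1)) * (ρ c - 1) := by noncomm_ring
  rw [e3, e1, e2, e2', e1'] at key
  simp only [sub_zero, mul_zero, zero_mul, add_zero] at key
  apply LinearMap.ext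
  intro v
  apply h2
  have := congrArg (fun f : Module.End R V => f v) key
  simpa using this

/-- **square-zero Kolchin**: a common fixed vector. -/
theorem h19sq_exists_fixed [Nontrivial V] (h2 : ∀ v : V, v + v = 0 → v = 0)
    (ρ : G →* Module.End R V) (H : Subgroup G)
    (hH : ∀ σ ∈ H, (ρ σ - 1) * (ρ σ - 1) = 0) :
    ∃ v : V, v ≠ 0 ∧ ∀ σ ∈ H, ρ σ v = v := by
  classical
  have hfix : ∀ (σ : G) (w : V), (ρ σ - 1) w = 0 → ρ σ w = w := by
    intro σ w h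
    rw [LinearMap.sub_apply, Module.End.one_apply, sub_eq_zero] at h
    exact h
  by_cases c1 : ∃ a ∈ H, ∃ b ∈ H, ∃ v : V, ((ρ a - 1) * (ρ b - 1)) v ≠ 0
  · obtain ⟨a, ha, b, hb, v, hv⟩ := c1
    refine ⟨((ρ a - 1) * (ρ b - 1)) v, hv, fun σ hσ => hfix σ _ ?_⟩
    have h3 := h19sq_triple h2 ρ H hH hσ ha hb
    have h4 := congrArg (fun f : Module.End R V => f v) h3
    simpa [mul_assoc] using h4
  · push Not at c1
    by_cases c2 : ∃ b ∈ H, ∃ v : V, (ρ b - 1) v ≠ 0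
    · obtain ⟨b, hb, v, hv⟩ := c2
      refine ⟨(ρ b - 1) v, hv, fun σ hσ => hfix σ _ ?_⟩
      exact c1 σ hσ b hb v
    · push Not at c2
      obtain ⟨v, hv⟩ := exists_ne (0 : V)
      exact ⟨v, hv, fun σ hσ => hfix σ v (c2 σ hσ v)⟩

end SqZero

end H19S36
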