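import Mathlib
import Fermat.Agent.S35.ASM2_helper11
import Fermat.Agent.S36.Eig5_helper19
import Fermat.Agent.S36.SqZero_helper19
import Fermat.Agent.S36.InvOfInj_helper16
import Fermat.Agent.S54.Frobenius

/-!
# helper19 — S36 (Carayol at `q² ‖ M`): the FINAL ASSEMBLY

`h19s36_of : TP5Statement → NewOpStatement → H16S36.InvStatement → (∀ N, KumGalStatement N) →`
(the statement of `S36`, without its hypotheses `hres` and `lam ≠ 2`, which are not needed).

Construction of `ρ'` = the one of `S35` (`H11S35.h11s35_ofP`): the Hecke eigenlattice `(Mod, ρ)`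
(`h19eig_plus5`), EXT-A, EXT-lattice.  New: if `ρ'` is unipotent on inertia at `q`, `q² ‖ M`,
`q ≠ lam`, then for `τ ∈ I_q`: `charpoly (ρ' τ) = (X - 1)²`, `d τ = 1`, so the quadratic relation
of `ρ τ` on `Mod` has `t = 2`: `(ρ τ - 1)² = 0`.  Square-zero Kolchin (`h19sq_exists_fixed`) gives
`v ≠ 0` in `Mod` fixed by `ρ(I_q)`; the fifth clause of `h19eig_plus5` with (INV) and (NEWOP) gives
`c • χ(P) • v = 0` with `c ≠ 0`, `χ(P) ≠ 0`: contradiction.
-/

set_option autoImplicit false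
set_option linter.style.longLine false
set_option linter.style.haveILetI false
set_option linter.overlappingInstances false

open Polynomial

noncomputable section

namespace H19S36

open H11S35 H11W3G ModularCurve CongruenceSubgroup AlgebraicCurve

/-- `M.factorization q = 2` means `M = N' q q` with `q ∤ N'`. -/
theorem h19_exists_level {M q : ℕ} (hM : M ≠ 0) (hq : q.Prime) (hfac : M.factorization q = 2) :
    ∃ N', M = N' * q * q ∧ ¬ q ∣ N' := by
  have h2 : q ^ 2 ∣ M := (hq.pow_dvd_iff_le_factorization hM).2 (le_of_eq hfac.symm)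
  have h3 : ¬ q ^ 3 ∣ M := by
    intro h
    have := (hq.pow_dvd_iff_le_factorization hM).1 h
    omega
  obtain ⟨N', hN'⟩ := h2
  refine ⟨N', by rw [hN', pow_two]; ring, fun ⟨m, hm⟩ => h3 ⟨m, ?_⟩⟩
  rw [hN', hm]
  ring

/-- the eigenlattice has no nonzero vector fixed by the inertia group at `q`, `q² ‖ M` -/
theorem h19s36_noFixed (hNew : NewOpStatement) (hInv : H16S36.InvStatement)
    {M : ℕ} [NeZero M] {g : CuspForm (Gamma0 M) 2} (hg : g.IsNewform)
    (p : ℕ) (hp : p.Prime) (S : Finset ℕ) (hpS : p ∈ S)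
    (hMS : ∀ q : ℕ, q.Prime → q ∣ M → q ∈ S)
    (𝒪' : Type) [CommRing 𝒪'] [IsDomain 𝒪'] [CharZero 𝒪']
    (chig : CuspForm.heckeAlgebra M 2 (↑S : Set ℕ) →+* ℂ)
    (hchig : ∀ (ℓ : ℕ) (hℓ : ℓ.Prime) (hℓM : ¬ ℓ ∣ M) (hℓS : ℓ ∉ (↑S : Set ℕ)),
      chig (CuspForm.heckeAlgebra.T hℓ hℓM hℓS) = ModularFormClass.qCoeff g ℓ)
    (iota : chig.range →+* 𝒪')
    (Mod : Type) [AddCommGroup Mod] [Module 𝒪' Mod] [Module.Free 𝒪' Mod]
    (ρ : GQ →* Module.End 𝒪' Mod)
    (hρ5 : ∀ (H : Set GQ) (P : Wd M S) (C : ℕ),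
        (∀ (k : ℕ) (x : JZero M), IsTateDiv p k x → (∀ σ ∈ H, σ • x = x) →
          C • evalJ M S P x = 0) →
        ∀ v : Mod, (∀ σ ∈ H, ρ σ v = v) →
          (C : 𝒪') • ((iota.comp chig.rangeRestrict) (evalHecke M S P) • v) = 0)
    (q : ℕ) (hq : q.Prime) (hqp : q ≠ p) (hfac : M.factorization q = 2)
    (A : ValuationSubring (AlgebraicClosure ℚ)) (hA : A.LiesOverPrime q)
    (v : Mod) (hv : ∀ τ ∈ A.inertiaSubgroupIn ℚ, ρ τ v = v) : v = 0 := by
  obtain ⟨N', rfl, hqN'⟩ := h19_exists_level (NeZero.ne M) hq hfac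
  have hN'0 : N' ≠ 0 := by
    rintro rfl
    exact (NeZero.ne (0 * q * q)) (by rw [zero_mul, zero_mul])
  haveI : NeZero N' := ⟨hN'0⟩
  haveI : NeZero q := ⟨hq.ne_zero⟩
  haveI : NeZero (N' * q) := ⟨Nat.mul_ne_zero hN'0 hq.ne_zero⟩
  have hne : N' * q ≠ N' * q * q := by
    intro h
    have h1 : N' * q * 1 = N' * q * q := by rw [mul_one]; exact h
    have h2 := Nat.eq_of_mul_eq_mul_left (Nat.pos_of_ne_zero (Nat.mul_ne_zero hN'0 hq.ne_zero)) h1
    exact hq.one_lt.ne h2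
  obtain ⟨c, hc, hI⟩ := hInv N' q hq hqN'
  obtain ⟨P, hP0, hPne⟩ := hNew (N' * q * q) g hg S hMS (N' * q) (dvd_mul_right (N' * q) q) hne
  have h1 := hρ5 (↑(A.inertiaSubgroupIn ℚ) : Set GQ) P c
    (fun k x hx hfix => hI S P hP0 p k hp hqp hpS A hA x hx (fun τ hτ => hfix τ hτ)) v
    (fun τ hτ => hv τ hτ)
  -- the scalar is nonzero
  have hchi : chig (evalHecke (N' * q * q) S P) =
      evalC (N' * q * q) S (fun ℓ => ModularFormClass.qCoeff g ℓ) P := by
    have h5 : (chig.toIntAlgHom).comp (evalHecke (N' * q * q) S) =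
        evalC (N' * q * q) S (fun ℓ => ModularFormClass.qCoeff g ℓ) := by
      apply FreeAlgebra.hom_ext
      funext t
      simp only [Function.comp_apply, AlgHom.comp_apply, evalHecke, evalC,
        FreeAlgebra.lift_ι_apply]
      exact hchig t.1 t.2.1 t.2.2.1 t.2.2.2
    rw [← h5]
    rfl
  have hint : ∀ x : chig.range, IsIntegral ℤ x := by
    rintro ⟨x, t, rfl⟩
    haveI : Module.Finite ℤ (CuspForm.heckeAlgebra (N' * q * q) 2 (↑S : Set ℕ)) :=
      Fermat.Agent.S22.result (N' * q * q) 2 (↑S : Set ℕ)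
    have ht : IsIntegral ℤ t := IsIntegral.of_finite ℤ t
    have h2 := ht.map (chig.rangeRestrict.toIntAlgHom)
    exact h2
  have hinj : Function.Injective iota := h11alg_injective hint iota
  have hne0 : (iota.comp chig.rangeRestrict) (evalHecke (N' * q * q) S P) ≠ 0 := by
    intro h
    rw [RingHom.comp_apply] at h
    have h2 := hinj (h.trans (map_zero iota).symm)
    have h3 := congrArg Subtype.val h2
    rw [RingHom.coe_rangeRestrict] at h3
    exact hPne (hchi ▸ h3)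
  have hc0 : (c : 𝒪') ≠ 0 := Nat.cast_ne_zero.2 hc.ne'
  rcases smul_eq_zero.mp h1 with h | h
  · exact absurd h hc0
  · rcases smul_eq_zero.mp h with h' | h'
    · exact absurd h' hne0
    · exact h'

/-- `X² - t X + 1 = (X - 1)²` forces `t = 2` -/
theorem h19_t_eq_two {R : Type*} [CommRing R] (t : R)
    (h : (X : R[X]) ^ 2 - C t * X + C (1 : R) = (X - 1) ^ 2) : t = 2 := by
  have e : ((X : R[X]) - 1) ^ 2 = X ^ 2 - C (2 : R) * X + C (1 : R) := by
    rw [map_ofNat, map_one]; ring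
  rw [e] at h
  have h1 := congrArg (fun f : R[X] => f.coeff 1) h
  simp only [coeff_add, coeff_sub, coeff_X_pow, coeff_C_mul, coeff_X_one, coeff_C, mul_one] at h1
  simpa using h1

/-- the quadratic relation with `t = 2`, `δ = 1` is `(x - 1)² = 0` -/
theorem h19_sq_of_quadRel {R : Type*} [CommRing R] {V : Type*} [AddCommGroup V] [Module R V]
    (x : Module.End R V) (h : QuadRel x (2 : R) (1 : R)) : (x - 1) * (x - 1) = 0 := by
  unfold QuadRel at h
  rw [two_smul, one_smul] at h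
  rw [← h]
  noncomm_ring

/-- **S36** from `TP5Statement`, `NewOpStatement`, `InvStatement`, `KumGalStatement`. -/
theorem h19s36_of (hTP : TP5Statement) (hNew : NewOpStatement) (hInv : H16S36.InvStatement)
    (hK : ∀ (N : ℕ) [NeZero N], KumGalStatement N)
    {M : ℕ} [NeZero M] {g : CuspForm (CongruenceSubgroup.Gamma0 M) 2} (hg : g.IsNewform)
    (lam : ℕ) [Fact lam.Prime]
    (S : Finset ℕ)
    (O' : Type) [CommRing O'] [IsDomain O'] [IsDiscreteValuationRing O']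
    [IsAdicComplete (IsLocalRing.maximalIdeal O') O'] [Finite (IsLocalRing.ResidueField O')]
    [CharZero O'] (hlamO' : (lam : O') ∈ IsLocalRing.maximalIdeal O')
    (chig : CuspForm.heckeAlgebra M 2 (↑S : Set ℕ) →+* ℂ)
    (hchig : ∀ (ℓ : ℕ) (hℓ : ℓ.Prime) (hℓM : ¬ ℓ ∣ M) (hℓS : ℓ ∉ (↑S : Set ℕ)),
      chig (CuspForm.heckeAlgebra.T hℓ hℓM hℓS) = ModularFormClass.qCoeff g ℓ)
    (iota : chig.range →+* O')
    (hlamS : lam ∈ S) (hMS : ∀ q : ℕ, q.Prime → q ∣ M → q ∈ S) :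
    ∃ (O'' : Type) (_ : CommRing O'') (_ : IsDomain O'') (_ : IsDiscreteValuationRing O'')
      (_ : IsAdicComplete (IsLocalRing.maximalIdeal O'') O'') (_ : Finite (IsLocalRing.ResidueField O''))
      (_ : CharZero O'') (_ : Algebra O' O'') (_ : Module.Finite O' O'') (_ : IsLocalHom (algebraMap O' O'')),
      Function.Injective (algebraMap O' O'') ∧
      ∃ ρ : GaloisRepAdic O'',
        (∀ (ℓ : ℕ) (hℓ : ℓ.Prime) (hℓM : ¬ ℓ ∣ M) (hℓS : ℓ ∉ (↑S : Set ℕ)),
          ∀ A : ValuationSubring (AlgebraicClosure ℚ), A.LiesOverPrime ℓ →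
            ∀ σ : AlgebraicClosure ℚ ≃ₐ[ℚ] AlgebraicClosure ℚ, A.IsFrobeniusAt σ ℓ →
              LinearMap.charpoly (ρ.ρ σ) =
                X ^ 2 - C (algebraMap O' O'' ((iota.comp chig.rangeRestrict) (CuspForm.heckeAlgebra.T hℓ hℓM hℓS))) * X
                  + C ((ℓ : O''))) ∧
        (∀ q : ℕ, q.Prime → q ≠ lam → M.factorization q = 2 → ¬ ρ.IsUnipotentOnInertiaAt q) := by
  classical
  have hp : lam.Prime := Fact.out
  set χ : CuspForm.heckeAlgebra M 2 (↑S : Set ℕ) →+* O' := iota.comp chig.rangeRestrict with hχ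
  -- the Hecke–Galois lattice
  obtain ⟨Mod, iM1, iM2, iM3, iM4, iM5, ρ, hρc, hρu, hρF, hρP, hρ5⟩ :=
    h19eig_plus5 hTP M (H13E0.heckeLStatement M) (h11lb_lamGal M (hK M))
      (H10ES.h10es_inertiaStatement_final M) (H10ES.h10es_frobeniusStatement_final M)
      (H13W3G.commStatement M) (H13W3G.finLevStatement M) H29EA.h29ea_eigHAdic
      lam S hlamS O' hlamO' χ
  -- the cyclotomic character
  obtain ⟨d, hdc, hdF, hdu, hdconj⟩ := H27CYC.h27cyc_adic lam hp O' hlamO'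
  -- the eigenvalues as a function on `ℕ`
  let a : ℕ → O' := fun ℓ =>
    if h : ℓ.Prime ∧ ¬ ℓ ∣ M ∧ ℓ ∉ (↑S : Set ℕ) then
      χ (CuspForm.heckeAlgebra.T h.1 h.2.1 h.2.2) else 0
  have ha : ∀ (ℓ : ℕ) (hℓ : ℓ.Prime) (hℓN : ¬ ℓ ∣ M) (hℓS : ℓ ∉ (↑S : Set ℕ)),
      a ℓ = χ (CuspForm.heckeAlgebra.T hℓ hℓN hℓS) := by
    intro ℓ hℓ hℓN hℓS
    show (if h : ℓ.Prime ∧ ¬ ℓ ∣ M ∧ ℓ ∉ (↑S : Set ℕ) then
      χ (CuspForm.heckeAlgebra.T h.1 h.2.1 h.2.2) else 0) = _
    rw [dif_pos ⟨hℓ, hℓN, hℓS⟩]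
  -- Frobenius lifts outside `S`
  have hFrob : ∀ ℓ : ℕ, ℓ.Prime → ℓ ∉ S → ∀ A : ValuationSubring (AlgebraicClosure ℚ),
      A.LiesOverPrime ℓ → ∀ σ : GQ, A.IsFrobeniusAt σ ℓ →
        QuadRel (ρ σ) (a ℓ) ((d σ : O'ˣ) : O') := by
    intro ℓ hℓ hℓS A hA σ hσ
    have hℓN : ¬ ℓ ∣ M := fun h => hℓS (hMS ℓ hℓ h)
    have hℓS' : ℓ ∉ (↑S : Set ℕ) := fun h => hℓS (Finset.mem_coe.mp h)
    have hℓp : ℓ ≠ lam := fun h => hℓS (h ▸ hlamS)
    rw [ha ℓ hℓ hℓN hℓS', hdF ℓ hℓ hℓp A hA σ hσ]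
    exact hρF ℓ hℓ hℓN hℓS' A hA σ hσ
  -- EXT-A
  have hquad : ∀ g : GQ, ∃ t : O', QuadRel (ρ g) t ((d g : O'ˣ) : O') :=
    h11xa_extAAdic O' Mod ρ d S a hρc hdc hFrob
  -- EXT-lattice
  have h2 : (2 : O') ≠ 0 := two_ne_zero
  obtain ⟨Λ, iΛ1, iΛ2, iΛ3, iΛ4, ρ', hrank, hcong, htriv, hchar⟩ :=
    LeadEXT.lead_extLatticeStatement GQ O' h2 Mod ρ d complexConjugation
      complexConjugation_mul_self hdconj hquad
  refine ⟨O', inferInstance, inferInstance, inferInstance, inferInstance, inferInstance,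
    inferInstance, Algebra.id O', inferInstance, ?_, ?_, ?_⟩
  · exact ⟨fun a ha => ha⟩
  · exact Function.injective_id
  · refine ⟨{ V := Λ, finrank_eq := hrank, ρ := ρ', isAdicContinuous := ?_ }, ?_, ?_⟩
    · intro n
      obtain ⟨L₁, hL₁, hρL⟩ := hρc n
      obtain ⟨L₂, hL₂, hdL⟩ := hdc n
      haveI := hL₁
      haveI := hL₂
      refine ⟨L₁ ⊔ L₂, inferInstance, fun σ hσ => ?_⟩
      exact hcong σ n (hρL σ fun x hx => hσ x (le_sup_left (a := L₁) (b := L₂) hx))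
        (hdL σ fun x hx => hσ x (le_sup_right (a := L₁) (b := L₂) hx))
    · intro ℓ hℓ hℓN hℓS A hA σ hσ
      have hℓp : ℓ ≠ lam := fun h => hℓS (Finset.mem_coe.mpr (h ▸ hlamS))
      have h1 := hρF ℓ hℓ hℓN hℓS A hA σ hσ
      have h3 := hdF ℓ hℓ hℓp A hA σ hσ
      rw [← h3] at h1
      have h4 := hchar σ _ h1
      rw [h3] at h4
      exact h4
    · intro q hq hqlam hfac hunip
      obtain ⟨A, hA⟩ := Fermat.Agent.H9.h9_exists_valuationSubring_liesOver hq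
      -- `(ρ τ - 1)² = 0` on the eigenlattice for `τ` in the inertia group
      have hsq : ∀ τ ∈ A.inertiaSubgroupIn ℚ, (ρ τ - 1) * (ρ τ - 1) = 0 := by
        intro τ hτ
        obtain ⟨t, ht⟩ := hquad τ
        have hd1 : d τ = 1 := hdu q hq hqlam A hA τ hτ
        have h4 := hchar τ t ht
        have h5 : LinearMap.charpoly (ρ' τ) = (X - 1) ^ 2 := hunip A hA τ hτ
        rw [hd1, Units.val_one] at h4 ht
        have ht2 : t = 2 := h19_t_eq_two t (h4.symm.trans h5)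
        rw [ht2] at ht
        exact h19_sq_of_quadRel (ρ τ) ht
      have htf : ∀ v : Mod, v + v = 0 → v = 0 := by
        intro v hv
        have h3 : (2 : O') • v = 0 := by rw [two_smul]; exact hv
        rcases smul_eq_zero.mp h3 with h | h
        · exact absurd h h2
        · exact h
      obtain ⟨v, hv0, hv⟩ := h19sq_exists_fixed htf ρ (A.inertiaSubgroupIn ℚ) hsq
      exact hv0 (h19s36_noFixed hNew hInv hg lam hp S hlamS hMS O' chig hchig iota Mod ρ hρ5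
        q hq hqlam hfac A hA v hv)

end H19S36

end
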