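import Mathlib
import Fermat.Agent.S35.TPPlus_helper20
import Fermat.Agent.S36.TP5Defs_helper19

/-!
# Item 86 (S36), slice TP5 (helper6): the transfer principle for invariants

`H6TP5.h6tp5_main : H19S36.TP5Statement`, i.e. `H11S35.TPPlusStatement` (same hypotheses, same
existential `(M, ρ)`, same four clauses) with a FIFTH clause: for a set `H ⊆ G`, a word `P` in the
Hecke operators and `C : ℕ`, if `C • P(TJ)` kills every `H`-fixed point `emb (p ^ k) a` (all `k`,
`a`), then `(C : 𝒪) • (P(c) • v) = 0` for every `H`-fixed vector `v` of the eigenlattice.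

* `h6tp5_flat_transfer`: a linear relation that holds on the common kernel over `ℤ_[p]` of a
  family of matrices holds on the common kernel over `𝒪` (`𝒪` is torsion-free, hence flat, over
  `ℤ_[p]`; equational criterion of flatness);
* `h6tp5_inv_core`: the fifth clause in matrix form (approximation modulo `p ^ k` over `ℤ_[p]`,
  then flat transfer to `𝒪`, then the word acts on the eigenlattice through `c`);
* `h6tp5_rel_of_emb`: from the level of `J` to the level of the compatible system;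
* `h6tp5_eigenlattice`: copy of `H20TP.h20tp_eigenlattice` with the fifth clause;
* `h6tp5_main : H19S36.TP5Statement`.
-/

set_option autoImplicit false
set_option linter.style.longLine false
set_option linter.unusedSectionVars false
set_option linter.unnecessarySimpa false
set_option linter.style.haveILetI false

open Matrix Polynomial

noncomputable section

namespace H6TP5

section Flat

/-- **flat transfer**: a linear relation that holds on the common kernel over `ℤ_[p]` of a family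
of matrices holds on the common kernel over `𝒪` (torsion-free over `ℤ_[p]`, hence flat). -/
theorem h6tp5_flat_transfer (p : ℕ) [Fact p.Prime] {ι : Type} [Fintype ι] [DecidableEq ι]
    {𝒪 : Type} [CommRing 𝒪] [IsDomain 𝒪] (φ : ℤ_[p] →+* 𝒪) (hφ : Function.Injective φ)
    (Φ : Set (Matrix ι ι ℤ_[p])) (Ψ : Matrix ι ι ℤ_[p])
    (h : ∀ x : ι → ℤ_[p], (∀ B ∈ Φ, B.mulVec x = 0) → Ψ.mulVec x = 0)
    (v : ι → 𝒪) (hv : ∀ B ∈ Φ, (B.map φ).mulVec v = 0) :
    (Ψ.map φ).mulVec v = 0 := by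
  classical
  letI : Algebra ℤ_[p] 𝒪 := φ.toAlgebra
  have hsmul : ∀ (z : ℤ_[p]) (o : 𝒪), z • o = φ z * o := fun z o => by
    rw [Algebra.smul_def]; rfl
  have hflat : Module.Flat ℤ_[p] 𝒪 := by
    rw [Module.Flat.flat_iff_torsion_eq_bot_of_isBezout]
    rw [eq_bot_iff]
    rintro m ⟨⟨r, hr⟩, hm⟩
    have hr0 : r ≠ 0 := nonZeroDivisors.ne_zero hr
    have h1 : φ r * m = 0 := by
      rw [← hsmul]; exact hm
    have h2 : φ r ≠ 0 := fun h0 => hr0 (hφ (by rw [h0, map_zero]))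
    rcases mul_eq_zero.1 h1 with h3 | h3
    · exact absurd h3 h2
    · exact (Submodule.mem_bot _).2 h3
  -- the functional `n ↦ ∑ j, φ (n j) * v j`
  let x : (ι → ℤ_[p]) →ₗ[ℤ_[p]] 𝒪 :=
    { toFun := fun n => ∑ j, φ (n j) * v j
      map_add' := fun n m => by
        simp only [Pi.add_apply, map_add, add_mul, Finset.sum_add_distrib]
      map_smul' := fun z n => by
        simp only [Pi.smul_apply, smul_eq_mul, map_mul, RingHom.id_apply, hsmul, Finset.mul_sum,
          mul_assoc] }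
  have hx : ∀ n, x n = ∑ j, φ (n j) * v j := fun n => rfl
  let K : Submodule ℤ_[p] (ι → ℤ_[p]) :=
    Submodule.span ℤ_[p] {r | ∃ B ∈ Φ, ∃ i, r = B i}
  have hK : x ∘ₗ K.subtype = 0 := by
    apply LinearMap.ext
    rintro ⟨n, hn⟩
    show x n = 0
    refine Submodule.span_induction ?_ ?_ ?_ ?_ hn
    · rintro r ⟨B, hB, i, rfl⟩
      have := congrFun (hv B hB) i
      simpa [Matrix.mulVec, dotProduct, hx] using this
    · simp
    · intro a b _ _ ha hb
      rw [map_add, ha, hb, add_zero]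
    · intro z a _ ha
      rw [map_smul, ha, smul_zero]
  obtain ⟨k, a, y, hxy, haf⟩ := Module.Flat.exists_factorization_of_comp_eq_zero_of_free hK
  -- expansion of `a n l`
  have hexp : ∀ (n : ι → ℤ_[p]) (l : Fin k), a n l = ∑ j, n j * a (Pi.single j 1) l := by
    intro n l
    have hn : n = ∑ j, n j • (Pi.single j (1 : ℤ_[p]) : ι → ℤ_[p]) := by
      funext i
      simp [Finset.sum_apply, Pi.single_apply]
    conv_lhs => rw [hn]
    rw [map_sum, Finsupp.finsetSum_apply]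
    refine Finset.sum_congr rfl fun j _ => ?_
    rw [map_smul, Finsupp.smul_apply, smul_eq_mul]
  have hrow : ∀ B ∈ Φ, ∀ i, a (B i) = 0 := by
    intro B hB i
    have hmem : B i ∈ K := Submodule.subset_span ⟨B, hB, i, rfl⟩
    have := LinearMap.congr_fun haf ⟨B i, hmem⟩
    simpa using this
  have hker : ∀ l : Fin k, Ψ.mulVec (fun j => a (Pi.single j 1) l) = 0 := by
    intro l
    apply h
    intro B hB
    funext i
    have := congrArg (fun f : Fin k →₀ ℤ_[p] => f l) (hrow B hB i)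
    simp only [Finsupp.coe_zero, Pi.zero_apply] at this
    rw [hexp] at this
    simpa [Matrix.mulVec, dotProduct] using this
  have hΨ : ∀ i, a (Ψ i) = 0 := by
    intro i
    ext l
    rw [hexp]
    have := congrFun (hker l) i
    simpa [Matrix.mulVec, dotProduct] using this
  funext i
  have h1 : x (Ψ i) = 0 := by
    rw [hxy, LinearMap.comp_apply, hΨ i, map_zero]
  simpa [Matrix.mulVec, dotProduct, hx] using h1

/-- a ring homomorphism `ℤ_[p] → 𝒪` into a domain in which `p ≠ 0` is injective -/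
theorem h6tp5_padicHom_injective (p : ℕ) [Fact p.Prime] {𝒪 : Type} [CommRing 𝒪] [IsDomain 𝒪]
    (φ : ℤ_[p] →+* 𝒪) (hp0 : (p : 𝒪) ≠ 0) : Function.Injective φ := by
  rw [injective_iff_map_eq_zero]
  intro z hz
  by_contra hz0
  have h1 := PadicInt.unitCoeff_spec hz0
  rw [h1, map_mul, map_pow, map_natCast] at hz
  rcases mul_eq_zero.1 hz with h2 | h2
  · have hu : IsUnit (φ (PadicInt.unitCoeff hz0 : ℤ_[p])) :=
      (PadicInt.unitCoeff hz0).isUnit.map φ
    exact hu.ne_zero h2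
  · exact pow_ne_zero _ hp0 h2

/-- ring homomorphisms commute with `mulVec` -/
theorem h6tp5_map_mulVec {R S : Type*} [CommRing R] [CommRing S] {ι : Type} [Fintype ι]
    (f : R →+* S) (A : Matrix ι ι R) (x : ι → R) :
    (A.map f).mulVec (fun i => f (x i)) = fun i => f (A.mulVec x i) := by
  funext i
  simp only [Matrix.mulVec, dotProduct, Matrix.map_apply, map_sum, map_mul]

end Flat

section Core

open H23T

/-- the core of the fifth clause, in matrix form -/
theorem h6tp5_inv_core (p : ℕ) [Fact p.Prime] (G : Type) [Group G]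
    (ι : Type) [Fintype ι] [DecidableEq ι]
    (𝒪 : Type) [CommRing 𝒪] [IsDomain 𝒪]
    (φ : ℤ_[p] →+* 𝒪) (hp0 : (p : 𝒪) ≠ 0)
    (Sy : h23tSystem p G ι) (ρp : G →* Matrix ι ι ℤ_[p])
    (hρp : ∀ k g, (ρp g).map (PadicInt.toZModPow k) = Sy.R k g)
    (τ : Type) (T : τ → Matrix ι ι ℤ) (c : τ → 𝒪)
    (H : Set G) (P : FreeAlgebra ℤ τ) (C : ℕ)
    (hrel : ∀ (k : ℕ) (a : ι → ZMod (p ^ k)), (∀ g ∈ H, (Sy.R k g).mulVec a = a) →
      (C • FreeAlgebra.lift ℤ (fun t => (T t).map (Int.cast : ℤ → ZMod (p ^ k))) P).mulVec a = 0)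
    (v : ι → 𝒪) (hvM : v ∈ h23tEigen (fun t => (T t).map (Int.cast : ℤ → 𝒪)) c)
    (hv : ∀ g ∈ H, ((ρp g).map φ).mulVec v = v) :
    (C : 𝒪) • (FreeAlgebra.lift ℤ c P • v) = 0 := by
  have hφ := h6tp5_padicHom_injective p φ hp0
  set Tp : τ → Matrix ι ι ℤ_[p] := fun t => (T t).map (Int.cast : ℤ → ℤ_[p]) with hTp
  set TO : τ → Matrix ι ι 𝒪 := fun t => (T t).map (Int.cast : ℤ → 𝒪) with hTO
  have hTpO : ∀ t, (Tp t).map φ = TO t := fun t => h23t_intMat_map φ (T t)
  set Ψ : Matrix ι ι ℤ_[p] := C • FreeAlgebra.lift ℤ Tp P with hΨ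
  -- Step A: over `ℤ_[p]`
  have hA : ∀ x : ι → ℤ_[p], (∀ B ∈ {B : Matrix ι ι ℤ_[p] | ∃ g ∈ H, B = ρp g - 1},
      B.mulVec x = 0) → Ψ.mulVec x = 0 := by
    intro x hx
    have hfix : ∀ g ∈ H, (ρp g).mulVec x = x := by
      intro g hg
      have := hx (ρp g - 1) ⟨g, hg, rfl⟩
      rw [Matrix.sub_mulVec, Matrix.one_mulVec, sub_eq_zero] at this
      exact this
    funext i
    rw [Pi.zero_apply, ← PadicInt.ext_of_toZModPow]
    intro k
    rw [map_zero]
    have h1 : ∀ g ∈ H, (Sy.R k g).mulVec (fun j => PadicInt.toZModPow k (x j)) =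
        fun j => PadicInt.toZModPow k (x j) := by
      intro g hg
      rw [← hρp k g, h6tp5_map_mulVec, hfix g hg]
    have h2 := hrel k _ h1
    have h3 : C • FreeAlgebra.lift ℤ (fun t => (T t).map (Int.cast : ℤ → ZMod (p ^ k))) P =
        Ψ.map (PadicInt.toZModPow k) := by
      have e1 : Ψ.map (PadicInt.toZModPow k) =
          (PadicInt.toZModPow (p := p) k).mapMatrix Ψ := rfl
      rw [e1, hΨ, map_nsmul, H20TP.h20tp_map_lift]
      have e3 : (fun t => (PadicInt.toZModPow (p := p) k).mapMatrix (Tp t)) =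
          fun t => (T t).map (Int.cast : ℤ → ZMod (p ^ k)) := by
        funext t
        exact h23t_intMat_toZModPow (T t) k
      rw [e3]
    rw [h3, h6tp5_map_mulVec] at h2
    exact congrFun h2 i
  -- Step B: over `𝒪`
  have hB : ∀ B ∈ {B : Matrix ι ι ℤ_[p] | ∃ g ∈ H, B = ρp g - 1},
      (B.map φ).mulVec v = 0 := by
    rintro B ⟨g, hg, rfl⟩
    have h2 : (ρp g - 1).map φ = (ρp g).map φ - 1 := by
      ext i j
      by_cases hij : i = j
      · subst hij; simp
      · simp [Matrix.one_apply_ne hij]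
    rw [h2, Matrix.sub_mulVec, Matrix.one_mulVec, hv g hg, sub_self]
  have h5 := h6tp5_flat_transfer p φ hφ _ Ψ hA v hB
  have h6 : Ψ.map φ = C • FreeAlgebra.lift ℤ TO P := by
    have e1 : Ψ.map φ = φ.mapMatrix Ψ := rfl
    rw [e1, hΨ, map_nsmul, H20TP.h20tp_map_lift]
    have e3 : (fun t => φ.mapMatrix (Tp t)) = TO := by
      funext t
      exact hTpO t
    rw [e3]
  have h4 : (FreeAlgebra.lift ℤ TO P, FreeAlgebra.lift ℤ c P) ∈
      H20TP.h20tpS3 (h23tEigen TO c) :=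
    H20TP.h20tp_lift_mem (H20TP.h20tpS3 (h23tEigen TO c)) TO c
      (fun t => (H20TP.h20tp_mem_S3 (h23tEigen TO c) (TO t, c t)).mpr (fun v hv => hv t)) P
  rw [h6, Matrix.smul_mulVec, (H20TP.h20tp_mem_S3 _ _).mp h4 v hvM] at h5
  rw [Nat.cast_smul_eq_nsmul]
  exact h5

end Core

section Emb

open H23EA H23T

variable {G : Type} [Group G] {J : Type} [AddCommGroup J] [DistribMulAction G J]
variable {ι : Type} [Fintype ι] [DecidableEq ι]

/-- an integer vector that vanishes modulo `n` is killed by `emb n` -/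
theorem h6tp5_emb_eq_zero (D : h23eaDatum G J ι) {n : ℕ} (b : ι → ℤ)
    (hb : ∀ i, ((b i : ℤ) : ZMod n) = 0) : D.emb n b = 0 := by
  have h1 : ∀ i, ∃ c : ℤ, b i = n * c := fun i =>
    (ZMod.intCast_zmod_eq_zero_iff_dvd _ _).1 (hb i)
  choose c hc using h1
  have h3 : b = n • c := by
    funext i
    simp only [Pi.smul_apply, nsmul_eq_mul, hc i]
  rw [h3, map_nsmul, D.tors]

/-- an integer vector killed by `emb n` vanishes modulo `n` -/
theorem h6tp5_cast_eq_zero (D : h23eaDatum G J ι) {n : ℕ} (hn : 0 < n) (b : ι → ℤ)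
    (hb : D.emb n b = 0) (i : ι) : ((b i : ℤ) : ZMod n) = 0 := by
  obtain ⟨a', ha'⟩ := D.inj n hn b hb
  rw [ha']
  simp

/-- from the level of `J` to the level of the system `Sy` -/
theorem h6tp5_rel_of_emb (D : h23eaDatum G J ι) (p : ℕ) [Fact p.Prime]
    (Sy : h23tSystem p G ι)
    (hSy : ∀ (k : ℕ) (σ : G) (A : Matrix ι ι ℤ),
      h23eaRel D (p ^ k) σ A → Sy.R k σ = A.map (Int.cast : ℤ → ZMod (p ^ k)))
    (τ : Type) (Tmat : τ → Matrix ι ι ℤ) (TJ : τ → (J →+ J))
    (hT : ∀ n : ℕ, 0 < n → ∀ (t : τ) (a : ι → ℤ),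
      D.emb n ((Tmat t).mulVec a) = TJ t (D.emb n a))
    (H : Set G) (P : FreeAlgebra ℤ τ) (C : ℕ)
    (h : ∀ k a, (∀ σ ∈ H, σ • D.emb (p ^ k) a = D.emb (p ^ k) a) →
      C • FreeAlgebra.lift ℤ (fun t => (TJ t).toIntLinearMap) P (D.emb (p ^ k) a) = 0)
    (k : ℕ) (ā : ι → ZMod (p ^ k)) (hā : ∀ g ∈ H, (Sy.R k g).mulVec ā = ā) :
    (C • FreeAlgebra.lift ℤ (fun t => (Tmat t).map (Int.cast : ℤ → ZMod (p ^ k))) P).mulVec ā
      = 0 := by
  have hpos : 0 < p ^ k := pow_pos (Fact.out : p.Prime).pos k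
  haveI : NeZero (p ^ k) := ⟨hpos.ne'⟩
  set f : ℤ →+* ZMod (p ^ k) := Int.castRingHom (ZMod (p ^ k)) with hf
  set a : ι → ℤ := fun i => ((ā i).val : ℤ) with ha
  have hcast : (fun i => f (a i)) = ā := by
    funext i
    simp [hf, ha]
  have hfix : ∀ σ ∈ H, σ • D.emb (p ^ k) a = D.emb (p ^ k) a := by
    intro σ hσ
    obtain ⟨A, hA⟩ := h23ea_exists_rel D hpos σ
    have h1 := hā σ hσ
    rw [hSy k σ A hA] at h1
    have h2 : (A.map f).mulVec (fun i => f (a i)) = fun i => f (a i) := by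
      rw [hcast]
      exact h1
    rw [h6tp5_map_mulVec] at h2
    have h3 : D.emb (p ^ k) (A.mulVec a - a) = 0 := by
      apply h6tp5_emb_eq_zero D
      intro i
      have := congrFun h2 i
      simp only [hf, Int.coe_castRingHom] at this
      rw [Pi.sub_apply, Int.cast_sub, this, sub_self]
    rw [map_sub, sub_eq_zero] at h3
    rw [hA a, h3]
  have h4 := h k a hfix
  have r2 : ∀ t, ((TJ t).toIntLinearMap, Tmat t) ∈ H20TP.h20tpS1 (D.emb (p ^ k)) :=
    fun t => (H20TP.h20tp_mem_S1 _ _).mpr (fun a => (hT _ hpos t a).symm)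
  have r4 := (H20TP.h20tp_mem_S1 _ _).mp
    (H20TP.h20tp_lift_mem (H20TP.h20tpS1 (D.emb (p ^ k))) (fun t => (TJ t).toIntLinearMap)
      Tmat r2 P)
  rw [r4 a, ← map_nsmul] at h4
  have h5 := h6tp5_cast_eq_zero D hpos _ h4
  -- the matrix over `ZMod (p ^ k)`
  have h6 : C • FreeAlgebra.lift ℤ (fun t => (Tmat t).map (Int.cast : ℤ → ZMod (p ^ k))) P =
      (C • FreeAlgebra.lift ℤ Tmat P).map f := by
    have e1 : (C • FreeAlgebra.lift ℤ Tmat P).map f =
        f.mapMatrix (C • FreeAlgebra.lift ℤ Tmat P) := rfl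
    rw [e1, map_nsmul, H20TP.h20tp_map_lift]
    rfl
  rw [h6, ← hcast, h6tp5_map_mulVec]
  funext i
  have := h5 i
  rw [Pi.zero_apply, Matrix.smul_mulVec]
  simpa [hf] using this

end Emb

section Eigen

open H23T

/-- **The abstract Tate eigenlattice with polynomial relations for words and invariants** (copy
of `H20TP.h20tp_eigenlattice` with a fifth clause). -/
theorem h6tp5_eigenlattice (p : ℕ) [Fact p.Prime] (G : Type) [Group G]
    (ι : Type) [Fintype ι] [DecidableEq ι]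
    (𝒪 : Type) [CommRing 𝒪] [IsDomain 𝒪] [IsDiscreteValuationRing 𝒪]
    (φ : ℤ_[p] →+* 𝒪) (hp : (p : 𝒪) ∈ IsLocalRing.maximalIdeal 𝒪) (hp0 : (p : 𝒪) ≠ 0)
    (Sy : h23tSystem p G ι) (τ : Type) (T : τ → Matrix ι ι ℤ) (c : τ → 𝒪)
    (hcomm : ∀ k g t, Sy.R k g * (T t).map (Int.cast : ℤ → ZMod (p ^ k)) =
      (T t).map (Int.cast : ℤ → ZMod (p ^ k)) * Sy.R k g)
    (heig : ∃ v : ι → 𝒪, v ≠ 0 ∧ ∀ t, ((T t).map (Int.cast : ℤ → 𝒪)).mulVec v = c t • v) :
    ∃ (M : Type) (_ : AddCommGroup M) (_ : Module 𝒪 M) (_ : Module.Free 𝒪 M)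
      (_ : Module.Finite 𝒪 M) (_ : Nontrivial M) (ρ : G →* Module.End 𝒪 M),
      (∀ (g : G) (n : ℕ), Sy.R n g = 1 →
        ∀ v : M, ρ g v - v ∈ (IsLocalRing.maximalIdeal 𝒪 ^ n) • (⊤ : Submodule 𝒪 M)) ∧
      (∀ g : G, (∀ k, Sy.R k g = 1) → ρ g = 1) ∧
      (∀ (g : G) (t : τ) (ℓ : ℤ),
        (∀ k, Sy.R k g * Sy.R k g - (T t).map (Int.cast : ℤ → ZMod (p ^ k)) * Sy.R k g +
          (ℓ : ZMod (p ^ k)) • (1 : Matrix ι ι (ZMod (p ^ k))) = 0) →
        ρ g * ρ g - c t • ρ g + (ℓ : 𝒪) • (1 : Module.End 𝒪 M) = 0) ∧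
      (∀ (g : G) (P : FreeAlgebra ℤ τ) (F : ℤ[X]),
        (∀ k, aeval (Sy.R k g) F *
          FreeAlgebra.lift ℤ (fun t => (T t).map (Int.cast : ℤ → ZMod (p ^ k))) P = 0) →
        FreeAlgebra.lift ℤ c P • aeval (ρ g) F = 0) ∧
      (∀ (H : Set G) (P : FreeAlgebra ℤ τ) (C : ℕ),
        (∀ (k : ℕ) (a : ι → ZMod (p ^ k)), (∀ g ∈ H, (Sy.R k g).mulVec a = a) →
          (C • FreeAlgebra.lift ℤ (fun t => (T t).map (Int.cast : ℤ → ZMod (p ^ k))) P).mulVec a
            = 0) →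
        ∀ v : M, (∀ g ∈ H, ρ g v = v) → (C : 𝒪) • (FreeAlgebra.lift ℤ c P • v) = 0) := by
  obtain ⟨ρp, hρp⟩ := h23t_exists_padic Sy
  -- the integral Hecke matrices over `ℤ_[p]` and over `𝒪`
  set Tp : τ → Matrix ι ι ℤ_[p] := fun t => (T t).map (Int.cast : ℤ → ℤ_[p]) with hTp
  set TO : τ → Matrix ι ι 𝒪 := fun t => (T t).map (Int.cast : ℤ → 𝒪) with hTO
  have hTpO : ∀ t, (Tp t).map φ = TO t := fun t => h23t_intMat_map φ (T t)
  -- the representation over `𝒪`
  set ρO : G →* Matrix ι ι 𝒪 := (φ.mapMatrix : Matrix ι ι ℤ_[p] →+* Matrix ι ι 𝒪).toMonoidHom.comp ρp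
    with hρO
  have hρO_apply : ∀ g, ρO g = (ρp g).map φ := fun g => rfl
  -- commutation
  have hcommp : ∀ g t, ρp g * Tp t = Tp t * ρp g := by
    intro g t
    apply h23t_matrix_ext
    intro k
    rw [Matrix.map_mul, Matrix.map_mul, hρp, h23t_intMat_toZModPow, hcomm]
  have hcommO : ∀ g t, ρO g * TO t = TO t * ρO g := by
    intro g t
    rw [hρO_apply, ← hTpO, ← Matrix.map_mul, ← Matrix.map_mul, hcommp]
  -- the eigenlattice
  set M : Submodule 𝒪 (ι → 𝒪) := h23tEigen TO c with hM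
  have hstab : ∀ g, ∀ v ∈ M, (Matrix.mulVecLin (ρO g)) v ∈ M := by
    intro g v hv
    rw [Matrix.mulVecLin_apply]
    exact h23t_eigen_stable (fun t => hcommO g t) hv
  set ρ : G →* Module.End 𝒪 M :=
    { toFun := fun g => (Matrix.mulVecLin (ρO g)).restrict (hstab g)
      map_one' := by
        ext v i
        simp
      map_mul' := by
        intro g h
        ext v i
        simp [Matrix.mulVec_mulVec] } with hρ
  have hρ_apply : ∀ g (v : M), ((ρ g v : M) : ι → 𝒪) = (ρO g).mulVec (v : ι → 𝒪) := by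
    intro g v
    rfl
  obtain ⟨v₀, hv₀, hv₀e⟩ := heig
  have hnt : Nontrivial M := by
    refine ⟨⟨⟨v₀, hv₀e⟩, 0, ?_⟩⟩
    intro h
    exact hv₀ (congrArg Subtype.val h)
  refine ⟨M, inferInstance, inferInstance, inferInstance, inferInstance, hnt, ρ, ?_, ?_, ?_, ?_, ?_⟩
  · -- adic continuity
    intro g n hg v
    have h1 : (ρp g).map (PadicInt.toZModPow n) = 1 := by rw [hρp, hg]
    obtain ⟨Y, hY⟩ := h23t_exists_of_map_eq_one h1
    set w : ι → 𝒪 := (Y.map φ).mulVec (v : ι → 𝒪) with hw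
    have h2 : (ρO g).mulVec (v : ι → 𝒪) - (v : ι → 𝒪) = ((p : 𝒪) ^ n) • w := by
      rw [hρO_apply, hY]
      have h3 : (1 + (p : ℤ_[p]) ^ n • Y).map φ = 1 + ((p : 𝒪) ^ n) • Y.map φ := by
        ext i j
        by_cases hij : i = j
        · subst hij; simp
        · simp [Matrix.one_apply_ne hij]
      rw [h3, Matrix.add_mulVec, Matrix.one_mulVec, Matrix.smul_mulVec, add_sub_cancel_left]
    have hpn : ((p : 𝒪) ^ n) ≠ 0 := pow_ne_zero n hp0
    have hwM : w ∈ M := by
      apply h23t_eigen_saturated hpn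
      rw [← h2]
      exact M.sub_mem (hstab g v v.2) v.2
    have h4 : ρ g v - v = ((p : 𝒪) ^ n) • (⟨w, hwM⟩ : M) := by
      apply Subtype.ext
      rw [Submodule.coe_sub, hρ_apply, h2]
      rfl
    rw [h4]
    exact Submodule.smul_mem_smul (Ideal.pow_mem_pow hp n) Submodule.mem_top
  · -- triviality
    intro g hg
    have h1 : ρp g = 1 := by
      apply h23t_matrix_ext
      intro k
      rw [hρp, hg, Matrix.map_one _ (map_zero _) (map_one _)]
    ext v i
    rw [hρ_apply, hρO_apply, h1]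
    simp
  · -- quadratic relations
    intro g t ℓ hrel
    have h1 : ρp g * ρp g - Tp t * ρp g + ℓ • (1 : Matrix ι ι ℤ_[p]) = 0 := by
      apply h23t_matrix_ext
      intro k
      have hk := hrel k
      rw [Int.cast_smul_eq_zsmul] at hk
      simp only [← RingHom.mapMatrix_apply, map_add, map_sub, map_mul, map_zsmul, map_one,
        map_zero]
      simp only [RingHom.mapMatrix_apply, hρp]
      have hT : (Tp t).map (PadicInt.toZModPow k) = (T t).map (Int.cast : ℤ → ZMod (p ^ k)) :=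
        h23t_intMat_toZModPow (T t) k
      rw [hT]
      exact hk
    have h5 : ρO g * ρO g - TO t * ρO g + ℓ • (1 : Matrix ι ι 𝒪) = 0 := by
      have h6 := congrArg (φ.mapMatrix : Matrix ι ι ℤ_[p] →+* Matrix ι ι 𝒪) h1
      simp only [map_add, map_sub, map_mul, map_zsmul, map_one, map_zero] at h6
      simp only [RingHom.mapMatrix_apply, hTpO] at h6
      rw [hρO_apply]
      exact h6
    ext v i
    have h8 := congrFun (congrArg (fun A : Matrix ι ι 𝒪 => A.mulVec (v : ι → 𝒪)) h5) i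
    simp only [Matrix.add_mulVec, Matrix.sub_mulVec, Matrix.zero_mulVec, Matrix.smul_mulVec,
      Matrix.one_mulVec, ← Matrix.mulVec_mulVec] at h8
    have h9 : (TO t).mulVec ((ρO g).mulVec (v : ι → 𝒪)) = c t • (ρO g).mulVec (v : ι → 𝒪) :=
      (hstab g v v.2) t
    rw [h9] at h8
    rw [Int.cast_smul_eq_zsmul]
    simpa [hρ_apply] using h8
  · -- polynomial relations for words
    intro g P F hrel
    -- over `ℤ_[p]`
    have h1 : aeval (ρp g) F * FreeAlgebra.lift ℤ Tp P = 0 := by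
      apply h23t_matrix_ext
      intro k
      have hk := hrel k
      have e1 : (aeval (ρp g) F * FreeAlgebra.lift ℤ Tp P).map (PadicInt.toZModPow k) =
          (PadicInt.toZModPow (p := p) k).mapMatrix (aeval (ρp g) F * FreeAlgebra.lift ℤ Tp P) :=
        rfl
      rw [e1, map_mul, H20TP.h20tp_map_aeval, H20TP.h20tp_map_lift]
      have e2 : (PadicInt.toZModPow (p := p) k).mapMatrix (ρp g) = Sy.R k g := hρp k g
      have e3 : (fun t => (PadicInt.toZModPow (p := p) k).mapMatrix (Tp t)) =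
          fun t => (T t).map (Int.cast : ℤ → ZMod (p ^ k)) := by
        funext t
        exact h23t_intMat_toZModPow (T t) k
      rw [e2, e3, hk]
      exact (Matrix.map_zero _ (map_zero _)).symm
    -- over `𝒪`
    have h2 : aeval (ρO g) F * FreeAlgebra.lift ℤ TO P = 0 := by
      have h3 := congrArg (φ.mapMatrix : Matrix ι ι ℤ_[p] →+* Matrix ι ι 𝒪) h1
      rw [map_mul, H20TP.h20tp_map_aeval, H20TP.h20tp_map_lift, map_zero] at h3
      have e3 : (fun t => φ.mapMatrix (Tp t)) = TO := by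
        funext t
        exact hTpO t
      rw [e3] at h3
      exact h3
    -- the word acts on `M` through `c`
    have h4 : (FreeAlgebra.lift ℤ TO P, FreeAlgebra.lift ℤ c P) ∈ H20TP.h20tpS3 M :=
      H20TP.h20tp_lift_mem (H20TP.h20tpS3 M) TO c
        (fun t => (H20TP.h20tp_mem_S3 M (TO t, c t)).mpr (fun v hv => hv t)) P
    -- the polynomial in `ρ g` is the restriction of the polynomial in `ρO g`
    have h5 : (aeval (ρ g) F, aeval (ρO g) F) ∈ H20TP.h20tpS4 M :=
      H20TP.h20tp_aeval_mem (H20TP.h20tpS4 M) (x₁ := ρ g) (x₂ := ρO g)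
        ((H20TP.h20tp_mem_S4 M (ρ g, ρO g)).mpr (fun v => hρ_apply g v)) F
    ext v i
    have h6 : (((FreeAlgebra.lift ℤ c P • aeval (ρ g) F) v : M) : ι → 𝒪) = 0 := by
      rw [LinearMap.smul_apply, Submodule.coe_smul, (H20TP.h20tp_mem_S4 M _).mp h5 v,
        ← Matrix.mulVec_smul, ← (H20TP.h20tp_mem_S3 M _).mp h4 (v : ι → 𝒪) v.2,
        Matrix.mulVec_mulVec, h2, Matrix.zero_mulVec]
    exact congrFun h6 i
  · -- invariants
    intro H P C hrel v hv
    apply Subtype.ext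
    have h := h6tp5_inv_core p G ι 𝒪 φ hp0 Sy ρp hρp τ T c H P C hrel (v : ι → 𝒪) v.2
      (fun g hg => by rw [← hρO_apply, ← hρ_apply, hv g hg])
    rw [Submodule.coe_smul, Submodule.coe_smul, Submodule.coe_zero]
    exact h

end Eigen

section Main

open H23EA H23T

variable {G : Type} [Group G] {J : Type} [AddCommGroup J] [DistribMulAction G J]
variable {ι : Type} [Fintype ι] [DecidableEq ι]

/-- **TP5**. -/
theorem h6tp5_main : H19S36.TP5Statement := by
  intro G _ J _ _ ι _ _ D p _ 𝒪 _ _ _ _ hp hp0 τ Tmat TJ c hT hcommJ heig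
  have hpos : ∀ k, 0 < p ^ k := fun k => pow_pos (Fact.out : p.Prime).pos k
  obtain ⟨Sy, hSy⟩ := h23ea_exists_system D p
  have hone : ∀ (k : ℕ) (σ : G), (∀ a, σ • D.emb (p ^ k) a = D.emb (p ^ k) a) → Sy.R k σ = 1 := by
    intro k σ h
    have h1 : h23eaRel D (p ^ k) σ 1 := fun a => by rw [h a, Matrix.one_mulVec]
    rw [hSy k σ 1 h1, h23ea_intMat_map_one]
  have hcomm : ∀ k g t, Sy.R k g * (Tmat t).map (Int.cast : ℤ → ZMod (p ^ k)) =
      (Tmat t).map (Int.cast : ℤ → ZMod (p ^ k)) * Sy.R k g := by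
    intro k g t
    obtain ⟨A, hA⟩ := h23ea_exists_rel D (hpos k) g
    rw [hSy k g A hA, ← h23ea_intMat_map_mul, ← h23ea_intMat_map_mul, ← sub_eq_zero]
    have h1 : (A * Tmat t - Tmat t * A).map (Int.cast : ℤ → ZMod (p ^ k)) = 0 := by
      apply h23ea_map_eq_zero D (hpos k)
      intro a
      rw [Matrix.sub_mulVec, map_sub, ← Matrix.mulVec_mulVec, ← Matrix.mulVec_mulVec, ← hA,
        hT _ (hpos k), hT _ (hpos k), ← hA, hcommJ, sub_self]
    rw [← h1]
    ext i j
    simp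
  obtain ⟨M, i1, i2, i3, i4, i5, ρ, h1, h2, h3, h4, h5⟩ :=
    h6tp5_eigenlattice p G ι 𝒪 (H27CYC.h27cyc_padicHom p 𝒪 (IsLocalRing.maximalIdeal 𝒪) hp)
      hp hp0 Sy τ Tmat c hcomm heig
  refine ⟨M, i1, i2, i3, i4, i5, ρ, ?_, ?_, ?_, ?_, ?_⟩
  · intro σ n h v
    exact h1 σ n (hone n σ h) v
  · intro σ h
    exact h2 σ fun k => hone k σ (h k)
  · intro σ t ℓ h
    apply h3 σ t ℓ
    intro k
    obtain ⟨A, hA⟩ := h23ea_exists_rel D (hpos k) σ
    rw [hSy k σ A hA]
    have h4 : (A * A - Tmat t * A + ℓ • (1 : Matrix ι ι ℤ)).map (Int.cast : ℤ → ZMod (p ^ k))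
        = 0 := by
      apply h23ea_map_eq_zero D (hpos k)
      intro a
      have h5 := h k a
      rw [hA a, hA] at h5
      rw [Matrix.add_mulVec, Matrix.sub_mulVec, map_add, map_sub, ← Matrix.mulVec_mulVec,
        ← Matrix.mulVec_mulVec, Matrix.smul_mulVec, Matrix.one_mulVec, map_zsmul,
        hT _ (hpos k)]
      exact h5
    have h6 : (Int.castRingHom (ZMod (p ^ k))).mapMatrix
        (A * A - Tmat t * A + ℓ • (1 : Matrix ι ι ℤ)) = 0 := h4
    simp only [map_add, map_sub, map_mul, map_zsmul, map_one] at h6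
    rw [Int.cast_smul_eq_zsmul]
    exact h6
  · intro σ P F h
    apply h4 σ P F
    intro k
    obtain ⟨A, hA⟩ := h23ea_exists_rel D (hpos k) σ
    rw [hSy k σ A hA]
    -- the intertwining relations on `J`
    have r1 : ((DistribSMul.toAddMonoidHom J σ).toIntLinearMap, A) ∈ H20TP.h20tpS1 (D.emb (p ^ k)) :=
      (H20TP.h20tp_mem_S1 _ _).mpr (fun a => hA a)
    have r2 : ∀ t, ((TJ t).toIntLinearMap, Tmat t) ∈ H20TP.h20tpS1 (D.emb (p ^ k)) :=
      fun t => (H20TP.h20tp_mem_S1 _ _).mpr (fun a => (hT _ (hpos k) t a).symm)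
    have r3 := (H20TP.h20tp_mem_S1 _ _).mp (H20TP.h20tp_aeval_mem (H20TP.h20tpS1 (D.emb (p ^ k))) r1 F)
    have r4 := (H20TP.h20tp_mem_S1 _ _).mp
      (H20TP.h20tp_lift_mem (H20TP.h20tpS1 (D.emb (p ^ k))) (fun t => (TJ t).toIntLinearMap) Tmat r2 P)
    have h5 : (aeval A F * FreeAlgebra.lift ℤ Tmat P).map (Int.cast : ℤ → ZMod (p ^ k)) = 0 := by
      apply h23ea_map_eq_zero D (hpos k)
      intro a
      rw [← Matrix.mulVec_mulVec, ← r3, ← r4]
      exact h k a
    have h6 : (Int.castRingHom (ZMod (p ^ k))).mapMatrix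
        (aeval A F * FreeAlgebra.lift ℤ Tmat P) = 0 := h5
    rw [map_mul, H20TP.h20tp_map_aeval, H20TP.h20tp_map_lift] at h6
    exact h6
  · intro H P C h
    apply h5 H P C
    intro k ā hā
    exact h6tp5_rel_of_emb D p Sy hSy τ Tmat TJ hT H P C h k ā hā

end Main

end H6TP5

end
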