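import Mathlib
import Fermat.Agent.S36.Asm_helper19
import Fermat.Agent.S36.TP5_helper6
import Fermat.Agent.S35.KillFinal_helper19
import Fermat.Agent.S35.DegFinal_helper6
import Fermat.Agent.S35.NewOpFinal_helper16
import Fermat.Agent.W3G.KUMGalFinal_helper8

/-!
# helper19 — S36 (Carayol at `q² ‖ M`) from the ONE open geometric slice `H16S36.InjStatement`

`h19s36_of_inj : H16S36.InjStatement →` (the conclusion of `S36`), all formal inputs plugged in:
`H6TP5.h6tp5_main` (TP5), `H16NO.h16no_newOpStatement` (NEWOP), `H16S36.inv_of_inj` with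
`H19BK.h19bk_killStatement` (BF-K) and `H6BD.h6bd_degTorsPrime` (BF-D), `H8KUM.h8k_kumGal`.

`Fermat/Agent/S36.lean` is then
`theorem result … := H19S36.h19s36_of_inj <proof of INJ> hg lam S O' hlamO' chig hchig iota hlamS hMS`.
-/

set_option autoImplicit false
set_option linter.style.longLine false

open Polynomial

noncomputable section

namespace H19S36

/-- **S36** from (INJ). -/
theorem h19s36_of_inj (hInj : H16S36.InjStatement)
    {M : ℕ} [NeZero M] {g : CuspForm (CongruenceSubgroup.Gamma0 M) 2} (hg : g.IsNewform)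
    (lam : ℕ) [Fact lam.Prime]
    (S : Finset ℕ)
    (O' : Type) [CommRing O'] [IsDomain O'] [IsDiscreteValuationRing O']
    [IsAdicComplete (IsLocalRing.maximalIdeal O') O'] [Finite (IsLocalRing.ResidueField O')]
    [CharZero O'] (hlamO' : (lam : O') ∈ IsLocalRing.maximalIdeal O')
    (chig : CuspForm.heckeAlgebra M 2 (↑S : Set ℕ) →+* ℂ)
    (hchig : ∀ (ℓ : ℕ) (hℓ : ℓ.Prime) (hℓM : ¬ ℓ ∣ M) (hℓS : ℓ ∉ (↑S : Set ℕ)),
      chig (CuspForm.heckeAlgebra.T hℓ hℓM hℓS) = ModularFormClass.qCoeff g ℓ)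
    (iota : chig.range →+* O')
    (hlamS : lam ∈ S) (hMS : ∀ q : ℕ, q.Prime → q ∣ M → q ∈ S) :
    ∃ (O'' : Type) (_ : CommRing O'') (_ : IsDomain O'') (_ : IsDiscreteValuationRing O'')
      (_ : IsAdicComplete (IsLocalRing.maximalIdeal O'') O'') (_ : Finite (IsLocalRing.ResidueField O''))
      (_ : CharZero O'') (_ : Algebra O' O'') (_ : Module.Finite O' O'') (_ : IsLocalHom (algebraMap O' O'')),
      Function.Injective (algebraMap O' O'') ∧
      ∃ ρ : GaloisRepAdic O'',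
        (∀ (ℓ : ℕ) (hℓ : ℓ.Prime) (hℓM : ¬ ℓ ∣ M) (hℓS : ℓ ∉ (↑S : Set ℕ)),
          ∀ A : ValuationSubring (AlgebraicClosure ℚ), A.LiesOverPrime ℓ →
            ∀ σ : AlgebraicClosure ℚ ≃ₐ[ℚ] AlgebraicClosure ℚ, A.IsFrobeniusAt σ ℓ →
              LinearMap.charpoly (ρ.ρ σ) =
                X ^ 2 - C (algebraMap O' O'' ((iota.comp chig.rangeRestrict) (CuspForm.heckeAlgebra.T hℓ hℓM hℓS))) * X
                  + C ((ℓ : O''))) ∧
        (∀ q : ℕ, q.Prime → q ≠ lam → M.factorization q = 2 → ¬ ρ.IsUnipotentOnInertiaAt q) :=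
  h19s36_of H6TP5.h6tp5_main H16NO.h16no_newOpStatement
    (H16S36.inv_of_inj H19BK.h19bk_killStatement H6BD.h6bd_degTorsPrime hInj)
    (fun N _ => H8KUM.h8k_kumGal N) hg lam S O' hlamO' chig hchig iota hlamS hMS

end H19S36

end
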