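import Fermat.Statements.S36
import Fermat.Agent.S36.OfInj_helper19
import Fermat.Agent.S36.ChainD3_helper29
import Fermat.Agent.S36.ConcFinal_helper4
import Fermat.Agent.S36.LocFinal_helper19

/-!
# helper19 — S36 (Carayol), item 86: the WHOLE chain, up to helper1's leaf (R1)

`H19LA.s36_of_r1 : H1R1.R1NodeStatement → (the statement of S36)`.
-/

set_option autoImplicit false
open Polynomial
open CuspForm CuspForm.IsNewform

namespace H19LA

/-- (INJ) from helper1's leaf (R1). -/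
theorem injStatement_of_r1 (hR1 : H1R1.R1NodeStatement) : H16S36.InjStatement :=
  H29D3.injStatement_of_triple
    (H4S36.tripleUStatement_of_mloc (H19LA.concMLocStatement_of hR1))

/-- **S36 from helper1's leaf (R1)**. -/
theorem s36_of_r1 (hR1 : H1R1.R1NodeStatement)
    {M : ℕ} [NeZero M] {g : CuspForm (CongruenceSubgroup.Gamma0 M) 2} (hg : g.IsNewform)
    (lam : ℕ) [Fact lam.Prime]
    (S : Finset ℕ)
    (O' : Type) [CommRing O'] [IsDomain O'] [IsDiscreteValuationRing O']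
    [IsAdicComplete (IsLocalRing.maximalIdeal O') O'] [Finite (IsLocalRing.ResidueField O')]
    [CharZero O'] (hlamO' : (lam : O') ∈ IsLocalRing.maximalIdeal O')
    (chig : CuspForm.heckeAlgebra M 2 (↑S : Set ℕ) →+* ℂ)
    (hchig : ∀ (ℓ : ℕ) (hℓ : ℓ.Prime) (hℓM : ¬ ℓ ∣ M) (hℓS : ℓ ∉ (↑S : Set ℕ)),
      chig (CuspForm.heckeAlgebra.T hℓ hℓM hℓS) = ModularFormClass.qCoeff g ℓ)
    (iota : chig.range →+* O')
    (hlamS : lam ∈ S) (hMS : ∀ q : ℕ, q.Prime → q ∣ M → q ∈ S) :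
    ∃ (O'' : Type) (_ : CommRing O'') (_ : IsDomain O'') (_ : IsDiscreteValuationRing O'')
      (_ : IsAdicComplete (IsLocalRing.maximalIdeal O'') O'') (_ : Finite (IsLocalRing.ResidueField O''))
      (_ : CharZero O'') (_ : Algebra O' O'') (_ : Module.Finite O' O'') (_ : IsLocalHom (algebraMap O' O'')),
      Function.Injective (algebraMap O' O'') ∧
      ∃ ρ : GaloisRepAdic O'',
        (∀ (ℓ : ℕ) (hℓ : ℓ.Prime) (hℓM : ¬ ℓ ∣ M) (hℓS : ℓ ∉ (↑S : Set ℕ)),
          ∀ A : ValuationSubring (AlgebraicClosure ℚ), A.LiesOverPrime ℓ →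
            ∀ σ : AlgebraicClosure ℚ ≃ₐ[ℚ] AlgebraicClosure ℚ, A.IsFrobeniusAt σ ℓ →
              LinearMap.charpoly (ρ.ρ σ) =
                X ^ 2 - C (algebraMap O' O'' ((iota.comp chig.rangeRestrict) (CuspForm.heckeAlgebra.T hℓ hℓM hℓS))) * X
                  + C ((ℓ : O''))) ∧
        (∀ q : ℕ, q.Prime → q ≠ lam → M.factorization q = 2 → ¬ ρ.IsUnipotentOnInertiaAt q) :=
  H19S36.h19s36_of_inj (injStatement_of_r1 hR1) hg lam S O' hlamO' chig hchig iota hlamS hMS

end H19LA
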