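import Fermat.Agent.S36.ALQ_helper12
import Fermat.Agent.S34.ALqK_helper12

/-!
# Item 86 (S36), slice (W2): the Atkin–Lehner involution `W_Q` over a subfield `K₁ ⊆ ℚ̄`
(helper12)

`K₁ : IntermediateField ℚ ℚ̄` (no finiteness or normality needed), level `L = N Q`
(`hL : L = N * Q`), `N`, `Q` coprime, `F₁ = FK K₁ L = K₁ · F_L ⊆ K₁((q))`.

* `H12WQ.wLKHom K₁ L N Q hL hNQ : F₁ →+* F₁`, `H12WQ.wLK … : F₁ ≃+* F₁` with
  `phiK (wLKHom x) = wLBarHom (phiK x)` (`phiK_wLKHom`);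
* `wLKHom_invol`, `wLKHom_const`, `wLKHom_galois`;
* degeneracy (level `N₁ = N Q` inside level `N₁ ℓ`, `N` coprime to `Q ℓ`):
  `coe_wLKHom_of_level` : `W_{Qℓ} x = (W_Q x)(q^ℓ)` for `x` of level `N₁`,
  `coe_wLKHom_qExpand`  : `W_{Qℓ} (x(q^ℓ)) = W_Q x` for `x` of level `N₁`;
* `wLKHom_eq_wqKHom` : at level `N * ℓ`, `ℓ` prime, `W_ℓ` is `H12AL.wqKHom`.

For S36: `N = M`, `Q = q`, `ℓ = q`, `N₁ = M * q`, level `M * q * q`.
-/

set_option autoImplicit false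
set_option linter.style.longLine false
set_option linter.unusedSectionVars false
set_option linter.unusedVariables false
set_option linter.style.haveILetI false

noncomputable section

open ModularCurve RH24 H29W H12AL

namespace H12WQ

variable (K₁ : IntermediateField ℚ Kbar)

section Main

variable (L N Q : ℕ) [NeZero L]

/-- the coefficients of `W (φ x)` lie in `K₁` -/
theorem coeff_wLBarHom_phiK_mem (hL : L = N * Q) (hNQ : Nat.Coprime N Q)
    (x : ↥(laurentBaseChange ↥K₁ (modularFunctionFieldFull L))) (n : ℤ) :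
    ((wLBarHom L N Q hL hNQ (phiK K₁ L x) : modularFunctionFieldBar L) :
      LaurentSeries Kbar).coeff n ∈ K₁ := by
  apply mem_of_fixed
  intro σ hσ
  have hfix : arithmeticRingAut (modularFunctionFieldFull L) σ (phiK K₁ L x) =
      phiK K₁ L x := by
    apply Subtype.ext
    rw [coe_arithmeticRingAut_apply, coe_phiK, coeffMap_coeffMap]
    apply coeffMap_congr
    ext c
    exact hσ c
  have h := wLBarHom_galois L N Q hL hNQ σ (phiK K₁ L x)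
  rw [hfix] at h
  have h2 := congrArg (fun z : modularFunctionFieldBar L =>
    (z : LaurentSeries Kbar).coeff n) h
  simp only [coe_arithmeticRingAut_apply, coeffMap_coeff] at h2
  exact h2.symm

/-- `W` preserves the image of `K₁ · F_L` -/
theorem wLBarHom_phiK_mem_range (hL : L = N * Q) (hNQ : Nat.Coprime N Q)
    (x : ↥(laurentBaseChange ↥K₁ (modularFunctionFieldFull L))) :
    wLBarHom L N Q hL hNQ (phiK K₁ L x) ∈ (phiK K₁ L).range := by
  obtain ⟨y, hy⟩ := exists_coeffMap_eq K₁ _ (coeff_wLBarHom_phiK_mem K₁ L N Q hL hNQ x)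
  have hmem : y ∈ laurentBaseChange ↥K₁ (modularFunctionFieldFull L) := by
    apply H1RIG.mem_lbc_of_coeffMap_mem (K := Kbar)
    rw [hy]
    exact (wLBarHom L N Q hL hNQ (phiK K₁ L x)).2
  exact ⟨⟨y, hmem⟩, Subtype.ext hy⟩

/-- **the Atkin–Lehner involution** `W_Q` of `K₁ · F_L`, as a ring homomorphism -/
def wLKHom (hL : L = N * Q) (hNQ : Nat.Coprime N Q) :
    ↥(laurentBaseChange ↥K₁ (modularFunctionFieldFull L)) →+*
      ↥(laurentBaseChange ↥K₁ (modularFunctionFieldFull L)) :=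
  (phiKEquiv K₁ L).symm.toRingHom.comp
    (((wLBarHom L N Q hL hNQ).comp (phiK K₁ L)).codRestrict (phiK K₁ L).range
      (wLBarHom_phiK_mem_range K₁ L N Q hL hNQ))

/-- characterisation: `φ (W x) = W̄ (φ x)` -/
theorem phiK_wLKHom (hL : L = N * Q) (hNQ : Nat.Coprime N Q)
    (x : ↥(laurentBaseChange ↥K₁ (modularFunctionFieldFull L))) :
    phiK K₁ L (wLKHom K₁ L N Q hL hNQ x) = wLBarHom L N Q hL hNQ (phiK K₁ L x) := by
  have h := (phiKEquiv K₁ L).apply_symm_apply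
    (((wLBarHom L N Q hL hNQ).comp (phiK K₁ L)).codRestrict (phiK K₁ L).range
      (wLBarHom_phiK_mem_range K₁ L N Q hL hNQ) x)
  exact congrArg Subtype.val h

/-- coefficient form of the characterisation -/
theorem coeffMap_wLKHom (hL : L = N * Q) (hNQ : Nat.Coprime N Q)
    (x : ↥(laurentBaseChange ↥K₁ (modularFunctionFieldFull L))) :
    coeffMap (algebraMap ↥K₁ Kbar) ((wLKHom K₁ L N Q hL hNQ x : _) : LaurentSeries ↥K₁) =
      ((wLBarHom L N Q hL hNQ (phiK K₁ L x) : modularFunctionFieldBar L) :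
        LaurentSeries Kbar) := by
  rw [← phiK_wLKHom, coe_phiK]

theorem wLKHom_invol (hL : L = N * Q) (hNQ : Nat.Coprime N Q)
    (x : ↥(laurentBaseChange ↥K₁ (modularFunctionFieldFull L))) :
    wLKHom K₁ L N Q hL hNQ (wLKHom K₁ L N Q hL hNQ x) = x := by
  apply phiK_injective
  rw [phiK_wLKHom, phiK_wLKHom, wLBarHom_invol]

theorem wLKHom_comp_self (hL : L = N * Q) (hNQ : Nat.Coprime N Q) :
    (wLKHom K₁ L N Q hL hNQ).comp (wLKHom K₁ L N Q hL hNQ) = RingHom.id _ :=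
  RingHom.ext (wLKHom_invol K₁ L N Q hL hNQ)

/-- **the Atkin–Lehner involution** `W_Q` of `K₁ · F_L`, as a ring automorphism -/
def wLK (hL : L = N * Q) (hNQ : Nat.Coprime N Q) :
    ↥(laurentBaseChange ↥K₁ (modularFunctionFieldFull L)) ≃+*
      ↥(laurentBaseChange ↥K₁ (modularFunctionFieldFull L)) :=
  RingEquiv.ofRingHom (wLKHom K₁ L N Q hL hNQ) (wLKHom K₁ L N Q hL hNQ)
    (wLKHom_comp_self K₁ L N Q hL hNQ) (wLKHom_comp_self K₁ L N Q hL hNQ)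

@[simp] theorem wLK_apply (hL : L = N * Q) (hNQ : Nat.Coprime N Q)
    (x : ↥(laurentBaseChange ↥K₁ (modularFunctionFieldFull L))) :
    wLK K₁ L N Q hL hNQ x = wLKHom K₁ L N Q hL hNQ x := rfl

@[simp] theorem wLK_symm_apply (hL : L = N * Q) (hNQ : Nat.Coprime N Q)
    (x : ↥(laurentBaseChange ↥K₁ (modularFunctionFieldFull L))) :
    (wLK K₁ L N Q hL hNQ).symm x = wLKHom K₁ L N Q hL hNQ x := rfl

/-- `W c = c` for constants `c ∈ K₁` -/
theorem wLKHom_const (hL : L = N * Q) (hNQ : Nat.Coprime N Q) (c : ↥K₁) :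
    wLKHom K₁ L N Q hL hNQ (algebraMap ↥K₁ _ c) = algebraMap ↥K₁ _ c := by
  apply phiK_injective
  rw [phiK_wLKHom]
  have h1 : phiK K₁ L (algebraMap ↥K₁ _ c) =
      algebraMap Kbar (modularFunctionFieldBar L) (algebraMap ↥K₁ Kbar c) := by
    apply Subtype.ext
    rw [coe_phiK]
    exact H1S18.coeffMap_algebraMap_hom (algebraMap ↥K₁ Kbar) c
  rw [h1, wLBarHom_const]

/-- **Galois equivariance over `K₁`**: if `σ ∈ G_ℚ` and `σ₁ : K₁ →+* K₁` is its restriction,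
then `W` commutes with the coefficientwise actions. -/
theorem wLKHom_galois (hL : L = N * Q) (hNQ : Nat.Coprime N Q) (σ : Kbar ≃ₐ[ℚ] Kbar)
    (σ₁ : ↥K₁ →+* ↥K₁) (hσ : ∀ c : ↥K₁, ((σ₁ c : ↥K₁) : Kbar) = σ (c : Kbar))
    (x y : ↥(laurentBaseChange ↥K₁ (modularFunctionFieldFull L)))
    (hy : (y : LaurentSeries ↥K₁) = coeffMap σ₁ (x : LaurentSeries ↥K₁)) :
    ((wLKHom K₁ L N Q hL hNQ y : _) : LaurentSeries ↥K₁) =
      coeffMap σ₁ ((wLKHom K₁ L N Q hL hNQ x : _) : LaurentSeries ↥K₁) := by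
  apply coeffMap_algebraMap_injective K₁
  have hcomm : ∀ z : LaurentSeries ↥K₁,
      coeffMap (algebraMap ↥K₁ Kbar) (coeffMap σ₁ z) =
        coeffMap (σ : Kbar →+* Kbar) (coeffMap (algebraMap ↥K₁ Kbar) z) := by
    intro z
    rw [coeffMap_coeffMap, coeffMap_coeffMap]
    apply coeffMap_congr
    ext c
    exact hσ c
  rw [coeffMap_wLKHom, hcomm, coeffMap_wLKHom]
  have h1 : phiK K₁ L y =
      arithmeticRingAut (modularFunctionFieldFull L) σ (phiK K₁ L x) := by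
    apply Subtype.ext
    rw [coe_phiK, hy, hcomm, coe_arithmeticRingAut_apply, coe_phiK]
  rw [h1, wLBarHom_galois, coe_arithmeticRingAut_apply]

end Main

/-! ### degeneracy maps -/

section Degeneracy

variable (N₁ N Q ℓ : ℕ) [NeZero N₁] [NeZero ℓ]

/-- `W_{Qℓ} x = (W_Q x)(q^ℓ)` for `x` of level `N₁ = N Q` (inside the level `N₁ ℓ`). -/
theorem coe_wLKHom_of_level (hN₁ : N₁ = N * Q) (hL : N₁ * ℓ = N * (Q * ℓ))
    (hNQ : Nat.Coprime N (Q * ℓ)) (hNQ1 : Nat.Coprime N Q)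
    (x : ↥(laurentBaseChange ↥K₁ (modularFunctionFieldFull (N₁ * ℓ))))
    (x₁ : ↥(laurentBaseChange ↥K₁ (modularFunctionFieldFull N₁)))
    (hx : (x : LaurentSeries ↥K₁) = (x₁ : LaurentSeries ↥K₁)) :
    ((wLKHom K₁ (N₁ * ℓ) N (Q * ℓ) hL hNQ x : _) : LaurentSeries ↥K₁) =
      qExpand ↥K₁ ℓ ((wLKHom K₁ N₁ N Q hN₁ hNQ1 x₁ : _) : LaurentSeries ↥K₁) := by
  apply coeffMap_algebraMap_injective K₁
  rw [coeffMap_wLKHom, coeffMap_qExpand, coeffMap_wLKHom]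
  have h1 : phiK K₁ (N₁ * ℓ) x = heckeAlphaBar Kbar N₁ ℓ (phiK K₁ N₁ x₁) := by
    apply Subtype.ext
    rw [coe_heckeAlphaBar, coe_phiK, coe_phiK, hx]
  rw [h1, wLBarHom_alpha N₁ N Q ℓ hN₁ hL hNQ hNQ1, coe_heckeBetaBar]

/-- `W_{Qℓ} (x(q^ℓ)) = W_Q x` for `x` of level `N₁ = N Q`. -/
theorem coe_wLKHom_qExpand (hN₁ : N₁ = N * Q) (hL : N₁ * ℓ = N * (Q * ℓ))
    (hNQ : Nat.Coprime N (Q * ℓ)) (hNQ1 : Nat.Coprime N Q)
    (y : ↥(laurentBaseChange ↥K₁ (modularFunctionFieldFull (N₁ * ℓ))))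
    (x₁ : ↥(laurentBaseChange ↥K₁ (modularFunctionFieldFull N₁)))
    (hy : (y : LaurentSeries ↥K₁) = qExpand ↥K₁ ℓ (x₁ : LaurentSeries ↥K₁)) :
    ((wLKHom K₁ (N₁ * ℓ) N (Q * ℓ) hL hNQ y : _) : LaurentSeries ↥K₁) =
      ((wLKHom K₁ N₁ N Q hN₁ hNQ1 x₁ : _) : LaurentSeries ↥K₁) := by
  apply coeffMap_algebraMap_injective K₁
  rw [coeffMap_wLKHom, coeffMap_wLKHom]
  have h1 : phiK K₁ (N₁ * ℓ) y = heckeBetaBar Kbar N₁ ℓ (phiK K₁ N₁ x₁) := by
    apply Subtype.ext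
    rw [coe_heckeBetaBar, coe_phiK, coe_phiK, hy, coeffMap_qExpand]
  rw [h1, wLBarHom_beta N₁ N Q ℓ hN₁ hL hNQ hNQ1, coe_heckeAlphaBar]

end Degeneracy

/-! ### comparison with `H12AL.wqKHom` -/

section Compare

variable (N ℓ : ℕ) [NeZero N] [NeZero ℓ]

/-- at the level `N ℓ`, `ℓ` prime: `W_ℓ` is `H12AL.wqKHom`. -/
theorem wLKHom_eq_wqKHom (hℓ : ℓ.Prime) (hℓN : ¬ ℓ ∣ N) (hNℓ : Nat.Coprime N ℓ) :
    wLKHom K₁ (N * ℓ) N ℓ rfl hNℓ = wqKHom K₁ N ℓ hℓ hℓN := by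
  refine RingHom.ext (fun x => ?_)
  apply phiK_injective
  rw [phiK_wLKHom, phiK_wqKHom, wLBarHom_eq_wqBarHom N ℓ hℓ hℓN hNℓ]

end Compare

end H12WQ

end
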