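import Fermat.Agent.S36.ALQan_helper12
import Fermat.Agent.S34.ALq_helper12

/-!
# Item 86 (S36), slice (W2): the Atkin–Lehner involution `W_Q` of `F̄_L` (helper12)

`L = N Q` (propositionally: `hL : L = N * Q`, so that the level can be written `M * q * q`,
`M * q ^ 2`, … as the user likes), `N`, `Q` coprime (`Q = q²` for S36).

* `H12WQ.swapL L N Q hL : Dv L → Dv L`, `d₁ d₂ ↦ d₁ (Q / d₂)`;
* `H12WQ.wLBarHom L N Q hL hNQ : F̄_L →+* F̄_L`, `H12WQ.wLBar … : F̄_L ≃+* F̄_L`;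
* `wLBarHom_Jgen` : `W (Jgen d) = Jgen (swapL d)`; `wLBarHom_const`; `wLBarHom_invol`;
* `wLBarHom_galois` : `W (σ • x) = σ • W x` for `σ ∈ G_ℚ` (coefficientwise action);
* `wLBarHom_alpha` : `W_{Q ℓ} ∘ α = β ∘ W_Q`, `wLBarHom_beta` : `W_{Q ℓ} ∘ β = α ∘ W_Q`
  (`α = heckeAlphaBar Kbar N₁ ℓ`, `β = heckeBetaBar Kbar N₁ ℓ`, `N₁ = N Q`, level `N₁ * ℓ`);
* `wLBarHom_eq_wqBarHom` : at level `N * ℓ`, `ℓ` prime, `W_ℓ` is helper12's `H12AL.wqBarHom`.
-/

set_option autoImplicit false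
set_option linter.style.longLine false
set_option linter.unusedSectionVars false
set_option linter.unusedVariables false
set_option linter.style.haveILetI false

noncomputable section

open ModularCurve RH24 H29W H12AL

namespace H12WQ

variable (L N Q : ℕ) [NeZero L]

/-- the swap of the `Q`-part on the divisors of `L = N Q` -/
def swapL (hL : L = N * Q) (d : Dv L) : Dv L :=
  ⟨Nat.gcd d.1 N * (Q / Nat.gcd d.1 Q),
    (Nat.mul_dvd_mul (Nat.gcd_dvd_right _ _)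
      (Nat.div_dvd_of_dvd (Nat.gcd_dvd_right _ _))).trans (dvd_of_eq hL.symm)⟩

theorem swapL_val (hL : L = N * Q) (d : Dv L) :
    (swapL L N Q hL d).1 = Nat.gcd d.1 N * (Q / Nat.gcd d.1 Q) := rfl

theorem neZero_left (hL : L = N * Q) : NeZero N :=
  ⟨fun h => NeZero.ne L (by rw [hL, h, zero_mul])⟩

theorem neZero_right (hL : L = N * Q) : NeZero Q :=
  ⟨fun h => NeZero.ne L (by rw [hL, h, mul_zero])⟩

theorem swapL_swapL (hL : L = N * Q) (hNQ : Nat.Coprime N Q) (d : Dv L) :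
    swapL L N Q hL (swapL L N Q hL d) = d := by
  subst hL
  haveI : NeZero N := neZero_left (N * Q) N Q rfl
  haveI : NeZero Q := neZero_right (N * Q) N Q rfl
  exact swapQ_swapQ N Q hNQ d

theorem exists_wLan (hL : L = N * Q) (hNQ : Nat.Coprime N Q) :
    ∃ φ : modularFunctionFieldBar L →+* LaurentSeries ℂ,
      (∀ d, φ (Jgen d) = JC (swapL L N Q hL d)) ∧
      ∀ c : Kbar, φ (algebraMap Kbar _ c) = algebraMap ℂ (LaurentSeries ℂ) (iota c) := by
  subst hL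
  haveI : NeZero N := neZero_left (N * Q) N Q rfl
  haveI : NeZero Q := neZero_right (N * Q) N Q rfl
  exact exists_wQan N Q hNQ

/-- the analytic swap at the level `L` -/
def wLan (hL : L = N * Q) (hNQ : Nat.Coprime N Q) :
    modularFunctionFieldBar L →+* LaurentSeries ℂ :=
  (exists_wLan L N Q hL hNQ).choose

theorem wLan_Jgen (hL : L = N * Q) (hNQ : Nat.Coprime N Q) (d : Dv L) :
    wLan L N Q hL hNQ (Jgen d) = JC (swapL L N Q hL d) :=
  (exists_wLan L N Q hL hNQ).choose_spec.1 d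

theorem wLan_const (hL : L = N * Q) (hNQ : Nat.Coprime N Q) (c : Kbar) :
    wLan L N Q hL hNQ (algebraMap Kbar _ c) = algebraMap ℂ (LaurentSeries ℂ) (iota c) :=
  (exists_wLan L N Q hL hNQ).choose_spec.2 c

/-- `W (P(Jgen)) = ρ̄ (P(Jgen ∘ swap))` -/
theorem wLan_aeval (hL : L = N * Q) (hNQ : Nat.Coprime N Q) (P : MvPolynomial (Dv L) Kbar) :
    wLan L N Q hL hNQ (MvPolynomial.aeval (fun d : Dv L => Jgen d) P) =
      rhoBar L (MvPolynomial.aeval (fun d : Dv L => Jgen (swapL L N Q hL d)) P) := by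
  have hcomp : (wLan L N Q hL hNQ).comp
      ((MvPolynomial.aeval (fun d : Dv L => Jgen d) :
        MvPolynomial (Dv L) Kbar →ₐ[Kbar] modularFunctionFieldBar L).toRingHom) =
      (rhoBar L).comp
      ((MvPolynomial.aeval (fun d : Dv L => Jgen (swapL L N Q hL d)) :
        MvPolynomial (Dv L) Kbar →ₐ[Kbar] modularFunctionFieldBar L).toRingHom) := by
    apply MvPolynomial.ringHom_ext
    · intro c
      simp only [RingHom.comp_apply, AlgHom.toRingHom_eq_coe, RingHom.coe_coe,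
        MvPolynomial.aeval_C]
      rw [wLan_const, rhoBar_const]
    · intro d
      simp only [RingHom.comp_apply, AlgHom.toRingHom_eq_coe, RingHom.coe_coe,
        MvPolynomial.aeval_X]
      rw [wLan_Jgen, rhoBar_Jgen]
  exact RingHom.congr_fun hcomp P

/-- the range of `W` is contained in the range of `ρ̄` -/
theorem wLan_mem_range (hL : L = N * Q) (hNQ : Nat.Coprime N Q) (x : modularFunctionFieldBar L) :
    wLan L N Q hL hNQ x ∈ (rhoBar L).range := by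
  obtain ⟨P, Q', hQ, hx⟩ := exists_frac L x
  refine ⟨MvPolynomial.aeval (fun d : Dv L => Jgen (swapL L N Q hL d)) P /
    MvPolynomial.aeval (fun d : Dv L => Jgen (swapL L N Q hL d)) Q', ?_⟩
  rw [hx, map_div₀, map_div₀, wLan_aeval, wLan_aeval]

/-- **the Atkin–Lehner involution** `W_Q` of `F̄_L`, as a ring homomorphism -/
def wLBarHom (hL : L = N * Q) (hNQ : Nat.Coprime N Q) :
    modularFunctionFieldBar L →+* modularFunctionFieldBar L :=
  (rhoEquiv L).symm.toRingHom.comp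
    ((wLan L N Q hL hNQ).codRestrict (rhoBar L).range (wLan_mem_range L N Q hL hNQ))

/-- characterisation: `ρ̄ (W x) = W_an x` -/
theorem rhoBar_wLBarHom (hL : L = N * Q) (hNQ : Nat.Coprime N Q) (x : modularFunctionFieldBar L) :
    rhoBar L (wLBarHom L N Q hL hNQ x) = wLan L N Q hL hNQ x := by
  have h := (rhoEquiv L).apply_symm_apply
    ((wLan L N Q hL hNQ).codRestrict (rhoBar L).range (wLan_mem_range L N Q hL hNQ) x)
  exact congrArg Subtype.val h

/-- `W (Jgen d) = Jgen (swap d)` -/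
theorem wLBarHom_Jgen (hL : L = N * Q) (hNQ : Nat.Coprime N Q) (d : Dv L) :
    wLBarHom L N Q hL hNQ (Jgen d) = Jgen (swapL L N Q hL d) := by
  apply rhoBar_injective
  rw [rhoBar_wLBarHom, wLan_Jgen, rhoBar_Jgen]

/-- `W c = c` for constants -/
theorem wLBarHom_const (hL : L = N * Q) (hNQ : Nat.Coprime N Q) (c : Kbar) :
    wLBarHom L N Q hL hNQ (algebraMap Kbar (modularFunctionFieldBar L) c) =
      algebraMap Kbar (modularFunctionFieldBar L) c := by
  apply rhoBar_injective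
  rw [rhoBar_wLBarHom, wLan_const, rhoBar_const]

/-- `W ∘ W = id` -/
theorem wLBarHom_comp_self (hL : L = N * Q) (hNQ : Nat.Coprime N Q) :
    (wLBarHom L N Q hL hNQ).comp (wLBarHom L N Q hL hNQ) =
      RingHom.id (modularFunctionFieldBar L) := by
  apply ringHom_ext_F
  · intro c
    rw [RingHom.comp_apply, wLBarHom_const, wLBarHom_const, RingHom.id_apply]
  · intro d
    rw [RingHom.comp_apply, wLBarHom_Jgen, wLBarHom_Jgen, swapL_swapL L N Q hL hNQ,
      RingHom.id_apply]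

theorem wLBarHom_invol (hL : L = N * Q) (hNQ : Nat.Coprime N Q) (x : modularFunctionFieldBar L) :
    wLBarHom L N Q hL hNQ (wLBarHom L N Q hL hNQ x) = x :=
  RingHom.congr_fun (wLBarHom_comp_self L N Q hL hNQ) x

/-- **the Atkin–Lehner involution** `W_Q` of `F̄_L`, as a ring automorphism -/
def wLBar (hL : L = N * Q) (hNQ : Nat.Coprime N Q) :
    modularFunctionFieldBar L ≃+* modularFunctionFieldBar L :=
  RingEquiv.ofRingHom (wLBarHom L N Q hL hNQ) (wLBarHom L N Q hL hNQ)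
    (wLBarHom_comp_self L N Q hL hNQ) (wLBarHom_comp_self L N Q hL hNQ)

@[simp] theorem wLBar_apply (hL : L = N * Q) (hNQ : Nat.Coprime N Q)
    (x : modularFunctionFieldBar L) :
    wLBar L N Q hL hNQ x = wLBarHom L N Q hL hNQ x := rfl

@[simp] theorem wLBar_symm_apply (hL : L = N * Q) (hNQ : Nat.Coprime N Q)
    (x : modularFunctionFieldBar L) :
    (wLBar L N Q hL hNQ).symm x = wLBarHom L N Q hL hNQ x := rfl

/-! ### Galois equivariance -/

/-- **Galois equivariance**: `W (σ x) = σ (W x)` for `σ ∈ G_ℚ` acting on the coefficients. -/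
theorem wLBarHom_galois (hL : L = N * Q) (hNQ : Nat.Coprime N Q) (σ : Kbar ≃ₐ[ℚ] Kbar)
    (x : modularFunctionFieldBar L) :
    wLBarHom L N Q hL hNQ (arithmeticRingAut (modularFunctionFieldFull L) σ x) =
      arithmeticRingAut (modularFunctionFieldFull L) σ (wLBarHom L N Q hL hNQ x) := by
  have hcomp : (wLBarHom L N Q hL hNQ).comp
      (arithmeticRingAut (modularFunctionFieldFull L) σ).toRingHom =
      (arithmeticRingAut (modularFunctionFieldFull L) σ).toRingHom.comp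
        (wLBarHom L N Q hL hNQ) := by
    apply ringHom_ext_F
    · intro c
      simp only [RingHom.comp_apply, RingEquiv.toRingHom_eq_coe, RingHom.coe_coe]
      rw [arithmeticRingAut_algebraMap, wLBarHom_const, wLBarHom_const,
        arithmeticRingAut_algebraMap]
    · intro d
      simp only [RingHom.comp_apply, RingEquiv.toRingHom_eq_coe, RingHom.coe_coe]
      rw [arithmeticRingAut_Jgen, wLBarHom_Jgen, arithmeticRingAut_Jgen]
  exact RingHom.congr_fun hcomp x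

/-! ### degeneracy maps: `W_{Qℓ} ∘ α = β ∘ W_Q`, `W_{Qℓ} ∘ β = α ∘ W_Q` -/

section Degeneracy

variable (N₁ N Q ℓ : ℕ) [NeZero N₁] [NeZero ℓ]

omit [NeZero N₁] [NeZero ℓ] in
/-- for `d ∣ N Q`, `N` coprime to `Q ℓ`: `gcd d (Q ℓ) = gcd d Q` -/
theorem gcd_mul_of_dvd (hNQ : Nat.Coprime N (Q * ℓ)) (d : ℕ) (hd : d ∣ N * Q) :
    Nat.gcd d (Q * ℓ) = Nat.gcd d Q := by
  have hNQ1 : Nat.Coprime N Q := Nat.Coprime.coprime_dvd_right (Dvd.intro _ rfl) hNQ
  have h1 : d = Nat.gcd d N * Nat.gcd d Q := dv_eq_gcd_mul N Q hNQ1 ⟨d, hd⟩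
  have h2 : Nat.Coprime (Nat.gcd d N) (Q * ℓ) :=
    Nat.Coprime.coprime_dvd_left (Nat.gcd_dvd_right _ _) hNQ
  have h3 : Nat.gcd d (Q * ℓ) = Nat.gcd (Nat.gcd d Q) (Q * ℓ) := by
    conv_lhs => rw [h1]
    exact Nat.Coprime.gcd_mul_left_cancel _ h2
  rw [h3]
  exact Nat.gcd_eq_left ((Nat.gcd_dvd_right _ _).trans (Dvd.intro _ rfl))

/-- `W_{Qℓ} ∘ α = β ∘ W_Q` (`α, β : F̄_{N₁} → F̄_{N₁ ℓ}`, `N₁ = N Q`). -/
theorem wLBarHom_alpha (hN₁ : N₁ = N * Q) (hL : N₁ * ℓ = N * (Q * ℓ))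
    (hNQ : Nat.Coprime N (Q * ℓ)) (hNQ1 : Nat.Coprime N Q) (x : modularFunctionFieldBar N₁) :
    wLBarHom (N₁ * ℓ) N (Q * ℓ) hL hNQ (heckeAlphaBar Kbar N₁ ℓ x) =
      heckeBetaBar Kbar N₁ ℓ (wLBarHom N₁ N Q hN₁ hNQ1 x) := by
  have hcomp : (wLBarHom (N₁ * ℓ) N (Q * ℓ) hL hNQ).comp (heckeAlphaBar Kbar N₁ ℓ).toRingHom =
      (heckeBetaBar Kbar N₁ ℓ).toRingHom.comp (wLBarHom N₁ N Q hN₁ hNQ1) := by
    apply ringHom_ext_F
    · intro c
      simp only [RingHom.comp_apply, AlgHom.toRingHom_eq_coe, RingHom.coe_coe, AlgHom.commutes]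
      rw [wLBarHom_const, wLBarHom_const, AlgHom.commutes]
    · intro d
      simp only [RingHom.comp_apply, AlgHom.toRingHom_eq_coe, RingHom.coe_coe]
      rw [alpha_Jgen, wLBarHom_Jgen, wLBarHom_Jgen, beta_Jgen]
      congr 1
      apply Subtype.ext
      show Nat.gcd d.1 N * (Q * ℓ / Nat.gcd d.1 (Q * ℓ)) = Nat.gcd d.1 N * (Q / Nat.gcd d.1 Q) * ℓ
      rw [gcd_mul_of_dvd N Q ℓ hNQ d.1 (hN₁ ▸ d.2), mul_assoc]
      congr 1
      exact Nat.mul_div_right_comm (Nat.gcd_dvd_right _ _) ℓ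
  exact RingHom.congr_fun hcomp x

/-- `W_{Qℓ} ∘ β = α ∘ W_Q`. -/
theorem wLBarHom_beta (hN₁ : N₁ = N * Q) (hL : N₁ * ℓ = N * (Q * ℓ))
    (hNQ : Nat.Coprime N (Q * ℓ)) (hNQ1 : Nat.Coprime N Q) (x : modularFunctionFieldBar N₁) :
    wLBarHom (N₁ * ℓ) N (Q * ℓ) hL hNQ (heckeBetaBar Kbar N₁ ℓ x) =
      heckeAlphaBar Kbar N₁ ℓ (wLBarHom N₁ N Q hN₁ hNQ1 x) := by
  have h := wLBarHom_alpha N₁ N Q ℓ hN₁ hL hNQ hNQ1 (wLBarHom N₁ N Q hN₁ hNQ1 x)
  rw [wLBarHom_invol] at h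
  rw [← h, wLBarHom_invol]

end Degeneracy

/-! ### comparison with `H12AL.wqBarHom` -/

section Compare

variable (N ℓ : ℕ) [NeZero N] [NeZero ℓ]

theorem swapL_eq_swap (hℓ : ℓ.Prime) (hℓN : ¬ ℓ ∣ N) (d : Dv (N * ℓ)) :
    swapL (N * ℓ) N ℓ rfl d = h29w_swap N ℓ hℓ d := by
  apply Subtype.ext
  rw [swapL_val]
  have hcop : Nat.Coprime N ℓ := ((Nat.Prime.coprime_iff_not_dvd hℓ).mpr hℓN).symm
  by_cases h : ℓ ∣ d.1
  · rw [h29w_swap_of_dvd N ℓ hℓ d h]
    have h1 : Nat.gcd d.1 ℓ = ℓ := Nat.gcd_eq_right h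
    rw [h1, Nat.div_self hℓ.pos, mul_one]
    have h2 := dv_eq_gcd_mul N ℓ hcop d
    rw [h1] at h2
    conv_rhs => rw [h2]
    exact (Nat.mul_div_cancel _ hℓ.pos).symm
  · rw [h29w_swap_of_not_dvd N ℓ hℓ d h]
    have h1 : Nat.gcd d.1 ℓ = 1 :=
      (Nat.coprime_comm.mp ((Nat.Prime.coprime_iff_not_dvd hℓ).mpr h))
    rw [h1, Nat.div_one]
    have h2 := dv_eq_gcd_mul N ℓ hcop d
    rw [h1, mul_one] at h2
    rw [← h2]

/-- at the level `N ℓ`, `ℓ` prime: `W_ℓ` is `H12AL.wqBarHom`. -/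
theorem wLBarHom_eq_wqBarHom (hℓ : ℓ.Prime) (hℓN : ¬ ℓ ∣ N) (hNℓ : Nat.Coprime N ℓ) :
    wLBarHom (N * ℓ) N ℓ rfl hNℓ = wqBarHom N ℓ hℓ hℓN := by
  apply ringHom_ext_F
  · intro c
    rw [wLBarHom_const, wqBarHom_const]
  · intro d
    rw [wLBarHom_Jgen, wqBarHom_Jgen, swapL_eq_swap N ℓ hℓ hℓN]

end Compare

end H12WQ

end
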