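/-
Item 86 (S36), slice (W2) (helper12): the partial Atkin–Lehner swap `W_Q` at level `N Q`,
`Q` coprime to `N` (no primality: `Q = q ^ 2` is the case needed for S36).

`H12WQ.wQan N Q hNQ : F̄_{NQ} →+* ℂ((t))` with
  `W (j(q^{d₁ d₂})) = j(t^{d₁ (Q / d₂)})`   (`d₁ ∣ N`, `d₂ ∣ Q`),
and `W = (coefficientwise ι)` on constants.

Analytic input (same pattern as helper29's `S37/R3W_helper29.lean`): the substitution
`z ↦ γ • (Q z)`, `γ = (1, -y; N, Q x) ∈ Γ₀(N)` (`Q x + N y = 1`), and the `q`-expansion principle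
`RH24.qexp_principle` at level `N Q`.
-/
import Mathlib
import Fermat.Agent.S37.R3W_helper29

set_option autoImplicit false
set_option linter.style.longLine false
set_option linter.unusedVariables false
set_option linter.unusedSectionVars false
set_option linter.style.haveILetI false

noncomputable section

open UpperHalfPlane ModularForm MatrixGroups CongruenceSubgroup
open H23 ModularCurve RH24 H29W
open scoped Manifold

namespace H12WQ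

variable (N : ℕ) [NeZero N] (Q : ℕ) [NeZero Q]

/-! ### the swap of the `Q`-part on the divisors of `N Q` -/

/-- the swap of the `Q`-part on the divisors of `N Q`: `d₁ d₂ ↦ d₁ (Q / d₂)`
(`d₁ = gcd d N`, `d₂ = gcd d Q`) -/
def swapQ (d : Dv (N * Q)) : Dv (N * Q) :=
  ⟨Nat.gcd d.1 N * (Q / Nat.gcd d.1 Q),
    Nat.mul_dvd_mul (Nat.gcd_dvd_right _ _) (Nat.div_dvd_of_dvd (Nat.gcd_dvd_right _ _))⟩

theorem swapQ_val (d : Dv (N * Q)) :
    (swapQ N Q d).1 = Nat.gcd d.1 N * (Q / Nat.gcd d.1 Q) := rfl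

omit [NeZero N] [NeZero Q] in
/-- `d = gcd d N · gcd d Q` for `d ∣ N Q`, `N, Q` coprime -/
theorem dv_eq_gcd_mul (hNQ : Nat.Coprime N Q) (d : Dv (N * Q)) :
    d.1 = Nat.gcd d.1 N * Nat.gcd d.1 Q := by
  have h1 : Nat.gcd d.1 (N * Q) = d.1 := Nat.gcd_eq_left d.2
  rw [← Nat.Coprime.gcd_mul d.1 hNQ, h1]

theorem gcd_swapQ_N (hNQ : Nat.Coprime N Q) (d : Dv (N * Q)) :
    Nat.gcd (swapQ N Q d).1 N = Nat.gcd d.1 N := by
  rw [swapQ_val]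
  have h1 : Nat.Coprime (Q / Nat.gcd d.1 Q) N :=
    Nat.Coprime.coprime_dvd_left (Nat.div_dvd_of_dvd (Nat.gcd_dvd_right _ _)) hNQ.symm
  rw [Nat.Coprime.gcd_mul_right_cancel _ h1]
  exact Nat.gcd_eq_left (Nat.gcd_dvd_right _ _)

theorem gcd_swapQ_Q (hNQ : Nat.Coprime N Q) (d : Dv (N * Q)) :
    Nat.gcd (swapQ N Q d).1 Q = Q / Nat.gcd d.1 Q := by
  rw [swapQ_val]
  have h1 : Nat.Coprime (Nat.gcd d.1 N) Q :=
    Nat.Coprime.coprime_dvd_left (Nat.gcd_dvd_right _ _) hNQ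
  rw [Nat.Coprime.gcd_mul_left_cancel _ h1]
  exact Nat.gcd_eq_left (Nat.div_dvd_of_dvd (Nat.gcd_dvd_right _ _))

theorem swapQ_swapQ (hNQ : Nat.Coprime N Q) (d : Dv (N * Q)) :
    swapQ N Q (swapQ N Q d) = d := by
  apply Subtype.ext
  rw [swapQ_val, gcd_swapQ_N N Q hNQ, gcd_swapQ_Q N Q hNQ]
  have hQ0 : 0 < Q := Nat.pos_of_ne_zero (NeZero.ne Q)
  have hg : Nat.gcd d.1 Q ∣ Q := Nat.gcd_dvd_right _ _
  have hg0 : 0 < Nat.gcd d.1 Q := Nat.gcd_pos_of_pos_right _ hQ0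
  have h2 : Q / (Q / Nat.gcd d.1 Q) = Nat.gcd d.1 Q := Nat.div_div_self hg (NeZero.ne Q)
  rw [h2]
  exact (dv_eq_gcd_mul N Q hNQ d).symm

/-! ### The analytic substitution `z ↦ γ • (Q z)` -/

omit [NeZero N] [NeZero Q] in
theorem exists_bezout (hNQ : Nat.Coprime N Q) :
    ∃ x y : ℤ, (Q : ℤ) * x - (-y) * (N : ℤ) = 1 := by
  have h2 : IsCoprime (Q : ℤ) (N : ℤ) := Nat.isCoprime_iff_coprime.mpr hNQ.symm
  obtain ⟨u, v, huv⟩ := h2
  exact ⟨u, v, by linear_combination huv⟩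

/-- `γ = (1, -y; N, Q x)` -/
def gam (x y : ℤ) (h : (Q : ℤ) * x - (-y) * (N : ℤ) = 1) : SL(2, ℤ) :=
  h12_mkSL 1 (-y) N (Q * x) (by linear_combination h)

/-- `γ_{d₂} = (d₂, -y; N, e₂ x)`, `d₂ e₂ = Q` -/
def gamD (x y : ℤ) (d₂ e₂ : ℕ) (hde : d₂ * e₂ = Q)
    (h : (Q : ℤ) * x - (-y) * (N : ℤ) = 1) : SL(2, ℤ) :=
  h12_mkSL d₂ (-y) N (e₂ * x) (by
    have : ((d₂ : ℤ) * (e₂ : ℤ)) = (Q : ℤ) := by exact_mod_cast hde
    linear_combination h + x * this)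

theorem gam_mem (x y : ℤ) (h : (Q : ℤ) * x - (-y) * (N : ℤ) = 1) :
    gam N Q x y h ∈ Gamma0 N :=
  h29w_mem_Gamma0 N (by
    show (N : ℤ) ∣ (!![(1 : ℤ), -y; (N : ℤ), (Q : ℤ) * x] : Matrix (Fin 2) (Fin 2) ℤ) 1 0
    simp)

theorem gamD_mem (x y : ℤ) (d₂ e₂ : ℕ) (hde : d₂ * e₂ = Q)
    (h : (Q : ℤ) * x - (-y) * (N : ℤ) = 1) :
    gamD N Q x y d₂ e₂ hde h ∈ Gamma0 N :=
  h29w_mem_Gamma0 N (by
    show (N : ℤ) ∣ (!![(d₂ : ℤ), -y; (N : ℤ), (e₂ : ℤ) * x] : Matrix (Fin 2) (Fin 2) ℤ) 1 0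
    simp)

/-- the substitution `w z = γ • (Q z)` -/
def wsub (x y : ℤ) (h : (Q : ℤ) * x - (-y) * (N : ℤ) = 1) (z : ℍ) : ℍ :=
  gam N Q x y h • (heckeDiagMatrix Q • z)

/-- `d₂ · w z = γ_{d₂} • (e₂ z)` -/
theorem diag_wsub (x y : ℤ) (h : (Q : ℤ) * x - (-y) * (N : ℤ) = 1) (d₂ e₂ : ℕ)
    (hde : d₂ * e₂ = Q) (z : ℍ) :
    heckeDiagMatrix d₂ • wsub N Q x y h z =
      gamD N Q x y d₂ e₂ hde h • (heckeDiagMatrix e₂ • z) := by
  have hQ0 : Q ≠ 0 := NeZero.ne Q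
  have hd0 : d₂ ≠ 0 := by rintro rfl; rw [zero_mul] at hde; exact hQ0 hde.symm
  have he0 : e₂ ≠ 0 := by rintro rfl; rw [mul_zero] at hde; exact hQ0 hde.symm
  unfold wsub
  apply UpperHalfPlane.ext
  rw [ModularForm.coe_heckeDiagMatrix_smul hd0, UpperHalfPlane.coe_specialLinearGroup_apply,
    UpperHalfPlane.coe_specialLinearGroup_apply, ModularForm.coe_heckeDiagMatrix_smul hQ0,
    ModularForm.coe_heckeDiagMatrix_smul he0]
  have hden : (N : ℂ) * (z : ℂ) + (x : ℂ) ≠ 0 := by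
    intro h0
    have h1 := congrArg Complex.im h0
    simp only [Complex.add_im, Complex.mul_im, Complex.natCast_re, Complex.natCast_im,
      Complex.intCast_im, Complex.zero_im, zero_mul, add_zero, UpperHalfPlane.coe_im] at h1
    have h2 : (N : ℝ) ≠ 0 := by exact_mod_cast NeZero.ne N
    exact (mul_ne_zero h2 z.im_pos.ne') h1
  have hdC : (d₂ : ℂ) ≠ 0 := by exact_mod_cast hd0
  have heC : (e₂ : ℂ) ≠ 0 := by exact_mod_cast he0
  have hQC : (Q : ℂ) = (d₂ : ℂ) * (e₂ : ℂ) := by exact_mod_cast hde.symm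
  simp only [gam, gamD, h12_mkSL, algebraMap_int_eq, eq_intCast]
  simp only [Matrix.of_apply, Matrix.cons_val', Matrix.cons_val_zero,
    Matrix.cons_val_one, Matrix.cons_val_fin_one]
  push_cast
  rw [hQC]
  have e1 : (N : ℂ) * ((d₂ : ℂ) * (e₂ : ℂ) * (z : ℂ)) + (d₂ : ℂ) * (e₂ : ℂ) * (x : ℂ) =
      (d₂ : ℂ) * (e₂ : ℂ) * ((N : ℂ) * (z : ℂ) + (x : ℂ)) := by ring
  have e2 : (N : ℂ) * ((e₂ : ℂ) * (z : ℂ)) + (e₂ : ℂ) * (x : ℂ) =
      (e₂ : ℂ) * ((N : ℂ) * (z : ℂ) + (x : ℂ)) := by ring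
  rw [e1, e2]
  field_simp

/-- `j(d₁ d₂ · w z) = j(d₁ e₂ · z)` for `d₁ ∣ N`, `d₂ e₂ = Q` -/
theorem jd_wsub (x y : ℤ) (h : (Q : ℤ) * x - (-y) * (N : ℤ) = 1)
    (d₁ d₂ e₂ : ℕ) (hd₁N : d₁ ∣ N) (hde : d₂ * e₂ = Q) (z : ℍ) :
    jd (d₁ * d₂) (wsub N Q x y h z) = jd (d₁ * e₂) z := by
  have hQ0 : Q ≠ 0 := NeZero.ne Q
  have hd₂0 : d₂ ≠ 0 := by
    intro h0; rw [h0, zero_mul] at hde; exact hQ0 hde.symm
  have he0 : e₂ ≠ 0 := by
    intro h0; rw [h0, mul_zero] at hde; exact hQ0 hde.symm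
  have hd₁0 : d₁ ≠ 0 := Dv_ne_zero (N := N) ⟨d₁, hd₁N⟩
  haveI : NeZero e₂ := ⟨he0⟩
  haveI : NeZero d₂ := ⟨hd₂0⟩
  have hR : jd (d₁ * d₂) (wsub N Q x y h z) = jd d₁ (heckeDiagMatrix d₂ • wsub N Q x y h z) :=
    (h29w_jd_diag d₂ d₁ hd₁0 _).symm
  have hM : jd d₁ (gamD N Q x y d₂ e₂ hde h • (heckeDiagMatrix e₂ • z)) =
      jd d₁ (heckeDiagMatrix e₂ • z) :=
    jd_smul_of_mem_Gamma0 N ⟨d₁, hd₁N⟩ _ (gamD_mem N Q x y d₂ e₂ hde h) _
  rw [hR, diag_wsub N Q x y h d₂ e₂ hde, hM]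
  exact h29w_jd_diag e₂ d₁ hd₁0 z

/-- `j(d · w z) = j(swap d · z)` -/
theorem jd_swapQ (hNQ : Nat.Coprime N Q) (x y : ℤ) (h : (Q : ℤ) * x - (-y) * (N : ℤ) = 1)
    (d : Dv (N * Q)) (z : ℍ) :
    jd (swapQ N Q d).1 z = jd d.1 (wsub N Q x y h z) := by
  obtain ⟨d₁, d₂, hd₁N, hd₂Q, hd, hsw⟩ : ∃ d₁ d₂ : ℕ, d₁ ∣ N ∧ d₂ ∣ Q ∧ d.1 = d₁ * d₂ ∧
      (swapQ N Q d).1 = d₁ * (Q / d₂) :=
    ⟨Nat.gcd d.1 N, Nat.gcd d.1 Q, Nat.gcd_dvd_right _ _, Nat.gcd_dvd_right _ _,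
      dv_eq_gcd_mul N Q hNQ d, rfl⟩
  rw [hsw, hd]
  exact (jd_wsub N Q x y h d₁ d₂ (Q / d₂) hd₁N (Nat.mul_div_cancel' hd₂Q) z).symm

/-! ### The formal swap -/

theorem eval_rename (hNQ : Nat.Coprime N Q) (x y : ℤ) (h : (Q : ℤ) * x - (-y) * (N : ℤ) = 1)
    (P : MvPolynomial (Dv (N * Q)) ℂ) (z : ℍ) :
    MvPolynomial.eval (fun d : Dv (N * Q) => jd d.1 z)
        (MvPolynomial.rename (swapQ N Q) P) =
      MvPolynomial.eval (fun d : Dv (N * Q) => jd d.1 (wsub N Q x y h z)) P := by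
  have hfun : ((fun d : Dv (N * Q) => jd d.1 z) ∘ swapQ N Q) =
      fun d : Dv (N * Q) => jd d.1 (wsub N Q x y h z) := by
    funext d
    simp only [Function.comp_apply]
    exact jd_swapQ N Q hNQ x y h d z
  rw [MvPolynomial.eval_rename, hfun]

theorem rename_rename (hNQ : Nat.Coprime N Q) (P : MvPolynomial (Dv (N * Q)) ℂ) :
    MvPolynomial.rename (swapQ N Q) (MvPolynomial.rename (swapQ N Q) P) = P := by
  rw [MvPolynomial.rename_rename]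
  have : swapQ N Q ∘ swapQ N Q = id := by
    funext d
    exact swapQ_swapQ N Q hNQ d
  rw [this, MvPolynomial.rename_id_apply]

theorem formal_swap_imp (hNQ : Nat.Coprime N Q) (P : MvPolynomial (Dv (N * Q)) ℂ)
    (h : formalEval (N * Q) P = 0) :
    formalEval (N * Q) (MvPolynomial.rename (swapQ N Q) P) = 0 := by
  obtain ⟨x, y, hxy⟩ := exists_bezout N Q hNQ
  rw [qexp_principle] at h ⊢
  intro z
  rw [eval_rename N Q hNQ x y hxy]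
  exact h _

/-- a formal relation between the `j(q^d)`, `d ∣ N Q`, holds iff the swapped one holds -/
theorem formal_swap (hNQ : Nat.Coprime N Q) (P : MvPolynomial (Dv (N * Q)) ℂ) :
    formalEval (N * Q) P = 0 ↔
      formalEval (N * Q) (MvPolynomial.rename (swapQ N Q) P) = 0 := by
  constructor
  · exact formal_swap_imp N Q hNQ P
  · intro h
    have := formal_swap_imp N Q hNQ _ h
    rwa [rename_rename N Q hNQ] at this

theorem exists_wQan (hNQ : Nat.Coprime N Q) :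
    ∃ φ : ModularCurve.modularFunctionFieldBar (N * Q) →+* LaurentSeries ℂ,
      (∀ d, φ (Jgen d) = JC (swapQ N Q d)) ∧
      ∀ c : Kbar, φ (algebraMap Kbar _ c) = algebraMap ℂ (LaurentSeries ℂ) (iota c) := by
  refine exists_real (N * Q) (algebraMap ℂ (LaurentSeries ℂ))
    (fun d => JC (swapQ N Q d)) ?_
  intro P
  rw [formal_swap N Q hNQ]
  have : MvPolynomial.eval₂ (algebraMap ℂ (LaurentSeries ℂ))
      (fun d => JC (swapQ N Q d)) P =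
      formalEval (N * Q) (MvPolynomial.rename (swapQ N Q) P) := by
    unfold formalEval
    rw [MvPolynomial.aeval_rename]
    rfl
  rw [this]

/-- **the partial Atkin–Lehner swap** `W_Q : F̄_{NQ} → ℂ((t))`,
`j(q^{d₁ d₂}) ↦ j(t^{d₁ (Q/d₂)})` (`d₁ ∣ N`, `d₂ ∣ Q`) -/
def wQan (hNQ : Nat.Coprime N Q) :
    ModularCurve.modularFunctionFieldBar (N * Q) →+* LaurentSeries ℂ :=
  (exists_wQan N Q hNQ).choose

theorem wQan_Jgen (hNQ : Nat.Coprime N Q) (d : Dv (N * Q)) :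
    wQan N Q hNQ (Jgen d) = JC (swapQ N Q d) :=
  (exists_wQan N Q hNQ).choose_spec.1 d

theorem wQan_const (hNQ : Nat.Coprime N Q) (c : Kbar) :
    wQan N Q hNQ (algebraMap Kbar _ c) = algebraMap ℂ (LaurentSeries ℂ) (iota c) :=
  (exists_wQan N Q hNQ).choose_spec.2 c

end H12WQ

end
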