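import Mathlib
import Fermat.Agent.S34.VertGauss_helper15
import Fermat.Agent.S35.FWComp_helper10
import Fermat.Agent.S36.Tor3Core_helper17

/-!
# S36 (item 86): the field `calg` of `H4S36.Triple`, concrete (helper18)

"The residue field of `R` is algebraically closed in the residue field of the Gauss valuation":
a unit constant `c ∈ Rˣ` which is congruent to an `n`-th power `gⁿ` modulo the maximal ideal
of the Gauss valuation ring of `K((𝐪))` is an `n`-th power modulo `𝔪_R`.

* `H18CA.calg_series` : series level (`R` any valuation subring of `K`):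
  `InG R g`, `InGm R (C c - g ^ n)`  ⟹  `∃ d ∈ Rˣ, c - d ^ n ∈ 𝔪_R`
  (compare leading coefficients of the reductions in `k((𝐪))`).
* `H18CA.calg_dvr`    : the same with `c = d ^ n * (1 + ϖ * r)` for a DVR `R` with uniformizer `ϖ`.
* `H18CA.calg_gaussVal` : the field `calg` for `V₁' = H10FC.gaussVal R N` (`= H3SIG.gaussVS R N`)
  of `F' = FK K N`, exactly in the form of `H4S36.Triple.calg` (`H17T3.Cg`).
* `H18CA.calg_comap`  : the same for a valuation subring `V = (gaussVal R N).comap w` with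
  `w (algebraMap c) = algebraMap c` (e.g. `V₂' = V₁' ∘ W_q`).
-/

set_option autoImplicit false
set_option linter.unusedSectionVars false
set_option linter.unusedVariables false

noncomputable section

open ModularCurve HahnSeries H8PB H7S18

namespace H18CA

section series

variable {K : Type} [Field K] (R : ValuationSubring K)

/-- leading coefficient of a power, over a domain -/
theorem leadingCoeff_pow' {k : Type*} [CommRing k] [IsDomain k] (x : LaurentSeries k) (n : ℕ) :
    (x ^ n).leadingCoeff = x.leadingCoeff ^ n := by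
  induction n with
  | zero => rw [pow_zero, pow_zero, HahnSeries.leadingCoeff_one]
  | succ m ih => rw [pow_succ, pow_succ, HahnSeries.leadingCoeff_mul, ih]

/-- the leading coefficient of the reduction of an integral series with nonzero reduction is
the residue of a unit coefficient. -/
theorem exists_unit_coeff (X : LaurentSeries R) (hX : H15V.red R X ≠ 0) :
    ∃ u : R, IsUnit u ∧ IsLocalRing.residue R u = (H15V.red R X).leadingCoeff := by
  refine ⟨X.coeff (H15V.red R X).order, ?_, ?_⟩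
  · by_contra hu
    have h0 : (H15V.red R X).coeff (H15V.red R X).order = 0 := by
      simp only [H15V.red, coeffMap_coeff]
      rw [IsLocalRing.residue_eq_zero_iff]
      exact (IsLocalRing.mem_maximalIdeal _).mpr hu
    rw [← HahnSeries.leadingCoeff_eq] at h0
    exact hX (HahnSeries.leadingCoeff_eq_zero.1 h0)
  · rw [HahnSeries.leadingCoeff_eq]
    simp only [H15V.red, coeffMap_coeff]

/-- **calg, series level.** -/
theorem calg_series (n : ℕ) (hn : n ≠ 0) (c : R) (hc : IsUnit c) (g : LaurentSeries K)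
    (hg : InG R g) (h : InGm R (HahnSeries.C ((c : R) : K) - g ^ n)) :
    ∃ d : R, IsUnit d ∧ c - d ^ n ∈ IsLocalRing.maximalIdeal R := by
  obtain ⟨Fs, G, hG, hgG⟩ := hg
  obtain ⟨f', g', hg', hf', hrel⟩ := h
  have hGred : H15V.red R G ≠ 0 := (H15V.red_ne_zero_iff R G).mpr hG
  have hg'red : H15V.red R g' ≠ 0 := (H15V.red_ne_zero_iff R g').mpr hg'
  have hf'red : H15V.red R f' = 0 := (H15V.red_eq_zero_iff R f').mpr hf'
  -- the relation over `R`
  have hCc : (HahnSeries.C ((c : R) : K) : LaurentSeries K) =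
      coeffMap R.subtype (HahnSeries.C c) := by
    have e1 : (HahnSeries.C c : LaurentSeries ↥R) = HahnSeries.single 0 c := rfl
    have e2 : (HahnSeries.C ((c : R) : K) : LaurentSeries K) =
        HahnSeries.single 0 ((c : R) : K) := rfl
    rw [e1, e2, coeffMap_single]
    rfl
  have key : coeffMap R.subtype ((HahnSeries.C c * G ^ n - Fs ^ n) * g') =
      coeffMap R.subtype (f' * G ^ n) := by
    simp only [map_mul, map_sub, map_pow]
    rw [← hCc, ← hgG, ← hrel]
    ring
  have key2 := H15V.coeffMap_subtype_injective R key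
  have key3 := congrArg (H15V.red R) key2
  simp only [map_mul, map_sub, map_pow, hf'red, zero_mul] at key3
  have key4 : H15V.red R (HahnSeries.C c) * H15V.red R G ^ n = H15V.red R Fs ^ n := by
    rcases mul_eq_zero.mp key3 with h1 | h1
    · exact sub_eq_zero.mp h1
    · exact absurd h1 hg'red
  have hredC : H15V.red R (HahnSeries.C c) =
      HahnSeries.C (IsLocalRing.residue R c) := by
    have e1 : (HahnSeries.C c : LaurentSeries ↥R) = HahnSeries.single 0 c := rfl
    have e2 : (HahnSeries.C (IsLocalRing.residue R c) :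
        LaurentSeries (IsLocalRing.ResidueField R)) =
        HahnSeries.single 0 (IsLocalRing.residue R c) := rfl
    rw [e1, e2]
    exact coeffMap_single _ _ _
  have hcres : IsLocalRing.residue R c ≠ 0 := by
    intro h0
    rw [IsLocalRing.residue_eq_zero_iff] at h0
    exact ((IsLocalRing.mem_maximalIdeal _).mp h0) hc
  have hlcC : (HahnSeries.C (IsLocalRing.residue R c) :
      LaurentSeries (IsLocalRing.ResidueField R)).leadingCoeff = IsLocalRing.residue R c := by
    have e : (HahnSeries.C (IsLocalRing.residue R c) :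
        LaurentSeries (IsLocalRing.ResidueField R)) =
        HahnSeries.single 0 (IsLocalRing.residue R c) := rfl
    rw [e, HahnSeries.leadingCoeff_of_single]
  -- leading coefficients
  have hlc := congrArg HahnSeries.leadingCoeff key4
  rw [HahnSeries.leadingCoeff_mul, leadingCoeff_pow', leadingCoeff_pow', hredC, hlcC] at hlc
  have hlcG : (H15V.red R G).leadingCoeff ≠ 0 := HahnSeries.leadingCoeff_ne_zero.2 hGred
  have hlcF : (H15V.red R Fs).leadingCoeff ≠ 0 := by
    intro h0
    rw [h0, zero_pow hn] at hlc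
    exact (mul_ne_zero hcres (pow_ne_zero n hlcG)) hlc
  have hFsred : H15V.red R Fs ≠ 0 := HahnSeries.leadingCoeff_ne_zero.1 hlcF
  obtain ⟨uG, huG, heG⟩ := exists_unit_coeff R G hGred
  obtain ⟨uF, huF, heF⟩ := exists_unit_coeff R Fs hFsred
  rw [← heG, ← heF, ← map_pow, ← map_pow, ← map_mul] at hlc
  have hmem : c * uG ^ n - uF ^ n ∈ IsLocalRing.maximalIdeal R := by
    rw [← IsLocalRing.residue_eq_zero_iff, map_sub, hlc, sub_self]
  obtain ⟨vG, rfl⟩ := huG
  obtain ⟨vF, rfl⟩ := huF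
  refine ⟨(vF * vG⁻¹ : (↥R)ˣ), Units.isUnit _, ?_⟩
  have e : c - ((vF * vG⁻¹ : (↥R)ˣ) : ↥R) ^ n =
      (c * (vG : ↥R) ^ n - (vF : ↥R) ^ n) * ((vG⁻¹ : (↥R)ˣ) : ↥R) ^ n := by
    have h1 : (vG : ↥R) * ((vG⁻¹ : (↥R)ˣ) : ↥R) = 1 := Units.mul_inv vG
    have h2 : (vG : ↥R) ^ n * ((vG⁻¹ : (↥R)ˣ) : ↥R) ^ n = 1 := by
      rw [← mul_pow, h1, one_pow]
    rw [Units.val_mul, mul_pow, sub_mul, mul_assoc, h2, mul_one]
  rw [e]
  exact Ideal.mul_mem_right _ _ hmem

/-- **calg** for a DVR with uniformizer `ϖ`: `c = d ^ n * (1 + ϖ * r)`. -/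
theorem calg_dvr [IsDiscreteValuationRing ↥R] (ϖ : ↥R) (hϖ : Irreducible ϖ)
    (n : ℕ) (hn : n ≠ 0) (c : R) (hc : IsUnit c) (g : LaurentSeries K)
    (hg : InG R g) (h : InGm R (HahnSeries.C ((c : R) : K) - g ^ n)) :
    ∃ d r : R, IsUnit d ∧ c = d ^ n * (1 + ϖ * r) := by
  obtain ⟨d, hd, hmem⟩ := calg_series R n hn c hc g hg h
  rw [hϖ.maximalIdeal_eq, Ideal.mem_span_singleton'] at hmem
  obtain ⟨r', hr'⟩ := hmem
  obtain ⟨v, rfl⟩ := hd
  refine ⟨(v : ↥R), r' * ((v⁻¹ : (↥R)ˣ) : ↥R) ^ n, Units.isUnit v, ?_⟩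
  have h1 : (v : ↥R) ^ n * ((v⁻¹ : (↥R)ˣ) : ↥R) ^ n = 1 := by
    rw [← mul_pow, Units.mul_inv, one_pow]
  have e : (v : ↥R) ^ n * (1 + ϖ * (r' * ((v⁻¹ : (↥R)ˣ) : ↥R) ^ n)) =
      (v : ↥R) ^ n + r' * ϖ * ((v : ↥R) ^ n * ((v⁻¹ : (↥R)ˣ) : ↥R) ^ n) := by ring
  rw [e, h1, mul_one, hr']
  ring

end series

section fk

variable {K : Type} [Field K] [Algebra ℚ K] (R : ValuationSubring K)
  [IsDiscreteValuationRing ↥R]

/-- **the field `calg` of `H4S36.Triple`** for `V₁' = H10FC.gaussVal R N`. -/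
theorem calg_gaussVal (N : ℕ) [NeZero N] [Algebra ↥R (FK K N)] [IsScalarTower ↥R K (FK K N)]
    (ϖ : ↥R) (hϖ : Irreducible ϖ) (n : ℕ) (hn : n ≠ 0) :
    ∀ c : ↥R, IsUnit c → ∀ g : FK K N, (H10FC.gaussVal R N).valuation g = 1 →
      H17T3.Cg (H10FC.gaussVal R N) (algebraMap ↥R (FK K N) c) (g ^ n) →
      ∃ d r : ↥R, IsUnit d ∧ c = d ^ n * (1 + ϖ * r) := by
  intro c hc g hg hcg
  have hgV : g ∈ H10FC.gaussVal R N := by
    rw [← ValuationSubring.valuation_le_one_iff, hg]
  have hgG : InG R ((g : FK K N) : LaurentSeries K) := (H10FC.mem_gaussVal R N g).mp hgV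
  have hm : InGm R (((algebraMap ↥R (FK K N) c - g ^ n : FK K N)) : LaurentSeries K) :=
    (H10FC.gaussVal_lt_one R N _).mp hcg
  have hcoe : (((algebraMap ↥R (FK K N) c - g ^ n : FK K N)) : LaurentSeries K) =
      HahnSeries.C ((c : ↥R) : K) - ((g : FK K N) : LaurentSeries K) ^ n := by
    have h1 : ((algebraMap ↥R (FK K N) c : FK K N) : LaurentSeries K) =
        HahnSeries.C ((c : ↥R) : K) := by
      rw [IsScalarTower.algebraMap_apply ↥R K (FK K N)]
      show algebraMap K (LaurentSeries K) (algebraMap ↥R K c) = _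
      rw [algebraMap_laurentSeries_eq_single]
      rfl
    rw [← h1]
    rfl
  rw [hcoe] at hm
  exact calg_dvr R ϖ hϖ n hn c hc _ hgG hm

/-- **`calg` for a twisted Gauss valuation** `V = V₁'.comap w` (`w` a ring endomorphism of
`FK K N` fixing the constants of `R`), e.g. `V₂' = V₁' ∘ W_q`. -/
theorem calg_comap (N : ℕ) [NeZero N] [Algebra ↥R (FK K N)] [IsScalarTower ↥R K (FK K N)]
    (w : FK K N →+* FK K N) (hw : ∀ r : ↥R, w (algebraMap ↥R (FK K N) r) = algebraMap ↥R (FK K N) r)
    (ϖ : ↥R) (hϖ : Irreducible ϖ) (n : ℕ) (hn : n ≠ 0) :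
    ∀ c : ↥R, IsUnit c → ∀ g : FK K N, ((H10FC.gaussVal R N).comap w).valuation g = 1 →
      H17T3.Cg ((H10FC.gaussVal R N).comap w) (algebraMap ↥R (FK K N) c) (g ^ n) →
      ∃ d r : ↥R, IsUnit d ∧ c = d ^ n * (1 + ϖ * r) := by
  intro c hc g hg hcg
  have h1 : (H10FC.gaussVal R N).valuation (w g) = 1 := by
    have hle : ((H10FC.gaussVal R N).comap w).valuation g ≤ 1 := hg.le
    have hge : ¬ ((H10FC.gaussVal R N).comap w).valuation g < 1 := by rw [hg]; exact lt_irrefl _
    rw [H10FC.comap_val_lt_one] at hge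
    have hmem : g ∈ (H10FC.gaussVal R N).comap w :=
      (ValuationSubring.valuation_le_one_iff _ _).mp hle
    have hmem' : w g ∈ H10FC.gaussVal R N := hmem
    have hle' : (H10FC.gaussVal R N).valuation (w g) ≤ 1 :=
      (ValuationSubring.valuation_le_one_iff _ _).mpr hmem'
    exact le_antisymm hle' (not_lt.mp hge)
  have h2 : H17T3.Cg (H10FC.gaussVal R N) (algebraMap ↥R (FK K N) c) ((w g) ^ n) := by
    unfold H17T3.Cg at hcg ⊢
    rw [H10FC.comap_val_lt_one] at hcg
    rwa [map_sub, map_pow, hw] at hcg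
  exact calg_gaussVal R N ϖ hϖ n hn c hc (w g) h1 h2

end fk

end H18CA
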