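import Fermat.Agent.S36.TripleAsm_helper11
import Fermat.Agent.S36.TripleNorm_helper13
import Fermat.Agent.S36.V3Desc_helper3

/-!
# Item 86 (S36), slice (TRIPLE-ASM) (helper13, second of helper11): the concrete `H4S36.Triple`, ALL
fields discharged

* `H13TP.triple_full`  : `H11TA.triple_of_norm` with the eight (NORM) fields plugged in
  (`H13TN.fld_vN*`, `H13TN.fld_cN*`), generic `K₃ = K₁(ζ)`;
* `H13TP.triple_dV3`   : the same for `V₃ = H3V3.dV3 A L M q hq hqM ζ₀ hζ₀` (`K₃ = L(ζ₀)`), with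
  hypotheses on `L` ONLY `FiniteDimensional ℚ L` and `Irreducible (q : descVal A L)`.
-/

set_option autoImplicit false
set_option linter.unusedSectionVars false
set_option linter.unusedVariables false
set_option linter.style.haveILetI false
set_option linter.style.longLine false
set_option synthInstance.maxHeartbeats 400000
set_option maxHeartbeats 4000000

noncomputable section

open IntermediateField AlgebraicCurve ModularCurve H7S18 RH24 HahnSeries H8PB H4S36 H17T3 H4S34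
  H1FW

namespace H13TP

section full

variable (M : ℕ) [NeZero M] (q : ℕ) [NeZero q] (hq : q.Prime) (hqM : ¬ q ∣ M)
  (hT : TameLevel q M)
  (A : ValuationSubring (AlgebraicClosure ℚ)) (hA : A.LiesOverPrime q)
  (K₁ : IntermediateField ℚ (AlgebraicClosure ℚ)) (hfin : FiniteDimensional ℚ K₁)
  (hunr : Irreducible ((q : ℕ) : ↥(descVal A K₁)))
  (K₃ : IntermediateField ℚ (AlgebraicClosure ℚ)) (hfin₃ : FiniteDimensional ℚ K₃)
  (h13 : K₁ ≤ K₃) (ζ : (↥K₃)ˣ) (hζ : IsPrimitiveRoot ζ q)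
  (hK₃ : ∀ c : ↥K₃, ∃ a : Fin (q - 1) → ↥K₁,
    c = ∑ i : Fin (q - 1), IntermediateField.inclusion h13 (a i) * ((ζ : ↥K₃) - 1) ^ (i : ℕ))
  [IsDiscreteValuationRing ↥(descVal A K₁)] [IsDiscreteValuationRing ↥(descVal A K₃)]
  [Fact q.Prime] [CharP (IsLocalRing.ResidueField ↥(descVal A K₁)) q]
  (B : H28GV.GVBasis (descVal A K₁) (IsLocalRing.residue ↥(descVal A K₁)) M)
  [Algebra ↥(descVal A K₁) (FK K₁ (M * q * q))]
  [IsScalarTower ↥(descVal A K₁) K₁ (FK K₁ (M * q * q))]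
  [Algebra ↥(descVal A K₁) (FK K₁ (M * q))]
  [IsScalarTower ↥(descVal A K₁) K₁ (FK K₁ (M * q))]

include hT hA hfin hunr hfin₃ hK₃ B in
/-- **the concrete `Triple`** (generic `K₃`), all fields discharged. -/
theorem triple_full (n : ℕ) (hn : 0 < n)
    (t₀ : LaurentSeries ℚ) (ht₀ : IsBase (baseKind q) t₀)
    (t : FK K₁ (M * q * q)) (ht : (t : LaurentSeries K₁) = coeffEmb K₁ t₀) :
    Triple ↥(descVal A K₁) K₁ (FK K₁ (M * q * q)) (FK K₁ (M * q))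
      ((q : ℕ) : ↥(descVal A K₁)) t q n
      (heckeAlphaBar ↥K₁ (M * q) q).toRingHom (heckeBetaBar ↥K₁ (M * q) q).toRingHom
      (normAKH K₁ M q) (normBKH K₁ M q)
      (cV1 K₁ (descVal A K₁) M q) (cV2 K₁ (descVal A K₁) M q hq hqM)
      (cV3 K₁ M q hq hqM K₃ (descVal A K₃) h13 ζ hζ)
      (cV1' K₁ (descVal A K₁) M q) (cV2' K₁ (descVal A K₁) M q hq hqM) (cb3 K₁ M q) := by
  have hR := H11TA.hR_desc A K₁ K₃ h13
  have hqR : ((q : ℕ) : ↥K₃) ∈ (descVal A K₃).nonunits := H8TG.h8tg_hqR q A hA K₃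
  have hϖ0 : algebraMap ↥(descVal A K₁) (FK K₁ (M * q * q)) ((q : ℕ) : ↥(descVal A K₁)) ≠ 0 :=
    H11TA.algebraMap_ne_zero K₁ (descVal A K₁) hunr (M * q * q)
  have hϖ₁ := H11TA.fld_hϖ₁ K₁ (descVal A K₁) M q hunr
  have hϖ₂ := H11TA.fld_hϖ₂ K₁ (descVal A K₁) M q hq hqM hunr
  have hd₁ := H25HD.hd_cV1 K₁ (descVal A K₁) M q ((q : ℕ) : ↥(descVal A K₁)) hunr
  have hd₂ := H25HD.hd_cV2 K₁ (descVal A K₁) M q hq hqM ((q : ℕ) : ↥(descVal A K₁)) hunr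
  have hd₃ := H3V3.tri_hd₃_gen K₁ K₃ (descVal A K₁) (descVal A K₃) M q hq hqM h13 ζ hζ hR hqR
    hunr hK₃
  have wg : ∀ ψ₁ ψ₂ ψ₃ : FK K₁ (M * q * q),
      (cV1 K₁ (descVal A K₁) M q).valuation ψ₁ = 1 →
      (cV2 K₁ (descVal A K₁) M q hq hqM).valuation ψ₂ = 1 →
      (cV3 K₁ M q hq hqM K₃ (descVal A K₃) h13 ζ hζ).valuation ψ₃ = 1 →
      ∃ Ψ : FK K₁ (M * q * q), Cg (cV1 K₁ (descVal A K₁) M q) Ψ ψ₁ ∧
        Cg (cV2 K₁ (descVal A K₁) M q hq hqM) Ψ ψ₂ ∧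
        Cg (cV3 K₁ M q hq hqM K₃ (descVal A K₃) h13 ζ hζ) Ψ ψ₃ :=
    fun ψ₁ ψ₂ ψ₃ _ _ _ =>
      H27WA.c_wg K₁ (descVal A K₁) M q hq hqM K₃ (descVal A K₃) h13 ζ hζ hqR _ hϖ0 hϖ₁ hϖ₂
        hd₁ hd₂ hd₃ ψ₁ ψ₂ ψ₃
  have f₃α := H9CU.triple_f3α M q hq hqM hT A hA K₁ hfin hunr K₃ hfin₃ h13 ζ hζ t₀ ht₀ t ht wg
  have hU2 := H24V3.cV3_comap_wq2 K₁ (descVal A K₁) M q hq hqM K₃ (descVal A K₃) h13 hR hunr B
    ζ hζ
  have f₃β := H8TG.tg_f3β_of_f3α K₁ (descVal A K₁) M q hq hqM _ hU2 f₃α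
  exact H11TA.triple_of_norm M q hq hqM hT A hA K₁ hfin hunr K₃ hfin₃ h13 ζ hζ hK₃ B n hn
    t₀ ht₀ t ht
    (H13TN.fld_vNα₁ h13 (descVal A K₁) (descVal A K₃) hR M q hq hqM hunr B ζ hζ hunr f₃α)
    (H13TN.fld_vNα₂ h13 (descVal A K₁) (descVal A K₃) hR M q hq hqM hunr ζ hζ _)
    (H13TN.fld_vNβ₁ h13 (descVal A K₁) (descVal A K₃) hR M q hq hqM hunr ζ hζ _)
    (H13TN.fld_vNβ₂ h13 (descVal A K₁) (descVal A K₃) hR M q hq hqM hunr B ζ hζ hunr f₃β)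
    (H13TN.fld_cNα₁ h13 (descVal A K₁) (descVal A K₃) hR M q hq hqM hunr B ζ hζ)
    (H13TN.fld_cNα₂ h13 (descVal A K₁) (descVal A K₃) hR M q hq hqM hunr ζ hζ)
    (H13TN.fld_cNβ₂ h13 (descVal A K₁) (descVal A K₃) hR M q hq hqM hunr B ζ hζ)
    (H13TN.fld_cNβ₁ h13 (descVal A K₁) (descVal A K₃) hR M q hq hqM hunr ζ hζ)

end full

section dV3

variable (M : ℕ) [NeZero M] (q : ℕ) [NeZero q] (hq : q.Prime) (hqM : ¬ q ∣ M)
  (hT : TameLevel q M)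
  (A : ValuationSubring (AlgebraicClosure ℚ)) (hA : A.LiesOverPrime q)
  (L : IntermediateField ℚ (AlgebraicClosure ℚ)) (hfin : FiniteDimensional ℚ L)
  (hirr : Irreducible ((q : ℕ) : ↥(descVal A L)))
  (ζ₀ : AlgebraicClosure ℚ) (hζ₀ : IsPrimitiveRoot ζ₀ q)
  [IsDiscreteValuationRing ↥(descVal A L)]
  [IsDiscreteValuationRing ↥(descVal A (H3V3.K3 L ζ₀))]
  [Algebra ↥(descVal A L) (FK L (M * q * q))]
  [IsScalarTower ↥(descVal A L) L (FK L (M * q * q))]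
  [Algebra ↥(descVal A L) (FK L (M * q))]
  [IsScalarTower ↥(descVal A L) L (FK L (M * q))]

include hT hA hfin hirr in
/-- **the concrete `Triple`** for `V₃ = H3V3.dV3` (`K₃ = L(ζ₀)`, `R₃ = A ∩ K₃`). -/
theorem triple_dV3 (n : ℕ) (hn : 0 < n)
    (t₀ : LaurentSeries ℚ) (ht₀ : IsBase (baseKind q) t₀)
    (t : FK L (M * q * q)) (ht : (t : LaurentSeries L) = coeffEmb L t₀) :
    Triple ↥(descVal A L) L (FK L (M * q * q)) (FK L (M * q))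
      ((q : ℕ) : ↥(descVal A L)) t q n
      (heckeAlphaBar ↥L (M * q) q).toRingHom (heckeBetaBar ↥L (M * q) q).toRingHom
      (normAKH L M q) (normBKH L M q)
      (cV1 L (descVal A L) M q) (cV2 L (descVal A L) M q hq hqM)
      (H3V3.dV3 A L M q hq hqM ζ₀ hζ₀)
      (cV1' L (descVal A L) M q) (cV2' L (descVal A L) M q hq hqM) (cb3 L M q) := by
  haveI : Fact q.Prime := ⟨hq⟩
  haveI := H13TN.charP_of_unr (descVal A L) q hq hirr
  have hchar : ∀ r : ℕ, r.Prime → r ∣ M →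
      (r : IsLocalRing.ResidueField ↥(descVal A L)) ≠ 0 := by
    intro r hr hrM h0
    have h1 := (CharP.cast_eq_zero_iff (IsLocalRing.ResidueField ↥(descVal A L)) q r).mp h0
    have h2 : q = r := (Nat.prime_dvd_prime_iff_eq hq hr).mp h1
    exact hqM (h2 ▸ hrM)
  obtain ⟨B⟩ := H28GV.gv_basis_nonempty_gen (descVal A L)
    (IsLocalRing.residue ↥(descVal A L)) M hchar
  haveI := hfin
  have hfin₃ : FiniteDimensional ℚ (H3V3.K3 L ζ₀) :=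
    H3V3.finiteDimensional_K3 L ζ₀ hq.pos hζ₀.pow_eq_one
  exact triple_full M q hq hqM hT A hA L hfin hirr (H3V3.K3 L ζ₀) hfin₃ (H3V3.le_K3 L ζ₀)
    (H3V3.zetaU L ζ₀ hq.pos hζ₀.pow_eq_one) (H3V3.isPrimitiveRoot_zetaU L ζ₀ hq.pos hζ₀)
    (H3V3.hK3_K3 L ζ₀ hq hζ₀) B n hn t₀ ht₀ t ht

end dV3

end H13TP

end
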