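import Fermat.Agent.S36.ConcGlue_helper4
import Fermat.Agent.S36.TripleFull_helper13

/-!
# Item 86 (S36), the (NORM) leaf of the architect's glue (helper13)

* `H13TP.concNormAt_of` : `H4S36.ConcNormAt M q hq hqM A L` for every number field `L` in which
  `q` is a uniformizer of `descVal A L` (`TameLevel q M`);
* `H13TP.concNormStatement : H4S36.ConcNormStatement` (the `U`-form, `K₀ = ⊥`).
-/

set_option autoImplicit false
set_option linter.unusedSectionVars false
set_option linter.unusedVariables false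
set_option linter.style.haveILetI false
set_option linter.style.longLine false
set_option synthInstance.maxHeartbeats 400000
set_option maxHeartbeats 4000000

noncomputable section

open IntermediateField AlgebraicCurve ModularCurve H7S18 RH24 HahnSeries H8PB H4S36 H17T3 H4S34
  H1FW

namespace H13TP

section conc

variable (M : ℕ) [NeZero M] (q : ℕ) [NeZero q] [NeZero (M * q)] [NeZero (M * q * q)]
  (hq : q.Prime) (hqM : ¬ q ∣ M)

/-- **the (NORM) leaf at one field** `L`, unramified at `A`. -/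
theorem concNormAt_of (hT : TameLevel q M)
    (A : ValuationSubring (AlgebraicClosure ℚ)) (hA : A.LiesOverPrime q)
    (L : IntermediateField ℚ (AlgebraicClosure ℚ)) (hfin : FiniteDimensional ℚ L)
    (hunr : Irreducible ((q : ℕ) : ↥(descVal A L))) :
    ConcNormAt M q hq hqM A L := by
  intro K₃ hfin₃ h13 ζ hζ hK₃ _ _ _ _ _ _
  haveI : Fact q.Prime := ⟨hq⟩
  haveI := H13TN.charP_of_unr (descVal A L) q hq hunr
  have hchar : ∀ r : ℕ, r.Prime → r ∣ M →
      (r : IsLocalRing.ResidueField ↥(descVal A L)) ≠ 0 := by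
    intro r hr hrM h0
    have h1 := (CharP.cast_eq_zero_iff (IsLocalRing.ResidueField ↥(descVal A L)) q r).mp h0
    have h2 : q = r := (Nat.prime_dvd_prime_iff_eq hq hr).mp h1
    exact hqM (h2 ▸ hrM)
  obtain ⟨B⟩ := H28GV.gv_basis_nonempty_gen (descVal A L)
    (IsLocalRing.residue ↥(descVal A L)) M hchar
  -- a base function
  have hdvd : M ∣ M * q * q := by rw [mul_assoc]; exact dvd_mul_right _ _
  have hi : baseKind q = 1 ∨ (baseKind q = 2 ∧ 2 ∣ M * q * q) ∨
      (baseKind q = 3 ∧ 3 ∣ M * q * q) := by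
    rcases h7_baseKind_ok hT with h | h | h
    · exact Or.inl h
    · exact Or.inr (Or.inl ⟨h.1, h.2.trans hdvd⟩)
    · exact Or.inr (Or.inr ⟨h.1, h.2.trans hdvd⟩)
  obtain ⟨t₀, ht₀⟩ : ∃ t₀ : LaurentSeries ℚ, IsBase (baseKind q) t₀ := by
    rcases hi with h | h | h
    · exact ⟨jq, Or.inl ⟨h, rfl⟩⟩
    · exact ⟨modularUnitSeries 2, Or.inr (Or.inl ⟨h.1, rfl⟩)⟩
    · obtain ⟨-, t₃, ht₃, -⟩ := H4HM.hauptmodulStatement
      rw [← h.1] at ht₃
      exact ⟨t₃, ht₃⟩
  obtain ⟨t, htcoe, -, -, -⟩ := H9C6e.fieldBasics (M * q * q) (baseKind q) hi t₀ ht₀ L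
  have hTri := triple_full M q hq hqM hT A hA L hfin hunr K₃ hfin₃ h13 ζ hζ hK₃ B 1 one_pos
    t₀ ht₀ t htcoe
  exact ⟨hTri.vNα₁, hTri.vNα₂, hTri.vNβ₁, hTri.vNβ₂, hTri.cNα₁, hTri.cNα₂, hTri.cNβ₂, hTri.cNβ₁⟩

end conc

/-- **(NORM) leaf**, all levels, `U`-form. -/
theorem concNormStatement : ConcNormStatement := by
  intro M q _ _ _ _ hq hqM hRT A hA n hn hqn
  refine ⟨⊥, inferInstance, ?_⟩
  intro K₁ hK₁ hnor hle hζ
  haveI := hK₁
  exact concNormAt_of M q hq hqM hRT.2.1 A hA (H29DU.unrPart A K₁)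
    (H29DU.finiteDimensional_unrPart A K₁) (H29DU.irreducible_unrPart A K₁ q hq hA)

end H13TP

end
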