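import Mathlib
import Fermat.Agent.S36.ConstUnr_helper29

/-!
# Item 86 (S36): constant field extensions are unramified, STRONG form (helper29)

* `H29CV.eps_eq_one`: a place `W` of `F_{ℚ̄}(N)` with `ord_W (φ f) = ε ord_V f` for all
  `f ∈ F_L(N)` (`ε > 0`, `V` a place of `F_L(N)`, `L` a number field) has `ε = 1`.
* `H29CV.ord_eq_of_le`: EVERY place `W` of `F_{ℚ̄}(N)` lying over `V`
  (`0 ≤ ord_V x → 0 ≤ ord_W (φ x)`) satisfies `ord_W (φ x) = ord_V x`.
* `H29CV.ord_eq_of_comap`: the same with `V = W ∩ F_L(N)` as valuation subrings.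
-/

set_option autoImplicit false
set_option synthInstance.maxHeartbeats 400000
set_option maxHeartbeats 1000000
set_option linter.style.haveILetI false
set_option linter.style.longLine false
set_option linter.unusedSectionVars false
set_option linter.unusedVariables false

noncomputable section

open H11W3G ModularCurve AlgebraicCurve H7S18 H28GV H29R2M

namespace H29CV

local notation "Qb" => AlgebraicClosure ℚ

section Main

variable (N : ℕ) [NeZero N]

attribute [local instance] algFF towKF algFFalg algKL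

/-- the index of a place of `F_{ℚ̄}(N)` over a place of `F_L(N)` is `1`. -/
theorem eps_eq_one (L : IntermediateField ℚ Qb) [FiniteDimensional ℚ L]
    (V : Place L (FK L N)) (W : Place Qb (FK Qb N)) (ε : ℕ) (hε : 0 < ε)
    (hW : ∀ f : FK L N, W.ord (phi N L f) = ε * V.ord f) : ε = 1 := by
  classical
  -- uniformizers
  obtain ⟨u₁', hu₁'⟩ := IsDiscreteValuationRing.exists_irreducible V.toValuationSubring
  have hu₁ : V.ord (u₁' : FK L N) = 1 := V.ord_coe_irreducible hu₁'
  obtain ⟨π', hπ'⟩ := IsDiscreteValuationRing.exists_irreducible W.toValuationSubring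
  have hπ : W.ord (π' : FK Qb N) = 1 := W.ord_coe_irreducible hπ'
  obtain ⟨K₂, hK₂fin, hK₂nor, hLK₂, -, hT⟩ :=
    H29DS.exists_level_finset N 1 one_pos L {(π' : FK Qb N)}
  haveI := hK₂fin
  haveI := hK₂nor
  obtain ⟨π₂, hπ₂⟩ := hT (π' : FK Qb N) (Finset.mem_singleton_self _)
  -- `u` in `FK K₂ N`
  have hcoefu : ∀ j, ((phi N L (u₁' : FK L N) : modularFunctionFieldBar N) :
      LaurentSeries Qb).coeff j ∈ K₂ := by
    intro j
    rw [phi_coe, coeffMap_coeff]
    exact hLK₂ (_ : L).2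
  obtain ⟨u, hu⟩ := H29DU.exists_phi_eq N K₂ (phi N L (u₁' : FK L N)) hcoefu
  have hWu : W.ord (phi N K₂ u) = ε := by
    rw [hu, hW, hu₁, mul_one]
  have hu0 : u ≠ 0 := by
    intro h0
    rw [h0, map_zero, W.ord_zero] at hWu
    exact hε.ne' (by exact_mod_cast hWu.symm)
  have hφu0 : phi N K₂ u ≠ 0 := fun h0 => hu0 ((phi N K₂).injective (by rw [h0, map_zero]))
  -- apply the abstract lemma
  have hone : ∀ x : FK K₂ N, H29DU.rhoHom (modularFunctionFieldFull N) (H29CU.fixL L K₂) 1 x = x := by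
    intro x
    apply Subtype.ext
    rw [H29DU.rhoHom_coe]
    exact coeffMap_id _
  have hC : ∀ σ : H29CU.fixL L K₂, ∀ c ∈ (algebraMap K₂ (FK K₂ N)).fieldRange,
      H29DU.rhoHom (modularFunctionFieldFull N) (H29CU.fixL L K₂) σ c ∈
        (algebraMap K₂ (FK K₂ N)).fieldRange := by
    rintro σ _ ⟨c, rfl⟩
    rw [H29DU.rhoHom_algebraMap]
    exact ⟨_, rfl⟩
  have hfaith : ∀ σ τ : H29CU.fixL L K₂, (∀ c ∈ (algebraMap K₂ (FK K₂ N)).fieldRange,
      H29DU.rhoHom (modularFunctionFieldFull N) (H29CU.fixL L K₂) σ c =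
        H29DU.rhoHom (modularFunctionFieldFull N) (H29CU.fixL L K₂) τ c) → σ = τ := by
    intro σ τ h
    apply Subtype.ext
    apply AlgEquiv.ext
    intro c
    have h1 := h _ ⟨c, rfl⟩
    rw [H29DU.rhoHom_algebraMap, H29DU.rhoHom_algebraMap] at h1
    exact (algebraMap K₂ (FK K₂ N)).injective h1
  have hCO : ∀ c ∈ (algebraMap K₂ (FK K₂ N)).fieldRange,
      c ∈ W.toValuationSubring.comap (phi N K₂) := by
    rintro _ ⟨c, rfl⟩
    rw [ValuationSubring.mem_comap]
    have e : phi N K₂ (algebraMap K₂ (FK K₂ N) c) =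
        algebraMap Qb (FK Qb N) (algebraMap K₂ Qb c) := by
      rw [← algebraMap_FF, ← IsScalarTower.algebraMap_apply K₂ (FK K₂ N) (FK Qb N),
        IsScalarTower.algebraMap_apply K₂ Qb (FK Qb N)]
    rw [e]
    exact W.algebraMap_mem' _
  have hinv : ∀ y : FK K₂ N,
      (∀ σ : H29CU.fixL L K₂, H29DU.rhoHom (modularFunctionFieldFull N) (H29CU.fixL L K₂) σ y = y) →
      (W.toValuationSubring.comap (phi N K₂)).valuation y < 1 →
      y * u⁻¹ ∈ W.toValuationSubring.comap (phi N K₂) := by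
    intro y hy hlt
    rcases eq_or_ne y 0 with rfl | hy0
    · rw [zero_mul]
      exact zero_mem _
    have hφy0 : phi N K₂ y ≠ 0 := fun h0 => hy0 ((phi N K₂).injective (by rw [h0, map_zero]))
    have hcoef : ∀ j, ((phi N K₂ y : modularFunctionFieldBar N) :
        LaurentSeries Qb).coeff j ∈ L := by
      intro j
      rw [phi_coe, coeffMap_coeff]
      apply H29CU.mem_of_fixL L K₂
      intro γ hγ
      have h1 := congrArg (fun z : FK K₂ N => (z : LaurentSeries K₂).coeff j) (hy ⟨γ, hγ⟩)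
      simp only [H29DU.rhoHom_coe, coeffMap_coeff] at h1
      exact h1
    obtain ⟨y₁, hy₁⟩ := H29DU.exists_phi_eq N L (phi N K₂ y) hcoef
    rw [H29CU.val_lt_one_comap, H29CU.place_val_lt_one_iff W hφy0, ← hy₁, hW] at hlt
    have hVy : 1 ≤ V.ord y₁ := by
      by_contra hneg
      have h1 : V.ord y₁ ≤ 0 := by omega
      have h2 : (ε : ℤ) * V.ord y₁ ≤ 0 :=
        mul_nonpos_of_nonneg_of_nonpos (Int.natCast_nonneg ε) h1
      omega
    rw [ValuationSubring.mem_comap, map_mul, map_inv₀,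
      RH24.h20_mem_iff_ord_nonneg W (mul_ne_zero hφy0 (inv_ne_zero hφu0)),
      W.ord_mul hφy0 (inv_ne_zero hφu0), W.ord_inv, hWu, ← hy₁, hW]
    have h3 : (ε : ℤ) * 1 ≤ (ε : ℤ) * V.ord y₁ :=
      mul_le_mul_of_nonneg_left hVy (Int.natCast_nonneg ε)
    omega
  have hπ₂1 : W.ord (phi N K₂ π₂) = 1 := by
    rw [hπ₂]
    exact hπ
  have hφπ0 : phi N K₂ π₂ ≠ 0 := by
    intro h0
    rw [h0, W.ord_zero] at hπ₂1
    exact zero_ne_one hπ₂1
  have key := H29CU.unif_of_invariants (G := ↥(H29CU.fixL L K₂))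
    (fun γ => H29DU.rhoHom (modularFunctionFieldFull N) (H29CU.fixL L K₂) γ)
    hone (fun σ τ x => H29DU.rhoHom_mul (modularFunctionFieldFull N) (H29CU.fixL L K₂) σ τ x)
    ((algebraMap K₂ (FK K₂ N)).fieldRange) hC hfaith
    (W.toValuationSubring.comap (phi N K₂)) hCO π₂
    (H29CU.isUnif_comap_place W (phi N K₂) π₂ hπ₂1) u hu0 hinv
  rw [ValuationSubring.mem_comap, map_mul, map_inv₀,
    RH24.h20_mem_iff_ord_nonneg W (mul_ne_zero hφπ0 (inv_ne_zero hφu0)),
    W.ord_mul hφπ0 (inv_ne_zero hφu0), W.ord_inv, hWu, hπ₂1] at key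
  have hε1 : (ε : ℤ) = 1 := by
    have : (1 : ℤ) ≤ ε := by exact_mod_cast hε
    omega
  have hε1 : (1 : ℤ) ≤ ε := by exact_mod_cast hε
  have : (ε : ℤ) = 1 := by omega
  exact_mod_cast this

/-- **every place over `V` has index `1`**. -/
theorem ord_eq_of_le (L : IntermediateField ℚ Qb) [FiniteDimensional ℚ L]
    (V : Place L (FK L N)) (W : Place Qb (FK Qb N))
    (h : ∀ x : FK L N, 0 ≤ V.ord x → 0 ≤ W.ord (phi N L x)) (x : FK L N) :
    W.ord (phi N L x) = V.ord x := by
  obtain ⟨u₁', hu₁'⟩ := IsDiscreteValuationRing.exists_irreducible V.toValuationSubring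
  have hu₁ : V.ord (u₁' : FK L N) = 1 := V.ord_coe_irreducible hu₁'
  have hu₁0 : (u₁' : FK L N) ≠ 0 := by
    intro h0
    rw [h0, V.ord_zero] at hu₁
    exact zero_ne_one hu₁
  have hφ0 : ∀ {y : FK L N}, y ≠ 0 → phi N L y ≠ 0 := fun {y} hy h0 =>
    hy ((phi N L).injective (by rw [h0, map_zero]))
  -- units
  have hunit : ∀ y : FK L N, y ≠ 0 → V.ord y = 0 → W.ord (phi N L y) = 0 := by
    intro y hy hy0
    have h1 := h y hy0.ge
    have h2 := h y⁻¹ (by rw [V.ord_inv, hy0, neg_zero])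
    rw [map_inv₀, W.ord_inv] at h2
    omega
  have hεnn : 0 ≤ W.ord (phi N L (u₁' : FK L N)) := h _ (by rw [hu₁]; exact zero_le_one)
  -- proportionality
  have hprop : ∀ y : FK L N, W.ord (phi N L y) = W.ord (phi N L (u₁' : FK L N)) * V.ord y := by
    intro y
    rcases eq_or_ne y 0 with rfl | hy
    · rw [map_zero, W.ord_zero, V.ord_zero, mul_zero]
    have hz0 : y * (u₁' : FK L N) ^ (-(V.ord y)) ≠ 0 := mul_ne_zero hy (zpow_ne_zero _ hu₁0)
    have hz : V.ord (y * (u₁' : FK L N) ^ (-(V.ord y))) = 0 := by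
      rw [V.ord_mul hy (zpow_ne_zero _ hu₁0), V.ord_zpow, hu₁]
      ring
    have h1 := hunit _ hz0 hz
    rw [map_mul, map_zpow₀, W.ord_mul (hφ0 hy) (zpow_ne_zero _ (hφ0 hu₁0)), W.ord_zpow] at h1
    linarith
  -- the index is positive
  have hεpos : 0 < W.ord (phi N L (u₁' : FK L N)) := by
    rcases hεnn.lt_or_eq with hlt | heq
    · exact hlt
    exfalso
    have hall : ∀ y : FK L N, phi N L y ∈ W.toValuationSubring := by
      intro y
      rcases eq_or_ne y 0 with rfl | hy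
      · rw [map_zero]
        exact zero_mem _
      rw [RH24.h20_mem_iff_ord_nonneg W (hφ0 hy), hprop y, ← heq, zero_mul]
    obtain ⟨π', hπ'⟩ := IsDiscreteValuationRing.exists_irreducible W.toValuationSubring
    have hπ : W.ord (π' : FK Qb N) = 1 := W.ord_coe_irreducible hπ'
    have hπ0 : (π' : FK Qb N) ≠ 0 := by
      intro h0
      rw [h0, W.ord_zero] at hπ
      exact zero_ne_one hπ
    obtain ⟨p, hp, hpe⟩ := phi_int N L (π' : FK Qb N)⁻¹
    let g : FK L N →+* W.toValuationSubring :=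
      (phi N L).codRestrict W.toValuationSubring.toSubring hall
    have hint : IsIntegral W.toValuationSubring ((π' : FK Qb N)⁻¹) := by
      refine ⟨p.map g, hp.map g, ?_⟩
      rw [Polynomial.eval₂_map]
      exact hpe
    obtain ⟨z, hz⟩ := IsIntegrallyClosed.algebraMap_eq_of_integral hint
    have hmem : (π' : FK Qb N)⁻¹ ∈ W.toValuationSubring := by
      rw [← hz]
      exact z.2
    rw [RH24.h20_mem_iff_ord_nonneg W (inv_ne_zero hπ0), W.ord_inv, hπ] at hmem
    omega
  obtain ⟨ε, hε⟩ : ∃ ε : ℕ, W.ord (phi N L (u₁' : FK L N)) = ε :=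
    ⟨(W.ord (phi N L (u₁' : FK L N))).toNat, (Int.toNat_of_nonneg hεnn).symm⟩
  have hε0 : 0 < ε := by
    rw [hε] at hεpos
    exact_mod_cast hεpos
  have h1 := eps_eq_one N L V W ε hε0 (fun f => by rw [hprop f, hε])
  rw [hprop x, hε, h1, Nat.cast_one, one_mul]

/-- the same, for `V = W ∩ F_L(N)`. -/
theorem ord_eq_of_comap (L : IntermediateField ℚ Qb) [FiniteDimensional ℚ L]
    (V : Place L (FK L N)) (W : Place Qb (FK Qb N))
    (h : V.toValuationSubring ≤ W.toValuationSubring.comap (phi N L)) (x : FK L N) :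
    W.ord (phi N L x) = V.ord x := by
  refine ord_eq_of_le N L V W (fun y hy => ?_) x
  rcases eq_or_ne y 0 with rfl | hy0
  · rw [map_zero, W.ord_zero]
  have hφ0 : phi N L y ≠ 0 := fun h0 => hy0 ((phi N L).injective (by rw [h0, map_zero]))
  rw [← RH24.h20_mem_iff_ord_nonneg W hφ0]
  exact h ((RH24.h20_mem_iff_ord_nonneg V hy0).2 hy)

end Main

end H29CV

end
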