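/-
helper7: item 86 (S36), (CUSP3) generic in `H4S36.Triple`: the field `hC3` of
`H19LA.ChartLeaves` (= slot `hC3` of `H2L1.l1uAll`) at a closed point `𝔫` of a chart `c`
(`c = t` or `c = t⁻¹`; only `hct : GInt c ↔ GInt t` is used).

Inputs (all concrete facts at level `M q q`):
* `hϖq`   : `ϖ = q` in `F`;
* (i)     : the modular equations `Φ(J₀, J₁) = Φ(J₁, J₂) = Φ(J₁, J₀) = 0`, `J₁, J₂ ≠ 0`;
* (ii)    : Kronecker at `V₃` : `J₁⁻¹ ≡ J₀⁻q`, `J₁⁻¹ ≡ J₂⁻q`, `J₁⁻¹` a unit;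
* `hb`    : `b₃ = J₂ - J₀`, a unit at `V₁`, `V₂`;  `J₀` a unit at `V₁, V₂, V₃`;
* (A) `hU` : `J₀ ∉ B_𝔫 → J₀` has a pole at `𝔫`;
* (CU3)   : a uniformizer of the component `V₃` at `𝔫`.
-/
import Mathlib
import Fermat.Agent.S36.Cusp3Thr_helper7
import Fermat.Agent.S36.R2Triple_helper26

set_option autoImplicit false
set_option linter.unusedSectionVars false
set_option linter.unusedVariables false
set_option linter.style.longLine false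

open Polynomial IntermediateField H7S18 H4S34 AlgebraicCurve H27CS

noncomputable section

namespace H7C3

section triple

variable (R : Type) [CommRing R] [IsDomain R] [IsDiscreteValuationRing R]
  (K : Type) [Field K] [CharZero K] [Algebra R K] [IsFractionRing R K]
  {F : Type} [Field F] [Algebra K F] [Algebra R F] [IsScalarTower R K F]
  {F' : Type} [Field F'] [Algebra K F'] [Algebra R F'] [IsScalarTower R K F']

variable {ϖ : R} {t : F} {q n : ℕ} {φα φβ : F' →+* F} {Nα Nβ : F →* F'}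
  {V₁ V₂ V₃ : ValuationSubring F} {V₁' V₂' : ValuationSubring F'} {b₃ : F}

/-- `v(x / y - 1) = v(x - y)` for a unit `y`. -/
theorem val_div_sub_one {V : ValuationSubring F} {x y : F} (hy : V.valuation y = 1) :
    V.valuation (x / y - 1) = V.valuation (x - y) := by
  have hy0 : y ≠ 0 := by
    intro h0
    rw [h0, map_zero] at hy
    exact zero_ne_one hy
  have e : x / y - 1 = (x - y) * y⁻¹ := by
    field_simp
  rw [e, map_mul, map_inv₀, hy, inv_one, mul_one]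

/-- **the field `hC3` of `H19LA.ChartLeaves`**, generic in the `Triple`. -/
theorem hC3_of_triple [NeZero q]
    (hT : H4S36.Triple R K F F' ϖ t q n φα φβ Nα Nβ V₁ V₂ V₃ V₁' V₂' b₃)
    (hϖ : Irreducible ϖ) {c : F} (hc : Transcendental K c) [hfin : FiniteDimensional K⟮c⟯ F]
    (hct : ∀ x : F, GInt R ϖ c x ↔ GInt R ϖ t x)
    (hq : q.Prime) (hϖq : algebraMap R F ϖ = ((q : ℕ) : F))
    {Φ : Polynomial (Polynomial ℤ)} (hΦ : IsModPoly q Φ)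
    (hmon : Φ.Monic) (hdeg : Φ.natDegree = q + 1) {J₀ J₁ J₂ : F} (hJ₁ : J₁ ≠ 0) (hJ₂ : J₂ ≠ 0)
    (h01 : ev2 Φ J₀ J₁ = 0) (h12 : ev2 Φ J₁ J₂ = 0) (h10 : ev2 Φ J₁ J₀ = 0)
    (hK₃a : V₃.valuation (J₁⁻¹ - (J₀⁻¹) ^ q) < 1) (hK₃b : V₃.valuation (J₁⁻¹ - (J₂⁻¹) ^ q) < 1)
    (hu₃ : ¬ V₃.valuation J₁⁻¹ < 1)
    (hb : b₃ = J₂ - J₀)
    (hb₁ : V₁.valuation b₃ = 1) (hb₂ : V₂.valuation b₃ = 1)
    (hJ₀₁ : V₁.valuation J₀ = 1) (hJ₀₂ : V₂.valuation J₀ = 1) (hJ₀₃ : V₃.valuation J₀ = 1)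
    (𝔫 : Ideal (Chart R c)) (h𝔫 : IsClosedPt R ϖ c 𝔫)
    (hU : ¬ InLoc R c 𝔫 J₀ → ∃ a s : Chart R c, s ∉ 𝔫 ∧ a ∈ 𝔫 ∧ J₀ * (a : F) = (s : F))
    (hCU3 : H10G3.Through R c 𝔫 V₃ → ∃ u ∈ 𝔫, ∀ y ∈ 𝔫, ∃ s d : Chart R c, s ∉ 𝔫 ∧
      V₃.valuation ((s : F) * y - d * u) < 1)
    (h1 : ¬ H10G3.Through R c 𝔫 V₁) (h2 : ¬ H10G3.Through R c 𝔫 V₂)
    (h3 : H10G3.Through R c 𝔫 V₃) (hj : ¬ InLoc R c 𝔫 J₀) :
    H2L1.TwoGenAt R c 𝔫 := by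
  classical
  have hq2 : 2 ≤ q := hq.two_le
  -- the finset of components
  let 𝒱 : Finset (ValuationSubring F) := {V₁, V₂, V₃}
  have h𝒱 : ∀ V, V ∈ 𝒱 ↔ V = V₁ ∨ V = V₂ ∨ V = V₃ := by
    intro V
    simp only [𝒱, Finset.mem_insert, Finset.mem_singleton]
  have hO : ∀ x : F, GInt R ϖ c x ↔ ∀ V ∈ 𝒱, x ∈ V := by
    intro x
    rw [hct x]
    exact H26R2.hO_of_triple R K hT 𝒱 h𝒱 x
  have hV₃ : V₃ ∈ 𝒱 := (h𝒱 V₃).2 (Or.inr (Or.inr rfl))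
  have hϖV₃ : V₃.valuation (algebraMap R F ϖ) < 1 := H26R2.hϖ₃_of_triple R K hT hq2
  -- `b₃ ≠ 0`, `J₂ ≠ J₀`
  have hb₃0 : b₃ ≠ 0 := by
    intro h0
    rw [h0, map_zero] at hb₁
    exact zero_ne_one hb₁
  have hne : J₂ ≠ J₀ := by
    intro h
    apply hb₃0
    rw [hb, h, sub_self]
  -- the uniformizer `J₂ / J₀ - 1`
  have hval₃ : V₃.valuation (J₂ / J₀ - 1) = V₃.valuation b₃ := by
    rw [val_div_sub_one hJ₀₃, hb]
  have hb₃ : ∀ x : F, V₃.valuation x < 1 → V₃.valuation x ≤ V₃.valuation (J₂ / J₀ - 1) := by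
    intro x hx
    rw [hval₃]
    exact H26R2.hϖ₀_of_ordAt V₃ b₃ hT.hb₃ hT.hd₃ x hx
  have hbV : ∀ V ∈ 𝒱, V ≠ V₃ → V.valuation (J₂ / J₀ - 1) = 1 := by
    intro V hV hne3
    rcases (h𝒱 V).1 hV with h | h | h
    · rw [h, val_div_sub_one hJ₀₁, ← hb]; exact hb₁
    · rw [h, val_div_sub_one hJ₀₂, ← hb]; exact hb₂
    · exact absurd h hne3
  have hsep : ∀ V ∈ 𝒱, V ≠ V₃ → ¬ H10G3.Through R c 𝔫 V := by
    intro V hV hne3
    rcases (h𝒱 V).1 hV with h | h | h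
    · rw [h]; exact h1
    · rw [h]; exact h2
    · exact absurd h hne3
  obtain ⟨u, hu𝔫, hunif⟩ := hCU3 h3
  exact twoGenAt_cusp3 R K ϖ hϖ hc hq hϖq 𝒱 hO V₃ hV₃ hϖV₃ hΦ hmon hdeg hJ₁ hJ₂ hne h01 h12 h10
    hK₃a hK₃b hu₃ hb₃ hbV 𝔫 h𝔫 h3 hsep (hU hj) u hu𝔫 hunif

end triple

end H7C3

end
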