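/-
Item 86 (S36), step (d) REGULARITY, slice 1a (helper23): the derivation `θ = 𝐪 d/d𝐪` on Laurent
series over a commutative ring.

* `H23PS.theta f`, `theta_coeff : (θ f)_n = n f_n`;
* `theta_add`, `theta_sub`, `theta_neg`, `theta_mul` (Leibniz), `theta_pow`, `theta_C`, `theta_one`;
* `theta_smul`, `coeffMap_theta` (base change), `theta_qExpand : θ (f(𝐪^N)) = N • (θ f)(𝐪^N)`.
-/
import Mathlib
import Fermat.Prelude.Def_ModularCurve_X0
import Fermat.Prelude.Def_ModularCurve_LaurentCoeff

set_option autoImplicit false
set_option linter.unusedSectionVars false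
set_option linter.unusedVariables false
set_option linter.style.longLine false

noncomputable section

namespace H23PS

open HahnSeries ModularCurve

variable {R : Type*} [CommRing R]

/-- `θ = 𝐪 d/d𝐪` on Laurent series: `(θ f)_n = n f_n`. -/
def theta (f : LaurentSeries R) : LaurentSeries R :=
  HahnSeries.ofSuppBddBelow (fun n : ℤ => (n : R) * f.coeff n) (by
    refine ⟨f.order, fun x h => ?_⟩
    by_contra hlt
    rw [not_le] at hlt
    apply h
    show (x : R) * f.coeff x = 0
    rw [HahnSeries.coeff_eq_zero_of_lt_order hlt, mul_zero])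

@[simp]
theorem theta_coeff (f : LaurentSeries R) (n : ℤ) : (theta f).coeff n = (n : R) * f.coeff n :=
  rfl

theorem theta_support_subset (f : LaurentSeries R) : (theta f).support ⊆ f.support := by
  intro n hn
  rw [HahnSeries.mem_support] at hn ⊢
  intro h
  apply hn
  rw [theta_coeff, h, mul_zero]

@[simp]
theorem theta_zero : theta (0 : LaurentSeries R) = 0 := by
  ext n
  simp

theorem theta_add (f g : LaurentSeries R) : theta (f + g) = theta f + theta g := by
  ext n
  simp [mul_add]

theorem theta_neg (f : LaurentSeries R) : theta (-f) = -theta f := by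
  ext n
  simp

theorem theta_sub (f g : LaurentSeries R) : theta (f - g) = theta f - theta g := by
  ext n
  simp [mul_sub]

theorem theta_smul (c : R) (f : LaurentSeries R) : theta (c • f) = c • theta f := by
  ext n
  simp only [theta_coeff, HahnSeries.coeff_smul, smul_eq_mul]
  ring

theorem theta_single (n : ℤ) (c : R) :
    theta (HahnSeries.single n c : LaurentSeries R) = HahnSeries.single n ((n : R) * c) := by
  ext m
  rw [theta_coeff]
  rcases eq_or_ne m n with rfl | h
  · rw [HahnSeries.coeff_single_same, HahnSeries.coeff_single_same]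
  · rw [HahnSeries.coeff_single_of_ne h, HahnSeries.coeff_single_of_ne h, mul_zero]

@[simp]
theorem theta_C (c : R) : theta (HahnSeries.C c : LaurentSeries R) = 0 := by
  rw [HahnSeries.C_apply, theta_single]
  simp

@[simp]
theorem theta_one : theta (1 : LaurentSeries R) = 0 := by
  have : (1 : LaurentSeries R) = HahnSeries.C 1 := (map_one _).symm
  rw [this, theta_C]

/-- **Leibniz rule** for `θ`. -/
theorem theta_mul (f g : LaurentSeries R) :
    theta (f * g) = theta f * g + f * theta g := by
  ext n
  rw [theta_coeff, HahnSeries.coeff_add,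
    HahnSeries.coeff_mul_left' f.isPWO_support (theta_support_subset f),
    HahnSeries.coeff_mul_right' g.isPWO_support (theta_support_subset g),
    HahnSeries.coeff_mul, Finset.mul_sum, ← Finset.sum_add_distrib]
  refine Finset.sum_congr rfl fun ij hij => ?_
  have hsum : ij.1 + ij.2 = n := by
    rw [Finset.mem_antidiagonal] at hij
    exact hij.2.2
  rw [theta_coeff, theta_coeff, ← hsum]
  push_cast
  ring

theorem theta_pow (f : LaurentSeries R) (n : ℕ) :
    theta (f ^ (n + 1)) = (n + 1 : ℕ) • (f ^ n * theta f) := by
  induction n with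
  | zero => simp
  | succ n ih =>
    rw [pow_succ, theta_mul, ih]
    simp only [nsmul_eq_mul]
    push_cast
    ring

theorem coeffMap_theta {S : Type*} [CommRing S] (φ : R →+* S) (f : LaurentSeries R) :
    coeffMap φ (theta f) = theta (coeffMap φ f) := by
  ext n
  simp

/-- `θ (f(𝐪^N)) = N · (θ f)(𝐪^N)`. -/
theorem theta_qExpand (N : ℕ) [NeZero N] (f : LaurentSeries R) :
    theta (qExpand R N f) = (N : R) • qExpand R N (theta f) := by
  ext k
  rw [theta_coeff, HahnSeries.coeff_smul, smul_eq_mul]
  by_cases hk : (N : ℤ) ∣ k
  · obtain ⟨m, rfl⟩ := hk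
    rw [qExpand_coeff_mul, qExpand_coeff_mul, theta_coeff]
    push_cast
    ring
  · rw [qExpand_coeff_of_not_dvd N f hk, qExpand_coeff_of_not_dvd N (theta f) hk, mul_zero,
      mul_zero]

end H23PS

end
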