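/-
Item 86 (S36), step (d) REGULARITY, slice 1b (helper23): the `𝐪`-series identities of the
`ψ`-proof, over `ℤ` and over any commutative ring.

`j = jqModC`, `j_q = j(𝐪^q) = qExpand q j`, `θ = 𝐪 d/d𝐪`.
* `frob_jq`          : `j_q = j^q + q • r` with `r ∈ ℤ((𝐪))` (Frobenius congruence);
* `isUnit_theta_jq`  : `θ j` is a unit of `ℤ((𝐪))` (leading coefficient `-1`);
* `psi_packageZ`     : `r, ψ, ψ' ∈ ℤ((𝐪))` with `ψ ψ' = 1`, `j_q = j^q + q r`,
                       `(θ j)(𝐪^q) = ψ · θ j`, `ψ · θ j = j^(q-1) · θ j + θ r`   (the identity (†));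
* `psi_package`      : the same over any commutative ring `S` (image under `ℤ → S`).
-/
import Mathlib
import Fermat.Agent.S36.PsiTheta_helper23
import Fermat.Agent.S37.R3Red_helper23
import Fermat.Prelude.Def_ModularCurve_JqCoeff
import Fermat.Prelude.Def_ModularCurve_X0ModL
import Fermat.Prelude.Thm_ModularCurve_coeffMap_qExpand

set_option autoImplicit false
set_option linter.unusedSectionVars false
set_option linter.unusedVariables false
set_option linter.style.longLine false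
set_option linter.style.haveILetI false

noncomputable section

namespace H23PS

open HahnSeries ModularCurve

/-- a Laurent series over `ℤ` that vanishes modulo `q` is `q • r`. -/
theorem exists_smul_of_coeffMap_eq_zero (q : ℕ) [NeZero q] (f : LaurentSeries ℤ)
    (h : coeffMap (Int.castRingHom (ZMod q)) f = 0) :
    ∃ r : LaurentSeries ℤ, f = (q : ℤ) • r := by
  have hdvd : ∀ n : ℤ, (q : ℤ) ∣ f.coeff n := by
    intro n
    have h1 := congrArg (fun x => HahnSeries.coeff x n) h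
    simp only [coeffMap_coeff, HahnSeries.coeff_zero] at h1
    exact (ZMod.intCast_zmod_eq_zero_iff_dvd _ _).1 h1
  refine ⟨HahnSeries.ofSuppBddBelow (fun n : ℤ => f.coeff n / (q : ℤ)) ?_, ?_⟩
  · refine ⟨f.order, fun x hx => ?_⟩
    by_contra hlt
    rw [not_le] at hlt
    apply hx
    show f.coeff x / (q : ℤ) = 0
    rw [HahnSeries.coeff_eq_zero_of_lt_order hlt, Int.zero_ediv]
  · ext n
    rw [HahnSeries.coeff_smul, smul_eq_mul]
    show f.coeff n = (q : ℤ) * (f.coeff n / (q : ℤ))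
    rw [Int.mul_ediv_cancel' (hdvd n)]

/-- **Frobenius congruence** for `j`: `j(𝐪^q) = j^q + q • r`, `r ∈ ℤ((𝐪))`. -/
theorem frob_jq (q : ℕ) [Fact q.Prime] :
    haveI : NeZero q := ⟨(Fact.out : q.Prime).ne_zero⟩
    ∃ r : LaurentSeries ℤ, qExpand ℤ q (jqModC ℤ) = jqModC ℤ ^ q + (q : ℤ) • r := by
  haveI : NeZero q := ⟨(Fact.out : q.Prime).ne_zero⟩
  have h0 : coeffMap (Int.castRingHom (ZMod q)) (qExpand ℤ q (jqModC ℤ) - jqModC ℤ ^ q) = 0 := by
    rw [map_sub, map_pow, coeffMap_qExpand, coeffMap_jqModC,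
      H23R3.h23r3_frobenius q (jqModC (ZMod q)), ZMod.frobenius_zmod, coeffMap_id, sub_self]
  obtain ⟨r, hr⟩ := exists_smul_of_coeffMap_eq_zero q _ h0
  exact ⟨r, by rw [← hr]; ring⟩

/-- the coefficients of `j`: `j_{-1} = 1`, `j_n = 0` for `n < -1`. -/
theorem jqModC_coeff_neg_one (R : Type*) [CommRing R] : (jqModC R).coeff (-1) = 1 := by
  rw [jqModC, HahnSeries.coeff_single_mul, sub_self, one_mul]
  have : ((0 : ℕ) : ℤ) = 0 := rfl
  rw [← this, HahnSeries.ofPowerSeries_apply_coeff, PowerSeries.coeff_map,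
    PowerSeries.coeff_zero_eq_constantCoeff_apply, constantCoeff_jNum]
  simp

theorem jqModC_coeff_of_lt (R : Type*) [CommRing R] {n : ℤ} (hn : n < -1) :
    (jqModC R).coeff n = 0 := by
  rw [jqModC, HahnSeries.coeff_single_mul, one_mul]
  exact ofPowerSeries_coeff_of_neg _ (by omega)

/-- a Laurent series over `ℤ` with `f_{n₀} = ±1` (a unit) and `f_n = 0` for `n < n₀` is a unit. -/
theorem isUnit_of_coeff (f : LaurentSeries ℤ) (n₀ : ℤ) (h0 : IsUnit (f.coeff n₀))
    (hlt : ∀ n < n₀, f.coeff n = 0) : IsUnit f := by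
  have hne : f.coeff n₀ ≠ 0 := h0.ne_zero
  have hf : f ≠ 0 := by
    rintro rfl
    exact hne rfl
  have hord : f.order = n₀ := by
    apply le_antisymm
    · exact HahnSeries.order_le_of_coeff_ne_zero hne
    · by_contra hcon
      rw [not_le] at hcon
      exact hf (HahnSeries.coeff_order_eq_zero.1 (hlt _ hcon))
  rw [HahnSeries.isUnit_iff, HahnSeries.leadingCoeff_eq, hord]
  exact h0

/-- `θ j` is a unit of `ℤ((𝐪))`. -/
theorem isUnit_theta_jq : IsUnit (theta (jqModC ℤ)) := by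
  refine isUnit_of_coeff _ (-1) ?_ ?_
  · rw [theta_coeff, jqModC_coeff_neg_one]
    simp
  · intro n hn
    rw [theta_coeff, jqModC_coeff_of_lt ℤ hn, mul_zero]

/-- `q • a = q • b ⇒ a = b` in `ℤ((𝐪))`. -/
theorem smul_cancel_int {q : ℤ} (hq : q ≠ 0) {a b : LaurentSeries ℤ} (h : q • a = q • b) :
    a = b := by
  ext n
  have h1 := congrArg (fun x => HahnSeries.coeff x n) h
  simp only [HahnSeries.coeff_smul, smul_eq_mul] at h1
  exact mul_left_cancel₀ hq h1

/-- **the `ψ`-package over `ℤ`**. -/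
theorem psi_packageZ (q : ℕ) [Fact q.Prime] :
    haveI : NeZero q := ⟨(Fact.out : q.Prime).ne_zero⟩
    ∃ r ψ ψ' : LaurentSeries ℤ, ψ * ψ' = 1 ∧
      qExpand ℤ q (jqModC ℤ) = jqModC ℤ ^ q + (q : ℤ) • r ∧
      qExpand ℤ q (theta (jqModC ℤ)) = ψ * theta (jqModC ℤ) ∧
      ψ * theta (jqModC ℤ) = jqModC ℤ ^ (q - 1) * theta (jqModC ℤ) + theta r := by
  haveI : NeZero q := ⟨(Fact.out : q.Prime).ne_zero⟩
  have hq : (q : ℤ) ≠ 0 := by exact_mod_cast (Fact.out : q.Prime).ne_zero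
  obtain ⟨r, hr⟩ := frob_jq q
  obtain ⟨u, hu⟩ := isUnit_theta_jq
  have hu2 : IsUnit (qExpand ℤ q (theta (jqModC ℤ))) := by
    rw [← hu]
    exact (u.isUnit).map (qExpand ℤ q)
  obtain ⟨v, hv⟩ := hu2
  have hψ : qExpand ℤ q (theta (jqModC ℤ)) = (v : LaurentSeries ℤ) * ↑u⁻¹ * theta (jqModC ℤ) := by
    rw [← hu, mul_assoc, Units.inv_mul, mul_one, hv, hu]
  refine ⟨r, (v : LaurentSeries ℤ) * ↑u⁻¹, (u : LaurentSeries ℤ) * ↑v⁻¹, ?_, hr, hψ, ?_⟩
  · calc (v : LaurentSeries ℤ) * ↑u⁻¹ * (↑u * ↑v⁻¹)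
        = ↑v * (↑u⁻¹ * ↑u) * ↑v⁻¹ := by ring
      _ = 1 := by rw [Units.inv_mul, mul_one, Units.mul_inv]
  · rw [← hψ]
    have h1 := congrArg theta hr
    rw [theta_qExpand, theta_add, theta_smul] at h1
    obtain ⟨m, hm⟩ : ∃ m, q = m + 1 := ⟨q - 1, by
      have := (Fact.out : q.Prime).pos
      omega⟩
    have h2 : theta (jqModC ℤ ^ q) = (q : ℤ) • (jqModC ℤ ^ (q - 1) * theta (jqModC ℤ)) := by
      have hm' : q - 1 = m := by omega
      rw [hm', hm, theta_pow]
      simp only [nsmul_eq_mul, zsmul_eq_mul]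
      push_cast
      ring
    rw [h2, ← smul_add] at h1
    exact smul_cancel_int hq h1

/-- **the `ψ`-package over a commutative ring `S`** (image of `psi_packageZ`). -/
theorem psi_package (q : ℕ) [Fact q.Prime] (S : Type*) [CommRing S] :
    haveI : NeZero q := ⟨(Fact.out : q.Prime).ne_zero⟩
    ∃ r ψ ψ' : LaurentSeries ℤ,
      coeffMap (Int.castRingHom S) ψ * coeffMap (Int.castRingHom S) ψ' = 1 ∧
      qExpand S q (jqModC S) = jqModC S ^ q + (q : S) • coeffMap (Int.castRingHom S) r ∧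
      qExpand S q (theta (jqModC S)) = coeffMap (Int.castRingHom S) ψ * theta (jqModC S) ∧
      coeffMap (Int.castRingHom S) ψ * theta (jqModC S) =
        jqModC S ^ (q - 1) * theta (jqModC S) + theta (coeffMap (Int.castRingHom S) r) := by
  haveI : NeZero q := ⟨(Fact.out : q.Prime).ne_zero⟩
  obtain ⟨r, ψ, ψ', h1, h2, h3, h4⟩ := psi_packageZ q
  set c := coeffMap (Int.castRingHom S) with hc
  have hj : c (jqModC ℤ) = jqModC S := coeffMap_jqModC _
  have hsm : ∀ x : LaurentSeries ℤ, c ((q : ℤ) • x) = (q : S) • c x := by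
    intro x
    ext n
    rw [hc, coeffMap_coeff, HahnSeries.coeff_smul, HahnSeries.coeff_smul, coeffMap_coeff,
      smul_eq_mul, smul_eq_mul]
    simp
  refine ⟨r, ψ, ψ', ?_, ?_, ?_, ?_⟩
  · rw [← map_mul, h1, map_one]
  · have := congrArg c h2
    rwa [hc, coeffMap_qExpand, ← hc, hj, map_add, map_pow, hj, hsm] at this
  · have := congrArg c h3
    rwa [hc, coeffMap_qExpand, coeffMap_theta, ← hc, hj, map_mul, hc, coeffMap_theta, ← hc,
      hj] at this
  · have := congrArg c h4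
    rwa [map_mul, map_add, map_mul, map_pow, hc, coeffMap_theta, coeffMap_theta, ← hc, hj] at this

end H23PS

end
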