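/-
Item 86 (S36), step (d) REGULARITY, slice 1b' (helper23): the `𝐪`-series identities of the
`ψ`-proof for ANY base series `x ∈ ℤ((𝐪))` with `x_{-1} = 1`, `x_n = 0` for `n < -1`
(`j`, `t₂ = Δ(𝐪)/Δ(𝐪²)`, `t₃`, ...).

* `frob_gen`          : `x(𝐪^q) = x^q + q • r`, `r ∈ ℤ((𝐪))`;
* `isUnit_theta_gen`  : `θ x` is a unit of `ℤ((𝐪))`;
* `psi_packageZ_gen`  : `r, ψ, ψ'` with `ψ ψ' = 1`, `x(𝐪^q) = x^q + q r`, `(θ x)(𝐪^q) = ψ · θ x`,
                        `ψ · θ x = x^(q-1) · θ x + θ r`;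
* `psi_package_gen`   : the same over any commutative ring `S`.
-/
import Mathlib
import Fermat.Agent.S36.PsiSeries_helper23

set_option autoImplicit false
set_option linter.unusedSectionVars false
set_option linter.unusedVariables false
set_option linter.style.longLine false
set_option linter.style.haveILetI false

noncomputable section

namespace H23PS

open HahnSeries ModularCurve

/-- a base series over `ℤ`: `x_{-1} = 1` and `x_n = 0` for `n < -1`. -/
def IsBaseZ (x : LaurentSeries ℤ) : Prop := x.coeff (-1) = 1 ∧ ∀ n < (-1 : ℤ), x.coeff n = 0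

theorem isBaseZ_jq : IsBaseZ (jqModC ℤ) :=
  ⟨jqModC_coeff_neg_one ℤ, fun _ hn => jqModC_coeff_of_lt ℤ hn⟩

/-- **Frobenius congruence**: `x(𝐪^q) = x^q + q • r`, `r ∈ ℤ((𝐪))`, for every `x ∈ ℤ((𝐪))`. -/
theorem frob_gen (q : ℕ) [Fact q.Prime] (x : LaurentSeries ℤ) :
    haveI : NeZero q := ⟨(Fact.out : q.Prime).ne_zero⟩
    ∃ r : LaurentSeries ℤ, qExpand ℤ q x = x ^ q + (q : ℤ) • r := by
  haveI : NeZero q := ⟨(Fact.out : q.Prime).ne_zero⟩
  have h0 : coeffMap (Int.castRingHom (ZMod q)) (qExpand ℤ q x - x ^ q) = 0 := by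
    rw [map_sub, map_pow, coeffMap_qExpand,
      H23R3.h23r3_frobenius q (coeffMap (Int.castRingHom (ZMod q)) x), ZMod.frobenius_zmod,
      coeffMap_id, sub_self]
  obtain ⟨r, hr⟩ := exists_smul_of_coeffMap_eq_zero q _ h0
  exact ⟨r, by rw [← hr]; ring⟩

/-- `θ x` is a unit of `ℤ((𝐪))` for a base series `x`. -/
theorem isUnit_theta_gen {x : LaurentSeries ℤ} (hx : IsBaseZ x) : IsUnit (theta x) := by
  refine isUnit_of_coeff _ (-1) ?_ ?_
  · rw [theta_coeff, hx.1]
    simp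
  · intro n hn
    rw [theta_coeff, hx.2 n hn, mul_zero]

/-- **the `ψ`-package over `ℤ`** for a base series `x`. -/
theorem psi_packageZ_gen (q : ℕ) [Fact q.Prime] {x : LaurentSeries ℤ} (hx : IsBaseZ x) :
    haveI : NeZero q := ⟨(Fact.out : q.Prime).ne_zero⟩
    ∃ r ψ ψ' : LaurentSeries ℤ, ψ * ψ' = 1 ∧
      qExpand ℤ q x = x ^ q + (q : ℤ) • r ∧
      qExpand ℤ q (theta x) = ψ * theta x ∧
      ψ * theta x = x ^ (q - 1) * theta x + theta r := by
  haveI : NeZero q := ⟨(Fact.out : q.Prime).ne_zero⟩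
  have hq : (q : ℤ) ≠ 0 := by exact_mod_cast (Fact.out : q.Prime).ne_zero
  obtain ⟨r, hr⟩ := frob_gen q x
  obtain ⟨u, hu⟩ := isUnit_theta_gen hx
  have hu2 : IsUnit (qExpand ℤ q (theta x)) := by
    rw [← hu]
    exact (u.isUnit).map (qExpand ℤ q)
  obtain ⟨v, hv⟩ := hu2
  have hψ : qExpand ℤ q (theta x) = (v : LaurentSeries ℤ) * ↑u⁻¹ * theta x := by
    rw [← hu, mul_assoc, Units.inv_mul, mul_one, hv, hu]
  refine ⟨r, (v : LaurentSeries ℤ) * ↑u⁻¹, (u : LaurentSeries ℤ) * ↑v⁻¹, ?_, hr, hψ, ?_⟩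
  · calc (v : LaurentSeries ℤ) * ↑u⁻¹ * (↑u * ↑v⁻¹)
        = ↑v * (↑u⁻¹ * ↑u) * ↑v⁻¹ := by ring
      _ = 1 := by rw [Units.inv_mul, mul_one, Units.mul_inv]
  · rw [← hψ]
    have h1 := congrArg theta hr
    rw [theta_qExpand, theta_add, theta_smul] at h1
    obtain ⟨m, hm⟩ : ∃ m, q = m + 1 := ⟨q - 1, by
      have := (Fact.out : q.Prime).pos
      omega⟩
    have h2 : theta (x ^ q) = (q : ℤ) • (x ^ (q - 1) * theta x) := by
      have hm' : q - 1 = m := by omega
      rw [hm', hm, theta_pow]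
      simp only [nsmul_eq_mul, zsmul_eq_mul]
      push_cast
      ring
    rw [h2, ← smul_add] at h1
    exact smul_cancel_int hq h1

/-- **the `ψ`-package over a commutative ring `S`** for a base series `x`
(`xS = coeffMap (ℤ → S) x`). -/
theorem psi_package_gen (q : ℕ) [Fact q.Prime] {x : LaurentSeries ℤ} (hx : IsBaseZ x)
    (S : Type*) [CommRing S] :
    haveI : NeZero q := ⟨(Fact.out : q.Prime).ne_zero⟩
    ∃ r ψ ψ' : LaurentSeries ℤ,
      coeffMap (Int.castRingHom S) ψ * coeffMap (Int.castRingHom S) ψ' = 1 ∧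
      qExpand S q (coeffMap (Int.castRingHom S) x) =
        coeffMap (Int.castRingHom S) x ^ q + (q : S) • coeffMap (Int.castRingHom S) r ∧
      qExpand S q (theta (coeffMap (Int.castRingHom S) x)) =
        coeffMap (Int.castRingHom S) ψ * theta (coeffMap (Int.castRingHom S) x) ∧
      coeffMap (Int.castRingHom S) ψ * theta (coeffMap (Int.castRingHom S) x) =
        coeffMap (Int.castRingHom S) x ^ (q - 1) * theta (coeffMap (Int.castRingHom S) x) +
          theta (coeffMap (Int.castRingHom S) r) := by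
  haveI : NeZero q := ⟨(Fact.out : q.Prime).ne_zero⟩
  obtain ⟨r, ψ, ψ', h1, h2, h3, h4⟩ := psi_packageZ_gen q hx
  set c := coeffMap (Int.castRingHom S) with hc
  have hsm : ∀ z : LaurentSeries ℤ, c ((q : ℤ) • z) = (q : S) • c z := by
    intro z
    ext n
    rw [hc, coeffMap_coeff, HahnSeries.coeff_smul, HahnSeries.coeff_smul, coeffMap_coeff,
      smul_eq_mul, smul_eq_mul]
    simp
  have hth : ∀ z : LaurentSeries ℤ, c (theta z) = theta (c z) := fun z => coeffMap_theta _ z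
  have hqe : ∀ z : LaurentSeries ℤ, c (qExpand ℤ q z) = qExpand S q (c z) :=
    fun z => coeffMap_qExpand _ q z
  refine ⟨r, ψ, ψ', ?_, ?_, ?_, ?_⟩
  · rw [← map_mul, h1, map_one]
  · have := congrArg c h2
    rwa [hqe, map_add, map_pow, hsm] at this
  · have := congrArg c h3
    rwa [hqe, hth, map_mul, hth] at this
  · have := congrArg c h4
    rwa [map_mul, map_add, map_mul, map_pow, hth, hth] at this

end H23PS

end
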