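/-
Item 86 (S36), step (d) REGULARITY, slice P3 (helper23): the Gauss ring and `θ`.

`K` a field, `R` a valuation subring, `InG R`, `InGm R` (`H8PB`): the Gauss ring of `R` in
`K((𝐪))` and its maximal ideal.
* `inG_int`        : `coeffMap (ℤ → K) f ∈ InG` for every `f ∈ ℤ((𝐪))`;
* `inG_theta`      : `InG x → InG (θ x)`;      `inGm_theta` : `InGm x → InGm (θ x)`;
* `inG_smul_theta` / `inGm_smul_theta` : the same for `u · θ(·)` with `u ∈ InG`
  (`D_x = (θ x)⁻¹ θ`, `(θ x)⁻¹` the image of a series over `ℤ`);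
* `psi_gauss`      : the `ψ`-package at the `K`-level with all Gauss memberships:
  for a base series `x₀` over `ℤ`, `x = c x₀`, `y = x(𝐪^q)`: there are `r, ψ, ψ', u ∈ InG` with
  `ψ ψ' = 1`, `u · θ x = 1`, `y = x^q + q r`, `u · θ y = q ψ`, `ψ = x^(q-1) + u · θ r`.
-/
import Mathlib
import Fermat.Agent.S36.PsiSeriesGen_helper23
import Fermat.Agent.S34.TauVal_helper3

set_option autoImplicit false
set_option linter.unusedSectionVars false
set_option linter.unusedVariables false
set_option linter.style.longLine false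
set_option linter.style.haveILetI false

noncomputable section

namespace H23PS

open HahnSeries ModularCurve H28GV H8PB H3TAU

variable {K : Type} [Field K] (R : ValuationSubring K)

/-- the image of a series over `ℤ` lies in the Gauss ring. -/
theorem inG_int (f : LaurentSeries ℤ) : InG R (coeffMap (Int.castRingHom K) f) := by
  rw [h3v_inG_iff]
  refine ⟨coeffMap (Int.castRingHom R) f, 1, by rw [map_one]; exact one_ne_zero, ?_⟩
  rw [map_one, mul_one]
  show _ = coeffMap R.subtype (coeffMap (Int.castRingHom R) f)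
  rw [coeffMap_coeffMap]
  exact coeffMap_congr (RingHom.ext_int _ _) f

variable {R}

theorem gvEps_theta (f : LaurentSeries R) : gvEps R (theta f) = theta (gvEps R f) :=
  coeffMap_theta _ f

theorem rhoR_theta (f : LaurentSeries R) : rhoR R (theta f) = theta (rhoR R f) :=
  coeffMap_theta _ f

/-- the key identity: `x g = f ⇒ θx · g² = θf · g − f · θg`. -/
theorem theta_rel {x g f : LaurentSeries K} (h : x * g = f) :
    theta x * (g * g) = theta f * g - f * theta g := by
  have h1 := congrArg theta h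
  rw [theta_mul] at h1
  rw [← h1, ← h]
  ring

/-- `θ` preserves the Gauss ring. -/
theorem inG_theta {x : LaurentSeries K} (hx : InG R x) : InG R (theta x) := by
  rw [h3v_inG_iff] at hx ⊢
  obtain ⟨f, g, hg, hfg⟩ := hx
  refine ⟨theta f * g - f * theta g, g * g, ?_, ?_⟩
  · rw [map_mul]
    exact mul_ne_zero hg hg
  · rw [map_mul, map_sub, map_mul, map_mul, gvEps_theta, gvEps_theta]
    exact theta_rel hfg

/-- `θ` preserves the maximal ideal of the Gauss ring. -/
theorem inGm_theta {x : LaurentSeries K} (hx : InGm R x) : InGm R (theta x) := by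
  rw [h3v_inGm_iff] at hx ⊢
  obtain ⟨f, g, hg, hf, hfg⟩ := hx
  refine ⟨theta f * g - f * theta g, g * g, ?_, ?_, ?_⟩
  · rw [map_mul]
    exact mul_ne_zero hg hg
  · rw [map_sub, map_mul, map_mul, rhoR_theta, hf, theta_zero, zero_mul, zero_mul, sub_self]
  · rw [map_mul, map_sub, map_mul, map_mul, gvEps_theta, gvEps_theta]
    exact theta_rel hfg

/-- `InG · InGm ⊆ InGm`. -/
theorem inGm_mul_left {u x : LaurentSeries K} (hu : InG R u) (hx : InGm R x) :
    InGm R (u * x) := by
  rw [h3v_inG_iff] at hu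
  rw [h3v_inGm_iff] at hx ⊢
  obtain ⟨f, g, hg, hfg⟩ := hu
  obtain ⟨f', g', hg', hf', hfg'⟩ := hx
  refine ⟨f * f', g * g', ?_, ?_, ?_⟩
  · rw [map_mul]
    exact mul_ne_zero hg hg'
  · rw [map_mul, hf', mul_zero]
  · rw [map_mul, map_mul, ← hfg, ← hfg']
    ring

/-- the Gauss ring is closed under products. -/
theorem inG_mul' {u x : LaurentSeries K} (hu : InG R u) (hx : InG R x) : InG R (u * x) := by
  rw [h3v_inG_iff] at hu hx ⊢
  obtain ⟨f, g, hg, hfg⟩ := hu
  obtain ⟨f', g', hg', hfg'⟩ := hx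
  refine ⟨f * f', g * g', ?_, ?_⟩
  · rw [map_mul]
    exact mul_ne_zero hg hg'
  · rw [map_mul, map_mul, ← hfg, ← hfg']
    ring

theorem inG_smul_theta {u x : LaurentSeries K} (hu : InG R u) (hx : InG R x) :
    InG R (u * theta x) :=
  inG_mul' hu (inG_theta hx)

theorem inGm_smul_theta {u x : LaurentSeries K} (hu : InG R u) (hx : InGm R x) :
    InGm R (u * theta x) :=
  inGm_mul_left hu (inGm_theta hx)

variable (R)

/-- **the `ψ`-package at the `K`-level**, with all Gauss memberships. -/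
theorem psi_gauss (q : ℕ) [Fact q.Prime] {x₀ : LaurentSeries ℤ} (hx₀ : IsBaseZ x₀) :
    haveI : NeZero q := ⟨(Fact.out : q.Prime).ne_zero⟩
    ∃ r ψ ψ' u : LaurentSeries K,
      InG R r ∧ InG R ψ ∧ InG R ψ' ∧ InG R u ∧
      ψ * ψ' = 1 ∧ u * theta (coeffMap (Int.castRingHom K) x₀) = 1 ∧
      qExpand K q (coeffMap (Int.castRingHom K) x₀) =
        coeffMap (Int.castRingHom K) x₀ ^ q + (q : K) • r ∧
      u * theta (qExpand K q (coeffMap (Int.castRingHom K) x₀)) = (q : K) • ψ ∧
      ψ = coeffMap (Int.castRingHom K) x₀ ^ (q - 1) + u * theta r := by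
  haveI : NeZero q := ⟨(Fact.out : q.Prime).ne_zero⟩
  obtain ⟨r, ψ, ψ', h1, h2, h3, h4⟩ := psi_package_gen q hx₀ K
  obtain ⟨v, hv⟩ := isUnit_theta_gen hx₀
  set c := coeffMap (Int.castRingHom K) with hc
  have hu1 : c (↑v⁻¹ : LaurentSeries ℤ) * theta (c x₀) = 1 := by
    rw [hc, ← coeffMap_theta, ← hc, ← map_mul, ← hv, Units.inv_mul, map_one]
  refine ⟨c r, c ψ, c ψ', c (↑v⁻¹ : LaurentSeries ℤ), inG_int R _, inG_int R _, inG_int R _,
    inG_int R _, h1, hu1, h2, ?_, ?_⟩
  · rw [theta_qExpand, h3, ← HahnSeries.C_mul_eq_smul, ← HahnSeries.C_mul_eq_smul]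
    linear_combination (HahnSeries.C (q : K) * c ψ) * hu1
  · have h5 : c (↑v⁻¹ : LaurentSeries ℤ) * (c ψ * theta (c x₀)) =
        c (↑v⁻¹ : LaurentSeries ℤ) * (c x₀ ^ (q - 1) * theta (c x₀) + theta (c r)) := by
      rw [h4]
    calc c ψ = c ψ * (c (↑v⁻¹ : LaurentSeries ℤ) * theta (c x₀)) := by rw [hu1, mul_one]
      _ = c (↑v⁻¹ : LaurentSeries ℤ) * (c ψ * theta (c x₀)) := by ring
      _ = c (↑v⁻¹ : LaurentSeries ℤ) * (c x₀ ^ (q - 1) * theta (c x₀) + theta (c r)) := h5
      _ = c x₀ ^ (q - 1) * (c (↑v⁻¹ : LaurentSeries ℤ) * theta (c x₀)) +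
            c (↑v⁻¹ : LaurentSeries ℤ) * theta (c r) := by ring
      _ = c x₀ ^ (q - 1) + c (↑v⁻¹ : LaurentSeries ℤ) * theta (c r) := by rw [hu1, mul_one]

end H23PS

end
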