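/-
helper15: item 86 (S36), LOC, DISC route, slice LOC-D: the Gauss content bound in the form
"`discr / ϖ^m` is NOT in the maximal ideal of the Gauss ring" (the shape of `hdval` in
`H20R3.two_gen_of_disc'`: `¬ V'.valuation (discr * (ϖ^m)⁻¹) < 1`).

* `H15D2.gauss_not_inGm` : `d₀ ∈ ℤ((s))` with a coefficient not divisible by `p^(k+1)`,
  `p = ε ϖ^e`, `a ∈ Rˣ`  ⟹  `¬ InGm R (C a * d₀ * (C (ϖ^(e k)))⁻¹)`   (any valuation ring `R` over `p`);
* `H15D2.d2_not_inGm`    : the case `d₀ = disc2 p Φ` (`k = p - 2`);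
* `H15D2.d1_not_inGm`    : the case `d₀ = D(j)`, `D = Res_Y(Φ, ∂Φ)` (`k = p`).
Nothing here is proved by a placeholder.
-/
import Mathlib
import Fermat.Agent.S36.DiscD2_helper15
import Fermat.Agent.S35.FWSigVS_helper3
import Fermat.Agent.S36.PsiGauss_helper23

set_option autoImplicit false
set_option linter.unusedSectionVars false
set_option linter.unusedVariables false
set_option linter.style.haveILetI false

noncomputable section

namespace H15D2

open HahnSeries ModularCurve H8PB H28S28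

variable {K : Type} [Field K] [CharZero K] (R : ValuationSubring K)

/-- **the Gauss bound, maximal-ideal form.** -/
theorem gauss_not_inGm (p : ℕ) (hp : p.Prime) (hR : R.LiesOverPrime p) (k : ℕ)
    (d₀ : LaurentSeries ℤ) (n : ℤ) (hn : ¬ ((p : ℤ) ^ (k + 1) ∣ d₀.coeff n))
    (ϖ : R) (e : ℕ) (ε : Rˣ) (hpe : ((p : ℕ) : R) = (ε : R) * ϖ ^ e) (a : Rˣ) :
    ¬ InGm R (HahnSeries.C (((a : R) : K)) * coeffMap (Int.castRingHom K) d₀ *
        (HahnSeries.C ((((ϖ : R) : K)) ^ (e * k)))⁻¹) := by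
  intro hm
  obtain ⟨κ, d', m, hκ, hd, hm'⟩ := H21DB.exists_prim_part p hp k d₀ n hn
  have hgu : IsUnit ((coeffMap (Int.castRingHom R) d').coeff m) := by
    rw [coeffMap_coeff]
    exact H21DB.isUnit_intCast R p hp hR _ hm'
  have hcomp : coeffMap R.subtype (coeffMap (Int.castRingHom R) d') =
      coeffMap (Int.castRingHom K) d' := by
    rw [coeffMap_coeffMap]
    exact coeffMap_congr (RingHom.ext_int _ _) d'
  have hinv : InG R (coeffMap (Int.castRingHom K) d')⁻¹ := by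
    rw [← hcomp]
    exact H21DB.inG_inv_of_isUnit_coeff R _ m hgu
  have hx'0 : coeffMap (Int.castRingHom K) d' ≠ 0 := by
    intro h0
    have h1 := congrArg (fun x : LaurentSeries K => x.coeff m) h0
    simp only [coeffMap_coeff, HahnSeries.coeff_zero, eq_intCast] at h1
    have h2 : d'.coeff m = 0 := by exact_mod_cast h1
    rw [h2] at hm'
    exact hm' (dvd_zero _)
  -- `π = ϖ^e`, `p = ε π`
  set π : K := (((ϖ : R) : K)) ^ e with hπ
  have hpK : ((p : ℕ) : K) = ((ε : R) : K) * π := by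
    have := congrArg (Subtype.val) hpe
    push_cast at this
    simpa using this
  have hp0 : ((p : ℕ) : K) ≠ 0 := by
    exact_mod_cast hp.ne_zero
  have hε0 : ((ε : R) : K) ≠ 0 := by
    intro h0
    rw [h0, zero_mul] at hpK
    exact hp0 hpK
  have hπ0 : π ≠ 0 := by
    intro h0
    rw [h0, mul_zero] at hpK
    exact hp0 hpK
  have ha0 : ((a : R) : K) ≠ 0 := by
    intro h0
    have : (a : R) = 0 := Subtype.ext h0
    exact a.ne_zero this
  have hϖk : (((ϖ : R) : K)) ^ (e * k) = π ^ k := by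
    rw [hπ, ← pow_mul]
  -- the constant
  set b : K := ((a : R) : K) * ((p : ℕ) : K) ^ κ * (π ^ k)⁻¹ with hb
  have e1 : coeffMap (Int.castRingHom K) d₀ =
      HahnSeries.C (((p : ℕ) : K) ^ κ) * coeffMap (Int.castRingHom K) d' := by
    rw [hd, map_mul, H21DB.coeffMap_intCast, H21DB.intCast_eq_C, Int.cast_pow, Int.cast_natCast]
  have e2 : (coeffMap (Int.castRingHom K) d')⁻¹ *
      (HahnSeries.C (((a : R) : K)) * coeffMap (Int.castRingHom K) d₀ *
        (HahnSeries.C ((((ϖ : R) : K)) ^ (e * k)))⁻¹) = HahnSeries.C b := by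
    rw [e1, hϖk, hb, map_mul, map_mul, map_inv₀]
    field_simp
  have hCb : InGm R (HahnSeries.C b : LaurentSeries K) := by
    rw [← e2]
    exact H23PS.inGm_mul_left hinv hm
  have hb0 : b ≠ 0 := by
    rw [hb]
    exact mul_ne_zero (mul_ne_zero ha0 (pow_ne_zero _ hp0)) (inv_ne_zero (pow_ne_zero _ hπ0))
  have hπR : π ∈ R := by
    rw [hπ]
    exact pow_mem ϖ.2 e
  have hbinv : b⁻¹ ∈ R := by
    have e3 : b⁻¹ = (((a⁻¹ : Rˣ) : R) : K) * ((((ε⁻¹ : Rˣ) : R) : K)) ^ κ * π ^ (k - κ) := by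
      have hk : k = κ + (k - κ) := by omega
      have haa : ((a : R) : K) * (((a⁻¹ : Rˣ) : R) : K) = 1 := by
        have : ((a : R) * ((a⁻¹ : Rˣ) : R) : R) = 1 := by simp
        exact_mod_cast congrArg (Subtype.val) this
      have hεε : ((ε : R) : K) * (((ε⁻¹ : Rˣ) : R) : K) = 1 := by
        have : ((ε : R) * ((ε⁻¹ : Rˣ) : R) : R) = 1 := by simp
        exact_mod_cast congrArg (Subtype.val) this
      have hai : (((a⁻¹ : Rˣ) : R) : K) = (((a : R) : K))⁻¹ :=
        eq_inv_of_mul_eq_one_right haa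
      have hεi : (((ε⁻¹ : Rˣ) : R) : K) = (((ε : R) : K))⁻¹ :=
        eq_inv_of_mul_eq_one_right hεε
      have hπk : π ^ k = π ^ κ * π ^ (k - κ) := by
        rw [← _root_.pow_add, ← hk]
      rw [hb, hpK, hai, hεi, mul_pow, hπk, inv_pow]
      have h1 : π ^ κ ≠ 0 := pow_ne_zero _ hπ0
      have h2 : π ^ (k - κ) ≠ 0 := pow_ne_zero _ hπ0
      have h3 : ((ε : R) : K) ^ κ ≠ 0 := pow_ne_zero _ hε0
      field_simp
    rw [e3]
    exact R.mul_mem _ _ (R.mul_mem _ _ ((a⁻¹ : Rˣ) : R).2 (pow_mem ((ε⁻¹ : Rˣ) : R).2 κ))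
      (pow_mem hπR _)
  have hG : InG R (HahnSeries.C b : LaurentSeries K) := H3SIG.inGm_inG hCb
  rcases (H3SIG.inGm_iff_not_inv hG).1 hCb with h0 | h1
  · apply hb0
    have := congrArg (fun x : LaurentSeries K => x.coeff 0) h0
    simpa using this
  · apply h1
    rw [← map_inv₀]
    exact H3SIG.inG_C (R := R) ⟨b⁻¹, hbinv⟩

/-- **(D2), maximal-ideal form**: `disc2 / ϖ^(e (p-2))` is not in the maximal ideal of the Gauss
ring (whatever unit factor `a`, e.g. the sign `vsign`). -/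
theorem d2_not_inGm (p : ℕ) [NeZero p] (hp : p.Prime) (Φ : Polynomial (Polynomial ℤ))
    (hΦ : ∀ (A : Type) [CommRing A] (ζ : Aˣ), (Polynomial.cyclotomic p A).eval (ζ : A) = 0 →
      Φ.map (baseEval A p) = ∏ i : Option (Fin p),
        (Polynomial.X - Polynomial.C (xconj A p ζ i)))
    (hR : R.LiesOverPrime p)
    (ϖ : R) (e : ℕ) (ε : Rˣ) (hpe : ((p : ℕ) : R) = (ε : R) * ϖ ^ e) (a : Rˣ) :
    ¬ InGm R (HahnSeries.C (((a : R) : K)) * coeffMap (Int.castRingHom K) (disc2 p Φ) *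
        (HahnSeries.C ((((ϖ : R) : K)) ^ (e * (p - 2))))⁻¹) := by
  obtain ⟨n, hn⟩ := exists_coeff_disc2 p hp.two_le Φ hΦ
  exact gauss_not_inGm R p hp hR (p - 2) _ n (H21DB.not_dvd_of_eq_or p hp (p - 2) _ hn)
    ϖ e ε hpe a

/-- **(D1), maximal-ideal form**: `D(j) / ϖ^(e p)` is not in the maximal ideal of the Gauss
ring, `D = Res_Y(Φ, ∂Φ) ∈ ℤ[J]`. -/
theorem d1_not_inGm (p : ℕ) [NeZero p] (hp : p.Prime) (Φ : Polynomial (Polynomial ℤ))
    (hΦ : ∀ (A : Type) [CommRing A] (ζ : Aˣ), (Polynomial.cyclotomic p A).eval (ζ : A) = 0 →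
      Φ.map (baseEval A p) = ∏ i : Option (Fin p),
        (Polynomial.X - Polynomial.C (xconj A p ζ i)))
    (hR : R.LiesOverPrime p)
    (ϖ : R) (e : ℕ) (ε : Rˣ) (hpe : ((p : ℕ) : R) = (ε : R) * ϖ ^ e) (a : Rˣ) :
    ¬ InGm R (HahnSeries.C (((a : R) : K)) * coeffMap (Int.castRingHom K)
        (H21DB.evalJ (Polynomial.resultant Φ (Polynomial.derivative Φ) (p + 1) p)) *
        (HahnSeries.C ((((ϖ : R) : K)) ^ (e * p)))⁻¹) := by
  have hlc := H21DG.leadingCoeff_disc p hp.two_le Φ hΦ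
  have hD0 : Polynomial.resultant Φ (Polynomial.derivative Φ) (p + 1) p ≠ 0 := by
    intro h0
    rw [h0, Polynomial.leadingCoeff_zero] at hlc
    have hpp : ((p : ℤ) ^ p) ≠ 0 := pow_ne_zero _ (by exact_mod_cast hp.ne_zero)
    rcases hlc with h1 | h1
    · exact hpp h1.symm
    · exact hpp (neg_eq_zero.1 h1.symm)
  obtain ⟨n, hn⟩ := H21DB.exists_coeff_evalJ _ hD0
  exact gauss_not_inGm R p hp hR p _ n
    (by rw [hn]; exact H21DB.not_dvd_of_eq_or p hp p _ hlc) ϖ e ε hpe a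

end H15D2

end
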