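/-
helper15: item 86 (S36), LOC, DISC route, slice (EXACT): the exact power of `ϖ` in a discriminant.

The hypothesis (D) of `H6LD.DiscChartStatement` asks for `discr = ϖ^m · P` with `P ∈ B₀`,
`P / ϖ ∉ B₀` (`B₀` = the local ring of the lower chart at `𝔫₀`) and `m + l ≤ r`.  The Gauss bound
(`H21DB.gauss_bound_pow`, `d1_bound_pow`, `H15D2.d2_bound_pow`) bounds every `m` with
`discr = ϖ^m · u`, `u` Gauss-integral.  This file turns the bound into the exact form: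

* `H15DX.exact_of_bound`     : generic (any predicate `IL` on a field);
* `H15DX.exact_chart`        : chart form (`IL = H4S34.InLoc R t₀ 𝔫₀`);
* `H15DX.exact_of_expansion` : the bound checked after an expansion `ρ : F₀ →+* S`
                               (`InLoc u ⟹ G (ρ u)`, e.g. `G = H8PB.InG`).
Nothing here is proved by a placeholder.
-/
import Mathlib
import Fermat.Agent.S34.Defs_helper4

set_option autoImplicit false
set_option linter.unusedSectionVars false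
set_option linter.unusedVariables false

noncomputable section

namespace H15DX

open H4S34

/-- **(EXACT), generic**: if every `m` with `d = π^m u`, `IL u`, is `≤ k`, then `d = π^m P` with
`m ≤ k`, `IL P` and `¬ IL (P / π)`. -/
theorem exact_of_bound {F₀ : Type*} [Field F₀] (IL : F₀ → Prop) (π d : F₀) (hπ : π ≠ 0)
    (hd : IL d) (k : ℕ)
    (hbound : ∀ (m : ℕ) (u : F₀), IL u → d = π ^ m * u → m ≤ k) :
    ∃ m : ℕ, m ≤ k ∧ ∃ P : F₀, IL P ∧ ¬ IL (P * π⁻¹) ∧ d = π ^ m * P := by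
  classical
  have h0 : IL (d * (π ^ 0)⁻¹) := by
    rw [pow_zero, inv_one, mul_one]
    exact hd
  have hspec : IL (d * (π ^ (Nat.findGreatest (fun m => IL (d * (π ^ m)⁻¹)) k))⁻¹) :=
    Nat.findGreatest_spec (P := fun m => IL (d * (π ^ m)⁻¹)) (Nat.zero_le k) h0
  set m := Nat.findGreatest (fun m => IL (d * (π ^ m)⁻¹)) k with hm
  have hπm : π ^ m ≠ 0 := pow_ne_zero _ hπ
  refine ⟨m, Nat.findGreatest_le k, d * (π ^ m)⁻¹, hspec, ?_, ?_⟩
  · intro hcon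
    have e1 : d * (π ^ m)⁻¹ * π⁻¹ = d * (π ^ (m + 1))⁻¹ := by
      rw [pow_succ, mul_inv, mul_assoc]
    have e2 : d = π ^ (m + 1) * (d * (π ^ m)⁻¹ * π⁻¹) := by
      rw [e1]
      field_simp
    have hle : m + 1 ≤ k := hbound (m + 1) _ hcon e2
    have hP : IL (d * (π ^ (m + 1))⁻¹) := by rw [← e1]; exact hcon
    have := Nat.le_findGreatest (P := fun m => IL (d * (π ^ m)⁻¹)) hle hP
    omega
  · field_simp

/-- **(EXACT), chart form**: the shape of the hypothesis (D) of `H6LD.DiscChartStatement`. -/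
theorem exact_chart (R : Type) [CommRing R] {F₀ : Type} [Field F₀] [Algebra R F₀] (ϖ : R)
    (hϖ : algebraMap R F₀ ϖ ≠ 0) (t₀ : F₀) (𝔫₀ : Ideal (Chart R t₀)) (d : F₀)
    (hd : InLoc R t₀ 𝔫₀ d) (k : ℕ)
    (hbound : ∀ (m : ℕ) (u : F₀), InLoc R t₀ 𝔫₀ u → d = algebraMap R F₀ ϖ ^ m * u → m ≤ k) :
    ∃ m : ℕ, m ≤ k ∧ ∃ P : F₀, InLoc R t₀ 𝔫₀ P ∧
      ¬ InLoc R t₀ 𝔫₀ (P * (algebraMap R F₀ ϖ)⁻¹) ∧ d = algebraMap R F₀ ϖ ^ m * P :=
  exact_of_bound (InLoc R t₀ 𝔫₀) (algebraMap R F₀ ϖ) d hϖ hd k hbound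

/-- **(EXACT), with an expansion**: the bound is checked on the image under a ring homomorphism
`ρ : F₀ →+* S` (the `q`-expansion) with `InLoc u ⟹ G (ρ u)` (`G` = Gauss-integrality). -/
theorem exact_of_expansion (R : Type) [CommRing R] {F₀ : Type} [Field F₀] [Algebra R F₀] (ϖ : R)
    (hϖ : algebraMap R F₀ ϖ ≠ 0) (t₀ : F₀) (𝔫₀ : Ideal (Chart R t₀)) (d : F₀)
    (hd : InLoc R t₀ 𝔫₀ d) (k : ℕ)
    {S : Type*} [CommRing S] (ρ : F₀ →+* S) (G : S → Prop)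
    (hIG : ∀ u : F₀, InLoc R t₀ 𝔫₀ u → G (ρ u))
    (hG : ∀ (m : ℕ) (u' : S), G u' → ρ d = ρ (algebraMap R F₀ ϖ) ^ m * u' → m ≤ k) :
    ∃ m : ℕ, m ≤ k ∧ ∃ P : F₀, InLoc R t₀ 𝔫₀ P ∧
      ¬ InLoc R t₀ 𝔫₀ (P * (algebraMap R F₀ ϖ)⁻¹) ∧ d = algebraMap R F₀ ϖ ^ m * P := by
  refine exact_chart R ϖ hϖ t₀ 𝔫₀ d hd k ?_
  intro m u hu h
  refine hG m (ρ u) (hIG u hu) ?_
  rw [h, map_mul, map_pow]

end H15DX

end
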