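import Mathlib
import Fermat.Agent.S36.Disc_helper19

/-!
# helper19 — S36 (Carayol), item 86: unit discriminant ⇒ unramified (Mathlib only)

`R` a local ring with `maximalIdeal R = (ϖ)`, `S` a commutative noetherian `R`-algebra, finite
free as a module, with a basis `b` whose discriminant is a UNIT of `R`.

* `h19unr_prime_isMaximal` : a prime ideal of `S` containing `ϖ` is maximal;
* `h19unr_main` : for every maximal ideal `𝔪` of `S` there is `v ∉ 𝔪` with `v * y ∈ ϖ S` for all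
  `y ∈ 𝔪` (i.e. `𝔪 S_𝔪 = ϖ S_𝔪`: `S` is unramified over `R`).

Proof of `h19unr_main`: `s` a socle lift (`s ∉ ϖ S`, `𝔪 s ⊆ ϖ S`); the trace matrix of `b` is
invertible, so some `Tr (b i * s)` is a unit; `v := b i * s`.  Then `v 𝔪 ⊆ ϖ S`; for a maximal
ideal `𝔪' ≠ 𝔪` and `y ∈ 𝔪 ∖ 𝔪'`, `y v ∈ ϖ S ⊆ 𝔪'` gives `v ∈ 𝔪'`; if `v ∈ 𝔪` then `v` lies in the
Jacobson radical and `Tr v` is not a unit.
-/

set_option autoImplicit false
set_option linter.style.haveILetI false
set_option linter.unusedSectionVars false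

open IsLocalRing

namespace H19DISC

section Unr

variable {R : Type*} [CommRing R] [IsLocalRing R]
variable {S : Type*} [CommRing S] [Algebra R S] [Module.Free R S] [Module.Finite R S]
  [IsNoetherianRing S]
variable {ι : Type*} [Fintype ι] [DecidableEq ι]

/-- a prime ideal of `S` containing (the image of) `ϖ` is maximal -/
theorem h19unr_prime_isMaximal (ϖ : R) (hϖ : maximalIdeal R = Ideal.span {ϖ})
    (𝔫 : Ideal S) [h𝔫 : 𝔫.IsPrime] (h : algebraMap R S ϖ ∈ 𝔫) : 𝔫.IsMaximal := by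
  haveI : Algebra.IsIntegral R S := Algebra.IsIntegral.of_finite R S
  have h1 : (Ideal.comap (algebraMap R S) 𝔫).IsPrime := Ideal.comap_isPrime _ _
  have h2 : maximalIdeal R ≤ Ideal.comap (algebraMap R S) 𝔫 := by
    rw [hϖ, Ideal.span_le, Set.singleton_subset_iff]
    exact h
  have h3 : Ideal.comap (algebraMap R S) 𝔫 = maximalIdeal R :=
    ((maximalIdeal.isMaximal R).eq_of_le h1.ne_top h2).symm
  exact Ideal.isMaximal_of_isIntegral_of_isMaximal_comap 𝔫 (h3 ▸ maximalIdeal.isMaximal R)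

/-- **unit discriminant ⇒ unramified**: every maximal ideal of `S` is locally generated by
`ϖ`. -/
theorem h19unr_main (ϖ : R) (hϖ : maximalIdeal R = Ideal.span {ϖ})
    (b : Module.Basis ι R S) (hd : IsUnit (Algebra.discr R b))
    (𝔪 : Ideal S) [h𝔪 : 𝔪.IsMaximal] :
    ∃ v, v ∉ 𝔪 ∧ ∀ y ∈ 𝔪, ∃ z, v * y = ϖ • z := by
  classical
  set J := Ideal.jacobson (⊥ : Ideal S) with hJ
  have hϖmem : ∀ 𝔫 : Ideal S, 𝔫.IsMaximal → ∀ z : S, ϖ • z ∈ 𝔫 := by
    intro 𝔫 h𝔫 z
    have h1 : algebraMap R S ϖ ∈ J :=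
      h19disc_map_le_jacobson (R := R)
        (Ideal.mem_map_of_mem _ (hϖ ▸ Ideal.mem_span_singleton_self ϖ))
    have h2 : algebraMap R S ϖ ∈ 𝔫 := (sInf_le ⟨bot_le, h𝔫⟩ : J ≤ 𝔫) h1
    rw [Algebra.smul_def]
    exact Ideal.mul_mem_right _ _ h2
  set G : Matrix ι ι R := Algebra.traceMatrix R b with hG
  have hGunit : IsUnit G.det := hd
  obtain ⟨s, hs1, hs2⟩ := h19disc_socle ϖ hϖ 𝔪
  set σ : ι → R := fun j => b.repr s j with hσ
  have hsσ : s = ∑ j, σ j • b j := (b.sum_repr s).symm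
  have htrs : ∀ i, Algebra.trace R S (b i * s) = (G.mulVec σ) i := by
    intro i
    conv_lhs => rw [hsσ]
    rw [Finset.mul_sum, map_sum, Matrix.mulVec, dotProduct]
    refine Finset.sum_congr rfl fun j _ => ?_
    rw [mul_smul_comm, map_smul, smul_eq_mul, hG, Algebra.traceMatrix_apply,
      Algebra.traceForm_apply]
    ring
  have hex : ∃ i, IsUnit ((G.mulVec σ) i) := by
    by_contra hcon
    push Not at hcon
    have h1 : ∀ i, ∃ a, (G.mulVec σ) i = ϖ * a := by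
      intro i
      have h2 : (G.mulVec σ) i ∈ maximalIdeal R := (mem_maximalIdeal _).mpr (hcon i)
      rw [hϖ, Ideal.mem_span_singleton'] at h2
      obtain ⟨a, ha⟩ := h2
      exact ⟨a, by rw [← ha, mul_comm]⟩
    choose a ha using h1
    have h2 : G.mulVec σ = ϖ • a := funext fun i => by rw [ha i, Pi.smul_apply, smul_eq_mul]
    have h3 : σ = ϖ • (G⁻¹.mulVec a) := by
      have h4 : G⁻¹.mulVec (G.mulVec σ) = σ := by
        rw [Matrix.mulVec_mulVec, Matrix.nonsing_inv_mul _ hGunit, Matrix.one_mulVec]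
      rw [← h4, h2, Matrix.mulVec_smul]
    apply hs2
    refine ⟨∑ j, (G⁻¹.mulVec a) j • b j, ?_⟩
    rw [hsσ, Finset.smul_sum]
    refine Finset.sum_congr rfl fun j _ => ?_
    rw [h3, Pi.smul_apply, smul_eq_mul, mul_smul]
  obtain ⟨i, hi⟩ := hex
  have hvy : ∀ y ∈ 𝔪, ∃ z, b i * s * y = ϖ • z := by
    intro y hy
    obtain ⟨z, hz⟩ := hs1 y hy
    refine ⟨b i * z, ?_⟩
    calc b i * s * y = b i * (y * s) := by ring
      _ = b i * (ϖ • z) := by rw [hz]
      _ = ϖ • (b i * z) := mul_smul_comm ϖ (b i) z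
  refine ⟨b i * s, ?_, hvy⟩
  intro hvm
  -- `v` lies in every maximal ideal
  have hvJ : b i * s ∈ J := by
    rw [hJ, Ideal.jacobson, Submodule.mem_sInf]
    rintro 𝔪' ⟨-, h𝔪'⟩
    by_cases hne : 𝔪' = 𝔪
    · rw [hne]; exact hvm
    · obtain ⟨y, hy𝔪, hy𝔪'⟩ : ∃ y ∈ 𝔪, y ∉ 𝔪' := by
        by_contra hcon
        push Not at hcon
        exact hne (h𝔪.eq_of_le h𝔪'.ne_top hcon).symm
      obtain ⟨z, hz⟩ := hvy y hy𝔪
      have h3 : b i * s * y ∈ 𝔪' := by
        rw [hz]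
        exact hϖmem 𝔪' h𝔪' z
      rcases h𝔪'.isPrime.mem_or_mem h3 with h | h
      · exact h
      · exact absurd h hy𝔪'
  have h1 := h19disc_trace_mem (R := R) hvJ
  rw [htrs i] at h1
  exact (mem_maximalIdeal _).mp h1 hi

end Unr

end H19DISC
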