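/-
helper27: item 86 (S36), slices LOC-F / LOC-G (generic cores, Mathlib only).

Fibres of the components of the special fibre under a finite map of normal models
`Spec B → Spec A` (`A → B` integral, `A` integrally closed; in the application `A`, `B` are the
charts of the levels `N'q`, `N'q²`, or `N'`, `N'q`).

* `H27FB.le_of_pinsep`, `H27FB.eq_of_pinsep` (LOC-F, purely inseparable component):
  if every `b ∈ B` has `b ^ q ≡ φ a` modulo `P`, then a prime `𝔫 ⊇ P` is determined by `φ⁻¹ 𝔫`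
  ("one point above each point");
* `H27FB.residue_of_degOne`, `H27FB.eq_of_degOne` (LOC-F, residue degree one): if every
  `b ∈ B` is `≡ φ a` modulo `P`, then `A / φ⁻¹ 𝔫 → B / 𝔫` is onto for every `𝔫 ⊇ P`, and `𝔫` is
  determined by `φ⁻¹ 𝔫`;
* `H27FB.exists_le_of_goingDown` (LOC-G = TRI, going down): for a prime `P' ⊆ φ⁻¹ 𝔫` there is
  a prime `Q ⊆ 𝔫` above `P'`;
* `H27FB.comp_le_of_unique` : if `P₂` is the only prime of `B` above `P'` then
  `P' ⊆ φ⁻¹ 𝔫 → P₂ ⊆ 𝔫`  (every point above a point of `C₂'` lies on `C₂`);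
* `H27FB.comp_le_of_two` : if `P₁, P₃` are the only primes of `B` above `P'` then
  `P' ⊆ φ⁻¹ 𝔫 → P₁ ⊆ 𝔫 ∨ P₃ ⊆ 𝔫`;
* `H27FB.above_of_minimal` : a prime above `P'` is one of the listed components as soon as
  every prime containing `ϖ` contains a listed component (TripleGauss), each listed component
  contracts to a prime `p i` with `ϖ ∈ p i`, and `p i ≤ P' → p i = P'`.
No rank count, no regularity of the lower level is needed.
-/
import Mathlib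

set_option autoImplicit false
set_option linter.style.haveILetI false
set_option linter.unusedSectionVars false

namespace H27FB

section pinsep

variable {A B : Type*} [CommRing A] [CommRing B] (φ : A →+* B)

/-- **purely inseparable fibres**: if `b ^ q ∈ φ A + P` for all `b` (`q ≥ 1`), the primes
containing `P` are ordered as their contractions. -/
theorem le_of_pinsep (P : Ideal B) (q : ℕ) (hq : 0 < q)
    (h : ∀ b : B, ∃ a : A, b ^ q - φ a ∈ P)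
    (𝔫₁ 𝔫₂ : Ideal B) [𝔫₂.IsPrime] (h₁ : P ≤ 𝔫₁) (h₂ : P ≤ 𝔫₂)
    (hc : 𝔫₁.comap φ ≤ 𝔫₂.comap φ) : 𝔫₁ ≤ 𝔫₂ := by
  intro b hb
  obtain ⟨a, ha⟩ := h b
  have hbq : b ^ q ∈ 𝔫₁ := Ideal.pow_mem_of_mem _ hb q hq
  have h1 : φ a ∈ 𝔫₁ := by
    have := 𝔫₁.sub_mem hbq (h₁ ha)
    simpa using this
  have h2 : φ a ∈ 𝔫₂ := hc (show a ∈ 𝔫₁.comap φ from h1)
  have h3 : b ^ q ∈ 𝔫₂ := by
    have := 𝔫₂.add_mem (h₂ ha) h2
    simpa using this
  exact Ideal.IsPrime.mem_of_pow_mem ‹_› q h3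

/-- **one point above each point** on a purely inseparable component. -/
theorem eq_of_pinsep (P : Ideal B) (q : ℕ) (hq : 0 < q)
    (h : ∀ b : B, ∃ a : A, b ^ q - φ a ∈ P)
    (𝔫₁ 𝔫₂ : Ideal B) [𝔫₁.IsPrime] [𝔫₂.IsPrime] (h₁ : P ≤ 𝔫₁) (h₂ : P ≤ 𝔫₂)
    (hc : 𝔫₁.comap φ = 𝔫₂.comap φ) : 𝔫₁ = 𝔫₂ :=
  le_antisymm (le_of_pinsep φ P q hq h 𝔫₁ 𝔫₂ h₁ h₂ hc.le)
    (le_of_pinsep φ P q hq h 𝔫₂ 𝔫₁ h₂ h₁ hc.ge)

/-- **residue degree one**: the residue field does not grow. -/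
theorem residue_of_degOne (P : Ideal B) (h : ∀ b : B, ∃ a : A, b - φ a ∈ P)
    (𝔫 : Ideal B) (h₁ : P ≤ 𝔫) (b : B) : ∃ a : A, b - φ a ∈ 𝔫 := by
  obtain ⟨a, ha⟩ := h b
  exact ⟨a, h₁ ha⟩

/-- **residue degree one**: one point above each point. -/
theorem eq_of_degOne (P : Ideal B) (h : ∀ b : B, ∃ a : A, b - φ a ∈ P)
    (𝔫₁ 𝔫₂ : Ideal B) [𝔫₁.IsPrime] [𝔫₂.IsPrime] (h₁ : P ≤ 𝔫₁) (h₂ : P ≤ 𝔫₂)
    (hc : 𝔫₁.comap φ = 𝔫₂.comap φ) : 𝔫₁ = 𝔫₂ :=
  eq_of_pinsep φ P 1 one_pos (fun b => by simpa using h b) 𝔫₁ 𝔫₂ h₁ h₂ hc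

/-- residue degree one: a maximal ideal above `P` is `P + φ(φ⁻¹ 𝔫) B`. -/
theorem mem_sup_of_degOne (P : Ideal B) (h : ∀ b : B, ∃ a : A, b - φ a ∈ P)
    (𝔫 : Ideal B) (h₁ : P ≤ 𝔫) {b : B} (hb : b ∈ 𝔫) :
    b ∈ P ⊔ (𝔫.comap φ).map φ := by
  obtain ⟨a, ha⟩ := h b
  have ha𝔫 : φ a ∈ 𝔫 := by
    have := 𝔫.sub_mem hb (h₁ ha)
    simpa using this
  have : b = (b - φ a) + φ a := by ring
  rw [this]
  exact Ideal.add_mem _ (Ideal.mem_sup_left ha)
    (Ideal.mem_sup_right (Ideal.mem_map_of_mem φ (show a ∈ 𝔫.comap φ from ha𝔫)))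

end pinsep

section goingDown

variable {A B : Type*} [CommRing A] [IsDomain A] [IsIntegrallyClosed A]
  [CommRing B] [IsDomain B] [Algebra A B] [FaithfulSMul A B] [Algebra.IsIntegral A B]

/-- **going down** (Mathlib, Stacks 00H8) in the form used for the components. -/
theorem exists_le_of_goingDown (P' : Ideal A) [P'.IsPrime] (𝔫 : Ideal B) [𝔫.IsPrime]
    (h : P' ≤ 𝔫.comap (algebraMap A B)) :
    ∃ Q : Ideal B, Q ≤ 𝔫 ∧ Q.IsPrime ∧ Q.comap (algebraMap A B) = P' := by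
  haveI : (𝔫.comap (algebraMap A B)).IsPrime := Ideal.comap_isPrime _ _
  haveI : 𝔫.LiesOver (𝔫.comap (algebraMap A B)) := ⟨rfl⟩
  obtain ⟨Q, hQ, hQp, hQo⟩ :=
    Ideal.exists_ideal_le_liesOver_of_le (p := P') (q := 𝔫.comap (algebraMap A B)) 𝔫 h
  exact ⟨Q, hQ, hQp, hQo.over.symm⟩

/-- **(TRI)**: if `P₂` is the only prime above `P'`, every prime `𝔫` whose contraction
contains `P'` contains `P₂`. -/
theorem comp_le_of_unique (P' : Ideal A) [P'.IsPrime] (P₂ : Ideal B)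
    (huniq : ∀ Q : Ideal B, Q.IsPrime → Q.comap (algebraMap A B) = P' → Q = P₂)
    (𝔫 : Ideal B) [𝔫.IsPrime] (h : P' ≤ 𝔫.comap (algebraMap A B)) : P₂ ≤ 𝔫 := by
  obtain ⟨Q, hQ, hQp, hQo⟩ := exists_le_of_goingDown P' 𝔫 h
  rw [← huniq Q hQp hQo]
  exact hQ

/-- if `P₁`, `P₃` are the only primes above `P'`, every prime `𝔫` whose contraction contains
`P'` contains `P₁` or `P₃`. -/
theorem comp_le_of_two (P' : Ideal A) [P'.IsPrime] (P₁ P₃ : Ideal B)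
    (huniq : ∀ Q : Ideal B, Q.IsPrime → Q.comap (algebraMap A B) = P' → Q = P₁ ∨ Q = P₃)
    (𝔫 : Ideal B) [𝔫.IsPrime] (h : P' ≤ 𝔫.comap (algebraMap A B)) : P₁ ≤ 𝔫 ∨ P₃ ≤ 𝔫 := by
  obtain ⟨Q, hQ, hQp, hQo⟩ := exists_le_of_goingDown P' 𝔫 h
  rcases huniq Q hQp hQo with rfl | rfl
  · exact Or.inl hQ
  · exact Or.inr hQ

/-- **the primes above `P'` are components**: `ι` indexes the components `C i` of the special
fibre of `B` (primes containing `ϖ`), every prime containing `ϖ` contains a component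
(TripleGauss + Krull), `P'` contains `ϖ₀` with `algebraMap ϖ₀ = ϖ`, and a component whose
contraction is contained in `P'` has contraction `P'` (height one).  Then a prime `Q` above `P'`
is a component `C i` with contraction `P'`. -/
theorem above_of_minimal {ι : Type*} (C : ι → Ideal B) (hC : ∀ i, (C i).IsPrime)
    (ϖ₀ : A) (hmin : ∀ Q : Ideal B, Q.IsPrime → algebraMap A B ϖ₀ ∈ Q → ∃ i, C i ≤ Q)
    (P' : Ideal A) [P'.IsPrime] (hϖ : ϖ₀ ∈ P')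
    (hht : ∀ i, (C i).comap (algebraMap A B) ≤ P' → (C i).comap (algebraMap A B) = P')
    (Q : Ideal B) (hQ : Q.IsPrime) (hQo : Q.comap (algebraMap A B) = P') :
    ∃ i, Q = C i ∧ (C i).comap (algebraMap A B) = P' := by
  have hϖQ : algebraMap A B ϖ₀ ∈ Q := by
    have : ϖ₀ ∈ Q.comap (algebraMap A B) := hQo ▸ hϖ
    exact this
  obtain ⟨i, hi⟩ := hmin Q hQ hϖQ
  have hle : (C i).comap (algebraMap A B) ≤ P' := hQo ▸ Ideal.comap_mono hi
  have heq : (C i).comap (algebraMap A B) = P' := hht i hle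
  refine ⟨i, ?_, heq⟩
  -- incomparability: `C i ≤ Q` with the same contraction
  haveI := hC i
  by_contra hne
  have hlt : C i < Q := lt_of_le_of_ne hi (fun h => hne h.symm)
  obtain ⟨x, hxQ, hxC⟩ := SetLike.exists_of_lt hlt
  have := Ideal.comap_lt_comap_of_integral_mem_sdiff (R := A) (S := B) (I := C i) (J := Q)
    hi (x := x) ⟨hxQ, hxC⟩ (Algebra.IsIntegral.isIntegral x)
  rw [heq, hQo] at this
  exact lt_irrefl _ this

end goingDown

section ringHom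

variable {A B : Type*} [CommRing A] [IsDomain A] [IsIntegrallyClosed A]
  [CommRing B] [IsDomain B] (φ : A →+* B) (hinj : Function.Injective φ) (hint : φ.IsIntegral)

include hinj hint

/-- going down, ring-hom form. -/
theorem exists_le_of_goingDown' (P' : Ideal A) [P'.IsPrime] (𝔫 : Ideal B) [𝔫.IsPrime]
    (h : P' ≤ 𝔫.comap φ) :
    ∃ Q : Ideal B, Q ≤ 𝔫 ∧ Q.IsPrime ∧ Q.comap φ = P' := by
  letI : Algebra A B := φ.toAlgebra
  haveI : FaithfulSMul A B := (faithfulSMul_iff_algebraMap_injective A B).mpr hinj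
  haveI : Algebra.IsIntegral A B := ⟨hint⟩
  exact exists_le_of_goingDown (A := A) (B := B) P' 𝔫 h

/-- **(TRI)**, ring-hom form: if `P₂` is the only prime above `P'`, every prime `𝔫` whose
contraction contains `P'` contains `P₂`. -/
theorem comp_le_of_unique' (P' : Ideal A) [P'.IsPrime] (P₂ : Ideal B)
    (huniq : ∀ Q : Ideal B, Q.IsPrime → Q.comap φ = P' → Q = P₂)
    (𝔫 : Ideal B) [𝔫.IsPrime] (h : P' ≤ 𝔫.comap φ) : P₂ ≤ 𝔫 := by
  obtain ⟨Q, hQ, hQp, hQo⟩ := exists_le_of_goingDown' φ hinj hint P' 𝔫 h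
  rw [← huniq Q hQp hQo]
  exact hQ

/-- ring-hom form of `comp_le_of_two`. -/
theorem comp_le_of_two' (P' : Ideal A) [P'.IsPrime] (P₁ P₃ : Ideal B)
    (huniq : ∀ Q : Ideal B, Q.IsPrime → Q.comap φ = P' → Q = P₁ ∨ Q = P₃)
    (𝔫 : Ideal B) [𝔫.IsPrime] (h : P' ≤ 𝔫.comap φ) : P₁ ≤ 𝔫 ∨ P₃ ≤ 𝔫 := by
  obtain ⟨Q, hQ, hQp, hQo⟩ := exists_le_of_goingDown' φ hinj hint P' 𝔫 h
  rcases huniq Q hQp hQo with rfl | rfl
  · exact Or.inl hQ
  · exact Or.inr hQ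

omit [IsDomain A] [IsIntegrallyClosed A] [IsDomain B] hinj in
/-- ring-hom form of `above_of_minimal` (no normality needed). -/
theorem above_of_minimal' {ι : Type*} (C : ι → Ideal B) (hC : ∀ i, (C i).IsPrime)
    (ϖ₀ : A) (hmin : ∀ Q : Ideal B, Q.IsPrime → φ ϖ₀ ∈ Q → ∃ i, C i ≤ Q)
    (P' : Ideal A) [P'.IsPrime] (hϖ : ϖ₀ ∈ P')
    (hht : ∀ i, (C i).comap φ ≤ P' → (C i).comap φ = P')
    (Q : Ideal B) (hQ : Q.IsPrime) (hQo : Q.comap φ = P') :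
    ∃ i, Q = C i ∧ (C i).comap φ = P' := by
  letI : Algebra A B := φ.toAlgebra
  haveI : Algebra.IsIntegral A B := ⟨hint⟩
  have hϖQ : φ ϖ₀ ∈ Q := by
    have : ϖ₀ ∈ Q.comap φ := hQo ▸ hϖ
    exact this
  obtain ⟨i, hi⟩ := hmin Q hQ hϖQ
  have hle : (C i).comap φ ≤ P' := hQo ▸ Ideal.comap_mono hi
  have heq : (C i).comap φ = P' := hht i hle
  refine ⟨i, ?_, heq⟩
  haveI := hC i
  by_contra hne
  have hlt : C i < Q := lt_of_le_of_ne hi (fun h => hne h.symm)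
  obtain ⟨x, hxQ, hxC⟩ := SetLike.exists_of_lt hlt
  have := Ideal.comap_lt_comap_of_integral_mem_sdiff (R := A) (S := B) (I := C i) (J := Q)
    hi (x := x) ⟨hxQ, hxC⟩ (Algebra.IsIntegral.isIntegral x)
  have h2 : (C i).comap φ < Q.comap φ := this
  rw [heq, hQo] at h2
  exact lt_irrefl _ h2

/-- **(TRI), final form**: components `C i` of the special fibre of `B` (every prime containing
`φ ϖ₀` contains one of them), a height-one prime `P' ∋ ϖ₀` of `A`.  If a prime `𝔫` of `B` has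
`P' ≤ φ⁻¹ 𝔫`, then `𝔫` contains a component `C i` with `φ⁻¹ (C i) = P'`. -/
theorem comp_le_of_minimal' {ι : Type*} (C : ι → Ideal B) (hC : ∀ i, (C i).IsPrime)
    (ϖ₀ : A) (hmin : ∀ Q : Ideal B, Q.IsPrime → φ ϖ₀ ∈ Q → ∃ i, C i ≤ Q)
    (P' : Ideal A) [P'.IsPrime] (hϖ : ϖ₀ ∈ P')
    (hht : ∀ i, (C i).comap φ ≤ P' → (C i).comap φ = P')
    (𝔫 : Ideal B) [𝔫.IsPrime] (h : P' ≤ 𝔫.comap φ) :
    ∃ i, C i ≤ 𝔫 ∧ (C i).comap φ = P' := by
  obtain ⟨Q, hQ, hQp, hQo⟩ := exists_le_of_goingDown' φ hinj hint P' 𝔫 h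
  obtain ⟨i, hi, hio⟩ := above_of_minimal' φ hint C hC ϖ₀ hmin P' hϖ hht Q hQp hQo
  exact ⟨i, hi ▸ hQ, hio⟩

end ringHom

end H27FB
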