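/-
helper22: item 86 (S36), LOC (DISC line), leaf **(G0-N')**: every closed point of the chart `t`
of the level `M` (`q ∤ M`, tame level) is REGULAR, over `R = descVal A K₁` for ANY number field
`K₁ ⊆ ℚ̄` containing a primitive `e₀`-th root of unity, `e₀ = branchIndex (baseKind q) M`
(no normality of `K₁ / ℚ`, no condition on the ramification of `K₁` at `A`).

Output = the hypothesis (G0) of `H6LD.DiscChartStatement`:
  `x₀ ∈ 𝔫`,  `𝔫 = (ϖ, x₀)` locally,  `(ϖ)` prime locally,  `x₀ / ϖ ∉ B_𝔫`.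

Proof: `P₁ = {y ∈ M₀ | InGm y}` is prime, `P₁ = ϖ M₀` (`H18GM.gaussM` + Lemma U), `M₀ / P₁` has
a uniformizer at `𝔫` (`H9UF.unif_gen` with `F = E`, normality of the special fibre
`H14I2.h14i2_chartNormalInst`).
-/
import Mathlib
import Fermat.Agent.S34.CompUnif_helper9
import Fermat.Agent.S34.I2LevelNormal_helper14

set_option autoImplicit false
set_option synthInstance.maxHeartbeats 400000
set_option maxHeartbeats 4000000
set_option linter.unusedSectionVars false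
set_option linter.unusedVariables false
set_option linter.style.haveILetI false
set_option linter.style.longLine false

noncomputable section

open Polynomial IntermediateField ModularCurve H7S18 H4S34 H26DI H28GV

namespace H22G0

section Concrete

variable (M : ℕ) [NeZero M] (q : ℕ) [NeZero q] (hq : q.Prime) (hqM : ¬ q ∣ M) (hT : TameLevel q M)
  (A : ValuationSubring (AlgebraicClosure ℚ)) (hA : A.LiesOverPrime q)
  (K₁ : IntermediateField ℚ (AlgebraicClosure ℚ)) (hfin : FiniteDimensional ℚ K₁)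
  (hζ : ∃ ζ : K₁, IsPrimitiveRoot ζ (branchIndex (baseKind q) M))
  [Algebra ↥(descVal A K₁) (FK K₁ M)]
  [IsScalarTower ↥(descVal A K₁) K₁ (FK K₁ M)]
  (ϖ : ↥(descVal A K₁)) (hϖ : Irreducible ϖ)
  (t₀ : LaurentSeries ℚ) (ht₀ : IsBase (baseKind q) t₀)
  (t : FK K₁ M) (ht : (t : LaurentSeries K₁) = coeffEmb K₁ t₀)

include hT ht₀ ht in
/-- the base function is transcendental, `F₁(M)` is finite over `K₁(t)` -/
theorem base_basics : Transcendental K₁ t ∧ FiniteDimensional K₁⟮t⟯ (FK K₁ M) := by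
  obtain ⟨t₁, ht₁coe, ht₁tr, ht₁fin, -⟩ :=
    H9C6e.fieldBasics M (baseKind q) (h7_baseKind_ok hT) t₀ ht₀ K₁
  have htt : t₁ = t := Subtype.ext (ht₁coe.trans ht.symm)
  rw [htt] at ht₁tr ht₁fin
  exact ⟨ht₁tr, ht₁fin⟩

include hq hqM hT hA hfin hϖ ht₀ ht in
/-- chart elements lie in the Gauss ring -/
theorem chart_inG (y : Chart ↥(descVal A K₁) t) :
    H8PB.InG (descVal A K₁) (((y : FK K₁ M)) : LaurentSeries K₁) := by
  haveI : Fact q.Prime := ⟨hq⟩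
  obtain ⟨hdvr, -, -⟩ := H4DVR.dvrStatement q A hA K₁ hfin
  haveI := hdvr
  have htr : Transcendental K₁ t := (base_basics M q hT K₁ t₀ ht₀ t ht).1
  have htrR : Transcendental ↥(descVal A K₁) t := H19S18.h19_transc ↥(descVal A K₁) K₁ htr
  have hint : GInt ↥(descVal A K₁) ϖ t (y : FK K₁ M) :=
    H19S18.h19_gint_of_isInt ↥(descVal A K₁) htrR hϖ y.2
  exact ((H18GM.gaussM M A K₁ q hqM hA ϖ hϖ (baseKind q) t₀ ht₀ t ht (y : FK K₁ M)).1).mp hint

include hq hqM hT hA hfin hϖ ht₀ ht in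
/-- `P₁ ⊆ ϖ M₀` -/
theorem comp_le_span (y : Chart ↥(descVal A K₁) t)
    (hy : H8PB.InGm (descVal A K₁) (((y : FK K₁ M)) : LaurentSeries K₁)) :
    ∃ z : Chart ↥(descVal A K₁) t,
      (y : FK K₁ M) = algebraMap ↥(descVal A K₁) (FK K₁ M) ϖ * (z : FK K₁ M) := by
  haveI : Fact q.Prime := ⟨hq⟩
  obtain ⟨hdvr, -, -⟩ := H4DVR.dvrStatement q A hA K₁ hfin
  haveI := hdvr
  have htr : Transcendental K₁ t := (base_basics M q hT K₁ t₀ ht₀ t ht).1
  have htrR : Transcendental ↥(descVal A K₁) t := H19S18.h19_transc ↥(descVal A K₁) K₁ htr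
  obtain ⟨z, hz, hyz⟩ :=
    ((H18GM.gaussM M A K₁ q hqM hA ϖ hϖ (baseKind q) t₀ ht₀ t ht (y : FK K₁ M)).2).mpr hy
  rw [sub_zero] at hyz
  have hyint : IsInt ↥(descVal A K₁) t (algebraMap ↥(descVal A K₁) (FK K₁ M) ϖ * z) := by
    rw [← hyz]
    exact y.2
  exact ⟨⟨z, H19S18.h19_lemmaU ↥(descVal A K₁) htrR hϖ hz hyint⟩, hyz⟩

include hq hqM hT hA hfin hϖ ht₀ ht in
/-- `P₁ ∩ R[t] ⊆ ϖ R[t]` -/
theorem comp_inter (s : Algebra.adjoin ↥(descVal A K₁) {t})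
    (hs : H8PB.InGm (descVal A K₁) (((s : FK K₁ M)) : LaurentSeries K₁)) :
    algebraMap ↥(descVal A K₁) (Algebra.adjoin ↥(descVal A K₁) {t}) ϖ ∣ s := by
  haveI : Fact q.Prime := ⟨hq⟩
  obtain ⟨hdvr, -, -⟩ := H4DVR.dvrStatement q A hA K₁ hfin
  haveI := hdvr
  by_contra hnd
  have hGU : IsGaussUnit ↥(descVal A K₁) ϖ t (s : FK K₁ M) :=
    (H19S18.h19_gaussUnit_iff ↥(descVal A K₁) ϖ t s).mpr hnd
  have hs0 : (s : FK K₁ M) ≠ 0 := by
    intro h0
    apply hnd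
    have : s = 0 := Subtype.ext h0
    rw [this]
    exact dvd_zero _
  have hGt : GInt ↥(descVal A K₁) ϖ t ((s : FK K₁ M))⁻¹ := by
    refine ⟨(s : FK K₁ M), hGU, ?_⟩
    rw [mul_inv_cancel₀ hs0]
    exact isIntegral_one
  have hInv := ((H18GM.gaussM M A K₁ q hqM hA ϖ hϖ (baseKind q) t₀ ht₀ t ht
    ((s : FK K₁ M))⁻¹).1).mp hGt
  obtain ⟨h1, h2⟩ := (H22DC.inGm_iff (descVal A K₁) _).mp hs
  have h3 := (H22DC.inG_iff (descVal A K₁) _).mp hInv
  have h4 : (⟨_, h1⟩ : ↥(gvO (descVal A K₁) (H22DC.resR (descVal A K₁)))) * ⟨_, h3⟩ = 1 := by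
    apply Subtype.ext
    show (((s : FK K₁ M)) : LaurentSeries K₁) *
      ((((s : FK K₁ M))⁻¹ : FK K₁ M) : LaurentSeries K₁) = 1
    rw [← MulMemClass.coe_mul, mul_inv_cancel₀ hs0]
    rfl
  have h5 := congrArg (gvRed (descVal A K₁) (H22DC.resR (descVal A K₁))) h4
  rw [map_mul, h2, zero_mul, map_one] at h5
  exact zero_ne_one h5

include hq hqM hT hA hfin hζ hϖ ht₀ ht in
/-- normality of the special fibre of the chart `t` at the level `M` (no normality of `K₁`). -/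
theorem level_normal (y : FK K₁ M) (n : ℕ) (cf : ℕ → FK K₁ M)
    (hcf : ∀ i, cf i ∈ Algebra.adjoin ↥(descVal A K₁) {t})
    (hy : H8PB.InG (descVal A K₁) (y : LaurentSeries K₁))
    (hz : H8PB.InGm (descVal A K₁)
      (((y ^ n + ∑ i ∈ Finset.range n, cf i * y ^ i : FK K₁ M)) : LaurentSeries K₁)) :
    ∃ d : FK K₁ M, IsInt ↥(descVal A K₁) t d ∧
      H8PB.InGm (descVal A K₁) (((y - d : FK K₁ M)) : LaurentSeries K₁) := by
  haveI : Fact q.Prime := ⟨hq⟩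
  obtain ⟨hN1, -⟩ := H14I2.h14i2_chartNormalInst M q hT A hA K₁ hfin hζ ϖ hϖ t₀ ht₀ t ht
  have hG := fun x : FK K₁ M => H18GM.gaussM M A K₁ q hqM hA ϖ hϖ (baseKind q) t₀ ht₀ t ht x
  have hyG : GInt ↥(descVal A K₁) ϖ t y := (hG y).1.mpr hy
  have hzM : ModPi ↥(descVal A K₁) ϖ t (y ^ n + ∑ i ∈ Finset.range n, cf i * y ^ i) 0 :=
    (hG _).2.mpr hz
  obtain ⟨d, hd, z, hzG, hze⟩ := hN1 y hyG ⟨n, cf, hcf, hzM⟩
  refine ⟨d, hd, (hG (y - d)).2.mp ⟨z, hzG, ?_⟩⟩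
  rw [sub_zero]
  exact hze

end Concrete

end H22G0

end
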