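/-
Item 86 (S36), LOC, DISC route, the GAUSS BRIDGE (helper23).

Setting: a level `N` prime to `ℓ`, `R = descVal A K₁` (any number field `K₁ ⊆ ℚ̄`), a base
function `t` living at level `N`, the chart `c = t` or `c = t⁻¹`, `M₀ = H4S34.Chart R c`,
`𝔫` a closed point of the special fibre of `M₀`.

The special fibre of `M₀` is irreducible (the Gauss prime `P = {y ∈ M₀ | InGm y}` equals `ϖ M₀`),
hence the Gauss prime passes through EVERY closed point and `B_𝔫 ⊆ V` (the Gauss ring):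

* `H23GB.inG_inv`            : `InG x`, `¬ InGm x` ⟹ `InG x⁻¹`;
* `H23GB.chart_eq_pi_mul`    : `y ∈ M₀`, `InGm y` ⟹ `y = ϖ a`, `a ∈ M₀`   (`P = ϖ M₀`);
* `H23GB.mem_closedPt`       : `y ∈ M₀`, `InGm y` ⟹ `y ∈ 𝔫`;
* `H23GB.inLoc_inG`          : `InLoc 𝔫 x` ⟹ `InG x`;
* `H23GB.not_inLoc_div`      : `¬ InGm P` ⟹ `¬ InLoc 𝔫 (P / ϖ)`;
* `H23GB.not_inGm_aeval`     : for a base series `X₀` over `ℤ` (`x₋₁ = 1`, no lower terms) and
  `D ∈ ℤ[X]` with a coefficient which is a unit of `R`: `¬ InGm (D(X₀))`   (Gauss lemma);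
* `H23GB.gauss_bridge`       : the hypothesis `¬ InLoc 𝔫₀ (P / ϖ)` of `H6LD.DiscChartStatement`
  for `P = D(x)`, `x` the function with expansion `X₀`;  `H23GB.gauss_bridge_j` for `x = j`.
The concrete forms (`…_level`) are instances at `FK K₁ N` through `H18GM.gaussM`.
-/
import Mathlib
import Fermat.Agent.S34.GaussM_helper18
import Fermat.Agent.S34.DichAsm_helper22
import Fermat.Agent.S34.WTransport_helper26
import Fermat.Agent.S36.PsiGauss_helper23

set_option autoImplicit false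
set_option synthInstance.maxHeartbeats 400000
set_option maxHeartbeats 1000000
set_option linter.unusedSectionVars false
set_option linter.unusedVariables false
set_option linter.style.longLine false
set_option linter.style.haveILetI false

noncomputable section

namespace H23GB

open HahnSeries ModularCurve H7S18 H4S34 H28GV H8PB H3TAU

/-! ### the Gauss ring -/

section Gauss

variable {K : Type} [Field K] (R : ValuationSubring K)

/-- a unit of the Gauss ring has its inverse in the Gauss ring. -/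
theorem inG_inv {x : LaurentSeries K} (hx : InG R x) (hxm : ¬ InGm R x) : InG R x⁻¹ := by
  rw [h3v_inG_iff] at hx ⊢
  obtain ⟨f, g, hg, hfg⟩ := hx
  have hf : rhoR R f ≠ 0 := by
    intro hf
    exact hxm ((h3v_inGm_iff x).2 ⟨f, g, hg, hf, hfg⟩)
  have hx0 : x ≠ 0 := by
    rintro rfl
    rw [zero_mul] at hfg
    have : f = 0 := gvEps_injective R (hfg.symm.trans (map_zero _).symm)
    rw [this, map_zero] at hf
    exact hf rfl
  refine ⟨g, f, hf, ?_⟩
  rw [← hfg, ← mul_assoc, inv_mul_cancel₀ hx0, one_mul]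

/-- an integral series in the maximal ideal of the Gauss ring reduces to `0`. -/
theorem rho_eq_zero_of_inGm {f : LaurentSeries R} (h : InGm R (gvEps R f)) : rhoR R f = 0 := by
  rw [h3v_inGm_iff] at h
  obtain ⟨f', g, hg, hf', hfg⟩ := h
  have h1 : f * g = f' := gvEps_injective R (by rw [map_mul]; exact hfg)
  have h2 : rhoR R f * rhoR R g = 0 := by rw [← map_mul, h1, hf']
  exact (mul_eq_zero.1 h2).resolve_right hg

end Gauss

/-! ### the Gauss prime passes through every closed point (generic core) -/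

section Core

variable {K : Type} [Field K] (R : ValuationSubring K)
  {S : IntermediateField K (LaurentSeries K)} [Algebra ↥R ↥S] [IsScalarTower ↥R K ↥S]

/-- `P = ϖ M₀`: an element of the chart in the maximal ideal of the Gauss ring is divisible by
`ϖ` in the chart. -/
theorem chart_eq_pi_mul (ϖ : ↥R) (t c : ↥S)
    (hG2 : ∀ x : ↥S, InGm R (x : LaurentSeries K) → ModPi ↥R ϖ t x 0)
    (hU : ∀ z : ↥S, GInt ↥R ϖ t z → IsInt ↥R c (algebraMap ↥R ↥S ϖ * z) → IsInt ↥R c z)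
    (y : Chart ↥R c) (hy : InGm R (((y : ↥S)) : LaurentSeries K)) :
    ∃ a : Chart ↥R c, (y : ↥S) = algebraMap ↥R ↥S ϖ * a := by
  obtain ⟨z, hz, h⟩ := hG2 (y : ↥S) hy
  rw [sub_zero] at h
  have hint : IsInt ↥R c (algebraMap ↥R ↥S ϖ * z) := by
    rw [← h]
    exact y.2
  exact ⟨⟨z, hU z hz hint⟩, h⟩

/-- the Gauss prime is contained in every closed point of the special fibre. -/
theorem mem_closedPt (ϖ : ↥R) (t c : ↥S)
    (hG2 : ∀ x : ↥S, InGm R (x : LaurentSeries K) → ModPi ↥R ϖ t x 0)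
    (hU : ∀ z : ↥S, GInt ↥R ϖ t z → IsInt ↥R c (algebraMap ↥R ↥S ϖ * z) → IsInt ↥R c z)
    (𝔫 : Ideal (Chart ↥R c)) (h𝔫 : IsClosedPt ↥R ϖ c 𝔫)
    (y : Chart ↥R c) (hy : InGm R (((y : ↥S)) : LaurentSeries K)) : y ∈ 𝔫 := by
  obtain ⟨a, ha⟩ := chart_eq_pi_mul R ϖ t c hG2 hU y hy
  obtain ⟨p, hp⟩ := H26DI.exists_chart_coe (↥R) c ϖ
  have hpm : p ∈ 𝔫 := h𝔫.2 p hp
  have hya : y = p * a := by
    apply Subtype.ext
    rw [ha, ← hp]
    rfl
  rw [hya]
  exact 𝔫.mul_mem_right a hpm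

/-- `B_𝔫 ⊆ V`: the local ring of a closed point is contained in the Gauss ring. -/
theorem inLoc_inG (ϖ : ↥R) (t c : ↥S)
    (hG2 : ∀ x : ↥S, InGm R (x : LaurentSeries K) → ModPi ↥R ϖ t x 0)
    (hU : ∀ z : ↥S, GInt ↥R ϖ t z → IsInt ↥R c (algebraMap ↥R ↥S ϖ * z) → IsInt ↥R c z)
    (hint : ∀ y : Chart ↥R c, InG R (((y : ↥S)) : LaurentSeries K))
    (𝔫 : Ideal (Chart ↥R c)) (h𝔫 : IsClosedPt ↥R ϖ c 𝔫)
    (x : ↥S) (hx : InLoc ↥R c 𝔫 x) : InG R (x : LaurentSeries K) := by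
  obtain ⟨a, s, hs, hsx⟩ := hx
  have hsm : ¬ InGm R (((s : ↥S)) : LaurentSeries K) :=
    fun h => hs (mem_closedPt R ϖ t c hG2 hU 𝔫 h𝔫 s h)
  have hs0 : ((s : ↥S)) ≠ 0 := by
    intro h0
    apply hs
    have : s = 0 := Subtype.ext h0
    rw [this]
    exact 𝔫.zero_mem
  have hsinv : InG R ((((s : ↥S)) : LaurentSeries K))⁻¹ := inG_inv R (hint s) hsm
  have hxe : x = ((s : ↥S))⁻¹ * (a : ↥S) := by
    rw [← hsx, ← mul_assoc, inv_mul_cancel₀ hs0, one_mul]
  have hxe' : (x : LaurentSeries K) =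
      ((((s : ↥S)) : LaurentSeries K))⁻¹ * (((a : ↥S)) : LaurentSeries K) := by
    rw [hxe]
    rfl
  rw [hxe']
  exact H23PS.inG_mul' hsinv (hint a)

/-- **(GAUSS)**, generic: an element `P` which is not in the maximal ideal of the Gauss ring is
not divisible by `ϖ` in the local ring of a closed point. -/
theorem not_inLoc_div (ϖ : ↥R) (hϖ : ¬ IsUnit ϖ) (hϖ0 : algebraMap ↥R ↥S ϖ ≠ 0) (t c : ↥S)
    (hG2 : ∀ x : ↥S, InGm R (x : LaurentSeries K) → ModPi ↥R ϖ t x 0)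
    (hU : ∀ z : ↥S, GInt ↥R ϖ t z → IsInt ↥R c (algebraMap ↥R ↥S ϖ * z) → IsInt ↥R c z)
    (hint : ∀ y : Chart ↥R c, InG R (((y : ↥S)) : LaurentSeries K))
    (𝔫 : Ideal (Chart ↥R c)) (h𝔫 : IsClosedPt ↥R ϖ c 𝔫)
    (P : ↥S) (hP : ¬ InGm R (P : LaurentSeries K)) :
    ¬ InLoc ↥R c 𝔫 (P * (algebraMap ↥R ↥S ϖ)⁻¹) := by
  intro h
  have h1 := inLoc_inG R ϖ t c hG2 hU hint 𝔫 h𝔫 _ h
  have h2 : InGm R ((algebraMap ↥R ↥S ϖ : ↥S) : LaurentSeries K) :=
    H22DC.inGm_algebraMap R hϖ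
  have h3 := H23PS.inGm_mul_left h1 h2
  apply hP
  have hPe : (P : LaurentSeries K) =
      ((P * (algebraMap ↥R ↥S ϖ)⁻¹ : ↥S) : LaurentSeries K) *
        ((algebraMap ↥R ↥S ϖ : ↥S) : LaurentSeries K) := by
    have : P = P * (algebraMap ↥R ↥S ϖ)⁻¹ * algebraMap ↥R ↥S ϖ := by
      rw [mul_assoc, inv_mul_cancel₀ hϖ0, mul_one]
    conv_lhs => rw [this]
    rfl
  rw [hPe]
  exact h3

end Core

/-! ### the Gauss lemma for a base series -/

section Poly

variable {k : Type} [Field k]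

/-- powers of a series with a simple pole and residue `1`. -/
theorem coeff_pow_base {x : LaurentSeries k} (h1 : x.coeff (-1) = 1)
    (h2 : ∀ n < (-1 : ℤ), x.coeff n = 0) (m : ℕ) :
    (x ^ m).coeff (-(m : ℤ)) = 1 ∧ ∀ n < (-(m : ℤ)), (x ^ m).coeff n = 0 := by
  induction m with
  | zero =>
    refine ⟨by simp, ?_⟩
    intro n hn
    rw [pow_zero, HahnSeries.coeff_one]
    have : n ≠ 0 := by
      simp only [Nat.cast_zero, neg_zero] at hn
      exact hn.ne
    simp [this]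
  | succ m ih =>
    obtain ⟨ih1, ih2⟩ := ih
    have hx0 : x ≠ 0 := by
      rintro rfl
      simp at h1
    have hxm0 : x ^ m ≠ 0 := pow_ne_zero m hx0
    have hox : x.order = -1 := by
      apply le_antisymm
      · exact HahnSeries.order_le_of_coeff_ne_zero (by rw [h1]; exact one_ne_zero)
      · by_contra hlt
        have hlt' : x.order < -1 := not_le.1 hlt
        have h3 : x.leadingCoeff ≠ 0 := HahnSeries.leadingCoeff_ne_zero.2 hx0
        rw [HahnSeries.leadingCoeff_eq] at h3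
        exact h3 (h2 _ hlt')
    have hom : (x ^ m).order = -(m : ℤ) := by
      apply le_antisymm
      · exact HahnSeries.order_le_of_coeff_ne_zero (by rw [ih1]; exact one_ne_zero)
      · by_contra hlt
        have hlt' : (x ^ m).order < -(m : ℤ) := not_le.1 hlt
        have h3 : (x ^ m).leadingCoeff ≠ 0 := HahnSeries.leadingCoeff_ne_zero.2 hxm0
        rw [HahnSeries.leadingCoeff_eq] at h3
        exact h3 (ih2 _ hlt')
    have hos : (x ^ (m + 1)).order = -((m + 1 : ℕ) : ℤ) := by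
      rw [pow_succ, HahnSeries.order_mul hxm0 hx0, hom, hox]
      push_cast
      ring
    have hls : (x ^ (m + 1)).leadingCoeff = 1 := by
      rw [pow_succ, HahnSeries.leadingCoeff_mul, HahnSeries.leadingCoeff_eq,
        HahnSeries.leadingCoeff_eq, hom, hox, ih1, h1, one_mul]
    constructor
    · rw [← hos, ← HahnSeries.leadingCoeff_eq]
      exact hls
    · intro n hn
      apply HahnSeries.coeff_eq_zero_of_lt_order
      rw [hos]
      exact hn

theorem coeff_aeval_series (x : LaurentSeries k) (P : Polynomial k) (n : ℤ) :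
    (Polynomial.aeval x P).coeff n =
      ∑ i ∈ Finset.range (P.natDegree + 1), P.coeff i * (x ^ i).coeff n := by
  rw [Polynomial.aeval_eq_sum_range, HahnSeries.coeff_sum]
  apply Finset.sum_congr rfl
  intro i _
  rw [Algebra.smul_def, HahnSeries.algebraMap_apply']
  simp

/-- a nonzero polynomial does not vanish at a series with a simple pole. -/
theorem aeval_base_ne_zero {x : LaurentSeries k} (h1 : x.coeff (-1) = 1)
    (h2 : ∀ n < (-1 : ℤ), x.coeff n = 0) {P : Polynomial k} (hP : P ≠ 0) :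
    Polynomial.aeval x P ≠ 0 := by
  intro h0
  have hc : (Polynomial.aeval x P).coeff (-(P.natDegree : ℤ)) = P.leadingCoeff := by
    rw [coeff_aeval_series, Finset.sum_eq_single P.natDegree]
    · rw [(coeff_pow_base h1 h2 P.natDegree).1, mul_one]
      rfl
    · intro i hi hne
      have hlt : i < P.natDegree := by
        have := Finset.mem_range.1 hi
        omega
      rw [(coeff_pow_base h1 h2 i).2 _ (by omega), mul_zero]
    · intro h
      exact absurd (Finset.mem_range.2 (Nat.lt_succ_self _)) h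
  rw [h0, HahnSeries.coeff_zero] at hc
  exact hP (Polynomial.leadingCoeff_eq_zero.1 hc.symm)

end Poly

section GaussLemma

variable {K : Type} [Field K] (R : ValuationSubring K)

/-- **Gauss lemma** for a base series over `ℤ`: if some coefficient of `D ∈ ℤ[X]` is a unit of
`R`, then `D(X₀)` is not in the maximal ideal of the Gauss ring. -/
theorem not_inGm_aeval {X₀ : LaurentSeries ℤ} (hX₀ : H23PS.IsBaseZ X₀) (D : Polynomial ℤ)
    (hD : ∃ n, IsUnit ((D.coeff n : ℤ) : ↥R)) :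
    ¬ InGm R (coeffMap (Int.castRingHom K) (Polynomial.aeval X₀ D)) := by
  intro h
  set ρ : ℤ →+* IsLocalRing.ResidueField ↥R :=
    (IsLocalRing.residue ↥R).comp (Int.castRingHom ↥R) with hρ
  have hrew : coeffMap (Int.castRingHom K) (Polynomial.aeval X₀ D) =
      gvEps R (coeffMap (Int.castRingHom ↥R) (Polynomial.aeval X₀ D)) := by
    show _ = coeffMap R.subtype (coeffMap (Int.castRingHom ↥R) (Polynomial.aeval X₀ D))
    rw [coeffMap_coeffMap]
    exact coeffMap_congr (RingHom.ext_int _ _) _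
  rw [hrew] at h
  have h0 := rho_eq_zero_of_inGm R h
  have h1 : rhoR R (coeffMap (Int.castRingHom ↥R) (Polynomial.aeval X₀ D)) =
      coeffMap ρ (Polynomial.aeval X₀ D) := by
    show coeffMap (IsLocalRing.residue ↥R) (coeffMap (Int.castRingHom ↥R) _) = _
    rw [coeffMap_coeffMap]
  rw [h1] at h0
  have h2 : coeffMap ρ (Polynomial.aeval X₀ D) =
      Polynomial.aeval (coeffMap ρ X₀) (D.map ρ) := by
    rw [Polynomial.aeval_def, Polynomial.hom_eval₂, Polynomial.aeval_def, Polynomial.eval₂_map]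
    congr 1
    exact RingHom.ext_int _ _
  rw [h2] at h0
  have hb1 : (coeffMap ρ X₀).coeff (-1) = 1 := by
    rw [coeffMap_coeff, hX₀.1, map_one]
  have hb2 : ∀ n < (-1 : ℤ), (coeffMap ρ X₀).coeff n = 0 := by
    intro n hn
    rw [coeffMap_coeff, hX₀.2 n hn, map_zero]
  have hne : D.map ρ ≠ 0 := by
    obtain ⟨n, hn⟩ := hD
    intro hz
    have hc : (D.map ρ).coeff n = 0 := by rw [hz, Polynomial.coeff_zero]
    rw [Polynomial.coeff_map] at hc
    have hc' : IsLocalRing.residue ↥R ((D.coeff n : ℤ) : ↥R) = 0 := hc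
    rw [IsLocalRing.residue_eq_zero_iff, IsLocalRing.mem_maximalIdeal, mem_nonunits_iff] at hc'
    exact hc' hn
  exact aeval_base_ne_zero hb1 hb2 hne h0

end GaussLemma

/-! ### polynomials in an element of the local ring -/

section LocPoly

variable {R : Type} [CommRing R] {E : Type} [Field E] [Algebra R E]
  {c : E} {𝔫 : Ideal (Chart R c)}

/-- `B_𝔫` is stable under polynomials with integer coefficients. -/
theorem inLoc_aeval (h𝔫 : 𝔫.IsPrime) {x : E} (hx : InLoc R c 𝔫 x) (D : Polynomial ℤ) :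
    InLoc R c 𝔫 (Polynomial.aeval x D) := by
  induction D using Polynomial.induction_on' with
  | add p q hp hq =>
    rw [map_add]
    exact H26WT.inLoc_add h𝔫 hp hq
  | monomial n a =>
    rw [Polynomial.aeval_monomial]
    refine H26WT.inLoc_mul h𝔫 ?_ (H26WT.inLoc_pow h𝔫 hx n)
    have h : algebraMap ℤ E a = algebraMap R E (a : R) := by
      rw [eq_intCast, map_intCast]
    rw [h]
    exact H26WT.inLoc_algebraMap h𝔫 _

end LocPoly

/-! ### the level `N` -/

section Level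

variable (N : ℕ) [NeZero N] (A : ValuationSubring (AlgebraicClosure ℚ))
  (K₁ : IntermediateField ℚ (AlgebraicClosure ℚ)) (hfin : FiniteDimensional ℚ K₁)
  (ℓ : ℕ) [Fact ℓ.Prime] (hℓN : ¬ ℓ ∣ N) (hA : A.LiesOverPrime ℓ)
  [Algebra ↥(descVal A K₁) (FK K₁ N)] [IsScalarTower ↥(descVal A K₁) K₁ (FK K₁ N)]
  (ϖ : ↥(descVal A K₁)) (hϖ : Irreducible ϖ)
  (i : ℕ) (t₀ : LaurentSeries ℚ) (ht₀ : IsBase i t₀)
  (t : FK K₁ N) (ht : (t : LaurentSeries K₁) = coeffEmb K₁ t₀) (htr : Transcendental K₁ t)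
  (c : FK K₁ N) (hc : c = t ∨ c = t⁻¹)
  (𝔫 : Ideal (Chart ↥(descVal A K₁) c)) (h𝔫 : IsClosedPt ↥(descVal A K₁) ϖ c 𝔫)

include hfin hℓN hA hϖ ht₀ ht htr hc in
/-- the three inputs of the generic core at a level `N` prime to `ℓ`
(`H18GM.gaussM`, Lemma U, `M₀ ⊆ O`). -/
theorem level_hyps :
    (∀ x : FK K₁ N, InGm (descVal A K₁) (x : LaurentSeries K₁) →
      ModPi ↥(descVal A K₁) ϖ t x 0) ∧
    (∀ z : FK K₁ N, GInt ↥(descVal A K₁) ϖ t z →
      IsInt ↥(descVal A K₁) c (algebraMap ↥(descVal A K₁) (FK K₁ N) ϖ * z) →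
        IsInt ↥(descVal A K₁) c z) ∧
    (∀ y : Chart ↥(descVal A K₁) c,
      InG (descVal A K₁) (((y : FK K₁ N)) : LaurentSeries K₁)) := by
  obtain ⟨hdvr, -, -⟩ := H4DVR.dvrStatement ℓ A hA K₁ hfin
  haveI := hdvr
  have htrR : Transcendental ↥(descVal A K₁) t := H19S18.h19_transc ↥(descVal A K₁) K₁ htr
  have htr' : Transcendental K₁ t⁻¹ := H19S18.h19_transc_inv K₁ htr
  have htrR' : Transcendental ↥(descVal A K₁) t⁻¹ :=
    H19S18.h19_transc ↥(descVal A K₁) K₁ htr'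
  have hG := fun x : FK K₁ N => H18GM.gaussM N A K₁ ℓ hℓN hA ϖ hϖ i t₀ ht₀ t ht x
  refine ⟨fun x hx => (hG x).2.mpr hx, ?_, ?_⟩
  · intro z hz hint
    rcases hc with rfl | rfl
    · exact H19S18.h19_lemmaU ↥(descVal A K₁) htrR hϖ hz hint
    · exact H19S18.h19_lemmaU_inv ↥(descVal A K₁) htrR htrR' hϖ hz hint
  · intro y
    apply (hG y).1.mp
    rcases hc with rfl | rfl
    · exact H19S18.h19_gint_of_isInt ↥(descVal A K₁) htrR hϖ y.2
    · exact H19S18.h19_gint_of_isInt_inv ↥(descVal A K₁) htrR htrR' hϖ y.2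

include hfin hℓN hA hϖ ht₀ ht htr hc h𝔫 in
/-- **the Gauss prime passes through every closed point** of the special fibre at level `N`. -/
theorem mem_closedPt_level (y : Chart ↥(descVal A K₁) c)
    (hy : InGm (descVal A K₁) (((y : FK K₁ N)) : LaurentSeries K₁)) : y ∈ 𝔫 := by
  obtain ⟨h1, h2, h3⟩ := level_hyps N A K₁ hfin ℓ hℓN hA ϖ hϖ i t₀ ht₀ t ht htr c hc
  exact mem_closedPt (descVal A K₁) ϖ t c h1 h2 𝔫 h𝔫 y hy

include hfin hℓN hA hϖ ht₀ ht htr hc h𝔫 in
/-- **`B_𝔫 ⊆ V`** at level `N`. -/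
theorem inLoc_inG_level (x : FK K₁ N) (hx : InLoc ↥(descVal A K₁) c 𝔫 x) :
    InG (descVal A K₁) (x : LaurentSeries K₁) := by
  obtain ⟨h1, h2, h3⟩ := level_hyps N A K₁ hfin ℓ hℓN hA ϖ hϖ i t₀ ht₀ t ht htr c hc
  exact inLoc_inG (descVal A K₁) ϖ t c h1 h2 h3 𝔫 h𝔫 x hx

include hfin hℓN hA hϖ ht₀ ht htr hc h𝔫 in
/-- **(GAUSS)** at level `N`: `¬ InGm P ⟹ P / ϖ ∉ B_𝔫`. -/
theorem not_inLoc_div_level (P : FK K₁ N)
    (hP : ¬ InGm (descVal A K₁) (P : LaurentSeries K₁)) :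
    ¬ InLoc ↥(descVal A K₁) c 𝔫
      (P * (algebraMap ↥(descVal A K₁) (FK K₁ N) ϖ)⁻¹) := by
  obtain ⟨h1, h2, h3⟩ := level_hyps N A K₁ hfin ℓ hℓN hA ϖ hϖ i t₀ ht₀ t ht htr c hc
  obtain ⟨hdvr, -, -⟩ := H4DVR.dvrStatement ℓ A hA K₁ hfin
  haveI := hdvr
  have hϖ0 : algebraMap ↥(descVal A K₁) (FK K₁ N) ϖ ≠ 0 := by
    intro h0
    apply hϖ.ne_zero
    apply H19S18.h19_algebraMap_injective ↥(descVal A K₁) K₁ (E := FK K₁ N)
    rw [h0, map_zero]
  exact not_inLoc_div (descVal A K₁) ϖ hϖ.not_isUnit hϖ0 t c h1 h2 h3 𝔫 h𝔫 P hP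

include hfin hA in
/-- an integer prime to `ℓ` is a unit of `R`. -/
theorem isUnit_int_of_not_dvd {m : ℤ} (hm : ¬ (ℓ : ℤ) ∣ m) :
    IsUnit ((m : ℤ) : ↥(descVal A K₁)) := by
  obtain ⟨-, -, hu⟩ := H4DVR.dvrStatement ℓ A hA K₁ hfin
  have h1 : ¬ ℓ ∣ m.natAbs := fun h => hm (Int.natCast_dvd.2 h)
  have h2 : 0 < m.natAbs := by
    rcases Nat.eq_zero_or_pos m.natAbs with h | h
    · exact absurd (h ▸ dvd_zero ℓ) h1
    · exact h
  have h3 := hu m.natAbs h1 h2
  rcases Int.natAbs_eq m with h | h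
  · rw [h]
    simpa using h3
  · rw [h]
    simpa using h3.neg

include hfin hℓN hA hϖ ht₀ ht htr hc h𝔫 in
/-- **the GAUSS BRIDGE**: `x` a function at level `N` whose expansion is a base series over `ℤ`
(simple pole, residue `1`), `D ∈ ℤ[X]` with a coefficient prime to `ℓ`.  Then `P = D(x)` lies in
`B_𝔫` as soon as `x` does, and `P / ϖ ∉ B_𝔫`, at every closed point `𝔫` of the special fibre
(hypothesis **(D)** of `H6LD.DiscChartStatement`). -/
theorem gauss_bridge (x : FK K₁ N) (X₀ : LaurentSeries ℤ) (hX₀ : H23PS.IsBaseZ X₀)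
    (hx : (x : LaurentSeries K₁) = coeffMap (Int.castRingHom K₁) X₀)
    (D : Polynomial ℤ) (hD : ∃ n, ¬ (ℓ : ℤ) ∣ D.coeff n) :
    (InLoc ↥(descVal A K₁) c 𝔫 x → InLoc ↥(descVal A K₁) c 𝔫 (Polynomial.aeval x D)) ∧
    ¬ InLoc ↥(descVal A K₁) c 𝔫
      (Polynomial.aeval x D * (algebraMap ↥(descVal A K₁) (FK K₁ N) ϖ)⁻¹) := by
  refine ⟨fun h => inLoc_aeval h𝔫.1.isPrime h D, ?_⟩
  apply not_inLoc_div_level N A K₁ hfin ℓ hℓN hA ϖ hϖ i t₀ ht₀ t ht htr c hc 𝔫 h𝔫
  have hcoe : ((Polynomial.aeval x D : FK K₁ N) : LaurentSeries K₁) =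
      coeffMap (Int.castRingHom K₁) (Polynomial.aeval X₀ D) := by
    have e1 : ((Polynomial.aeval x D : FK K₁ N) : LaurentSeries K₁) =
        Polynomial.aeval (x : LaurentSeries K₁) D := by
      rw [Polynomial.aeval_def, Polynomial.aeval_def]
      have := Polynomial.hom_eval₂ D (algebraMap ℤ (FK K₁ N))
        (algebraMap (FK K₁ N) (LaurentSeries K₁)) x
      rw [show (algebraMap (FK K₁ N) (LaurentSeries K₁)).comp (algebraMap ℤ (FK K₁ N)) =
        algebraMap ℤ (LaurentSeries K₁) from RingHom.ext_int _ _] at this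
      exact this
    have e2 : coeffMap (Int.castRingHom K₁) (Polynomial.aeval X₀ D) =
        Polynomial.aeval (coeffMap (Int.castRingHom K₁) X₀) D := by
      rw [Polynomial.aeval_def, Polynomial.aeval_def, Polynomial.hom_eval₂]
      congr 1
      exact RingHom.ext_int _ _
    rw [e1, e2, hx]
  rw [hcoe]
  obtain ⟨n, hn⟩ := hD
  exact not_inGm_aeval (descVal A K₁) hX₀ D
    ⟨n, isUnit_int_of_not_dvd A K₁ hfin ℓ hA hn⟩

include hfin hℓN hA hϖ ht₀ ht htr hc h𝔫 in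
/-- **the GAUSS BRIDGE for `j`**: the same for the function `x` with expansion `j(𝐪)`
(e.g. `P = D'(j)`, `D'` the primitive part of `disc_Y Φ_ℓ(j, Y)`). -/
theorem gauss_bridge_j (x : FK K₁ N) (hx : (x : LaurentSeries K₁) = coeffEmb K₁ jq)
    (D : Polynomial ℤ) (hD : ∃ n, ¬ (ℓ : ℤ) ∣ D.coeff n) :
    (InLoc ↥(descVal A K₁) c 𝔫 x → InLoc ↥(descVal A K₁) c 𝔫 (Polynomial.aeval x D)) ∧
    ¬ InLoc ↥(descVal A K₁) c 𝔫
      (Polynomial.aeval x D * (algebraMap ↥(descVal A K₁) (FK K₁ N) ϖ)⁻¹) := by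
  refine gauss_bridge N A K₁ hfin ℓ hℓN hA ϖ hϖ i t₀ ht₀ t ht htr c hc 𝔫 h𝔫 x (jqModC ℤ)
    H23PS.isBaseZ_jq (hx.trans ?_) D hD
  rw [coeffMap_jqModC (Int.castRingHom K₁)]
  exact coeffMap_jqModC (algebraMap ℚ K₁)

end Level

end H23GB

end
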