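import Mathlib
import Fermat.Agent.S36.Gen3Loc_helper10
import Fermat.Agent.S36.L1Strong_helper26
import Fermat.Agent.S36.Tor3Half_helper17

/-!
# Item 86 (S36), slice (GEN3-ASM) (helper10): glue lemmas for the producers of `H10G3.Gen3At`

* `H10G3.through_iff_le` : `Through R c 𝔫 V ↔ P_V ≤ 𝔫` (the form of `H26R2.l1Strong_of_two_gen`:
  `∀ y, v_V(y) < 1 → y ∈ 𝔫`), for `V ⊇ M₀`.
* `H10G3.halfAt_of_halfDataC` : helper17's `H17T3.HalfDataC` (`B`-form) gives the chart form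
  `H10G3.HalfAt`.
* `H10G3.gen3At_of_parts` : **`Gen3At` from its three parts**:
  (L1U) `H26R2.L1StrongAt`, (HALF) `HalfAt` for every unit `ε` at triple points, (DICH3).
* `H10G3.dich_of_two_three` : the second clause of `Gen3At` from (DICH3) in the form
  "two different components through `𝔫` ⟹ the third one too".
-/

set_option autoImplicit false
set_option synthInstance.maxHeartbeats 400000
set_option linter.unusedSectionVars false
set_option linter.unusedVariables false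
set_option linter.style.haveILetI false

noncomputable section

open Polynomial IntermediateField AlgebraicCurve H4S34 H7S18

namespace H10G3

section Glue

variable (R : Type) [CommRing R] {F : Type} [Field F] [Algebra R F]
  {F' : Type*} [Field F']

/-- `V` passes through `𝔫` iff the centre of `V` on the chart is contained in `𝔫`. -/
theorem through_iff_le (c : F) (𝔫 : Ideal (Chart R c)) (V : ValuationSubring F)
    (hchart : ∀ x : Chart R c, (x : F) ∈ V) :
    Through R c 𝔫 V ↔ ∀ y : Chart R c, V.valuation (y : F) < 1 → y ∈ 𝔫 := by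
  constructor
  · intro hT y hy
    by_contra hyn
    rw [hT y hyn] at hy
    exact lt_irrefl _ hy
  · intro h s hs
    refine le_antisymm ((V.valuation_le_one_iff _).mpr (hchart s)) ?_
    by_contra hlt
    exact hs (h s (not_le.mp hlt))

/-- helper17's `HalfDataC` (`B`-form) gives the chart form `HalfAt`. -/
theorem halfAt_of_halfDataC (c : F) (𝔫 : Ideal (Chart R c)) (φ : F' →+* F) (Nm : F →* F')
    (V₃ : ValuationSubring F) (V₁' V₂' : ValuationSubring F') (n : ℕ) (cN : F')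
    {B : Type*} [CommRing B] [IsLocalRing B] (φB : B →+* F)
    (hB : ∀ x : F, (∃ b, φB b = x) ↔ InLoc R c 𝔫 x)
    (ε : B) (h : H17T3.HalfDataC φ Nm φB V₃ V₁' V₂' n ε cN) :
    HalfAt R c 𝔫 φ Nm V₃ V₁' V₂' n (φB ε) cN := by
  obtain ⟨B', a1, a2, a3, a4, a5, a6⟩ := h.ex
  refine ⟨B', a1, a2, fun x hx => (hB _).mp (a3 x hx), a4, fun b hb => ?_, a6⟩
  obtain ⟨bB, rfl⟩ := (hB b).mpr hb
  exact a5 bB

/-- **`Gen3At` from its three parts.** -/
theorem gen3At_of_parts (c : F) (𝔫 : Ideal (Chart R c)) (V₁ V₂ V₃ : ValuationSubring F)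
    (φα φβ : F' →+* F) (Nα Nβ : F →* F') (V₁' V₂' : ValuationSubring F')
    (n : ℕ) (v : F) (cα cβ : F')
    (hL1 : H26R2.L1StrongAt R c 𝔫 n v)
    (hHalf : (Through R c 𝔫 V₁ ∧ Through R c 𝔫 V₂ ∧ Through R c 𝔫 V₃) →
      ∀ ε : F, ε ≠ 0 → InLoc R c 𝔫 ε → InLoc R c 𝔫 ε⁻¹ →
        HalfAt R c 𝔫 φα Nα V₃ V₁' V₂' n ε cα ∧ HalfAt R c 𝔫 φβ Nβ V₃ V₂' V₁' n ε cβ)
    (hD : (Through R c 𝔫 V₁ ∧ Through R c 𝔫 V₂ ∧ Through R c 𝔫 V₃) ∨
      ∀ V : ValuationSubring F, V = V₁ ∨ V = V₂ ∨ V = V₃ →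
        ∀ W : ValuationSubring F, W = V₁ ∨ W = V₂ ∨ W = V₃ →
          Through R c 𝔫 V → Through R c 𝔫 W → V = W) :
    Gen3At R c 𝔫 V₁ V₂ V₃ φα φβ Nα Nβ V₁' V₂' n v cα cβ := by
  obtain ⟨ε, y, hy0, hε, hε', hε0, hv⟩ := hL1
  exact ⟨⟨ε, y, hy0, hε0, hε, hε', hv, fun hT => hHalf hT ε hε0 hε hε'⟩, hD⟩

/-- (DICH3) in the "two ⇒ three" form gives the second clause of `Gen3At`: if two DIFFERENT
components pass through `𝔫`, all three do. -/
theorem dich_of_two_three (c : F) (𝔫 : Ideal (Chart R c)) (V₁ V₂ V₃ : ValuationSubring F)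
    (h12 : Through R c 𝔫 V₁ → Through R c 𝔫 V₂ → V₁ ≠ V₂ → Through R c 𝔫 V₃)
    (h13 : Through R c 𝔫 V₁ → Through R c 𝔫 V₃ → V₁ ≠ V₃ → Through R c 𝔫 V₂)
    (h23 : Through R c 𝔫 V₂ → Through R c 𝔫 V₃ → V₂ ≠ V₃ → Through R c 𝔫 V₁) :
    (Through R c 𝔫 V₁ ∧ Through R c 𝔫 V₂ ∧ Through R c 𝔫 V₃) ∨
      ∀ V : ValuationSubring F, V = V₁ ∨ V = V₂ ∨ V = V₃ →
        ∀ W : ValuationSubring F, W = V₁ ∨ W = V₂ ∨ W = V₃ →
          Through R c 𝔫 V → Through R c 𝔫 W → V = W := by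
  classical
  by_cases hall : Through R c 𝔫 V₁ ∧ Through R c 𝔫 V₂ ∧ Through R c 𝔫 V₃
  · exact Or.inl hall
  · refine Or.inr ?_
    -- any two different ones passing gives all three: contradiction
    have key : ∀ V W : ValuationSubring F, V = V₁ ∨ V = V₂ ∨ V = V₃ →
        W = V₁ ∨ W = V₂ ∨ W = V₃ → Through R c 𝔫 V → Through R c 𝔫 W → V ≠ W → False := by
      intro V W hV hW hTV hTW hne
      rcases hV with rfl | rfl | rfl <;> rcases hW with rfl | rfl | rfl
      · exact hne rfl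
      · exact hall ⟨hTV, hTW, h12 hTV hTW hne⟩
      · exact hall ⟨hTV, h13 hTV hTW hne, hTW⟩
      · exact hall ⟨hTW, hTV, h12 hTW hTV (fun h => hne h.symm)⟩
      · exact hne rfl
      · exact hall ⟨h23 hTV hTW hne, hTV, hTW⟩
      · exact hall ⟨hTW, h13 hTW hTV (fun h => hne h.symm), hTV⟩
      · exact hall ⟨h23 hTW hTV (fun h => hne h.symm), hTW, hTV⟩
      · exact hne rfl
    intro V hV W hW hTV hTW
    by_contra hne
    exact key V W hV hW hTV hTW hne

end Glue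

end H10G3

end
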