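import Mathlib
import Fermat.Agent.S36.InjLDefs_helper4
import Fermat.Agent.S18.C12bAux_helper7
import Fermat.Agent.S18.C6b_helper4
import Fermat.Agent.S18.C6e_helper9
import Fermat.Agent.S18.C9Final_helper4

/-!
# Item 86 (S36, Carayol), architect file (helper4): the `L`-level assembly

`H4S36.injLAt_of`: the generic middle chain `InjGenStatement` (proved: `H1IG.injGenStatement`)
and the concrete leaf `TripleLAt N' q` give `InjLAt N' q ((q + 1) (q² - 1)²)` at every tame
pair `(N', q)`.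
-/

set_option autoImplicit false
set_option linter.style.haveILetI false
set_option synthInstance.maxHeartbeats 400000
set_option maxHeartbeats 4000000

noncomputable section

open Polynomial IntermediateField AlgebraicCurve ModularCurve H7S18 H4S34 H1FW H1G3 H17T3

namespace H4S36

local notation "Qb" => AlgebraicClosure ℚ

/-- **`L`-level assembly**: the generic chain at the concrete triple. -/
theorem injLAt_of (hGen : InjGenStatement)
    (N' : ℕ) [NeZero N'] (q : ℕ) [NeZero q] [NeZero (N' * q)] [NeZero (N' * q * q)]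
    (hq : q.Prime) (hT : TameLevel q N') (hTr : TripleLAt N' q) :
    InjLAt N' q ((q + 1) * ((q ^ 2 - 1) * (q ^ 2 - 1))) := by
  classical
  haveI : Fact q.Prime := ⟨hq⟩
  intro A hA n hn hqn
  obtain ⟨K₀, hK₀fin, hK₀fix, hL⟩ := hTr A hA n hn hqn
  refine ⟨K₀, hK₀fin, hK₀fix, ?_⟩
  intro L hLfin hle hirr hfix hζ f₁ hf₁ hdiv hNα hNβ
  -- the base function
  have hdvd : N' ∣ N' * q * q := by rw [mul_assoc]; exact dvd_mul_right _ _
  have hi : baseKind q = 1 ∨ (baseKind q = 2 ∧ 2 ∣ N' * q * q) ∨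
      (baseKind q = 3 ∧ 3 ∣ N' * q * q) := by
    rcases h7_baseKind_ok hT with h | h | h
    · exact Or.inl h
    · exact Or.inr (Or.inl ⟨h.1, h.2.trans hdvd⟩)
    · exact Or.inr (Or.inr ⟨h.1, h.2.trans hdvd⟩)
  obtain ⟨t₀, ht₀⟩ : ∃ t₀ : LaurentSeries ℚ, IsBase (baseKind q) t₀ := by
    rcases hi with h | h | h
    · exact ⟨jq, Or.inl ⟨h, rfl⟩⟩
    · exact ⟨modularUnitSeries 2, Or.inr (Or.inl ⟨h.1, rfl⟩)⟩
    · obtain ⟨-, t₃, ht₃, -⟩ := H4HM.hauptmodulStatement
      rw [← h.1] at ht₃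
      exact ⟨t₃, ht₃⟩
  -- the DVR
  obtain ⟨hdvr, -, hunit⟩ := H4DVR.dvrStatement q A hA L hLfin
  haveI := hdvr
  -- field basics
  obtain ⟨t, htcoe, httr, htfin, htconst⟩ :=
    H9C6e.fieldBasics (N' * q * q) (baseKind q) hi t₀ ht₀ L
  letI algRF : Algebra ↥(descVal A L) (FK L (N' * q * q)) :=
    ((algebraMap L (FK L (N' * q * q))).comp (algebraMap ↥(descVal A L) L)).toAlgebra
  haveI towRF : IsScalarTower ↥(descVal A L) L (FK L (N' * q * q)) :=
    IsScalarTower.of_algebraMap_eq (fun _ => rfl)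
  letI algRF' : Algebra ↥(descVal A L) (FK L (N' * q)) :=
    ((algebraMap L (FK L (N' * q))).comp (algebraMap ↥(descVal A L) L)).toAlgebra
  haveI towRF' : IsScalarTower ↥(descVal A L) L (FK L (N' * q)) :=
    IsScalarTower.of_algebraMap_eq (fun _ => rfl)
  have hnu : IsUnit ((n : ℕ) : ↥(descVal A L)) := hunit n hqn hn
  have hζR : ∃ ζ' : ↥(descVal A L), IsPrimitiveRoot ζ' n := by
    obtain ⟨ζ, hζ⟩ := hζ
    have hmem : ζ ∈ descVal A L := h7_mem_of_pow_eq_one _ _ _ hn hζ.pow_eq_one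
    refine ⟨⟨ζ, hmem⟩, ?_⟩
    exact IsPrimitiveRoot.of_map_of_injective (f := (descVal A L).subtype)
      (by exact hζ) Subtype.val_injective
  -- the concrete leaf
  obtain ⟨V₁, V₂, V₃, V₁', V₂', b₃, hTri, hML⟩ :=
    hL L hLfin hle hirr hfix hζ t₀ ht₀ t htcoe
  -- the generic chain
  exact hGen ↥(descVal A L) L (FK L (N' * q * q)) (FK L (N' * q))
    ((q : ℕ) : ↥(descVal A L)) hirr t httr htfin htconst q n hq.pos hn
    ((Nat.Prime.coprime_iff_not_dvd hq).2 hqn) hnu hζR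
    (heckeAlphaBar L (N' * q) q).toRingHom (heckeBetaBar L (N' * q) q).toRingHom
    (normAKH L N' q) (normBKH L N' q) V₁ V₂ V₃ V₁' V₂' b₃ hTri hML f₁ hf₁ hdiv hNα hNβ

end H4S36

end
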