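import Mathlib
import Fermat.Prelude.Def_GaloisRep_LocalConditions

/-!
# S36 slice (KOLCHIN), helper18

Kolchin's theorem in rank 2 over a domain, in the exact form needed for the
negation of `GaloisRepAdic.IsUnipotentOnInertiaAt`:

* `H18KO.alg_key`      : the polynomial identities (entries of `(A - 1) * (A₀ - 1)` vanish);
* `H18KO.mat_kolchin`  : a multiplicatively closed set of `2 × 2` matrices with
  `trace = 2`, `det = 1` over a domain has a common nonzero fixed vector;
* `H18KO.end_kolchin`  : the same for endomorphisms of a free module of rank `2`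
  with `charpoly = (X - 1) ^ 2`;
* `H18KO.rep_kolchin`  : for `ρ : GaloisRepAdic A` (`A` a domain) and any subgroup `H` of the
  Galois group on which all `charpoly (ρ σ) = (X - 1) ^ 2`: a nonzero `v` fixed by `H`;
* `H18KO.inertia_kolchin` : the case `H = P.inertiaSubgroupIn ℚ`;
* `H18KO.exists_fixed_of_isUnipotentOnInertiaAt` : from `ρ.IsUnipotentOnInertiaAt q`.
-/

set_option autoImplicit false

open Polynomial

namespace H18KO

/-- The polynomial identities behind Kolchin in rank 2: if `A = (x y; z w)` and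
`A₀ = (x₀ y₀; z₀ w₀)` have trace `2` and determinant `1` and `tr (A A₀) = 2`, then
`(A - 1) (A₀ - 1) = 0`. -/
theorem alg_key {R : Type*} [CommRing R] [IsDomain R] (x y z w x0 y0 z0 w0 : R)
    (t : x + w = 2) (d : x * w - y * z = 1) (t0 : x0 + w0 = 2) (d0 : x0 * w0 - y0 * z0 = 1)
    (p : x * x0 + y * z0 + (z * y0 + w * w0) = 2) :
    (x - 1) * (x0 - 1) + y * z0 = 0 ∧ (x - 1) * y0 + y * (w0 - 1) = 0 ∧
      z * (x0 - 1) + (w - 1) * z0 = 0 ∧ z * y0 + (w - 1) * (w0 - 1) = 0 := by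
  obtain rfl : w = 2 - x := by linear_combination t
  obtain rfl : w0 = 2 - x0 := by linear_combination t0
  have H1 : (x - 1) ^ 2 + y * z = 0 := by linear_combination -d
  have H2 : (x0 - 1) ^ 2 + y0 * z0 = 0 := by linear_combination -d0
  have H3 : 2 * (x - 1) * (x0 - 1) + y * z0 + z * y0 = 0 := by linear_combination p
  refine ⟨?_, ?_, ?_, ?_⟩
  · refine (pow_eq_zero_iff (two_ne_zero)).mp ?_
    linear_combination (y * z0) * H3 - (y0 * z0) * H1 + (x - 1) ^ 2 * H2
  · refine (pow_eq_zero_iff (two_ne_zero)).mp ?_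
    linear_combination y0 ^ 2 * H1 + y ^ 2 * H2 - (y * y0) * H3
  · refine (pow_eq_zero_iff (two_ne_zero)).mp ?_
    linear_combination z0 ^ 2 * H1 + z ^ 2 * H2 - (z * z0) * H3
  · refine (pow_eq_zero_iff (two_ne_zero)).mp ?_
    linear_combination (z * y0) * H3 - (y0 * z0) * H1 + (x - 1) ^ 2 * H2

/-- trace and determinant from `charpoly = (X - 1) ^ 2` for `2 × 2` matrices. -/
theorem mat_tr_det {R : Type*} [CommRing R] [Nontrivial R] (M : Matrix (Fin 2) (Fin 2) R)
    (h : M.charpoly = (X - 1) ^ 2) : M.trace = 2 ∧ M.det = 1 := by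
  rw [Matrix.charpoly_fin_two] at h
  have e : ((X : R[X]) - 1) ^ 2 = X ^ 2 - C 2 * X + C 1 := by
    simp only [map_ofNat, map_one]; ring
  rw [e] at h
  have h1 := congrArg (fun q : R[X] => q.coeff 1) h
  have h0 := congrArg (fun q : R[X] => q.coeff 0) h
  simp only [coeff_add, coeff_sub, coeff_X_pow, coeff_C_mul, coeff_X_one, coeff_X_zero,
    coeff_C_zero, coeff_C_succ, mul_one, mul_zero] at h1 h0
  norm_num at h1 h0
  exact ⟨h1, h0⟩

/-- **Kolchin, rank 2, matrices over a domain.** -/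
theorem mat_kolchin {R : Type*} [CommRing R] [IsDomain R]
    (G : Set (Matrix (Fin 2) (Fin 2) R))
    (hmul : ∀ A ∈ G, ∀ B ∈ G, A * B ∈ G)
    (htr : ∀ A ∈ G, A.trace = 2) (hdet : ∀ A ∈ G, A.det = 1) :
    ∃ v : Fin 2 → R, v ≠ 0 ∧ ∀ A ∈ G, A.mulVec v = v := by
  classical
  by_cases hall : ∀ A ∈ G, A = 1
  · refine ⟨fun _ => 1, ?_, ?_⟩
    · intro h
      have := congrFun h 0
      simp at this
    · intro A hA
      rw [hall A hA, Matrix.one_mulVec]
  · push Not at hall
    obtain ⟨A0, hA0, hne⟩ := hall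
    -- the key product relation
    have key : ∀ A ∈ G, (A - 1) * (A0 - 1) = 0 := by
      intro A hA
      have t := htr A hA
      have d := hdet A hA
      have t0 := htr A0 hA0
      have d0 := hdet A0 hA0
      have p := htr (A * A0) (hmul A hA A0 hA0)
      rw [Matrix.trace_fin_two] at t t0 p
      rw [Matrix.det_fin_two] at d d0
      simp only [Matrix.mul_apply, Fin.sum_univ_two] at p
      obtain ⟨e11, e12, e21, e22⟩ :=
        alg_key (A 0 0) (A 0 1) (A 1 0) (A 1 1) (A0 0 0) (A0 0 1) (A0 1 0) (A0 1 1) t d t0 d0 p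
      ext i j
      fin_cases i <;> fin_cases j <;>
        simp [Matrix.mul_apply, Fin.sum_univ_two, Matrix.sub_apply] <;>
        first
          | exact e11
          | exact e12
          | exact e21
          | exact e22
    -- a nonzero column of `A0 - 1`
    have hN0 : A0 - 1 ≠ 0 := sub_ne_zero.mpr hne
    obtain ⟨j, hj⟩ : ∃ j : Fin 2, (fun i => (A0 - 1) i j) ≠ 0 := by
      by_contra hcon
      push Not at hcon
      apply hN0
      ext i j
      exact congrFun (hcon j) i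
    refine ⟨fun i => (A0 - 1) i j, hj, ?_⟩
    intro A hA
    have hv : (fun i => (A0 - 1) i j) = (A0 - 1).mulVec (Pi.single j 1) := by
      ext i
      simp
    have hA' : A = (A - 1) + 1 := by abel
    rw [hv]
    conv_lhs => rw [hA']
    rw [Matrix.add_mulVec, Matrix.one_mulVec, Matrix.mulVec_mulVec, key A hA,
      Matrix.zero_mulVec, zero_add]

/-- **Kolchin, rank 2, endomorphisms of a free module over a domain.** -/
theorem end_kolchin {R : Type*} [CommRing R] [IsDomain R] {V : Type*} [AddCommGroup V]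
    [Module R V] [Module.Free R V] [Module.Finite R V] (h2 : Module.finrank R V = 2)
    (G : Set (Module.End R V)) (hmul : ∀ f ∈ G, ∀ g ∈ G, f * g ∈ G)
    (hG : ∀ f ∈ G, LinearMap.charpoly f = (X - 1) ^ 2) :
    ∃ v : V, v ≠ 0 ∧ ∀ f ∈ G, f v = v := by
  classical
  let b : Module.Basis (Fin 2) R V := Module.finBasisOfFinrankEq R V h2
  have hcp : ∀ f ∈ G, (LinearMap.toMatrix b b f).charpoly = (X - 1) ^ 2 := by
    intro f hf
    rw [LinearMap.charpoly_toMatrix]
    exact hG f hf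
  obtain ⟨w, hw0, hw⟩ := mat_kolchin (R := R)
    {M | ∃ f ∈ G, M = LinearMap.toMatrix b b f}
    (by
      rintro A ⟨f, hf, rfl⟩ B ⟨g, hg, rfl⟩
      exact ⟨f * g, hmul f hf g hg, (LinearMap.toMatrix_mul b f g).symm⟩)
    (by
      rintro A ⟨f, hf, rfl⟩
      exact (mat_tr_det _ (hcp f hf)).1)
    (by
      rintro A ⟨f, hf, rfl⟩
      exact (mat_tr_det _ (hcp f hf)).2)
  refine ⟨b.equivFun.symm w, ?_, ?_⟩
  · intro h
    exact hw0 ((LinearEquiv.map_eq_zero_iff b.equivFun.symm).mp h)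
  · intro f hf
    have h1 := hw _ ⟨f, hf, rfl⟩
    have h3 : b.repr (b.equivFun.symm w) = Finsupp.equivFunOnFinite.symm w := by
      apply Finsupp.ext
      intro i
      have := congrFun (b.equivFun.apply_symm_apply w) i
      simpa [Module.Basis.equivFun_apply] using this
    have h2' := LinearMap.toMatrix_mulVec_repr b b f (b.equivFun.symm w)
    have h4 : (⇑(b.repr (b.equivFun.symm w)) : Fin 2 → R) = w := by
      rw [h3]; rfl
    rw [h4, h1] at h2'
    apply b.repr.injective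
    apply Finsupp.ext
    intro i
    have := congrFun h2' i
    rw [h3]
    simpa using this.symm

/-- **Kolchin for a rank-2 Galois representation over a domain**: if every element of a
subgroup `H` of the Galois group acts with characteristic polynomial `(X - 1) ^ 2`, then
`H` fixes a nonzero vector. -/
theorem rep_kolchin {A : Type} [CommRing A] [IsLocalRing A] [IsDomain A]
    (ρ : GaloisRepAdic A) (H : Subgroup (AlgebraicClosure ℚ ≃ₐ[ℚ] AlgebraicClosure ℚ))
    (hH : ∀ σ ∈ H, LinearMap.charpoly (ρ.ρ σ) = (X - 1) ^ 2) :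
    ∃ v : ρ.V, v ≠ 0 ∧ ∀ σ ∈ H, ρ.ρ σ v = v := by
  obtain ⟨v, hv0, hv⟩ := end_kolchin (R := A) (V := ρ.V) ρ.finrank_eq
    {f | ∃ σ ∈ H, f = ρ.ρ σ}
    (by
      rintro f ⟨σ, hσ, rfl⟩ g ⟨τ, hτ, rfl⟩
      exact ⟨σ * τ, H.mul_mem hσ hτ, (map_mul ρ.ρ σ τ).symm⟩)
    (by
      rintro f ⟨σ, hσ, rfl⟩
      exact hH σ hσ)
  exact ⟨v, hv0, fun σ hσ => hv _ ⟨σ, hσ, rfl⟩⟩

/-- the inertia case. -/
theorem inertia_kolchin {A : Type} [CommRing A] [IsLocalRing A] [IsDomain A]
    (ρ : GaloisRepAdic A) (P : ValuationSubring (AlgebraicClosure ℚ))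
    (hP : ∀ σ ∈ P.inertiaSubgroupIn ℚ, LinearMap.charpoly (ρ.ρ σ) = (X - 1) ^ 2) :
    ∃ v : ρ.V, v ≠ 0 ∧ ∀ σ ∈ P.inertiaSubgroupIn ℚ, ρ.ρ σ v = v :=
  rep_kolchin ρ (P.inertiaSubgroupIn ℚ) hP

/-- from the prelude predicate. -/
theorem exists_fixed_of_isUnipotentOnInertiaAt {A : Type} [CommRing A] [IsLocalRing A]
    [IsDomain A] (ρ : GaloisRepAdic A) (q : ℕ) (hu : ρ.IsUnipotentOnInertiaAt q)
    (P : ValuationSubring (AlgebraicClosure ℚ)) (hP : P.LiesOverPrime q) :
    ∃ v : ρ.V, v ≠ 0 ∧ ∀ σ ∈ P.inertiaSubgroupIn ℚ, ρ.ρ σ v = v :=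
  inertia_kolchin ρ P (hu P hP)

end H18KO
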