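import Mathlib

/-!
# helper27 — S36 (Carayol), step 1: Kolchin in dimension 2 (Mathlib only)

`A` a reduced commutative ring, `V` free of rank 2, `ρ : Γ →* End_A V`, `I ≤ Γ` a subgroup all of
whose elements act with characteristic polynomial `(X - 1)²`.  Then `I` fixes a nonzero vector.

* `H27KO.mul_eq_zero_of_tr` : the `2 × 2` computation: if `N`, `H` have trace and determinant `0`
  and `tr (N H) = 0`, then `H N = 0` (reduced ring);
* `H27KO.kolchin_two` : the statement above;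
* `H27KO.kolchin_two_sub` : every `h ∈ I` satisfies `ρ h ∘ (ρ τ₀ - 1) = ρ τ₀ - 1`.
-/

set_option autoImplicit false

open Polynomial

noncomputable section

namespace H27KO

section comp

variable {A : Type*} [CommRing A] [IsReduced A]

theorem eq_zero_of_sq {e : A} (h : e ^ 2 = 0) : e = 0 :=
  IsReduced.eq_zero e ⟨2, h⟩

/-- the `2 × 2` computation, entrywise -/
theorem entries_eq_zero (n00 n01 n10 n11 h00 h01 h10 h11 : A)
    (T1 : n00 + n11 = 0) (T2 : h00 + h11 = 0)
    (D1 : n00 * n11 - n01 * n10 = 0) (D2 : h00 * h11 - h01 * h10 = 0)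
    (TR : n00 * h00 + n01 * h10 + n10 * h01 + n11 * h11 = 0) :
    h00 * n00 + h01 * n10 = 0 ∧ h00 * n01 + h01 * n11 = 0 ∧
      h10 * n00 + h11 * n10 = 0 ∧ h10 * n01 + h11 * n11 = 0 := by
  have hn : n11 = -n00 := by linear_combination T1
  have hh : h11 = -h00 := by linear_combination T2
  subst hn hh
  have R1 : n00 ^ 2 + n01 * n10 = 0 := by linear_combination -D1
  have R2 : h00 ^ 2 + h01 * h10 = 0 := by linear_combination -D2
  have R3 : 2 * n00 * h00 + n01 * h10 + n10 * h01 = 0 := by linear_combination TR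
  refine ⟨eq_zero_of_sq ?_, eq_zero_of_sq ?_, eq_zero_of_sq ?_, eq_zero_of_sq ?_⟩
  · linear_combination h01 * n10 * R3 + n00 ^ 2 * R2 - h01 * h10 * R1
  · linear_combination n01 ^ 2 * R2 - h01 * n01 * R3 + h01 ^ 2 * R1
  · linear_combination n10 ^ 2 * R2 - h10 * n10 * R3 + h10 ^ 2 * R1
  · linear_combination h10 * n01 * R3 + n00 ^ 2 * R2 - h01 * h10 * R1

/-- if `N`, `H` are `2 × 2` matrices with trace and determinant `0` and `tr (N H) = 0`, then
`H N = 0`. -/
theorem mul_eq_zero_of_tr (N H : Matrix (Fin 2) (Fin 2) A)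
    (hN : N.trace = 0) (hN' : N.det = 0) (hH : H.trace = 0) (hH' : H.det = 0)
    (hNH : (N * H).trace = 0) : H * N = 0 := by
  rw [Matrix.trace_fin_two] at hN hH hNH
  rw [Matrix.det_fin_two] at hN' hH'
  simp only [Matrix.mul_apply, Fin.sum_univ_two] at hNH
  obtain ⟨e00, e01, e10, e11⟩ := entries_eq_zero (N 0 0) (N 0 1) (N 1 0) (N 1 1)
    (H 0 0) (H 0 1) (H 1 0) (H 1 1) hN hH hN' hH' (by linear_combination hNH)
  ext i j
  fin_cases i <;> fin_cases j <;>
    simp only [Matrix.mul_apply, Fin.sum_univ_two, Matrix.zero_apply, Fin.zero_eta, Fin.mk_one]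
  · exact e00
  · exact e01
  · exact e10
  · exact e11

variable [Nontrivial A]

/-- a `2 × 2` matrix with characteristic polynomial `(X - 1)²` has trace `2` and determinant `1` -/
theorem trace_det_of_charpoly (M : Matrix (Fin 2) (Fin 2) A)
    (h : M.charpoly = (X - 1) ^ 2) : M.trace = 2 ∧ M.det = 1 := by
  rw [Matrix.charpoly_fin_two] at h
  have h1 := congrArg (fun p : A[X] => p.coeff 1) h
  have h0 := congrArg (fun p : A[X] => p.coeff 0) h
  have e : ((X : A[X]) - 1) ^ 2 = X ^ 2 - C 2 * X + C 1 := by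
    rw [map_ofNat, map_one]; ring
  rw [e] at h1 h0
  simp only [coeff_add, coeff_sub, coeff_X_pow, coeff_C_mul, coeff_X_one, coeff_X_zero,
    coeff_C_zero, mul_one, mul_zero] at h1 h0
  constructor
  · have : (coeff (C M.det) 1 : A) = 0 := by rw [coeff_C]; simp
    have h2 : (coeff (C (1 : A)) 1 : A) = 0 := by rw [coeff_C]; simp
    rw [this, h2] at h1
    simp at h1
    exact h1
  · simp at h0
    exact h0

/-- `M - 1` has trace `0` and determinant `0` -/
theorem sub_one_trace_det (M : Matrix (Fin 2) (Fin 2) A)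
    (h : M.charpoly = (X - 1) ^ 2) : (M - 1).trace = 0 ∧ (M - 1).det = 0 := by
  obtain ⟨ht, hd⟩ := trace_det_of_charpoly M h
  rw [Matrix.trace_fin_two] at ht
  rw [Matrix.det_fin_two] at hd
  constructor
  · rw [Matrix.trace_fin_two]
    simp only [Matrix.sub_apply, Matrix.one_apply_eq]
    linear_combination ht
  · rw [Matrix.det_fin_two]
    simp only [Matrix.sub_apply, Matrix.one_apply_eq, Matrix.one_apply_ne (by decide : (0 : Fin 2) ≠ 1),
      Matrix.one_apply_ne (by decide : (1 : Fin 2) ≠ 0)]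
    linear_combination hd - ht

end comp

section main

variable {A : Type*} [CommRing A] [IsReduced A] [Nontrivial A]
  {V : Type*} [AddCommGroup V] [Module A V] [Module.Free A V] [Module.Finite A V]
  {Γ : Type*} [Group Γ]

/-- **Kolchin, dimension 2 (operator form)**: if every element of the subgroup `I` acts with
characteristic polynomial `(X - 1)²`, then every `h ∈ I` fixes the image of `ρ τ₀ - 1`, `τ₀ ∈ I`. -/
theorem kolchin_two_sub (hV : Module.finrank A V = 2) (ρ : Γ →* Module.End A V) (I : Subgroup Γ)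
    (hI : ∀ σ ∈ I, LinearMap.charpoly (ρ σ) = (X - 1) ^ 2)
    {τ₀ h : Γ} (hτ₀ : τ₀ ∈ I) (hh : h ∈ I) :
    ρ h * (ρ τ₀ - 1) = ρ τ₀ - 1 := by
  classical
  let b : Module.Basis (Fin 2) A V := Module.finBasisOfFinrankEq A V hV
  let Φ := LinearMap.toMatrixAlgEquiv b
  have hch : ∀ σ ∈ I, (Φ (ρ σ)).charpoly = (X - 1) ^ 2 := by
    intro σ hσ
    rw [← hI σ hσ]
    exact LinearMap.charpoly_toMatrix (ρ σ) b
  obtain ⟨hN, hN'⟩ := sub_one_trace_det _ (hch τ₀ hτ₀)
  obtain ⟨hH, hH'⟩ := sub_one_trace_det _ (hch h hh)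
  obtain ⟨hP, -⟩ := trace_det_of_charpoly _ (hch (τ₀ * h) (I.mul_mem hτ₀ hh))
  obtain ⟨hT1, -⟩ := trace_det_of_charpoly _ (hch τ₀ hτ₀)
  obtain ⟨hT2, -⟩ := trace_det_of_charpoly _ (hch h hh)
  have hNH : ((Φ (ρ τ₀) - 1) * (Φ (ρ h) - 1)).trace = 0 := by
    have e : (Φ (ρ τ₀) - 1) * (Φ (ρ h) - 1) =
        Φ (ρ (τ₀ * h)) - Φ (ρ τ₀) - Φ (ρ h) + 1 := by
      rw [map_mul ρ, map_mul Φ]
      noncomm_ring
    rw [e, Matrix.trace_add, Matrix.trace_sub, Matrix.trace_sub, hP, hT1, hT2, Matrix.trace_one,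
      Fintype.card_fin]
    norm_num
  have hz := mul_eq_zero_of_tr _ _ hN hN' hH hH' hNH
  have hz' : Φ ((ρ h - 1) * (ρ τ₀ - 1)) = 0 := by
    rw [map_mul, map_sub, map_sub, map_one]
    exact hz
  have hz'' : (ρ h - 1) * (ρ τ₀ - 1) = 0 := by
    have := Φ.injective (hz'.trans (map_zero Φ).symm)
    exact this
  have : ρ h * (ρ τ₀ - 1) = (ρ h - 1) * (ρ τ₀ - 1) + (ρ τ₀ - 1) := by noncomm_ring
  rw [this, hz'', zero_add]

/-- **Kolchin, dimension 2**: a subgroup all of whose elements act with characteristic polynomial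
`(X - 1)²` on a free module of rank 2 over a reduced ring fixes a nonzero vector. -/
theorem kolchin_two (hV : Module.finrank A V = 2) (ρ : Γ →* Module.End A V) (I : Subgroup Γ)
    (hI : ∀ σ ∈ I, LinearMap.charpoly (ρ σ) = (X - 1) ^ 2) :
    ∃ v : V, v ≠ 0 ∧ ∀ σ ∈ I, ρ σ v = v := by
  classical
  by_cases htriv : ∀ σ ∈ I, ρ σ = 1
  · let b : Module.Basis (Fin 2) A V := Module.finBasisOfFinrankEq A V hV
    refine ⟨b 0, b.ne_zero 0, fun σ hσ => ?_⟩
    rw [htriv σ hσ]
    rfl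
  · push_neg at htriv
    obtain ⟨τ₀, hτ₀, hne⟩ := htriv
    have hN0 : ρ τ₀ - 1 ≠ 0 := sub_ne_zero.mpr hne
    obtain ⟨w, hw⟩ : ∃ w : V, (ρ τ₀ - 1) w ≠ 0 := by
      by_contra hcon
      push_neg at hcon
      exact hN0 (LinearMap.ext hcon)
    refine ⟨(ρ τ₀ - 1) w, hw, fun σ hσ => ?_⟩
    have := kolchin_two_sub hV ρ I hI hτ₀ hσ
    have h2 := congrArg (fun f : Module.End A V => f w) this
    exact h2

end main

end H27KO

end
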