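import Mathlib
import Fermat.Agent.S36.InjUAsm_helper4
import Fermat.Agent.S36.Gen3Loc_helper10

/-!
# Item 86 (S36, Carayol), architect file (helper4): the concrete leaf from its three parts

`H4S36.PartsAt M q A n L` : at the field `L` (`R = A ∩ L`, `ϖ = q`) there are
`V₁ V₂ V₃ V₁' V₂' b₃` with
* (T)  `H4S36.Triple` (TRIPLE-ASM, helper11),
* (BR) `H10G3.BRAt` at every closed point of both charts (helper9),
* (G3) `H10G3.Gen3At` at every closed point of both charts, for every `v` as in `MLocLeaf`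
  (LOC-ASM helper19/helper2 + HalfAt helper17 + DICH3 helper18).

`H4S36.tripleLeafAt_of_parts : PartsAt M q A n L → TripleLeafAt M q A n L`
(`H10G3.mlocLeaf_of_gen3_loc` + `H9C6e.fieldBasics` + `H4DVR.dvrStatement`).
-/

set_option autoImplicit false
set_option linter.style.haveILetI false
set_option linter.style.longLine false
set_option synthInstance.maxHeartbeats 400000
set_option maxHeartbeats 4000000

noncomputable section

open Polynomial IntermediateField AlgebraicCurve ModularCurve H7S18 H4S34 H1FW H1G3 H17T3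

namespace H4S36

local notation "Qb" => AlgebraicClosure ℚ

/-- the three parts of the concrete leaf at one field `L`. -/
def PartsAt (M q : ℕ) [NeZero M] [NeZero q] [NeZero (M * q)] [NeZero (M * q * q)]
    (A : ValuationSubring Qb) (n : ℕ) (L : IntermediateField ℚ Qb) : Prop :=
  ∀ [Algebra ↥(descVal A L) (FK L (M * q * q))]
    [IsScalarTower ↥(descVal A L) L (FK L (M * q * q))]
    [Algebra ↥(descVal A L) (FK L (M * q))]
    [IsScalarTower ↥(descVal A L) L (FK L (M * q))]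
    (t₀ : LaurentSeries ℚ) (_ : IsBase (baseKind q) t₀)
    (t : FK L (M * q * q)) (_ : (t : LaurentSeries L) = coeffEmb L t₀),
    ∃ (V₁ V₂ V₃ : ValuationSubring (FK L (M * q * q)))
      (V₁' V₂' : ValuationSubring (FK L (M * q))) (b₃ : FK L (M * q * q)),
      Triple ↥(descVal A L) L (FK L (M * q * q)) (FK L (M * q))
        ((q : ℕ) : ↥(descVal A L)) t q n
        (heckeAlphaBar L (M * q) q).toRingHom (heckeBetaBar L (M * q) q).toRingHom
        (normAKH L M q) (normBKH L M q) V₁ V₂ V₃ V₁' V₂' b₃ ∧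
      (∀ 𝔫 : Ideal (Chart ↥(descVal A L) t),
        IsClosedPt ↥(descVal A L) ((q : ℕ) : ↥(descVal A L)) t 𝔫 →
        H10G3.BRAt ↥(descVal A L) t 𝔫 V₁ V₂ V₃ n) ∧
      (∀ 𝔫 : Ideal (Chart ↥(descVal A L) t⁻¹),
        IsClosedPt ↥(descVal A L) ((q : ℕ) : ↥(descVal A L)) t⁻¹ 𝔫 →
        H10G3.BRAt ↥(descVal A L) t⁻¹ 𝔫 V₁ V₂ V₃ n) ∧
      (∀ v : FK L (M * q * q), v ≠ 0 → One3 V₁ V₂ V₃ v →
        (∀ V : Place L (FK L (M * q * q)), (n : ℤ) ∣ V.ord v) →
        ∀ rα rβ : ↥(descVal A L),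
          (∃ G : FK L (M * q), G ≠ 0 ∧ normAKH L M q v =
            algebraMap ↥(descVal A L) (FK L (M * q))
              (1 + ((q : ℕ) : ↥(descVal A L)) * rα) * G ^ n) →
          (∃ G : FK L (M * q), G ≠ 0 ∧ normBKH L M q v =
            algebraMap ↥(descVal A L) (FK L (M * q))
              (1 + ((q : ℕ) : ↥(descVal A L)) * rβ) * G ^ n) →
          (∀ 𝔫 : Ideal (Chart ↥(descVal A L) t),
            IsClosedPt ↥(descVal A L) ((q : ℕ) : ↥(descVal A L)) t 𝔫 →
            H10G3.Gen3At ↥(descVal A L) t 𝔫 V₁ V₂ V₃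
              (heckeAlphaBar L (M * q) q).toRingHom (heckeBetaBar L (M * q) q).toRingHom
              (normAKH L M q) (normBKH L M q) V₁' V₂' n v
              (algebraMap ↥(descVal A L) (FK L (M * q))
                (1 + ((q : ℕ) : ↥(descVal A L)) * rα))
              (algebraMap ↥(descVal A L) (FK L (M * q))
                (1 + ((q : ℕ) : ↥(descVal A L)) * rβ))) ∧
          (∀ 𝔫 : Ideal (Chart ↥(descVal A L) t⁻¹),
            IsClosedPt ↥(descVal A L) ((q : ℕ) : ↥(descVal A L)) t⁻¹ 𝔫 →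
            H10G3.Gen3At ↥(descVal A L) t⁻¹ 𝔫 V₁ V₂ V₃
              (heckeAlphaBar L (M * q) q).toRingHom (heckeBetaBar L (M * q) q).toRingHom
              (normAKH L M q) (normBKH L M q) V₁' V₂' n v
              (algebraMap ↥(descVal A L) (FK L (M * q))
                (1 + ((q : ℕ) : ↥(descVal A L)) * rα))
              (algebraMap ↥(descVal A L) (FK L (M * q))
                (1 + ((q : ℕ) : ↥(descVal A L)) * rβ))))

/-- **the concrete leaf from its three parts** -/
theorem tripleLeafAt_of_parts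
    (M : ℕ) [NeZero M] (q : ℕ) [NeZero q] [NeZero (M * q)] [NeZero (M * q * q)]
    (hq : q.Prime) (hT : TameLevel q M)
    (A : ValuationSubring Qb) (hA : A.LiesOverPrime q) (n : ℕ) (hn : 0 < n) (hqn : ¬ q ∣ n)
    (L : IntermediateField ℚ Qb) (hLfin : FiniteDimensional ℚ L)
    (hirr : Irreducible ((q : ℕ) : ↥(descVal A L))) (hζ : ∃ ζ : L, IsPrimitiveRoot ζ n)
    (h : PartsAt M q A n L) : TripleLeafAt M q A n L := by
  classical
  haveI : Fact q.Prime := ⟨hq⟩
  intro algRF towRF algRF' towRF' t₀ ht₀ t htcoe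
  -- the base function
  have hdvd : M ∣ M * q * q := by rw [mul_assoc]; exact dvd_mul_right _ _
  have hi : baseKind q = 1 ∨ (baseKind q = 2 ∧ 2 ∣ M * q * q) ∨
      (baseKind q = 3 ∧ 3 ∣ M * q * q) := by
    rcases h7_baseKind_ok hT with h | h | h
    · exact Or.inl h
    · exact Or.inr (Or.inl ⟨h.1, h.2.trans hdvd⟩)
    · exact Or.inr (Or.inr ⟨h.1, h.2.trans hdvd⟩)
  -- the DVR
  obtain ⟨hdvr, -, hunit⟩ := H4DVR.dvrStatement q A hA L hLfin
  haveI := hdvr
  -- field basics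
  obtain ⟨t', ht'coe, httr, htfin, -⟩ :=
    H9C6e.fieldBasics (M * q * q) (baseKind q) hi t₀ ht₀ L
  have htt : t' = t := Subtype.ext (by rw [ht'coe, htcoe])
  subst htt
  have hnu : IsUnit ((n : ℕ) : ↥(descVal A L)) := hunit n hqn hn
  have hζR : ∃ ζ' : ↥(descVal A L), IsPrimitiveRoot ζ' n := by
    obtain ⟨ζ, hζ⟩ := hζ
    have hmem : ζ ∈ descVal A L := h7_mem_of_pow_eq_one _ _ _ hn hζ.pow_eq_one
    refine ⟨⟨ζ, hmem⟩, ?_⟩
    exact IsPrimitiveRoot.of_map_of_injective (f := (descVal A L).subtype)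
      (by exact hζ) Subtype.val_injective
  obtain ⟨V₁, V₂, V₃, V₁', V₂', b₃, hTri, hBRz, hBRi, hloc⟩ := h t₀ ht₀ t' ht'coe
  refine ⟨V₁, V₂, V₃, V₁', V₂', b₃, hTri, ?_⟩
  exact H10G3.mlocLeaf_of_gen3_loc ↥(descVal A L) L (FK L (M * q * q)) (FK L (M * q))
    ((q : ℕ) : ↥(descVal A L)) hirr t' httr htfin q n hq.two_le hnu hζR
    (heckeAlphaBar L (M * q) q).toRingHom (heckeBetaBar L (M * q) q).toRingHom
    (normAKH L M q) (normBKH L M q) V₁ V₂ V₃ V₁' V₂' b₃ hTri hBRz hBRi hloc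

end H4S36

end
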