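/-
helper2: item 86 (S36), (LOC-ASM): `H2CC.mlocLeaf_of_pointLeaves_inf` in the language of the
dich points `H26DI.IsDichPt t c 𝔫` (all closed points of the chart `t`, and the closed points of
the chart `t⁻¹` over `t = ∞`) used by the concrete leaves.

* `H2CC.mlocLeaf_of_pointLeaves_dich` : `Triple` + `PointLeaves` at every closed DICH point
  (of any chart `c`) ⟹ `MLocLeaf`.
-/
import Mathlib
import Fermat.Agent.S36.LocAsm3_helper2
import Fermat.Agent.S34.DichDefs_helper26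

set_option autoImplicit false
set_option linter.unusedSectionVars false
set_option linter.unusedVariables false
set_option linter.style.haveILetI false
set_option synthInstance.maxHeartbeats 400000
set_option maxHeartbeats 1000000

noncomputable section

namespace H2CC

open Polynomial IntermediateField H7S18 H4S34 AlgebraicCurve

section AsmDich

variable (R : Type) [CommRing R] [IsDomain R] [IsDiscreteValuationRing R]
  (K : Type) [Field K] [CharZero K] [Algebra R K] [IsFractionRing R K]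
  (F : Type) [Field F] [Algebra K F] [Algebra R F] [IsScalarTower R K F]
  (F' : Type) [Field F'] [Algebra K F'] [Algebra R F'] [IsScalarTower R K F']

/-- **(LOC-ASM), generic, dich-point form**: `Triple` + the leaves at every closed DICH point
⟹ `MLocLeaf`. -/
theorem mlocLeaf_of_pointLeaves_dich (ϖ : R) (hϖ : Irreducible ϖ) (t : F)
    (ht : Transcendental K t) (hfin : FiniteDimensional K⟮t⟯ F)
    (q n : ℕ) (hq : 2 ≤ q) (hn : IsUnit (n : R)) (hζ : ∃ ζ : R, IsPrimitiveRoot ζ n)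
    (φα φβ : F' →+* F) (Nα Nβ : F →* F')
    (V₁ V₂ V₃ : ValuationSubring F) (V₁' V₂' : ValuationSubring F') (b₃ : F)
    (hT : H4S36.Triple R K F F' ϖ t q n φα φβ Nα Nβ V₁ V₂ V₃ V₁' V₂' b₃)
    (j : F)
    (hL : ∀ (c : F) (𝔫 : Ideal (Chart R c)), IsClosedPt R ϖ c 𝔫 → H26DI.IsDichPt t c 𝔫 →
      H19LA.PointLeaves R ϖ c 𝔫 n j V₁ V₂ V₃ φα φβ Nα Nβ V₁' V₂') :
    H4S36.MLocLeaf R K F F' ϖ t q n Nα Nβ V₁ V₂ V₃ :=
  mlocLeaf_of_pointLeaves_inf R K F F' ϖ hϖ t ht hfin q n hq hn hζ φα φβ Nα Nβ V₁ V₂ V₃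
    V₁' V₂' b₃ hT j (fun 𝔫 h𝔫 => hL t 𝔫 h𝔫 (Or.inl rfl))
    (fun 𝔫 h𝔫 hS => hL t⁻¹ 𝔫 h𝔫 (Or.inr ⟨rfl, hS⟩))

end AsmDich

end H2CC
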