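import Mathlib
import Fermat.Agent.S36.Gen3Leaf_helper10
import Fermat.Agent.S36.L1UAll_helper2

/-!
# helper19 — S36 (Carayol), item 86: (LOC-ASM), generic top assembly of the local side

Generic setting of `H10G3.mlocLeaf_of_gen3` (`R` a DVR, `K`, `F ⊇ F'`, `Triple`).

* `H19LA.ChartLeaves R K ϖ c n j …` : ALL the local leaves at the closed points of ONE chart `c`
  (`c = t` or `c = t⁻¹`), in the shapes delivered by their owners:
  - `hR2`, `hR3`, `hC3` : two generators (`H2L1.TwoGenAt`) at the closed points on `V₁ ∪ V₂`, at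
    the non-cuspidal (`j ∈ B_𝔫`) points on `V₃` only, at the cuspidal points on `V₃` only
    (helper26 (R2), helper20 (R3), helper7 (CUSP3));
  - `hD`  : (DICH3) at every closed point all three components pass or at most one (helper18);
  - `hHα`, `hHβ` : `H10G3.HalfAt` at the triple points, for EVERY unit `ε` of `B_𝔫` and every
    constant `1 + ϖ r` (helper17).
* `H19LA.gen3At_of_chartLeaves` : `ChartLeaves` ⟹ `H10G3.Gen3At` at every closed point of `c`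
  (first half by helper2's `H2L1.l1uAll`).
* `H19LA.mlocLeaf_of_chartLeaves` : `Triple` + (hBR) + `ChartLeaves` for `t` and `t⁻¹`
  ⟹ `H4S36.MLocLeaf`.
-/

set_option autoImplicit false
set_option synthInstance.maxHeartbeats 400000
set_option linter.unusedSectionVars false
set_option linter.unusedVariables false
set_option linter.style.haveILetI false

noncomputable section

open Polynomial IntermediateField AlgebraicCurve H4S34 H7S18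

namespace H19LA

/-- all the local leaves at the closed points of one chart `c` -/
structure ChartLeaves (R : Type) [CommRing R] {F : Type} [Field F] [Algebra R F]
    {F' : Type} [Field F'] [Algebra R F'] (ϖ : R) (c : F) (n : ℕ) (j : F)
    (V₁ V₂ V₃ : ValuationSubring F) (φα φβ : F' →+* F) (Nα Nβ : F →* F')
    (V₁' V₂' : ValuationSubring F') : Prop where
  /-- (R2): two generators at the closed points on `V₁ ∪ V₂` -/
  hR2 : ∀ 𝔫 : Ideal (Chart R c), IsClosedPt R ϖ c 𝔫 →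
    (H10G3.Through R c 𝔫 V₁ ∨ H10G3.Through R c 𝔫 V₂) → H2L1.TwoGenAt R c 𝔫
  /-- (R3): two generators at the non-cuspidal closed points on `V₃` only -/
  hR3 : ∀ 𝔫 : Ideal (Chart R c), IsClosedPt R ϖ c 𝔫 →
    ¬ H10G3.Through R c 𝔫 V₁ → ¬ H10G3.Through R c 𝔫 V₂ → H10G3.Through R c 𝔫 V₃ →
    InLoc R c 𝔫 j → H2L1.TwoGenAt R c 𝔫
  /-- (CUSP3): two generators at the cuspidal closed points on `V₃` only -/
  hC3 : ∀ 𝔫 : Ideal (Chart R c), IsClosedPt R ϖ c 𝔫 →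
    ¬ H10G3.Through R c 𝔫 V₁ → ¬ H10G3.Through R c 𝔫 V₂ → H10G3.Through R c 𝔫 V₃ →
    ¬ InLoc R c 𝔫 j → H2L1.TwoGenAt R c 𝔫
  /-- (DICH3): all three components pass through `𝔫`, or at most one -/
  hD : ∀ 𝔫 : Ideal (Chart R c), IsClosedPt R ϖ c 𝔫 →
    (H10G3.Through R c 𝔫 V₁ ∧ H10G3.Through R c 𝔫 V₂ ∧ H10G3.Through R c 𝔫 V₃) ∨
    ∀ V : ValuationSubring F, V = V₁ ∨ V = V₂ ∨ V = V₃ →
      ∀ W : ValuationSubring F, W = V₁ ∨ W = V₂ ∨ W = V₃ →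
        H10G3.Through R c 𝔫 V → H10G3.Through R c 𝔫 W → V = W
  /-- (HALF-α) at the triple points -/
  hHα : ∀ 𝔫 : Ideal (Chart R c), IsClosedPt R ϖ c 𝔫 →
    H10G3.Through R c 𝔫 V₁ → H10G3.Through R c 𝔫 V₂ → H10G3.Through R c 𝔫 V₃ →
    ∀ (ε : F) (r : R), ε ≠ 0 → InLoc R c 𝔫 ε → InLoc R c 𝔫 ε⁻¹ →
      H10G3.HalfAt R c 𝔫 φα Nα V₃ V₁' V₂' n ε (algebraMap R F' (1 + ϖ * r))
  /-- (HALF-β) at the triple points -/
  hHβ : ∀ 𝔫 : Ideal (Chart R c), IsClosedPt R ϖ c 𝔫 →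
    H10G3.Through R c 𝔫 V₁ → H10G3.Through R c 𝔫 V₂ → H10G3.Through R c 𝔫 V₃ →
    ∀ (ε : F) (r : R), ε ≠ 0 → InLoc R c 𝔫 ε → InLoc R c 𝔫 ε⁻¹ →
      H10G3.HalfAt R c 𝔫 φβ Nβ V₃ V₂' V₁' n ε (algebraMap R F' (1 + ϖ * r))

section Gen

variable (R : Type) [CommRing R] [IsDomain R] [IsDiscreteValuationRing R]
  (K : Type) [Field K] [CharZero K] [Algebra R K] [IsFractionRing R K]
  {F : Type} [Field F] [Algebra K F] [Algebra R F] [IsScalarTower R K F]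
  {F' : Type} [Field F'] [Algebra R F']

/-- **`Gen3At` at every closed point of the chart `c`** from the leaves. -/
theorem gen3At_of_chartLeaves (ϖ : R) (hϖ : Irreducible ϖ) {c : F} (hc : Transcendental K c)
    (hfin : FiniteDimensional K⟮c⟯ F) (n : ℕ) (hn : 0 < n) (j : F)
    (V₁ V₂ V₃ : ValuationSubring F) (φα φβ : F' →+* F) (Nα Nβ : F →* F')
    (V₁' V₂' : ValuationSubring F')
    (hO : ∀ x : F, GInt R ϖ c x ↔ x ∈ V₁ ∧ x ∈ V₂ ∧ x ∈ V₃)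
    (hL : ChartLeaves R ϖ c n j V₁ V₂ V₃ φα φβ Nα Nβ V₁' V₂')
    (v : F) (hv : v ≠ 0) (hv1 : H4S36.One3 V₁ V₂ V₃ v)
    (hdiv : ∀ V : Place K F, (n : ℤ) ∣ V.ord v) (rα rβ : R)
    (𝔫 : Ideal (Chart R c)) (h𝔫 : IsClosedPt R ϖ c 𝔫) :
    H10G3.Gen3At R c 𝔫 V₁ V₂ V₃ φα φβ Nα Nβ V₁' V₂' n v
      (algebraMap R F' (1 + ϖ * rα)) (algebraMap R F' (1 + ϖ * rβ)) := by
  classical
  haveI := hfin
  have h𝒱 : ∀ V, V ∈ ({V₁, V₂, V₃} : Finset (ValuationSubring F)) ↔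
      V = V₁ ∨ V = V₂ ∨ V = V₃ := by
    intro V
    rw [Finset.mem_insert, Finset.mem_insert, Finset.mem_singleton]
  have hO' : ∀ x : F, GInt R ϖ c x ↔
      ∀ V ∈ ({V₁, V₂, V₃} : Finset (ValuationSubring F)), x ∈ V := by
    intro x
    rw [hO x]
    constructor
    · rintro ⟨h1, h2, h3⟩ V hV
      rcases (h𝒱 V).1 hV with rfl | rfl | rfl
      · exact h1
      · exact h2
      · exact h3
    · intro h
      exact ⟨h V₁ ((h𝒱 V₁).2 (Or.inl rfl)), h V₂ ((h𝒱 V₂).2 (Or.inr (Or.inl rfl))),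
        h V₃ ((h𝒱 V₃).2 (Or.inr (Or.inr rfl)))⟩
  have hval : ∀ V ∈ ({V₁, V₂, V₃} : Finset (ValuationSubring F)), V.valuation v = 1 := by
    intro V hV
    rcases (h𝒱 V).1 hV with rfl | rfl | rfl
    · exact H10G3.val_one_of_lt _ hv1.1
    · exact H10G3.val_one_of_lt _ hv1.2.1
    · exact H10G3.val_one_of_lt _ hv1.2.2
  obtain ⟨ε, y, hy0, hε, hε', hε0, hveq⟩ :=
    H2L1.l1uAll R K ϖ hϖ hc n hn v hv hdiv V₁ V₂ V₃ _ h𝒱 hO' hval j hL.hR2 hL.hR3 hL.hC3 𝔫 h𝔫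
  refine ⟨⟨ε, y, hy0, hε0, hε, hε', hveq, fun ⟨h1, h2, h3⟩ => ?_⟩, hL.hD 𝔫 h𝔫⟩
  exact ⟨hL.hHα 𝔫 h𝔫 h1 h2 h3 ε rα hε0 hε hε', hL.hHβ 𝔫 h𝔫 h1 h2 h3 ε rβ hε0 hε hε'⟩

end Gen

section Leaf

variable (R : Type) [CommRing R] [IsDomain R] [IsDiscreteValuationRing R]
  (K : Type) [Field K] [CharZero K] [Algebra R K] [IsFractionRing R K]
  (F : Type) [Field F] [Algebra K F] [Algebra R F] [IsScalarTower R K F]
  (F' : Type) [Field F'] [Algebra K F'] [Algebra R F'] [IsScalarTower R K F']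

/-- **(LOC-ASM), generic**: `Triple` + (hBR) + the leaves of both charts ⟹ `MLocLeaf`. -/
theorem mlocLeaf_of_chartLeaves (ϖ : R) (hϖ : Irreducible ϖ) (t : F) (ht : Transcendental K t)
    (hfin : FiniteDimensional K⟮t⟯ F)
    (q n : ℕ) (hq : 2 ≤ q) (hn : IsUnit (n : R)) (hζ : ∃ ζ : R, IsPrimitiveRoot ζ n)
    (φα φβ : F' →+* F) (Nα Nβ : F →* F')
    (V₁ V₂ V₃ : ValuationSubring F) (V₁' V₂' : ValuationSubring F') (b₃ : F)
    (hT : H4S36.Triple R K F F' ϖ t q n φα φβ Nα Nβ V₁ V₂ V₃ V₁' V₂' b₃)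
    (hBRz : ∀ V : ValuationSubring F, V = V₁ ∨ V = V₂ ∨ V = V₃ → ∀ z : F, ∀ a : Chart R t,
      V.valuation (z ^ n - (a : F)) < 1 → ∃ d : Chart R t, V.valuation (z - (d : F)) < 1)
    (hBRi : ∀ V : ValuationSubring F, V = V₁ ∨ V = V₂ ∨ V = V₃ → ∀ z : F, ∀ a : Chart R t⁻¹,
      V.valuation (z ^ n - (a : F)) < 1 → ∃ d : Chart R t⁻¹, V.valuation (z - (d : F)) < 1)
    (j : F)
    (hLz : ChartLeaves R ϖ t n j V₁ V₂ V₃ φα φβ Nα Nβ V₁' V₂')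
    (hLi : ChartLeaves R ϖ t⁻¹ n j V₁ V₂ V₃ φα φβ Nα Nβ V₁' V₂') :
    H4S36.MLocLeaf R K F F' ϖ t q n Nα Nβ V₁ V₂ V₃ := by
  have hn0 : 0 < n := by
    rcases Nat.eq_zero_or_pos n with h | h
    · exfalso
      rw [h, Nat.cast_zero] at hn
      exact not_isUnit_zero hn
    · exact h
  have ht' : Transcendental K t⁻¹ := H19S18.h19_transc_inv K ht
  have htR : Transcendental R t := H19S18.h19_transc R K ht
  have htR' : Transcendental R t⁻¹ := H19S18.h19_transc R K ht'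
  haveI := hfin
  have hfin' : FiniteDimensional K⟮t⁻¹⟯ F :=
    H21S18.finiteDimensional_transport (H21S18.adjoin_inv_eq (K := K) t).symm hfin
  have hOi : ∀ x : F, GInt R ϖ t⁻¹ x ↔ x ∈ V₁ ∧ x ∈ V₂ ∧ x ∈ V₃ := fun x =>
    (H19S18.h19_gint_inv_iff R htR htR' hϖ x).trans (hT.hO x)
  refine H10G3.mlocLeaf_of_gen3 R K F F' ϖ hϖ t ht hfin q n hq hn hζ φα φβ Nα Nβ V₁ V₂ V₃ V₁' V₂'
    b₃ hT hBRz hBRi ?_
  intro v hv0 hv1 hdiv rα rβ _ _
  exact ⟨fun 𝔫 h𝔫 => gen3At_of_chartLeaves R K ϖ hϖ ht hfin n hn0 j V₁ V₂ V₃ φα φβ Nα Nβ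
      V₁' V₂' hT.hO hLz v hv0 hv1 hdiv rα rβ 𝔫 h𝔫,
    fun 𝔫 h𝔫 => gen3At_of_chartLeaves R K ϖ hϖ ht' hfin' n hn0 j V₁ V₂ V₃ φα φβ Nα Nβ
      V₁' V₂' hOi hLi v hv0 hv1 hdiv rα rβ 𝔫 h𝔫⟩

end Leaf

end H19LA
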