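/-
helper5, item 86 (S36), slice LOC-C (generic commutative algebra; Mathlib + H27KR Krull).

Setting: `A₀` a noetherian integrally closed (local) domain, `a : A₀` with `(a)` a nonzero prime,
`A` a noetherian integrally closed domain, finite over `A₀` (injective structure map).

* `H5LC.not_both_mem`   (L1) a height-one prime of `A` does not contain both `a` and `b ∉ (a)`
                         (going-down);
* `H5LC.reg_seq`        (L2) `b u = a v` in `A`, `b ∉ (a)`  ⟹  `a ∣ u` (Krull: `A = ⋂ A_𝔭`);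
* `H5LC.eq_unit_mul_pow`(L6) `d ≠ 0` in no height-one prime `𝔭 ∌ ϖ`  ⟹  `d = unit · ϖ ^ m`.
-/
import Mathlib
import Fermat.Agent.S34.Krull_helper27
import Fermat.Agent.S34.Reg_helper5

set_option linter.style.haveILetI false
set_option linter.unusedSectionVars false

namespace H5LC

open Ideal

section goingdown

variable {A₀ : Type*} [CommRing A₀] [IsDomain A₀] [IsIntegrallyClosed A₀]
variable {A : Type*} [CommRing A] [IsDomain A] [Algebra A₀ A] [FaithfulSMul A₀ A]
  [Algebra.IsIntegral A₀ A]

omit [IsDomain A₀] in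
/-- **(L1)** going-down: if `(a)` is a nonzero prime of the integrally closed domain `A₀` and
`b ∉ (a)`, a height-one prime of the integral extension `A` cannot contain both `a` and `b`. -/
theorem not_both_mem (a b : A₀) (ha0 : a ≠ 0) (hap : (Ideal.span {a}).IsPrime)
    (hb : b ∉ Ideal.span {a}) (𝔭 : Ideal A) [h𝔭 : 𝔭.IsPrime] (hh : 𝔭.height = 1) :
    ¬ (algebraMap A₀ A a ∈ 𝔭 ∧ algebraMap A₀ A b ∈ 𝔭) := by
  rintro ⟨h1, h2⟩
  have := hap
  have hinj : Function.Injective (algebraMap A₀ A) := FaithfulSMul.algebraMap_injective A₀ A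
  have hlt : Ideal.span {a} < 𝔭.under A₀ := by
    refine lt_of_le_of_ne ?_ ?_
    · rw [Ideal.span_singleton_le_iff_mem]
      exact h1
    · intro h
      apply hb
      rw [h]
      exact h2
  obtain ⟨Q, hQlt, hQ, hQo⟩ := Ideal.exists_ideal_lt_liesOver_of_lt (p := Ideal.span {a}) 𝔭 hlt
  have hfin : 𝔭.FiniteHeight := by
    rw [Ideal.finiteHeight_iff]
    right
    rw [hh]
    exact ENat.one_ne_top
  have hQh := Ideal.height_strict_mono_of_isPrime_of_isPrime hQlt
  rw [hh] at hQh
  have hQ0 : Q.height = 0 := Order.lt_one_iff.1 hQh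
  have hQbot : Q = ⊥ := Ideal.height_eq_zero_iff_eq_bot.1 hQ0
  have haQ : algebraMap A₀ A a ∈ Q := by
    have : a ∈ Q.under A₀ := by
      rw [← hQo.over]
      exact Ideal.mem_span_singleton_self a
    exact this
  rw [hQbot, Ideal.mem_bot] at haQ
  exact ha0 (hinj (by rw [haQ, map_zero]))

variable [IsNoetherianRing A] [IsIntegrallyClosed A]

/-- **(L2)** `(a, b)` is a regular sequence on `A`: `b u = a v` implies `a ∣ u`. -/
theorem reg_seq (a b : A₀) (ha0 : a ≠ 0) (hap : (Ideal.span {a}).IsPrime)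
    (hb : b ∉ Ideal.span {a}) (u v : A)
    (h : algebraMap A₀ A b * u = algebraMap A₀ A a * v) :
    ∃ w : A, u = algebraMap A₀ A a * w := by
  have hinj : Function.Injective (algebraMap A₀ A) := FaithfulSMul.algebraMap_injective A₀ A
  have hb0 : b ≠ 0 := by
    rintro rfl
    exact hb (Ideal.zero_mem _)
  have ha' : algebraMap A₀ A a ≠ 0 := fun h0 => ha0 (hinj (by rw [h0, map_zero]))
  have hb' : algebraMap A₀ A b ≠ 0 := fun h0 => hb0 (hinj (by rw [h0, map_zero]))
  let K := FractionRing A
  have hK : Function.Injective (algebraMap A K) := IsFractionRing.injective A K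
  have haK : algebraMap A K (algebraMap A₀ A a) ≠ 0 := fun h0 => ha' (hK (by rw [h0, map_zero]))
  have hbK : algebraMap A K (algebraMap A₀ A b) ≠ 0 := fun h0 => hb' (hK (by rw [h0, map_zero]))
  have hz : ∀ p : Ideal A, p.IsPrime → p.height = 1 →
      H27KR.InLoc p (algebraMap A K u / algebraMap A K (algebraMap A₀ A a)) := by
    intro p hp hh
    have := hp
    by_cases hap' : algebraMap A₀ A a ∈ p
    · have hbp : algebraMap A₀ A b ∉ p := fun hbp =>
        not_both_mem a b ha0 hap hb p hh ⟨hap', hbp⟩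
      refine ⟨v, algebraMap A₀ A b, hbp, ?_⟩
      have := congrArg (algebraMap A K) h
      rw [map_mul, map_mul] at this
      rw [div_mul_eq_mul_div, div_eq_iff haK]
      linear_combination this
    · refine ⟨u, algebraMap A₀ A a, hap', ?_⟩
      exact div_mul_cancel₀ _ haK
  obtain ⟨w, hw⟩ := H27KR.mem_range_of_forall_height_one _ hz
  refine ⟨w, hK ?_⟩
  rw [map_mul, hw, mul_comm]
  exact (div_mul_cancel₀ _ haK).symm

end goingdown

section vertical

variable {A₀ : Type*} [CommRing A₀] [IsDomain A₀] [IsNoetherianRing A₀] [IsIntegrallyClosed A₀]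

/-- **(L6)** a nonzero element which lies in no height-one prime other than `(ϖ)` is a unit
times a power of `ϖ`. -/
theorem eq_unit_mul_pow (ϖ d : A₀) (hϖ : Prime ϖ) (hd : d ≠ 0)
    (h : ∀ 𝔭 : Ideal A₀, 𝔭.IsPrime → 𝔭.height = 1 → ϖ ∉ 𝔭 → d ∉ 𝔭) :
    ∃ (m : ℕ) (u : A₀ˣ), d = u * ϖ ^ m := by
  obtain ⟨m, d', hnd, rfl⟩ := WfDvdMonoid.max_power_factor hd hϖ.irreducible
  have hd'0 : d' ≠ 0 := right_ne_zero_of_mul hd
  let K := FractionRing A₀
  have hK : Function.Injective (algebraMap A₀ K) := IsFractionRing.injective A₀ K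
  have hz0 : algebraMap A₀ K d' ≠ 0 := fun h0 => hd'0 (hK (by rw [h0, map_zero]))
  have hu : ∀ p : Ideal A₀, p.IsPrime → p.height = 1 → H27KR.UnitLoc p (algebraMap A₀ K d') := by
    intro p hp hh
    have := hp
    have h1 : (1 : A₀) ∉ p := fun h1 => hp.ne_top ((Ideal.eq_top_iff_one p).2 h1)
    refine ⟨d', 1, ?_, h1, by simp⟩
    intro hd'p
    by_cases hϖp : ϖ ∈ p
    · -- then `p = (ϖ)`
      have hle : Ideal.span {ϖ} ≤ p := (Ideal.span_singleton_le_iff_mem _).2 hϖp
      have : (Ideal.span {ϖ}).IsPrime := (Ideal.span_singleton_prime hϖ.ne_zero).2 hϖ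
      have heq : Ideal.span {ϖ} = p := by
        rcases eq_or_lt_of_le hle with h' | h'
        · exact h'
        · exfalso
          have hfin : p.FiniteHeight := by
            rw [Ideal.finiteHeight_iff]
            right
            rw [hh]
            exact ENat.one_ne_top
          have hlt := Ideal.height_strict_mono_of_isPrime_of_isPrime h'
          rw [hh] at hlt
          have h0 : (Ideal.span {ϖ}).height = 0 := Order.lt_one_iff.1 hlt
          have hbot : Ideal.span {ϖ} = ⊥ := Ideal.height_eq_zero_iff_eq_bot.1 h0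
          rw [Ideal.span_singleton_eq_bot] at hbot
          exact hϖ.ne_zero hbot
      rw [← heq, Ideal.mem_span_singleton] at hd'p
      exact hnd hd'p
    · exact h p hp hh hϖp (Ideal.mul_mem_left _ _ hd'p)
  obtain ⟨u, hu'⟩ := H27KR.isUnit_of_forall_height_one _ hz0 hu
  refine ⟨m, u, ?_⟩
  rw [hK hu', mul_comm]

end vertical

section reduction

variable {A₀ A R₀ T : Type*} [CommRing A₀] [CommRing A] [CommRing R₀] [CommRing T]
  [Algebra A₀ A] [Algebra A₀ R₀] [Algebra A T] [Algebra R₀ T] [Algebra A₀ T]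
  [IsScalarTower A₀ A T] [IsScalarTower A₀ R₀ T]

/-- coordinates commute with the reduction `A → T` for compatible bases. -/
theorem repr_reduce {r : ℕ} (e : Module.Basis (Fin r) A₀ A) (ē : Module.Basis (Fin r) R₀ T)
    (he : ∀ i, ē i = algebraMap A T (e i)) (w : A) (i : Fin r) :
    ē.repr (algebraMap A T w) i = algebraMap A₀ R₀ (e.repr w i) := by
  have h1 : algebraMap A T w = ∑ k, algebraMap A₀ R₀ (e.repr w k) • ē k := by
    conv_lhs => rw [← e.sum_repr w]
    rw [map_sum]
    refine Finset.sum_congr rfl fun k _ => ?_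
    rw [Algebra.smul_def, map_mul, ← IsScalarTower.algebraMap_apply A₀ A T, he k,
      Algebra.smul_def, ← IsScalarTower.algebraMap_apply A₀ R₀ T]
  rw [h1, ē.repr_sum_self]

/-- **(L4a)** the trace commutes with the reduction `A → T`, `A₀ → R₀`. -/
theorem trace_reduce {r : ℕ} (e : Module.Basis (Fin r) A₀ A) (ē : Module.Basis (Fin r) R₀ T)
    (he : ∀ i, ē i = algebraMap A T (e i)) (u : A) :
    Algebra.trace R₀ T (algebraMap A T u) = algebraMap A₀ R₀ (Algebra.trace A₀ A u) := by
  rw [Algebra.trace_eq_matrix_trace e, Algebra.trace_eq_matrix_trace ē, Matrix.trace,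
    Matrix.trace, map_sum]
  refine Finset.sum_congr rfl fun i _ => ?_
  rw [Matrix.diag_apply, Matrix.diag_apply, Algebra.leftMulMatrix_eq_repr_mul,
    Algebra.leftMulMatrix_eq_repr_mul, he i, ← map_mul, repr_reduce e ē he]

/-- **(L4b)** the discriminant of the basis commutes with the reduction. -/
theorem discr_reduce {r : ℕ} (e : Module.Basis (Fin r) A₀ A) (ē : Module.Basis (Fin r) R₀ T)
    (he : ∀ i, ē i = algebraMap A T (e i)) :
    Algebra.discr R₀ ē = algebraMap A₀ R₀ (Algebra.discr A₀ e) := by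
  rw [Algebra.discr_def, Algebra.discr_def, RingHom.map_det]
  congr 1
  ext i j
  rw [RingHom.mapMatrix_apply, Matrix.map_apply, Algebra.traceMatrix_apply,
    Algebra.traceMatrix_apply, Algebra.traceForm_apply, Algebra.traceForm_apply, he i, he j,
    ← map_mul, trace_reduce e ē he]

end reduction

section divisibility

variable {A₀ A : Type*} [CommRing A₀] [CommRing A] [Algebra A₀ A]

/-- **(L5)** the discriminant of a basis divides the discriminant of any family of the same
size. -/
theorem discr_dvd {r : ℕ} (e : Module.Basis (Fin r) A₀ A) (b : Fin r → A) :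
    Algebra.discr A₀ e ∣ Algebra.discr A₀ b := by
  classical
  let P : Matrix (Fin r) (Fin r) A₀ := fun i j => e.repr (b i) j
  have hb : b = (P.map (algebraMap A₀ A)).mulVec e := by
    funext i
    rw [Matrix.mulVec, dotProduct]
    conv_lhs => rw [← e.sum_repr (b i)]
    refine Finset.sum_congr rfl fun j _ => ?_
    rw [Matrix.map_apply, Algebra.smul_def]
  rw [hb, Algebra.discr_of_matrix_mulVec]
  exact Dvd.intro_left _ rfl

end divisibility

section freeness

open IsLocalRing

variable {A₀ A R₀ T : Type*} [CommRing A₀] [IsDomain A₀] [IsNoetherianRing A₀] [IsLocalRing A₀]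
  [IsIntegrallyClosed A₀]
  [CommRing A] [IsDomain A] [IsNoetherianRing A] [IsIntegrallyClosed A]
  [Algebra A₀ A] [FaithfulSMul A₀ A] [Module.Finite A₀ A]
  [CommRing R₀] [CommRing T] [Algebra A₀ R₀] [Algebra A T] [Algebra R₀ T] [Algebra A₀ T]
  [IsScalarTower A₀ A T] [IsScalarTower A₀ R₀ T]

omit [IsNoetherianRing A₀] [IsLocalRing A₀] [IsIntegrallyClosed A₀] [IsDomain A]
  [IsNoetherianRing A] [IsIntegrallyClosed A] [FaithfulSMul A₀ A] [Module.Finite A₀ A]
  [Algebra A T] [Algebra R₀ T] [Algebra A₀ T] [IsScalarTower A₀ A T] [IsScalarTower A₀ R₀ T]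
  [CommRing A] [Algebra A₀ A] [CommRing T] in
/-- the quotient `R₀ = A₀/(a)` is a domain. -/
theorem isDomain_quot (a : A₀) (hap : (Ideal.span {a}).IsPrime)
    (hR₀s : Function.Surjective (algebraMap A₀ R₀))
    (hR₀k : RingHom.ker (algebraMap A₀ R₀) = Ideal.span {a}) : IsDomain R₀ := by
  have hnt : Nontrivial R₀ := by
    refine ⟨⟨0, 1, fun h => ?_⟩⟩
    have h1 : (1 : A₀) ∈ RingHom.ker (algebraMap A₀ R₀) := by
      rw [RingHom.mem_ker, map_one]
      exact h.symm
    rw [hR₀k] at h1
    exact hap.ne_top ((Ideal.eq_top_iff_one _).2 h1)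
  have hnz : NoZeroDivisors R₀ := by
    refine ⟨fun {x y} hxy => ?_⟩
    obtain ⟨x', rfl⟩ := hR₀s x
    obtain ⟨y', rfl⟩ := hR₀s y
    have h1 : x' * y' ∈ RingHom.ker (algebraMap A₀ R₀) := by
      rw [RingHom.mem_ker, map_mul]
      exact hxy
    rw [hR₀k] at h1
    rcases hap.mem_or_mem h1 with h | h
    · left
      rw [← RingHom.mem_ker, hR₀k]
      exact h
    · right
      rw [← RingHom.mem_ker, hR₀k]
      exact h
  exact NoZeroDivisors.to_isDomain R₀

omit [IsIntegrallyClosed A₀] [IsDomain A]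
  [IsNoetherianRing A] [IsIntegrallyClosed A] [FaithfulSMul A₀ A] [Module.Finite A₀ A]
  [Algebra A T] [Algebra R₀ T] [Algebra A₀ T] [IsScalarTower A₀ A T] [IsScalarTower A₀ R₀ T]
  [CommRing A] [Algebra A₀ A] [CommRing T] in
/-- the quotient `R₀ = A₀/(a)` is a principal ideal ring. -/
theorem isPrincipalIdealRing_quot (a b : A₀) (hm : maximalIdeal A₀ = Ideal.span {a, b})
    (hap : (Ideal.span {a}).IsPrime)
    (hR₀s : Function.Surjective (algebraMap A₀ R₀))
    (hR₀k : RingHom.ker (algebraMap A₀ R₀) = Ideal.span {a}) : IsPrincipalIdealRing R₀ := by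
  haveI : IsPrincipalIdealRing (A₀ ⧸ Ideal.span {a}) := H5CA.h5ca_quot_pir a b hap hm
  have hle : ∀ x ∈ Ideal.span {a}, algebraMap A₀ R₀ x = 0 := by
    intro x hx
    rw [← RingHom.mem_ker, hR₀k]
    exact hx
  refine IsPrincipalIdealRing.of_surjective
    (Ideal.Quotient.lift (Ideal.span {a}) (algebraMap A₀ R₀) hle) ?_
  intro y
  obtain ⟨x, rfl⟩ := hR₀s y
  exact ⟨Ideal.Quotient.mk _ x, by simp⟩

omit [IsNoetherianRing A₀] [IsLocalRing A₀] in
/-- `T = A/aA` is torsion-free over `R₀ = A₀/(a)`. -/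
theorem torsionFree_quot (a : A₀) (ha0 : a ≠ 0)
    (hap : (Ideal.span {a}).IsPrime)
    (hR₀s : Function.Surjective (algebraMap A₀ R₀))
    (hR₀k : RingHom.ker (algebraMap A₀ R₀) = Ideal.span {a})
    (hTs : Function.Surjective (algebraMap A T))
    (hTk : RingHom.ker (algebraMap A T) = Ideal.span {algebraMap A₀ A a}) :
    ∀ (c : R₀) (t : T), c • t = 0 → c = 0 ∨ t = 0 := by
  intro c t hct
  obtain ⟨c', rfl⟩ := hR₀s c
  obtain ⟨u, rfl⟩ := hTs t
  by_cases hc : c' ∈ Ideal.span {a}
  · left
    rw [← RingHom.mem_ker, hR₀k]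
    exact hc
  · right
    have h1 : algebraMap A₀ A c' * u ∈ RingHom.ker (algebraMap A T) := by
      rw [RingHom.mem_ker, map_mul, ← IsScalarTower.algebraMap_apply A₀ A T,
        IsScalarTower.algebraMap_apply A₀ R₀ T, ← Algebra.smul_def]
      exact hct
    rw [hTk, Ideal.mem_span_singleton] at h1
    obtain ⟨v, hv⟩ := h1
    obtain ⟨w, hw⟩ := reg_seq a c' ha0 hap hc u v hv
    rw [← RingHom.mem_ker, hTk, Ideal.mem_span_singleton]
    exact ⟨w, hw⟩

/-- **(L3)** freeness with compatible bases: `T = A/aA` is free over the discrete valuation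
ring `R₀ = A₀/(a)` and any lift of a basis of `T` is a basis of `A` over `A₀`. -/
theorem exists_basis (a b : A₀) (hm : maximalIdeal A₀ = Ideal.span {a, b}) (ha0 : a ≠ 0)
    (hap : (Ideal.span {a}).IsPrime)
    (hR₀s : Function.Surjective (algebraMap A₀ R₀))
    (hR₀k : RingHom.ker (algebraMap A₀ R₀) = Ideal.span {a})
    (hTs : Function.Surjective (algebraMap A T))
    (hTk : RingHom.ker (algebraMap A T) = Ideal.span {algebraMap A₀ A a}) :
    ∃ (r : ℕ) (e : Module.Basis (Fin r) A₀ A) (ē : Module.Basis (Fin r) R₀ T),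
      ∀ i, ē i = algebraMap A T (e i) := by
  classical
  have hinj : Function.Injective (algebraMap A₀ A) := FaithfulSMul.algebraMap_injective A₀ A
  haveI : IsDomain R₀ := isDomain_quot a hap hR₀s hR₀k
  haveI : IsPrincipalIdealRing R₀ := isPrincipalIdealRing_quot a b hm hap hR₀s hR₀k
  haveI : Module.Finite A₀ T :=
    Module.Finite.of_surjective (IsScalarTower.toAlgHom A₀ A T).toLinearMap hTs
  haveI : Module.Finite R₀ T := Module.Finite.of_restrictScalars_finite A₀ R₀ T
  haveI : Module.IsTorsionFree R₀ T :=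
    Module.IsTorsionFree.of_smul_eq_zero (torsionFree_quot a ha0 hap hR₀s hR₀k hTs hTk)
  haveI : Module.Free R₀ T := Module.free_of_finite_type_torsion_free'
  let ē : Module.Basis (Fin (Module.finrank R₀ T)) R₀ T := Module.finBasis R₀ T
  let e₀ : Fin (Module.finrank R₀ T) → A := fun i => (hTs (ē i)).choose
  have he₀ : ∀ i, algebraMap A T (e₀ i) = ē i := fun i => (hTs (ē i)).choose_spec
  have ha_mem : a ∈ maximalIdeal A₀ := by
    rw [hm]
    exact Ideal.subset_span (by simp)
  -- spanning: Nakayama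
  have hsp : ⊤ ≤ Submodule.span A₀ (Set.range e₀) := by
    refine Submodule.le_of_le_smul_of_le_jacobson_bot (I := Ideal.span {a})
      (Module.Finite.fg_top) ?_ ?_
    · rw [IsLocalRing.jacobson_eq_maximalIdeal ⊥ bot_ne_top, Ideal.span_singleton_le_iff_mem]
      exact ha_mem
    · intro u _
      -- write the image of `u` in the basis `ē`, lift the coefficients
      let c : Fin (Module.finrank R₀ T) → A₀ := fun i => (hR₀s (ē.repr (algebraMap A T u) i)).choose
      have hc : ∀ i, algebraMap A₀ R₀ (c i) = ē.repr (algebraMap A T u) i :=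
        fun i => (hR₀s (ē.repr (algebraMap A T u) i)).choose_spec
      have h1 : u - ∑ i, c i • e₀ i ∈ RingHom.ker (algebraMap A T) := by
        rw [RingHom.mem_ker, map_sub, map_sum, sub_eq_zero]
        conv_lhs => rw [← ē.sum_repr (algebraMap A T u)]
        refine Finset.sum_congr rfl fun i _ => ?_
        rw [Algebra.smul_def (c i) (e₀ i), map_mul, ← IsScalarTower.algebraMap_apply A₀ A T,
          he₀ i, IsScalarTower.algebraMap_apply A₀ R₀ T, hc i, ← Algebra.smul_def]
      rw [hTk, Ideal.mem_span_singleton] at h1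
      obtain ⟨v, hv⟩ := h1
      have h2 : u = ∑ i, c i • e₀ i + a • v := by
        rw [Algebra.smul_def, ← hv]
        ring
      rw [h2]
      refine Submodule.add_mem_sup ?_ ?_
      · exact Submodule.sum_mem _ fun i _ =>
          Submodule.smul_mem _ _ (Submodule.subset_span ⟨i, rfl⟩)
      · exact Submodule.smul_mem_smul (Ideal.mem_span_singleton_self a) Submodule.mem_top
  -- linear independence: Krull intersection
  have hstep : ∀ n : ℕ, ∀ c : Fin (Module.finrank R₀ T) → A₀, ∑ i, c i • e₀ i = 0 →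
      ∀ i, c i ∈ Ideal.span {a} ^ n := by
    intro n
    induction n with
    | zero =>
      intro c _ i
      rw [pow_zero, Ideal.one_eq_top]
      exact Submodule.mem_top
    | succ n ih =>
      intro c hc i
      have h1 : ∑ i, algebraMap A₀ R₀ (c i) • ē i = 0 := by
        have := congrArg (algebraMap A T) hc
        rw [map_sum, map_zero] at this
        rw [← this]
        refine Finset.sum_congr rfl fun i _ => ?_
        rw [Algebra.smul_def (c i) (e₀ i), map_mul, ← IsScalarTower.algebraMap_apply A₀ A T,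
          he₀ i, IsScalarTower.algebraMap_apply A₀ R₀ T, ← Algebra.smul_def]
      have h2 : ∀ i, algebraMap A₀ R₀ (c i) = 0 :=
        Fintype.linearIndependent_iff.1 ē.linearIndependent _ h1
      have h3 : ∀ i, ∃ c' : A₀, c i = a * c' := by
        intro i
        have : c i ∈ RingHom.ker (algebraMap A₀ R₀) := (RingHom.mem_ker).2 (h2 i)
        rw [hR₀k, Ideal.mem_span_singleton] at this
        exact this
      choose c' hc' using h3
      have h4 : ∑ i, c' i • e₀ i = 0 := by
        have h5 : algebraMap A₀ A a * ∑ i, c' i • e₀ i = 0 := by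
          rw [← hc, Finset.mul_sum]
          refine Finset.sum_congr rfl fun i _ => ?_
          rw [hc' i, Algebra.smul_def, Algebra.smul_def, map_mul, mul_assoc]
        rcases mul_eq_zero.1 h5 with h | h
        · exact absurd (hinj (by rw [h, map_zero])) ha0
        · exact h
      rw [pow_succ', hc' i]
      exact Ideal.mul_mem_mul (Ideal.mem_span_singleton_self a) (ih c' h4 i)
  have hli : LinearIndependent A₀ e₀ := by
    rw [Fintype.linearIndependent_iff]
    intro c hc i
    have h1 : c i ∈ ⨅ n : ℕ, Ideal.span {a} ^ n := by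
      rw [Ideal.mem_iInf]
      exact fun n => hstep n c hc i
    rw [Ideal.iInf_pow_eq_bot_of_isLocalRing (Ideal.span {a}) hap.ne_top] at h1
    exact h1
  refine ⟨Module.finrank R₀ T, Module.Basis.mk hli hsp, ē, fun i => ?_⟩
  rw [Module.Basis.mk_apply, he₀ i]

end freeness

end H5LC
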