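/-
helper5, item 86 (S36), slice LOC-C, part 2 (generic; Mathlib + H5LC core).

* `H5LC.locC_main`   (M1) compatible bases `e`, `ē` with `discr e = unit · ϖ ^ m` and
                      `discr ē = unit · ϖ̄ ^ m`, from horizontal unramifiedness in the form
                      "`discr e ∉ 𝔭₀` for every height-one prime `𝔭₀ ∌ ϖ`" (= helper22's (L7));
* `H5LC.locC_bound`  (M2) with a family `bD` whose discriminant has exact `ϖ`-content `k`:
                      `discr ē ∣ ϖ̄ ^ k`;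
* `H5LC.lift_two_gen` (LIFT) a local generator of a maximal ideal of `T = A/aA` lifts to two
                      local generators `(a, t')` of the maximal ideal of `A`;
* `H5LC.trace_frac`, `H5LC.discr_frac`, `H5LC.finrank_frac` (FR) comparison with the
                      fraction fields.
-/
import Mathlib
import Fermat.Agent.S36.LocC_helper5

set_option linter.style.haveILetI false
set_option linter.unusedSectionVars false

namespace H5LC

open Ideal IsLocalRing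

section main

variable {A₀ A R₀ T : Type*} [CommRing A₀] [IsDomain A₀] [IsNoetherianRing A₀] [IsLocalRing A₀]
  [IsIntegrallyClosed A₀]
  [CommRing A] [IsDomain A] [IsNoetherianRing A] [IsIntegrallyClosed A]
  [Algebra A₀ A] [FaithfulSMul A₀ A] [Module.Finite A₀ A]
  [CommRing R₀] [CommRing T] [Algebra A₀ R₀] [Algebra A T] [Algebra R₀ T] [Algebra A₀ T]
  [IsScalarTower A₀ A T] [IsScalarTower A₀ R₀ T]

/-- **(M1)** compatible bases whose discriminants are a unit times a power of `ϖ`. -/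
theorem locC_main (a ϖ : A₀) (hm : maximalIdeal A₀ = Ideal.span {a, ϖ}) (ha0 : a ≠ 0)
    (hap : (Ideal.span {a}).IsPrime) (hϖa : ϖ ∉ Ideal.span {a}) (hϖ : Prime ϖ)
    (hR₀s : Function.Surjective (algebraMap A₀ R₀))
    (hR₀k : RingHom.ker (algebraMap A₀ R₀) = Ideal.span {a})
    (hTs : Function.Surjective (algebraMap A T))
    (hTk : RingHom.ker (algebraMap A T) = Ideal.span {algebraMap A₀ A a})
    (hunr : ∀ (r : ℕ) (e : Module.Basis (Fin r) A₀ A) (𝔭₀ : Ideal A₀), 𝔭₀.IsPrime →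
      𝔭₀.height = 1 → ϖ ∉ 𝔭₀ → Algebra.discr A₀ e ∉ 𝔭₀) :
    ∃ (r : ℕ) (e : Module.Basis (Fin r) A₀ A) (ē : Module.Basis (Fin r) R₀ T) (m : ℕ)
      (u : A₀ˣ), (∀ i, ē i = algebraMap A T (e i)) ∧ Algebra.discr A₀ e = u * ϖ ^ m ∧
        Algebra.discr R₀ ē = algebraMap A₀ R₀ u * algebraMap A₀ R₀ ϖ ^ m := by
  obtain ⟨r, e, ē, he⟩ := exists_basis a ϖ hm ha0 hap hR₀s hR₀k hTs hTk
  -- `(a)` is a height-one prime not containing `ϖ`
  have hah : (Ideal.span {a}).height = 1 := by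
    apply le_antisymm
    · exact Ideal.height_span_singleton_le_one (fun hu => hap.ne_top
        (Ideal.span_singleton_eq_top.2 hu))
    · rw [Order.one_le_iff_ne_zero]
      intro h0
      have := Ideal.height_eq_zero_iff_eq_bot.1 h0
      rw [Ideal.span_singleton_eq_bot] at this
      exact ha0 this
  have hd0 : Algebra.discr A₀ e ≠ 0 := by
    intro h0
    have := hunr r e _ hap hah (fun h => hϖa h)
    rw [h0] at this
    exact this (Ideal.zero_mem _)
  obtain ⟨m, u, hu⟩ := eq_unit_mul_pow ϖ (Algebra.discr A₀ e) hϖ hd0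
    (fun 𝔭 hp hh hϖp => hunr r e 𝔭 hp hh hϖp)
  refine ⟨r, e, ē, m, u, he, hu, ?_⟩
  rw [discr_reduce e ē he, hu, map_mul, map_pow]

/-- **(M2)** the discriminant bound for the transversal `T/R₀`: if some family `bD` of the right
size has `discr bD = ϖ ^ k * D'` with `ϖ ∤ D'`, then `discr ē ∣ ϖ̄ ^ k`. -/
theorem locC_bound (a ϖ : A₀) (hm : maximalIdeal A₀ = Ideal.span {a, ϖ}) (ha0 : a ≠ 0)
    (hap : (Ideal.span {a}).IsPrime) (hϖa : ϖ ∉ Ideal.span {a}) (hϖ : Prime ϖ)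
    (hR₀s : Function.Surjective (algebraMap A₀ R₀))
    (hR₀k : RingHom.ker (algebraMap A₀ R₀) = Ideal.span {a})
    (hTs : Function.Surjective (algebraMap A T))
    (hTk : RingHom.ker (algebraMap A T) = Ideal.span {algebraMap A₀ A a})
    (hunr : ∀ (r : ℕ) (e : Module.Basis (Fin r) A₀ A) (𝔭₀ : Ideal A₀), 𝔭₀.IsPrime →
      𝔭₀.height = 1 → ϖ ∉ 𝔭₀ → Algebra.discr A₀ e ∉ 𝔭₀)
    (k : ℕ)
    (hD : ∀ (r : ℕ) (_ : Module.Basis (Fin r) A₀ A), ∃ (bD : Fin r → A) (D' : A₀),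
      Algebra.discr A₀ bD = ϖ ^ k * D' ∧ ¬ ϖ ∣ D') :
    ∃ (r : ℕ) (e : Module.Basis (Fin r) A₀ A) (ē : Module.Basis (Fin r) R₀ T),
      (∀ i, ē i = algebraMap A T (e i)) ∧ Algebra.discr R₀ ē ∣ algebraMap A₀ R₀ ϖ ^ k := by
  obtain ⟨r, e, ē, m, u, he, hu, hū⟩ :=
    locC_main a ϖ hm ha0 hap hϖa hϖ hR₀s hR₀k hTs hTk hunr
  obtain ⟨bD, D', hD1, hD2⟩ := hD r e
  have hdvd : Algebra.discr A₀ e ∣ Algebra.discr A₀ bD := discr_dvd e bD
  have hmk : m ≤ k := by
    by_contra hlt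
    rw [not_le] at hlt
    apply hD2
    rw [hu, hD1] at hdvd
    have h1 : ϖ ^ m ∣ ϖ ^ k * D' := (Dvd.intro_left _ rfl).trans hdvd
    obtain ⟨j, rfl⟩ : ∃ j, m = k + (j + 1) := ⟨m - k - 1, by omega⟩
    rw [pow_add] at h1
    have h2 : ϖ ^ (j + 1) ∣ D' :=
      (mul_dvd_mul_iff_left (pow_ne_zero k hϖ.ne_zero)).1 h1
    exact (dvd_pow_self ϖ (Nat.succ_ne_zero j)).trans h2
  refine ⟨r, e, ē, he, ?_⟩
  rw [hū]
  obtain ⟨j, rfl⟩ : ∃ j, k = m + j := ⟨k - m, by omega⟩
  refine ⟨algebraMap A₀ R₀ (↑u⁻¹ : A₀) * algebraMap A₀ R₀ ϖ ^ j, ?_⟩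
  have h1 : algebraMap A₀ R₀ (u : A₀) * algebraMap A₀ R₀ (↑u⁻¹ : A₀) = 1 := by
    rw [← map_mul, Units.mul_inv, map_one]
  rw [pow_add]
  linear_combination (-(algebraMap A₀ R₀ ϖ ^ m * algebraMap A₀ R₀ ϖ ^ j)) * h1

omit [IsDomain A₀] [IsNoetherianRing A₀] [IsIntegrallyClosed A₀] [IsDomain A]
  [IsNoetherianRing A] [IsIntegrallyClosed A] [FaithfulSMul A₀ A]
  [Algebra R₀ T] [Algebra A₀ T] [IsScalarTower A₀ A T] [IsScalarTower A₀ R₀ T]
  [CommRing R₀] [Algebra A₀ R₀] in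
/-- every maximal ideal of `A` contains the image of the maximal ideal of `A₀`. -/
theorem algebraMap_mem_of_isMaximal (𝔫 : Ideal A) [h𝔫 : 𝔫.IsMaximal] (x : A₀)
    (hx : x ∈ maximalIdeal A₀) : algebraMap A₀ A x ∈ 𝔫 := by
  haveI : (𝔫.comap (algebraMap A₀ A)).IsMaximal :=
    Ideal.isMaximal_comap_of_isIntegral_of_isMaximal 𝔫
  have h := IsLocalRing.eq_maximalIdeal (inferInstance : (𝔫.comap (algebraMap A₀ A)).IsMaximal)
  have : x ∈ 𝔫.comap (algebraMap A₀ A) := by
    rw [h]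
    exact hx
  exact this

omit [IsDomain A₀] [IsNoetherianRing A₀] [IsIntegrallyClosed A₀] [IsDomain A]
  [IsNoetherianRing A] [IsIntegrallyClosed A] [FaithfulSMul A₀ A]
  [Algebra R₀ T] [Algebra A₀ T] [IsScalarTower A₀ A T] [IsScalarTower A₀ R₀ T]
  [CommRing R₀] [Algebra A₀ R₀] in
/-- the image in `T = A/aA` of a maximal ideal of `A` is maximal. -/
theorem map_isMaximal (a : A₀) (ha : a ∈ maximalIdeal A₀)
    (hTs : Function.Surjective (algebraMap A T))
    (hTk : RingHom.ker (algebraMap A T) = Ideal.span {algebraMap A₀ A a})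
    (𝔫 : Ideal A) [h𝔫 : 𝔫.IsMaximal] : (𝔫.map (algebraMap A T)).IsMaximal := by
  rcases Ideal.map_eq_top_or_isMaximal_of_surjective (algebraMap A T) hTs h𝔫 with h | h
  · exfalso
    have hker : RingHom.ker (algebraMap A T) ≤ 𝔫 := by
      rw [hTk, Ideal.span_singleton_le_iff_mem]
      exact algebraMap_mem_of_isMaximal 𝔫 a ha
    have h1 : (𝔫.map (algebraMap A T)).comap (algebraMap A T) = 𝔫 := by
      rw [Ideal.comap_map_of_surjective (algebraMap A T) hTs, sup_eq_left]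
      exact hker
    rw [h, Ideal.comap_top] at h1
    exact h𝔫.ne_top h1.symm
  · exact h

omit [IsDomain A₀] [IsNoetherianRing A₀] [IsIntegrallyClosed A₀] [IsDomain A]
  [IsNoetherianRing A] [IsIntegrallyClosed A] [FaithfulSMul A₀ A]
  [Algebra R₀ T] [Algebra A₀ T] [IsScalarTower A₀ A T] [IsScalarTower A₀ R₀ T]
  [CommRing R₀] [Algebra A₀ R₀] in
/-- **(LIFT)** a local generator of the image of `𝔫` in `T = A/aA` gives two local generators
`(a, t')` of `𝔫`. -/
theorem lift_two_gen (a : A₀)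
    (hTs : Function.Surjective (algebraMap A T))
    (hTk : RingHom.ker (algebraMap A T) = Ideal.span {algebraMap A₀ A a})
    (𝔫 : Ideal A)
    (h : ∃ t ∈ 𝔫.map (algebraMap A T), ∃ v, v ∉ 𝔫.map (algebraMap A T) ∧
      ∀ y ∈ 𝔫.map (algebraMap A T), ∃ z, v * y = t * z) :
    ∃ t' ∈ 𝔫, ∃ v', v' ∉ 𝔫 ∧ ∀ y ∈ 𝔫, ∃ z w, v' * y = t' * z + algebraMap A₀ A a * w := by
  obtain ⟨t, ht, v, hv, hgen⟩ := h
  obtain ⟨t', ht', rfl⟩ := (Ideal.mem_map_iff_of_surjective (algebraMap A T) hTs).1 ht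
  obtain ⟨v', rfl⟩ := hTs v
  refine ⟨t', ht', v', fun hv' => hv (Ideal.mem_map_of_mem _ hv'), ?_⟩
  intro y hy
  obtain ⟨z, hz⟩ := hgen (algebraMap A T y) (Ideal.mem_map_of_mem _ hy)
  obtain ⟨z', rfl⟩ := hTs z
  have h1 : v' * y - t' * z' ∈ RingHom.ker (algebraMap A T) := by
    rw [RingHom.mem_ker, map_sub, map_mul, map_mul, hz, sub_self]
  rw [hTk, Ideal.mem_span_singleton] at h1
  obtain ⟨w, hw⟩ := h1
  exact ⟨z', w, by linear_combination hw⟩

end main

section frac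

variable {A₀ A F₀ F : Type*} [CommRing A₀] [CommRing A] [Algebra A₀ A]
  [Module.Free A₀ A] [Module.Finite A₀ A]
  [CommRing F₀] [CommRing F] [Algebra A₀ F₀] [Algebra A F] [Algebra F₀ F] [Algebra A₀ F]
  [IsScalarTower A₀ F₀ F] [IsScalarTower A₀ A F]

/-- **(FR)** the discriminant of a family of elements of `A` commutes with localization. -/
theorem discr_frac (M : Submonoid A₀) [IsLocalization M F₀]
    [IsLocalization (Algebra.algebraMapSubmonoid A M) F]
    {ι : Type*} [Fintype ι] [DecidableEq ι] (b : ι → A) :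
    Algebra.discr F₀ (fun i => algebraMap A F (b i)) = algebraMap A₀ F₀ (Algebra.discr A₀ b) := by
  rw [Algebra.discr_def, Algebra.discr_def, RingHom.map_det]
  congr 1
  ext i j
  rw [RingHom.mapMatrix_apply, Matrix.map_apply, Algebra.traceMatrix_apply,
    Algebra.traceMatrix_apply, Algebra.traceForm_apply, Algebra.traceForm_apply, ← map_mul,
    Algebra.trace_localization A₀ M]

omit [Module.Free A₀ A] [Module.Finite A₀ A] in
/-- **(FR)** the rank of a basis of `A/A₀` is the degree of the extension of fraction fields. -/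
theorem finrank_frac (M : Submonoid A₀) [IsLocalization M F₀]
    [IsLocalization (Algebra.algebraMapSubmonoid A M) F] [Nontrivial F₀]
    {r : ℕ} (e : Module.Basis (Fin r) A₀ A) : Module.finrank F₀ F = r := by
  rw [Module.finrank_eq_card_basis (e.localizationLocalization F₀ M F), Fintype.card_fin]

end frac

end H5LC
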