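import Fermat.Agent.S34.ResCompFinal_helper12

/-!
# Item 86 (S36), slice (LOC-F), part 1 (helper12): residue degree one of `C₁'` at the level `M q`,
over an ARBITRARY number field `K₁ ∋ ζ_{e₀}` (no normality: the base may be unramified)

`e₀ = branchIndex (baseKind q) M` is prime to `q`, so `ℚ(ζ_{e₀})` is unramified at `q`.

* `H12LF.levelNormal_unr` : normality of the special fibre of the charts `t`, `t⁻¹` at the level
  `M` (`H9UF.LevelNormalStatement` without `K₀` / `Normal`);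
* `H12LF.resComp_unr`     : every element of the chart ring of level `M q` is congruent modulo
  `P₁` to an element of the chart ring which is of level `M`
  (`H12TC.ResCompStatement` without `K₀` / `Normal`).
-/

set_option autoImplicit false
set_option linter.style.longLine false
set_option linter.unusedSectionVars false
set_option linter.unusedVariables false
set_option linter.style.haveILetI false
set_option synthInstance.maxHeartbeats 400000
set_option maxHeartbeats 1000000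

noncomputable section

open ModularCurve H7S18 H4S34 H26DI H28GV H18R2

namespace H12LF

/-- **(A'')** normality of the special fibre of the charts `t`, `t⁻¹` at the level `M`, over any
number field `K₁` containing a primitive `e₀`-th root of unity. -/
theorem levelNormal_unr (M : ℕ) [NeZero M] (q : ℕ) [NeZero q] (hq : q.Prime) (hqM : ¬ q ∣ M)
    (hT : TameLevel q M)
    (A : ValuationSubring (AlgebraicClosure ℚ)) (hA : A.LiesOverPrime q)
    (K₁ : IntermediateField ℚ (AlgebraicClosure ℚ)) (hK₁fin : FiniteDimensional ℚ K₁)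
    (hζ : ∃ ζ : K₁, IsPrimitiveRoot ζ (branchIndex (baseKind q) M))
    [Algebra ↥(descVal A K₁) (FK K₁ M)]
    [IsScalarTower ↥(descVal A K₁) K₁ (FK K₁ M)]
    (ϖ : ↥(descVal A K₁)) (hϖ : Irreducible ϖ)
    (t₀ : LaurentSeries ℚ) (ht₀ : IsBase (baseKind q) t₀)
    (t : FK K₁ M) (ht : (t : LaurentSeries K₁) = coeffEmb K₁ t₀)
    (c : FK K₁ M) (hc : c = t ∨ c = t⁻¹)
    (y : FK K₁ M) (n : ℕ) (cf : ℕ → FK K₁ M)
    (hcf : ∀ i, cf i ∈ Algebra.adjoin ↥(descVal A K₁) {c})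
    (hy : H8PB.InG (descVal A K₁) (y : LaurentSeries K₁))
    (hz : H8PB.InGm (descVal A K₁)
        (((y ^ n + ∑ i ∈ Finset.range n, cf i * y ^ i : FK K₁ M)) : LaurentSeries K₁)) :
    ∃ d : FK K₁ M, IsInt ↥(descVal A K₁) c d ∧
      H8PB.InGm (descVal A K₁) (((y - d : FK K₁ M)) : LaurentSeries K₁) := by
  haveI : Fact q.Prime := ⟨hq⟩
  have hi := h7_baseKind_ok hT
  obtain ⟨hdvr, -, hunit⟩ := H4DVR.dvrStatement q A hA K₁ hK₁fin
  haveI := hdvr
  obtain ⟨t₁, ht₁coe, ht₁tr, -, -⟩ := H9C6e.fieldBasics M (baseKind q) hi t₀ ht₀ K₁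
  have htt : t = t₁ := Subtype.ext (by rw [ht, ht₁coe])
  have httr : Transcendental K₁ t := by rw [htt]; exact ht₁tr
  have htR : Transcendental ↥(descVal A K₁) t := H21S18.transcendental_base httr
  have hϖp : Prime ϖ := H21S18.prime_of_irreducible hϖ
  obtain ⟨hN1, hN2⟩ := H14I2.h14i2_chartNormalInst M q hT A hA K₁ hK₁fin hζ ϖ hϖ t₀ ht₀ t ht
  have hG := fun x : FK K₁ M => H18GM.gaussM M A K₁ q hqM hA ϖ hϖ (baseKind q) t₀ ht₀ t ht x
  have hyG : GInt ↥(descVal A K₁) ϖ t y := (hG y).1.mpr hy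
  have hzM : ModPi ↥(descVal A K₁) ϖ t (y ^ n + ∑ i ∈ Finset.range n, cf i * y ^ i) 0 :=
    (hG _).2.mpr hz
  rcases hc with hc | hc
  · subst hc
    obtain ⟨d, hd, z, hzG, hze⟩ := hN1 y hyG ⟨n, cf, hcf, hzM⟩
    refine ⟨d, hd, (hG (y - d)).2.mp ⟨z, hzG, ?_⟩⟩
    rw [sub_zero]
    exact hze
  · subst hc
    have hyG' : GInt ↥(descVal A K₁) ϖ t⁻¹ y := (H21S18.gInt_inv_iff hϖp htR).mpr hyG
    have hzM' : ModPi ↥(descVal A K₁) ϖ t⁻¹ (y ^ n + ∑ i ∈ Finset.range n, cf i * y ^ i) 0 :=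
      (H21S18.modPi_inv_iff hϖp htR).mpr hzM
    obtain ⟨d, hd, hmod⟩ := hN2 y hyG' ⟨n, cf, hcf, hzM'⟩
    obtain ⟨z, hzG, hze⟩ := (H21S18.modPi_inv_iff hϖp htR).mp hmod
    refine ⟨d, hd, (hG (y - d)).2.mp ⟨z, hzG, ?_⟩⟩
    rw [sub_zero]
    exact hze

/-- chart elements of level `M q` lie in both Gauss rings (from (I1) `PairGauss`). -/
theorem pairGauss_unr (M : ℕ) [NeZero M] (q : ℕ) [NeZero q] (hq : q.Prime) (hqM : ¬ q ∣ M)
    (hT : TameLevel q M)
    (A : ValuationSubring (AlgebraicClosure ℚ)) (hA : A.LiesOverPrime q)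
    (K₁ : IntermediateField ℚ (AlgebraicClosure ℚ)) (hfin : FiniteDimensional ℚ K₁)
    [Algebra ↥(descVal A K₁) (FK K₁ (M * q))]
    [IsScalarTower ↥(descVal A K₁) K₁ (FK K₁ (M * q))]
    (ϖ : ↥(descVal A K₁)) (hϖ : Irreducible ϖ)
    (t₀ : LaurentSeries ℚ) (ht₀ : IsBase (baseKind q) t₀)
    (t : FK K₁ (M * q)) (ht : (t : LaurentSeries K₁) = coeffEmb K₁ t₀)
    (x : FK K₁ (M * q)) (hx : IsInt ↥(descVal A K₁) t x) :
    H8PB.InG (descVal A K₁) (x : LaurentSeries K₁) ∧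
      H8PB.InG (descVal A K₁)
        ((H12AL.wqKHom K₁ M q hq hqM x : FK K₁ (M * q)) : LaurentSeries K₁) := by
  haveI : Fact q.Prime := ⟨hq⟩
  obtain ⟨hdvr, -, -⟩ := H4DVR.dvrStatement q A hA K₁ hfin
  haveI := hdvr
  obtain ⟨t', ht'coe, ht'tr, -, -⟩ :=
    H9C6e.fieldBasics (M * q) (baseKind q) (H12TC.baseKind_hi M q hT) t₀ ht₀ ↥K₁
  have htt : t' = t := Subtype.ext (ht'coe.trans ht.symm)
  rw [htt] at ht'tr
  have htR : Transcendental ↥(descVal A K₁) t := H19S18.h19_transc ↥(descVal A K₁) ↥K₁ ht'tr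
  exact (H8PB.h8pg_pairGauss M q hq hqM hT A hA K₁ hfin ϖ hϖ t₀ ht₀ t ht x).1.mp
    (H19S18.h19_gint_of_isInt ↥(descVal A K₁) htR hϖ hx)

/-- **(F1')** residue degree one of the first component at the level `M q`: every element of the
chart ring is congruent modulo `𝔪_{w₁}` to an element of the chart ring which is of level `M`.
Any number field `K₁ ∋ ζ_{e₀}`. -/
theorem resComp_unr (M : ℕ) [NeZero M] (q : ℕ) [NeZero q] (hq : q.Prime) (hqM : ¬ q ∣ M)
    (hT : TameLevel q M)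
    (A : ValuationSubring (AlgebraicClosure ℚ)) (hA : A.LiesOverPrime q)
    (K₁ : IntermediateField ℚ (AlgebraicClosure ℚ)) (hfin : FiniteDimensional ℚ K₁)
    (hζ : ∃ ζ : K₁, IsPrimitiveRoot ζ (branchIndex (baseKind q) M))
    [Algebra ↥(descVal A K₁) (FK K₁ (M * q))]
    [IsScalarTower ↥(descVal A K₁) K₁ (FK K₁ (M * q))]
    (ϖ : ↥(descVal A K₁)) (hϖ : Irreducible ϖ)
    (t₀ : LaurentSeries ℚ) (ht₀ : IsBase (baseKind q) t₀)
    (t : FK K₁ (M * q)) (ht : (t : LaurentSeries K₁) = coeffEmb K₁ t₀)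
    (y : FK K₁ (M * q)) (hy : IsInt ↥(descVal A K₁) t y) :
    ∃ y' : FK K₁ (M * q), IsInt ↥(descVal A K₁) t y' ∧
      (y' : LaurentSeries K₁) ∈ laurentBaseChange ↥K₁ (modularFunctionFieldFull M) ∧
      H8PB.InGm (descVal A K₁) ((y : LaurentSeries K₁) - (y' : LaurentSeries K₁)) := by
  haveI : Fact q.Prime := ⟨hq⟩
  have hPGx := fun (x : FK K₁ (M * q)) (hx : IsInt ↥(descVal A K₁) t x) =>
    pairGauss_unr M q hq hqM hT A hA K₁ hfin ϖ hϖ t₀ ht₀ t ht x hx
  obtain ⟨z, hzF, hzG, hyz⟩ := H22RC.resDegOneStatement M q hq hqM hT A hA K₁ hfin y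
    (hPGx _ hy).1 (hPGx _ hy).2
  obtain ⟨tM, htM, -, -, -⟩ :=
    H9C6e.fieldBasics M (baseKind q) (H28PL.baseKind_ok hT) t₀ ht₀ ↥K₁
  letI algRF : Algebra ↥(descVal A K₁) (FK K₁ M) :=
    ((algebraMap K₁ (FK K₁ M)).comp (algebraMap ↥(descVal A K₁) K₁)).toAlgebra
  haveI towRF : IsScalarTower ↥(descVal A K₁) K₁ (FK K₁ M) :=
    IsScalarTower.of_algebraMap_eq (fun _ => rfl)
  have hle' : laurentBaseChange K₁ (modularFunctionFieldFull M) ≤
      laurentBaseChange K₁ (modularFunctionFieldFull (M * q)) :=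
    H28PL.laurentBaseChange_le K₁ (full_degeneracy_le (Dvd.intro q rfl))
  obtain ⟨ϖM, hϖM⟩ : ∃ ϖM : ↥(descVal A K₁), Irreducible ϖM := ⟨ϖ, hϖ⟩
  exact H12TC.resComp_generic (descVal A K₁)
    (laurentBaseChange K₁ (modularFunctionFieldFull M))
    (laurentBaseChange K₁ (modularFunctionFieldFull (M * q))) hle' tM t (htM.trans ht.symm)
    (fun x hx => (hPGx x hx).1)
    (fun y₁ n cf hcf hyG hrel =>
      levelNormal_unr M q hq hqM hT A hA K₁ hfin hζ ϖ hϖ t₀ ht₀ tM htM tM (Or.inl rfl)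
        y₁ n cf hcf hyG hrel)
    y hy z hzF hzG hyz

end H12LF

end
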