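import Fermat.Agent.S36.LocF1_helper12

/-!
# Item 86 (S36), slice (LOC-F), part 2 (helper12): the second component `C₂'` of the level `M q`
is PURELY INSEPARABLE over the level `M`

Base: any number field `K₁ ∋ ζ_{e₀}` with an automorphism `γ` inducing the Frobenius on the
residue field of `R = A ∩ K₁` (e.g. helper29's `H29DU.unrPart A K₁'`, `γ = σ|`).

* `H12LF.isInt_pow_mul_map` (generic): if `w` fixes `R` and `t^D · w t` is integral over `R[t]`,
  then for every `x` integral over `R[t]` some `t^D' · w x` is integral over `R[t]`;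
* `H12LF.pinsep_unr` : for every `y` of the chart ring of level `M q` there are `D` and `y'` of the
  chart ring, of level `M`, with `(t^D y)^q − y' ∈ P₂` (i.e. `w (…) ∈ 𝔪_{w₁}`).
-/

set_option autoImplicit false
set_option linter.style.longLine false
set_option linter.unusedSectionVars false
set_option linter.unusedVariables false
set_option linter.style.haveILetI false
set_option synthInstance.maxHeartbeats 400000
set_option maxHeartbeats 1000000

noncomputable section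

open ModularCurve H7S18 H4S34 H26DI H28GV H18R2

namespace H12LF

/-! ### `w` maps the chart ring into `M₀[1/t]` -/

section Generic

theorem isInt_algebraMap (R : Type) [CommRing R] {E : Type} [Field E] [Algebra R E] (t : E)
    (r : R) : IsInt R t (algebraMap R E r) := by
  have : algebraMap R E r = algebraMap ↥(Algebra.adjoin R {t}) E
      (algebraMap R ↥(Algebra.adjoin R {t}) r) := rfl
  rw [IsInt, this]
  exact isIntegral_algebraMap

theorem isInt_mul (R : Type) [CommRing R] {E : Type} [Field E] [Algebra R E] (t : E)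
    {x y : E} (hx : IsInt R t x) (hy : IsInt R t y) : IsInt R t (x * y) :=
  IsIntegral.mul hx hy

theorem isInt_pow (R : Type) [CommRing R] {E : Type} [Field E] [Algebra R E] (t : E)
    {x : E} (hx : IsInt R t x) (n : ℕ) : IsInt R t (x ^ n) :=
  IsIntegral.pow hx n

/-- **global form with `t`-powers**: if `w` fixes `R` and `t ^ D * w t` is integral over `R[t]`,
then `w` maps the chart ring into `M₀[1/t]`. -/
theorem isInt_pow_mul_map (R : Type) [CommRing R] {E : Type} [Field E] [Algebra R E] (t : E)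
    (ht0 : t ≠ 0) (w : E →+* E) (hR : ∀ r : R, w (algebraMap R E r) = algebraMap R E r)
    (ht : ∃ D : ℕ, IsInt R t (t ^ D * w t))
    {x : E} (hx : IsInt R t x) : ∃ D : ℕ, IsInt R t (t ^ D * w x) := by
  classical
  have hint_t : IsInt R t t := by
    have : t = algebraMap ↥(Algebra.adjoin R {t}) E ⟨t, Algebra.self_mem_adjoin_singleton _ t⟩ :=
      rfl
    rw [IsInt, this]
    exact isIntegral_algebraMap
  obtain ⟨tB, htB⟩ : ∃ tB : ↥(Chart R t), (tB : E) = t := ⟨⟨t, hint_t⟩, rfl⟩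
  obtain ⟨S, hS⟩ : ∃ S : Submonoid ↥(Chart R t), S = Submonoid.powers tB := ⟨_, rfl⟩
  have hSmem : ∀ n : ℕ, tB ^ n ∈ S := fun n => by rw [hS]; exact ⟨n, rfl⟩
  have hunit : ∀ y : S, IsUnit (algebraMap ↥(Chart R t) E (y : ↥(Chart R t))) := by
    rintro ⟨y, hy⟩
    rw [hS] at hy
    obtain ⟨n, rfl⟩ := hy
    apply IsUnit.mk0
    change ((tB ^ n : ↥(Chart R t)) : E) ≠ 0
    push_cast
    rw [htB]
    exact pow_ne_zero n ht0
  let ι : Localization S →+* E :=
    IsLocalization.lift (M := S) (g := algebraMap ↥(Chart R t) E) hunit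
  letI : Algebra (Localization S) E := ι.toAlgebra
  haveI : @IsScalarTower ↥(Chart R t) (Localization S) E Algebra.toSMul Algebra.toSMul
      Algebra.toSMul :=
    IsScalarTower.of_algebraMap_eq fun c =>
      (IsLocalization.lift_eq (M := S) hunit c).symm
  have hloc : ∀ z : E, (∃ n : ℕ, IsInt R t (t ^ n * z)) → IsIntegral (Localization S) z := by
    rintro z ⟨n, hz⟩
    have hz' : z = algebraMap (Localization S) E
        (IsLocalization.mk' (Localization S) (⟨t ^ n * z, hz⟩ : ↥(Chart R t))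
          (⟨tB ^ n, hSmem n⟩ : S)) := by
      change z = ι _
      rw [IsLocalization.lift_mk', Units.eq_mul_inv_iff_mul_eq, IsUnit.coe_liftRight]
      change z * ((tB ^ n : ↥(Chart R t)) : E) = t ^ n * z
      push_cast
      rw [htB]
      ring
    rw [hz']
    exact isIntegral_algebraMap
  have h1 : IsIntegral (Localization S) (w x) :=
    H12TC.isIntegral_map_of_forall w
      (H12TC.isIntegral_map_adjoin w t
        (fun r => hloc _ ⟨0, by rw [hR, pow_zero, one_mul]; exact isInt_algebraMap R t r⟩)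
        (hloc _ ht)) hx
  obtain ⟨m, hm⟩ := IsIntegral.exists_multiple_integral_of_isLocalization S (w x) h1
  have h2 : IsIntegral ↥(Algebra.adjoin R {t}) (m • w x) :=
    isIntegral_trans (R := ↥(Algebra.adjoin R {t})) (A := ↥(Chart R t)) _ hm
  obtain ⟨m, hmS⟩ := m
  have hmS' := hmS
  rw [hS] at hmS'
  obtain ⟨n, hn⟩ := hmS'
  refine ⟨n, ?_⟩
  have e : t ^ n * w x = (⟨m, hmS⟩ : S) • w x := by
    rw [Submonoid.smul_def, Algebra.smul_def]
    change t ^ n * w x = ((m : ↥(Chart R t)) : E) * w x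
    rw [← hn]
    push_cast
    rw [htB]
  rw [e]
  exact h2

/-- the algebraic identity behind `pinsep_unr` -/
theorem pinsep_identity {S : Type*} [CommRing S] (a b c d e : S) (D q n : ℕ) (h : q = n + 1) :
    (a ^ D * b) ^ q - a ^ (D * n) * e =
      a ^ (D * n) * ((a ^ D - (c ^ q) ^ D) * b ^ q + ((c ^ D * b) ^ q - d ^ q) + (d ^ q - e)) := by
  subst h
  ring

end Generic

/-! ### congruences in the Gauss ring -/

section GaussRing

variable {K : Type} [Field K] (R : ValuationSubring K)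

theorem inGm_sub {x y : LaurentSeries K} (hx : H8PB.InGm R x) (hy : H8PB.InGm R y) :
    H8PB.InGm R (x - y) := by
  rw [sub_eq_add_neg]
  exact H12TC.inGm_add R hx (H12TC.inGm_neg R hy)

theorem inG_of_inGm {x : LaurentSeries K} (hx : H8PB.InGm R x) : H8PB.InG R x := by
  rw [H22DC.inG_iff]
  exact ((H22DC.inGm_iff R x).mp hx).1

theorem inG_sub' {x y : LaurentSeries K} (hx : H8PB.InG R x) (hy : H8PB.InG R y) :
    H8PB.InG R (x - y) := by
  rw [H22DC.inG_iff] at hx hy ⊢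
  exact sub_mem hx hy

/-- `x ≡ y ⟹ x^n ≡ y^n` modulo `𝔪_{w₁}` -/
theorem inGm_pow_sub_pow {x y : LaurentSeries K} (hx : H8PB.InG R x) (hy : H8PB.InG R y)
    (h : H8PB.InGm R (x - y)) (n : ℕ) : H8PB.InGm R (x ^ n - y ^ n) := by
  induction n with
  | zero =>
      rw [pow_zero, pow_zero, sub_self]
      have h0 : (0 : LaurentSeries K) = (x - y) - (x - y) := by ring
      rw [h0]
      exact inGm_sub R h h
  | succ n ih =>
      have e : x ^ (n + 1) - y ^ (n + 1) = x * (x ^ n - y ^ n) + y ^ n * (x - y) := by ring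
      rw [e]
      exact H12TC.inGm_add R (H12TC.inGm_mul R hx ih) (H12TC.inGm_mul R (H12TC.inG_pow R hy n) h)

end GaussRing

/-! ### the concrete statement -/

section Concrete

local notation "Kbar" => AlgebraicClosure ℚ

/-- **(F2')** the second component of the level `M q` is purely inseparable over the level `M`:
for every `y` of the chart ring there are `D` and `y'` of the chart ring, of level `M`, with
`(t^D y)^q − y' ∈ P₂ = {x | w x ∈ 𝔪_{w₁}}`.  (`D = 0` is possible for the base function `j`.)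

`γ` is an automorphism of `K₁` which preserves `R = A ∩ K₁` and induces the Frobenius
`a ↦ a^q` on its residue field. -/
theorem pinsep_unr (M : ℕ) [NeZero M] (q : ℕ) [NeZero q] (hq : q.Prime) (hqM : ¬ q ∣ M)
    (hT : TameLevel q M)
    (A : ValuationSubring Kbar) (hA : A.LiesOverPrime q)
    (K₁ : IntermediateField ℚ Kbar) (hfin : FiniteDimensional ℚ K₁)
    (hζ : ∃ ζ : K₁, IsPrimitiveRoot ζ (branchIndex (baseKind q) M))
    (γ : K₁ ≃ₐ[ℚ] K₁)
    (hγ : ∀ a : K₁, a ∈ descVal A K₁ → γ a ∈ descVal A K₁)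
    (hγ' : ∀ a : K₁, a ∈ descVal A K₁ → γ.symm a ∈ descVal A K₁)
    (hfrob : ∀ a : K₁, a ∈ descVal A K₁ → γ a - a ^ q ∈ (descVal A K₁).nonunits)
    [Algebra ↥(descVal A K₁) (FK K₁ (M * q))]
    [IsScalarTower ↥(descVal A K₁) K₁ (FK K₁ (M * q))]
    (ϖ : ↥(descVal A K₁)) (hϖ : Irreducible ϖ)
    (t₀ : LaurentSeries ℚ) (ht₀ : IsBase (baseKind q) t₀)
    (t : FK K₁ (M * q)) (ht : (t : LaurentSeries K₁) = coeffEmb K₁ t₀)
    (y : FK K₁ (M * q)) (hy : IsInt ↥(descVal A K₁) t y) :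
    ∃ (D : ℕ) (y' : FK K₁ (M * q)), IsInt ↥(descVal A K₁) t y' ∧
      (y' : LaurentSeries K₁) ∈ laurentBaseChange ↥K₁ (modularFunctionFieldFull M) ∧
      H8PB.InGm (descVal A K₁)
        ((H12AL.wqKHom K₁ M q hq hqM ((t ^ D * y) ^ q - y') : FK K₁ (M * q)) :
          LaurentSeries K₁) := by
  classical
  haveI : Fact q.Prime := ⟨hq⟩
  obtain ⟨hperf, hcharp⟩ := H1S18.c7Perfect q A hA K₁
  haveI := hcharp
  obtain ⟨n, hn⟩ : ∃ n, q = n + 1 := ⟨q - 1, (Nat.sub_add_cancel hq.one_le).symm⟩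
  -- basics
  obtain ⟨t', ht'coe, htr, -, -⟩ :=
    H9C6e.fieldBasics (M * q) (baseKind q) (H12TC.baseKind_hi M q hT) t₀ ht₀ ↥K₁
  have htt : t' = t := Subtype.ext (ht'coe.trans ht.symm)
  rw [htt] at htr
  have ht0 : t ≠ 0 := by
    intro h
    apply htr
    rw [h]
    exact isAlgebraic_zero
  have hconst : ∀ r : ↥(descVal A K₁),
      algebraMap ↥(descVal A K₁) (FK K₁ (M * q)) r =
        algebraMap ↥K₁ (FK K₁ (M * q)) (r : ↥K₁) := fun r =>
    IsScalarTower.algebraMap_apply ↥(descVal A K₁) ↥K₁ (FK K₁ (M * q)) r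
  have hwR : ∀ r : ↥(descVal A K₁),
      H12AL.wqKHom K₁ M q hq hqM (algebraMap ↥(descVal A K₁) (FK K₁ (M * q)) r) =
        algebraMap ↥(descVal A K₁) (FK K₁ (M * q)) r := by
    intro r
    rw [hconst, H12AL.wqKHom_const]
  have hint_t : IsInt ↥(descVal A K₁) t t := by
    have : t = algebraMap ↥(Algebra.adjoin ↥(descVal A K₁) {t}) (FK K₁ (M * q))
        ⟨t, Algebra.self_mem_adjoin_singleton _ t⟩ := rfl
    rw [IsInt, this]
    exact isIntegral_algebraMap
  have htM : (t : LaurentSeries K₁) ∈ laurentBaseChange ↥K₁ (modularFunctionFieldFull M) := by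
    rw [ht]
    exact coeffEmb_mem_laurentBaseChange K₁ (H24BI.base_mem_of_tame M q hT t₀ ht₀)
  have hPG := fun (x : FK K₁ (M * q)) (hx : IsInt ↥(descVal A K₁) t x) =>
    pairGauss_unr M q hq hqM hT A hA K₁ hfin ϖ hϖ t₀ ht₀ t ht x hx
  -- `t^D w y` is integral
  obtain ⟨D, hD⟩ := isInt_pow_mul_map ↥(descVal A K₁) t ht0 (H12AL.wqKHom K₁ M q hq hqM) hwR
    (H24BI.h24bi_wq_isInt_tame K₁ M q hq hqM hT ↥(descVal A K₁) t₀ ht₀ t ht) hy
  -- residue degree one of the first component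
  obtain ⟨d, hdint, hdM, hdm⟩ := resComp_unr M q hq hqM hT A hA K₁ hfin hζ ϖ hϖ t₀ ht₀ t ht
    (t ^ D * H12AL.wqKHom K₁ M q hq hqM y) hD
  -- the twist `γ d`
  obtain ⟨τ₁, hτ₁⟩ : ∃ τ₁ : FK K₁ (M * q) ≃+* FK K₁ (M * q),
      τ₁ = arithmeticRingAut (modularFunctionFieldFull (M * q)) γ := ⟨_, rfl⟩
  have hτt : τ₁ t = t := by
    apply Subtype.ext
    rw [hτ₁, coe_arithmeticRingAut_apply, ht]
    exact H1S18.coeffMap_coeffEmb_hom _ t₀
  have hτR : ∀ r : ↥(descVal A K₁),
      τ₁ (algebraMap ↥(descVal A K₁) (FK K₁ (M * q)) r) =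
        algebraMap ↥(descVal A K₁) (FK K₁ (M * q)) ⟨γ (r : ↥K₁), hγ _ r.2⟩ := by
    intro r
    rw [hconst, hconst, hτ₁, arithmeticRingAut_algebraMap]
  have hσint : IsInt ↥(descVal A K₁) t (τ₁ d) := by
    refine H12TC.isInt_map ↥(descVal A K₁) t (τ₁ : FK K₁ (M * q) →+* FK K₁ (M * q)) ?_ ?_ hdint
    · intro r
      change IsInt ↥(descVal A K₁) t (τ₁ _)
      rw [hτR]
      exact isInt_algebraMap _ t _
    · change IsInt ↥(descVal A K₁) t (τ₁ t)
      rw [hτt]
      exact hint_t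
  have hσcoe : ((τ₁ d : FK K₁ (M * q)) : LaurentSeries K₁) =
      coeffMap (γ : ↥K₁ →+* ↥K₁) (d : LaurentSeries K₁) := by
    rw [hτ₁, coe_arithmeticRingAut_apply]
  have hσM : ((τ₁ d : FK K₁ (M * q)) : LaurentSeries K₁) ∈
      laurentBaseChange ↥K₁ (modularFunctionFieldFull M) := by
    rw [hσcoe]
    exact H1S18.coeffMap_mem_lbc _ _ hdM
  refine ⟨D, t ^ (D * n) * τ₁ d, isInt_mul _ t (isInt_pow _ t hint_t _) hσint, ?_, ?_⟩
  · have e : ((t ^ (D * n) * τ₁ d : FK K₁ (M * q)) : LaurentSeries K₁) =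
        (t : LaurentSeries K₁) ^ (D * n) * ((τ₁ d : FK K₁ (M * q)) : LaurentSeries K₁) := by
      push_cast
      rfl
    rw [e]
    exact mul_mem (pow_mem htM _) hσM
  · -- the restriction of `γ⁻¹` to `R`
    obtain ⟨sR, hsR⟩ : ∃ sR : ↥(descVal A K₁) →+* ↥(descVal A K₁),
        ∀ a : ↥(descVal A K₁), ((sR a : ↥(descVal A K₁)) : ↥K₁) =
          ((γ.symm : ↥K₁ ≃ₐ[ℚ] ↥K₁) : ↥K₁ →+* ↥K₁) (a : ↥K₁) :=
      ⟨(((γ.symm : ↥K₁ ≃ₐ[ℚ] ↥K₁) : ↥K₁ →+* ↥K₁).comp (descVal A K₁).subtype).codRestrict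
        (descVal A K₁).toSubring (fun a => hγ' _ a.2), fun a => rfl⟩
    have hfrobR : ∀ a : ↥(descVal A K₁),
        IsLocalRing.residue ↥(descVal A K₁) (sR a) ^ q =
          IsLocalRing.residue ↥(descVal A K₁) a := by
      intro a
      rw [← map_pow, eq_comm, ← sub_eq_zero, ← map_sub, IsLocalRing.residue_eq_zero_iff]
      have h := hfrob ((sR a : ↥(descVal A K₁)) : ↥K₁) (sR a).2
      have h' : (((a - sR a ^ q : ↥(descVal A K₁))) : ↥K₁) ∈ (descVal A K₁).nonunits := by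
        have e : (((a - sR a ^ q : ↥(descVal A K₁))) : ↥K₁) =
            γ ((sR a : ↥(descVal A K₁)) : ↥K₁) - ((sR a : ↥(descVal A K₁)) : ↥K₁) ^ q := by
          push_cast
          rw [hsR]
          congr 1
          exact (γ.apply_symm_apply _).symm
        rw [e]
        exact h
      exact ValuationSubring.coe_mem_nonunits_iff.mp h'
    have hfc := fun (f : LaurentSeries ↥K₁) (hf : H8PB.InG (descVal A K₁) f) =>
      H12TC.frob_congr (descVal A K₁) q ((γ.symm : ↥K₁ ≃ₐ[ℚ] ↥K₁) : ↥K₁ →+* ↥K₁) sR hsR hfrobR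
        f hf
    -- the series
    have hGt := hPG t hint_t
    have hGy := hPG y hy
    have hGd := hPG d hdint
    have hGσ := hPG (τ₁ d) hσint
    have hwt : ((H12AL.wqKHom K₁ M q hq hqM t : FK K₁ (M * q)) : LaurentSeries K₁) =
        qExpand ↥K₁ q (t : LaurentSeries K₁) :=
      H12AL.coe_wqKHom_of_level K₁ M q hq hqM t htM
    have hwσ : ((H12AL.wqKHom K₁ M q hq hqM (τ₁ d) : FK K₁ (M * q)) : LaurentSeries K₁) =
        qExpand ↥K₁ q ((τ₁ d : FK K₁ (M * q)) : LaurentSeries K₁) :=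
      H12AL.coe_wqKHom_of_level K₁ M q hq hqM (τ₁ d) hσM
    have hA1 : H8PB.InGm (descVal A K₁)
        (((H12AL.wqKHom K₁ M q hq hqM t : FK K₁ (M * q)) : LaurentSeries K₁) -
          (t : LaurentSeries K₁) ^ q) := by
      have h := hfc (t : LaurentSeries K₁) hGt.1
      have e : coeffMap ((γ.symm : ↥K₁ ≃ₐ[ℚ] ↥K₁) : ↥K₁ →+* ↥K₁) (t : LaurentSeries K₁) =
          (t : LaurentSeries K₁) := by
        rw [ht]
        exact H1S18.coeffMap_coeffEmb_hom _ t₀
      rw [e] at h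
      rw [hwt]
      exact h
    have hE : H8PB.InGm (descVal A K₁)
        (((H12AL.wqKHom K₁ M q hq hqM (τ₁ d) : FK K₁ (M * q)) : LaurentSeries K₁) -
          (d : LaurentSeries K₁) ^ q) := by
      have h := hfc ((τ₁ d : FK K₁ (M * q)) : LaurentSeries K₁) hGσ.1
      have e : coeffMap ((γ.symm : ↥K₁ ≃ₐ[ℚ] ↥K₁) : ↥K₁ →+* ↥K₁)
          ((τ₁ d : FK K₁ (M * q)) : LaurentSeries K₁) = (d : LaurentSeries K₁) := by
        rw [hσcoe, coeffMap_coeffMap]
        have : ((γ.symm : ↥K₁ ≃ₐ[ℚ] ↥K₁) : ↥K₁ →+* ↥K₁).comp (γ : ↥K₁ →+* ↥K₁) =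
            RingHom.id ↥K₁ := RingHom.ext fun a => γ.symm_apply_apply a
        rw [this]
        exact coeffMap_id _
      rw [e] at h
      rw [hwσ]
      exact h
    have hdm' : H8PB.InGm (descVal A K₁)
        ((t : LaurentSeries K₁) ^ D *
          ((H12AL.wqKHom K₁ M q hq hqM y : FK K₁ (M * q)) : LaurentSeries K₁) -
            (d : LaurentSeries K₁)) := hdm
    -- the identity
    have e : ((H12AL.wqKHom K₁ M q hq hqM ((t ^ D * y) ^ q - t ^ (D * n) * τ₁ d) :
        FK K₁ (M * q)) : LaurentSeries K₁) =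
        (((H12AL.wqKHom K₁ M q hq hqM t : FK K₁ (M * q)) : LaurentSeries K₁) ^ D *
          ((H12AL.wqKHom K₁ M q hq hqM y : FK K₁ (M * q)) : LaurentSeries K₁)) ^ q -
        ((H12AL.wqKHom K₁ M q hq hqM t : FK K₁ (M * q)) : LaurentSeries K₁) ^ (D * n) *
          ((H12AL.wqKHom K₁ M q hq hqM (τ₁ d) : FK K₁ (M * q)) : LaurentSeries K₁) := by
      rw [map_sub, map_pow, map_mul, map_mul, map_pow, map_pow]
      rfl
    rw [e, pinsep_identity _ _ (t : LaurentSeries K₁) (d : LaurentSeries K₁) _ D q n hn]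
    refine H12TC.inGm_mul _ (H12TC.inG_pow _ hGt.2 _) ?_
    refine H12TC.inGm_add _ (H12TC.inGm_add _ ?_ ?_) ?_
    · rw [mul_comm]
      exact H12TC.inGm_mul _ (H12TC.inG_pow _ hGy.2 _)
        (inGm_pow_sub_pow _ hGt.2 (H12TC.inG_pow _ hGt.1 _) hA1 D)
    · exact inGm_pow_sub_pow _ (H12TC.inG_mul _ (H12TC.inG_pow _ hGt.1 _) hGy.2) hGd.1 hdm' q
    · have e3 : (d : LaurentSeries K₁) ^ q -
          ((H12AL.wqKHom K₁ M q hq hqM (τ₁ d) : FK K₁ (M * q)) : LaurentSeries K₁) =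
          -(((H12AL.wqKHom K₁ M q hq hqM (τ₁ d) : FK K₁ (M * q)) : LaurentSeries K₁) -
            (d : LaurentSeries K₁) ^ q) := by ring
      rw [e3]
      exact H12TC.inGm_neg _ hE

end Concrete

end H12LF

end
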