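import Fermat.Agent.S36.LocF2_helper12
import Fermat.Agent.S34.Cusp0_helper7
import Fermat.Agent.S34.DichAsm_helper22

/-!
# Item 86 (S36), slice (LOC-F), part 3 (helper12): the fibres of `X₀(M q) → X₀(M)` in CHART form
(input (F) of helper6's `H6LD.DiscChartStatement`, instance (R1))

`R = descVal A K₁`, `K₁ ∋ ζ_{e₀}` any number field with a Frobenius automorphism `γ`;
lower chart `Chart R tM ⊆ FK K₁ M`, upper chart `Chart R t ⊆ FK K₁ (M q)`, `t = α tM`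
(`α = heckeAlphaBar K₁ M q`, the inclusion).

* `H12LF.resComp_lower` : `∀ y` in the upper chart `∃ a` in the LOWER chart with `y − α a ∈ 𝔪_{w₁}`;
* `H12LF.pinsep_lower`  : `t^D w y` integral ⟹ `∃ a` in the lower chart with
  `(t^D y)^q − α a ∈ P₂`;
* `H12LF.fibre_R1`      : a common point `𝔫` of `C₁'`, `C₂'` (closed point of the chart `t`) is the
  ONLY maximal ideal above its image `𝔫₀`, and it has residue degree one over `𝔫₀`.
-/

set_option autoImplicit false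
set_option linter.style.longLine false
set_option linter.unusedSectionVars false
set_option linter.unusedVariables false
set_option linter.style.haveILetI false
set_option synthInstance.maxHeartbeats 400000
set_option maxHeartbeats 1000000

noncomputable section

open ModularCurve H7S18 H4S34 H26DI H28GV H18R2

namespace H12LF

/-! ### the abstract uniqueness statement -/

section Abstract

/-- **one point above**, abstract form.  `B₀ → B` rings, `P₁, P₂` ideals of `B` with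
`P₁ ∩ P₂ ⊆ ϖ B`, `ϖ ∈ P₁`; `B = B₀ + P₁` (residue degree one), and for every `y ∈ B` some
`(s y)^q ∈ B₀ + P₂` with `s ∉ 𝔫` (pure inseparability).  Then a maximal ideal `𝔫 ⊇ P₁ + P₂` is
the only maximal ideal of `B` above the maximal ideal `𝔫₀` of `B₀`. -/
theorem fibre_unique_abs {B₀ B : Type*} [CommRing B₀] [CommRing B] (up : B₀ →+* B)
    (P₁ P₂ : Ideal B) (ϖ : B₀)
    (hcap : ∀ y : B, y ∈ P₁ → y ∈ P₂ → ∃ a : B, y = up ϖ * a)
    (hϖ1 : up ϖ ∈ P₁) (q : ℕ) (hq : 0 < q)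
    (hdeg : ∀ y : B, ∃ a : B₀, y - up a ∈ P₁)
    (𝔫₀ : Ideal B₀) (h𝔫₀ : 𝔫₀.IsMaximal)
    (𝔫 : Ideal B) (h𝔫 : 𝔫.IsMaximal) (hab : ∀ a ∈ 𝔫₀, up a ∈ 𝔫)
    (hP1 : P₁ ≤ 𝔫) (hP2 : P₂ ≤ 𝔫)
    (hins : ∀ y : B, ∃ (s : B) (a : B₀), s ∉ 𝔫 ∧ (s * y) ^ q - up a ∈ P₂)
    (𝔫' : Ideal B) (h𝔫' : 𝔫'.IsMaximal) (hab' : ∀ a ∈ 𝔫₀, up a ∈ 𝔫') : 𝔫' = 𝔫 := by
  classical
  haveI := h𝔫.isPrime
  haveI := h𝔫'.isPrime
  have hcontr : ∀ 𝔪 : Ideal B, 𝔪 ≠ ⊤ → (∀ a ∈ 𝔫₀, up a ∈ 𝔪) → ∀ a, up a ∈ 𝔪 → a ∈ 𝔫₀ := by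
    intro 𝔪 h𝔪 hin a ha
    by_contra hna
    obtain ⟨b, c, hc, hbc⟩ := h𝔫₀.exists_inv hna
    apply h𝔪
    rw [Ideal.eq_top_iff_one]
    have e : (1 : B) = up b * up a + up c := by
      rw [← map_mul, ← map_add, hbc, map_one]
    rw [e]
    exact 𝔪.add_mem (𝔪.mul_mem_left _ ha) (hin c hc)
  have hc𝔫 := hcontr 𝔫 h𝔫.ne_top hab
  have hc𝔫' := hcontr 𝔫' h𝔫'.ne_top hab'
  have hϖ𝔫' : up ϖ ∈ 𝔫' := hab' _ (hc𝔫 _ (hP1 hϖ1))
  have hcomp : P₁ ≤ 𝔫' ∨ P₂ ≤ 𝔫' := by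
    by_contra hcon
    push Not at hcon
    obtain ⟨hn1, hn2⟩ := hcon
    obtain ⟨y₁, hy₁, hy₁'⟩ := SetLike.not_le_iff_exists.mp hn1
    obtain ⟨y₂, hy₂, hy₂'⟩ := SetLike.not_le_iff_exists.mp hn2
    obtain ⟨a, ha⟩ := hcap (y₁ * y₂) (P₁.mul_mem_right _ hy₁) (P₂.mul_mem_left _ hy₂)
    have hmem : y₁ * y₂ ∈ 𝔫' := by
      rw [ha]
      exact 𝔫'.mul_mem_right _ hϖ𝔫'
    rcases Ideal.IsPrime.mem_or_mem ‹𝔫'.IsPrime› hmem with h | h
    · exact hy₁' h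
    · exact hy₂' h
  refine h𝔫'.eq_of_le h𝔫.ne_top ?_
  intro y hy
  rcases hcomp with hc1 | hc2
  · obtain ⟨a, ha⟩ := hdeg y
    have h3 : up a ∈ 𝔫' := by
      have e : up a = y - (y - up a) := by ring
      rw [e]
      exact sub_mem hy (hc1 ha)
    have h4 : up a ∈ 𝔫 := hab a (hc𝔫' a h3)
    have e : y = up a + (y - up a) := by ring
    rw [e]
    exact 𝔫.add_mem h4 (hP1 ha)
  · obtain ⟨s, a, hs, ha⟩ := hins y
    have h3 : up a ∈ 𝔫' := by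
      have e : up a = (s * y) ^ q - ((s * y) ^ q - up a) := by ring
      rw [e]
      exact sub_mem (𝔫'.pow_mem_of_mem (𝔫'.mul_mem_left _ hy) q hq) (hc2 ha)
    have h4 : up a ∈ 𝔫 := hab a (hc𝔫' a h3)
    have h5 : (s * y) ^ q ∈ 𝔫 := by
      have e : (s * y) ^ q = up a + ((s * y) ^ q - up a) := by ring
      rw [e]
      exact 𝔫.add_mem h4 (hP2 ha)
    have h6 : s * y ∈ 𝔫 := Ideal.IsPrime.mem_of_pow_mem ‹𝔫.IsPrime› q h5
    rcases Ideal.IsPrime.mem_or_mem ‹𝔫.IsPrime› h6 with h | h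
    · exact absurd h hs
    · exact h

end Abstract

/-! ### the generic residue comparison, with the element of the lower level -/

section Generic

variable {K : Type} [Field K] (R : ValuationSubring K)

/-- **residue comparison, generic form, lower level**: as `H12TC.resComp_generic`, but the
output is the element `d` of the lower field `F`, integral over `R[t]` THERE. -/
theorem resComp_generic_lower (F E : IntermediateField K (LaurentSeries K)) (hFE : F ≤ E)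
    [Algebra ↥R ↥F] [IsScalarTower ↥R K ↥F] [Algebra ↥R ↥E] [IsScalarTower ↥R K ↥E]
    (tF : ↥F) (tE : ↥E) (htFE : (tF : LaurentSeries K) = (tE : LaurentSeries K))
    (hInG : ∀ x : ↥E, IsInt ↥R tE x → H8PB.InG R (x : LaurentSeries K))
    (hLN : ∀ (y : ↥F) (n : ℕ) (cf : ℕ → ↥F),
      (∀ i, cf i ∈ Algebra.adjoin ↥R {tF}) →
      H8PB.InG R (y : LaurentSeries K) →
      H8PB.InGm R (((y ^ n + ∑ i ∈ Finset.range n, cf i * y ^ i : ↥F)) : LaurentSeries K) →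
      ∃ d : ↥F, IsInt ↥R tF d ∧
        H8PB.InGm R (((y - d : ↥F)) : LaurentSeries K))
    (y : ↥E) (hy : IsInt ↥R tE y)
    (z : LaurentSeries K) (hzF : z ∈ F) (hzG : H8PB.InG R z)
    (hyz : H8PB.InGm R ((y : LaurentSeries K) - z)) :
    ∃ d : ↥F, IsInt ↥R tF d ∧
      H8PB.InGm R ((y : LaurentSeries K) - (d : LaurentSeries K)) := by
  classical
  have hyG : H8PB.InG R (y : LaurentSeries K) := hInG y hy
  obtain ⟨p, hp, hpy⟩ := hy
  have hex : ∀ i : ℕ, ∃ P : Polynomial ↥R,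
      Polynomial.aeval tE P = ((p.coeff i : ↥(Algebra.adjoin ↥R {tE})) : ↥E) := fun i =>
    Algebra.adjoin_mem_exists_aeval ↥R tE (p.coeff i).2
  choose Pf hPf using hex
  have hcfmem : ∀ i, Polynomial.aeval tF (Pf i) ∈ Algebra.adjoin ↥R {tF} := fun i =>
    Polynomial.aeval_mem_adjoin_singleton ↥R tF
  have hacoe : ∀ i, ((Polynomial.aeval tF (Pf i) : ↥F) : LaurentSeries K) =
      (((p.coeff i : ↥(Algebra.adjoin ↥R {tE})) : ↥E) : LaurentSeries K) := by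
    intro i
    rw [← hPf i, H12TC.coe_aeval R F tF, H12TC.coe_aeval R E tE, htFE]
  have haG : ∀ i, H8PB.InG R ((Polynomial.aeval tF (Pf i) : ↥F) : LaurentSeries K) := by
    intro i
    rw [hacoe]
    apply hInG
    have : ((p.coeff i : ↥(Algebra.adjoin ↥R {tE})) : ↥E) =
        algebraMap ↥(Algebra.adjoin ↥R {tE}) ↥E (p.coeff i) := rfl
    rw [IsInt, this]
    exact isIntegral_algebraMap
  have hrelE : y ^ p.natDegree + ∑ i ∈ Finset.range p.natDegree,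
      ((p.coeff i : ↥(Algebra.adjoin ↥R {tE})) : ↥E) * y ^ i = 0 := by
    have h1 := hpy
    rw [Polynomial.eval₂_eq_sum_range, Finset.sum_range_succ] at h1
    have h2 : p.coeff p.natDegree = 1 := hp.coeff_natDegree
    rw [h2, map_one, one_mul] at h1
    rw [add_comm]
    exact h1
  have hrel : (y : LaurentSeries K) ^ p.natDegree + ∑ i ∈ Finset.range p.natDegree,
      ((Polynomial.aeval tF (Pf i) : ↥F) : LaurentSeries K) * (y : LaurentSeries K) ^ i = 0 := by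
    have h1 : ((y ^ p.natDegree + ∑ i ∈ Finset.range p.natDegree,
        ((p.coeff i : ↥(Algebra.adjoin ↥R {tE})) : ↥E) * y ^ i : ↥E) : LaurentSeries K) =
        ((0 : ↥E) : LaurentSeries K) := congrArg Subtype.val hrelE
    push_cast at h1
    rw [← h1]
    congr 1
    refine Finset.sum_congr rfl (fun i _ => ?_)
    rw [hacoe]
  have hrelz := H12TC.inGm_rel R hyG hzG hyz p.natDegree
    (fun i => ((Polynomial.aeval tF (Pf i) : ↥F) : LaurentSeries K)) haG hrel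
  have hLN' := hLN ⟨z, hzF⟩ p.natDegree (fun i => Polynomial.aeval tF (Pf i)) hcfmem hzG (by
    have : (((⟨z, hzF⟩ : ↥F) ^ p.natDegree + ∑ i ∈ Finset.range p.natDegree,
        Polynomial.aeval tF (Pf i) * (⟨z, hzF⟩ : ↥F) ^ i : ↥F) : LaurentSeries K) =
        z ^ p.natDegree + ∑ i ∈ Finset.range p.natDegree,
          ((Polynomial.aeval tF (Pf i) : ↥F) : LaurentSeries K) * z ^ i := by
      push_cast
      rfl
    rw [this]
    exact hrelz)
  obtain ⟨d, hdint, hdz⟩ := hLN'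
  refine ⟨d, hdint, ?_⟩
  have e : (y : LaurentSeries K) - (d : LaurentSeries K) =
      ((y : LaurentSeries K) - z) + (z - (d : LaurentSeries K)) := by ring
  rw [e]
  exact H12TC.inGm_add R hyz hdz

/-- integrality goes up along the inclusion `F ≤ E` -/
theorem isInt_up (F E : IntermediateField K (LaurentSeries K)) (hFE : F ≤ E)
    [Algebra ↥R ↥F] [IsScalarTower ↥R K ↥F] [Algebra ↥R ↥E] [IsScalarTower ↥R K ↥E]
    (tF : ↥F) (tE : ↥E) (htFE : (tF : LaurentSeries K) = (tE : LaurentSeries K))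
    (d : ↥F) (hd : IsInt ↥R tF d) (dE : ↥E) (hdE : (dE : LaurentSeries K) = (d : LaurentSeries K)) :
    IsInt ↥R tE dE := by
  set ι : ↥F →+* ↥E := (IntermediateField.inclusion hFE).toRingHom with hι
  have hιR : ∀ r : ↥R, ι (algebraMap ↥R ↥F r) = algebraMap ↥R ↥E r := by
    intro r
    rw [IsScalarTower.algebraMap_apply ↥R K ↥F, IsScalarTower.algebraMap_apply ↥R K ↥E]
    exact (IntermediateField.inclusion hFE).commutes _
  have hιt : ι tF = tE := Subtype.ext htFE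
  have hint_t : IsInt ↥R tE tE := by
    show IsIntegral ↥(Algebra.adjoin ↥R {tE}) (algebraMap ↥(Algebra.adjoin ↥R {tE}) ↥E
        ⟨tE, Algebra.self_mem_adjoin_singleton _ tE⟩)
    exact isIntegral_algebraMap
  have hdd : dE = ι d := Subtype.ext hdE
  rw [hdd]
  refine H12TC.isIntegral_hom_of_forall ι (H12TC.isIntegral_hom_adjoin ι tF ?_ ?_) hd
  · intro r
    rw [hιR]
    exact isInt_algebraMap ↥R tE r
  · rw [hιt]
    exact hint_t

end Generic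

/-! ### the concrete statements at the level `M q` -/

section Concrete

local notation "Kbar" => AlgebraicClosure ℚ

variable (M : ℕ) [NeZero M] (q : ℕ) [NeZero q] (hq : q.Prime) (hqM : ¬ q ∣ M)
  (hT : TameLevel q M)
  (A : ValuationSubring Kbar) (hA : A.LiesOverPrime q)
  (K₁ : IntermediateField ℚ Kbar) (hfin : FiniteDimensional ℚ K₁)
  (hζ : ∃ ζ : K₁, IsPrimitiveRoot ζ (branchIndex (baseKind q) M))
  [Algebra ↥(descVal A K₁) (FK K₁ M)] [IsScalarTower ↥(descVal A K₁) K₁ (FK K₁ M)]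
  [Algebra ↥(descVal A K₁) (FK K₁ (M * q))]
  [IsScalarTower ↥(descVal A K₁) K₁ (FK K₁ (M * q))]
  (ϖ : ↥(descVal A K₁)) (hϖ : Irreducible ϖ)
  (t₀ : LaurentSeries ℚ) (ht₀ : IsBase (baseKind q) t₀)
  (tM : FK K₁ M) (htM : (tM : LaurentSeries K₁) = coeffEmb K₁ t₀)
  (t : FK K₁ (M * q)) (ht : (t : LaurentSeries K₁) = coeffEmb K₁ t₀)

include hT hA hfin hϖ ht₀ htM ht in
/-- integrality goes up from the level `M` to the level `M q` -/
theorem isInt_alpha (a : FK K₁ M) (ha : IsInt ↥(descVal A K₁) tM a) :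
    IsInt ↥(descVal A K₁) t (heckeAlphaBar K₁ M q a) :=
  isInt_up (descVal A K₁) (laurentBaseChange K₁ (modularFunctionFieldFull M))
    (laurentBaseChange K₁ (modularFunctionFieldFull (M * q)))
    (H28PL.laurentBaseChange_le K₁ (full_degeneracy_le (Dvd.intro q rfl))) tM t
    (htM.trans ht.symm) a ha _ (coe_heckeAlphaBar M q a)

include hq hqM hT hA hfin hζ hϖ ht₀ htM ht in
/-- **(F1'), lower form**: every element of the chart ring of level `M q` is congruent modulo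
`𝔪_{w₁}` to an element of the chart ring of level `M`. -/
theorem resComp_lower (y : FK K₁ (M * q)) (hy : IsInt ↥(descVal A K₁) t y) :
    ∃ a : FK K₁ M, IsInt ↥(descVal A K₁) tM a ∧
      H8PB.InGm (descVal A K₁) ((y : LaurentSeries K₁) - (a : LaurentSeries K₁)) := by
  haveI : Fact q.Prime := ⟨hq⟩
  have hPGx := fun (x : FK K₁ (M * q)) (hx : IsInt ↥(descVal A K₁) t x) =>
    pairGauss_unr M q hq hqM hT A hA K₁ hfin ϖ hϖ t₀ ht₀ t ht x hx
  obtain ⟨z, hzF, hzG, hyz⟩ := H22RC.resDegOneStatement M q hq hqM hT A hA K₁ hfin y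
    (hPGx _ hy).1 (hPGx _ hy).2
  have hle' : laurentBaseChange K₁ (modularFunctionFieldFull M) ≤
      laurentBaseChange K₁ (modularFunctionFieldFull (M * q)) :=
    H28PL.laurentBaseChange_le K₁ (full_degeneracy_le (Dvd.intro q rfl))
  exact resComp_generic_lower (descVal A K₁)
    (laurentBaseChange K₁ (modularFunctionFieldFull M))
    (laurentBaseChange K₁ (modularFunctionFieldFull (M * q))) hle' tM t (htM.trans ht.symm)
    (fun x hx => (hPGx x hx).1)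
    (fun y₁ n cf hcf hyG hrel =>
      levelNormal_unr M q hq hqM hT A hA K₁ hfin hζ ϖ hϖ t₀ ht₀ tM htM tM (Or.inl rfl)
        y₁ n cf hcf hyG hrel)
    y hy z hzF hzG hyz

include hT hA hfin hϖ ht₀ ht in
/-- the computation behind the pure inseparability: `d ≡ t^D w y` modulo `𝔪_{w₁}`, `σd = γ d` of
level `M`; then `w ((t^D y)^q − t^(D n) σd) ∈ 𝔪_{w₁}` (`q = n + 1`). -/
theorem pinsep_final (γ : K₁ ≃ₐ[ℚ] K₁)
    (hγ' : ∀ a : K₁, a ∈ descVal A K₁ → γ.symm a ∈ descVal A K₁)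
    (hfrob : ∀ a : K₁, a ∈ descVal A K₁ → γ a - a ^ q ∈ (descVal A K₁).nonunits)
    (n : ℕ) (hn : q = n + 1)
    (y : FK K₁ (M * q)) (hy : IsInt ↥(descVal A K₁) t y) (D : ℕ)
    (d : LaurentSeries K₁) (hdG : H8PB.InG (descVal A K₁) d)
    (hdm : H8PB.InGm (descVal A K₁)
      ((t : LaurentSeries K₁) ^ D *
        ((H12AL.wqKHom K₁ M q hq hqM y : FK K₁ (M * q)) : LaurentSeries K₁) - d))
    (σd : FK K₁ (M * q)) (hσint : IsInt ↥(descVal A K₁) t σd)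
    (hσM : (σd : LaurentSeries K₁) ∈ laurentBaseChange ↥K₁ (modularFunctionFieldFull M))
    (hσcoe : (σd : LaurentSeries K₁) = coeffMap (γ : ↥K₁ →+* ↥K₁) d) :
    H8PB.InGm (descVal A K₁)
      ((H12AL.wqKHom K₁ M q hq hqM ((t ^ D * y) ^ q - t ^ (D * n) * σd) : FK K₁ (M * q)) :
        LaurentSeries K₁) := by
  classical
  haveI : Fact q.Prime := ⟨hq⟩
  obtain ⟨hperf, hcharp⟩ := H1S18.c7Perfect q A hA K₁
  haveI := hcharp
  have hint_t : IsInt ↥(descVal A K₁) t t := by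
    have : t = algebraMap ↥(Algebra.adjoin ↥(descVal A K₁) {t}) (FK K₁ (M * q))
        ⟨t, Algebra.self_mem_adjoin_singleton _ t⟩ := rfl
    rw [IsInt, this]
    exact isIntegral_algebraMap
  have htM' : (t : LaurentSeries K₁) ∈ laurentBaseChange ↥K₁ (modularFunctionFieldFull M) := by
    rw [ht]
    exact coeffEmb_mem_laurentBaseChange K₁ (H24BI.base_mem_of_tame M q hT t₀ ht₀)
  have hPG := fun (x : FK K₁ (M * q)) (hx : IsInt ↥(descVal A K₁) t x) =>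
    pairGauss_unr M q hq hqM hT A hA K₁ hfin ϖ hϖ t₀ ht₀ t ht x hx
  -- the restriction of `γ⁻¹` to `R`
  obtain ⟨sR, hsR⟩ : ∃ sR : ↥(descVal A K₁) →+* ↥(descVal A K₁),
      ∀ a : ↥(descVal A K₁), ((sR a : ↥(descVal A K₁)) : ↥K₁) =
        ((γ.symm : ↥K₁ ≃ₐ[ℚ] ↥K₁) : ↥K₁ →+* ↥K₁) (a : ↥K₁) :=
    ⟨(((γ.symm : ↥K₁ ≃ₐ[ℚ] ↥K₁) : ↥K₁ →+* ↥K₁).comp (descVal A K₁).subtype).codRestrict
      (descVal A K₁).toSubring (fun a => hγ' _ a.2), fun a => rfl⟩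
  have hfrobR : ∀ a : ↥(descVal A K₁),
      IsLocalRing.residue ↥(descVal A K₁) (sR a) ^ q =
        IsLocalRing.residue ↥(descVal A K₁) a := by
    intro a
    rw [← map_pow, eq_comm, ← sub_eq_zero, ← map_sub, IsLocalRing.residue_eq_zero_iff]
    have h := hfrob ((sR a : ↥(descVal A K₁)) : ↥K₁) (sR a).2
    have h' : (((a - sR a ^ q : ↥(descVal A K₁))) : ↥K₁) ∈ (descVal A K₁).nonunits := by
      have e : (((a - sR a ^ q : ↥(descVal A K₁))) : ↥K₁) =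
          γ ((sR a : ↥(descVal A K₁)) : ↥K₁) - ((sR a : ↥(descVal A K₁)) : ↥K₁) ^ q := by
        push_cast
        rw [hsR]
        congr 1
        exact (γ.apply_symm_apply _).symm
      rw [e]
      exact h
    exact ValuationSubring.coe_mem_nonunits_iff.mp h'
  have hfc := fun (f : LaurentSeries ↥K₁) (hf : H8PB.InG (descVal A K₁) f) =>
    H12TC.frob_congr (descVal A K₁) q ((γ.symm : ↥K₁ ≃ₐ[ℚ] ↥K₁) : ↥K₁ →+* ↥K₁) sR hsR hfrobR
      f hf
  -- the series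
  have hGt := hPG t hint_t
  have hGy := hPG y hy
  have hGσ := hPG σd hσint
  have hwt : ((H12AL.wqKHom K₁ M q hq hqM t : FK K₁ (M * q)) : LaurentSeries K₁) =
      qExpand ↥K₁ q (t : LaurentSeries K₁) :=
    H12AL.coe_wqKHom_of_level K₁ M q hq hqM t htM'
  have hwσ : ((H12AL.wqKHom K₁ M q hq hqM σd : FK K₁ (M * q)) : LaurentSeries K₁) =
      qExpand ↥K₁ q (σd : LaurentSeries K₁) :=
    H12AL.coe_wqKHom_of_level K₁ M q hq hqM σd hσM
  have hA1 : H8PB.InGm (descVal A K₁)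
      (((H12AL.wqKHom K₁ M q hq hqM t : FK K₁ (M * q)) : LaurentSeries K₁) -
        (t : LaurentSeries K₁) ^ q) := by
    have h := hfc (t : LaurentSeries K₁) hGt.1
    have e : coeffMap ((γ.symm : ↥K₁ ≃ₐ[ℚ] ↥K₁) : ↥K₁ →+* ↥K₁) (t : LaurentSeries K₁) =
        (t : LaurentSeries K₁) := by
      rw [ht]
      exact H1S18.coeffMap_coeffEmb_hom _ t₀
    rw [e] at h
    rw [hwt]
    exact h
  have hE : H8PB.InGm (descVal A K₁)
      (((H12AL.wqKHom K₁ M q hq hqM σd : FK K₁ (M * q)) : LaurentSeries K₁) - d ^ q) := by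
    have h := hfc (σd : LaurentSeries K₁) hGσ.1
    have e : coeffMap ((γ.symm : ↥K₁ ≃ₐ[ℚ] ↥K₁) : ↥K₁ →+* ↥K₁) (σd : LaurentSeries K₁) = d := by
      rw [hσcoe, coeffMap_coeffMap]
      have : ((γ.symm : ↥K₁ ≃ₐ[ℚ] ↥K₁) : ↥K₁ →+* ↥K₁).comp (γ : ↥K₁ →+* ↥K₁) =
          RingHom.id ↥K₁ := RingHom.ext fun a => γ.symm_apply_apply a
      rw [this]
      exact coeffMap_id _
    rw [e] at h
    rw [hwσ]
    exact h
  have e : ((H12AL.wqKHom K₁ M q hq hqM ((t ^ D * y) ^ q - t ^ (D * n) * σd) :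
      FK K₁ (M * q)) : LaurentSeries K₁) =
      (((H12AL.wqKHom K₁ M q hq hqM t : FK K₁ (M * q)) : LaurentSeries K₁) ^ D *
        ((H12AL.wqKHom K₁ M q hq hqM y : FK K₁ (M * q)) : LaurentSeries K₁)) ^ q -
      ((H12AL.wqKHom K₁ M q hq hqM t : FK K₁ (M * q)) : LaurentSeries K₁) ^ (D * n) *
        ((H12AL.wqKHom K₁ M q hq hqM σd : FK K₁ (M * q)) : LaurentSeries K₁) := by
    rw [map_sub, map_pow, map_mul, map_mul, map_pow, map_pow]
    rfl
  rw [e, pinsep_identity _ _ (t : LaurentSeries K₁) d _ D q n hn]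
  refine H12TC.inGm_mul _ (H12TC.inG_pow _ hGt.2 _) ?_
  refine H12TC.inGm_add _ (H12TC.inGm_add _ ?_ ?_) ?_
  · rw [mul_comm]
    exact H12TC.inGm_mul _ (H12TC.inG_pow _ hGy.2 _)
      (inGm_pow_sub_pow _ hGt.2 (H12TC.inG_pow _ hGt.1 _) hA1 D)
  · exact inGm_pow_sub_pow _ (H12TC.inG_mul _ (H12TC.inG_pow _ hGt.1 _) hGy.2) hdG hdm q
  · have e3 : d ^ q -
        ((H12AL.wqKHom K₁ M q hq hqM σd : FK K₁ (M * q)) : LaurentSeries K₁) =
        -(((H12AL.wqKHom K₁ M q hq hqM σd : FK K₁ (M * q)) : LaurentSeries K₁) - d ^ q) := by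
      ring
    rw [e3]
    exact H12TC.inGm_neg _ hE

include hq hqM hT hA hfin hζ hϖ ht₀ htM ht in
/-- **(F2'), lower form**: if `t^D w y` is integral over `R[t]`, there is `a` in the chart ring
of level `M` with `(t^D y)^q − α a ∈ P₂`. -/
theorem pinsep_lower (γ : K₁ ≃ₐ[ℚ] K₁)
    (hγ : ∀ a : K₁, a ∈ descVal A K₁ → γ a ∈ descVal A K₁)
    (hγ' : ∀ a : K₁, a ∈ descVal A K₁ → γ.symm a ∈ descVal A K₁)
    (hfrob : ∀ a : K₁, a ∈ descVal A K₁ → γ a - a ^ q ∈ (descVal A K₁).nonunits)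
    (y : FK K₁ (M * q)) (hy : IsInt ↥(descVal A K₁) t y) (D : ℕ)
    (hD : IsInt ↥(descVal A K₁) t (t ^ D * H12AL.wqKHom K₁ M q hq hqM y)) :
    ∃ a : FK K₁ M, IsInt ↥(descVal A K₁) tM a ∧
      H8PB.InGm (descVal A K₁)
        ((H12AL.wqKHom K₁ M q hq hqM ((t ^ D * y) ^ q - heckeAlphaBar K₁ M q a) :
          FK K₁ (M * q)) : LaurentSeries K₁) := by
  classical
  haveI : Fact q.Prime := ⟨hq⟩
  obtain ⟨n, hn⟩ : ∃ n, q = n + 1 := ⟨q - 1, (Nat.sub_add_cancel hq.one_le).symm⟩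
  obtain ⟨d₀, hd₀int, hdm⟩ := resComp_lower M q hq hqM hT A hA K₁ hfin hζ ϖ hϖ t₀ ht₀ tM htM
    t ht (t ^ D * H12AL.wqKHom K₁ M q hq hqM y) hD
  have hup := fun (a : FK K₁ M) (ha : IsInt ↥(descVal A K₁) tM a) =>
    isInt_alpha M q hT A hA K₁ hfin ϖ hϖ t₀ ht₀ tM htM t ht a ha
  have hPG := fun (x : FK K₁ (M * q)) (hx : IsInt ↥(descVal A K₁) t x) =>
    pairGauss_unr M q hq hqM hT A hA K₁ hfin ϖ hϖ t₀ ht₀ t ht x hx
  have hconstM : ∀ r : ↥(descVal A K₁),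
      algebraMap ↥(descVal A K₁) (FK K₁ M) r = algebraMap ↥K₁ (FK K₁ M) (r : ↥K₁) := fun r =>
    IsScalarTower.algebraMap_apply ↥(descVal A K₁) ↥K₁ (FK K₁ M) r
  have hint_tM : IsInt ↥(descVal A K₁) tM tM := by
    have : tM = algebraMap ↥(Algebra.adjoin ↥(descVal A K₁) {tM}) (FK K₁ M)
        ⟨tM, Algebra.self_mem_adjoin_singleton _ tM⟩ := rfl
    rw [IsInt, this]
    exact isIntegral_algebraMap
  obtain ⟨τM, hτM⟩ : ∃ τM : FK K₁ M ≃+* FK K₁ M,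
      τM = arithmeticRingAut (modularFunctionFieldFull M) γ := ⟨_, rfl⟩
  have hτt : τM tM = tM := by
    apply Subtype.ext
    rw [hτM, coe_arithmeticRingAut_apply, htM]
    exact H1S18.coeffMap_coeffEmb_hom _ t₀
  have hτR : ∀ r : ↥(descVal A K₁),
      τM (algebraMap ↥(descVal A K₁) (FK K₁ M) r) =
        algebraMap ↥(descVal A K₁) (FK K₁ M) ⟨γ (r : ↥K₁), hγ _ r.2⟩ := by
    intro r
    rw [hconstM, hconstM, hτM, arithmeticRingAut_algebraMap]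
  have hτint : IsInt ↥(descVal A K₁) tM (τM d₀) := by
    refine H12TC.isInt_map ↥(descVal A K₁) tM (τM : FK K₁ M →+* FK K₁ M) ?_ ?_ hd₀int
    · intro r
      change IsInt ↥(descVal A K₁) tM (τM _)
      rw [hτR]
      exact isInt_algebraMap _ tM _
    · change IsInt ↥(descVal A K₁) tM (τM tM)
      rw [hτt]
      exact hint_tM
  refine ⟨tM ^ (D * n) * τM d₀, isInt_mul _ tM (isInt_pow _ tM hint_tM _) hτint, ?_⟩
  have hy' : heckeAlphaBar K₁ M q (tM ^ (D * n) * τM d₀) =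
      t ^ (D * n) * heckeAlphaBar K₁ M q (τM d₀) := by
    rw [map_mul, map_pow]
    congr 2
    apply Subtype.ext
    rw [coe_heckeAlphaBar, htM, ht]
  rw [hy']
  have hdG : H8PB.InG (descVal A K₁) (d₀ : LaurentSeries K₁) := by
    have := (hPG _ (hup d₀ hd₀int)).1
    rwa [coe_heckeAlphaBar] at this
  refine pinsep_final M q hq hqM hT A hA K₁ hfin ϖ hϖ t₀ ht₀ t ht γ hγ' hfrob n hn y hy D
    (d₀ : LaurentSeries K₁) hdG hdm (heckeAlphaBar K₁ M q (τM d₀)) (hup _ hτint) ?_ ?_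
  · rw [coe_heckeAlphaBar]
    exact (τM d₀).2
  · rw [coe_heckeAlphaBar, hτM, coe_arithmeticRingAut_apply]

include hq hqM hT hA hfin hζ hϖ ht₀ htM ht in
/-- **residue degree one at the points of `C₁'`**, in chart form: for every maximal ideal
`𝔫 ⊇ P₁` of the upper chart, the chart ring of level `M` surjects onto the residue field. -/
theorem resdeg_C1 (P₁ : Ideal (Chart ↥(descVal A K₁) t)) (h1 : IsComp1 A K₁ t P₁)
    (𝔫 : Ideal (Chart ↥(descVal A K₁) t)) (hP1 : P₁ ≤ 𝔫) (y : Chart ↥(descVal A K₁) t) :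
    ∃ (a : Chart ↥(descVal A K₁) tM) (y' : Chart ↥(descVal A K₁) t),
      (y' : FK K₁ (M * q)) = heckeAlphaBar K₁ M q (a : FK K₁ M) ∧ y - y' ∈ 𝔫 := by
  obtain ⟨a, haint, ha⟩ := resComp_lower M q hq hqM hT A hA K₁ hfin hζ ϖ hϖ t₀ ht₀ tM htM
    t ht (y : FK K₁ (M * q)) y.2
  refine ⟨⟨a, haint⟩, ⟨heckeAlphaBar K₁ M q a,
    isInt_alpha M q hT A hA K₁ hfin ϖ hϖ t₀ ht₀ tM htM t ht a haint⟩, rfl, hP1 ?_⟩
  rw [h1]
  have e : (((y - ⟨heckeAlphaBar K₁ M q a,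
      isInt_alpha M q hT A hA K₁ hfin ϖ hϖ t₀ ht₀ tM htM t ht a haint⟩ :
      Chart ↥(descVal A K₁) t) : FK K₁ (M * q)) : LaurentSeries K₁) =
      ((y : FK K₁ (M * q)) : LaurentSeries K₁) - (a : LaurentSeries K₁) := by
    push_cast
    rw [coe_heckeAlphaBar]
  rw [e]
  exact ha

include hq hqM hT hA hfin hζ hϖ ht₀ htM ht in
/-- **(R1)-(F)**: a common point `𝔫` of the two components of the chart `t` of level `M q` is
the ONLY maximal ideal of the upper chart above its image `𝔫₀` in the chart of level `M`. -/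
theorem fibre_R1 (γ : K₁ ≃ₐ[ℚ] K₁)
    (hγ : ∀ a : K₁, a ∈ descVal A K₁ → γ a ∈ descVal A K₁)
    (hγ' : ∀ a : K₁, a ∈ descVal A K₁ → γ.symm a ∈ descVal A K₁)
    (hfrob : ∀ a : K₁, a ∈ descVal A K₁ → γ a - a ^ q ∈ (descVal A K₁).nonunits)
    (P₁ P₂ : Ideal (Chart ↥(descVal A K₁) t)) (h1 : IsComp1 A K₁ t P₁)
    (h2 : IsComp2 hq hqM A K₁ t P₂)
    (𝔫₀ : Ideal (Chart ↥(descVal A K₁) tM)) (h𝔫₀ : 𝔫₀.IsMaximal)
    (𝔫 : Ideal (Chart ↥(descVal A K₁) t)) (h𝔫 : 𝔫.IsMaximal)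
    (hab : ∀ y ∈ 𝔫₀, ∀ y' : Chart ↥(descVal A K₁) t,
      (y' : FK K₁ (M * q)) = heckeAlphaBar K₁ M q (y : FK K₁ M) → y' ∈ 𝔫)
    (hP1 : P₁ ≤ 𝔫) (hP2 : P₂ ≤ 𝔫)
    (𝔫' : Ideal (Chart ↥(descVal A K₁) t)) (h𝔫' : 𝔫'.IsMaximal)
    (hab' : ∀ y ∈ 𝔫₀, ∀ y' : Chart ↥(descVal A K₁) t,
      (y' : FK K₁ (M * q)) = heckeAlphaBar K₁ M q (y : FK K₁ M) → y' ∈ 𝔫') :
    𝔫' = 𝔫 := by
  classical
  haveI : Fact q.Prime := ⟨hq⟩
  haveI := h𝔫.isPrime
  have hup := fun (a : FK K₁ M) (ha : IsInt ↥(descVal A K₁) tM a) =>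
    isInt_alpha M q hT A hA K₁ hfin ϖ hϖ t₀ ht₀ tM htM t ht a ha
  -- the lift of an element of the lower chart
  obtain ⟨up, hupc⟩ : ∃ up : Chart ↥(descVal A K₁) tM →+* Chart ↥(descVal A K₁) t,
      ∀ a, ((up a : Chart ↥(descVal A K₁) t) : FK K₁ (M * q)) =
        heckeAlphaBar K₁ M q (a : FK K₁ M) :=
    ⟨(((heckeAlphaBar K₁ M q : FK K₁ M →+* FK K₁ (M * q)).comp
        (Chart ↥(descVal A K₁) tM).toSubring.subtype).codRestrict
        (Chart ↥(descVal A K₁) t).toSubring (fun a => hup _ a.2)), fun a => rfl⟩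
  -- the two components
  have hTC := H22DA.twoComp H8PB.h8pg_pairGauss M q hq hqM hT A hA K₁ hfin ϖ hϖ t₀ ht₀ t ht t
    (Or.inl rfl) P₁ P₂ h1 h2
  have hϖlow : IsInt ↥(descVal A K₁) tM (algebraMap ↥(descVal A K₁) (FK K₁ M) ϖ) :=
    isInt_algebraMap _ tM ϖ
  have hϖup : ((up ⟨_, hϖlow⟩ : Chart ↥(descVal A K₁) t) : FK K₁ (M * q)) =
      algebraMap ↥(descVal A K₁) (FK K₁ (M * q)) ϖ := by
    rw [hupc]
    change heckeAlphaBar K₁ M q (algebraMap ↥(descVal A K₁) (FK K₁ M) ϖ) = _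
    rw [IsScalarTower.algebraMap_apply ↥(descVal A K₁) ↥K₁ (FK K₁ M),
      IsScalarTower.algebraMap_apply ↥(descVal A K₁) ↥K₁ (FK K₁ (M * q))]
    exact (heckeAlphaBar K₁ M q).commutes _
  have hconst : ∀ r : ↥(descVal A K₁),
      algebraMap ↥(descVal A K₁) (FK K₁ (M * q)) r =
        algebraMap ↥K₁ (FK K₁ (M * q)) (r : ↥K₁) := fun r =>
    IsScalarTower.algebraMap_apply ↥(descVal A K₁) ↥K₁ (FK K₁ (M * q)) r
  have hwR : ∀ r : ↥(descVal A K₁),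
      H12AL.wqKHom K₁ M q hq hqM (algebraMap ↥(descVal A K₁) (FK K₁ (M * q)) r) =
        algebraMap ↥(descVal A K₁) (FK K₁ (M * q)) r := by
    intro r
    rw [hconst, H12AL.wqKHom_const]
  have hint_t : IsInt ↥(descVal A K₁) t t := by
    have : t = algebraMap ↥(Algebra.adjoin ↥(descVal A K₁) {t}) (FK K₁ (M * q))
        ⟨t, Algebra.self_mem_adjoin_singleton _ t⟩ := rfl
    rw [IsInt, this]
    exact isIntegral_algebraMap
  obtain ⟨t', ht'coe, htr, -, -⟩ :=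
    H9C6e.fieldBasics (M * q) (baseKind q) (H12TC.baseKind_hi M q hT) t₀ ht₀ ↥K₁
  have htt : t' = t := Subtype.ext (ht'coe.trans ht.symm)
  rw [htt] at htr
  have ht0 : t ≠ 0 := by
    intro h
    apply htr
    rw [h]
    exact isAlgebraic_zero
  obtain ⟨tB, htB⟩ : ∃ tB : Chart ↥(descVal A K₁) t, (tB : FK K₁ (M * q)) = t :=
    ⟨⟨t, hint_t⟩, rfl⟩
  have habN : ∀ a ∈ 𝔫₀, up a ∈ 𝔫 := fun a ha => hab a ha _ (hupc a)
  have habN' : ∀ a ∈ 𝔫₀, up a ∈ 𝔫' := fun a ha => hab' a ha _ (hupc a)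
  have hcap : ∀ y : Chart ↥(descVal A K₁) t, y ∈ P₁ → y ∈ P₂ →
      ∃ a : Chart ↥(descVal A K₁) t, y = up ⟨_, hϖlow⟩ * a := by
    intro y hy1 hy2
    obtain ⟨a, ha⟩ := hTC.cap y hy1 hy2
    refine ⟨a, Subtype.ext ?_⟩
    rw [ha]
    push_cast
    rw [hϖup]
  have hϖ1 : up ⟨_, hϖlow⟩ ∈ P₁ := (hTC.pi_mem _ hϖup).1
  have hdeg : ∀ y : Chart ↥(descVal A K₁) t, ∃ a : Chart ↥(descVal A K₁) tM,
      y - up a ∈ P₁ := by
    intro y
    obtain ⟨a, y', hy', hyy'⟩ := resdeg_C1 M q hq hqM hT A hA K₁ hfin hζ ϖ hϖ t₀ ht₀ tM htM t ht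
      P₁ h1 P₁ le_rfl y
    have hy'up : y' = up a := Subtype.ext (hy'.trans (hupc a).symm)
    exact ⟨a, hy'up ▸ hyy'⟩
  have hins : ∀ y : Chart ↥(descVal A K₁) t, ∃ (s : Chart ↥(descVal A K₁) t)
      (a : Chart ↥(descVal A K₁) tM), s ∉ 𝔫 ∧ (s * y) ^ q - up a ∈ P₂ := by
    intro y
    have hDex : ∃ D : ℕ, IsInt ↥(descVal A K₁) t
        (t ^ D * H12AL.wqKHom K₁ M q hq hqM (y : FK K₁ (M * q))) ∧ tB ^ D ∉ 𝔫 := by
      by_cases h23 : q = 2 ∨ q = 3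
      · obtain ⟨D, hD⟩ := isInt_pow_mul_map ↥(descVal A K₁) t ht0
          (H12AL.wqKHom K₁ M q hq hqM) hwR
          (H24BI.h24bi_wq_isInt_tame K₁ M q hq hqM hT ↥(descVal A K₁) t₀ ht₀ t ht) y.2
        refine ⟨D, hD, fun h => ?_⟩
        have ht𝔫 : tB ∉ 𝔫 :=
          H4S34.t_notMem_of_cusp0 H7C0.compCusp0Statement M q hq hqM hT h23 A hA K₁ hfin ϖ hϖ
            t₀ ht₀ t ht P₁ P₂ h1 h2 𝔫
            ⟨h𝔫, fun z hz => hP1 (hTC.pi_mem z hz).1⟩ hP1 hP2 _ htB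
        exact ht𝔫 (Ideal.IsPrime.mem_of_pow_mem ‹𝔫.IsPrime› D h)
      · have hk : IsBase 1 t₀ := by
          have := H12TC.baseKind_eq_one q h23
          rwa [this] at ht₀
        have hI := H12TC.wq_isInt_kind1 K₁ M q hq hqM ↥(descVal A K₁) t₀ hk t ht
        refine ⟨0, ?_, ?_⟩
        · rw [pow_zero, one_mul]
          refine H12TC.isInt_map ↥(descVal A K₁) t (H12AL.wqKHom K₁ M q hq hqM) ?_ hI y.2
          intro r
          rw [hwR]
          exact isInt_algebraMap _ t r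
        · rw [pow_zero]
          exact (Ideal.ne_top_iff_one 𝔫).mp h𝔫.ne_top
    obtain ⟨D, hD, htD⟩ := hDex
    obtain ⟨a, haint, ha⟩ := pinsep_lower M q hq hqM hT A hA K₁ hfin hζ ϖ hϖ t₀ ht₀ tM htM t ht
      γ hγ hγ' hfrob (y : FK K₁ (M * q)) y.2 D hD
    refine ⟨tB ^ D, ⟨a, haint⟩, htD, ?_⟩
    rw [h2]
    have e : ((((tB ^ D * y) ^ q - up ⟨a, haint⟩ : Chart ↥(descVal A K₁) t)) :
        FK K₁ (M * q)) = (t ^ D * (y : FK K₁ (M * q))) ^ q - heckeAlphaBar K₁ M q a := by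
      push_cast
      rw [hupc, htB]
    rw [e]
    exact ha
  exact fibre_unique_abs (B₀ := ↥(Chart ↥(descVal A K₁) tM)) (B := ↥(Chart ↥(descVal A K₁) t))
    up P₁ P₂ (⟨_, hϖlow⟩ : Chart ↥(descVal A K₁) tM) hcap hϖ1 q hq.pos hdeg 𝔫₀ h𝔫₀ 𝔫 h𝔫 habN
    hP1 hP2 hins 𝔫' h𝔫' habN'

end Concrete

end H12LF

end
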