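/-
helper25, item 86 (S36), generic slice (LOC-UFD): the local step (L1) at EVERY regular closed point.

`B = (M₀)_𝔫` is regular as soon as `𝔫 B = (b, x)` with `(b)` prime (`b` may be ANY element:
a local equation of one smooth component of the special fibre through the point, e.g. `b = ϖ`
at a regular point of a reduced fibre, `b` = a uniformiser of a multiple component, or a local
equation of one branch at a point where several smooth branches meet).  Then `B` is a UFD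
(`H5CA.h5ca_reg_ufd`), and every `f ∈ Fˣ` with `n ∣ div f` (over the generic fibre) is
`(unit of B[1/ϖ]) · zⁿ`, i.e. `H4S34.L1At`.  This generalises `H21LR.locRegStatement`
(which is the case `b = ϖ`).
-/
import Mathlib
import Fermat.Agent.S34.LocReg_helper21

set_option autoImplicit false
set_option linter.unusedSectionVars false
set_option linter.unusedVariables false
set_option linter.style.haveILetI false

noncomputable section

namespace H25UF

open AlgebraicCurve H25KR IsLocalRing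

section ufd

variable {B : Type*} [CommRing B] [IsDomain B] [UniqueFactorizationMonoid B]

/-- in a UFD every nonzero element is (a divisor of a power of `ϖ`) times (an element coprime to
`ϖ`) -/
theorem exists_vert_horiz (ϖ : B) (a : B) (ha : a ≠ 0) :
    ∃ (av ah : B) (m : ℕ), a = av * ah ∧ av ∣ ϖ ^ m ∧ ∀ p : B, Prime p → p ∣ ϖ → ¬ p ∣ ah := by
  classical
  revert ha
  refine UniqueFactorizationMonoid.induction_on_prime
    (P := fun a => a ≠ 0 → ∃ (av ah : B) (m : ℕ), a = av * ah ∧ av ∣ ϖ ^ m ∧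
      ∀ p : B, Prime p → p ∣ ϖ → ¬ p ∣ ah) a ?_ ?_ ?_
  · intro h
    exact absurd rfl h
  · intro u hu _
    refine ⟨u, 1, 0, (mul_one u).symm, ?_, ?_⟩
    · rw [pow_zero]
      exact hu.dvd
    · intro p hp _ hd
      exact hp.not_isUnit (isUnit_of_dvd_one hd)
  · intro a p ha0 hp IH _
    obtain ⟨av, ah, m, e, hav, hah⟩ := IH ha0
    by_cases hpϖ : p ∣ ϖ
    · refine ⟨p * av, ah, m + 1, by rw [e]; ring, ?_, hah⟩
      rw [pow_succ, mul_comm (ϖ ^ m) ϖ]
      exact mul_dvd_mul hpϖ hav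
    · refine ⟨av, p * ah, m, by rw [e]; ring, hav, ?_⟩
      intro p' hp' hp'ϖ hd
      rcases hp'.dvd_or_dvd hd with h1 | h1
      · -- `p' ∣ p`, both prime: associated
        obtain ⟨d, hd'⟩ := h1
        have hirr := hp.irreducible
        rcases hirr.isUnit_or_isUnit hd' with h2 | h2
        · exact hp'.not_isUnit h2
        · apply hpϖ
          obtain ⟨d', hd''⟩ := h2
          have : p ∣ p' := ⟨(d'⁻¹ : Bˣ), by rw [hd', ← hd'', mul_assoc, Units.mul_inv, mul_one]⟩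
          exact this.trans hp'ϖ
      · exact hah p' hp' hp'ϖ h1

end ufd

variable {B : Type*} [CommRing B] [IsDomain B] [IsNoetherianRing B] [IsLocalRing B]
variable {F : Type*} [Field F] [Algebra B F] [IsFractionRing B F]
variable {K : Type*} [Field K] [Algebra K F]

/-- **(LOC-UFD), abstract core, unit form**: `B` regular (`𝔪 = (b, x)`, `(b)` prime),
`K ⊆ B[1/ϖ]`; if `n ∣ V.ord f` at every place of `F / K`, then
`f = (av / sv) · u · gⁿ` with `u ∈ Bˣ` and `av, sv` dividing powers of `ϖ`. -/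
theorem locUFD_unit (b x : B) (hb0 : b ≠ 0) (hb : (Ideal.span {b}).IsPrime)
    (hm : maximalIdeal B = Ideal.span {b, x})
    (ϖ : B) (hϖ0 : ϖ ≠ 0)
    (hK : ∀ c : K, ∃ (k : ℕ) (b' : B),
      algebraMap K F c * algebraMap B F ϖ ^ k = algebraMap B F b')
    (n : ℕ) (hn : 0 < n) (f : F) (hf : f ≠ 0)
    (hdiv : ∀ V : Place K F, (n : ℤ) ∣ V.ord f) :
    ∃ (g : F) (u : Bˣ) (av sv : B) (m : ℕ), g ≠ 0 ∧ av ∣ ϖ ^ m ∧ sv ∣ ϖ ^ m ∧
      f * algebraMap B F sv = g ^ n * algebraMap B F u * algebraMap B F av := by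
  classical
  haveI : UniqueFactorizationMonoid B := H5CA.h5ca_reg_ufd b x hb0 hb hm
  obtain ⟨a, s, hs, rfl⟩ := IsFractionRing.div_surjective (A := B) f
  have hs0 : s ≠ 0 := nonZeroDivisors.ne_zero hs
  have ha0 : a ≠ 0 := by
    rintro rfl
    apply hf
    simp
  obtain ⟨av, ah, m₁, ea, hav, hah⟩ := exists_vert_horiz ϖ a ha0
  obtain ⟨sv, sh, m₂, es, hsv, hsh⟩ := exists_vert_horiz ϖ s hs0
  have hav0 : av ≠ 0 := fun h => ha0 (by rw [ea, h, zero_mul])
  have hah0 : ah ≠ 0 := fun h => ha0 (by rw [ea, h, mul_zero])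
  have hsv0 : sv ≠ 0 := fun h => hs0 (by rw [es, h, zero_mul])
  have hsh0 : sh ≠ 0 := fun h => hs0 (by rw [es, h, mul_zero])
  have hsF : algebraMap B F s ≠ 0 := H21PB.map_ne_zero' hs0
  have havF : algebraMap B F av ≠ 0 := H21PB.map_ne_zero' hav0
  have hahF : algebraMap B F ah ≠ 0 := H21PB.map_ne_zero' hah0
  have hsvF : algebraMap B F sv ≠ 0 := H21PB.map_ne_zero' hsv0
  have hshF : algebraMap B F sh ≠ 0 := H21PB.map_ne_zero' hsh0
  have hϖF : algebraMap B F ϖ ≠ 0 := H21PB.map_ne_zero' hϖ0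
  -- the horizontal part
  set f' : F := algebraMap B F ah / algebraMap B F sh with hf'
  have hf'0 : f' ≠ 0 := div_ne_zero hahF hshF
  have hff' : algebraMap B F a / algebraMap B F s * algebraMap B F sv =
      f' * algebraMap B F av := by
    rw [hf', ea, es, map_mul, map_mul]
    field_simp
  have hvert : ∀ (p : B), Prime p → ¬ p ∣ ϖ → ∀ (v : B) (m : ℕ), v ∣ ϖ ^ m → ¬ p ∣ v := by
    intro p hp hpϖ v m hv hd
    exact hpϖ (hp.dvd_of_dvd_pow (hd.trans hv))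
  have hloc : ∀ p : B, Prime p → ∃ (w : F) (a s : B), ¬ p ∣ a ∧ ¬ p ∣ s ∧
      f' * algebraMap B F s = w ^ n * algebraMap B F a := by
    intro p hp
    by_cases hpϖ : p ∣ ϖ
    · refine ⟨1, ah, sh, hah p hp hpϖ, hsh p hp hpϖ, ?_⟩
      rw [hf', one_pow, one_mul]
      field_simp
    · haveI hPp : (Ideal.span {p}).IsPrime := H21LR.span_isPrime hp
      have hϖP : ϖ ∉ Ideal.span {p} := fun hmem => hpϖ (Ideal.mem_span_singleton.1 hmem)
      have hϖkP : ∀ j : ℕ, ϖ ^ j ∉ Ideal.span {p} := fun j hmem =>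
        hϖP (hPp.mem_of_pow_mem j hmem)
      have hKV : ∀ c : K, algebraMap K F c ∈
          valSub F (Ideal.span {p}) (H21LR.isLocPrincipal_span hp) := by
        intro c
        obtain ⟨j, b', hb'⟩ := hK c
        exact ⟨b', ϖ ^ j, hϖkP j, by rw [map_pow]; exact hb'⟩
      obtain ⟨w, c₁, s₁, hw, hc₁, hs₁, e₁⟩ :=
        H21PB.exists_pow_of_dvd (H21LR.isLocPrincipal_span hp) hp.ne_zero hKV hf
          (hdiv (H21PB.placeOf (H21LR.isLocPrincipal_span hp) K hp.ne_zero hKV))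
      have hc₁' : ¬ p ∣ c₁ := fun hd => hc₁ (Ideal.mem_span_singleton.2 hd)
      have hs₁' : ¬ p ∣ s₁ := fun hd => hs₁ (Ideal.mem_span_singleton.2 hd)
      refine ⟨w, c₁ * sv, s₁ * av, ?_, ?_, ?_⟩
      · intro hd
        rcases hp.dvd_or_dvd hd with h | h
        · exact hc₁' h
        · exact hvert p hp hpϖ sv m₂ hsv h
      · intro hd
        rcases hp.dvd_or_dvd hd with h | h
        · exact hs₁' h
        · exact hvert p hp hpϖ av m₁ hav h
      · rw [map_mul, map_mul]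
        linear_combination (algebraMap B F sv) * e₁ - (algebraMap B F s₁) * hff'
  obtain ⟨g, u, hgu⟩ := H5CA.h5ca_ufd_kummer n hn f' hf'0 hloc
  have hg0 : g ≠ 0 := by
    rintro rfl
    rw [zero_pow hn.ne', zero_mul] at hgu
    exact hf'0 hgu
  refine ⟨g, u, av, sv, m₁ + m₂, hg0, hav.trans (pow_dvd_pow ϖ (Nat.le_add_right _ _)),
    hsv.trans (pow_dvd_pow ϖ (Nat.le_add_left _ _)), ?_⟩
  rw [hff', hgu]

/-- **(LOC-UFD), abstract core**: `ϖ^m (f / zⁿ)^{±1} ∈ B`. -/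
theorem locUFD_core (b x : B) (hb0 : b ≠ 0) (hb : (Ideal.span {b}).IsPrime)
    (hm : maximalIdeal B = Ideal.span {b, x})
    (ϖ : B) (hϖ0 : ϖ ≠ 0)
    (hK : ∀ c : K, ∃ (k : ℕ) (b' : B),
      algebraMap K F c * algebraMap B F ϖ ^ k = algebraMap B F b')
    (n : ℕ) (hn : 0 < n) (f : F) (hf : f ≠ 0)
    (hdiv : ∀ V : Place K F, (n : ℤ) ∣ V.ord f) :
    ∃ z : F, z ≠ 0 ∧ ∃ (m : ℕ) (b₁ b₂ : B),
      algebraMap B F ϖ ^ m * (f * (z ^ n)⁻¹) = algebraMap B F b₁ ∧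
      algebraMap B F ϖ ^ m * (f * (z ^ n)⁻¹)⁻¹ = algebraMap B F b₂ := by
  obtain ⟨g, u, av, sv, m, hg0, ⟨av', hav⟩, ⟨sv', hsv⟩, e⟩ :=
    locUFD_unit b x hb0 hb hm ϖ hϖ0 hK n hn f hf hdiv
  have hϖF : algebraMap B F ϖ ≠ 0 := H21PB.map_ne_zero' hϖ0
  have hϖm0 : ϖ ^ m ≠ 0 := pow_ne_zero m hϖ0
  have hav0 : av ≠ 0 := fun h => hϖm0 (by rw [hav, h, zero_mul])
  have hsv0 : sv ≠ 0 := fun h => hϖm0 (by rw [hsv, h, zero_mul])
  have havF : algebraMap B F av ≠ 0 := H21PB.map_ne_zero' hav0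
  have hsvF : algebraMap B F sv ≠ 0 := H21PB.map_ne_zero' hsv0
  have huF : algebraMap B F (u : B) ≠ 0 := H21PB.map_ne_zero' u.ne_zero
  have hgn : g ^ n ≠ 0 := pow_ne_zero n hg0
  have EA : algebraMap B F ϖ ^ m = algebraMap B F av * algebraMap B F av' := by
    rw [← map_pow, hav, map_mul]
  have ES : algebraMap B F ϖ ^ m = algebraMap B F sv * algebraMap B F sv' := by
    rw [← map_pow, hsv, map_mul]
  have hav'F : algebraMap B F av' ≠ 0 := by
    intro h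
    rw [h, mul_zero] at EA
    exact pow_ne_zero m hϖF EA
  have hsv'F : algebraMap B F sv' ≠ 0 := by
    intro h
    rw [h, mul_zero] at ES
    exact pow_ne_zero m hϖF ES
  have hfe : f * (g ^ n)⁻¹ = algebraMap B F u * algebraMap B F av / algebraMap B F sv := by
    field_simp
    linear_combination e
  have huinv : algebraMap B F ((u⁻¹ : Bˣ) : B) = (algebraMap B F (u : B))⁻¹ := by
    apply eq_inv_of_mul_eq_one_left
    rw [← map_mul, Units.inv_mul, map_one]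
  refine ⟨g, hg0, m, u * av * sv', ((u⁻¹ : Bˣ) : B) * sv * av', ?_, ?_⟩
  · rw [hfe, map_mul, map_mul, ES]
    field_simp
  · rw [hfe, map_mul, map_mul, huinv, EA]
    field_simp

section elem

variable {A : Type*} [CommRing A] [IsDomain A] [IsNoetherianRing A]
variable {F : Type*} [Field F] [Algebra A F] [IsFractionRing A F]
variable {K : Type*} [Field K] [Algebra K F]

/-- **(LOC-UFD), element form**: `A` a noetherian domain, `𝔫` a prime, `b ∈ 𝔫` with
`𝔫 A_𝔫 = (b, x)` and `(b) A_𝔫` prime; `ϖ ≠ 0` with `K ⊆ A[1/ϖ]`. -/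
theorem locUFD_elem (𝔫 : Ideal A) [h𝔫 : 𝔫.IsPrime] (b : A) (hb0 : b ≠ 0) (hb𝔫 : b ∈ 𝔫)
    (hgen : ∃ x ∈ 𝔫, ∀ y ∈ 𝔫, ∃ s a c : A, s ∉ 𝔫 ∧ s * y = a * b + c * x)
    (hprime : ∀ a c : A, (∃ d s : A, s ∉ 𝔫 ∧ s * (a * c) = d * b) →
      (∃ d s : A, s ∉ 𝔫 ∧ s * a = d * b) ∨ (∃ d s : A, s ∉ 𝔫 ∧ s * c = d * b))
    (ϖ : A) (hϖ0 : ϖ ≠ 0)
    (hK : ∀ c : K, ∃ (k : ℕ) (b' : A),
      algebraMap K F c * algebraMap A F ϖ ^ k = algebraMap A F b')
    (n : ℕ) (hn : 0 < n) (f : F) (hf : f ≠ 0)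
    (hdiv : ∀ V : Place K F, (n : ℤ) ∣ V.ord f) :
    ∃ z : F, z ≠ 0 ∧ ∃ (m : ℕ) (a₁ s₁ a₂ s₂ : A), s₁ ∉ 𝔫 ∧ s₂ ∉ 𝔫 ∧
      algebraMap A F s₁ * (algebraMap A F ϖ ^ m * (f * (z ^ n)⁻¹)) = algebraMap A F a₁ ∧
      algebraMap A F s₂ * (algebraMap A F ϖ ^ m * (f * (z ^ n)⁻¹)⁻¹) = algebraMap A F a₂ := by
  -- the local ring as a subalgebra of `F`
  let B := Localization.subalgebra.ofField F 𝔫.primeCompl (H21LR.primeCompl_le 𝔫)
  haveI hBloc : IsLocalization.AtPrime B 𝔫 :=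
    Localization.subalgebra.isLocalization_ofField F 𝔫.primeCompl (H21LR.primeCompl_le 𝔫)
  haveI : IsFractionRing B F := inferInstance
  haveI : IsScalarTower A B F := inferInstance
  haveI : IsLocalRing B := IsLocalization.AtPrime.isLocalRing B 𝔫
  haveI : IsNoetherianRing B := IsLocalization.isNoetherianRing 𝔫.primeCompl B inferInstance
  haveI : IsDomain B := inferInstance
  obtain ⟨x, hx𝔫, hgen'⟩ := hgen
  have hbp : Prime (algebraMap A B b) := H21LR.prime_map (F := F) B 𝔫 b hb0 hb𝔫 hprime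
  have hb : (Ideal.span {algebraMap A B b}).IsPrime :=
    (Ideal.span_singleton_prime hbp.ne_zero).2 hbp
  have hm : maximalIdeal B = Ideal.span {algebraMap A B b, algebraMap A B x} :=
    H21LR.maximalIdeal_eq (F := F) B 𝔫 b x hb𝔫 hx𝔫 hgen'
  have hinj : Function.Injective (algebraMap A B) :=
    IsLocalization.injective B (H21LR.primeCompl_le 𝔫)
  have hϖB0 : algebraMap A B ϖ ≠ 0 := fun h0 => hϖ0 (hinj (by rw [h0, map_zero]))
  have hK' : ∀ c : K, ∃ (k : ℕ) (b' : B),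
      algebraMap K F c * algebraMap B F (algebraMap A B ϖ) ^ k = algebraMap B F b' := by
    intro c
    obtain ⟨k, b', hb'⟩ := hK c
    exact ⟨k, algebraMap A B b', by rw [H21LR.algMap_algMap, H21LR.algMap_algMap]; exact hb'⟩
  obtain ⟨z, hz, m, b₁, b₂, e₁, e₂⟩ :=
    locUFD_core (algebraMap A B b) (algebraMap A B x) hbp.ne_zero hb hm (algebraMap A B ϖ) hϖB0
      hK' n hn f hf hdiv
  rw [H21LR.algMap_algMap] at e₁ e₂
  obtain ⟨a₁, s₁, hs₁, E₁⟩ := (H21LR.mem_range_iff (F := F) B 𝔫 _).1 ⟨b₁, e₁.symm⟩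
  obtain ⟨a₂, s₂, hs₂, E₂⟩ := (H21LR.mem_range_iff (F := F) B 𝔫 _).1 ⟨b₂, e₂.symm⟩
  exact ⟨z, hz, m, a₁, s₁, a₂, s₂, hs₁, hs₂, E₁, E₂⟩

end elem

end H25UF

open Polynomial IntermediateField AlgebraicCurve H7S18 H4S34 IsLocalRing

namespace H25UF

/-- **regular closed point, general form**: `B_𝔫` is regular: `𝔫 B_𝔫 = (b, x)` with `(b) B_𝔫`
prime, for SOME `b ∈ 𝔫`, `b ≠ 0` (element form; `b = ϖ` is `H4S34.RegAt`). -/
def UFDAt (R : Type) [CommRing R] {E : Type} [Field E] [Algebra R E] (t : E)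
    (𝔫 : Ideal (Chart R t)) : Prop :=
  ∃ b ∈ 𝔫, b ≠ 0 ∧
    (∃ x ∈ 𝔫, ∀ y ∈ 𝔫, ∃ s a c : Chart R t, s ∉ 𝔫 ∧ s * y = a * b + c * x) ∧
    (∀ a c : Chart R t, (∃ d s : Chart R t, s ∉ 𝔫 ∧ s * (a * c) = d * b) →
      (∃ d s : Chart R t, s ∉ 𝔫 ∧ s * a = d * b) ∨ (∃ d s : Chart R t, s ∉ 𝔫 ∧ s * c = d * b))

/-- **(LOC-UFD)**: at a regular closed point (in the sense `UFDAt`), `n ∣ div f` gives (L1). -/
def LocUFDStatement : Prop :=
  ∀ (R : Type) [CommRing R] [IsDomain R] [IsDiscreteValuationRing R]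
    (K : Type) [Field K] [CharZero K] [Algebra R K] [IsFractionRing R K]
    (F : Type) [Field F] [Algebra K F] [Algebra R F] [IsScalarTower R K F]
    (ϖ : R) (_ : Irreducible ϖ) (t : F) (_ : Transcendental K t)
    (_ : FiniteDimensional K⟮t⟯ F)
    (n : ℕ) (_ : 0 < n) (f : F) (_ : f ≠ 0)
    (_ : ∀ V : Place K F, (n : ℤ) ∣ V.ord f)
    (𝔫 : Ideal (Chart R t)) (_ : IsClosedPt R ϖ t 𝔫) (_ : UFDAt R t 𝔫),
    L1At R ϖ t 𝔫 n f

theorem locUFDStatement : LocUFDStatement := by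
  intro R _ _ _ K _ _ _ _ F _ _ _ _ ϖ hϖ t ht hfin n hn f hf hdiv 𝔫 h𝔫 hreg
  haveI := hfin
  haveI : IsNoetherianRing (Chart R t) := H21LR.chart_noeth R K ht
  haveI : IsFractionRing (Chart R t) F := H21LR.chart_isFractionRing R K ht
  haveI : 𝔫.IsPrime := h𝔫.1.isPrime
  have hinjR : Function.Injective (algebraMap R F) := H19S18.h19_algebraMap_injective R K
  have hϖF : algebraMap R F ϖ ≠ 0 := fun h0 => hϖ.ne_zero (hinjR (by rw [h0, map_zero]))
  -- `ϖ` as an element of the chart ring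
  let ϖM : Chart R t :=
    algebraMap (Algebra.adjoin R {t}) (Chart R t) (algebraMap R (Algebra.adjoin R {t}) ϖ)
  have hϖMcoe : (ϖM : F) = algebraMap R F ϖ := rfl
  have hcoe : ∀ a : Chart R t, algebraMap (Chart R t) F a = (a : F) := fun _ => rfl
  have hϖM0 : ϖM ≠ 0 := by
    intro h0
    apply hϖF
    rw [← hϖMcoe, h0]
    rfl
  obtain ⟨b, hb𝔫, hb0, hgen, hprime⟩ := hreg
  have hK : ∀ c : K, ∃ (k : ℕ) (b' : Chart R t),
      algebraMap K F c * algebraMap (Chart R t) F ϖM ^ k = algebraMap (Chart R t) F b' := by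
    intro c
    obtain ⟨r₁, r₂, hr₂, rfl⟩ := IsFractionRing.div_surjective (A := R) c
    have hr₂0 : r₂ ≠ 0 := nonZeroDivisors.ne_zero hr₂
    obtain ⟨k, u, hu⟩ := IsDiscreteValuationRing.associated_pow_irreducible hr₂0 hϖ
    refine ⟨k, algebraMap (Algebra.adjoin R {t}) (Chart R t)
      (algebraMap R (Algebra.adjoin R {t}) (r₁ * u)), ?_⟩
    have hb : algebraMap (Chart R t) F (algebraMap (Algebra.adjoin R {t}) (Chart R t)
      (algebraMap R (Algebra.adjoin R {t}) (r₁ * u))) = algebraMap R F (r₁ * u) := rfl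
    rw [hb, hcoe, hϖMcoe, map_div₀, ← IsScalarTower.algebraMap_apply R K F,
      ← IsScalarTower.algebraMap_apply R K F, ← map_pow, ← hu, map_mul, map_mul]
    have hr₂F : algebraMap R F r₂ ≠ 0 := fun h0 => hr₂0 (hinjR (by rw [h0, map_zero]))
    field_simp
  obtain ⟨z, hz, m, a₁, s₁, a₂, s₂, hs₁, hs₂, E₁, E₂⟩ :=
    locUFD_elem (A := Chart R t) (F := F) (K := K) 𝔫 b hb0 hb𝔫 hgen hprime ϖM hϖM0 hK
      n hn f hf hdiv
  exact ⟨z, hz, m, ⟨a₁, s₁, hs₁, E₁⟩, ⟨a₂, s₂, hs₂, E₂⟩⟩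

/-- `H4S34.RegAt` is the case `b = ϖ` of `UFDAt`. -/
theorem ufdAt_of_regAt (R : Type) [CommRing R] [IsDomain R] [IsDiscreteValuationRing R]
    (K : Type) [Field K] [CharZero K] [Algebra R K] [IsFractionRing R K]
    {F : Type} [Field F] [Algebra K F] [Algebra R F] [IsScalarTower R K F]
    (ϖ : R) (hϖ : Irreducible ϖ) (t : F)
    (𝔫 : Ideal (Chart R t)) (h𝔫 : IsClosedPt R ϖ t 𝔫) (hreg : RegAt R ϖ t 𝔫) :
    UFDAt R t 𝔫 := by
  have hinjR : Function.Injective (algebraMap R F) := H19S18.h19_algebraMap_injective R K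
  have hϖF : algebraMap R F ϖ ≠ 0 := fun h0 => hϖ.ne_zero (hinjR (by rw [h0, map_zero]))
  let ϖM : Chart R t :=
    algebraMap (Algebra.adjoin R {t}) (Chart R t) (algebraMap R (Algebra.adjoin R {t}) ϖ)
  have hϖMcoe : (ϖM : F) = algebraMap R F ϖ := rfl
  have hϖM0 : ϖM ≠ 0 := by
    intro h0
    apply hϖF
    rw [← hϖMcoe, h0]
    rfl
  refine ⟨ϖM, h𝔫.2 ϖM hϖMcoe, hϖM0, ?_, ?_⟩
  · obtain ⟨x, hx, hx'⟩ := hreg.1
    refine ⟨x, hx, fun y hy => ?_⟩
    obtain ⟨s, a, b, hs, e⟩ := hx' y hy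
    refine ⟨s, a, b, hs, Subtype.ext ?_⟩
    push_cast
    rw [e, hϖMcoe]
  · rintro a b ⟨c, s, hs, e⟩
    have e' : (s : F) * ((a : F) * b) = c * algebraMap R F ϖ := by
      have := congrArg (fun z : Chart R t => (z : F)) e
      simpa [hϖMcoe] using this
    have h1 : InLoc R t 𝔫 ((a : F) * b * (algebraMap R F ϖ)⁻¹) := by
      refine ⟨c, s, hs, ?_⟩
      field_simp
      linear_combination e'
    have conv : ∀ d : Chart R t, InLoc R t 𝔫 ((d : F) * (algebraMap R F ϖ)⁻¹) →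
        ∃ c s : Chart R t, s ∉ 𝔫 ∧ s * d = c * ϖM := by
      rintro d ⟨c', s', hs', e''⟩
      refine ⟨c', s', hs', Subtype.ext ?_⟩
      push_cast
      rw [hϖMcoe, ← e'']
      field_simp
    rcases hreg.2 a b h1 with h2 | h2
    · exact Or.inl (conv a h2)
    · exact Or.inr (conv b h2)

end H25UF

end
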