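import Fermat.Agent.S36.NormKF_helper13
import Fermat.Agent.S36.V3_helper3
import Fermat.Agent.S35.AbelRed_helper13
import Fermat.Agent.S34.DichComp_helper22
import Fermat.Agent.S37.R3Red_helper23

/-!
# Item 86 (S36), slice (NORM), part 5 (helper13): the norm congruences, series form

Generic (`L` a field, `A ⊆ L` a valuation subring, `π : A →+* k`):
* `H13N3.gvM A π` : the additive subgroup of the series reducing to `0` (the maximal ideal of
  the Gauss ring `gvO A π`); `gvO · gvM ⊆ gvM`; `tw ζ x - x ∈ gvM` for `x ∈ gvO`, `π ζ = 1`;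
* `inG_iff_mem_gvO`, `inGm_iff_mem_gvM` : the dictionary with `H8PB.InG`, `H8PB.InGm`.

Concrete (`K₁ ≤ K₃`, `R₁ = R₃ ∩ K₁` DVRs, `q ∈ 𝔪(R₃)`, `ζ ∈ K₃` a primitive `q`-th root of `1`):
* **(Nb2)** `H13N3.cg_beta1` : `x ∈ F₂` Gauss-integral `⟹ β (N_β x) ≡ x^q mod 𝔪`;
* **(Na1)** `H13N3.cg_alpha1` : `x ∈ F₂`, `a ∈ F₁` Gauss-integral with `ι_b x ≡ a` for all
  `0 < b < q` `⟹ α (N_α x) ≡ x · a^(q-1) mod 𝔪`.
-/

set_option autoImplicit false
set_option linter.style.haveILetI false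
set_option linter.unusedSectionVars false
set_option linter.unusedVariables false

noncomputable section

open AlgebraicCurve IntermediateField
open ModularCurve RH24 H28S28 HahnSeries H7S18 H28GV H13AB

namespace H13N3

section Generic

variable {L : Type} [Field L] {A : ValuationSubring L} {k : Type} [Field k] {π : A →+* k}

theorem isRed_zero' : IsRed A π (0 : LaurentSeries L) 0 := by
  have h := isRed_mk (A := A) (π := π) 0
  rw [map_zero] at h
  exact h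

theorem isRed_add' {x y : LaurentSeries L} {r s : LaurentSeries k} (hx : IsRed A π x r)
    (hy : IsRed A π y s) : IsRed A π (x + y) (r + s) := by
  obtain ⟨u, rfl, rfl⟩ := hx.exists_eq
  obtain ⟨v, rfl, rfl⟩ := hy.exists_eq
  have h := isRed_mk (A := A) (π := π) (u + v)
  rw [map_add] at h
  exact h

theorem isRed_neg' {x : LaurentSeries L} {r : LaurentSeries k} (hx : IsRed A π x r) :
    IsRed A π (-x) (-r) := by
  obtain ⟨u, rfl, rfl⟩ := hx.exists_eq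
  have h := isRed_mk (A := A) (π := π) (-u)
  rw [map_neg] at h
  exact h

theorem isRed_sub' {x y : LaurentSeries L} {r s : LaurentSeries k} (hx : IsRed A π x r)
    (hy : IsRed A π y s) : IsRed A π (x - y) (r - s) := by
  rw [sub_eq_add_neg, sub_eq_add_neg]
  exact isRed_add' hx (isRed_neg' hy)

theorem isRed_of_mem {x : LaurentSeries L} (hx : x ∈ gvO A π) :
    IsRed A π x (gvRed A π ⟨x, hx⟩) := ⟨hx, rfl⟩

variable (A π)

/-- the maximal ideal of the Gauss ring, as an additive subgroup of `L((𝐪))` -/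
def gvM : AddSubgroup (LaurentSeries L) where
  carrier := {x | IsRed A π x 0}
  zero_mem' := isRed_zero'
  add_mem' := fun {x y} hx hy => by
    have h := isRed_add' hx hy
    rw [add_zero] at h
    exact h
  neg_mem' := fun {x} hx => by
    have h := isRed_neg' hx
    rw [neg_zero] at h
    exact h

variable {A π}

theorem mem_gvM {x : LaurentSeries L} : x ∈ gvM A π ↔ IsRed A π x 0 := Iff.rfl

theorem gvM_le_gvO {x : LaurentSeries L} (hx : x ∈ gvM A π) : x ∈ gvO A π := hx.1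

theorem gvO_mul_gvM {a b : LaurentSeries L} (ha : a ∈ gvO A π) (hb : b ∈ gvM A π) :
    a * b ∈ gvM A π := by
  have h := (isRed_of_mem ha).mul hb
  rw [mul_zero] at h
  exact h

theorem sub_mem_gvM_of_isRed {x y : LaurentSeries L} {r : LaurentSeries k} (hx : IsRed A π x r)
    (hy : IsRed A π y r) : x - y ∈ gvM A π := by
  have h := isRed_sub' hx hy
  rw [sub_self] at h
  exact h

/-- twists by `ζ` with `π ζ = 1` are congruent to the identity -/
theorem tw_sub_mem_gvM (ζ : Aˣ) (hζ : π ζ = 1) {x : LaurentSeries L} (hx : x ∈ gvO A π) :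
    H28S28.tw (Units.map (A.subtype : A →* L) ζ) x - x ∈ gvM A π :=
  sub_mem_gvM_of_isRed ((isRed_of_mem hx).tw ζ hζ) (isRed_of_mem hx)

theorem tw_mem_gvO (ζ : Aˣ) (hζ : π ζ = 1) {x : LaurentSeries L} (hx : x ∈ gvO A π) :
    H28S28.tw (Units.map (A.subtype : A →* L) ζ) x ∈ gvO A π :=
  ((isRed_of_mem hx).tw ζ hζ).mem

/-- if `x ≡ y mod gvM` and `y ∈ gvO` then `x ∈ gvO` -/
theorem mem_gvO_of_sub {x y : LaurentSeries L} (h : x - y ∈ gvM A π) (hy : y ∈ gvO A π) :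
    x ∈ gvO A π := by
  have := (gvO A π).add_mem (gvM_le_gvO h) hy
  rwa [sub_add_cancel] at this

end Generic

section Dict

variable {K : Type} [Field K] (R : ValuationSubring K)

theorem inG_iff_mem_gvO (x : LaurentSeries K) :
    H8PB.InG R x ↔ x ∈ gvO R (H22DC.resR R) := H22DC.inG_iff R x

theorem inGm_iff_mem_gvM (x : LaurentSeries K) :
    H8PB.InGm R x ↔ x ∈ gvM R (H22DC.resR R) := H22DC.inGm_iff R x

/-- roots of unity of order `q` reduce to `1` when `q` is not a unit -/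
theorem res_unitR (q : ℕ) (hq : q.Prime) (hqR : (q : K) ∈ R.nonunits) (ζ : Kˣ)
    (h : ζ ^ q = 1) : H22DC.resR R ((H3V3.unitR R ζ hq.pos h : (↥R)ˣ) : ↥R) = 1 := by
  haveI : Fact q.Prime := ⟨hq⟩
  have hqm : ((q : ℕ) : ↥R) ∈ IsLocalRing.maximalIdeal ↥R := by
    have h1 : (((q : ℕ) : ↥R) : K) ∈ R.nonunits := by
      have : (((q : ℕ) : ↥R) : K) = (q : K) := by push_cast; rfl
      rw [this]
      exact hqR
    rwa [ValuationSubring.coe_mem_nonunits_iff] at h1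
  haveI : CharP (IsLocalRing.ResidueField ↥R) q :=
    (CharP.charP_iff_prime_eq_zero hq).mpr (by
      have := (IsLocalRing.residue_eq_zero_iff _).mpr hqm
      rwa [map_natCast] at this)
  have hpow : ((H3V3.unitR R ζ hq.pos h : (↥R)ˣ) : ↥R) ^ q = 1 := by
    apply Subtype.ext
    show (ζ : K) ^ q = 1
    have := congrArg (fun u : Kˣ => (u : K)) h
    simpa using this
  exact H23R3.h23r3_pi_zeta R (H22DC.resR R) q _ hpow

end Dict

section Concrete

variable {K₁ K₃ : IntermediateField ℚ Kbar} (h13 : K₁ ≤ K₃)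
  (R₁ : ValuationSubring ↥K₁) (R₃ : ValuationSubring ↥K₃)
  [IsDiscreteValuationRing R₁] [IsDiscreteValuationRing R₃]
  (hR : ∀ c : ↥K₁, c ∈ R₁ ↔ IntermediateField.inclusion h13 c ∈ R₃)

include hR in
/-- Gauss descent along the coefficient extension, `InG` -/
theorem inG_incK (N : ℕ) [NeZero N] (x : FK ↥K₁ N) :
    H8PB.InG R₃ (incK h13 N x) ↔ H8PB.InG R₁ (x : LaurentSeries ↥K₁) :=
  H3V3.inG_descent (IntermediateField.inclusion h13 : ↥K₁ →+* ↥K₃) R₁ R₃ hR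
    (H3V3.isQB_of_mem_lbc R₁ N _ x.2)

include hR in
/-- Gauss descent along the coefficient extension, `InGm` -/
theorem inGm_incK (N : ℕ) [NeZero N] (x : FK ↥K₁ N) :
    H8PB.InGm R₃ (incK h13 N x) ↔ H8PB.InGm R₁ (x : LaurentSeries ↥K₁) :=
  H3V3.inGm_descent (IntermediateField.inclusion h13 : ↥K₁ →+* ↥K₃) R₁ R₃ hR
    (H3V3.isQB_of_mem_lbc R₁ N _ x.2)

variable (M q : ℕ) [NeZero M] [NeZero q]

omit [IsDiscreteValuationRing R₃] in
theorem tw_pow_mem_gvO (hq : q.Prime) (hqR : (q : ↥K₃) ∈ R₃.nonunits) (ζ : (↥K₃)ˣ)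
    (hζ : ζ ^ q = 1) (b : ℕ) {y : LaurentSeries ↥K₃} (hy : y ∈ gvO R₃ (H22DC.resR R₃)) :
    tw (ζ ^ b) y ∈ gvO R₃ (H22DC.resR R₃) ∧ tw (ζ ^ b) y - y ∈ gvM R₃ (H22DC.resR R₃) := by
  have hb : (ζ ^ b) ^ q = 1 := by rw [← pow_mul, mul_comm, pow_mul, hζ, one_pow]
  have h2 : Units.map (R₃.subtype : ↥R₃ →* ↥K₃) (H3V3.unitR R₃ (ζ ^ b) hq.pos hb) = ζ ^ b :=
    Units.ext rfl
  have h3 := res_unitR R₃ q hq hqR (ζ ^ b) hb
  constructor
  · have := tw_mem_gvO (H3V3.unitR R₃ (ζ ^ b) hq.pos hb) h3 hy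
    rwa [h2] at this
  · have := tw_sub_mem_gvM (H3V3.unitR R₃ (ζ ^ b) hq.pos hb) h3 hy
    rwa [h2] at this

include hR in
/-- **(Nb2)**, series form: `β (N_β x) ≡ x^q` modulo the maximal ideal of the Gauss ring. -/
theorem cg_beta1 (hq : q.Prime) (hqM : ¬ q ∣ M) (hqR : (q : ↥K₃) ∈ R₃.nonunits)
    (ζ : (↥K₃)ˣ) (hζ : IsPrimitiveRoot ζ q) (x : FK ↥K₁ (M * q * q))
    (hx : H8PB.InG R₁ (x : LaurentSeries ↥K₁)) :
    H8PB.InGm R₁ (((heckeBetaBar ↥K₁ (M * q) q (normBK K₁ M q x) - x ^ q :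
      FK ↥K₁ (M * q * q)) : FK ↥K₁ (M * q * q)) : LaurentSeries ↥K₁) := by
  rw [← inGm_incK h13 R₁ R₃ hR (M * q * q), map_sub, map_pow, incK_beta,
    normK_beta_twist h13 M q hq hqM ζ hζ x, inGm_iff_mem_gvM]
  have hy : incK h13 (M * q * q) x ∈ gvO R₃ (H22DC.resR R₃) :=
    (inG_iff_mem_gvO R₃ _).mp ((inG_incK h13 R₁ R₃ hR (M * q * q) x).mpr hx)
  have h := prod_sub_prod_mem (gvO R₃ (H22DC.resR R₃)) (gvM R₃ (H22DC.resR R₃))
    (fun a ha b hb => gvO_mul_gvM ha hb) (Finset.range q)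
    (fun b => tw (ζ ^ b) (incK h13 (M * q * q) x)) (fun _ => incK h13 (M * q * q) x)
    (fun b _ => (tw_pow_mem_gvO R₃ q hq hqR ζ hζ.pow_eq_one b hy).1) (fun _ _ => hy)
    (fun b _ => (tw_pow_mem_gvO R₃ q hq hqR ζ hζ.pow_eq_one b hy).2)
  rw [Finset.prod_const, Finset.card_range] at h
  exact h

include hR in
/-- **(Na1)**, series form: if `ι_b x ≡ a` for all `0 < b < q` then
`α (N_α x) ≡ x · a^(q-1)` modulo the maximal ideal of the Gauss ring. -/
theorem cg_alpha1 (hq : q.Prime) (hqM : ¬ q ∣ M)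
    (ζ : (↥K₃)ˣ) (hζ : IsPrimitiveRoot ζ q) (x : FK ↥K₁ (M * q * q)) (a : FK ↥K₁ (M * q))
    (hx : H8PB.InG R₁ (x : LaurentSeries ↥K₁)) (ha : H8PB.InG R₁ (a : LaurentSeries ↥K₁))
    (h3 : ∀ b ∈ Finset.Ico 1 q,
      H8PB.InGm R₃ (iotaB h13 M q hq hqM ζ b x - incK h13 (M * q) a)) :
    H8PB.InGm R₁ (((heckeAlphaBar ↥K₁ (M * q) q (normAK K₁ M q x) -
      x * heckeAlphaBar ↥K₁ (M * q) q a ^ (q - 1) :
      FK ↥K₁ (M * q * q)) : FK ↥K₁ (M * q * q)) : LaurentSeries ↥K₁) := by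
  rw [← inGm_incK h13 R₁ R₃ hR (M * q * q), map_sub, map_mul, map_pow, incK_alpha, incK_alpha,
    normK_alpha_iota' h13 M q hq hqM ζ hζ x, inGm_iff_mem_gvM, ← mul_sub]
  have hy : incK h13 (M * q * q) x ∈ gvO R₃ (H22DC.resR R₃) :=
    (inG_iff_mem_gvO R₃ _).mp ((inG_incK h13 R₁ R₃ hR (M * q * q) x).mpr hx)
  have hc : incK h13 (M * q) a ∈ gvO R₃ (H22DC.resR R₃) :=
    (inG_iff_mem_gvO R₃ _).mp ((inG_incK h13 R₁ R₃ hR (M * q) a).mpr ha)
  have h3' : ∀ b ∈ Finset.Ico 1 q,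
      iotaB h13 M q hq hqM ζ b x - incK h13 (M * q) a ∈ gvM R₃ (H22DC.resR R₃) :=
    fun b hb => (inGm_iff_mem_gvM R₃ _).mp (h3 b hb)
  have h := prod_sub_prod_mem (gvO R₃ (H22DC.resR R₃)) (gvM R₃ (H22DC.resR R₃))
    (fun a ha b hb => gvO_mul_gvM ha hb) (Finset.Ico 1 q)
    (fun b => iotaB h13 M q hq hqM ζ b x) (fun _ => incK h13 (M * q) a)
    (fun b hb => mem_gvO_of_sub (h3' b hb) hc) (fun _ _ => hc) h3'
  rw [Finset.prod_const, Nat.card_Ico] at h
  exact gvO_mul_gvM hy h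

end Concrete

end H13N3

end
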