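import Mathlib
import Fermat.Agent.S36.NormK_helper13
import Fermat.Agent.S36.NormDeg_helper13
import Fermat.Agent.S37.R2UMaster_helper29
import Fermat.Agent.S35.FWDefs_helper17

/-!
# Item 86 (S36), slice (NK): the norms at the `K₁`-level and at the `ℚ̄`-level (helper28)

`K₁ ⊆ ℚ̄`, `φ = H29R2M.phi : F_{K₁}(N) → F̄(N)` the base change, `q` prime, `q ∤ M`.

* `H28NK.norm_compat_of_span` (Mathlib only): in a commutative square of field extensions
  `F₁ → F₂`, `F₁' → F₂'` of the same finite degree such that `F₂'` is spanned over `F₁'` by the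
  image of `F₂`, the norms are compatible: `N_{F₂'/F₁'} (i₂ x) = i₁ (N_{F₂/F₁} x)`;
* `H28NK.mem_span_range` (Mathlib only): the span condition from field generation;
* `H28NK.phi_normAK` : `φ (N_α x) = N_α (φ x)`   (`H13N3.normAK`, `H13N3.normA2`);
* `H28NK.phi_normBK` : `φ (N_β x) = N_β (φ x)`   (`H13N3.normBK`, `H13N3.normB2`);
* the same with `H17FW.normA`, `H17FW.normB` on the right: `phi_normAK'`, `phi_normBK'`.
-/

set_option autoImplicit false
set_option linter.unusedSectionVars false
set_option linter.unusedVariables false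
set_option linter.style.haveILetI false
set_option linter.style.longLine false

noncomputable section

open ModularCurve AlgebraicCurve H7S18 RH24

namespace H28NK

/-! ### generic -/

section generic

variable {F₁ F₂ F₁' F₂' : Type*} [Field F₁] [Field F₂] [Field F₁'] [Field F₂']

/-- **norm compatibility in a square with the same degree and the span condition** -/
theorem norm_compat_of_span [Algebra F₁ F₂] [Algebra F₁' F₂'] [FiniteDimensional F₁ F₂]
    (i₁ : F₁ →+* F₁') (i₂ : F₂ →+* F₂')
    (hsq : ∀ y, i₂ (algebraMap F₁ F₂ y) = algebraMap F₁' F₂' (i₁ y))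
    (hdeg : Module.finrank F₁' F₂' = Module.finrank F₁ F₂)
    (hspan : ∀ z : F₂', z ∈ Submodule.span F₁' (Set.range i₂)) (x : F₂) :
    Algebra.norm F₁' (i₂ x) = i₁ (Algebra.norm F₁ x) := by
  classical
  set n := Module.finrank F₁ F₂ with hn
  have hnpos : 0 < n := Module.finrank_pos
  haveI : FiniteDimensional F₁' F₂' := Module.finite_of_finrank_pos (by rw [hdeg]; exact hnpos)
  let b : Module.Basis (Fin n) F₁ F₂ := Module.finBasis F₁ F₂
  let v : Fin n → F₂' := fun k => i₂ (b k)
  -- the image of an element in terms of `v`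
  have himg : ∀ y : F₂, i₂ y = ∑ k, i₁ (b.repr y k) • v k := by
    intro y
    conv_lhs => rw [← b.sum_repr y]
    rw [map_sum]
    refine Finset.sum_congr rfl (fun k _ => ?_)
    rw [Algebra.smul_def, map_mul, hsq, Algebra.smul_def]
  have htop : ⊤ ≤ Submodule.span F₁' (Set.range v) := by
    intro z _
    have hz := hspan z
    have hle : Submodule.span F₁' (Set.range i₂) ≤ Submodule.span F₁' (Set.range v) := by
      rw [Submodule.span_le]
      rintro _ ⟨y, rfl⟩
      rw [SetLike.mem_coe, himg y]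
      exact Submodule.sum_mem _ (fun k _ =>
        Submodule.smul_mem _ _ (Submodule.subset_span ⟨k, rfl⟩))
    exact hle hz
  have hcard : Fintype.card (Fin n) = Module.finrank F₁' F₂' := by
    rw [Fintype.card_fin, hdeg]
  let b' : Module.Basis (Fin n) F₁' F₂' := basisOfTopLeSpanOfCardEqFinrank v htop hcard
  have hb' : ∀ k, b' k = v k := fun k => by
    show (basisOfTopLeSpanOfCardEqFinrank v htop hcard) k = v k
    rw [coe_basisOfTopLeSpanOfCardEqFinrank]
  have hmat : Algebra.leftMulMatrix b' (i₂ x) = (Algebra.leftMulMatrix b x).map i₁ := by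
    ext k l
    rw [Algebra.leftMulMatrix_eq_repr_mul, Matrix.map_apply, Algebra.leftMulMatrix_eq_repr_mul]
    have e1 : i₂ x * b' l = ∑ k, i₁ (b.repr (x * b l) k) • b' k := by
      rw [hb' l]
      show i₂ x * i₂ (b l) = _
      rw [← map_mul, himg (x * b l)]
      refine Finset.sum_congr rfl (fun k _ => ?_)
      rw [hb' k]
    rw [e1, b'.repr_sum_self]
  rw [Algebra.norm_eq_matrix_det b' (i₂ x), Algebra.norm_eq_matrix_det b x, hmat]
  exact (RingHom.map_det i₁ (Algebra.leftMulMatrix b x)).symm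

/-- **the span condition from field generation**: if every subfield of `F₂'` containing the
image of `F₁'` and the image of `F₂` is everything, then `F₂'` is spanned over `F₁'` by the
image of `F₂`. -/
theorem mem_span_range [Algebra F₁' F₂'] [Algebra.IsAlgebraic F₁' F₂'] (i₂ : F₂ →+* F₂')
    (hgen : ∀ T : Subfield F₂', (∀ y, algebraMap F₁' F₂' y ∈ T) → (∀ x, i₂ x ∈ T) →
      ∀ z, z ∈ T) (z : F₂') :
    z ∈ Submodule.span F₁' (Set.range i₂) := by
  set S : Subalgebra F₁' F₂' := Algebra.adjoin F₁' (Set.range i₂) with hS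
  let T : Subfield F₂' :=
    { S.toSubring with
      inv_mem' := fun a ha => by
        have hS' : a ∈ S := ha
        have := Subalgebra.inv_mem_of_algebraic (A := S) (x := ⟨a, hS'⟩)
          (Algebra.IsAlgebraic.isAlgebraic a)
        exact this }
  have hz : z ∈ T := hgen T (fun y => S.algebraMap_mem y)
    (fun x => Algebra.subset_adjoin ⟨x, rfl⟩) z
  have hz' : z ∈ Subalgebra.toSubmodule S := hz
  rw [hS, Algebra.adjoin_eq_span] at hz'
  have hcl : (Submonoid.closure (Set.range i₂) : Set F₂') = Set.range i₂ := by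
    have h1 : Set.range i₂ = ((MonoidHom.mrange (i₂ : F₂ →* F₂') : Submonoid F₂') : Set F₂') := by
      ext w
      simp
    rw [h1, Submonoid.closure_eq]
  rw [hcl] at hz'
  exact hz'

end generic

/-! ### the base change and the degeneracy maps -/

section concrete

variable (K₁ : IntermediateField ℚ Kbar) (M q : ℕ) [NeZero M] [NeZero q]

open H29R2M in
theorem phi_alpha (y : FK ↥K₁ (M * q)) :
    phi (M * q * q) K₁ (heckeAlphaBar ↥K₁ (M * q) q y) =
      heckeAlphaBar Kbar (M * q) q (phi (M * q) K₁ y) := by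
  apply Subtype.ext
  rw [phi_coe, coe_heckeAlphaBar, coe_heckeAlphaBar, phi_coe]

open H29R2M in
theorem phi_beta (y : FK ↥K₁ (M * q)) :
    phi (M * q * q) K₁ (heckeBetaBar ↥K₁ (M * q) q y) =
      heckeBetaBar Kbar (M * q) q (phi (M * q) K₁ y) := by
  apply Subtype.ext
  rw [phi_coe, coe_heckeBetaBar, coe_heckeBetaBar, phi_coe, coeffMap_qExpand]

open H29R2M in
theorem phi_JgenK {N : ℕ} [NeZero N] (d : Dv N) :
    phi N K₁ (H3V3.JgenK ↥K₁ d) = H3V3.JgenK Kbar d := by
  haveI : NeZero d.1 := ⟨Dv_ne_zero d⟩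
  apply Subtype.ext
  rw [phi_coe, H3V3.coe_JgenK, H3V3.coe_JgenK, H1S18.coeffMap_coeffEmb_hom]

open H29R2M in
/-- field generation: a subfield of `F̄(N)` containing the constants and the image of
`F_{K₁}(N)` is everything. -/
theorem mem_of_phi {N : ℕ} [NeZero N] (T : Subfield (FK Kbar N))
    (hc : ∀ c : Kbar, algebraMap Kbar (FK Kbar N) c ∈ T)
    (hphi : ∀ x : FK ↥K₁ N, phi N K₁ x ∈ T) (z : FK Kbar N) : z ∈ T :=
  H3V3.FK_induction T hc (fun d => by rw [← phi_JgenK K₁ d]; exact hphi _) z

open H29R2M in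
/-- the span condition along any `ℚ̄`-algebra homomorphism `F̄(N₁) → F̄(N)` -/
theorem span_along {N₁ N : ℕ} [NeZero N₁] [NeZero N]
    (ψ : modularFunctionFieldBar N₁ →ₐ[Kbar] modularFunctionFieldBar N)
    (hint : letI := algebraAlong ψ
      Algebra.IsAlgebraic (modularFunctionFieldBar N₁) (modularFunctionFieldBar N))
    (z : modularFunctionFieldBar N) :
    letI := algebraAlong ψ
    z ∈ Submodule.span (modularFunctionFieldBar N₁) (Set.range (phi N K₁)) := by
  letI := algebraAlong ψ
  haveI := hint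
  refine mem_span_range (F₁' := modularFunctionFieldBar N₁) (phi N K₁) (fun T hT hphi z => ?_) z
  refine mem_of_phi K₁ T (fun c => ?_) hphi z
  have h1 := hT (algebraMap Kbar (modularFunctionFieldBar N₁) c)
  have h2 : algebraMap (modularFunctionFieldBar N₁) (modularFunctionFieldBar N)
      (algebraMap Kbar (modularFunctionFieldBar N₁) c) =
      algebraMap Kbar (modularFunctionFieldBar N) c := ψ.commutes c
  rw [h2] at h1
  exact h1

set_option synthInstance.maxHeartbeats 400000 in
set_option maxHeartbeats 1600000 in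
open H29R2M in
/-- **`φ (N_α x) = N_α (φ x)`** -/
theorem phi_normAK (hq : q.Prime) (hqM : ¬ q ∣ M) (x : FK ↥K₁ (M * q * q)) :
    phi (M * q) K₁ (H13N3.normAK K₁ M q x) = H13N3.normA2 M q (phi (M * q * q) K₁ x) := by
  letI iK : Algebra (FK ↥K₁ (M * q)) (FK ↥K₁ (M * q * q)) :=
    algebraAlong (heckeAlphaBar ↥K₁ (M * q) q)
  letI iB : Algebra (modularFunctionFieldBar (M * q)) (modularFunctionFieldBar (M * q * q)) :=
    algebraAlong (heckeAlphaBar Kbar (M * q) q)
  have hrK : Module.finrank (FK ↥K₁ (M * q)) (FK ↥K₁ (M * q * q)) = q :=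
    H13N3.finrank_alphaK ↥K₁ (M * q) q hq (dvd_mul_left q M)
  have hrB : Module.finrank (modularFunctionFieldBar (M * q))
      (modularFunctionFieldBar (M * q * q)) = q :=
    H13N3.finrank_alpha_dvd (M * q) q hq (dvd_mul_left q M)
  haveI : FiniteDimensional (FK ↥K₁ (M * q)) (FK ↥K₁ (M * q * q)) :=
    Module.finite_of_finrank_pos (by rw [hrK]; exact hq.pos)
  haveI : FiniteDimensional (modularFunctionFieldBar (M * q))
      (modularFunctionFieldBar (M * q * q)) :=
    Module.finite_of_finrank_pos (by rw [hrB]; exact hq.pos)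
  have h := norm_compat_of_span (phi (M * q) K₁) (phi (M * q * q) K₁)
    (fun y => phi_alpha K₁ M q y) (hrB.trans hrK.symm)
    (fun z => span_along K₁ (heckeAlphaBar Kbar (M * q) q) inferInstance z) x
  exact h.symm

set_option synthInstance.maxHeartbeats 400000 in
set_option maxHeartbeats 1600000 in
open H29R2M in
/-- **`φ (N_β x) = N_β (φ x)`** -/
theorem phi_normBK (hq : q.Prime) (hqM : ¬ q ∣ M) (x : FK ↥K₁ (M * q * q)) :
    phi (M * q) K₁ (H13N3.normBK K₁ M q x) = H13N3.normB2 M q (phi (M * q * q) K₁ x) := by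
  letI iK : Algebra (FK ↥K₁ (M * q)) (FK ↥K₁ (M * q * q)) :=
    algebraAlong (heckeBetaBar ↥K₁ (M * q) q)
  letI iB : Algebra (modularFunctionFieldBar (M * q)) (modularFunctionFieldBar (M * q * q)) :=
    algebraAlong (heckeBetaBar Kbar (M * q) q)
  have hrK : Module.finrank (FK ↥K₁ (M * q)) (FK ↥K₁ (M * q * q)) = q :=
    H13N3.finrank_betaK K₁ M q hq hqM
  have hrB : Module.finrank (modularFunctionFieldBar (M * q))
      (modularFunctionFieldBar (M * q * q)) = q :=
    H13N3.finrank_beta_sq M q hq hqM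
  haveI : FiniteDimensional (FK ↥K₁ (M * q)) (FK ↥K₁ (M * q * q)) :=
    Module.finite_of_finrank_pos (by rw [hrK]; exact hq.pos)
  haveI : FiniteDimensional (modularFunctionFieldBar (M * q))
      (modularFunctionFieldBar (M * q * q)) :=
    Module.finite_of_finrank_pos (by rw [hrB]; exact hq.pos)
  have h := norm_compat_of_span (phi (M * q) K₁) (phi (M * q * q) K₁)
    (fun y => phi_beta K₁ M q y) (hrB.trans hrK.symm)
    (fun z => span_along K₁ (heckeBetaBar Kbar (M * q) q) inferInstance z) x
  exact h.symm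

open H29R2M in
/-- `φ (N_α x) = N_α (φ x)` with `H17FW.normA` -/
theorem phi_normAK' (hq : q.Prime) (hqM : ¬ q ∣ M) (x : FK ↥K₁ (M * q * q)) :
    H17FW.normA (M * q) q (phi (M * q * q) K₁ x) = phi (M * q) K₁ (H13N3.normAK K₁ M q x) :=
  (phi_normAK K₁ M q hq hqM x).symm

open H29R2M in
/-- `φ (N_β x) = N_β (φ x)` with `H17FW.normB` -/
theorem phi_normBK' (hq : q.Prime) (hqM : ¬ q ∣ M) (x : FK ↥K₁ (M * q * q)) :
    H17FW.normB (M * q) q (phi (M * q * q) K₁ x) = phi (M * q) K₁ (H13N3.normBK K₁ M q x) :=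
  (phi_normBK K₁ M q hq hqM x).symm

end concrete

end H28NK

end
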