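import Mathlib

/-!
# Item 86 (S36), slice (NORM), part 0 (helper13): generic norm lemmas (Mathlib only)

* `H13N3.norm_eq_prod_of_embs` : `F₂ / F₁` finite separable of degree `d`, `ε : F₁ →+* E`, and a
  family of `d` pairwise distinct ring homomorphisms `σ i : F₂ →+* E` extending `ε`; then
  `ε (N x) = ∏ i, σ i x`.
* `H13N3.norm_congr_of_embs` : congruence form: `m` an additive subgroup of `E` absorbing
  multiplication by a subring `O`, the `σ i x` in `O` and `σ i x ≡ y i mod m`, `y i ∈ O`; then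
  `ε (N x) ≡ ∏ y i mod m`.
* `H13N3.norm_transfer` : `N_ψ (W₂ x) = W₁ (N_φ x)` when `W₂ ∘ φ = ψ ∘ W₁` (ring isomorphisms).
-/

set_option autoImplicit false
set_option linter.style.haveILetI false
set_option linter.unusedSectionVars false
set_option linter.unusedVariables false

noncomputable section

namespace H13N3

section Embs

variable {F₁ F₂ E : Type*} [Field F₁] [Field F₂] [Field E] [Algebra F₁ F₂]

/-- **norm = product over a complete family of embeddings** into an arbitrary field `E`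
(not necessarily algebraically closed). -/
theorem norm_eq_prod_of_embs [FiniteDimensional F₁ F₂] [Algebra.IsSeparable F₁ F₂]
    (ε : F₁ →+* E) {ι : Type*} [Fintype ι] (σ : ι → F₂ →+* E)
    (hσ : ∀ i y, σ i (algebraMap F₁ F₂ y) = ε y) (hinj : Function.Injective σ)
    (hcard : Fintype.card ι = Module.finrank F₁ F₂) (x : F₂) :
    ε (Algebra.norm F₁ x) = ∏ i, σ i x := by
  classical
  letI iE : Algebra F₁ (AlgebraicClosure E) :=
    ((algebraMap E (AlgebraicClosure E)).comp ε).toAlgebra
  let g : ι → (F₂ →ₐ[F₁] AlgebraicClosure E) := fun i =>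
    { toRingHom := (algebraMap E (AlgebraicClosure E)).comp (σ i)
      commutes' := fun y => by
        show algebraMap E (AlgebraicClosure E) (σ i (algebraMap F₁ F₂ y))
          = algebraMap E (AlgebraicClosure E) (ε y)
        rw [hσ] }
  have hg_apply : ∀ i (z : F₂), g i z = algebraMap E (AlgebraicClosure E) (σ i z) :=
    fun _ _ => rfl
  have hinjE : Function.Injective (algebraMap E (AlgebraicClosure E)) :=
    (algebraMap E (AlgebraicClosure E)).injective
  have hg_inj : Function.Injective g := by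
    intro i j h
    apply hinj
    ext z
    have h1 := congrArg (fun τ => τ z) h
    simp only [hg_apply] at h1
    exact hinjE h1
  have hcard' : Fintype.card ι = Fintype.card (F₂ →ₐ[F₁] AlgebraicClosure E) := by
    rw [AlgHom.card, hcard]
  have hg : Function.Bijective g := (Fintype.bijective_iff_injective_and_card g).2 ⟨hg_inj, hcard'⟩
  have hnorm := Algebra.norm_eq_prod_embeddings F₁ (AlgebraicClosure E) x
  rw [← Fintype.prod_bijective g hg (fun i => g i x) _ (fun _ => rfl)] at hnorm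
  simp only [hg_apply] at hnorm
  have hL : algebraMap F₁ (AlgebraicClosure E) (Algebra.norm F₁ x)
      = algebraMap E (AlgebraicClosure E) (ε (Algebra.norm F₁ x)) := rfl
  rw [hL, ← map_prod] at hnorm
  exact hinjE hnorm

end Embs

section Congr

variable {E : Type*} [CommRing E]

/-- products of congruent elements are congruent: `O` a subring, `m` an additive subgroup with
`O · m ⊆ m`. -/
theorem prod_sub_prod_mem (O : Subring E) (m : AddSubgroup E)
    (hOm : ∀ a ∈ O, ∀ b ∈ m, a * b ∈ m) {ι : Type*} (s : Finset ι) (u v : ι → E)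
    (hu : ∀ i ∈ s, u i ∈ O) (hv : ∀ i ∈ s, v i ∈ O) (huv : ∀ i ∈ s, u i - v i ∈ m) :
    ∏ i ∈ s, u i - ∏ i ∈ s, v i ∈ m := by
  classical
  induction s using Finset.induction_on with
  | empty => simp
  | insert a s ha ih =>
    rw [Finset.prod_insert ha, Finset.prod_insert ha]
    have h1 : u a * ∏ i ∈ s, u i - v a * ∏ i ∈ s, v i
        = u a * (∏ i ∈ s, u i - ∏ i ∈ s, v i) + (∏ i ∈ s, v i) * (u a - v a) := by ring
    rw [h1]
    refine m.add_mem (hOm _ (hu a (Finset.mem_insert_self a s)) _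
      (ih (fun i hi => hu i (Finset.mem_insert_of_mem hi))
        (fun i hi => hv i (Finset.mem_insert_of_mem hi))
        (fun i hi => huv i (Finset.mem_insert_of_mem hi)))) (hOm _ ?_ _
      (huv a (Finset.mem_insert_self a s)))
    exact Subring.prod_mem O (fun i hi => hv i (Finset.mem_insert_of_mem hi))

end Congr

section CongrNorm

variable {F₁ F₂ E : Type*} [Field F₁] [Field F₂] [Field E] [Algebra F₁ F₂]

/-- **congruence form of the norm formula**. -/
theorem norm_congr_of_embs [FiniteDimensional F₁ F₂] [Algebra.IsSeparable F₁ F₂]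
    (ε : F₁ →+* E) {ι : Type*} [Fintype ι] (σ : ι → F₂ →+* E)
    (hσ : ∀ i y, σ i (algebraMap F₁ F₂ y) = ε y) (hinj : Function.Injective σ)
    (hcard : Fintype.card ι = Module.finrank F₁ F₂)
    (O : Subring E) (m : AddSubgroup E) (hOm : ∀ a ∈ O, ∀ b ∈ m, a * b ∈ m)
    (x : F₂) (y : ι → E) (hx : ∀ i, σ i x ∈ O) (hy : ∀ i, y i ∈ O)
    (hxy : ∀ i, σ i x - y i ∈ m) :
    ε (Algebra.norm F₁ x) - ∏ i, y i ∈ m := by
  rw [norm_eq_prod_of_embs ε σ hσ hinj hcard x]
  exact prod_sub_prod_mem O m hOm Finset.univ _ _ (fun i _ => hx i) (fun i _ => hy i)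
    (fun i _ => hxy i)

end CongrNorm

section Transfer

/-- **transfer of norms along a commutative square of isomorphisms**:
`W₂ ∘ φ = ψ ∘ W₁` gives `N_ψ (W₂ x) = W₁ (N_φ x)`. -/
theorem norm_transfer {F₁ F₂ : Type*} [Field F₁] [Field F₂] (φ ψ : F₁ →+* F₂)
    (W₁ : F₁ ≃+* F₁) (W₂ : F₂ ≃+* F₂)
    (h : ∀ y, W₂ (φ y) = ψ (W₁ y)) (x : F₂) :
    (letI := ψ.toAlgebra; Algebra.norm F₁ (W₂ x)) = W₁ (letI := φ.toAlgebra; Algebra.norm F₁ x) := by
  have := @Algebra.norm_eq_of_equiv_equiv F₁ F₂ F₁ F₂ _ _ _ _ φ.toAlgebra ψ.toAlgebra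
    W₁ W₂ (RingHom.ext fun y => by
      show ψ (W₁ y) = W₂ (φ y)
      rw [h]) x
  rw [this, RingEquiv.apply_symm_apply]

/-- transfer of degrees along a commutative square of isomorphisms -/
theorem finrank_transfer {F₁ F₂ : Type*} [Field F₁] [Field F₂] (φ ψ : F₁ →+* F₂)
    (W₁ : F₁ ≃+* F₁) (W₂ : F₂ ≃+* F₂)
    (h : ∀ y, W₂ (φ y) = ψ (W₁ y)) :
    (letI := ψ.toAlgebra; Module.finrank F₁ F₂) = (letI := φ.toAlgebra; Module.finrank F₁ F₂) := by
  have := @Algebra.finrank_eq_of_equiv_equiv F₁ F₂ _ _ φ.toAlgebra F₁ F₂ _ _ ψ.toAlgebra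
    W₁ W₂ (RingHom.ext fun y => by
      show ψ (W₁ y) = W₂ (φ y)
      rw [h])
  exact this.symm

end Transfer

end H13N3

end
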