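/-
Item 86 (S36), step (d) REGULARITY, slice P5/P6 ABSTRACT (helper23), Mathlib only.

The `ψ`-contradiction on the residue field `κ` of the Gauss valuation `w₁`.
`𝒪 ⊆ κ` a valuation subring (the local ring of the component `C₁` at the point),
`∂ : κ → κ` a derivation (additive, Leibniz) with `∂ 𝒪 ⊆ 𝒪`.

* `unif_of_der`  : `u ∈ 𝔪`, `∂ u ∈ 𝒪ˣ`  ⟹  `m / u ∈ 𝒪` for all `m ∈ 𝔪`  (`u` generates `𝔪`);
* `psi_contra`   : `ψ = x^(q-1) + ∂ r`, `r · u = g`, `u ∈ 𝔪`, `∂ u ∈ 𝒪ˣ`, `x ∈ 𝒪`,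
                   `ψ ψ' = 1`, `ψ' ∈ 𝔪`  ⟹  `g ∉ 𝔪`.
  (In the application: `u = x̄ - x̄^(q²)` with `∂ u = 1`, `g = -Ḡ₀`, `r = red((y - x^q)/q)`.)
* `local_contra` : the same contradiction inside a local subring `B ⊆ V₁` of the function field:
                   `ψ = e + m`, `e ∈ B`, `m ∈ 𝔪(V₁)`, `ψ ψ' = 1`, `ψ'` a non-unit of `B` ⟹ `False`.
-/
import Mathlib

set_option autoImplicit false
set_option linter.unusedSectionVars false
set_option linter.unusedVariables false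

noncomputable section

namespace H23PA

section residue

variable {κ : Type*} [Field κ] (𝒪 : ValuationSubring κ) (d : κ → κ)

/-- `u ∈ 𝔪`, `∂u` a unit of `𝒪`, `∂` a derivation preserving `𝒪`: then `u` generates `𝔪`. -/
theorem unif_of_der
    (hmul : ∀ a b : κ, d (a * b) = d a * b + a * d b)
    (hpres : ∀ a ∈ 𝒪, d a ∈ 𝒪)
    {u : κ} (hu : u ∈ 𝒪) (hu' : (⟨u, hu⟩ : 𝒪) ∈ IsLocalRing.maximalIdeal 𝒪)
    (hdu : d u ∈ 𝒪) (hdu' : IsUnit (⟨d u, hdu⟩ : 𝒪))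
    {m : κ} (hm : m ∈ 𝒪) (hm' : (⟨m, hm⟩ : 𝒪) ∈ IsLocalRing.maximalIdeal 𝒪) :
    m / u ∈ 𝒪 := by
  by_contra hcon
  have hu0 : u ≠ 0 := by
    rintro rfl
    rw [div_zero] at hcon
    exact hcon 𝒪.zero_mem
  have hm0 : m ≠ 0 := by
    rintro rfl
    rw [zero_div] at hcon
    exact hcon 𝒪.zero_mem
  -- `s := u / m ∈ 𝔪`
  have hs : u / m ∈ 𝒪 := by
    rcases 𝒪.mem_or_inv_mem (m / u) with h | h
    · exact absurd h hcon
    · rwa [inv_div] at h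
  have hs' : (⟨u / m, hs⟩ : 𝒪) ∈ IsLocalRing.maximalIdeal 𝒪 := by
    rw [IsLocalRing.mem_maximalIdeal, mem_nonunits_iff]
    intro hunit
    obtain ⟨v, hv⟩ := hunit.exists_left_inv
    apply hcon
    have h1 : (v : κ) * (u / m) = 1 := by
      have := congrArg (Subtype.val) hv
      simpa using this
    have h2 : m / u = (v : κ) := by
      field_simp at h1 ⊢
      linear_combination -h1
    rw [h2]
    exact v.2
  have hus : u = m * (u / m) := by field_simp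
  have h1 : d u = d m * (u / m) + m * d (u / m) := by
    conv_lhs => rw [hus]
    exact hmul _ _
  have hmem : (⟨d u, hdu⟩ : 𝒪) ∈ IsLocalRing.maximalIdeal 𝒪 := by
    have e : (⟨d u, hdu⟩ : 𝒪) = ⟨d m, hpres m hm⟩ * ⟨u / m, hs⟩ +
        ⟨m, hm⟩ * ⟨d (u / m), hpres _ hs⟩ := Subtype.ext h1
    rw [e]
    exact Ideal.add_mem _ (Ideal.mul_mem_left _ _ hs') (Ideal.mul_mem_right _ _ hm')
  exact (IsLocalRing.mem_maximalIdeal _).1 hmem hdu'

/-- **the `ψ`-contradiction on the residue field.** -/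
theorem psi_contra
    (hadd : ∀ a b : κ, d (a + b) = d a + d b)
    (hmul : ∀ a b : κ, d (a * b) = d a * b + a * d b)
    (hpres : ∀ a ∈ 𝒪, d a ∈ 𝒪)
    (q : ℕ) {x u r g ψ ψ' : κ}
    (hx : x ∈ 𝒪)
    (hu : u ∈ 𝒪) (hu' : (⟨u, hu⟩ : 𝒪) ∈ IsLocalRing.maximalIdeal 𝒪)
    (hdu : d u ∈ 𝒪) (hdu' : IsUnit (⟨d u, hdu⟩ : 𝒪))
    (hψ : ψ = x ^ (q - 1) + d r) (hru : r * u = g)
    (hinv : ψ * ψ' = 1)
    (hψ' : ψ' ∈ 𝒪) (hψ'm : (⟨ψ', hψ'⟩ : 𝒪) ∈ IsLocalRing.maximalIdeal 𝒪)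
    (hg : g ∈ 𝒪) : (⟨g, hg⟩ : 𝒪) ∉ IsLocalRing.maximalIdeal 𝒪 := by
  intro hgm
  have hu0 : u ≠ 0 := by
    rintro rfl
    have h0 : d (0 : κ) = 0 := by
      have := hadd 0 0
      rw [add_zero] at this
      exact left_eq_add.mp this
    rw [IsLocalRing.mem_maximalIdeal, mem_nonunits_iff] at hu'
    have : (⟨d 0, hdu⟩ : 𝒪) = 0 := Subtype.ext h0
    rw [this] at hdu'
    exact not_isUnit_zero hdu'
  have hr : r ∈ 𝒪 := by
    have h1 := unif_of_der 𝒪 d hmul hpres hu hu' hdu hdu' hg hgm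
    have h2 : g / u = r := by
      rw [← hru]
      field_simp
    rwa [h2] at h1
  have hψO : ψ ∈ 𝒪 := by
    rw [hψ]
    exact 𝒪.add_mem _ _ (𝒪.pow_mem hx _) (hpres r hr)
  have h1 : (⟨ψ', hψ'⟩ : 𝒪) * ⟨ψ, hψO⟩ = 1 :=
    Subtype.ext (show ψ' * ψ = 1 by rw [mul_comm]; exact hinv)
  have hunit : IsUnit (⟨ψ', hψ'⟩ : 𝒪) := IsUnit.of_mul_eq_one _ h1
  exact (IsLocalRing.mem_maximalIdeal _).1 hψ'm hunit

end residue

section loc

variable {F : Type*} [Field F]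

/-- **the `ψ`-contradiction in a local ring `B ⊆ V₁`.**  `B` a subring of `F` in which the
non-units are closed under addition (`B` local), `V₁ ⊇ B` a valuation subring. -/
theorem local_contra (B : Subring F) (V₁ : ValuationSubring F) (hBV : B ≤ V₁.toSubring)
    (hloc : ∀ a b : B, ¬ IsUnit a → ¬ IsUnit b → ¬ IsUnit (a + b))
    {ψ ψ' e m : F} (hψ : ψ = e + m) (he : e ∈ B) (hm : m ∈ V₁) (hm' : m⁻¹ ∉ V₁ ∨ m = 0)
    (hinv : ψ * ψ' = 1) (hψ' : ψ' ∈ B) (hψ'n : ¬ IsUnit (⟨ψ', hψ'⟩ : B)) : False := by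
  have h1 : e * ψ' + m * ψ' = 1 := by rw [← add_mul, ← hψ, hinv]
  have hmψ : m * ψ' ∈ B := by
    have : m * ψ' = 1 - e * ψ' := by linear_combination h1
    rw [this]
    exact B.sub_mem B.one_mem (B.mul_mem he hψ')
  have ha : ¬ IsUnit ((⟨e, he⟩ : B) * ⟨ψ', hψ'⟩) := by
    intro h
    exact hψ'n (isUnit_of_mul_isUnit_right h)
  have hb : ¬ IsUnit (⟨m * ψ', hmψ⟩ : B) := by
    intro h
    obtain ⟨v, hv⟩ := h.exists_left_inv
    have hv' : (v : F) * (m * ψ') = 1 := by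
      have := congrArg Subtype.val hv
      simpa using this
    rcases hm' with hm' | hm'
    · apply hm'
      have hm0 : m ≠ 0 := by
        rintro rfl
        simp at hv'
      have : m⁻¹ = (v : F) * ψ' :=
        inv_eq_of_mul_eq_one_right (by linear_combination hv')
      rw [this]
      exact V₁.mul_mem _ _ (hBV v.2) (hBV hψ')
    · rw [hm'] at hv'
      simp at hv'
  have hsum := hloc _ _ ha hb
  apply hsum
  have : (⟨e, he⟩ : B) * ⟨ψ', hψ'⟩ + ⟨m * ψ', hmψ⟩ = 1 := Subtype.ext h1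
  rw [this]
  exact isUnit_one

end loc

end H23PA

end
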