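import Mathlib
import Fermat.Agent.S24.A1Deg
import Fermat.Agent.S24.A3bFinal
import Fermat.Agent.S24.PlaceBasic

/-!
# Item 86 (S36), local structure (d), `ψ`-proof of helper23: the horizontal derivation lemma (H)

`K` algebraically closed of characteristic `0`, `F / K` a function field in one variable
(`F` finite over `K(y₀)`), `V` a place of `F / K`.

* `H16PD.h16pd_ordDiff_nonneg` : `f ∈ O_V ⟹ 0 ≤ ord_V (df)`;
* `H16PD.h16pd_ordDiff_unr`    : `y ∈ O_V`, some polynomial in `y` is a uniformizer at `V`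
  (the conclusion of `H7S18.UnrOutside` at `V`) `⟹ y` transcendental and `ord_V (dy) = 0`;
* `H16PD.h16pd_smul`           : `dx = g · dy`, `x ∈ O_V`, `y` unramified at `V ⟹ 0 ≤ ord_V g`;
* `H16PD.h16pd_der`   **(H)**  : a derivation `𝒟` of `F / K` with `𝒟 y = 1`, `y` unramified at `V`,
  preserves `O_V`;
* `H16PD.h16pd_H`              : a derivation `𝒟` with `𝒟 x = 1`, `x ∈ O_V`, `y` unramified at `V`:
  `𝒟 y ≠ 0` and `ord_V (𝒟 y) ≤ 0`  (`ψ⁻¹ = q · (D_x y)⁻¹ ∈ O_V`).

Everything is a corollary of the local formula `ord_V (df) = ord_V f − 1` of the Riemann–Hurwitz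
crew (`RH24.ordDifferential_D`).
-/

set_option autoImplicit false
set_option linter.unusedSectionVars false
set_option linter.unusedVariables false
set_option linter.style.haveILetI false

noncomputable section

namespace H16PD

open AlgebraicCurve KaehlerDifferential IntermediateField Polynomial RH24

variable {K F : Type*} [Field K] [IsAlgClosed K] [CharZero K] [Field F] [Algebra K F]

/-- an element of `F` which is algebraic over the algebraically closed field `K` is a constant -/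
theorem h16pd_const_of_algebraic (f : F) (hf : IsAlgebraic K f) :
    ∃ c : K, f = algebraMap K F c := by
  have h1 := IsAlgClosed.degree_eq_one_of_irreducible K (minpoly.irreducible hf.isIntegral)
  obtain ⟨c, hc⟩ := minpoly.mem_range_of_degree_eq_one K f h1
  exact ⟨c, hc.symm⟩

section main

variable (y₀ : F) (hy₀ : Transcendental K y₀) [FiniteDimensional K⟮y₀⟯ F] (V : Place K F)

include hy₀ in
theorem h16pd_nontrivial : Nontrivial Ω[F⁄K] :=
  ⟨⟨D K F y₀, 0, D_ne_zero y₀ hy₀ y₀ hy₀⟩⟩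

include hy₀ in
/-- the coefficient of a nonzero differential is nonzero -/
theorem h16pd_coeff_ne_zero {ω : Ω[F⁄K]} (hω : ω ≠ 0) : V.differentialCoeff ω ≠ 0 := by
  haveI := dCoordGenerates y₀ hy₀ V
  intro h0
  apply hω
  rw [← V.differentialCoeff_smul_dCoord ω, h0, zero_smul]

include hy₀ in
/-- `ord_V (0) = 0` for the zero differential -/
theorem h16pd_ordDiff_zero : V.ordDifferential (0 : Ω[F⁄K]) = 0 := by
  haveI := dCoordGenerates y₀ hy₀ V
  haveI := h16pd_nontrivial y₀ hy₀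
  rw [Place.ordDifferential, V.differentialCoeff_zero, V.ord_zero]

include hy₀ in
/-- **`f ∈ O_V ⟹ 0 ≤ ord_V (df)`**. -/
theorem h16pd_ordDiff_nonneg (f : F) (hf : 0 ≤ V.ord f) :
    0 ≤ V.ordDifferential (D K F f) := by
  by_cases htr : Transcendental K f
  · haveI : FiniteDimensional K⟮f⟯ F := finiteDimensional_adjoin_of_transcendental y₀ f htr
    obtain ⟨a, ha⟩ := exists_center f htr V hf
    have h1 := ordDifferential_D y₀ hy₀ V (f - algebraMap K F a) (by omega)
    rw [map_sub, Derivation.map_algebraMap, sub_zero] at h1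
    rw [h1]
    omega
  · have halg : IsAlgebraic K f := by
      by_contra h
      exact htr h
    obtain ⟨c, rfl⟩ := h16pd_const_of_algebraic f halg
    rw [Derivation.map_algebraMap, h16pd_ordDiff_zero y₀ hy₀ V]

/-- polynomials in an element of `O_V` are in `O_V` -/
theorem h16pd_ord_aeval_nonneg {y : F} (hy : 0 ≤ V.ord y) (P : K[X]) :
    0 ≤ V.ord (aeval y P) := by
  apply h20_ord_nonneg_of_mem
  have hyO : y ∈ V.toValuationSubring := by
    rcases eq_or_ne y 0 with rfl | h0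
    · exact zero_mem _
    · exact (h20_mem_iff_ord_nonneg V h0).2 hy
  rw [aeval_eq_sum_range]
  refine sum_mem fun i _ => ?_
  rw [Algebra.smul_def]
  exact mul_mem (V.algebraMap_mem' _) (pow_mem hyO i)

/-- an element with a nonzero order is transcendental -/
theorem h16pd_transcendental_of_ord_ne {u : F} (hu : V.ord u ≠ 0) : Transcendental K u := by
  intro halg
  obtain ⟨c, rfl⟩ := h16pd_const_of_algebraic u halg
  exact hu (h20_ord_algebraMap V c)

include hy₀ in
/-- **unramified ⟹ `ord_V (dy) = 0`**: if `y ∈ O_V` and some polynomial in `y` is a uniformizer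
at `V`, then `y` is transcendental and `ord_V (dy) = 0`. -/
theorem h16pd_ordDiff_unr (y : F) (hy : 0 ≤ V.ord y)
    (hunr : ∃ Q : K[X], V.ord (aeval y Q) = 1) :
    Transcendental K y ∧ D K F y ≠ 0 ∧ V.ordDifferential (D K F y) = 0 := by
  haveI := dCoordGenerates y₀ hy₀ V
  haveI := h16pd_nontrivial y₀ hy₀
  obtain ⟨Q, hQ⟩ := hunr
  have hutr : Transcendental K (aeval y Q) :=
    h16pd_transcendental_of_ord_ne V (by omega)
  have hytr : Transcendental K y := by
    intro halg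
    obtain ⟨c, rfl⟩ := h16pd_const_of_algebraic y halg
    apply hutr
    rw [aeval_algebraMap_apply]
    exact isAlgebraic_algebraMap _
  have hDu : D K F (aeval y Q) ≠ 0 := D_ne_zero y₀ hy₀ _ hutr
  have hDy : D K F y ≠ 0 := D_ne_zero y₀ hy₀ _ hytr
  have h1 := ordDifferential_D y₀ hy₀ V (aeval y Q) (by omega)
  rw [hQ, sub_self] at h1
  have h2 : D K F (aeval y Q) = aeval y (derivative Q) • D K F y :=
    (D K F).map_aeval Q y
  have he : aeval y (derivative Q) ≠ 0 := by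
    intro h0
    apply hDu
    rw [h2, h0, zero_smul]
  rw [h2, V.ordDifferential_smul he (h16pd_coeff_ne_zero y₀ hy₀ V hDy)] at h1
  have h3 := h16pd_ord_aeval_nonneg V hy (derivative Q)
  have h4 := h16pd_ordDiff_nonneg y₀ hy₀ V y hy
  exact ⟨hytr, hDy, by omega⟩

include hy₀ in
/-- **(H), differential form**: if `dx = g · dy`, `x ∈ O_V` and `y` is unramified at `V`,
then `g ∈ O_V`. -/
theorem h16pd_smul (x y g : F) (hx : 0 ≤ V.ord x) (hy : 0 ≤ V.ord y)
    (hunr : ∃ Q : K[X], V.ord (aeval y Q) = 1) (hg : D K F x = g • D K F y) :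
    0 ≤ V.ord g := by
  haveI := dCoordGenerates y₀ hy₀ V
  haveI := h16pd_nontrivial y₀ hy₀
  rcases eq_or_ne g 0 with rfl | hg0
  · rw [V.ord_zero]
  obtain ⟨-, hDy, h0⟩ := h16pd_ordDiff_unr y₀ hy₀ V y hy hunr
  have h1 := h16pd_ordDiff_nonneg y₀ hy₀ V x hx
  rw [hg, V.ordDifferential_smul hg0 (h16pd_coeff_ne_zero y₀ hy₀ V hDy), h0] at h1
  omega

include hy₀ in
/-- every differential `df` is a multiple of `dy`, `y` transcendental, and the multiple is
`𝒟 f` for every derivation `𝒟` with `𝒟 y = 1`. -/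
theorem h16pd_D_eq_smul (𝒟 : Derivation K F F) (y : F) (hytr : Transcendental K y)
    (h𝒟 : 𝒟 y = 1) (f : F) : D K F f = 𝒟 f • D K F y := by
  obtain ⟨g, hg, -⟩ := h5a_exists_unique_smul y₀ hy₀ y hytr (D K F f)
  have h1 := congrArg 𝒟.liftKaehlerDifferential hg
  rw [map_smul, Derivation.liftKaehlerDifferential_comp_D,
    Derivation.liftKaehlerDifferential_comp_D, h𝒟, smul_eq_mul, mul_one] at h1
  rw [h1]
  exact hg

include hy₀ in
/-- **(H)**: a derivation `𝒟` of `F / K` with `𝒟 y = 1`, where `y ∈ O_V` is unramified at `V`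
(some polynomial in `y` is a uniformizer at `V`), preserves `O_V`. -/
theorem h16pd_der (𝒟 : Derivation K F F) (y : F) (h𝒟 : 𝒟 y = 1) (hy : 0 ≤ V.ord y)
    (hunr : ∃ Q : K[X], V.ord (aeval y Q) = 1) (f : F) (hf : 0 ≤ V.ord f) :
    0 ≤ V.ord (𝒟 f) := by
  obtain ⟨hytr, -, -⟩ := h16pd_ordDiff_unr y₀ hy₀ V y hy hunr
  exact h16pd_smul y₀ hy₀ V f y (𝒟 f) hf hy hunr (h16pd_D_eq_smul y₀ hy₀ 𝒟 y hytr h𝒟 f)

include hy₀ in
/-- **(H) for `ψ⁻¹`**: a derivation `𝒟` of `F / K` with `𝒟 x = 1`, `x ∈ O_V`, and `y ∈ O_V`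
unramified at `V`: then `𝒟 y ≠ 0` and `ord_V (𝒟 y) ≤ 0`, i.e. `(𝒟 y)⁻¹ ∈ O_V`. -/
theorem h16pd_H (𝒟 : Derivation K F F) (x y : F) (h𝒟 : 𝒟 x = 1) (hx : 0 ≤ V.ord x)
    (hy : 0 ≤ V.ord y) (hunr : ∃ Q : K[X], V.ord (aeval y Q) = 1) :
    𝒟 y ≠ 0 ∧ V.ord (𝒟 y) ≤ 0 ∧ 0 ≤ V.ord (𝒟 y)⁻¹ := by
  obtain ⟨hytr, hDy, -⟩ := h16pd_ordDiff_unr y₀ hy₀ V y hy hunr
  have hne : 𝒟 y ≠ 0 := by
    intro h0
    -- `𝒟` kills `y`, hence everything (every `df` is a multiple of `dy`)
    obtain ⟨g, hg, -⟩ := h5a_exists_unique_smul y₀ hy₀ y hytr (D K F x)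
    have h1 := congrArg 𝒟.liftKaehlerDifferential hg
    rw [map_smul, Derivation.liftKaehlerDifferential_comp_D,
      Derivation.liftKaehlerDifferential_comp_D, h𝒟, h0, smul_zero] at h1
    exact one_ne_zero h1
  -- the derivation `(𝒟 y)⁻¹ • 𝒟` sends `y` to `1`
  have h2 : ((𝒟 y)⁻¹ • 𝒟) y = 1 := by
    rw [Derivation.smul_apply, smul_eq_mul, inv_mul_cancel₀ hne]
  have h3 := h16pd_der y₀ hy₀ V ((𝒟 y)⁻¹ • 𝒟) y h2 hy hunr x hx
  rw [Derivation.smul_apply, h𝒟, smul_eq_mul, mul_one] at h3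
  refine ⟨hne, ?_, h3⟩
  rw [V.ord_inv] at h3
  omega

end main

end H16PD

end
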