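import Mathlib
import Fermat.Agent.S36.PsiDer_helper16
import Fermat.Agent.S18.Defs

/-!
# Item 86 (S36), local structure (d), `ψ`-proof of helper23: generic parts of slices 4 and 5

`K` algebraically closed of characteristic `0`, `F / K` a function field in one variable.

* `H16PD.h16pd_lift` : (slice 4, "`D = d/dx` preserves `F` and is `(θx)⁻¹ θ` on expansions")
  if `df = g · dx` in `Ω[F⁄K]` and `Θ` is a `K`-derivation of an overfield `E ⊇ F`
  (e.g. `E = K((Q))`, `Θ = θ = Q d/dQ`), then `Θ f = g · Θ x`;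
* `H16PD.h16pd_W`    : (slice 4, (V2)) if `W` is a `K`-automorphism of `F` exchanging `x` and `y`
  and `dy = g · dx`, then `W g · g = 1`   (`W ψ = 1 / (q² ψ)` for `g = q ψ`);
* `H16PD.h16pd_unrOutside_map` : (slice 5) `H7S18.UnrOutside` is transported by
  `K`-automorphisms (`x = j ↦ y = W j`);
* `H16PD.h16pd_horizontal` : (slice 5, (H)) `x, y ∈ O_V`, `y` away from the branch set `S` at `V`,
  `UnrOutside S y`, `dy = g · dx`  ⟹  `g ≠ 0` and `ord_V g ≤ 0`; if also `x` is away from `S`
  and `UnrOutside S x`, then `ord_V g = 0`.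
-/

set_option autoImplicit false
set_option linter.unusedSectionVars false
set_option linter.unusedVariables false
set_option linter.style.haveILetI false

noncomputable section

namespace H16PD

open AlgebraicCurve KaehlerDifferential IntermediateField Polynomial RH24

section lift

variable {K F E : Type*} [Field K] [Field F] [Algebra K F] [Field E] [Algebra K E] [Algebra F E]
  [IsScalarTower K F E]

/-- **expansion of `df/dx`**: if `df = g · dx` in `Ω[F⁄K]` and `Θ` is a `K`-derivation of an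
overfield `E` of `F`, then `Θ f = g · Θ x` in `E`. -/
theorem h16pd_lift (Θ : Derivation K E E) (x f g : F) (hg : D K F f = g • D K F x) :
    Θ (algebraMap F E f) = algebraMap F E g * Θ (algebraMap F E x) := by
  have h1 := congrArg (Θ.compAlgebraMap F).liftKaehlerDifferential hg
  rw [map_smul, Derivation.liftKaehlerDifferential_comp_D,
    Derivation.liftKaehlerDifferential_comp_D] at h1
  simpa [Derivation.compAlgebraMap, Algebra.smul_def] using h1

end lift

section conj

variable {K F : Type*} [Field K] [Field F] [Algebra K F]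

/-- the conjugate `W ∘ 𝒟 ∘ W⁻¹` of a derivation by an automorphism -/
def h16pd_conj (W : F ≃ₐ[K] F) (𝒟 : Derivation K F F) : Derivation K F F :=
  Derivation.mk' (W.toLinearMap ∘ₗ (𝒟 : F →ₗ[K] F) ∘ₗ W.symm.toLinearMap) (by
    intro a b
    simp only [LinearMap.coe_comp, Function.comp_apply, AlgEquiv.toLinearMap_apply,
      Derivation.coeFn_coe, map_mul, Derivation.leibniz, map_add, smul_eq_mul,
      AlgEquiv.apply_symm_apply])

@[simp]
theorem h16pd_conj_apply (W : F ≃ₐ[K] F) (𝒟 : Derivation K F F) (f : F) :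
    h16pd_conj W 𝒟 f = W (𝒟 (W.symm f)) := rfl

end conj

section W

variable {K F : Type*} [Field K] [IsAlgClosed K] [CharZero K] [Field F] [Algebra K F]
variable (y₀ : F) (hy₀ : Transcendental K y₀) [FiniteDimensional K⟮y₀⟯ F]

include hy₀ in
/-- existence of the derivation `d/dx` for a transcendental `x` -/
theorem h16pd_exists_der (x : F) (hx : Transcendental K x) :
    ∃ 𝒟 : Derivation K F F, 𝒟 x = 1 ∧ ∀ f g : F, D K F f = g • D K F x → 𝒟 f = g := by
  haveI : FiniteDimensional K⟮x⟯ F := finiteDimensional_adjoin_of_transcendental y₀ x hx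
  obtain ⟨φ, hφ⟩ := h5a_exists_equiv x hx
  refine ⟨(φ : Ω[F⁄K] →ₗ[F] F).compDer (D K F), ?_, ?_⟩
  · show φ (D K F x) = 1
    exact hφ
  · intro f g hg
    show φ (D K F f) = g
    rw [hg, map_smul, hφ, smul_eq_mul, mul_one]

include hy₀ in
/-- **(V2), generic**: if the `K`-automorphism `W` exchanges `x` and `y` and `dy = g · dx`, then
`W g · g = 1`. -/
theorem h16pd_W (W : F ≃ₐ[K] F) (x y g : F) (hx : Transcendental K x) (hWx : W x = y)
    (hWy : W y = x) (hg : D K F y = g • D K F x) : W g * g = 1 := by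
  obtain ⟨𝒟, h𝒟x, h𝒟⟩ := h16pd_exists_der y₀ hy₀ x hx
  have h𝒟y : 𝒟 y = g := h𝒟 y g hg
  have hytr : Transcendental K y := by
    intro halg
    obtain ⟨c, hc⟩ := h16pd_const_of_algebraic y halg
    apply hx
    rw [← hWy, hc, AlgEquiv.commutes]
    exact isAlgebraic_algebraMap _
  have hsx : W.symm y = x := by rw [← hWx, AlgEquiv.symm_apply_apply]
  have hsy : W.symm x = y := by rw [← hWy, AlgEquiv.symm_apply_apply]
  have h1 : h16pd_conj W 𝒟 y = 1 := by
    rw [h16pd_conj_apply, hsx, h𝒟x, map_one]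
  have h2 := h16pd_D_eq_smul y₀ hy₀ (h16pd_conj W 𝒟) y hytr h1 x
  rw [h16pd_conj_apply, hsy, h𝒟y, hg, smul_smul] at h2
  have hDx : D K F x ≠ 0 := D_ne_zero y₀ hy₀ x hx
  have h3 : (W g * g - 1) • D K F x = 0 := by
    rw [sub_smul, one_smul, ← h2, sub_self]
  rcases smul_eq_zero.mp h3 with h | h
  · exact sub_eq_zero.mp h
  · exact absurd h hDx

end W

section transport

variable (R : Type) [CommRing R] (K : Type) [Field K] [Algebra R K]
  {E : Type} [Field E] [Algebra K E] [Algebra R E] [IsScalarTower R K E]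

/-- **`UnrOutside` is transported by `K`-automorphisms.** -/
theorem h16pd_unrOutside_map (S : Finset R) (t : E) (W : E ≃ₐ[K] E)
    (h : H7S18.UnrOutside R K S t) : H7S18.UnrOutside R K S (W t) := by
  intro V hV hS
  have e1 : ∀ f : E, (W.symm • V).ord f = V.ord (W f) := by
    intro f
    have := Place.ord_smul W.symm V (W f)
    rwa [AlgEquiv.symm_apply_apply] at this
  have hc : ∀ c : R, W (algebraMap R E c) = algebraMap R E c := by
    intro c
    rw [IsScalarTower.algebraMap_apply R K E, AlgEquiv.commutes]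
  obtain ⟨Q, hQ⟩ := h (W.symm • V) (by rw [e1]; exact hV) (by
    intro c hcS
    rw [e1, map_sub, hc]
    exact hS c hcS)
  refine ⟨Q, ?_⟩
  rw [e1] at hQ
  have h2 : W (aeval t Q) = aeval (W t) Q := (Polynomial.aeval_algHom_apply (W : E →ₐ[K] E) t Q).symm
  rwa [h2] at hQ

end transport

section horizontal

variable (R : Type) [CommRing R] (K : Type) [Field K] [IsAlgClosed K] [CharZero K] [Algebra R K]
  {F : Type} [Field F] [Algebra K F] [Algebra R F] [IsScalarTower R K F]
variable (y₀ : F) (hy₀ : Transcendental K y₀) [FiniteDimensional K⟮y₀⟯ F]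

include hy₀ in
/-- **(H)**: `x, y ∈ O_V`, `y` away from the branch set at `V`, `F / K(y)` unramified outside the
branch set, `dy = g · dx`: then `g ≠ 0` and `ord_V g ≤ 0`  (`g⁻¹ ∈ O_V`). -/
theorem h16pd_horizontal (S : Finset R) (x y g : F) (hunr : H7S18.UnrOutside R K S y)
    (V : Place K F) (hx : 0 ≤ V.ord x) (hy : 0 ≤ V.ord y)
    (hS : ∀ c ∈ S, V.ord (y - algebraMap R F c) ≤ 0) (hg : D K F y = g • D K F x) :
    g ≠ 0 ∧ V.ord g ≤ 0 := by
  have hQ := hunr V hy hS
  obtain ⟨hytr, hDy, -⟩ := h16pd_ordDiff_unr y₀ hy₀ V y hy hQ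
  have hg0 : g ≠ 0 := by
    rintro rfl
    rw [zero_smul] at hg
    exact hDy hg
  refine ⟨hg0, ?_⟩
  have h1 : D K F x = g⁻¹ • D K F y := by
    rw [hg, smul_smul, inv_mul_cancel₀ hg0, one_smul]
  have h2 := h16pd_smul y₀ hy₀ V x y g⁻¹ hx hy hQ h1
  rw [V.ord_inv] at h2
  omega

include hy₀ in
/-- **(H), both ways**: if moreover `x` is away from the branch set at `V` and `F / K(x)` is
unramified outside the branch set, then `g` is a unit at `V`. -/
theorem h16pd_horizontal_unit (S : Finset R) (x y g : F) (hunrx : H7S18.UnrOutside R K S x)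
    (hunry : H7S18.UnrOutside R K S y)
    (V : Place K F) (hx : 0 ≤ V.ord x) (hy : 0 ≤ V.ord y)
    (hSx : ∀ c ∈ S, V.ord (x - algebraMap R F c) ≤ 0)
    (hSy : ∀ c ∈ S, V.ord (y - algebraMap R F c) ≤ 0) (hg : D K F y = g • D K F x) :
    g ≠ 0 ∧ V.ord g = 0 := by
  obtain ⟨hg0, h1⟩ := h16pd_horizontal R K y₀ hy₀ S x y g hunry V hx hy hSy hg
  have h2 := h16pd_smul y₀ hy₀ V y x g hy hx (hunrx V hx hSx) hg
  exact ⟨hg0, by omega⟩

end horizontal

end H16PD

end
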