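import Mathlib

/-!
# Item 86 (S36), slice (d)/ψ-proof, abstract part 4 (helper12): derivations of function fields

Mathlib only.  `K` a field of characteristic `0`, `Λ ⊇ K` a field (`Λ = K((𝐪))`),
`D : Derivation K Λ Λ`.

* `H12PD.der_aeval` : `D (P(f)) = P'(f) · D f + ∑ f^i · D(c_i)` for `P = ∑ c_i X^i ∈ E[X]`;
* `H12PD.der_mem` **(4b)**: `E ≤ F` intermediate fields, `D E ⊆ F`, `F / E` algebraic:
  then `D F ⊆ F`;
* `H12PD.der_mem_adjoin_simple` : `D x ∈ F`, `x ∈ F` ⟹ `D (K(x)) ⊆ F`;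
* `H12PD.der_mem_of_gen` **(4b')**: `x ∈ F`, `D x ∈ F`, `F / K(x)` algebraic ⟹ `D F ⊆ F`;
* `H12PD.der_eq_zero_of_gen` **(4a)**: `D : Derivation K F F`, `D y = 0`, `F / K(y)` algebraic
  ⟹ `D = 0`;
* `H12PD.w_der` **(V2)**: `W : F ≃+* F` fixing `K`, `W x = y`, `W y = x`, `D x = 1`,
  `F / K(y)` algebraic ⟹ `D y ≠ 0` and `W (D y) = (D y)⁻¹`
  (for `ψ = D y / q`: `W ψ = 1 / (q² ψ)`).
-/

set_option autoImplicit false
set_option linter.style.longLine false
set_option linter.unusedSectionVars false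
set_option linter.unusedVariables false
set_option linter.style.haveILetI false

open Polynomial IntermediateField

namespace H12PD

section Core

variable {K Λ : Type*} [Field K] [Field Λ] [Algebra K Λ]

/-- the chain rule with non-constant coefficients -/
theorem der_aeval (D : Derivation K Λ Λ) (E : IntermediateField K Λ) (P : (↥E)[X]) (f : Λ) :
    D (aeval f P) = aeval f (derivative P) * D f +
      P.sum (fun i c => f ^ i * D (c : Λ)) := by
  induction P using Polynomial.induction_on' with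
  | add p q hp hq =>
      rw [map_add, map_add, hp, hq, derivative_add, map_add, add_mul,
        Polynomial.sum_add_index]
      · ring
      · intro i
        simp
      · intro i a b
        push_cast
        rw [map_add, mul_add]
  | monomial n c =>
      rw [aeval_monomial, Derivation.leibniz, Derivation.leibniz_pow, derivative_monomial,
        aeval_monomial, Polynomial.sum_monomial_index]
      · simp only [smul_eq_mul, nsmul_eq_mul, map_mul, map_natCast]
        have : (algebraMap ↥E Λ) c = (c : Λ) := rfl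
        rw [this]
        ring
      · simp

/-- `P(f) ∈ F` for `P ∈ E[X]`, `E ≤ F`, `f ∈ F` -/
theorem aeval_mem (E F : IntermediateField K Λ) (hEF : E ≤ F) (P : (↥E)[X]) {f : Λ}
    (hf : f ∈ F) : aeval f P ∈ F := by
  rw [aeval_eq_sum_range]
  refine F.sum_mem (fun i _ => ?_)
  rw [Algebra.smul_def]
  exact F.mul_mem (hEF (P.coeff i).2) (pow_mem hf i)

/-- **(4b)**: a derivation mapping `E` into `F ⊇ E` maps `F` into itself, if `F / E` is
algebraic (characteristic `0`). -/
theorem der_mem [CharZero K] (D : Derivation K Λ Λ) (E F : IntermediateField K Λ) (hEF : E ≤ F)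
    (hDE : ∀ c ∈ E, D c ∈ F) (halg : ∀ f ∈ F, IsAlgebraic ↥E f) {f : Λ} (hf : f ∈ F) :
    D f ∈ F := by
  have hint : IsIntegral ↥E f := (halg f hf).isIntegral
  haveI : CharZero ↥E := charZero_of_injective_algebraMap (algebraMap K ↥E).injective
  have hsep : (minpoly ↥E f).Separable := (minpoly.irreducible hint).separable
  have h0 : aeval f (minpoly ↥E f) = 0 := minpoly.aeval _ _
  have hne : aeval f (derivative (minpoly ↥E f)) ≠ 0 := hsep.aeval_derivative_ne_zero h0
  have h1 := der_aeval D E (minpoly ↥E f) f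
  rw [h0, map_zero] at h1
  have hsum : (minpoly ↥E f).sum (fun i c => f ^ i * D (c : Λ)) ∈ F := by
    rw [Polynomial.sum_def]
    exact F.sum_mem (fun i _ => F.mul_mem (pow_mem hf i) (hDE _ (Subtype.mem _)))
  have hP' : aeval f (derivative (minpoly ↥E f)) ∈ F := aeval_mem E F hEF _ hf
  have h2 : D f = -((minpoly ↥E f).sum (fun i c => f ^ i * D (c : Λ))) /
      aeval f (derivative (minpoly ↥E f)) := by
    rw [eq_div_iff hne]
    linear_combination -h1
  rw [h2]
  exact F.div_mem (F.neg_mem hsum) hP'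

/-- `D` maps `K(x)` into `F` if `x, D x ∈ F`. -/
theorem der_mem_adjoin_simple (D : Derivation K Λ Λ) (F : IntermediateField K Λ) {x : Λ}
    (hx : x ∈ F) (hDx : D x ∈ F) {c : Λ} (hc : c ∈ K⟮x⟯) : D c ∈ F := by
  obtain ⟨r, s, rfl⟩ := (mem_adjoin_simple_iff K c).mp hc
  rw [Derivation.leibniz_div, Derivation.comp_aeval_eq, Derivation.comp_aeval_eq]
  have h1 : ∀ p : K[X], aeval x p ∈ F := fun p => by
    rw [aeval_eq_sum_range]
    refine F.sum_mem (fun i _ => ?_)
    rw [Algebra.smul_def]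
    exact F.mul_mem (F.algebraMap_mem _) (pow_mem hx i)
  simp only [smul_eq_mul]
  exact F.mul_mem (pow_mem (F.inv_mem (h1 s)) 2)
    (F.sub_mem (F.mul_mem (h1 s) (F.mul_mem (h1 _) hDx))
      (F.mul_mem (h1 r) (F.mul_mem (h1 _) hDx)))

/-- **(4b')**: `x, D x ∈ F`, `F / K(x)` algebraic ⟹ `D F ⊆ F`. -/
theorem der_mem_of_gen [CharZero K] (D : Derivation K Λ Λ) (F : IntermediateField K Λ) {x : Λ}
    (hx : x ∈ F) (hDx : D x ∈ F) (halg : ∀ f ∈ F, IsAlgebraic ↥(K⟮x⟯) f) {f : Λ} (hf : f ∈ F) :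
    D f ∈ F := by
  have hEF : K⟮x⟯ ≤ F := by
    rw [adjoin_simple_le_iff]
    exact hx
  exact der_mem D K⟮x⟯ F hEF (fun c hc => der_mem_adjoin_simple D F hx hDx hc) halg hf

end Core

section Field

variable {K F : Type*} [Field K] [Field F] [Algebra K F] [CharZero K]

/-- **(4a)**: a `K`-derivation of `F` killing `y` is zero, if `F / K(y)` is algebraic. -/
theorem der_eq_zero_of_gen (D : Derivation K F F) (y : F) (hy : D y = 0)
    (halg : ∀ f : F, IsAlgebraic ↥(K⟮y⟯) f) (f : F) : D f = 0 := by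
  have hE : ∀ c ∈ K⟮y⟯, D c = 0 := by
    intro c hc
    obtain ⟨r, s, rfl⟩ := (mem_adjoin_simple_iff K c).mp hc
    rw [Derivation.leibniz_div, Derivation.comp_aeval_eq, Derivation.comp_aeval_eq, hy]
    simp
  have hint : IsIntegral ↥(K⟮y⟯) f := (halg f).isIntegral
  haveI : CharZero ↥(K⟮y⟯) := charZero_of_injective_algebraMap (algebraMap K ↥(K⟮y⟯)).injective
  have hsep : (minpoly ↥(K⟮y⟯) f).Separable := (minpoly.irreducible hint).separable
  have h0 : aeval f (minpoly ↥(K⟮y⟯) f) = 0 := minpoly.aeval _ _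
  have hne : aeval f (derivative (minpoly ↥(K⟮y⟯) f)) ≠ 0 := hsep.aeval_derivative_ne_zero h0
  have h1 := der_aeval D K⟮y⟯ (minpoly ↥(K⟮y⟯) f) f
  rw [h0, map_zero] at h1
  have hsum : (minpoly ↥(K⟮y⟯) f).sum (fun i c => f ^ i * D (c : F)) = 0 := by
    rw [Polynomial.sum_def]
    refine Finset.sum_eq_zero (fun i _ => ?_)
    rw [hE _ (Subtype.mem _), mul_zero]
  rw [hsum, add_zero] at h1
  rcases mul_eq_zero.mp h1.symm with h | h
  · exact absurd h hne
  · exact h

/-- two `K`-derivations of `F` which agree at `y` are equal, if `F / K(y)` is algebraic. -/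
theorem der_ext_of_gen (D₁ D₂ : Derivation K F F) (y : F) (hy : D₁ y = D₂ y)
    (halg : ∀ f : F, IsAlgebraic ↥(K⟮y⟯) f) (f : F) : D₁ f = D₂ f := by
  have h := der_eq_zero_of_gen (D₁ - D₂) y (by rw [Derivation.sub_apply, hy, sub_self]) halg f
  rw [Derivation.sub_apply, sub_eq_zero] at h
  exact h

/-- the conjugate `W D W⁻¹` of a derivation by an automorphism fixing `K` -/
def conjDer (D : Derivation K F F) (W : F ≃ₐ[K] F) : Derivation K F F :=
  Derivation.mk' ((W.toLinearMap.comp (D : F →ₗ[K] F)).comp W.symm.toLinearMap) (by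
    intro a b
    simp only [LinearMap.comp_apply, AlgEquiv.toLinearMap_apply, map_mul, Derivation.coeFn_coe,
      Derivation.leibniz, smul_eq_mul, map_add, AlgEquiv.apply_symm_apply])

theorem conjDer_apply (D : Derivation K F F) (W : F ≃ₐ[K] F) (f : F) :
    conjDer D W f = W (D (W.symm f)) := rfl

/-- **(V2)** for `K`-algebra automorphisms: `W x = y`, `W y = x`, `D x = 1` ⟹
`D y ≠ 0 ∧ W (D y) = (D y)⁻¹`. -/
theorem w_der_algEquiv (D : Derivation K F F) (W : F ≃ₐ[K] F) (x y : F) (hWx : W x = y)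
    (hWy : W y = x) (hDx : D x = 1) (halg : ∀ f : F, IsAlgebraic ↥(K⟮y⟯) f) :
    D y ≠ 0 ∧ W (D y) = (D y)⁻¹ := by
  have hne : D y ≠ 0 := by
    intro h0
    have := der_eq_zero_of_gen D y h0 halg x
    rw [hDx] at this
    exact one_ne_zero this
  refine ⟨hne, ?_⟩
  have hsx : W.symm y = x := by rw [← hWx, AlgEquiv.symm_apply_apply]
  have hsy : W.symm x = y := by rw [← hWy, AlgEquiv.symm_apply_apply]
  have h1 : conjDer D W y = ((D y)⁻¹ • D) y := by
    rw [conjDer_apply, hsx, hDx, map_one, Derivation.smul_apply, smul_eq_mul,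
      inv_mul_cancel₀ hne]
  have h2 := der_ext_of_gen (conjDer D W) ((D y)⁻¹ • D) y h1 halg x
  rw [conjDer_apply, hsy, Derivation.smul_apply, hDx, smul_eq_mul, mul_one] at h2
  exact h2

/-- **(V2)**: `W : F ≃+* F` fixing the constants, `W x = y`, `W y = x`, `D x = 1`,
`F / K(y)` algebraic ⟹ `D y ≠ 0` and `W (D y) = (D y)⁻¹`. -/
theorem w_der (D : Derivation K F F) (W : F ≃+* F)
    (hWK : ∀ c : K, W (algebraMap K F c) = algebraMap K F c) (x y : F) (hWx : W x = y)
    (hWy : W y = x) (hDx : D x = 1) (halg : ∀ f : F, IsAlgebraic ↥(K⟮y⟯) f) :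
    D y ≠ 0 ∧ W (D y) = (D y)⁻¹ :=
  w_der_algEquiv D (AlgEquiv.ofRingEquiv (f := W) hWK) x y hWx hWy hDx halg

end Field

end H12PD
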