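/-
helper20: item 86 (S36), psi-route, slice (P4) "`ψ⁻¹ ∈ 𝔫 B_𝔫`": the GENERIC parts.

Setting (S34 language): `R` a DVR with uniformizer `ϖ`, `K = Frac R`, `F / K(t)` finite,
`M₀ = Chart R t`, `𝔫` a prime of `M₀`.

* `H20P4.exists_isLocPrincipal_of_height_one` : a height-one prime of a noetherian normal domain is
  locally principal with a uniform denominator (`H25KR.IsLocPrincipal`), so it gives a place.
* `H20P4.inLoc_vert_of_gint` : a Gauss-integral `z` (`H7S18.GInt`) lies in `(M₀)_p` for every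
  height-one prime `p ∋ ϖ`  (going-down to `R[t]`, where `(ϖ)` is the only such prime).
* `H20P4.inLoc_of_gint_places` **(local Krull with places)** : `GInt z` and `0 ≤ V.ord z` for every
  place `V` of `F / K` centred in `𝔫`  ⟹  `z ∈ B_𝔫` (`H4S34.InLoc`).
* `H20P4.inMax_of_inLoc` : `z ∈ B_𝔫`, `z ∈ 𝔪(V₂)`, `P₂ ≤ 𝔫`  ⟹  `z ∈ 𝔫 B_𝔫` (`H26WT.InMax`).
* `H20P4.horizontal_desc` **((H) descended to a number field)** : `K₁ ⊆ L` algebraic, `L`
  algebraically closed, `F' = L F₁`; `x, y, g ∈ F₁` with `dy = g dx` in `Ω[F'⁄L]`, `F' / L(y)`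
  unramified outside `S`; then `g ≠ 0` and `V.ord g ≤ 0` at every place `V` of `F₁ / K₁` with
  `x, y ∈ O_V` and `y` away from `S`  (`H16PD.h16pd_horizontal` + `H1S18.placeDescent`).
-/
import Mathlib
import Fermat.Agent.S36.R2_helper26
import Fermat.Agent.S34.PlaceBridge_helper21
import Fermat.Agent.S34.WTransport_helper26
import Fermat.Agent.S18.TBase_helper19
import Fermat.Agent.S34.KRPlace_helper25
import Fermat.Agent.S24.PlaceBasic
import Fermat.Agent.S18.C12aOrd_helper19
import Fermat.Agent.S36.PsiDer2_helper16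
import Fermat.Agent.S18.C6c_helper1

set_option autoImplicit false
set_option linter.unusedSectionVars false
set_option linter.unusedVariables false
set_option linter.style.haveILetI false
set_option synthInstance.maxHeartbeats 400000

noncomputable section

namespace H20P4

open Polynomial IntermediateField H7S18 H4S34 AlgebraicCurve KaehlerDifferential

section abstractGen

variable {M : Type*} [CommRing M] [IsDomain M] [IsNoetherianRing M] [IsIntegrallyClosed M]

/-- a height-one prime of a noetherian integrally closed domain is locally principal with a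
UNIFORM denominator (`H25KR.IsLocPrincipal`). -/
theorem exists_isLocPrincipal_of_height_one (p : Ideal M) [hp : p.IsPrime] (hh : p.height = 1) :
    ∃ a u : M, a ≠ 0 ∧ H25KR.IsLocPrincipal p a u := by
  classical
  obtain ⟨t, htp, hgen⟩ := H27KR.exists_local_generator p hh
  have ht0 : t ≠ 0 := by
    rintro rfl
    have hbot : p = ⊥ := by
      rw [eq_bot_iff]
      intro d hd
      obtain ⟨s, hs, y, e⟩ := hgen d hd
      rw [mul_zero] at e
      rcases mul_eq_zero.mp e with h | h
      · exact absurd (h ▸ p.zero_mem) hs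
      · exact h
    rw [hbot, Ideal.height_bot] at hh
    exact zero_ne_one hh
  obtain ⟨G, hG⟩ := (IsNoetherian.noetherian p : p.FG)
  have hGp : ∀ g ∈ G, g ∈ p := fun g hg => hG ▸ Ideal.subset_span hg
  choose! s hs y hy using hgen
  refine ⟨t, ∏ g ∈ G, s g, ht0, htp, ?_, ?_⟩
  · intro h
    obtain ⟨g, hg, hsg⟩ := (hp.prod_mem_iff).mp h
    exact hs g (hGp g hg) hsg
  · intro b hb
    rw [← hG] at hb
    refine Submodule.span_induction (p := fun b _ => ∃ c : M, (∏ g ∈ G, s g) * b = c * t)
      ?_ ?_ ?_ ?_ hb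
    · intro g hg
      refine ⟨(∏ g' ∈ G.erase g, s g') * y g, ?_⟩
      rw [← Finset.mul_prod_erase G s hg]
      have := hy g (hGp g hg)
      linear_combination (∏ g' ∈ G.erase g, s g') * this
    · exact ⟨0, by simp⟩
    · rintro b₁ b₂ - - ⟨c₁, h₁⟩ ⟨c₂, h₂⟩
      exact ⟨c₁ + c₂, by rw [mul_add, h₁, h₂, add_mul]⟩
    · rintro r b - ⟨c, h⟩
      exact ⟨r * c, by rw [smul_eq_mul]; linear_combination r * h⟩

end abstractGen

section chart

variable (R : Type) [CommRing R] [IsDomain R] [IsDiscreteValuationRing R]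
  (K : Type) [Field K] [CharZero K] [Algebra R K] [IsFractionRing R K]
  {F : Type} [Field F] [Algebra K F] [Algebra R F] [IsScalarTower R K F]

/-- **vertical part**: a Gauss-integral `z` lies in `(M₀)_p` for every height-one prime `p ∋ ϖ`
of the chart ring `M₀`. -/
theorem inLoc_vert_of_gint (ϖ : R) (hϖ : Irreducible ϖ) {t : F} (ht : Transcendental K t)
    [FiniteDimensional K⟮t⟯ F] (p : Ideal (Chart R t)) (hp : p.IsPrime) (hh : p.height = 1)
    (hϖp : algebraMap R (Chart R t) ϖ ∈ p) (z : F) (hG : GInt R ϖ t z) :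
    ∃ a s : Chart R t, s ∉ p ∧ (s : F) * z = (a : F) := by
  haveI : IsNoetherianRing (Chart R t) := H22BR.chart_noeth R K ht
  haveI : IsIntegrallyClosed (Chart R t) := H22BR.chart_intClosed R K t
  have htR : Transcendental R t := H19S18.h19_transc R K ht
  haveI : IsIntegrallyClosed (Algebra.adjoin R {t}) := H19S18.h19_T_intClosed R htR
  obtain ⟨s, ⟨hsmem, hsG⟩, hsz⟩ := hG
  -- `p ∩ R[t]` has height one and contains the prime `ϖ`, so it is `(ϖ)`
  have hinj : Function.Injective (algebraMap (Algebra.adjoin R {t}) (Chart R t)) := by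
    intro a b hab
    have := congrArg (fun y : Chart R t => (y : F)) hab
    exact Subtype.ext this
  have hint : (algebraMap (Algebra.adjoin R {t}) (Chart R t)).IsIntegral := by
    intro y
    exact (Algebra.IsIntegral.isIntegral (R := Algebra.adjoin R {t}) y)
  haveI := hp
  have hh' := H26R2.height_comap_eq_one (algebraMap (Algebra.adjoin R {t}) (Chart R t)) hinj hint
    p hh
  haveI hp' : (p.comap (algebraMap (Algebra.adjoin R {t}) (Chart R t))).IsPrime :=
    Ideal.comap_isPrime _ _
  have hprime : Prime (algebraMap R (Algebra.adjoin R {t}) ϖ) := H19S18.h19_T_prime R htR hϖ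
  have hspan : (Ideal.span {algebraMap R (Algebra.adjoin R {t}) ϖ}).IsPrime :=
    (Ideal.span_singleton_prime hprime.ne_zero).2 hprime
  have hle : Ideal.span {algebraMap R (Algebra.adjoin R {t}) ϖ} ≤
      p.comap (algebraMap (Algebra.adjoin R {t}) (Chart R t)) := by
    rw [Ideal.span_singleton_le_iff_mem, Ideal.mem_comap]
    exact hϖp
  have heq : Ideal.span {algebraMap R (Algebra.adjoin R {t}) ϖ} =
      p.comap (algebraMap (Algebra.adjoin R {t}) (Chart R t)) := by
    rcases eq_or_lt_of_le hle with h | h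
    · exact h
    · exfalso
      haveI := hspan
      have hfin : (p.comap (algebraMap (Algebra.adjoin R {t}) (Chart R t))).FiniteHeight := by
        rw [Ideal.finiteHeight_iff]
        right
        rw [hh']
        exact ENat.one_ne_top
      have hlt := Ideal.height_strict_mono_of_isPrime_of_isPrime h
      rw [hh'] at hlt
      have h0 : (Ideal.span {algebraMap R (Algebra.adjoin R {t}) ϖ}).height = 0 :=
        Order.lt_one_iff.1 hlt
      have hb : Ideal.span {algebraMap R (Algebra.adjoin R {t}) ϖ} = ⊥ :=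
        Ideal.height_eq_zero_iff_eq_bot.1 h0
      exact hprime.ne_zero (Ideal.span_singleton_eq_bot.1 hb)
  -- the Gauss unit `s` is not in `p`
  have hsp : algebraMap (Algebra.adjoin R {t}) (Chart R t) ⟨s, hsmem⟩ ∉ p := by
    intro hmem
    have h1 : (⟨s, hsmem⟩ : Algebra.adjoin R {t}) ∈
        p.comap (algebraMap (Algebra.adjoin R {t}) (Chart R t)) := hmem
    rw [← heq, Ideal.mem_span_singleton] at h1
    obtain ⟨s', hs'⟩ := h1
    apply hsG (s' : F) s'.2
    have := congrArg (fun y : Algebra.adjoin R {t} => (y : F)) hs'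
    simpa using this
  refine ⟨⟨s * z, hsz⟩, algebraMap (Algebra.adjoin R {t}) (Chart R t) ⟨s, hsmem⟩, hsp, rfl⟩

/-- **local Krull with places**: a Gauss-integral `z` which is regular at every place of
`F / K` centred in `𝔫` lies in the local ring `B_𝔫` of the chart. -/
theorem inLoc_of_gint_places (ϖ : R) (hϖ : Irreducible ϖ) {t : F} (ht : Transcendental K t)
    [FiniteDimensional K⟮t⟯ F] (𝔫 : Ideal (Chart R t)) (h𝔫 : 𝔫.IsPrime) (z : F)
    (hG : GInt R ϖ t z)
    (hH : ∀ V : Place K F, (∀ y : Chart R t, 0 ≤ V.ord (y : F)) →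
        (∀ y : Chart R t, 0 < V.ord (y : F) → y ∈ 𝔫) → 0 ≤ V.ord z) :
    InLoc R t 𝔫 z := by
  haveI : IsNoetherianRing (Chart R t) := H22BR.chart_noeth R K ht
  haveI : IsIntegrallyClosed (Chart R t) := H22BR.chart_intClosed R K t
  haveI : IsFractionRing (Chart R t) F := H22BR.chart_isFractionRing R K t
  haveI := h𝔫
  have key : H27KR.InLoc (K := F) 𝔫 z := by
    apply H26R2.inLoc_of_forall_height_one_le
    intro p hp hh hple
    haveI := hp
    by_cases hϖp : algebraMap R (Chart R t) ϖ ∈ p
    · obtain ⟨a, s, hs, e⟩ := inLoc_vert_of_gint R K ϖ hϖ ht p hp hh hϖp z hG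
      exact ⟨a, s, hs, by rw [mul_comm]; exact e⟩
    · obtain ⟨a, u, ha0, hlp⟩ := exists_isLocPrincipal_of_height_one p hh
      have hϖF : algebraMap R F ϖ ≠ 0 := by
        intro h0
        apply hϖp
        have : algebraMap R (Chart R t) ϖ = 0 := Subtype.ext (by simpa using h0)
        rw [this]
        exact p.zero_mem
      have hnot : ∀ b : R, b ≠ 0 → algebraMap R (Chart R t) b ∉ p := by
        intro b hb0 hbp
        obtain ⟨k, hk⟩ := IsDiscreteValuationRing.associated_pow_irreducible hb0 hϖ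
        obtain ⟨v, hv⟩ := hk
        have h1 : algebraMap R (Chart R t) (ϖ ^ k) ∈ p := by
          rw [← hv, map_mul]
          exact p.mul_mem_right _ hbp
        rw [map_pow] at h1
        exact hϖp (hp.mem_of_pow_mem k h1)
      have hKV : ∀ c : K, algebraMap K F c ∈ H25KR.valSub F p hlp := by
        intro c
        obtain ⟨a', b', hb', rfl⟩ := IsFractionRing.div_surjective (A := R) c
        have hb0 : b' ≠ 0 := nonZeroDivisors.ne_zero hb'
        refine (H25KR.mem_valSub_iff hlp).2
          ⟨algebraMap R (Chart R t) a', algebraMap R (Chart R t) b', hnot b' hb0, ?_⟩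
        have hbK : algebraMap R K b' ≠ 0 := by
          intro h0
          exact hb0 (IsFractionRing.injective R K (by rw [h0, map_zero]))
        have e1 : algebraMap (Chart R t) F (algebraMap R (Chart R t) b') =
            algebraMap K F (algebraMap R K b') := by
          rw [← IsScalarTower.algebraMap_apply R K F]; rfl
        have e2 : algebraMap (Chart R t) F (algebraMap R (Chart R t) a') =
            algebraMap K F (algebraMap R K a') := by
          rw [← IsScalarTower.algebraMap_apply R K F]; rfl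
        rw [e1, e2, ← map_mul, div_mul_cancel₀ _ hbK]
      let V : Place K F := H25KR.placeOf hlp K ha0 hKV
      have h1 : ∀ y : Chart R t, 0 ≤ V.ord (y : F) := by
        intro y
        apply RH24.h20_ord_nonneg_of_mem
        exact H25KR.algebraMap_mem_valSub hlp y
      have h2 : ∀ y : Chart R t, 0 < V.ord (y : F) → y ∈ 𝔫 := by
        intro y hy
        have hy0 : y ≠ 0 := by
          rintro rfl
          simp [Place.ord_zero] at hy
        exact hple ((H25KR.ord_placeOf_pos_iff hlp ha0 hKV hy0).1 hy)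
      have h3 := hH V h1 h2
      have h4 : z ∈ V.toValuationSubring := H19S18.h19_mem_of_ord_nonneg V h3
      obtain ⟨m, s, hs, e⟩ := (H25KR.mem_valSub_iff hlp).1 h4
      exact ⟨m, s, hs, e⟩
  obtain ⟨a, b, hb, e⟩ := key
  exact ⟨a, b, hb, by rw [mul_comm]; exact e⟩

end chart

section inMax

variable {R : Type} [CommRing R] {E : Type} [Field E] [Algebra R E]
variable {c : E} {𝔫 : Ideal (Chart R c)}

/-- `z ∈ B_𝔫` lying in (the maximal ideal of) a component through `𝔫` lies in `𝔫 B_𝔫`.
`Gm` = "lies in `𝔪(V₂)`": any predicate stable under multiplication by chart elements whose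
chart elements lie in `𝔫` (`P₂ ≤ 𝔫`). -/
theorem inMax_of_inLoc (Gm : E → Prop) (hGm : ∀ a : Chart R c, Gm (a : E) → a ∈ 𝔫)
    (hmul : ∀ (s : Chart R c) (x : E), Gm x → Gm ((s : E) * x))
    (z : E) (hz : InLoc R c 𝔫 z) (hzG : Gm z) : H26WT.InMax c 𝔫 z := by
  obtain ⟨a, s, hs, e⟩ := hz
  exact ⟨a, s, hGm a (e ▸ hmul s z hzG), hs, e⟩

end inMax

section desc

variable (K₁ : Type) [Field K₁] [CharZero K₁]
  (L : Type) [Field L] [Algebra K₁ L] [IsAlgClosed L] [Algebra.IsAlgebraic K₁ L]
  (F₁ : Type) [Field F₁] [Algebra K₁ F₁]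
  (F' : Type) [Field F'] [Algebra L F'] [Algebra K₁ F'] [IsScalarTower K₁ L F']
  [Algebra F₁ F'] [IsScalarTower K₁ F₁ F'] [Algebra.IsAlgebraic F₁ F']

/-- **(H), descended**: `x, y, g ∈ F₁` with `dy = g dx` over `L`, `F' / L(y)` unramified outside
`S`; then at every place `V` of `F₁ / K₁` with `x, y ∈ O_V` and `y` away from `S`: `g⁻¹ ∈ O_V`. -/
theorem horizontal_desc (t : F₁) (ht : Transcendental K₁ t) (hfin : FiniteDimensional K₁⟮t⟯ F₁)
    (hfin' : FiniteDimensional L⟮algebraMap F₁ F' t⟯ F')
    (S : Finset ℤ) (x y g : F₁)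
    (hunr : UnrOutside ℤ L S (algebraMap F₁ F' y))
    (hg : D L F' (algebraMap F₁ F' y) = (algebraMap F₁ F' g) • D L F' (algebraMap F₁ F' x))
    (V : Place K₁ F₁) (hx : 0 ≤ V.ord x) (hy : 0 ≤ V.ord y)
    (hS : ∀ c ∈ S, V.ord (y - (c : F₁)) ≤ 0) :
    g ≠ 0 ∧ V.ord g ≤ 0 := by
  classical
  haveI : CharZero L := charZero_of_injective_algebraMap (algebraMap K₁ L).injective
  obtain ⟨W', ε, hε, hW'⟩ := H1S18.placeDescent K₁ L F₁ F' t ht hfin hfin' V
  have hεZ : (0 : ℤ) < ε := by exact_mod_cast hε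
  have htK' : Transcendental K₁ (algebraMap F₁ F' t) :=
    (transcendental_algebraMap_iff (algebraMap F₁ F').injective).mpr ht
  have htL' : Transcendental L (algebraMap F₁ F' t) := htK'.extendScalars L
  haveI := hfin'
  have hcastF' : ∀ c : ℤ, algebraMap ℤ F' c = algebraMap F₁ F' ((c : ℤ) : F₁) := by
    intro c
    rw [map_intCast, eq_intCast]
  have h1 : 0 ≤ W'.ord (algebraMap F₁ F' x) := by
    rw [hW']; exact mul_nonneg hεZ.le hx
  have h2 : 0 ≤ W'.ord (algebraMap F₁ F' y) := by
    rw [hW']; exact mul_nonneg hεZ.le hy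
  have h3 : ∀ c ∈ S, W'.ord (algebraMap F₁ F' y - algebraMap ℤ F' c) ≤ 0 := by
    intro c hc
    rw [hcastF', ← map_sub, hW']
    exact mul_nonpos_of_nonneg_of_nonpos hεZ.le (hS c hc)
  obtain ⟨hg0, hgord⟩ := H16PD.h16pd_horizontal ℤ L (algebraMap F₁ F' t) htL' S
    (algebraMap F₁ F' x) (algebraMap F₁ F' y) (algebraMap F₁ F' g) hunr W' h1 h2 h3 hg
  refine ⟨fun h0 => hg0 (by rw [h0, map_zero]), ?_⟩
  rw [hW'] at hgord
  by_contra hpos
  have : 0 < V.ord g := not_le.mp hpos
  have := mul_pos hεZ this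
  omega

end desc

end H20P4
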