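/-
helper15: item 86 (S36), psi-route of (R1), slice (P6) = the FINAL step, generic (chart) form.

Setting (S34 language): `R` a DVR, `K = Frac R`, `F / K(t)` finite, `M₀ = Chart R t`, `𝔫` a prime
of `M₀`, `P`, `Q` the two components through `𝔫`.

* `H15P6.contra`        : the contradiction of the psi-proof:
                          `ψ = b' + m`, `ψ ψ⁻¹ = 1`, `b' ∈ B_𝔫`, `ψ⁻¹ ∈ 𝔫 B_𝔫`, `m ψ⁻¹ ∈ 𝔪(V₁)` is absurd.
* `H15P6.unit_of_contra`: hence `G₀ ∈ B_𝔫ˣ` as soon as "`G₀ ∈ 𝔫 B_𝔫` ⟹ such `b'`, `m` exist".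
* `H15P6.thick_of_unit` : `a' a = ϖ u G₀` in `F` with `u`, `G₀` units of `B_𝔫` ⟹ chart form
                          `s (a' a) = c ϖ`, `s, c ∉ 𝔫` ("thickness one").
* `H15P6.only_of_thick`, `H15P6.loc_of_thick`, `H15P6.principal_of_thick`:
                          thickness one ⟹ `P B_𝔫 = (a)` (hypotheses of `H26R2.principal_at`).
* `H15P6.two_gen_of_thick`, `H15P6.l1At_of_thick`: with a uniformizer `u` of `(M₀/P)_𝔫`
                          (CompUnif): `𝔫 B_𝔫 = (a, u)` and (L1) at `𝔫`.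
-/
import Mathlib
import Fermat.Agent.S36.R2_helper26
import Fermat.Agent.S34.WTransport_helper26

set_option autoImplicit false
set_option linter.unusedSectionVars false
set_option linter.unusedVariables false
set_option linter.style.haveILetI false
set_option synthInstance.maxHeartbeats 400000

noncomputable section

namespace H15P6

open Polynomial IntermediateField H7S18 H4S34 H26WT

section contra

variable {R : Type} [CommRing R] {E : Type} [Field E] [Algebra R E]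
variable {c : E} {𝔫 : Ideal (Chart R c)}

/-- **the contradiction of the psi-proof.**  `Gm` = "lies in `𝔪(V₁)`" (any predicate with
`B_𝔫 ∩ Gm ⊆ 𝔫 B_𝔫`, i.e. `P₁ ≤ 𝔫`). -/
theorem contra (h𝔫 : 𝔫.IsPrime) (Gm : E → Prop)
    (hGm : ∀ z : E, InLoc R c 𝔫 z → Gm z → InMax c 𝔫 z)
    (ψ ψi b' m : E) (hψ : ψ = b' + m) (hinv : ψ * ψi = 1)
    (hb' : InLoc R c 𝔫 b') (hψi : InMax c 𝔫 ψi) (hm : Gm (m * ψi)) : False := by
  have h1 : InMax c 𝔫 (b' * ψi) := inMax_mul' h𝔫 hb' hψi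
  have e : m * ψi = 1 - b' * ψi := by
    rw [← hinv, hψ]; ring
  have h2 : InLoc R c 𝔫 (m * ψi) := by
    rw [e]
    exact inLoc_sub h𝔫 (inLoc_one h𝔫) h1.inLoc
  have h3 : InMax c 𝔫 (m * ψi) := hGm _ h2 hm
  have h4 : InMax c 𝔫 (1 : E) := by
    have : (1 : E) = b' * ψi + m * ψi := by rw [e]; ring
    rw [this]
    exact inMax_add h𝔫 h1 h3
  exact not_inMax_one h𝔫 h4

/-- **`G₀` is a unit of `B_𝔫`** if `G₀ ∈ 𝔫 B_𝔫` produces the data of `contra`. -/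
theorem unit_of_contra (h𝔫 : 𝔫.IsPrime) (Gm : E → Prop)
    (hGm : ∀ z : E, InLoc R c 𝔫 z → Gm z → InMax c 𝔫 z)
    (ψ ψi G₀ : E) (hinv : ψ * ψi = 1) (hψi : InMax c 𝔫 ψi)
    (hG : InLoc R c 𝔫 G₀)
    (hlift : InMax c 𝔫 G₀ → ∃ b' m : E, ψ = b' + m ∧ InLoc R c 𝔫 b' ∧ Gm (m * ψi)) :
    InLoc R c 𝔫 G₀ ∧ InLoc R c 𝔫 G₀⁻¹ ∧ ¬ InMax c 𝔫 G₀ := by
  have hnot : ¬ InMax c 𝔫 G₀ := by
    intro h
    obtain ⟨b', m, hψ, hb', hm⟩ := hlift h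
    exact contra h𝔫 Gm hGm ψ ψi b' m hψ hinv hb' hψi hm
  exact ⟨hG, inLoc_inv hG hnot, hnot⟩

/-- a unit of `B_𝔫` is `c / s` with `s, c ∉ 𝔫`. -/
theorem exists_frac_of_unit (h𝔫 : 𝔫.IsPrime) (g : E) (hg : InLoc R c 𝔫 g)
    (hg' : ¬ InMax c 𝔫 g) :
    ∃ s a : Chart R c, s ∉ 𝔫 ∧ a ∉ 𝔫 ∧ (s : E) * g = (a : E) := by
  obtain ⟨a, s, hs, e⟩ := hg
  refine ⟨s, a, hs, ?_, e⟩
  intro ha
  exact hg' ⟨a, s, ha, hs, e⟩

/-- **thickness one, chart form**: `a' a = ϖ' g` in `E` with `g` a unit of `B_𝔫`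
(`ϖ'`, `a`, `a'` in the chart ring). -/
theorem thick_of_unit (h𝔫 : 𝔫.IsPrime) (a a' ϖ' : Chart R c) (g : E)
    (hg : InLoc R c 𝔫 g) (hg' : ¬ InMax c 𝔫 g)
    (h : (a' : E) * (a : E) = (ϖ' : E) * g) :
    ∃ s b : Chart R c, s ∉ 𝔫 ∧ b ∉ 𝔫 ∧ s * (a' * a) = b * ϖ' := by
  obtain ⟨s, b, hs, hb, e⟩ := exists_frac_of_unit h𝔫 g hg hg'
  refine ⟨s, b, hs, hb, Subtype.ext ?_⟩
  push_cast
  rw [h]
  linear_combination (ϖ' : E) * e

end contra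

section abstract

variable {B : Type*} [CommRing B] [IsDomain B]

/-- a nonzero prime below a height-one prime is equal to it. -/
theorem eq_of_le_height_one (P p : Ideal B) [hP : P.IsPrime] [hp : p.IsPrime] (hP0 : P ≠ ⊥)
    (hh : p.height = 1) (hle : P ≤ p) : p = P := by
  rcases eq_or_lt_of_le hle with h | h
  · exact h.symm
  · exfalso
    have : p.FiniteHeight := by
      rw [Ideal.finiteHeight_iff]
      right
      rw [hh]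
      exact ENat.one_ne_top
    have hlt := Ideal.height_strict_mono_of_isPrime_of_isPrime h
    rw [hh] at hlt
    have h0 : P.height = 0 := Order.lt_one_iff.1 hlt
    exact hP0 (Ideal.height_eq_zero_iff_eq_bot.1 h0)

/-- the vertical height-one primes: if `P ∩ Q ⊆ ϖ B` locally (here: `P * Q ≤ p` whenever
`ϖ ∈ p`), a height-one prime containing `ϖ` is `P` or `Q`. -/
theorem vert_of_inter (P Q : Ideal B) [hP : P.IsPrime] [hQ : Q.IsPrime] (hP0 : P ≠ ⊥)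
    (hQ0 : Q ≠ ⊥) (ϖ : B) (hPQ : ∀ y, y ∈ P → y ∈ Q → ∃ z, y = z * ϖ)
    (p : Ideal B) (hp : p.IsPrime) (hh : p.height = 1) (hϖ : ϖ ∈ p) : p = P ∨ p = Q := by
  by_cases h1 : P ≤ p
  · exact Or.inl (eq_of_le_height_one P p hP0 hh h1)
  · right
    refine eq_of_le_height_one Q p hQ0 hh ?_
    obtain ⟨x, hxP, hxp⟩ := Set.not_subset.1 h1
    intro y hy
    have hxy : x * y ∈ p := by
      obtain ⟨z, hz⟩ := hPQ (x * y) (Ideal.mul_mem_right _ _ hxP) (Ideal.mul_mem_left _ _ hy)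
      rw [hz]
      exact Ideal.mul_mem_left _ _ hϖ
    rcases hp.mem_or_mem hxy with h | h
    · exact absurd h hxp
    · exact h

variable (𝔫 P Q : Ideal B) [h𝔫 : 𝔫.IsPrime] [hP : P.IsPrime]

/-- thickness one ⟹ `P` is the only height-one prime below `𝔫` containing `a`. -/
theorem only_of_thick (hPle : P ≤ 𝔫) (ϖ : B)
    (hvert : ∀ p : Ideal B, p.IsPrime → p.height = 1 → p ≤ 𝔫 → ϖ ∈ p → p = P ∨ p = Q)
    (a a' : B) (haQ : a ∉ Q)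
    (hthick : ∃ s b : B, s ∉ 𝔫 ∧ b ∉ 𝔫 ∧ s * (a' * a) = b * ϖ) :
    ∀ p : Ideal B, p.IsPrime → p.height = 1 → p ≤ 𝔫 → a ∈ p → p = P := by
  intro p hp hh hple hap
  obtain ⟨s, b, hs, hb, e⟩ := hthick
  have h1 : b * ϖ ∈ p := by
    rw [← e]
    exact Ideal.mul_mem_left _ _ (Ideal.mul_mem_left _ _ hap)
  have hϖ : ϖ ∈ p := by
    rcases hp.mem_or_mem h1 with h | h
    · exact absurd (hple h) hb
    · exact h
  rcases hvert p hp hh hple hϖ with h | h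
  · exact h
  · exact absurd (h ▸ hap) haQ

/-- thickness one ⟹ `a` generates `P B_P` (if `ϖ` does and `a' ∉ P`). -/
theorem loc_of_thick (hPle : P ≤ 𝔫) (ϖ : B)
    (hred : ∀ y ∈ P, ∃ s c : B, s ∉ P ∧ s * y = c * ϖ)
    (a a' : B) (ha' : a' ∉ P)
    (hthick : ∃ s b : B, s ∉ 𝔫 ∧ b ∉ 𝔫 ∧ s * (a' * a) = b * ϖ) :
    ∀ y ∈ P, ∃ s c : B, s ∉ P ∧ s * y = c * a := by
  obtain ⟨s, b, hs, hb, e⟩ := hthick
  refine H26R2.hloc_of_red P ϖ a hred ⟨b, s * a', fun h => hb (hPle h), ?_⟩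
  rw [← e]
  ring

end abstract

section chart

variable (R : Type) [CommRing R] [IsDomain R] [IsDiscreteValuationRing R]
  (K : Type) [Field K] [CharZero K] [Algebra R K] [IsFractionRing R K]
  {F : Type} [Field F] [Algebra K F] [Algebra R F] [IsScalarTower R K F]

/-- **(P6), principal form**: thickness one at `𝔫` ⟹ `P B_𝔫 = (a)`. -/
theorem principal_of_thick {t : F} (ht : Transcendental K t) [hfin : FiniteDimensional K⟮t⟯ F]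
    (𝔫 : Ideal (Chart R t)) (h𝔫 : 𝔫.IsPrime) (P Q : Ideal (Chart R t)) (hP : P.IsPrime)
    (hPle : P ≤ 𝔫) (ϖ' : Chart R t)
    (hvert : ∀ p : Ideal (Chart R t), p.IsPrime → p.height = 1 → p ≤ 𝔫 → ϖ' ∈ p →
      p = P ∨ p = Q)
    (hred : ∀ y ∈ P, ∃ s c : Chart R t, s ∉ P ∧ s * y = c * ϖ')
    (a a' : Chart R t) (ha0 : a ≠ 0) (haQ : a ∉ Q) (ha' : a' ∉ P)
    (hthick : ∃ s b : Chart R t, s ∉ 𝔫 ∧ b ∉ 𝔫 ∧ s * (a' * a) = b * ϖ') :
    ∀ y ∈ P, ∃ s c : Chart R t, s ∉ 𝔫 ∧ s * y = c * a := by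
  haveI : IsNoetherianRing (Chart R t) := H22BR.chart_noeth R K ht
  haveI : IsIntegrallyClosed (Chart R t) := H22BR.chart_intClosed R K t
  haveI := h𝔫
  haveI := hP
  exact H26R2.principal_at 𝔫 P a ha0
    (only_of_thick 𝔫 P Q hPle ϖ' hvert a a' haQ hthick)
    (loc_of_thick 𝔫 P hPle ϖ' hred a a' ha' hthick)

/-- **(P6), two generators**: thickness one at `𝔫` + a uniformizer `u` of `(M₀/P)_𝔫`
⟹ `𝔫 B_𝔫 = (a, u)`. -/
theorem two_gen_of_thick {t : F} (ht : Transcendental K t) [hfin : FiniteDimensional K⟮t⟯ F]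
    (𝔫 : Ideal (Chart R t)) (h𝔫 : 𝔫.IsPrime) (P Q : Ideal (Chart R t)) (hP : P.IsPrime)
    (hPle : P ≤ 𝔫) (ϖ' : Chart R t)
    (hvert : ∀ p : Ideal (Chart R t), p.IsPrime → p.height = 1 → p ≤ 𝔫 → ϖ' ∈ p →
      p = P ∨ p = Q)
    (hred : ∀ y ∈ P, ∃ s c : Chart R t, s ∉ P ∧ s * y = c * ϖ')
    (a a' : Chart R t) (ha0 : a ≠ 0) (haQ : a ∉ Q) (ha' : a' ∉ P)
    (hthick : ∃ s b : Chart R t, s ∉ 𝔫 ∧ b ∉ 𝔫 ∧ s * (a' * a) = b * ϖ')
    (u : Chart R t) (hunif : H26DI.UnifAt P 𝔫 u) :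
    ∀ y ∈ 𝔫, ∃ s c d : Chart R t, s ∉ 𝔫 ∧ (s : F) * y = c * (a : F) + d * u := by
  haveI := h𝔫
  haveI := hP
  refine H26R2.chart_two_gen R K ht 𝔫 h𝔫 P a u ha0
    (only_of_thick 𝔫 P Q hPle ϖ' hvert a a' haQ hthick)
    (loc_of_thick 𝔫 P hPle ϖ' hred a a' ha' hthick) ?_
  intro y hy
  obtain ⟨s, hs, c, hc⟩ := hunif.2.2 y hy
  exact ⟨s, c, hs, hc⟩

/-- **(P6) ⟹ (L1)**: thickness one at `𝔫` + CompUnif for `P` ⟹ `H4S34.L1At` at `𝔫` for every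
`f` with `n ∣ div f`. -/
theorem l1At_of_thick (ϖ : R) (hϖ : Irreducible ϖ) {t : F} (ht : Transcendental K t)
    [hfin : FiniteDimensional K⟮t⟯ F] (n : ℕ) (hn : 0 < n) (f : F) (hf : f ≠ 0)
    (hdiv : ∀ V : AlgebraicCurve.Place K F, (n : ℤ) ∣ V.ord f)
    (𝔫 : Ideal (Chart R t)) (h𝔫 : 𝔫.IsPrime) (P Q : Ideal (Chart R t)) (hP : P.IsPrime)
    (hPle : P ≤ 𝔫) (ϖ' : Chart R t)
    (hvert : ∀ p : Ideal (Chart R t), p.IsPrime → p.height = 1 → p ≤ 𝔫 → ϖ' ∈ p →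
      p = P ∨ p = Q)
    (hred : ∀ y ∈ P, ∃ s c : Chart R t, s ∉ P ∧ s * y = c * ϖ')
    (a a' : Chart R t) (ha0 : a ≠ 0) (haP : a ∈ P) (haQ : a ∉ Q) (ha' : a' ∉ P)
    (hthick : ∃ s b : Chart R t, s ∉ 𝔫 ∧ b ∉ 𝔫 ∧ s * (a' * a) = b * ϖ')
    (u : Chart R t) (hunif : H26DI.UnifAt P 𝔫 u) :
    L1At R ϖ t 𝔫 n f := by
  haveI := h𝔫
  haveI := hP
  refine H26R2.l1At_R2 R K ϖ hϖ ht n hn f hf hdiv 𝔫 h𝔫 P hP hPle a u ha0 haP hunif.1
    hunif.2.1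
    (only_of_thick 𝔫 P Q hPle ϖ' hvert a a' haQ hthick)
    (loc_of_thick 𝔫 P hPle ϖ' hred a a' ha' hthick) ?_
  intro y hy
  obtain ⟨s, hs, c, hc⟩ := hunif.2.2 y hy
  exact ⟨s, c, hs, hc⟩

end chart

end H15P6

end
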