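/-
helper15: item 86 (S36), psi-route, FINAL step of (R3) (points on `C₃` only), generic chart form,
+ two complements to `S36/PsiP6_helper15.lean`.

Setting: `R` a DVR, `K = Frac R`, `F / K(t)` finite, `M₀ = Chart R t`, `𝔫` a prime of `M₀`,
`P` (`= P₃`) the only vertical prime through `𝔫`, `a` (`= a₃ = J₂ - J`) in `P`,
`ε = a^e / ϖ'` (`e = q - 1`, `ϖ' = q`).

* `H15P6.unit_of_cong`   : `ε ∈ B_𝔫`, `ψ ∈ B_𝔫ˣ`, `ε + ψ ∈ 𝔪(V₃)` ⟹ `ε ∈ B_𝔫ˣ`.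
* `H15P6.inLoc_of_vert`  : `z ∈ B_𝔫` if `ϖ' z ∈ M₀` and `z ∈ B_p` for the vertical `p ≤ 𝔫`.
* `H15P6.only_of_pow`    : `a^e = ϖ' ε`, `ε` a unit at `𝔫` ⟹ `P` is the only height-one prime
                           below `𝔫` containing `a`.
* `H15P6.principal_of_pow`, `two_gen_of_pow`, `l1At_of_pow` : `P B_𝔫 = (a)`, `𝔫 B_𝔫 = (a, u)`, (L1).
* `H15P6.hred_of_cap`    : `P ∩ Q ⊆ ϖ' M₀`, `a' ∈ Q \ P` ⟹ `ϖ'` generates `P (M₀)_P`
                           (the hypothesis `hred` of `principal_of_thick`).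
* `H15P6.hvert_of_twoComp`, `hred_of_twoComp` : the hypotheses `hvert`, `hred` of
                           `principal_of_thick` from `H26DI.TwoComp`.
-/
import Mathlib
import Fermat.Agent.S36.PsiP6_helper15
import Fermat.Agent.S34.DichElem_helper26

set_option autoImplicit false
set_option linter.unusedSectionVars false
set_option linter.unusedVariables false
set_option linter.style.haveILetI false
set_option synthInstance.maxHeartbeats 400000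

noncomputable section

namespace H15P6

open Polynomial IntermediateField H7S18 H4S34 H26WT

section cong

variable {R : Type} [CommRing R] {E : Type} [Field E] [Algebra R E]
variable {c : E} {𝔫 : Ideal (Chart R c)}

/-- `ε ≡ -ψ` modulo `𝔪(V₃)` and `ψ` a unit of `B_𝔫` ⟹ `ε` is a unit of `B_𝔫`. -/
theorem unit_of_cong (h𝔫 : 𝔫.IsPrime) (Gm : E → Prop)
    (hGm : ∀ z : E, InLoc R c 𝔫 z → Gm z → InMax c 𝔫 z)
    (ε ψ ψi : E) (hinv : ψ * ψi = 1) (hψ : InLoc R c 𝔫 ψ) (hψi : InLoc R c 𝔫 ψi)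
    (hε : InLoc R c 𝔫 ε) (hcong : Gm (ε + ψ)) :
    InLoc R c 𝔫 ε⁻¹ ∧ ¬ InMax c 𝔫 ε := by
  have hnot : ¬ InMax c 𝔫 ε := by
    intro h
    have h1 : InMax c 𝔫 (ε + ψ) := hGm _ (inLoc_add h𝔫 hε hψ) hcong
    have h2 : InMax c 𝔫 ψ := by
      have : ψ = (ε + ψ) - ε := by ring
      rw [this]
      exact inMax_sub h𝔫 h1 h
    have h3 : InMax c 𝔫 (ψ * ψi) := inMax_mul h𝔫 h2 hψi
    rw [hinv] at h3
    exact not_inMax_one h𝔫 h3
  exact ⟨inLoc_inv hε hnot, hnot⟩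

end cong

section abstract

variable {B : Type*} [CommRing B] [IsDomain B]

/-- `ϖ'` generates `P B_P` if `P ∩ Q ⊆ ϖ' B` and `Q ⊄ P`. -/
theorem hred_of_cap (P Q : Ideal B) (ϖ' : B)
    (hcap : ∀ y, y ∈ P → y ∈ Q → ∃ z, y = z * ϖ') (a' : B) (ha'Q : a' ∈ Q) (ha'P : a' ∉ P) :
    ∀ y ∈ P, ∃ s c : B, s ∉ P ∧ s * y = c * ϖ' := by
  intro y hy
  obtain ⟨z, hz⟩ := hcap (a' * y) (Ideal.mul_mem_left _ _ hy) (Ideal.mul_mem_right _ _ ha'Q)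
  exact ⟨a', z, ha'P, hz⟩

variable (𝔫 P : Ideal B) [h𝔫 : 𝔫.IsPrime] [hP : P.IsPrime]

/-- `a^e = ϖ' ε` with `ε` a unit at `𝔫` (`s a^e = b ϖ'`, `s, b ∉ 𝔫`) and `P` the only vertical
height-one prime below `𝔫` ⟹ `P` is the only height-one prime below `𝔫` containing `a`. -/
theorem only_of_pow (ϖ' : B)
    (hvert : ∀ p : Ideal B, p.IsPrime → p.height = 1 → p ≤ 𝔫 → ϖ' ∈ p → p = P)
    (a : B) (e : ℕ) (he : 0 < e)
    (hpow : ∃ s b : B, s ∉ 𝔫 ∧ b ∉ 𝔫 ∧ s * a ^ e = b * ϖ') :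
    ∀ p : Ideal B, p.IsPrime → p.height = 1 → p ≤ 𝔫 → a ∈ p → p = P := by
  intro p hp hh hple hap
  obtain ⟨s, b, hs, hb, h⟩ := hpow
  have h1 : b * ϖ' ∈ p := by
    rw [← h]
    exact Ideal.mul_mem_left _ _ (Ideal.pow_mem_of_mem _ hap e he)
  have hϖ : ϖ' ∈ p := by
    rcases hp.mem_or_mem h1 with h2 | h2
    · exact absurd (hple h2) hb
    · exact h2
  exact hvert p hp hh hple hϖ

end abstract

section chart

variable (R : Type) [CommRing R] [IsDomain R] [IsDiscreteValuationRing R]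
  (K : Type) [Field K] [CharZero K] [Algebra R K] [IsFractionRing R K]
  {F : Type} [Field F] [Algebra K F] [Algebra R F] [IsScalarTower R K F]

/-- **local Krull, chart form**: `z ∈ B_𝔫` as soon as `z ∈ B_p` for every height-one prime
`p ≤ 𝔫`. -/
theorem inLoc_of_height_one {t : F} (ht : Transcendental K t) [hfin : FiniteDimensional K⟮t⟯ F]
    (𝔫 : Ideal (Chart R t)) (h𝔫 : 𝔫.IsPrime) (z : F)
    (h : ∀ p : Ideal (Chart R t), p.IsPrime → p.height = 1 → p ≤ 𝔫 → InLoc R t p z) :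
    InLoc R t 𝔫 z := by
  haveI : IsNoetherianRing (Chart R t) := H22BR.chart_noeth R K ht
  haveI : IsIntegrallyClosed (Chart R t) := H22BR.chart_intClosed R K t
  haveI : IsFractionRing (Chart R t) F := H22BR.chart_isFractionRing R K t
  haveI := h𝔫
  have key : H27KR.InLoc 𝔫 z := by
    apply H26R2.inLoc_of_forall_height_one_le
    intro p hp hh hple
    obtain ⟨a, s, hs, e⟩ := h p hp hh hple
    exact ⟨a, s, hs, by rw [mul_comm]; exact e⟩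
  obtain ⟨a, s, hs, e⟩ := key
  exact ⟨a, s, hs, by rw [mul_comm]; exact e⟩

/-- `z ∈ B_𝔫` if `ϖ' z ∈ M₀` and `z ∈ B_p` for the vertical height-one primes `p ≤ 𝔫`. -/
theorem inLoc_of_vert {t : F} (ht : Transcendental K t) [hfin : FiniteDimensional K⟮t⟯ F]
    (𝔫 : Ideal (Chart R t)) (h𝔫 : 𝔫.IsPrime) (ϖ' w : Chart R t) (z : F)
    (hw : (ϖ' : F) * z = (w : F))
    (hvz : ∀ p : Ideal (Chart R t), p.IsPrime → p.height = 1 → p ≤ 𝔫 → ϖ' ∈ p →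
      InLoc R t p z) :
    InLoc R t 𝔫 z := by
  refine inLoc_of_height_one R K ht 𝔫 h𝔫 z ?_
  intro p hp hh hple
  by_cases hϖ : ϖ' ∈ p
  · exact hvz p hp hh hple hϖ
  · exact ⟨w, ϖ', hϖ, hw⟩

/-- **(R3), principal form**: `a^e = ϖ' ε`, `ε` a unit at `𝔫`, `P` the only vertical prime
through `𝔫`, `a` a generator of `P (M₀)_P` ⟹ `P B_𝔫 = (a)`. -/
theorem principal_of_pow {t : F} (ht : Transcendental K t) [hfin : FiniteDimensional K⟮t⟯ F]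
    (𝔫 : Ideal (Chart R t)) (h𝔫 : 𝔫.IsPrime) (P : Ideal (Chart R t)) (hP : P.IsPrime)
    (ϖ' : Chart R t)
    (hvert : ∀ p : Ideal (Chart R t), p.IsPrime → p.height = 1 → p ≤ 𝔫 → ϖ' ∈ p → p = P)
    (a : Chart R t) (ha0 : a ≠ 0) (e : ℕ) (he : 0 < e)
    (hpow : ∃ s b : Chart R t, s ∉ 𝔫 ∧ b ∉ 𝔫 ∧ s * a ^ e = b * ϖ')
    (hloc : ∀ y ∈ P, ∃ s c : Chart R t, s ∉ P ∧ s * y = c * a) :
    ∀ y ∈ P, ∃ s c : Chart R t, s ∉ 𝔫 ∧ s * y = c * a := by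
  haveI : IsNoetherianRing (Chart R t) := H22BR.chart_noeth R K ht
  haveI : IsIntegrallyClosed (Chart R t) := H22BR.chart_intClosed R K t
  haveI := h𝔫
  haveI := hP
  exact H26R2.principal_at 𝔫 P a ha0 (only_of_pow 𝔫 P ϖ' hvert a e he hpow) hloc

/-- **(R3), two generators**. -/
theorem two_gen_of_pow {t : F} (ht : Transcendental K t) [hfin : FiniteDimensional K⟮t⟯ F]
    (𝔫 : Ideal (Chart R t)) (h𝔫 : 𝔫.IsPrime) (P : Ideal (Chart R t)) (hP : P.IsPrime)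
    (ϖ' : Chart R t)
    (hvert : ∀ p : Ideal (Chart R t), p.IsPrime → p.height = 1 → p ≤ 𝔫 → ϖ' ∈ p → p = P)
    (a : Chart R t) (ha0 : a ≠ 0) (e : ℕ) (he : 0 < e)
    (hpow : ∃ s b : Chart R t, s ∉ 𝔫 ∧ b ∉ 𝔫 ∧ s * a ^ e = b * ϖ')
    (hloc : ∀ y ∈ P, ∃ s c : Chart R t, s ∉ P ∧ s * y = c * a)
    (u : Chart R t) (hunif : H26DI.UnifAt P 𝔫 u) :
    ∀ y ∈ 𝔫, ∃ s c d : Chart R t, s ∉ 𝔫 ∧ (s : F) * y = c * (a : F) + d * u := by
  haveI := h𝔫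
  haveI := hP
  refine H26R2.chart_two_gen R K ht 𝔫 h𝔫 P a u ha0
    (only_of_pow 𝔫 P ϖ' hvert a e he hpow) hloc ?_
  intro y hy
  obtain ⟨s, hs, c, hc⟩ := hunif.2.2 y hy
  exact ⟨s, c, hs, hc⟩

/-- **(R3) ⟹ (L1)** at the points of `C₃` only. -/
theorem l1At_of_pow (ϖ : R) (hϖ : Irreducible ϖ) {t : F} (ht : Transcendental K t)
    [hfin : FiniteDimensional K⟮t⟯ F] (n : ℕ) (hn : 0 < n) (f : F) (hf : f ≠ 0)
    (hdiv : ∀ V : AlgebraicCurve.Place K F, (n : ℤ) ∣ V.ord f)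
    (𝔫 : Ideal (Chart R t)) (h𝔫 : 𝔫.IsPrime) (P : Ideal (Chart R t)) (hP : P.IsPrime)
    (hPle : P ≤ 𝔫) (ϖ' : Chart R t)
    (hvert : ∀ p : Ideal (Chart R t), p.IsPrime → p.height = 1 → p ≤ 𝔫 → ϖ' ∈ p → p = P)
    (a : Chart R t) (ha0 : a ≠ 0) (haP : a ∈ P) (e : ℕ) (he : 0 < e)
    (hpow : ∃ s b : Chart R t, s ∉ 𝔫 ∧ b ∉ 𝔫 ∧ s * a ^ e = b * ϖ')
    (hloc : ∀ y ∈ P, ∃ s c : Chart R t, s ∉ P ∧ s * y = c * a)
    (u : Chart R t) (hunif : H26DI.UnifAt P 𝔫 u) :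
    L1At R ϖ t 𝔫 n f := by
  haveI := h𝔫
  haveI := hP
  refine H26R2.l1At_R2 R K ϖ hϖ ht n hn f hf hdiv 𝔫 h𝔫 P hP hPle a u ha0 haP hunif.1
    hunif.2.1 (only_of_pow 𝔫 P ϖ' hvert a e he hpow) hloc ?_
  intro y hy
  obtain ⟨s, hs, c, hc⟩ := hunif.2.2 y hy
  exact ⟨s, c, hs, hc⟩

/-- the hypothesis `hvert` of `principal_of_thick` from `H26DI.TwoComp`. -/
theorem hvert_of_twoComp (ϖ : R) {t : F} (P Q : Ideal (Chart R t))
    (h2 : H26DI.TwoComp R ϖ t P Q) (ϖ' : Chart R t) (hϖ' : (ϖ' : F) = algebraMap R F ϖ)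
    (hϖ0 : ϖ' ≠ 0) (𝔫 : Ideal (Chart R t)) :
    ∀ p : Ideal (Chart R t), p.IsPrime → p.height = 1 → p ≤ 𝔫 → ϖ' ∈ p → p = P ∨ p = Q := by
  intro p hp hh _ hϖ
  haveI := h2.prime1
  haveI := h2.prime2
  have hP0 : P ≠ ⊥ := by
    intro h
    have := (h2.pi_mem ϖ' hϖ').1
    rw [h] at this
    exact hϖ0 ((Ideal.mem_bot).1 this)
  have hQ0 : Q ≠ ⊥ := by
    intro h
    have := (h2.pi_mem ϖ' hϖ').2
    rw [h] at this
    exact hϖ0 ((Ideal.mem_bot).1 this)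
  refine vert_of_inter P Q hP0 hQ0 ϖ' ?_ p hp hh hϖ
  intro y hyP hyQ
  obtain ⟨a, ha⟩ := h2.cap y hyP hyQ
  refine ⟨a, Subtype.ext ?_⟩
  rw [ha, ← hϖ']
  push_cast
  ring

/-- the hypothesis `hred` of `principal_of_thick` from `H26DI.TwoComp` and `a' ∈ Q \ P`. -/
theorem hred_of_twoComp (ϖ : R) {t : F} (P Q : Ideal (Chart R t))
    (h2 : H26DI.TwoComp R ϖ t P Q) (ϖ' : Chart R t) (hϖ' : (ϖ' : F) = algebraMap R F ϖ)
    (a' : Chart R t) (ha'Q : a' ∈ Q) (ha'P : a' ∉ P) :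
    ∀ y ∈ P, ∃ s c : Chart R t, s ∉ P ∧ s * y = c * ϖ' := by
  refine hred_of_cap P Q ϖ' ?_ a' ha'Q ha'P
  intro y hyP hyQ
  obtain ⟨a, ha⟩ := h2.cap y hyP hyQ
  refine ⟨a, Subtype.ext ?_⟩
  rw [ha, ← hϖ']
  push_cast
  ring

end chart

end H15P6

end
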