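import Mathlib
import Fermat.Agent.S36.R2CU_helper8
import Fermat.Agent.S36.HW2_helper24

/-!
# Item 86 (S36), (R2-INST): (H4) unconditional (helper8)

`H8R2.cu3_C2_final` = `H8R2.cu3_C2` with `(H_W2)` discharged by helper24's `H24HW.h24hw_HW2`.
-/

set_option autoImplicit false
set_option linter.unusedSectionVars false
set_option linter.style.longLine false
set_option linter.unusedVariables false
set_option linter.style.haveILetI false
set_option synthInstance.maxHeartbeats 400000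

open Polynomial IntermediateField ModularCurve H7S18 H4S34 H26DI H28GV H8PB H4S36 H10FC

noncomputable section

namespace H8R2

/-- **(H4)**, unconditional: uniformizer of `C₂` at a closed dich point through `cV2`. -/
theorem cu3_C2_final (M : ℕ) [NeZero M] (q : ℕ) [NeZero q] (hq : q.Prime) (hqM : ¬ q ∣ M)
    (hT : TameLevel q M)
    (A : ValuationSubring (AlgebraicClosure ℚ)) (hA : A.LiesOverPrime q)
    (K₁ : IntermediateField ℚ (AlgebraicClosure ℚ)) (hfin : FiniteDimensional ℚ K₁)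
    (hunr : Irreducible ((q : ℕ) : ↥(descVal A K₁)))
    (K₃ : IntermediateField ℚ (AlgebraicClosure ℚ)) (hfin₃ : FiniteDimensional ℚ K₃)
    (h13 : K₁ ≤ K₃) (ζ : (↥K₃)ˣ) (hζ : IsPrimitiveRoot ζ q)
    (hζe : ∃ ζ' : K₁, IsPrimitiveRoot ζ' (branchIndex (baseKind q) M))
    [IsDiscreteValuationRing ↥(descVal A K₁)] [IsDiscreteValuationRing ↥(descVal A K₃)]
    [Algebra ↥(descVal A K₁) (FK K₁ (M * q * q))]
    [IsScalarTower ↥(descVal A K₁) K₁ (FK K₁ (M * q * q))]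
    (t₀ : LaurentSeries ℚ) (ht₀ : IsBase (baseKind q) t₀)
    (t : FK K₁ (M * q * q)) (ht : (t : LaurentSeries K₁) = coeffEmb K₁ t₀)
    (c : FK K₁ (M * q * q))
    (𝔫 : Ideal (Chart ↥(descVal A K₁) c))
    (h𝔫 : IsClosedPt ↥(descVal A K₁) ((q : ℕ) : ↥(descVal A K₁)) c 𝔫)
    (hd : IsDichPt t c 𝔫)
    (hth : H10G3.Through ↥(descVal A K₁) c 𝔫 (cV2 K₁ (descVal A K₁) M q hq hqM)) :
    ∃ u ∈ 𝔫, ∀ y ∈ 𝔫, ∃ s d : Chart ↥(descVal A K₁) c, s ∉ 𝔫 ∧
      (cV2 K₁ (descVal A K₁) M q hq hqM).valuation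
        ((s : FK K₁ (M * q * q)) * y - d * u) < 1 :=
  cu3_C2 M q hq hqM hT A hA K₁ hfin hunr K₃ hfin₃ h13 ζ hζ hζe t₀ ht₀ t ht
    (H24HW.h24hw_HW2 M q hq hqM hT A hA K₁ hfin t₀ ht₀ t ht) c 𝔫 h𝔫 hd hth

end H8R2

end
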