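import Mathlib
import Fermat.Agent.S36.R1Inv_helper5
import Fermat.Agent.S36.G0NqDefs_helper16

/-!
# Item 86 (S36), LOC, leaf (R2-INST): the bridge `hTG'`  (helper5)

Level `M q` (`q ∤ M`, `M` rigid), base `K₁` as in `H1R1.R1NodeStatement`, chart `c ∈ {t, t⁻¹}`.
From **(R1)** (`H1R1.R1NodeStatement`, the nodes) and **(G0-Nq)**, second component
(`H16G0.G0Nq2Statement`, the points on `C₂'` only):

* `H5TG.twoGen_C2` : EVERY closed point `𝔫'` of the chart `c` lying on the second component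
  `C₂'` has two local generators (ring form `H1R1.TwoGenAt`);
* `H5TG.hTG_conc`  : the same in the F-form and with `C₂'` in valuation form
  (`V₂' = H10FC.gaussVal2`) = the hypothesis `hTG'` of `H26R2.hR2_of_triple_alpha` /
  `hR2_of_triple_alpha'`.
-/

set_option autoImplicit false
set_option synthInstance.maxHeartbeats 400000
set_option maxHeartbeats 1000000
set_option linter.unusedSectionVars false
set_option linter.unusedVariables false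
set_option linter.style.haveILetI false
set_option linter.style.longLine false

noncomputable section

open Polynomial IntermediateField ModularCurve H7S18 H4S34 H26DI H28GV

namespace H5TG

/-- ring form ⟹ F-form of the two generators -/
theorem twoGenF_of_twoGenAt {R : Type} [CommRing R] {E : Type} [Field E] [Algebra R E] {c : E}
    {𝔫 : Ideal (Chart R c)} (h : H1R1.TwoGenAt 𝔫) :
    ∃ g x : Chart R c, g ∈ 𝔫 ∧ x ∈ 𝔫 ∧ ∀ y ∈ 𝔫, ∃ s a b : Chart R c, s ∉ 𝔫 ∧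
      (s : E) * y = a * (g : E) + b * x := by
  obtain ⟨g, x, hg, hx, H⟩ := h
  refine ⟨g, x, hg, hx, fun y hy => ?_⟩
  obtain ⟨s, a, b, hs, e⟩ := H y hy
  refine ⟨s, a, b, hs, ?_⟩
  have := congrArg (fun z : Chart R c => (z : E)) e
  simpa using this

/-- F-form ⟹ ring form -/
theorem twoGenAt_of_twoGenF {R : Type} [CommRing R] {E : Type} [Field E] [Algebra R E] {c : E}
    {𝔫 : Ideal (Chart R c)}
    (h : ∃ g x : Chart R c, g ∈ 𝔫 ∧ x ∈ 𝔫 ∧ ∀ y ∈ 𝔫, ∃ s a b : Chart R c, s ∉ 𝔫 ∧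
      (s : E) * y = a * (g : E) + b * x) : H1R1.TwoGenAt 𝔫 := by
  obtain ⟨g, x, hg, hx, H⟩ := h
  refine ⟨g, x, hg, hx, fun y hy => ?_⟩
  obtain ⟨s, a, b, hs, e⟩ := H y hy
  refine ⟨s, a, b, hs, ?_⟩
  apply Subtype.ext
  push_cast
  exact e

section Concrete

variable (hR1 : H1R1.R1NodeStatement) (hG : H16G0.G0Nq2Statement)
  (M : ℕ) [NeZero M] (q : ℕ) [NeZero q] (hq : q.Prime) (hqM : ¬ q ∣ M)
  (hT : TameLevel q M) (hRig : H14LE.Rigid M)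
  (A : ValuationSubring (AlgebraicClosure ℚ)) (hA : A.LiesOverPrime q)
  (K₁ : IntermediateField ℚ (AlgebraicClosure ℚ)) (hfin : FiniteDimensional ℚ K₁)
  (hζ : ∃ ζ : K₁, IsPrimitiveRoot ζ (branchIndex (baseKind q) M))
  (γ : K₁ ≃ₐ[ℚ] K₁)
  (hγ1 : ∀ a : K₁, a ∈ descVal A K₁ → γ a ∈ descVal A K₁)
  (hγ2 : ∀ a : K₁, a ∈ descVal A K₁ → γ.symm a ∈ descVal A K₁)
  (hγ3 : ∀ a : K₁, a ∈ descVal A K₁ → γ a - a ^ q ∈ (descVal A K₁).nonunits)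
  [Algebra ↥(descVal A K₁) (FK K₁ (M * q))]
  [IsScalarTower ↥(descVal A K₁) K₁ (FK K₁ (M * q))]
  (ϖ : ↥(descVal A K₁)) (hϖ : Irreducible ϖ)
  (hass : Associated ((q : ℕ) : ↥(descVal A K₁)) ϖ)
  (t₀ : LaurentSeries ℚ) (ht₀ : IsBase (baseKind q) t₀)
  (t : FK K₁ (M * q)) (ht : (t : LaurentSeries K₁) = coeffEmb K₁ t₀)

include hR1 hG hq hqM hT hRig hA hfin hζ hγ1 hγ2 hγ3 hϖ hass ht₀ ht in
/-- two generators at the DICH points of `C₂'`. -/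
theorem twoGen_C2_dich (c : FK K₁ (M * q))
    (𝔫 : Ideal (Chart ↥(descVal A K₁) c)) (h𝔫 : IsClosedPt ↥(descVal A K₁) ϖ c 𝔫)
    (hd : IsDichPt t c 𝔫)
    (h2 : ∀ y : Chart ↥(descVal A K₁) c, H8PB.InGm (descVal A K₁)
      ((H12AL.wqKHom K₁ M q hq hqM (y : FK K₁ (M * q)) : FK K₁ (M * q)) : LaurentSeries K₁) →
      y ∈ 𝔫) : H1R1.TwoGenAt (B := ↥(Chart ↥(descVal A K₁) c)) 𝔫 := by
  classical
  have hc : c = t ∨ c = t⁻¹ := hd.elim Or.inl (fun h => Or.inr h.1)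
  by_cases hnode : ∀ y : Chart ↥(descVal A K₁) c,
      H8PB.InGm (descVal A K₁) (((y : FK K₁ (M * q))) : LaurentSeries K₁) → y ∈ 𝔫
  · -- a node
    obtain ⟨P₁, P₂, h1', h2'⟩ := H22DA.exists_comp H8PB.h8pg_pairGauss M q hq hqM hT A hA K₁
      hfin ϖ hϖ t₀ ht₀ t ht c hc
    exact (hR1 M q hq hqM hT hRig A hA K₁ hfin hζ γ hγ1 hγ2 hγ3 ϖ hϖ hass t₀ ht₀ t ht c hc
      P₁ P₂ h1' h2' 𝔫 h𝔫 (fun y hy => hnode y ((h1' y).1 hy))
      (fun y hy => h2 y ((h2' y).1 hy))).1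
  · -- on `C₂'` only
    rw [not_forall] at hnode
    obtain ⟨g, hg⟩ := hnode
    rw [Classical.not_imp] at hg
    obtain ⟨x₀, hreg, -, -⟩ := hG M q hq hqM hT A hA K₁ hfin hζ ϖ hϖ t₀ ht₀ t ht c 𝔫 h𝔫 hd g
      hg.2 hg.1
    apply twoGenAt_of_twoGenF
    refine ⟨algebraMap ↥(descVal A K₁) (Chart ↥(descVal A K₁) c) ϖ, x₀, h𝔫.2 _ rfl, hreg.1, ?_⟩
    intro y hy
    obtain ⟨s, a, b, hs, e⟩ := hreg.2.1 y hy
    exact ⟨s, a, b, hs, e⟩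

include hR1 hG hq hqM hT hRig hA hfin hζ hγ1 hγ2 hγ3 hϖ hass ht₀ ht in
/-- **two generators at EVERY closed point of `C₂'`**, both charts. -/
theorem twoGen_C2 (c : FK K₁ (M * q)) (hc : c = t ∨ c = t⁻¹)
    (𝔫 : Ideal (Chart ↥(descVal A K₁) c)) (h𝔫 : IsClosedPt ↥(descVal A K₁) ϖ c 𝔫)
    (h2 : ∀ y : Chart ↥(descVal A K₁) c, H8PB.InGm (descVal A K₁)
      ((H12AL.wqKHom K₁ M q hq hqM (y : FK K₁ (M * q)) : FK K₁ (M * q)) : LaurentSeries K₁) →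
      y ∈ 𝔫) : H1R1.TwoGenAt (B := ↥(Chart ↥(descVal A K₁) c)) 𝔫 := by
  classical
  rcases hc with rfl | rfl
  · exact twoGen_C2_dich hR1 hG M q hq hqM hT hRig A hA K₁ hfin hζ γ hγ1 hγ2 hγ3 ϖ hϖ hass t₀
      ht₀ c ht c 𝔫 h𝔫 (Or.inl rfl) h2
  · by_cases hu : H7C0.uC M q A K₁ t ∈ 𝔫
    · refine twoGen_C2_dich hR1 hG M q hq hqM hT hRig A hA K₁ hfin hζ γ hγ1 hγ2 hγ3 ϖ hϖ hass t₀
        ht₀ t ht t⁻¹ 𝔫 h𝔫 (Or.inr ⟨rfl, fun y hy => ?_⟩) h2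
      have : y = H7C0.uC M q A K₁ t := Subtype.ext hy
      rw [this]
      exact hu
    · haveI : Fact q.Prime := ⟨hq⟩
      obtain ⟨hdvr, -, -⟩ := H4DVR.dvrStatement q A hA K₁ hfin
      haveI := hdvr
      have hprime : 𝔫.IsPrime := h𝔫.1.isPrime
      have htr : Transcendental K₁ t := H22DA.base_transcendental M q hT K₁ t₀ ht₀ t ht
      have hfinF : FiniteDimensional K₁⟮t⟯ (FK K₁ (M * q)) :=
        H7C0.finite_chart M q hT K₁ t₀ ht₀ t ht t (Or.inl rfl)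
      obtain ⟨𝔫₀, h𝔫₀, hiff⟩ := H20CC.h20cc_chartChange ↥(descVal A K₁) K₁ (FK K₁ (M * q))
        ϖ hϖ t htr hfinF 𝔫 h𝔫 ⟨H7C0.uC M q A K₁ t, rfl, hu⟩
      have hprime₀ : 𝔫₀.IsPrime := h𝔫₀.1.isPrime
      obtain ⟨P₁, P₂, h1p, h2p⟩ := H22DA.exists_comp H8PB.h8pg_pairGauss M q hq hqM hT A hA K₁
        hfin ϖ hϖ t₀ ht₀ t ht t⁻¹ (Or.inr rfl)
      obtain ⟨P₁', P₂', h1', h2'⟩ := H22DA.exists_comp H8PB.h8pg_pairGauss M q hq hqM hT A hA K₁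
        hfin ϖ hϖ t₀ ht₀ t ht t (Or.inl rfl)
      have hV₀ := H5RI.chart_mem_gauss M q hq hqM hT A hA K₁ hfin ϖ hϖ t₀ ht₀ t ht t (Or.inl rfl)
      have hV := H5RI.chart_mem_gauss M q hq hqM hT A hA K₁ hfin ϖ hϖ t₀ ht₀ t ht t⁻¹
        (Or.inr rfl)
      have e2 : ∀ y : Chart ↥(descVal A K₁) t⁻¹, y ∈ P₂ ↔
          (H10FC.gaussVal2 M q hq hqM K₁ (descVal A K₁)).valuation (y : FK K₁ (M * q)) < 1 :=
        fun y => (h2p y).trans (H10FC.gaussVal2_lt_one M q hq hqM K₁ (descVal A K₁) _).symm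
      have e2' : ∀ y : Chart ↥(descVal A K₁) t, y ∈ P₂' ↔
          (H10FC.gaussVal2 M q hq hqM K₁ (descVal A K₁)).valuation (y : FK K₁ (M * q)) < 1 :=
        fun y => (h2' y).trans (H10FC.gaussVal2_lt_one M q hq hqM K₁ (descVal A K₁) _).symm
      have hP2 : P₂ ≤ 𝔫 := fun y hy => h2 y ((h2p y).1 hy)
      have hP2' : P₂' ≤ 𝔫₀ :=
        (H5RI.comp_le_congr 𝔫₀ 𝔫 hprime₀ hprime hiff _ (fun y => (hV₀ y).2)
          (fun y => (hV y).2) P₂' e2' P₂ e2).2 hP2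
      have r := twoGen_C2_dich hR1 hG M q hq hqM hT hRig A hA K₁ hfin hζ γ hγ1 hγ2 hγ3 ϖ hϖ hass
        t₀ ht₀ t ht t 𝔫₀ h𝔫₀ (Or.inl rfl) (fun y hy => hP2' ((h2' y).2 hy))
      exact (H5RI.twoGenAt_congr 𝔫₀ 𝔫 hprime₀ hprime hiff).1 r

include hR1 hG hq hqM hT hRig hA hfin hζ hγ1 hγ2 hγ3 hϖ hass ht₀ ht in
/-- **the hypothesis `hTG'`** of `H26R2.hR2_of_triple_alpha` for `V₂' = H10FC.gaussVal2`. -/
theorem hTG_conc [IsDiscreteValuationRing ↥(descVal A K₁)]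
    (c : FK K₁ (M * q)) (hc : c = t ∨ c = t⁻¹) :
    ∀ 𝔫' : Ideal (Chart ↥(descVal A K₁) c), IsClosedPt ↥(descVal A K₁) ϖ c 𝔫' →
      (∀ y : Chart ↥(descVal A K₁) c,
        (H10FC.gaussVal2 M q hq hqM K₁ (descVal A K₁)).valuation (y : FK K₁ (M * q)) < 1 →
          y ∈ 𝔫') →
      ∃ g x : Chart ↥(descVal A K₁) c, g ∈ 𝔫' ∧ x ∈ 𝔫' ∧
        ∀ y ∈ 𝔫', ∃ s a b : Chart ↥(descVal A K₁) c, s ∉ 𝔫' ∧
          (s : FK K₁ (M * q)) * y = a * (g : FK K₁ (M * q)) + b * x := by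
  intro 𝔫' h𝔫' h2
  apply twoGenF_of_twoGenAt
  exact twoGen_C2 hR1 hG M q hq hqM hT hRig A hA K₁ hfin hζ γ hγ1 hγ2 hγ3 ϖ hϖ hass t₀ ht₀ t ht
    c hc 𝔫' h𝔫'
    (fun y hy => h2 y ((H10FC.gaussVal2_lt_one M q hq hqM K₁ (descVal A K₁) _).2 hy))

end Concrete

end H5TG

end
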