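/-
helper15: item 86 (S36), slice (R3-RES), part 1: the `q`-series core over `ℤ[ζ]`.

For a commutative ring `S`, a unit `ζ` and a Laurent series `x`:
* `H15R.tw_sub`     : `x(ζQ) - x(Q) = (ζ-1)·(θx + (ζ-1)·h)`,  `θ = Q d/dQ`;
* `H15R.exists_unit`: `ζ` a primitive `q`-th root of unity in a domain, `q` prime:
                      `q = (ζ-1)^(q-1)·u` with `u ≡ -1 mod (ζ-1)`  (Wilson);
* `H15R.exists_frob`: `f(Q^q) = f(Q)^q + q·g` for `f ∈ ℤ((Q))`;
* `H15R.core`       : with `J = ` image of `J₀ ∈ ℤ((Q))`, `T = θJ`, `J(ζQ) - J = (ζ-1) H`: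
                      `H^(q-1)·T + u·T(Q^q) ∈ (ζ-1)·S((Q))`.
-/
import Mathlib
import Fermat.Agent.S28.Interface
import Fermat.Agent.S37.R3Red_helper23
import Fermat.Prelude.Thm_ModularCurve_coeffMap_qExpand

set_option autoImplicit false
set_option linter.unusedSectionVars false
set_option linter.unusedVariables false
set_option linter.style.haveILetI false

noncomputable section

open ModularCurve HahnSeries

namespace H15R

section Cmul

variable {S : Type} [CommRing S]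

/-- coefficientwise multiplication `∑ aₙ Qⁿ ↦ ∑ cₙ aₙ Qⁿ`. -/
def cmul (c : ℤ → S) (x : LaurentSeries S) : LaurentSeries S where
  coeff n := c n * x.coeff n
  isPWO_support' := x.isPWO_support.mono (fun n hn => by
    simp only [Function.mem_support, ne_eq] at hn
    rw [HahnSeries.mem_support]
    intro h
    exact hn (by rw [h, mul_zero]))

@[simp] theorem cmul_coeff (c : ℤ → S) (x : LaurentSeries S) (n : ℤ) :
    (cmul c x).coeff n = c n * x.coeff n := rfl

/-- `θ = Q d/dQ`. -/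
def theta (x : LaurentSeries S) : LaurentSeries S := cmul (fun n => (n : S)) x

@[simp] theorem theta_coeff (x : LaurentSeries S) (n : ℤ) :
    (theta x).coeff n = (n : S) * x.coeff n := rfl

theorem coeff_C_mul (a : S) (x : LaurentSeries S) (n : ℤ) :
    (HahnSeries.C a * x).coeff n = a * x.coeff n := by
  rw [HahnSeries.C_mul_eq_smul, HahnSeries.coeff_smul, smul_eq_mul]

theorem coeffMap_C {S' : Type} [CommRing S'] (f : S →+* S') (a : S) :
    coeffMap f (HahnSeries.C a : LaurentSeries S) = HahnSeries.C (f a) := by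
  rw [HahnSeries.C_apply, HahnSeries.C_apply, coeffMap_single]

theorem coeffMap_theta {S' : Type} [CommRing S'] (f : S →+* S') (x : LaurentSeries S) :
    coeffMap f (theta x) = theta (coeffMap f x) := by
  ext n
  rw [coeffMap_coeff, theta_coeff, theta_coeff, coeffMap_coeff, map_mul, map_intCast]

theorem exists_c (ζ : Sˣ) (n : ℤ) :
    ∃ c : S, ((ζ ^ n : Sˣ) : S) - 1 = ((ζ : S) - 1) * ((n : S) + ((ζ : S) - 1) * c) := by
  induction n using Int.induction_on with
  | zero => exact ⟨0, by simp⟩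
  | succ k ih =>
    obtain ⟨c, hc⟩ := ih
    refine ⟨(k : S) + (ζ : S) * c, ?_⟩
    have h1 : ((ζ ^ ((k : ℤ) + 1) : Sˣ) : S) = (ζ : S) * ((ζ ^ (k : ℤ) : Sˣ) : S) := by
      rw [zpow_add_one, Units.val_mul, mul_comm]
    rw [h1]
    push_cast at hc ⊢
    linear_combination (ζ : S) * hc
  | pred k ih =>
    obtain ⟨c, hc⟩ := ih
    refine ⟨c - ((ζ⁻¹ : Sˣ) : S) * ((-(k : S) - 1) + ((ζ : S) - 1) * c), ?_⟩
    have h1 : ((ζ ^ (-(k : ℤ) - 1) : Sˣ) : S) =
        ((ζ⁻¹ : Sˣ) : S) * ((ζ ^ (-(k : ℤ)) : Sˣ) : S) := by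
      rw [zpow_sub_one, Units.val_mul, mul_comm]
    have hw : ((ζ⁻¹ : Sˣ) : S) * (ζ : S) = 1 := by
      rw [← Units.val_mul, inv_mul_cancel, Units.val_one]
    rw [h1]
    push_cast at hc ⊢
    linear_combination ((ζ⁻¹ : Sˣ) : S) * hc +
      (1 + ((ζ : S) - 1) * ((-(k : S) - 1) + ((ζ : S) - 1) * c)) * hw

/-- a choice of `cₙ` with `ζⁿ - 1 = (ζ-1)(n + (ζ-1)cₙ)`. -/
def cfun (ζ : Sˣ) (n : ℤ) : S := Classical.choose (exists_c ζ n)

theorem cfun_spec (ζ : Sˣ) (n : ℤ) :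
    ((ζ ^ n : Sˣ) : S) - 1 = ((ζ : S) - 1) * ((n : S) + ((ζ : S) - 1) * cfun ζ n) :=
  Classical.choose_spec (exists_c ζ n)

/-- `x(ζQ) - x(Q) = (ζ-1)(θx + (ζ-1)h)`. -/
theorem tw_sub (ζ : Sˣ) (x : LaurentSeries S) :
    H28S28.tw ζ x - x =
      HahnSeries.C ((ζ : S) - 1) *
        (theta x + HahnSeries.C ((ζ : S) - 1) * cmul (cfun ζ) x) := by
  ext n
  rw [HahnSeries.coeff_sub, H28S28.tw_coeff, coeff_C_mul, HahnSeries.coeff_add, theta_coeff,
    coeff_C_mul, cmul_coeff]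
  linear_combination (x.coeff n) * cfun_spec ζ n

end Cmul

section Unit

variable {S : Type} [CommRing S]

theorem exists_prod (π : S) (s a : ℕ → S) (hs : ∀ k, ∃ c, s k = a k + π * c) (m : ℕ) :
    ∃ c, ∏ k ∈ Finset.range m, s k = ∏ k ∈ Finset.range m, a k + π * c := by
  induction m with
  | zero => exact ⟨0, by simp⟩
  | succ m ih =>
    obtain ⟨c, hc⟩ := ih
    obtain ⟨d, hd⟩ := hs m
    refine ⟨(∏ k ∈ Finset.range m, a k) * d + c * a m + π * c * d, ?_⟩
    rw [Finset.prod_range_succ, Finset.prod_range_succ, hc, hd]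
    ring

theorem wilson_int (q : ℕ) (hq : q.Prime) : ∃ w : ℤ, (((q - 1).factorial : ℕ) : ℤ) + 1 = q * w := by
  haveI : Fact q.Prime := ⟨hq⟩
  have h := ZMod.wilsons_lemma (p := q)
  have h2 : ((((q - 1).factorial : ℕ) : ℤ) + 1 : ℤ) = ((((q - 1).factorial : ℕ) : ℤ) + 1 : ℤ) := rfl
  have h3 : (((((q - 1).factorial : ℕ) : ℤ) + 1 : ℤ) : ZMod q) = 0 := by
    push_cast
    rw [h]
    ring
  exact (ZMod.intCast_zmod_eq_zero_iff_dvd _ q).1 h3

theorem neg_one_pow_int (q : ℕ) (hq : q.Prime) : ∃ w : ℤ, (-1 : ℤ) ^ (q - 1) = 1 + q * w := by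
  rcases hq.eq_two_or_odd' with h | h
  · subst h
    exact ⟨-1, by norm_num⟩
  · refine ⟨0, ?_⟩
    have he : Even (q - 1) := by
      obtain ⟨m, hm⟩ := h
      exact ⟨m, by omega⟩
    rw [he.neg_one_pow]
    ring

/-- **the cyclotomic unit**: `q = (ζ-1)^(q-1)·u`, `u ≡ -1 mod (ζ-1)`. -/
theorem exists_unit [IsDomain S] (q : ℕ) (hq : q.Prime) (ζ : Sˣ)
    (hζ : IsPrimitiveRoot (ζ : S) q) :
    ∃ u c : S, (q : S) = ((ζ : S) - 1) ^ (q - 1) * u ∧ u + 1 = ((ζ : S) - 1) * c := by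
  obtain ⟨n, hn⟩ : ∃ n, q = n + 1 := ⟨q - 1, by have := hq.pos; omega⟩
  have hn1 : q - 1 = n := by omega
  have hnpos : 1 ≤ n := by have := hq.two_le; omega
  rw [hn1]
  have hζ' : IsPrimitiveRoot (ζ : S) (n + 1) := hn ▸ hζ
  have hprod := hζ'.prod_pow_sub_one_eq_order
  set π : S := (ζ : S) - 1 with hπ
  let s : ℕ → S := fun k => ((k + 1 : ℕ) : S) + π * cfun ζ ((k + 1 : ℕ) : ℤ)
  have hs : ∀ k : ℕ, (ζ : S) ^ (k + 1) - 1 = π * s k := by
    intro k
    have := cfun_spec ζ ((k + 1 : ℕ) : ℤ)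
    rw [zpow_natCast, Units.val_pow_eq_pow_val] at this
    rw [this]
    simp only [s, hπ]
    push_cast
    ring
  have hprod2 : ∏ k ∈ Finset.range n, ((ζ : S) ^ (k + 1) - 1) =
      π ^ n * ∏ k ∈ Finset.range n, s k := by
    rw [Finset.prod_congr rfl (fun k _ => hs k), Finset.prod_mul_distrib, Finset.prod_const,
      Finset.card_range]
  obtain ⟨c₁, hc₁⟩ := exists_prod π s (fun k => ((k + 1 : ℕ) : S))
    (fun k => ⟨cfun ζ ((k + 1 : ℕ) : ℤ), rfl⟩) n
  have hfac : ∏ k ∈ Finset.range n, ((k + 1 : ℕ) : S) = ((n.factorial : ℕ) : S) := by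
    rw [← Nat.cast_prod, Finset.prod_range_add_one_eq_factorial]
  rw [hfac] at hc₁
  obtain ⟨w, hw⟩ := wilson_int q hq
  obtain ⟨w', hw'⟩ := neg_one_pow_int q hq
  rw [hn1] at hw hw'
  have hwS : ((n.factorial : ℕ) : S) + 1 = (q : S) * (w : S) := by
    have := congrArg (Int.cast : ℤ → S) hw
    push_cast at this
    exact this
  have hw'S : (-1 : S) ^ n = 1 + (q : S) * (w' : S) := by
    have := congrArg (Int.cast : ℤ → S) hw'
    push_cast at this
    exact this
  set u : S := (-1) ^ n * ∏ k ∈ Finset.range n, s k with hu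
  have hqu : (q : S) = π ^ n * u := by
    rw [hu, ← mul_assoc, mul_comm (π ^ n), mul_assoc, ← hprod2, hprod, hn]
    push_cast
    ring
  refine ⟨u, π ^ (n - 1) * u * ((w : S) + (w' : S) * ((n.factorial : ℕ) : S)) +
    c₁ * (-1) ^ n, hqu, ?_⟩
  have hpow : π ^ n = π * π ^ (n - 1) := by
    rw [← pow_succ']
    congr 1
    omega
  have hq2 : (q : S) = π * (π ^ (n - 1) * u) := by
    rw [hqu, hpow]
    ring
  have hU : u = (-1) ^ n * (((n.factorial : ℕ) : S) + π * c₁) := by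
    rw [hu, hc₁]
  clear_value u s
  linear_combination hU + ((n.factorial : ℕ) : S) * hw'S + hwS +
    ((w : S) + (w' : S) * ((n.factorial : ℕ) : S)) * hq2

end Unit

section Frob

/-- **Frobenius congruence** over `ℤ`: `f(Q^q) = f(Q)^q + q·g`. -/
theorem exists_frob (q : ℕ) [NeZero q] (hq : q.Prime) (f : LaurentSeries ℤ) :
    ∃ g : LaurentSeries ℤ, qExpand ℤ q f = f ^ q + HahnSeries.C (q : ℤ) * g := by
  haveI : Fact q.Prime := ⟨hq⟩
  set d : LaurentSeries ℤ := qExpand ℤ q f - f ^ q with hd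
  have h0 : coeffMap (Int.castRingHom (ZMod q)) d = 0 := by
    rw [hd, map_sub, map_pow, coeffMap_qExpand,
      H23R3.h23r3_frobenius q (coeffMap (Int.castRingHom (ZMod q)) f),
      ZMod.frobenius_zmod, coeffMap_id, sub_self]
  have hdvd : ∀ n, (q : ℤ) ∣ d.coeff n := by
    intro n
    have := congrArg (fun y : LaurentSeries (ZMod q) => y.coeff n) h0
    simp only [coeffMap_coeff, HahnSeries.coeff_zero, eq_intCast] at this
    exact (ZMod.intCast_zmod_eq_zero_iff_dvd _ q).1 this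
  refine ⟨⟨fun n => d.coeff n / (q : ℤ), d.isPWO_support.mono (fun n hn => ?_)⟩, ?_⟩
  · simp only [Function.mem_support, ne_eq] at hn
    rw [HahnSeries.mem_support]
    intro h
    exact hn (by rw [h]; simp)
  · have : qExpand ℤ q f = f ^ q + d := by rw [hd]; ring
    rw [this]
    congr 1
    ext n
    rw [coeff_C_mul]
    exact (Int.mul_ediv_cancel' (hdvd n)).symm

end Frob

end H15R

end
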