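/-
helper16: item 86 (S36), LOC, (R3): the field `hR3` of `H19LA.ChartLeaves` / `H19LA.PointLeaves`
in the CONTEXT of the final glue (`ϖ = q`, `j = H8TG.J0`, binders of `H7C3.hC3_conc`), with the
base function `t'` of level `M q` produced inside.

* `H16R3.exists_base_q` : the base function of level `M q` with the `q`-expansion of `t₀`;
* `H16R3.hR3_field`     : `hR3` at every closed point of the charts `t`, `t⁻¹`, any `V₁ V₂ V₃`,
  `φβ`, `Nβ`, `b₃` carrying a `Triple` record with `V₁' = cV1'`, `V₂' = cV2'`, `φα = α`,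
  `Nα = normAKH`.  Hypotheses beyond the context: `hRig : H14LE.Rigid (M q)` and the record.
* `H16R3.hR3_cV3`       : the same at `cV1 cV2 cV3` (generic `K₃`), `heckeBetaBar`, `normBKH`, `cb3`.
-/
import Mathlib
import Fermat.Agent.S36.R3Conc_helper16

set_option autoImplicit false
set_option linter.unusedSectionVars false
set_option linter.unusedVariables false
set_option linter.style.haveILetI false
set_option linter.style.longLine false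
set_option synthInstance.maxHeartbeats 400000
set_option maxHeartbeats 1000000

noncomputable section

open Polynomial IntermediateField AlgebraicCurve ModularCurve H7S18 H4S34

namespace H16R3

local notation "Qb" => AlgebraicClosure ℚ

section field

variable (M : ℕ) [NeZero M] (q : ℕ) [NeZero q] (hq : q.Prime) (hqM : ¬ q ∣ M)
  (hT : TameLevel q M) (hRig : H14LE.Rigid (M * q))
  (A : ValuationSubring Qb) (hA : A.LiesOverPrime q)
  (K₁ : IntermediateField ℚ Qb) (hfin : FiniteDimensional ℚ K₁)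
  (hunr : Irreducible ((q : ℕ) : ↥(descVal A K₁)))
  (hζe : ∃ ζ' : K₁, IsPrimitiveRoot ζ' (branchIndex (baseKind q) M))
  [IsDiscreteValuationRing ↥(descVal A K₁)]
  [Algebra ↥(descVal A K₁) (FK K₁ (M * q * q))]
  [IsScalarTower ↥(descVal A K₁) K₁ (FK K₁ (M * q * q))]
  [Algebra ↥(descVal A K₁) (FK K₁ (M * q))]
  [IsScalarTower ↥(descVal A K₁) K₁ (FK K₁ (M * q))]
  (t₀ : LaurentSeries ℚ) (ht₀ : IsBase (baseKind q) t₀)
  (t : FK K₁ (M * q * q)) (ht : (t : LaurentSeries K₁) = coeffEmb K₁ t₀)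

include hT ht₀ in
/-- the base function of level `M q` with the `q`-expansion of `t₀` -/
theorem exists_base_q : ∃ t' : FK K₁ (M * q), (t' : LaurentSeries K₁) = coeffEmb K₁ t₀ := by
  have hi : baseKind q = 1 ∨ (baseKind q = 2 ∧ 2 ∣ M * q) ∨ (baseKind q = 3 ∧ 3 ∣ M * q) := by
    rcases H28PL.baseKind_ok hT with h | h | h
    · exact Or.inl h
    · exact Or.inr (Or.inl ⟨h.1, Dvd.dvd.mul_right h.2 q⟩)
    · exact Or.inr (Or.inr ⟨h.1, Dvd.dvd.mul_right h.2 q⟩)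
  obtain ⟨t₁, ht₁coe, -⟩ := H9C6e.fieldBasics (M * q) (baseKind q) hi t₀ ht₀ K₁
  exact ⟨t₁, ht₁coe⟩

include hq hqM hT hRig hA hfin hunr hζe ht₀ ht in
/-- **(R3), the field `hR3`** in the context of the final glue. -/
theorem hR3_field (n : ℕ) (φβ : FK K₁ (M * q) →+* FK K₁ (M * q * q))
    (Nβ : FK K₁ (M * q * q) →* FK K₁ (M * q))
    (V₁ V₂ V₃ : ValuationSubring (FK K₁ (M * q * q))) (b₃ : FK K₁ (M * q * q))
    (hTr : H4S36.Triple ↥(descVal A K₁) K₁ (FK K₁ (M * q * q)) (FK K₁ (M * q))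
      ((q : ℕ) : ↥(descVal A K₁)) t q n
      (heckeAlphaBar K₁ (M * q) q).toRingHom φβ (H4S36.normAKH K₁ M q) Nβ V₁ V₂ V₃
      (H4S36.cV1' K₁ (descVal A K₁) M q) (H4S36.cV2' K₁ (descVal A K₁) M q hq hqM) b₃)
    (c : FK K₁ (M * q * q)) (hc : c = t ∨ c = t⁻¹)
    (𝔫 : Ideal (Chart ↥(descVal A K₁) c))
    (h𝔫 : IsClosedPt ↥(descVal A K₁) ((q : ℕ) : ↥(descVal A K₁)) c 𝔫)
    (h1 : ¬ H10G3.Through ↥(descVal A K₁) c 𝔫 V₁)
    (h2 : ¬ H10G3.Through ↥(descVal A K₁) c 𝔫 V₂)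
    (h3 : H10G3.Through ↥(descVal A K₁) c 𝔫 V₃)
    (hj : InLoc ↥(descVal A K₁) c 𝔫 (H8TG.J0 ↥K₁ (M * q * q))) :
    H2L1.TwoGenAt ↥(descVal A K₁) c 𝔫 := by
  obtain ⟨t', ht'⟩ := exists_base_q M q hT K₁ t₀ ht₀
  exact hR3_qq M q hq hqM hT hRig A hA K₁ hfin hζe ((q : ℕ) : ↥(descVal A K₁)) hunr
    t₀ ht₀ t ht t' ht' hunr n φβ Nβ V₁ V₂ V₃ b₃ hTr c hc 𝔫 h𝔫 h1 h2 h3 hj

include hq hqM hT hRig hA hfin hunr hζe ht₀ ht in
/-- **(R3), the field `hR3`** at `cV1 cV2 cV3` (generic `K₃`). -/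
theorem hR3_cV3 (K₃ : IntermediateField ℚ Qb) (h13 : K₁ ≤ K₃) (ζ : (↥K₃)ˣ)
    (hζ : IsPrimitiveRoot ζ q) [IsDiscreteValuationRing ↥(descVal A K₃)] (n : ℕ)
    (hTr : H4S36.Triple ↥(descVal A K₁) K₁ (FK K₁ (M * q * q)) (FK K₁ (M * q))
      ((q : ℕ) : ↥(descVal A K₁)) t q n
      (heckeAlphaBar K₁ (M * q) q).toRingHom (heckeBetaBar K₁ (M * q) q).toRingHom
      (H4S36.normAKH K₁ M q) (H4S36.normBKH K₁ M q)
      (H4S36.cV1 K₁ (descVal A K₁) M q) (H4S36.cV2 K₁ (descVal A K₁) M q hq hqM)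
      (H4S36.cV3 K₁ M q hq hqM K₃ (descVal A K₃) h13 ζ hζ)
      (H4S36.cV1' K₁ (descVal A K₁) M q) (H4S36.cV2' K₁ (descVal A K₁) M q hq hqM)
      (H4S36.cb3 K₁ M q))
    (c : FK K₁ (M * q * q)) (hc : c = t ∨ c = t⁻¹)
    (𝔫 : Ideal (Chart ↥(descVal A K₁) c))
    (h𝔫 : IsClosedPt ↥(descVal A K₁) ((q : ℕ) : ↥(descVal A K₁)) c 𝔫)
    (h1 : ¬ H10G3.Through ↥(descVal A K₁) c 𝔫 (H4S36.cV1 K₁ (descVal A K₁) M q))
    (h2 : ¬ H10G3.Through ↥(descVal A K₁) c 𝔫 (H4S36.cV2 K₁ (descVal A K₁) M q hq hqM))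
    (h3 : H10G3.Through ↥(descVal A K₁) c 𝔫
      (H4S36.cV3 K₁ M q hq hqM K₃ (descVal A K₃) h13 ζ hζ))
    (hj : InLoc ↥(descVal A K₁) c 𝔫 (H8TG.J0 ↥K₁ (M * q * q))) :
    H2L1.TwoGenAt ↥(descVal A K₁) c 𝔫 :=
  hR3_field M q hq hqM hT hRig A hA K₁ hfin hunr hζe t₀ ht₀ t ht n _ _ _ _ _ _ hTr c hc 𝔫 h𝔫
    h1 h2 h3 hj

end field

end H16R3

end
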