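/-
helper15: item 86 (S36), slice (R3-RES), part 2: the residue of `ε₃ = a₃^(q-1)/q` at `w₃`.

`K` a field, `R ⊆ K` a valuation subring in which the prime `q` is not a unit, `ζ ∈ K` a primitive
`q`-th root of unity, `J₀ ∈ ℤ((Q))` with a unit coefficient `n₀·J₀.coeff n₀` (e.g. `J₀ = j`,
`n₀ = -1`; or a Hauptmodul `t₂`, `t₃`), `J` its image in `K((Q))`, `T = θJ`.  If
  `q·xε = (J(ζQ) - J(Q))^(q-1)`   and   `xψ·T = T(Q^q)`
then `xε + xψ` lies in the maximal ideal of the Gauss ring: `H8PB.InGm R (xε + xψ)`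
(`H15R.res3`, `H15R.res3_jq`).  In words: `red_{w₃}(a₃^(q-1)/q) = -(θJ)^(q-1) = -red ψ`.
-/
import Mathlib
import Fermat.Agent.S36.R3Core_helper15
import Fermat.Agent.S34.PairDefs_helper8
import Fermat.Agent.S18.C7d_helper4

set_option autoImplicit false
set_option linter.unusedSectionVars false
set_option linter.unusedVariables false
set_option linter.style.haveILetI false

noncomputable section

open ModularCurve HahnSeries

namespace H15R

section Core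

variable {S : Type} [CommRing S]

/-- the algebraic heart: `H^(q-1) T + u T_q ∈ (π)` if `H ≡ T`, `u ≡ -1`, `T_q ≡ T^q`, `q ∈ (π)`
modulo `π`. -/
theorem core_alg {Λ : Type} [CommRing Λ] (π u c qq P H T Tq h g : Λ) (q : ℕ) (hq : 1 ≤ q)
    (hH : H = T + π * h) (hu : u + 1 = π * c) (hTq : Tq = T ^ q + qq * g) (hqq : qq = π * P) :
    ∃ F' : Λ, H ^ (q - 1) * T + u * Tq = π * F' := by
  obtain ⟨w, hw⟩ : ∃ w, H ^ (q - 1) = T ^ (q - 1) + π * w := by
    obtain ⟨w, hw⟩ := sub_dvd_pow_sub_pow H T (q - 1)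
    refine ⟨h * w, ?_⟩
    have : H - T = π * h := by rw [hH]; ring
    rw [this] at hw
    linear_combination hw
  have hT : T ^ (q - 1) * T = T ^ q := by
    rw [← pow_succ]
    congr 1
    omega
  have hu' : u = π * c - 1 := by linear_combination hu
  subst hTq hqq hu'
  refine ⟨w * T + c * (T ^ q + π * P * g) - P * g, ?_⟩
  rw [hw]
  linear_combination hT

end Core

section Val

variable {K : Type} [Field K] (R : ValuationSubring K)

/-- a root of unity of `K` lies in `R`, as a unit. -/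
theorem exists_unitR (q : ℕ) (hq : 0 < q) (ζ : Kˣ) (hζ : (ζ : K) ^ q = 1) :
    ∃ ζR : (↥R)ˣ, ((ζR : ↥R) : K) = (ζ : K) ∧ (((ζR⁻¹ : (↥R)ˣ) : ↥R) : K) = ((ζ⁻¹ : Kˣ) : K) := by
  obtain ⟨n, hn⟩ : ∃ n, q = n + 1 := ⟨q - 1, by omega⟩
  have hinv : ((ζ⁻¹ : Kˣ) : K) = (ζ : K) ^ n := by
    have h1 : (ζ : K) * (ζ : K) ^ n = 1 := by rw [← pow_succ', ← hn, hζ]
    have h2 : ((ζ⁻¹ : Kˣ) : K) * (ζ : K) = 1 := by
      rw [← Units.val_mul, inv_mul_cancel, Units.val_one]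
    calc ((ζ⁻¹ : Kˣ) : K) = ((ζ⁻¹ : Kˣ) : K) * ((ζ : K) * (ζ : K) ^ n) := by rw [h1, mul_one]
      _ = (((ζ⁻¹ : Kˣ) : K) * (ζ : K)) * (ζ : K) ^ n := by ring
      _ = (ζ : K) ^ n := by rw [h2, one_mul]
  have hζ' : (ζ : K) = ((ζ⁻¹ : Kˣ) : K) ^ n := by
    have h1 : ((ζ⁻¹ : Kˣ) : K) ^ q = 1 := by
      rw [← Units.val_pow_eq_pow_val, inv_pow, Units.val_inv_eq_inv_val,
        Units.val_pow_eq_pow_val, hζ, inv_one]
    have h2 : ((ζ⁻¹ : Kˣ) : K) * (ζ : K) = 1 := by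
      rw [← Units.val_mul, inv_mul_cancel, Units.val_one]
    have h3 : ((ζ⁻¹ : Kˣ) : K) * ((ζ⁻¹ : Kˣ) : K) ^ n = 1 := by rw [← pow_succ', ← hn, h1]
    calc (ζ : K) = (((ζ⁻¹ : Kˣ) : K) * ((ζ⁻¹ : Kˣ) : K) ^ n) * (ζ : K) := by rw [h3, one_mul]
      _ = (((ζ⁻¹ : Kˣ) : K) * (ζ : K)) * ((ζ⁻¹ : Kˣ) : K) ^ n := by ring
      _ = ((ζ⁻¹ : Kˣ) : K) ^ n := by rw [h2, one_mul]
  have hmem : (ζ : K) ∈ R ∧ ((ζ⁻¹ : Kˣ) : K) ∈ R := by
    rcases R.mem_or_inv_mem (ζ : K) with h | h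
    · exact ⟨h, by rw [hinv]; exact pow_mem h n⟩
    · have h' : ((ζ⁻¹ : Kˣ) : K) ∈ R := by rwa [Units.val_inv_eq_inv_val]
      exact ⟨by rw [hζ']; exact pow_mem h' n, h'⟩
  refine ⟨⟨⟨(ζ : K), hmem.1⟩, ⟨((ζ⁻¹ : Kˣ) : K), hmem.2⟩, ?_, ?_⟩, rfl, rfl⟩
  · ext
    show (ζ : K) * ((ζ⁻¹ : Kˣ) : K) = 1
    rw [← Units.val_mul, mul_inv_cancel, Units.val_one]
  · ext
    show ((ζ⁻¹ : Kˣ) : K) * (ζ : K) = 1
    rw [← Units.val_mul, inv_mul_cancel, Units.val_one]

theorem coeffMap_tw (ζ : Kˣ) (ζR : (↥R)ˣ) (h1 : ((ζR : ↥R) : K) = (ζ : K))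
    (x : LaurentSeries ↥R) :
    coeffMap R.subtype (H28S28.tw ζR x) = H28S28.tw ζ (coeffMap R.subtype x) := by
  have hmap : Units.map (R.subtype : ↥R →* K) ζR = ζ := Units.ext h1
  ext n
  rw [coeffMap_coeff, H28S28.tw_coeff, H28S28.tw_coeff, coeffMap_coeff, map_mul]
  congr 1
  rw [← hmap, ← map_zpow]
  rfl

/-- **(R3-RES)**, general integer series `J₀`. -/
theorem res3 (q : ℕ) [NeZero q] (hq : q.Prime) (hqR : ¬ IsUnit ((q : ℕ) : ↥R))
    (ζ : Kˣ) (hζ : IsPrimitiveRoot (ζ : K) q)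
    (J₀ : LaurentSeries ℤ) (n₀ : ℤ) (hn₀ : IsUnit (n₀ * J₀.coeff n₀))
    (T : LaurentSeries K)
    (hT : ∀ n, T.coeff n = (n : K) * (coeffMap (Int.castRingHom K) J₀).coeff n)
    (xε xψ : LaurentSeries K)
    (hε : HahnSeries.C (q : K) * xε =
      (H28S28.tw ζ (coeffMap (Int.castRingHom K) J₀) - coeffMap (Int.castRingHom K) J₀) ^ (q - 1))
    (hψ : xψ * T = qExpand K q T) :
    H8PB.InGm R (xε + xψ) := by
  classical
  obtain ⟨ζR, hζR, -⟩ := exists_unitR R q hq.pos ζ hζ.pow_eq_one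
  have hζR' : IsPrimitiveRoot (ζR : ↥R) q := by
    refine IsPrimitiveRoot.of_map_of_injective (f := R.subtype) ?_ Subtype.val_injective
    show IsPrimitiveRoot ((ζR : ↥R) : K) q
    rw [hζR]; exact hζ
  obtain ⟨u, c, hqu, huc⟩ := exists_unit q hq ζR hζR'
  set π : ↥R := (ζR : ↥R) - 1 with hπ
  -- `π` is not a unit, `u` is a unit
  have hπnu : ¬ IsUnit π := by
    have h2 : ((q : ℕ) : ↥R) ∈ IsLocalRing.maximalIdeal ↥R :=
      (IsLocalRing.mem_maximalIdeal _).2 hqR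
    have hk : (IsLocalRing.residue ↥R) ((q : ℕ) : ↥R) = 0 :=
      (IsLocalRing.residue_eq_zero_iff _).2 h2
    haveI : Fact q.Prime := ⟨hq⟩
    haveI : CharP (IsLocalRing.ResidueField ↥R) q := by
      refine (CharP.charP_iff_prime_eq_zero hq).2 ?_
      rwa [map_natCast] at hk
    have hz : (IsLocalRing.residue ↥R) (ζR : ↥R) ^ q = 1 := by
      rw [← map_pow, hζR'.pow_eq_one, map_one]
    have hz1 : ((IsLocalRing.residue ↥R) (ζR : ↥R) - 1) ^ q = 0 := by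
      rw [sub_pow_char, hz, one_pow, sub_self]
    have hz2 : (IsLocalRing.residue ↥R) π = 0 := by
      rw [hπ, map_sub, map_one]
      exact (pow_eq_zero_iff hq.ne_zero).1 hz1
    exact (IsLocalRing.mem_maximalIdeal π).1 ((IsLocalRing.residue_eq_zero_iff π).1 hz2)
  have huu : IsUnit u := by
    by_contra hnu
    have h1 : u ∈ IsLocalRing.maximalIdeal ↥R := (IsLocalRing.mem_maximalIdeal u).2 hnu
    have h2 : π * c ∈ IsLocalRing.maximalIdeal ↥R :=
      Ideal.mul_mem_right _ _ ((IsLocalRing.mem_maximalIdeal π).2 hπnu)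
    have h3 : (1 : ↥R) ∈ IsLocalRing.maximalIdeal ↥R := by
      have : (1 : ↥R) = π * c - u := by rw [← huc]; ring
      rw [this]
      exact Ideal.sub_mem _ h2 h1
    exact (IsLocalRing.mem_maximalIdeal _).1 h3 isUnit_one
  -- the series over `R`
  set JR : LaurentSeries ↥R := coeffMap (Int.castRingHom ↥R) J₀ with hJR
  set TR : LaurentSeries ↥R := theta JR with hTR
  set hR : LaurentSeries ↥R := cmul (cfun ζR) JR with hhR
  set HR : LaurentSeries ↥R := TR + HahnSeries.C π * hR with hHR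
  have htw : H28S28.tw ζR JR - JR = HahnSeries.C π * HR := tw_sub ζR JR
  obtain ⟨g₀, hg₀⟩ := exists_frob q hq (theta J₀)
  have hTRmap : TR = coeffMap (Int.castRingHom ↥R) (theta J₀) := by
    rw [hTR, hJR, coeffMap_theta]
  have hfrob : qExpand ↥R q TR =
      TR ^ q + HahnSeries.C ((q : ℕ) : ↥R) * coeffMap (Int.castRingHom ↥R) g₀ := by
    rw [hTRmap, ← coeffMap_qExpand, hg₀, map_add, map_pow, map_mul, coeffMap_C]
    simp
  obtain ⟨n', hn'⟩ : ∃ n', q = n' + 1 := ⟨q - 1, by have := hq.pos; omega⟩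
  have hqπ : ((q : ℕ) : ↥R) = π * (π ^ (q - 1 - 1) * u) := by
    rw [hqu]
    have : π ^ (q - 1) = π * π ^ (q - 1 - 1) := by
      rw [← pow_succ']
      congr 1
      have := hq.two_le
      omega
    rw [this]
    ring
  obtain ⟨F', hF'⟩ := core_alg (Λ := LaurentSeries ↥R) (HahnSeries.C π) (HahnSeries.C u)
    (HahnSeries.C c) (HahnSeries.C ((q : ℕ) : ↥R)) (HahnSeries.C (π ^ (q - 1 - 1) * u)) HR TR
    (qExpand ↥R q TR) hR (coeffMap (Int.castRingHom ↥R) g₀) q hq.pos rfl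
    (by rw [← map_one (HahnSeries.C (Γ := ℤ) (R := ↥R)), ← map_add, huc, map_mul])
    hfrob (by rw [hqπ, map_mul])
  -- transfer to `K`
  have hJK : coeffMap R.subtype JR = coeffMap (Int.castRingHom K) J₀ := by
    rw [hJR, coeffMap_coeffMap]
    exact coeffMap_congr (RingHom.ext_int _ _) J₀
  have hTK : coeffMap R.subtype TR = T := by
    ext n
    rw [coeffMap_coeff, hTR, theta_coeff, map_mul, map_intCast, hT n, ← hJK, coeffMap_coeff]
    rfl
  have htwK : H28S28.tw ζ (coeffMap (Int.castRingHom K) J₀) - coeffMap (Int.castRingHom K) J₀ =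
      HahnSeries.C ((π : ↥R) : K) * coeffMap R.subtype HR := by
    rw [← hJK, ← coeffMap_tw R ζ ζR hζR, ← map_sub, htw, map_mul, coeffMap_C]
    rfl
  have hπK : ((π : ↥R) : K) ≠ 0 := by
    intro h0
    have hζ1 : (ζR : ↥R) = 1 := by
      have : (ζR : ↥R) - 1 = 0 := by rw [← hπ]; exact Subtype.ext h0
      exact sub_eq_zero.1 this
    have h1 := hζR'.unique (hζ1 ▸ IsPrimitiveRoot.one)
    have := hq.two_le
    omega
  have hCπ : (HahnSeries.C ((π : ↥R) : K) : LaurentSeries K) ^ (q - 1) ≠ 0 := by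
    apply pow_ne_zero
    intro h0
    apply hπK
    have := congrArg (fun y : LaurentSeries K => y.coeff 0) h0
    simpa [HahnSeries.C_apply] using this
  have hε' : HahnSeries.C ((u : ↥R) : K) * xε = (coeffMap R.subtype HR) ^ (q - 1) := by
    apply mul_left_cancel₀ hCπ
    have hqK : (HahnSeries.C (q : K) : LaurentSeries K) =
        HahnSeries.C ((π : ↥R) : K) ^ (q - 1) * HahnSeries.C ((u : ↥R) : K) := by
      rw [← map_pow, ← map_mul]
      congr 1
      have := congrArg (fun z : ↥R => (z : K)) hqu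
      simpa using this
    rw [← mul_assoc, ← hqK, hε, htwK, mul_pow]
  refine ⟨HahnSeries.C π * F', HahnSeries.C u * TR, ⟨n₀, ?_⟩, ?_, ?_⟩
  · rw [coeff_C_mul, hTR, theta_coeff, hJR, coeffMap_coeff]
    refine huu.mul ?_
    have : ((n₀ : ℤ) : ↥R) * (Int.castRingHom ↥R) (J₀.coeff n₀) =
        (Int.castRingHom ↥R) (n₀ * J₀.coeff n₀) := by
      rw [map_mul]; simp
    rw [this]
    exact hn₀.map _
  · intro n hunit
    rw [coeff_C_mul] at hunit
    exact hπnu (isUnit_of_mul_isUnit_left hunit)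
  · have e1 : coeffMap R.subtype (HahnSeries.C u * TR) =
        HahnSeries.C ((u : ↥R) : K) * T := by
      rw [map_mul, coeffMap_C, hTK]
      rfl
    have e2 : coeffMap R.subtype (HahnSeries.C π * F') =
        coeffMap R.subtype HR ^ (q - 1) * T + HahnSeries.C ((u : ↥R) : K) * qExpand K q T := by
      rw [← hF', map_add, map_mul, map_pow, hTK, map_mul, coeffMap_C, coeffMap_qExpand, hTK]
      rfl
    rw [e1, e2, ← hε', ← hψ]
    ring

/-- **(R3-RES)** for `J = j`. -/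
theorem res3_jq (q : ℕ) [NeZero q] (hq : q.Prime) (hqR : ¬ IsUnit ((q : ℕ) : ↥R))
    (ζ : Kˣ) (hζ : IsPrimitiveRoot (ζ : K) q)
    (T : LaurentSeries K) (hT : ∀ n, T.coeff n = (n : K) * (jqModC K).coeff n)
    (xε xψ : LaurentSeries K)
    (hε : HahnSeries.C (q : K) * xε = (H28S28.tw ζ (jqModC K) - jqModC K) ^ (q - 1))
    (hψ : xψ * T = qExpand K q T) :
    H8PB.InGm R (xε + xψ) := by
  have hJ : coeffMap (Int.castRingHom K) (jqModC ℤ) = jqModC K := coeffMap_jqModC _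
  refine res3 R q hq hqR ζ hζ (jqModC ℤ) (-1) ?_ T (by rw [hJ]; exact hT) xε xψ
    (by rw [hJ]; exact hε) hψ
  rw [H4C7d.jq_coeff_neg_one ℤ]
  exact ⟨⟨-1, -1, by norm_num, by norm_num⟩, by norm_num⟩

end Val

end H15R

end
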