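import Mathlib

/-!
# helper19 — S36 (Carayol), item 86, DISC line: (SL) semilocalization + (HT) heights

Generic, Mathlib only (statements fixed by helper6, sub-architect of the DISC line).

(SL)  `C₀ → C` integral, `𝔫₀` a maximal ideal of `C₀`, `A₀ = (C₀)_{𝔫₀}`,
      `A = C ⊗ A₀` = localisation of `C` at the image of `C₀ ∖ 𝔫₀`.
* `sl_isIntegral`      : `A` is integral over `A₀`;
* `sl_comap_isMaximal` : a maximal ideal of `A` restricts to a maximal ideal of `C` over `𝔫₀`;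
* `sl_map_isMaximal`   : a maximal ideal `𝔫` of `C` over `𝔫₀` extends to a maximal ideal of `A`
                         whose restriction is `𝔫`;
* `sl_map_comap`       : `(𝔑 ∩ C) A = 𝔑`.

(HT)
* `ht_one`   : in a noetherian local domain with `𝔪 = (ϖ, x₀)` a nonzero prime not containing
               `ϖ` has height one;
* `ht_comap` : heights are preserved by restriction from `(C₀)_{𝔫₀}` to `C₀`.
-/

set_option autoImplicit false
set_option linter.style.haveILetI false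
set_option linter.unusedSectionVars false

namespace H19SL

section SL
variable {C₀ C A₀ A : Type} [CommRing C₀] [CommRing C] [CommRing A₀] [CommRing A]
  [Algebra C₀ C] [Algebra C₀ A₀] [Algebra C A] [Algebra A₀ A] [Algebra C₀ A]
  [IsScalarTower C₀ C A] [IsScalarTower C₀ A₀ A]
  (𝔫₀ : Ideal C₀) [𝔫₀.IsMaximal] [IsLocalization.AtPrime A₀ 𝔫₀]
  [IsLocalization (Algebra.algebraMapSubmonoid C 𝔫₀.primeCompl) A] [Algebra.IsIntegral C₀ C]

variable (C) in
include 𝔫₀ C in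
/-- `A = C ⊗ (C₀)_{𝔫₀}` is integral over `A₀ = (C₀)_{𝔫₀}`.  (`C` and `𝔫₀` are explicit.) -/
theorem sl_isIntegral : Algebra.IsIntegral A₀ A := by
  have h := isIntegral_localization (R := C₀) (M := 𝔫₀.primeCompl) (S := C) (Rₘ := A₀) (Sₘ := A)
  have heq : (IsLocalization.map A (algebraMap C₀ C)
      (show 𝔫₀.primeCompl ≤ (Algebra.algebraMapSubmonoid C 𝔫₀.primeCompl).comap _ from
        Submonoid.le_comap_map _) : A₀ →+* A) = algebraMap A₀ A := by
    apply IsLocalization.ringHom_ext 𝔫₀.primeCompl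
    rw [IsLocalization.map_comp, ← IsScalarTower.algebraMap_eq C₀ A₀ A,
      ← IsScalarTower.algebraMap_eq C₀ C A]
  rw [heq] at h
  exact ⟨h⟩

/-- auxiliary form of `sl_comap_isMaximal`, with an explicit model `A₀` of `(C₀)_{𝔫₀}` -/
theorem sl_comap_isMaximal_aux (A₀ : Type) [CommRing A₀] [Algebra C₀ A₀] [Algebra A₀ A]
    [IsScalarTower C₀ A₀ A] [IsLocalization.AtPrime A₀ 𝔫₀]
    (𝔑 : Ideal A) [𝔑.IsMaximal] :
    (𝔑.comap (algebraMap C A)).IsMaximal ∧
      (𝔑.comap (algebraMap C A)).comap (algebraMap C₀ C) = 𝔫₀ := by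
  haveI : Algebra.IsIntegral A₀ A := sl_isIntegral (A₀ := A₀) (A := A) C 𝔫₀
  haveI : IsLocalRing A₀ := IsLocalization.AtPrime.isLocalRing A₀ 𝔫₀
  have h1 : (𝔑.comap (algebraMap A₀ A)).IsMaximal :=
    Ideal.isMaximal_comap_of_isIntegral_of_isMaximal 𝔑
  have h2 : 𝔑.comap (algebraMap A₀ A) = IsLocalRing.maximalIdeal A₀ :=
    IsLocalRing.eq_maximalIdeal h1
  have h3 : (𝔑.comap (algebraMap C A)).comap (algebraMap C₀ C) = 𝔫₀ := by
    rw [Ideal.comap_comap, ← IsScalarTower.algebraMap_eq C₀ C A,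
      IsScalarTower.algebraMap_eq C₀ A₀ A, ← Ideal.comap_comap, h2]
    exact IsLocalization.AtPrime.under_maximalIdeal A₀ 𝔫₀
  refine ⟨?_, h3⟩
  haveI : (𝔑.comap (algebraMap C A)).IsPrime := Ideal.comap_isPrime _ _
  refine Ideal.isMaximal_of_isIntegral_of_isMaximal_comap (R := C₀) _ ?_
  rw [h3]
  infer_instance

/-- a maximal ideal of `A` restricts to a maximal ideal of `C` lying over `𝔫₀`
(no model of `(C₀)_{𝔫₀}` needed in the statement) -/
theorem sl_comap_isMaximal (𝔑 : Ideal A) [𝔑.IsMaximal] :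
    (𝔑.comap (algebraMap C A)).IsMaximal ∧
      (𝔑.comap (algebraMap C A)).comap (algebraMap C₀ C) = 𝔫₀ := by
  letI : Algebra (Localization.AtPrime 𝔫₀) A :=
    (IsLocalization.map A (algebraMap C₀ C)
      (show 𝔫₀.primeCompl ≤ (Algebra.algebraMapSubmonoid C 𝔫₀.primeCompl).comap _ from
        Submonoid.le_comap_map _) : Localization.AtPrime 𝔫₀ →+* A).toAlgebra
  haveI : IsScalarTower C₀ (Localization.AtPrime 𝔫₀) A := by
    refine IsScalarTower.of_algebraMap_eq fun x => ?_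
    rw [RingHom.algebraMap_toAlgebra, IsLocalization.map_eq,
      ← IsScalarTower.algebraMap_apply C₀ C A]
  exact sl_comap_isMaximal_aux 𝔫₀ (Localization.AtPrime 𝔫₀) 𝔑

theorem sl_map_isMaximal (𝔫 : Ideal C) [𝔫.IsMaximal] (h : 𝔫.comap (algebraMap C₀ C) = 𝔫₀) :
    (𝔫.map (algebraMap C A)).IsMaximal ∧ (𝔫.map (algebraMap C A)).comap (algebraMap C A) = 𝔫 := by
  have hprime : 𝔫.IsPrime := inferInstance
  have hdisj : Disjoint (Algebra.algebraMapSubmonoid C 𝔫₀.primeCompl : Set C) (𝔫 : Set C) := by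
    rw [Set.disjoint_left]
    rintro _ ⟨s, hs, rfl⟩ hmem
    apply hs
    rw [← h]
    exact hmem
  have hcm : (𝔫.map (algebraMap C A)).comap (algebraMap C A) = 𝔫 :=
    IsLocalization.under_map_of_isPrime_disjoint
      (Algebra.algebraMapSubmonoid C 𝔫₀.primeCompl) A hprime hdisj
  refine ⟨?_, hcm⟩
  have hne : 𝔫.map (algebraMap C A) ≠ ⊤ := by
    intro htop
    have : (𝔫.map (algebraMap C A)).comap (algebraMap C A) = ⊤ := by
      rw [htop, Ideal.comap_top]
    rw [hcm] at this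
    exact (Ideal.IsMaximal.ne_top inferInstance) this
  refine Ideal.isMaximal_iff.2 ⟨fun h1 => hne ((Ideal.eq_top_iff_one _).2 h1), ?_⟩
  intro J x hle hx hxJ
  -- `J ∩ C` contains `𝔫` strictly
  have hJc : 𝔫 ≤ J.comap (algebraMap C A) := by
    rw [← hcm]
    exact Ideal.comap_mono hle
  have hJne : J.comap (algebraMap C A) ≠ 𝔫 := by
    intro heq
    have hJ : J = 𝔫.map (algebraMap C A) := by
      rw [← heq]
      exact (IsLocalization.map_under (Algebra.algebraMapSubmonoid C 𝔫₀.primeCompl) A J).symm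
    exact hx (hJ ▸ hxJ)
  have htop : J.comap (algebraMap C A) = ⊤ :=
    (Ideal.IsMaximal.eq_of_le inferInstance · hJc |>.symm) |> fun f =>
      by_contra fun hnt => hJne (f hnt)
  have h1 : (1 : C) ∈ J.comap (algebraMap C A) := by
    rw [htop]; trivial
  simpa using h1

include 𝔫₀ in
theorem sl_map_comap (𝔑 : Ideal A) : (𝔑.comap (algebraMap C A)).map (algebraMap C A) = 𝔑 :=
  IsLocalization.map_under (Algebra.algebraMapSubmonoid C 𝔫₀.primeCompl) A 𝔑

end SL

section HT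

theorem ht_one {A₀ : Type} [CommRing A₀] [IsDomain A₀] [IsNoetherianRing A₀] [IsLocalRing A₀]
    (ϖ x₀ : A₀) (hm : IsLocalRing.maximalIdeal A₀ = Ideal.span {ϖ, x₀})
    (𝔭₀ : Ideal A₀) [𝔭₀.IsPrime] (h0 : 𝔭₀ ≠ ⊥) (hϖ : ϖ ∉ 𝔭₀) : 𝔭₀.height = 1 := by
  have hle : 𝔭₀ ≤ IsLocalRing.maximalIdeal A₀ := IsLocalRing.le_maximalIdeal Ideal.IsPrime.ne_top'
  have hϖm : ϖ ∈ IsLocalRing.maximalIdeal A₀ := by
    rw [hm]; exact Ideal.subset_span (by simp)
  have hlt : 𝔭₀ < IsLocalRing.maximalIdeal A₀ :=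
    lt_of_le_of_ne hle (fun h => hϖ (h ▸ hϖm))
  have h1 : 𝔭₀.height + 1 ≤ (IsLocalRing.maximalIdeal A₀).height :=
    Ideal.height_add_one_le_of_lt_of_isPrime hlt
  have h2 : (IsLocalRing.maximalIdeal A₀).height ≤ 2 := by
    refine (Ideal.height_le_spanFinrank _ Ideal.IsPrime.ne_top').trans ?_
    rw [hm]
    have h3 : (Ideal.span ({ϖ, x₀} : Set A₀)).spanFinrank ≤ ({ϖ, x₀} : Set A₀).ncard :=
      Submodule.spanFinrank_span_le_ncard_of_finite (by simp)
    have h4 : ({ϖ, x₀} : Set A₀).ncard ≤ 2 := by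
      classical
      exact (Set.ncard_insert_le ϖ {x₀}).trans (by simp)
    exact_mod_cast h3.trans h4
  have h5 : 𝔭₀.height ≠ 0 := fun h => h0 (Ideal.height_eq_zero_iff_eq_bot.1 h)
  have h6 : 𝔭₀.height + 1 ≤ 2 := h1.trans h2
  have h7 : 𝔭₀.height ≠ ⊤ := Ideal.height_ne_top Ideal.IsPrime.ne_top'
  lift 𝔭₀.height to ℕ using h7 with k hk
  have h8 : k + 1 ≤ 2 := by exact_mod_cast h6
  have h9 : k ≠ 0 := by exact_mod_cast h5
  have : k = 1 := by omega
  exact_mod_cast this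

theorem ht_comap {C₀ A₀ : Type} [CommRing C₀] [CommRing A₀] [Algebra C₀ A₀]
    (𝔫₀ : Ideal C₀) [𝔫₀.IsPrime] [IsLocalization.AtPrime A₀ 𝔫₀]
    (𝔭₀ : Ideal A₀) [𝔭₀.IsPrime] : (𝔭₀.comap (algebraMap C₀ A₀)).height = 𝔭₀.height :=
  IsLocalization.height_under 𝔫₀.primeCompl 𝔭₀

end HT

end H19SL
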