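import Mathlib
import Fermat.Agent.S36.Dich3Beta_helper18

/-!
# Item 86 (S36): (TRI) for the chart map of `α`, in the shape of `H20R3.hR3_field` (helper18)

Setting of `H20R3.hR3_field` / `H6CM.chartMap`: `[Algebra F₀ F]` (`= α`), chart
`c = algebraMap F₀ F t₀`.

* `H18D3.huniq_chartMap` : `P_{V₂}` is the only prime of the chart with its contraction
  (= `huniq` of `H20R3.hR3_field`, `huniqα` of `H18D3.dich3_val`);
* `H18D3.hpi_chartMap` : radiciality of `V₂` over its image at every prime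
  (= `hpi` of `H20R3.hR3_field`, `hpiα` of `H18D3.dich3_val`), with `s = 1`;
* `H18D3.huniq_chartMap_triple`, `H18D3.hpi_chartMap_triple` : the same from the fields of
  `H4S36.Triple` (lying over `hα₁ hα₂ hα₃`, `cNα₂`) + the separation witness of the lower level
  + the integrality of the norm.
-/

set_option autoImplicit false
set_option synthInstance.maxHeartbeats 400000
set_option linter.unusedSectionVars false
set_option linter.unusedVariables false
set_option linter.style.haveILetI false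

noncomputable section

open IntermediateField H4S34 H7S18

namespace H18D3

section chartMap

variable (R : Type) [CommRing R] [IsDomain R] [IsDiscreteValuationRing R]
  (K : Type) [Field K] [CharZero K] [Algebra R K] [IsFractionRing R K]
  (F₀ F : Type) [Field F₀] [Field F] [Algebra K F₀] [Algebra K F] [Algebra R F₀] [Algebra R F]
  [IsScalarTower R K F₀] [IsScalarTower R K F] [Algebra F₀ F] [IsScalarTower R F₀ F]

/-- **`huniq` of `H20R3.hR3_field`.** -/
theorem huniq_chartMap (ϖ : R) (hϖ : Irreducible ϖ) (t₀ : F₀)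
    (hc : Transcendental K (algebraMap F₀ F t₀))
    (hfin : FiniteDimensional K⟮algebraMap F₀ F t₀⟯ F)
    (V₁ V₂ V₃ : ValuationSubring F)
    (hO : ∀ x : F, GInt R ϖ (algebraMap F₀ F t₀) x ↔ x ∈ V₁ ∧ x ∈ V₂ ∧ x ∈ V₃)
    (hϖ₂ : V₂.valuation (algebraMap R F ϖ) < 1)
    (hsep₁ : ∃ e : F₀, IsInt R t₀ e ∧ V₁.valuation (algebraMap F₀ F e) < 1 ∧
      ¬ V₂.valuation (algebraMap F₀ F e) < 1)
    (hsep₃ : ∃ e : F₀, IsInt R t₀ e ∧ V₃.valuation (algebraMap F₀ F e) < 1 ∧
      ¬ V₂.valuation (algebraMap F₀ F e) < 1) :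
    ∀ p : Ideal (Chart R (algebraMap F₀ F t₀)), p.IsPrime →
      (∀ a : Chart R t₀, H6CM.chartMap R t₀ a ∈ p ↔
        V₂.valuation ((H6CM.chartMap R (F := F) t₀ a : Chart R (algebraMap F₀ F t₀)) : F) < 1) →
      ∀ y : Chart R (algebraMap F₀ F t₀), y ∈ p ↔ V₂.valuation (y : F) < 1 := by
  intro p hp hpc y
  haveI := hfin
  exact huniq_of_sep R K ϖ hϖ (algebraMap F₀ F)
    (fun r => (IsScalarTower.algebraMap_apply R F₀ F r).symm) t₀ hc V₁ V₂ V₃ hO hϖ₂ hsep₁ hsep₃
    (H6CM.chartMap R (F := F) t₀) (fun a => rfl) (H6CM.chartMap_isIntegral R t₀) p hp hpc y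

/-- **`hpi` of `H20R3.hR3_field`** (at every prime, with `s = 1`). -/
theorem hpi_chartMap (t₀ : F₀) (V₂ : ValuationSubring F)
    (hV₂ : ∀ y : Chart R (algebraMap F₀ F t₀), (y : F) ∈ V₂)
    (q : ℕ) (hq : 0 < q)
    (hrad : ∀ b : F, IsInt R (algebraMap F₀ F t₀) b → V₂.valuation b = 1 →
      ∃ a : F₀, IsInt R t₀ a ∧ V₂.valuation (b ^ q - algebraMap F₀ F a) < 1)
    (𝔫 : Ideal (Chart R (algebraMap F₀ F t₀))) (h𝔫 : 𝔫.IsPrime)
    (b : Chart R (algebraMap F₀ F t₀)) :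
    ∃ m : ℕ, 0 < m ∧ ∃ s a : Chart R t₀, H6CM.chartMap R t₀ s ∉ 𝔫 ∧
      V₂.valuation (((H6CM.chartMap R (F := F) t₀ s : Chart R (algebraMap F₀ F t₀)) : F) *
        (b : F) ^ m -
        ((H6CM.chartMap R (F := F) t₀ a : Chart R (algebraMap F₀ F t₀)) : F)) < 1 := by
  have h1 : H6CM.chartMap R (F := F) t₀ 1 ∉ 𝔫 := by
    rw [map_one]
    exact 𝔫.ne_top_iff_one.1 h𝔫.ne_top
  have hf1 : ((H6CM.chartMap R (F := F) t₀ 1 : Chart R (algebraMap F₀ F t₀)) : F) = 1 := by
    rw [map_one]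
    rfl
  by_cases hb : V₂.valuation (b : F) < 1
  · refine ⟨1, Nat.one_pos, 1, 0, h1, ?_⟩
    rw [hf1, map_zero]
    have : ((0 : Chart R (algebraMap F₀ F t₀)) : F) = 0 := rfl
    rw [this, one_mul, pow_one, sub_zero]
    exact hb
  · have hb1 : V₂.valuation (b : F) = 1 :=
      le_antisymm ((V₂.valuation_le_one_iff _).2 (hV₂ b)) (not_lt.1 hb)
    obtain ⟨a, ha, hab⟩ := hrad (b : F) b.2 hb1
    refine ⟨q, hq, 1, ⟨a, ha⟩, h1, ?_⟩
    rw [hf1, one_mul]
    exact hab

end chartMap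

end H18D3

end
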