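import Mathlib
import Fermat.Agent.S36.Tri_helper18

/-!
# S36 (item 86), LOC-F generic core, part 2 (helper18)

From radiciality of the residue extension at the level of FIELDS (denominators outside `P'`)
to radiciality LOCALLY at a closed point `𝔫'` (denominators outside `𝔫'`), under the hypothesis
that `(A / P')_{𝔫'}` has a principal maximal ideal (a uniformizer `x'`: `UnifAt P' 𝔫' x'`).

* `H18TR.mem_loc_of_integral` : `D` noetherian domain, `𝔪` prime, locally principal; an integral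
  element `a / s` of `Frac D` lies in `D_𝔪`: `t * a = d * s` with `t ∉ 𝔪`.
* `H18TR.isIntegral_quot_div` : `φ : A → B` integral, `P` over `P'`, `φ s * b ^ m ≡ φ a` mod `P`,
  `s ∉ P'` ⟹ `a / s` is integral over `A / P'`.
* `H18TR.hpi_of_field`  : field-level radiciality + uniformizer ⟹ the local `hpi` of `H18TR.tri`.
* `H18TR.unifAt_up`     : residue degree one: `φ x'` is a uniformizer of `(B / P)_𝔫`.
* `H18TR.fibre_deg_one` : LOC-F for residue degree one: unique point above, same residue field,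
  uniformizer `φ x'`.
-/

set_option autoImplicit false
set_option linter.style.haveILetI false
set_option linter.unusedSectionVars false

open Polynomial

namespace H18TR

section normal

variable {D : Type*} [CommRing D] [IsDomain D] [IsNoetherianRing D]

/-- the localization of a noetherian domain at a prime which is locally principal is
integrally closed. -/
theorem isIntegrallyClosed_loc (𝔪 : Ideal D) [h𝔪 : 𝔪.IsPrime] (x : D) (hx𝔪 : x ∈ 𝔪)
    (hx : ∀ z ∈ 𝔪, ∃ u : D, u ∉ 𝔪 ∧ ∃ c : D, u * z = c * x) :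
    IsIntegrallyClosed (Localization.AtPrime 𝔪) := by
  have hmax : IsLocalRing.maximalIdeal (Localization.AtPrime 𝔪) =
      Ideal.span {algebraMap D (Localization.AtPrime 𝔪) x} := by
    apply le_antisymm
    · rw [← Localization.AtPrime.map_eq_maximalIdeal, Ideal.map_le_iff_le_comap]
      intro z hz
      obtain ⟨u, hu, c, huc⟩ := hx z hz
      have hunit : IsUnit (algebraMap D (Localization.AtPrime 𝔪) u) :=
        IsLocalization.map_units (Localization.AtPrime 𝔪) (⟨u, hu⟩ : 𝔪.primeCompl)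
      rw [Ideal.mem_comap, Ideal.mem_span_singleton']
      obtain ⟨v, hv⟩ := hunit
      refine ⟨(↑v⁻¹ : Localization.AtPrime 𝔪) * algebraMap D _ c, ?_⟩
      have e : algebraMap D (Localization.AtPrime 𝔪) u * algebraMap D _ z =
          algebraMap D _ c * algebraMap D _ x := by
        rw [← map_mul, ← map_mul, huc]
      calc (↑v⁻¹ : Localization.AtPrime 𝔪) * algebraMap D _ c * algebraMap D _ x
          = ↑v⁻¹ * (algebraMap D _ c * algebraMap D _ x) := by ring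
        _ = ↑v⁻¹ * (↑v * algebraMap D _ z) := by rw [← e, hv]
        _ = algebraMap D _ z := by rw [← mul_assoc, Units.inv_mul, one_mul]
    · rw [Ideal.span_le, Set.singleton_subset_iff, ← Localization.AtPrime.map_eq_maximalIdeal]
      exact Ideal.mem_map_of_mem _ hx𝔪
  have hprin : (IsLocalRing.maximalIdeal (Localization.AtPrime 𝔪)).IsPrincipal :=
    ⟨⟨_, hmax⟩⟩
  have h43 : (IsLocalRing.maximalIdeal (Localization.AtPrime 𝔪)).IsPrincipal →
      (IsIntegrallyClosed (Localization.AtPrime 𝔪) ∧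
        ∀ P : Ideal (Localization.AtPrime 𝔪), P ≠ ⊥ → P.IsPrime →
          P = IsLocalRing.maximalIdeal (Localization.AtPrime 𝔪)) :=
    ((tfae_of_isNoetherianRing_of_isLocalRing_of_isDomain
      (Localization.AtPrime 𝔪)).out 4 3).mp
  exact (h43 hprin).1

/-- an element `a / s` of `Frac D` which is integral over `D` lies in `D_𝔪` if `𝔪` is locally
principal. -/
theorem mem_loc_of_integral (𝔪 : Ideal D) [h𝔪 : 𝔪.IsPrime] (x : D) (hx𝔪 : x ∈ 𝔪)
    (hx : ∀ z ∈ 𝔪, ∃ u : D, u ∉ 𝔪 ∧ ∃ c : D, u * z = c * x)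
    (a s : D) (hs : s ≠ 0)
    (hz : IsIntegral D (algebraMap D (FractionRing D) a / algebraMap D (FractionRing D) s)) :
    ∃ t : D, t ∉ 𝔪 ∧ ∃ d : D, t * a = d * s := by
  haveI := isIntegrallyClosed_loc 𝔪 x hx𝔪 hx
  have hzL : IsIntegral (Localization.AtPrime 𝔪)
      (algebraMap D (FractionRing D) a / algebraMap D (FractionRing D) s) := hz.tower_top
  obtain ⟨w, hw⟩ := (IsIntegrallyClosed.isIntegral_iff (R := Localization.AtPrime 𝔪)
    (K := FractionRing D)).mp hzL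
  obtain ⟨⟨d, t⟩, hdt⟩ := IsLocalization.surj 𝔪.primeCompl w
  refine ⟨t, t.2, d, ?_⟩
  apply IsFractionRing.injective D (FractionRing D)
  have hsK : algebraMap D (FractionRing D) s ≠ 0 := by
    intro h0
    exact hs (IsFractionRing.injective D (FractionRing D) (by rw [h0, map_zero]))
  have h1 := congrArg (algebraMap (Localization.AtPrime 𝔪) (FractionRing D)) hdt
  simp only [map_mul] at h1
  rw [hw, ← IsScalarTower.algebraMap_apply, ← IsScalarTower.algebraMap_apply] at h1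
  rw [map_mul, map_mul]
  field_simp at h1
  linear_combination h1

end normal

section integral

variable {A B : Type*} [CommRing A] [CommRing B]

/-- `φ s * b ^ m ≡ φ a` modulo `P` with `s ∉ P' = P ∩ A` and `b` integral ⟹ `a / s` is integral
over `A / P'` (in the fraction field of `A / P'`). -/
theorem isIntegral_quot_div (φ : A →+* B) (hint : φ.IsIntegral)
    (P : Ideal B) (P' : Ideal A) [hP' : P'.IsPrime] (hPP' : P.comap φ = P')
    (b : B) (m : ℕ) (s a : A) (hs : s ∉ P') (h : φ s * b ^ m - φ a ∈ P) :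
    IsIntegral (A ⧸ P')
      (algebraMap (A ⧸ P') (FractionRing (A ⧸ P')) (Ideal.Quotient.mk P' a) /
        algebraMap (A ⧸ P') (FractionRing (A ⧸ P')) (Ideal.Quotient.mk P' s)) := by
  obtain ⟨g, hg, hgb⟩ := hint (b ^ m)
  -- step 1: the scaled polynomial kills `φ s * b ^ m`
  have h1 : eval₂ φ (φ s * b ^ m) (scaleRoots g s) = 0 := scaleRoots_eval₂_eq_zero φ hgb
  -- step 2: modulo `P`
  have h2 : Ideal.Quotient.mk P (φ (eval a (scaleRoots g s))) = 0 := by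
    have e1 : Ideal.Quotient.mk P (φ s * b ^ m) = Ideal.Quotient.mk P (φ a) :=
      Ideal.Quotient.eq.2 h
    have e2 := congrArg (Ideal.Quotient.mk P) h1
    rw [map_zero, hom_eval₂, e1] at e2
    rw [← e2]
    have e3 : Ideal.Quotient.mk P (φ a) = ((Ideal.Quotient.mk P).comp φ) a := rfl
    rw [e3, eval₂_at_apply]
    rfl
  have h3 : eval a (scaleRoots g s) ∈ P' := by
    rw [← hPP']
    have h2' : φ (eval a (scaleRoots g s)) ∈ P := Ideal.Quotient.eq_zero_iff_mem.1 h2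
    exact h2'
  -- step 3: in the fraction field of `A / P'`
  let f : A →+* FractionRing (A ⧸ P') :=
    (algebraMap (A ⧸ P') (FractionRing (A ⧸ P'))).comp (Ideal.Quotient.mk P')
  have hfs : f s ≠ 0 := by
    intro h0
    have : Ideal.Quotient.mk P' s = 0 :=
      IsFractionRing.injective (A ⧸ P') (FractionRing (A ⧸ P')) (by rw [map_zero]; exact h0)
    exact hs (Ideal.Quotient.eq_zero_iff_mem.1 this)
  have h4 : eval₂ f (f a) (scaleRoots g s) = 0 := by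
    rw [eval₂_at_apply]
    have : Ideal.Quotient.mk P' (eval a (scaleRoots g s)) = 0 :=
      Ideal.Quotient.eq_zero_iff_mem.2 h3
    show (algebraMap (A ⧸ P') (FractionRing (A ⧸ P')))
      (Ideal.Quotient.mk P' (eval a (scaleRoots g s))) = 0
    rw [this, map_zero]
  have h5 : eval₂ f (f a / f s) g = 0 := by
    have e : f a = f s * (f a / f s) := by field_simp
    rw [e, scaleRoots_eval₂_mul] at h4
    rcases mul_eq_zero.1 h4 with h | h
    · exact absurd h (pow_ne_zero _ hfs)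
    · exact h
  refine ⟨g.map (Ideal.Quotient.mk P'), hg.map _, ?_⟩
  rw [eval₂_map]
  exact h5

end integral

section field

variable {A B : Type*} [CommRing A] [IsNoetherianRing A] [CommRing B]

/-- **field-level radiciality + uniformizer ⟹ local radiciality.**
`hf`: for every `b : B` some power `b ^ m` is `≡ φ a / φ s` modulo `P` with `s ∉ P'`
(the residue field of `P` is radicial over that of `P'`; `m = 1`: residue degree one);
`hun`: `x'` generates `𝔫' / P'` locally at `𝔫'`. Then the denominators can be chosen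
outside `𝔫'`. -/
theorem hpi_of_field (φ : A →+* B) (hint : φ.IsIntegral)
    (P : Ideal B) [hP : P.IsPrime] (P' 𝔫' : Ideal A) [hP' : P'.IsPrime] [h𝔫' : 𝔫'.IsPrime]
    (hPP' : P.comap φ = P') (hle : P' ≤ 𝔫')
    (x' : A) (hx𝔫 : x' ∈ 𝔫')
    (hun : ∀ z ∈ 𝔫', ∃ u : A, u ∉ 𝔫' ∧ ∃ c : A, u * z - c * x' ∈ P')
    (b : B) (m : ℕ) (s a : A) (hs : s ∉ P') (h : φ s * b ^ m - φ a ∈ P) :
    ∃ s₁ a₁ : A, s₁ ∉ 𝔫' ∧ φ s₁ * b ^ m - φ a₁ ∈ P := by
  -- the quotient domain and the image of `𝔫'`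
  let π := Ideal.Quotient.mk P'
  have hπsurj : Function.Surjective π := Ideal.Quotient.mk_surjective
  have hmem : ∀ y : A, π y ∈ 𝔫'.map π → y ∈ 𝔫' := by
    intro y hy
    obtain ⟨y₀, hy₀, hyy⟩ := (Ideal.mem_map_iff_of_surjective π hπsurj).1 hy
    have hd : y₀ - y ∈ P' := Ideal.Quotient.eq.1 hyy
    have : y = y₀ - (y₀ - y) := by ring
    rw [this]
    exact 𝔫'.sub_mem hy₀ (hle hd)
  haveI h𝔪 : (𝔫'.map π).IsPrime := by
    apply Ideal.map_isPrime_of_surjective hπsurj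
    rw [Ideal.mk_ker]
    exact hle
  have hs0 : π s ≠ 0 := fun h0 => hs (Ideal.Quotient.eq_zero_iff_mem.1 h0)
  have hz := isIntegral_quot_div φ hint P P' hPP' b m s a hs h
  obtain ⟨t, ht, d, htd⟩ := mem_loc_of_integral (D := A ⧸ P') (𝔫'.map π) (π x')
    (Ideal.mem_map_of_mem π hx𝔫)
    (by
      intro z hz
      obtain ⟨z₀, rfl⟩ := hπsurj z
      obtain ⟨u, hu, c, huc⟩ := hun z₀ (hmem z₀ hz)
      refine ⟨π u, fun hcon => hu (hmem u hcon), π c, ?_⟩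
      rw [← map_mul, ← map_mul]
      exact Ideal.Quotient.eq.2 huc)
    (π a) (π s) hs0 hz
  obtain ⟨s₁, rfl⟩ := hπsurj t
  obtain ⟨a₁, rfl⟩ := hπsurj d
  have hs₁ : s₁ ∉ 𝔫' := fun hcon => ht (Ideal.mem_map_of_mem π hcon)
  refine ⟨s₁, a₁, hs₁, ?_⟩
  have hrel : s₁ * a - a₁ * s ∈ P' := by
    rw [← map_mul, ← map_mul] at htd
    exact Ideal.Quotient.eq.1 htd
  have hrelB : φ (s₁ * a - a₁ * s) ∈ P := by
    have : s₁ * a - a₁ * s ∈ P.comap φ := by rw [hPP']; exact hrel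
    exact this
  have hsP : φ s ∉ P := by
    intro hcon
    apply hs
    rw [← hPP']
    exact hcon
  have key : φ s * (φ s₁ * b ^ m - φ a₁) ∈ P := by
    have e : φ s * (φ s₁ * b ^ m - φ a₁) =
        φ s₁ * (φ s * b ^ m - φ a) + φ (s₁ * a - a₁ * s) := by
      simp only [map_sub, map_mul]
      ring
    rw [e]
    exact P.add_mem (P.mul_mem_left _ h) hrelB
  rcases hP.mem_or_mem key with h1 | h1
  · exact absurd h1 hsP
  · exact h1

/-- the hypothesis `hpi` of `H18TR.tri` from field-level radiciality and a uniformizer. -/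
theorem hpi_of_field' (φ : A →+* B) (hint : φ.IsIntegral)
    (P : Ideal B) [hP : P.IsPrime] (P' 𝔫' : Ideal A) [hP' : P'.IsPrime] [h𝔫' : 𝔫'.IsPrime]
    (hPP' : P.comap φ = P') (hle : P' ≤ 𝔫')
    (x' : A) (hx𝔫 : x' ∈ 𝔫')
    (hun : ∀ z ∈ 𝔫', ∃ u : A, u ∉ 𝔫' ∧ ∃ c : A, u * z - c * x' ∈ P')
    (hf : ∀ b : B, ∃ m : ℕ, 0 < m ∧ ∃ s a : A, s ∉ P' ∧ φ s * b ^ m - φ a ∈ P) :
    ∀ b : B, ∃ m : ℕ, 0 < m ∧ ∃ s a : A, s ∉ 𝔫' ∧ φ s * b ^ m - φ a ∈ P := by
  intro b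
  obtain ⟨m, hm, s, a, hs, h⟩ := hf b
  exact ⟨m, hm, hpi_of_field φ hint P P' 𝔫' hPP' hle x' hx𝔫 hun b m s a hs h⟩

/-- residue degree one, local form. -/
theorem hpi1_of_field (φ : A →+* B) (hint : φ.IsIntegral)
    (P : Ideal B) [hP : P.IsPrime] (P' 𝔫' : Ideal A) [hP' : P'.IsPrime] [h𝔫' : 𝔫'.IsPrime]
    (hPP' : P.comap φ = P') (hle : P' ≤ 𝔫')
    (x' : A) (hx𝔫 : x' ∈ 𝔫')
    (hun : ∀ z ∈ 𝔫', ∃ u : A, u ∉ 𝔫' ∧ ∃ c : A, u * z - c * x' ∈ P')
    (hf1 : ∀ b : B, ∃ s a : A, s ∉ P' ∧ φ s * b - φ a ∈ P) :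
    ∀ b : B, ∃ s a : A, s ∉ 𝔫' ∧ φ s * b - φ a ∈ P := by
  intro b
  obtain ⟨s, a, hs, h⟩ := hf1 b
  have h' : φ s * b ^ 1 - φ a ∈ P := by rwa [pow_one]
  obtain ⟨s₁, a₁, hs₁, h₁⟩ := hpi_of_field φ hint P P' 𝔫' hPP' hle x' hx𝔫 hun b 1 s a hs h'
  exact ⟨s₁, a₁, hs₁, by rwa [pow_one] at h₁⟩

end field

section up

variable {A B : Type*} [CommRing A] [CommRing B]

/-- **residue degree one: the uniformizer goes up.**  If `B / P` has residue degree one over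
`A / P'` locally at `𝔫'` and `x'` is a uniformizer of `(A / P')_{𝔫'}`, then `φ x'` is a
uniformizer of `(B / P)_𝔫` for every prime `𝔫 ⊇ P` over `𝔫'`. -/
theorem unifAt_up (φ : A →+* B) (P : Ideal B) (P' 𝔫' : Ideal A)
    (hPP' : P.comap φ = P')
    (x' : A)
    (hun : ∀ z ∈ 𝔫', ∃ u : A, u ∉ 𝔫' ∧ ∃ c : A, u * z - c * x' ∈ P')
    (hpi1 : ∀ b : B, ∃ s a : A, s ∉ 𝔫' ∧ φ s * b - φ a ∈ P)
    (𝔫 : Ideal B) (h𝔫 : 𝔫.IsPrime) (hc : 𝔫.comap φ = 𝔫') (hP : P ≤ 𝔫) :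
    ∀ z ∈ 𝔫, ∃ u : B, u ∉ 𝔫 ∧ ∃ c : B, u * z - c * φ x' ∈ P := by
  intro z hz
  obtain ⟨s, a, hs, hsa⟩ := hpi1 z
  have ha𝔫 : φ a ∈ 𝔫 := by
    have h1 : φ s * z ∈ 𝔫 := 𝔫.mul_mem_left _ hz
    have h2 := 𝔫.sub_mem h1 (hP hsa)
    have e : φ s * z - (φ s * z - φ a) = φ a := by ring
    rwa [e] at h2
  have ha' : a ∈ 𝔫' := by
    rw [← hc]
    exact ha𝔫
  obtain ⟨u', hu', c', huc'⟩ := hun a ha'
  have hB : φ (u' * a - c' * x') ∈ P := by
    have : u' * a - c' * x' ∈ P.comap φ := by rw [hPP']; exact huc'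
    exact this
  refine ⟨φ (u' * s), ?_, φ c', ?_⟩
  · intro hcon
    have h1 : u' * s ∈ 𝔫.comap φ := hcon
    rw [hc] at h1
    haveI : 𝔫'.IsPrime := by
      rw [← hc]
      exact Ideal.comap_isPrime φ 𝔫
    rcases (inferInstance : 𝔫'.IsPrime).mem_or_mem h1 with h | h
    · exact hu' h
    · exact hs h
  · have e : φ (u' * s) * z - φ c' * φ x' =
        φ u' * (φ s * z - φ a) + φ (u' * a - c' * x') := by
      simp only [map_sub, map_mul]
      ring
    rw [e]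
    exact P.add_mem (P.mul_mem_left _ hsa) hB

end up

section fibre

variable {A B : Type*} [CommRing A] [IsNoetherianRing A] [CommRing B]

/-- **LOC-F, residue degree one.**  `φ : A → B` integral, `P` a prime of `B` over `P'`,
residue degree one at the level of fields (`hf1`), `x'` a uniformizer of `(A / P')_{𝔫'}`.
Then for primes `𝔫₁, 𝔫₂ ⊇ P` of `B` over `𝔫'`: `𝔫₁ = 𝔫₂`, the residue field of `𝔫₁` is that of
`𝔫'`, and `φ x'` is a uniformizer of `(B / P)_{𝔫₁}`. -/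
theorem fibre_deg_one (φ : A →+* B) (hint : φ.IsIntegral)
    (P : Ideal B) [hP : P.IsPrime] (P' 𝔫' : Ideal A) [hP' : P'.IsPrime] [h𝔫' : 𝔫'.IsPrime]
    (hPP' : P.comap φ = P') (hle : P' ≤ 𝔫')
    (x' : A) (hx𝔫 : x' ∈ 𝔫')
    (hun : ∀ z ∈ 𝔫', ∃ u : A, u ∉ 𝔫' ∧ ∃ c : A, u * z - c * x' ∈ P')
    (hf1 : ∀ b : B, ∃ s a : A, s ∉ P' ∧ φ s * b - φ a ∈ P)
    (𝔫₁ : Ideal B) (h1 : 𝔫₁.IsPrime) (hc1 : 𝔫₁.comap φ = 𝔫') (hP1 : P ≤ 𝔫₁) :
    (∀ 𝔫₂ : Ideal B, 𝔫₂.IsPrime → 𝔫₂.comap φ = 𝔫' → P ≤ 𝔫₂ → 𝔫₂ = 𝔫₁) ∧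
    (∀ b : B, ∃ s a : A, s ∉ 𝔫' ∧ φ s * b - φ a ∈ 𝔫₁) ∧
    (∀ z ∈ 𝔫₁, ∃ u : B, u ∉ 𝔫₁ ∧ ∃ c : B, u * z - c * φ x' ∈ P) := by
  have hpi1 := hpi1_of_field φ hint P P' 𝔫' hPP' hle x' hx𝔫 hun hf1
  have hpi : ∀ b : B, ∃ m : ℕ, 0 < m ∧ ∃ s a : A, s ∉ 𝔫' ∧ φ s * b ^ m - φ a ∈ P := by
    intro b
    obtain ⟨s, a, hs, h⟩ := hpi1 b
    exact ⟨1, one_pos, s, a, hs, by rwa [pow_one]⟩
  refine ⟨?_, ?_, ?_⟩
  · intro 𝔫₂ h2 hc2 hP2
    exact eq_of_pi φ 𝔫' P hpi 𝔫₂ 𝔫₁ h2 h1 hc2 hc1 hP2 hP1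
  · intro b
    exact residue_on_comp φ 𝔫' P hpi1 𝔫₁ hP1 b
  · exact unifAt_up φ P P' 𝔫' hPP' x' hun hpi1 𝔫₁ h1 hc1 hP1

end fibre

end H18TR
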