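/-
Item 86 (S36), `H4S36.Triple` field **(calg)** (helper25): constants that are `n`-th powers
modulo the maximal ideal of a Gauss valuation ring.

`K` a field, `R ⊆ K` a valuation subring which is a DVR, uniformizer `ϖ`.  If `c ∈ Rˣ` and a
series `g` of the Gauss ring (`H8PB.InG R g`) satisfy `c - gⁿ ∈ 𝔪` (`H8PB.InGm`), then
`c = dⁿ (1 + ϖ r)` with `d ∈ Rˣ`:  compare leading coefficients of the reductions in `k((𝐪))`.

* `calg_series`  : series form;
* `calg_gaussVS` : for the Gauss valuation subring `H3SIG.gaussVS R N` of `FK K N`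
                   (`= V₁'` of the `Triple`), in `Cg` form.
-/
import Mathlib
import Fermat.Agent.S35.FWSigVS_helper3
import Fermat.Agent.S36.Tor3Core_helper17

set_option autoImplicit false
set_option linter.style.longLine false
set_option linter.unusedVariables false
set_option linter.unusedSectionVars false
set_option linter.style.haveILetI false

noncomputable section

open ModularCurve HahnSeries H28GV H8PB H3TAU H3SIG H7S18

namespace H25TC

section Series

variable {K : Type} [Field K] (R : ValuationSubring K)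

/-- leading coefficient of a power in `k((𝐪))` -/
theorem leadingCoeff_pow' {k : Type} [Field k] (x : LaurentSeries k) (n : ℕ) :
    (x ^ n).leadingCoeff = x.leadingCoeff ^ n := by
  induction n with
  | zero => rw [pow_zero, pow_zero, HahnSeries.leadingCoeff_one]
  | succ n ih => rw [pow_succ, pow_succ, HahnSeries.leadingCoeff_mul, ih]

/-- **(calg)**, series form. -/
theorem calg_series [IsDiscreteValuationRing R] (ϖ : ↥R) (hϖ : Irreducible ϖ) (n : ℕ)
    (c : ↥R) (hc : IsUnit c) (g : LaurentSeries K) (hg : InG R g)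
    (h : InGm R (HahnSeries.C (c : K) - g ^ n)) :
    ∃ d r : ↥R, IsUnit d ∧ c = d ^ n * (1 + ϖ * r) := by
  rw [h3v_inG_iff] at hg
  rw [h3v_inGm_iff] at h
  obtain ⟨f1, g1, hg1, e1⟩ := hg
  obtain ⟨f2, g2, hg2, hf2, e2⟩ := h
  -- the relation over `R`
  have hrel : HahnSeries.C c * g2 * g1 ^ n - f1 ^ n * g2 = f2 * g1 ^ n := by
    apply gvEps_injective (A := R)
    rw [map_sub, map_mul, map_mul, map_mul, map_mul, map_pow, map_pow, gvEps_C, ← e1, ← e2]
    ring
  -- reduce
  have hred : HahnSeries.C (IsLocalRing.residue ↥R c) * (rhoR R g1) ^ n = (rhoR R f1) ^ n := by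
    have h1 := congrArg (rhoR R) hrel
    rw [map_sub, map_mul, map_mul, map_mul, map_mul, map_pow, map_pow, hf2, zero_mul] at h1
    have hC : rhoR R (HahnSeries.C c) = HahnSeries.C (IsLocalRing.residue ↥R c) := by
      ext m
      by_cases hm : m = 0
      · subst hm
        simp [rhoR]
      · simp [rhoR, HahnSeries.C_apply, HahnSeries.coeff_single_of_ne hm]
    rw [hC] at h1
    have h2 : (HahnSeries.C (IsLocalRing.residue ↥R c) * (rhoR R g1) ^ n - (rhoR R f1) ^ n) *
        rhoR R g2 = 0 := by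
      rw [← h1]; ring
    rcases mul_eq_zero.1 h2 with h3 | h3
    · exact sub_eq_zero.1 h3
    · exact absurd h3 hg2
  -- leading coefficients
  have hlc := congrArg HahnSeries.leadingCoeff hred
  rw [HahnSeries.leadingCoeff_mul, leadingCoeff_pow', leadingCoeff_pow'] at hlc
  have hCl : (HahnSeries.C (IsLocalRing.residue ↥R c) :
      LaurentSeries (IsLocalRing.ResidueField ↥R)).leadingCoeff = IsLocalRing.residue ↥R c := by
    rw [HahnSeries.C_apply]
    exact HahnSeries.leadingCoeff_of_single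
  rw [hCl] at hlc
  have hg1l : (rhoR R g1).leadingCoeff ≠ 0 := HahnSeries.leadingCoeff_ne_zero.2 hg1
  -- the `n`-th root in the residue field
  set δ : IsLocalRing.ResidueField ↥R := (rhoR R f1).leadingCoeff * ((rhoR R g1).leadingCoeff)⁻¹
    with hδ
  have hδn : δ ^ n = IsLocalRing.residue ↥R c := by
    rw [hδ, mul_pow, ← hlc, inv_pow]
    field_simp
  have hcres : IsLocalRing.residue ↥R c ≠ 0 :=
    (IsLocalRing.residue_ne_zero_iff_isUnit c).2 hc
  -- a unit `d` of `R` with `(res d)ⁿ = res c`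
  obtain ⟨d, hdu, hdn⟩ : ∃ d : ↥R, IsUnit d ∧
      IsLocalRing.residue ↥R d ^ n = IsLocalRing.residue ↥R c := by
    rcases Nat.eq_zero_or_pos n with hn | hn
    · subst hn
      refine ⟨1, isUnit_one, ?_⟩
      rw [pow_zero] at hδn ⊢
      exact hδn
    · have hδ0 : δ ≠ 0 := by
        intro h0
        rw [h0, zero_pow hn.ne'] at hδn
        exact hcres hδn.symm
      obtain ⟨d, hd⟩ := IsLocalRing.residue_surjective (R := ↥R) δ
      refine ⟨d, (IsLocalRing.residue_ne_zero_iff_isUnit d).1 (by rw [hd]; exact hδ0), ?_⟩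
      rw [hd, hδn]
  have hmem : c - d ^ n ∈ IsLocalRing.maximalIdeal ↥R := by
    rw [← IsLocalRing.residue_eq_zero_iff, map_sub, map_pow, hdn, sub_self]
  rw [hϖ.maximalIdeal_eq, Ideal.mem_span_singleton] at hmem
  obtain ⟨s, hs⟩ := hmem
  obtain ⟨du, hdu'⟩ := hdu
  refine ⟨d, s * ((du⁻¹ : (↥R)ˣ) : ↥R) ^ n, ⟨du, hdu'⟩, ?_⟩
  have h1 : d ^ n * ((du⁻¹ : (↥R)ˣ) : ↥R) ^ n = 1 := by
    rw [← hdu', ← mul_pow, Units.mul_inv, one_pow]
  have h2 : c = d ^ n + ϖ * s := by rw [← hs]; ring
  rw [h2]
  linear_combination (-(ϖ * s)) * h1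

end Series

section GaussVS

variable {K : Type} [Field K] [Algebra ℚ K] (R : ValuationSubring K)
  [IsDiscreteValuationRing R] (N : ℕ) [NeZero N]
  [Algebra ↥R (FK K N)] [IsScalarTower ↥R K (FK K N)]

theorem coe_algebraMap_R (c : ↥R) :
    ((algebraMap ↥R (FK K N) c : FK K N) : LaurentSeries K) = HahnSeries.C (c : K) := by
  rw [IsScalarTower.algebraMap_apply ↥R K (FK K N)]
  show algebraMap K (LaurentSeries K) (c : K) = _
  rw [algebraMap_laurentSeries_eq_single]
  rfl

/-- **(calg)** for the Gauss valuation subring of `FK K N`, in the form of the field `calg` of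
`H4S36.Triple` (`V₁' = gaussVS R N`). -/
theorem calg_gaussVS (ϖ : ↥R) (hϖ : Irreducible ϖ) (n : ℕ) (c : ↥R) (hc : IsUnit c)
    (g : FK K N) (hg : (gaussVS R N).valuation g = 1)
    (h : H17T3.Cg (gaussVS R N) (algebraMap ↥R (FK K N) c) (g ^ n)) :
    ∃ d r : ↥R, IsUnit d ∧ c = d ^ n * (1 + ϖ * r) := by
  have hg' : InG R (g : LaurentSeries K) := by
    rw [← mem_gaussVS, ← ValuationSubring.valuation_le_one_iff, hg]
  have h' : InGm R (HahnSeries.C (c : K) - (g : LaurentSeries K) ^ n) := by
    have h1 := (valuation_gaussVS_lt_one_iff R N _).1 h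
    have h2 : ((algebraMap ↥R (FK K N) c - g ^ n : FK K N) : LaurentSeries K) =
        HahnSeries.C (c : K) - (g : LaurentSeries K) ^ n := by
      rw [← coe_algebraMap_R R N c]
      rfl
    rwa [h2] at h1
  exact calg_series R ϖ hϖ n c hc _ hg' h'

end GaussVS

end H25TC

end
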