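import Mathlib
import Fermat.Agent.S36.ResFieldTG_helper9
import Fermat.Agent.S36.TripleBeta3_helper24
import Fermat.Agent.S36.TripleTG_helper8

/-!
# Item 86 (S36): the `Triple` fields `f₂β`, `f₃β` for the concrete objects (helper8)

Transport of helper9's `H9CU.triple_f1α`, `H9CU.triple_f3α` by `W_{q²}`
(`W ∘ α = β ∘ w_q`, `V₂ = V₁ ∘ W`, `V₃ ∘ W = V₃`: helper24's (U2)).

* `H8TG.triple_f2β` : `∀ x ∈ cV2, ∃ p ∈ cV2', x ≡ φβ p` at `cV2`;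
* `H8TG.triple_f3β` : `∀ x ∈ cV3, ∃ a ∈ cV2', x ≡ φβ a` at `cV3`.
-/

set_option autoImplicit false
set_option linter.unusedSectionVars false
set_option linter.style.longLine false
set_option linter.unusedVariables false
set_option linter.style.haveILetI false
set_option synthInstance.maxHeartbeats 400000

open ModularCurve HahnSeries H28GV H12AL RH24 H7S18 H8PB H3SIG H4S36 H10FC H17T3

noncomputable section

namespace H8TG

section concrete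

variable (M : ℕ) [NeZero M] (q : ℕ) [NeZero q] (hq : q.Prime) (hqM : ¬ q ∣ M)
  (hT : TameLevel q M)
  (A : ValuationSubring (AlgebraicClosure ℚ)) (hA : A.LiesOverPrime q)
  (K₁ : IntermediateField ℚ (AlgebraicClosure ℚ)) (hfin : FiniteDimensional ℚ K₁)
  (hunr : Irreducible ((q : ℕ) : ↥(descVal A K₁)))
  (K₃ : IntermediateField ℚ (AlgebraicClosure ℚ)) (hfin₃ : FiniteDimensional ℚ K₃)
  (h13 : K₁ ≤ K₃) (ζ : (↥K₃)ˣ) (hζ : IsPrimitiveRoot ζ q)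

variable [IsDiscreteValuationRing ↥(descVal A K₁)] [IsDiscreteValuationRing ↥(descVal A K₃)]

include hT hA hfin hunr hfin₃ in
/-- **the field `f₂β` of `H4S36.Triple`** for the concrete objects. -/
theorem triple_f2β
    [Algebra ↥(descVal A K₁) (FK K₁ (M * q * q))]
    [IsScalarTower ↥(descVal A K₁) K₁ (FK K₁ (M * q * q))]
    (t₀ : LaurentSeries ℚ) (ht₀ : IsBase (baseKind q) t₀)
    (t : FK K₁ (M * q * q)) (ht : (t : LaurentSeries K₁) = coeffEmb K₁ t₀)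
    (wg : ∀ ψ₁ ψ₂ ψ₃ : FK K₁ (M * q * q),
      (cV1 K₁ (descVal A K₁) M q).valuation ψ₁ = 1 →
      (cV2 K₁ (descVal A K₁) M q hq hqM).valuation ψ₂ = 1 →
      (cV3 K₁ M q hq hqM K₃ (descVal A K₃) h13 ζ hζ).valuation ψ₃ = 1 →
      ∃ Ψ : FK K₁ (M * q * q), Cg (cV1 K₁ (descVal A K₁) M q) Ψ ψ₁ ∧
        Cg (cV2 K₁ (descVal A K₁) M q hq hqM) Ψ ψ₂ ∧
        Cg (cV3 K₁ M q hq hqM K₃ (descVal A K₃) h13 ζ hζ) Ψ ψ₃) :
    ∀ x : FK K₁ (M * q * q), x ∈ cV2 K₁ (descVal A K₁) M q hq hqM →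
      ∃ p : FK K₁ (M * q), p ∈ cV2' K₁ (descVal A K₁) M q hq hqM ∧
        Cg (cV2 K₁ (descVal A K₁) M q hq hqM) x ((heckeBetaBar ↥K₁ (M * q) q).toRingHom p) :=
  tg_f2β_of_f1α K₁ (descVal A K₁) M q hq hqM
    (H9CU.triple_f1α M q hq hqM hT A hA K₁ hfin hunr K₃ hfin₃ h13 ζ hζ t₀ ht₀ t ht wg)

include hT hA hfin hunr hfin₃ in
/-- **the field `f₃β` of `H4S36.Triple`** for the concrete objects. -/
theorem triple_f3β
    [Algebra ↥(descVal A K₁) (FK K₁ (M * q * q))]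
    [IsScalarTower ↥(descVal A K₁) K₁ (FK K₁ (M * q * q))]
    (t₀ : LaurentSeries ℚ) (ht₀ : IsBase (baseKind q) t₀)
    (t : FK K₁ (M * q * q)) (ht : (t : LaurentSeries K₁) = coeffEmb K₁ t₀)
    (wg : ∀ ψ₁ ψ₂ ψ₃ : FK K₁ (M * q * q),
      (cV1 K₁ (descVal A K₁) M q).valuation ψ₁ = 1 →
      (cV2 K₁ (descVal A K₁) M q hq hqM).valuation ψ₂ = 1 →
      (cV3 K₁ M q hq hqM K₃ (descVal A K₃) h13 ζ hζ).valuation ψ₃ = 1 →
      ∃ Ψ : FK K₁ (M * q * q), Cg (cV1 K₁ (descVal A K₁) M q) Ψ ψ₁ ∧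
        Cg (cV2 K₁ (descVal A K₁) M q hq hqM) Ψ ψ₂ ∧
        Cg (cV3 K₁ M q hq hqM K₃ (descVal A K₃) h13 ζ hζ) Ψ ψ₃) :
    ∀ x : FK K₁ (M * q * q), x ∈ cV3 K₁ M q hq hqM K₃ (descVal A K₃) h13 ζ hζ →
      ∃ a : FK K₁ (M * q), a ∈ cV2' K₁ (descVal A K₁) M q hq hqM ∧
        Cg (cV3 K₁ M q hq hqM K₃ (descVal A K₃) h13 ζ hζ) x
          ((heckeBetaBar ↥K₁ (M * q) q).toRingHom a) := by
  haveI hqF : Fact q.Prime := ⟨hq⟩
  obtain ⟨hperf, hcharp⟩ := H1S18.c7Perfect q A hA K₁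
  haveI := hcharp
  have hchar : ∀ r : ℕ, r.Prime → r ∣ M →
      (r : IsLocalRing.ResidueField ↥(descVal A K₁)) ≠ 0 := by
    intro r hr hrM h0
    have h1 := (CharP.cast_eq_zero_iff (IsLocalRing.ResidueField ↥(descVal A K₁)) q r).mp h0
    have h2 : q = r := (Nat.prime_dvd_prime_iff_eq hq hr).mp h1
    exact hqM (h2 ▸ hrM)
  obtain ⟨B⟩ := gv_basis_nonempty_gen (descVal A K₁) (IsLocalRing.residue ↥(descVal A K₁)) M hchar
  have hR : ∀ c : ↥K₁, c ∈ descVal A K₁ ↔ IntermediateField.inclusion h13 c ∈ descVal A K₃ :=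
    fun c => Iff.rfl
  exact tg_f3β_of_f3α K₁ (descVal A K₁) M q hq hqM _
    (H24V3.cV3_comap_wq2 K₁ (descVal A K₁) M q hq hqM K₃ (descVal A K₃) h13 hR hunr B ζ hζ)
    (H9CU.triple_f3α M q hq hqM hT A hA K₁ hfin hunr K₃ hfin₃ h13 ζ hζ t₀ ht₀ t ht wg)

end concrete

end H8TG

end
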