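/-
Item 86 (S36), slice **(TW-PSI)** (helper25): on the middle component `C₃` the function
`ε₃ = (j(q² z) - j(z))^{q-1} / q` is congruent to `- ψ`, `ψ = (θ j)(𝐪^q) / (θ j)(𝐪)` (helper23's
`ψ`-package), modulo `ζ - 1`.  Series level, any commutative ring `A` with a unit `ζ`,
`1 + ζ + ⋯ + ζ^{q-1} = 0`:

* `frob_int`     : `f(𝐪^q) = f^q + q • r` for every `f ∈ ℤ((𝐪))`;
* `psi_congr`    : `ψ = (θ j)^{q-1} + q • s`  for every `ψ` with `(θ j)(𝐪^q) = ψ · θ j`;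
* `natCast_eq_pi_mul` : `q = (ζ - 1) d`;
* `eps3_add_psi` : `(tw ζ j - j)^{q-1} = C q · E`  and  `E + ψ = C (ζ - 1) · h'`.
-/
import Mathlib
import Fermat.Agent.S36.TwSer_helper25
import Fermat.Agent.S36.PsiSeries_helper23

set_option autoImplicit false
set_option linter.style.haveILetI false

noncomputable section

open HahnSeries Polynomial ModularCurve

namespace H25TW

theorem thetaLS_eq_theta {A : Type} [CommRing A] (f : LaurentSeries A) :
    thetaLS f = H23PS.theta f := by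
  ext n
  rfl

/-- **Frobenius congruence** for every integral series: `f(𝐪^q) = f^q + q • r`. -/
theorem frob_int (q : ℕ) [Fact q.Prime] (f : LaurentSeries ℤ) :
    haveI : NeZero q := ⟨(Fact.out : q.Prime).ne_zero⟩
    ∃ r : LaurentSeries ℤ, qExpand ℤ q f = f ^ q + (q : ℤ) • r := by
  haveI : NeZero q := ⟨(Fact.out : q.Prime).ne_zero⟩
  have h0 : coeffMap (Int.castRingHom (ZMod q)) (qExpand ℤ q f - f ^ q) = 0 := by
    rw [map_sub, map_pow, coeffMap_qExpand,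
      H23R3.h23r3_frobenius q (coeffMap (Int.castRingHom (ZMod q)) f), ZMod.frobenius_zmod,
      coeffMap_id, sub_self]
  obtain ⟨r, hr⟩ := H23PS.exists_smul_of_coeffMap_eq_zero q _ h0
  exact ⟨r, by rw [← hr]; ring⟩

/-- `ψ ≡ (θ X)^{q-1} mod q` for every integral series `X` with `θ X` a unit. -/
theorem psi_congr_gen (q : ℕ) [Fact q.Prime] (X ψ : LaurentSeries ℤ)
    (hu : IsUnit (H23PS.theta X))
    (hψ : haveI : NeZero q := ⟨(Fact.out : q.Prime).ne_zero⟩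
      qExpand ℤ q (H23PS.theta X) = ψ * H23PS.theta X) :
    ∃ s : LaurentSeries ℤ, ψ = H23PS.theta X ^ (q - 1) + (q : ℤ) • s := by
  haveI : NeZero q := ⟨(Fact.out : q.Prime).ne_zero⟩
  obtain ⟨r, hr⟩ := frob_int q (H23PS.theta X)
  obtain ⟨u, hu⟩ := hu
  refine ⟨r * ↑u⁻¹, ?_⟩
  have hq1 : q - 1 + 1 = q := Nat.sub_add_cancel (Fact.out : q.Prime).one_lt.le
  have h1 : ψ * (u : LaurentSeries ℤ) = (u : LaurentSeries ℤ) ^ (q - 1) * u + (q : ℤ) • r := by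
    rw [← pow_succ, hq1, hu, ← hψ, hr]
  have h2 : ψ = ψ * (u : LaurentSeries ℤ) * ↑u⁻¹ := by
    rw [mul_assoc, Units.mul_inv, mul_one]
  rw [h2, h1, ← hu, add_mul, mul_assoc, Units.mul_inv, mul_one, smul_mul_assoc]

/-- `ψ ≡ (θ j)^{q-1} mod q`. -/
theorem psi_congr (q : ℕ) [Fact q.Prime] (ψ : LaurentSeries ℤ)
    (hψ : haveI : NeZero q := ⟨(Fact.out : q.Prime).ne_zero⟩
      qExpand ℤ q (H23PS.theta (jqModC ℤ)) = ψ * H23PS.theta (jqModC ℤ)) :
    ∃ s : LaurentSeries ℤ, ψ = H23PS.theta (jqModC ℤ) ^ (q - 1) + (q : ℤ) • s :=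
  psi_congr_gen q (jqModC ℤ) ψ H23PS.isUnit_theta_jq hψ

section Pi

variable {A : Type} [CommRing A]

/-- `q = (ζ - 1) d` when `1 + ζ + ⋯ + ζ^{q-1} = 0`. -/
theorem natCast_eq_pi_mul (q : ℕ) (hq : q.Prime) (ζ : A)
    (hζ : ∑ i ∈ Finset.range q, ζ ^ i = 0) :
    ∃ d : A, (q : A) = (ζ - 1) * d := by
  obtain ⟨c, hc⟩ := cyclo_pow q hq ζ hζ
  obtain ⟨m, hm⟩ : ∃ m, q - 1 = m + 1 := ⟨q - 2, by have := hq.two_le; omega⟩
  refine ⟨- (ζ - 1) ^ m - (q : A) * c, ?_⟩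
  rw [hm, pow_succ] at hc
  linear_combination hc

open H28S28

/-- **(TW-PSI)**, any base series `X ∈ ℤ((𝐪))` with `θ X` a unit (`j`, `t₂`, `t₃`, …):
with `b = tw ζ X - X`, `b^{q-1} = C q · E` and `E + ψ = C (ζ - 1) · h'`. -/
theorem eps3_add_psi_gen (q : ℕ) [Fact q.Prime] (ζ : Aˣ)
    (hζ : ∑ i ∈ Finset.range q, (ζ : A) ^ i = 0) (X ψ : LaurentSeries ℤ)
    (hu : IsUnit (H23PS.theta X))
    (hψ : haveI : NeZero q := ⟨(Fact.out : q.Prime).ne_zero⟩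
      qExpand ℤ q (H23PS.theta X) = ψ * H23PS.theta X) :
    ∃ E h' : LaurentSeries A,
      (tw ζ (coeffMap (Int.castRingHom A) X) - coeffMap (Int.castRingHom A) X) ^ (q - 1) =
        HahnSeries.C (q : A) * E ∧
      E + coeffMap (Int.castRingHom A) ψ = HahnSeries.C ((ζ : A) - 1) * h' := by
  have hq : q.Prime := Fact.out
  obtain ⟨h, hh⟩ := tw_sub_self_pow q hq ζ hζ (coeffMap (Int.castRingHom A) X)
  obtain ⟨s, hs⟩ := psi_congr_gen q X ψ hu hψ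
  obtain ⟨d, hd⟩ := natCast_eq_pi_mul q hq (ζ : A) hζ
  refine ⟨_, h + HahnSeries.C d * coeffMap (Int.castRingHom A) s, hh, ?_⟩
  have hj : coeffMap (Int.castRingHom A) (H23PS.theta X) =
      thetaLS (coeffMap (Int.castRingHom A) X) := by
    rw [H23PS.coeffMap_theta, thetaLS_eq_theta]
  have hsm : coeffMap (Int.castRingHom A) ((q : ℤ) • s) =
      HahnSeries.C (q : A) * coeffMap (Int.castRingHom A) s := by
    ext n
    rw [HahnSeries.C_mul_eq_smul, coeffMap_coeff, HahnSeries.coeff_smul, HahnSeries.coeff_smul,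
      coeffMap_coeff, smul_eq_mul, smul_eq_mul]
    simp
  rw [hs, map_add, map_pow, hj, hsm, hd, map_mul]
  ring

/-- **(TW-PSI)** `ε₃ ≡ - ψ mod (ζ - 1)` at the series level: with `b = tw ζ j - j`,
`b^{q-1} = C q · E` and `E + ψ = C (ζ - 1) · h'`. -/
theorem eps3_add_psi (q : ℕ) [Fact q.Prime] (ζ : Aˣ)
    (hζ : ∑ i ∈ Finset.range q, (ζ : A) ^ i = 0) (ψ : LaurentSeries ℤ)
    (hψ : haveI : NeZero q := ⟨(Fact.out : q.Prime).ne_zero⟩
      qExpand ℤ q (H23PS.theta (jqModC ℤ)) = ψ * H23PS.theta (jqModC ℤ)) :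
    ∃ E h' : LaurentSeries A,
      (tw ζ (jqModC A) - jqModC A) ^ (q - 1) = HahnSeries.C (q : A) * E ∧
      E + coeffMap (Int.castRingHom A) ψ = HahnSeries.C ((ζ : A) - 1) * h' := by
  have h := eps3_add_psi_gen q ζ hζ (jqModC ℤ) ψ H23PS.isUnit_theta_jq hψ
  rwa [coeffMap_jqModC] at h

end Pi

end H25TW

end
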