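/-
helper20: item 86 (S36), slice (T) = TAYLOR LEMMA, abstract core (Mathlib + helper26 `prime_of_two_gen`
+ helper5 `h5ca_reg_ufd` + helper21 localisation API).

`A' ⊆ A` noetherian domains, `A` integral over `A'`, `F = Frac A` generated by `A'` and `y ∈ A`
(`hFy`), `𝔫` a prime of `A` over the prime `𝔫'` of `A'`.  Assume
* two local generators below: `𝔫' A'_𝔫' = (u, v)`;
* a polynomial `G ∈ A'[X]` with `G(y) = 0` and `u ∈ (G(x), v) A'_𝔫'` for some `x ∈ A'` with `y - x ∈ 𝔫`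
  (e.g. level `N'q ⊂ N'q²`: `x = j(z)`, `y = j(q² z)`, `G(T) = Φ_q(j(qz), T) / (T - x)`,
  `G(x) = ∂_Y Φ_q(j(qz), j(z))` a local parameter of the component `C1'`);
* a prime `0 ≠ P ⊊ 𝔫` (dimension `≥ 2`).
Then `𝔫 A_𝔫 = (v, y - x)` (`twoGenUp_core`): in `C₀ = A'[y]` one has
`G(x) = G(x) - G(y) ∈ (y - x) C₀` (Taylor), so `(C₀)_𝔮` (`𝔮 = 𝔫 ∩ C₀`) has maximal ideal `(v, y - x)`;
it is therefore factorial, hence integrally closed, hence contains `A`, and `A_𝔫 = (C₀)_𝔮`.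
The conclusion is exactly the hypothesis `hgen` of `H26LU.l1At_of_two_gen` (with `F`-coercions
removed); no CompUnif, no uniqueness of the point above, no Kronecker at `q²` is needed.
-/
import Mathlib
import Fermat.Agent.S36.LocReg2_helper26

set_option autoImplicit false
set_option linter.unusedSectionVars false
set_option linter.unusedVariables false
set_option linter.style.haveILetI false
set_option synthInstance.maxHeartbeats 400000

noncomputable section

namespace H20TG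

open IsLocalRing Polynomial

section core

variable {A' A : Type*} [CommRing A'] [IsDomain A'] [IsNoetherianRing A'] [CommRing A] [IsDomain A]
  [Algebra A' A] [Algebra.IsIntegral A' A]

/-- Taylor step: `p(y) - p(x) ∈ (y - x) · A'[y]`. -/
theorem taylor_step (x : A') (y : A) (p : A'[X]) :
    ∃ c : Algebra.adjoin A' {y},
      aeval y p - algebraMap A' A (p.eval x) = (c : A) * (y - algebraMap A' A x) := by
  have hyC : y ∈ Algebra.adjoin A' {y} := Algebra.subset_adjoin (Set.mem_singleton y)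
  obtain ⟨c, hc⟩ := Polynomial.sub_dvd_eval_sub (⟨y, hyC⟩ : Algebra.adjoin A' {y})
    (algebraMap A' (Algebra.adjoin A' {y}) x) (p.map (algebraMap A' (Algebra.adjoin A' {y})))
  refine ⟨c, ?_⟩
  have h := congrArg (fun z : Algebra.adjoin A' {y} => (z : A)) hc
  simp only [Polynomial.eval_map] at h
  have h1 : ((eval₂ (algebraMap A' (Algebra.adjoin A' {y})) ⟨y, hyC⟩ p : Algebra.adjoin A' {y}) : A)
      = aeval y p := by
    rw [← Polynomial.aeval_def]
    exact (Subalgebra.aeval_coe (Algebra.adjoin A' {y}) ⟨y, hyC⟩ p).symm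
  have h2 : eval₂ (algebraMap A' (Algebra.adjoin A' {y}))
      (algebraMap A' (Algebra.adjoin A' {y}) x) p
      = algebraMap A' (Algebra.adjoin A' {y}) (p.eval x) := Polynomial.eval₂_at_apply _ _
  rw [h2] at h
  push_cast at h
  rw [h1] at h
  rw [mul_comm]
  exact h

/-- generation of `𝔫 ∩ A'[y]` by `v` and `y - x`, up to a denominator in `A' ∖ 𝔫'`. -/
theorem gen_adjoin (𝔫' : Ideal A') (h𝔫' : 𝔫'.IsPrime) (𝔫 : Ideal A)
    (hover : ∀ a : A', algebraMap A' A a ∈ 𝔫 ↔ a ∈ 𝔫')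
    (u v x : A') (y : A) (G : A'[X]) (hGy : aeval y G = 0)
    (hgen' : ∀ w ∈ 𝔫', ∃ s a b : A', s ∉ 𝔫' ∧ s * w = a * u + b * v)
    (hD : ∃ s a b : A', s ∉ 𝔫' ∧ s * u = a * G.eval x + b * v)
    (hyx : y - algebraMap A' A x ∈ 𝔫)
    (c : Algebra.adjoin A' {y}) (hc : (c : A) ∈ 𝔫) :
    ∃ (s : A') (a b : Algebra.adjoin A' {y}), s ∉ 𝔫' ∧
      algebraMap A' A s * (c : A) = (a : A) * algebraMap A' A v + (b : A) * (y - algebraMap A' A x) := by
  have hcr : (c : A) ∈ (aeval y : A'[X] →ₐ[A'] A).range := by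
    rw [← Algebra.adjoin_singleton_eq_range_aeval]
    exact c.2
  obtain ⟨p, hp⟩ := hcr
  replace hp : aeval y p = (c : A) := hp
  obtain ⟨c₁, hc₁⟩ := taylor_step x y p
  obtain ⟨c₂, hc₂⟩ := taylor_step x y G
  rw [hGy, zero_sub] at hc₂
  have hpx : p.eval x ∈ 𝔫' := by
    rw [← hover]
    have : algebraMap A' A (p.eval x) = (c : A) - (c₁ : A) * (y - algebraMap A' A x) := by
      rw [← hc₁, hp]; ring
    rw [this]
    exact 𝔫.sub_mem hc (𝔫.mul_mem_left _ hyx)
  obtain ⟨s₁, a₁, b₁, hs₁, e₁⟩ := hgen' _ hpx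
  obtain ⟨s₂, a₂, b₂, hs₂, e₂⟩ := hD
  have hmulmem : s₁ * s₂ ∉ 𝔫' := fun h => (h𝔫'.mem_or_mem h).elim hs₁ hs₂
  refine ⟨s₁ * s₂, algebraMap A' _ (a₁ * b₂ + s₂ * b₁),
    algebraMap A' _ (s₁ * s₂) * c₁ - algebraMap A' _ (a₁ * a₂) * c₂, hmulmem, ?_⟩
  have E₁ := congrArg (algebraMap A' A) e₁
  have E₂ := congrArg (algebraMap A' A) e₂
  simp only [map_mul, map_add] at E₁ E₂
  have hcc : (c : A) = algebraMap A' A (p.eval x) + (c₁ : A) * (y - algebraMap A' A x) := by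
    rw [← hc₁, hp]; ring
  push_cast
  rw [hcc]
  linear_combination (algebraMap A' A s₂) * E₁ + (algebraMap A' A a₁) * E₂
    - (algebraMap A' A a₁) * (algebraMap A' A a₂) * hc₂

/-- **Taylor lemma, abstract core**. -/
theorem twoGenUp_core {F : Type*} [Field F] [Algebra A F] [IsFractionRing A F]
    (𝔫' : Ideal A') (h𝔫' : 𝔫'.IsPrime) (𝔫 : Ideal A) (h𝔫 : 𝔫.IsPrime)
    (hover : ∀ a : A', algebraMap A' A a ∈ 𝔫 ↔ a ∈ 𝔫')
    (u v x : A') (hv : v ∈ 𝔫') (y : A) (G : A'[X]) (hGy : aeval y G = 0)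
    (hgen' : ∀ w ∈ 𝔫', ∃ s a b : A', s ∉ 𝔫' ∧ s * w = a * u + b * v)
    (hD : ∃ s a b : A', s ∉ 𝔫' ∧ s * u = a * G.eval x + b * v)
    (hyx : y - algebraMap A' A x ∈ 𝔫)
    (hFy : ∀ f : A, ∃ (s : A') (p : A'[X]), algebraMap A' A s ≠ 0 ∧
      algebraMap A' A s * f = aeval y p)
    (P : Ideal A) (hP : P.IsPrime) (hP0 : P ≠ ⊥) (hPle : P ≤ 𝔫) (hPne : P ≠ 𝔫) :
    ∀ w ∈ 𝔫, ∃ s a b : A, s ∉ 𝔫 ∧
      s * w = a * algebraMap A' A v + b * (y - algebraMap A' A x) := by
  classical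
  -- the ring `C₀ = A'[y]`
  have hyC : y ∈ Algebra.adjoin A' {y} := Algebra.subset_adjoin (Set.mem_singleton y)
  haveI : Module.Finite A' (Algebra.adjoin A' {y}) :=
    Module.Finite.iff_fg.mpr (IsIntegral.fg_adjoin_singleton (Algebra.IsIntegral.isIntegral y))
  haveI : IsNoetherianRing (Algebra.adjoin A' {y}) :=
    IsNoetherianRing.of_finite A' (Algebra.adjoin A' {y})
  haveI : IsScalarTower (Algebra.adjoin A' {y}) A F := inferInstance
  have halg : ∀ c : Algebra.adjoin A' {y},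
      algebraMap (Algebra.adjoin A' {y}) F c = algebraMap A F (c : A) := fun c => rfl
  have hinjAF : Function.Injective (algebraMap A F) := IsFractionRing.injective A F
  have hinjC₀F : Function.Injective (algebraMap (Algebra.adjoin A' {y}) F) :=
    hinjAF.comp Subtype.val_injective
  haveI : FaithfulSMul (Algebra.adjoin A' {y}) F :=
    (faithfulSMul_iff_algebraMap_injective _ F).mpr hinjC₀F
  have hmemC : ∀ p : A'[X], aeval y p ∈ Algebra.adjoin A' {y} := by
    intro p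
    rw [Algebra.adjoin_singleton_eq_range_aeval]
    exact ⟨p, rfl⟩
  haveI : IsFractionRing (Algebra.adjoin A' {y}) F := by
    apply IsFractionRing.of_field
    intro z
    obtain ⟨a, b, hb, rfl⟩ := IsFractionRing.div_surjective (A := A) z
    obtain ⟨sa, pa, hsa, ea⟩ := hFy a
    obtain ⟨sb, pb, hsb, eb⟩ := hFy b
    have hb0 : b ≠ 0 := nonZeroDivisors.ne_zero hb
    refine ⟨algebraMap A' _ sb * ⟨aeval y pa, hmemC pa⟩,
      algebraMap A' _ sa * ⟨aeval y pb, hmemC pb⟩, ?_⟩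
    have h1 : algebraMap (Algebra.adjoin A' {y}) F
        (algebraMap A' _ sb * ⟨aeval y pa, hmemC pa⟩)
        = algebraMap A F (algebraMap A' A sb * (algebraMap A' A sa * a)) := by
      rw [ea]; rfl
    have h2 : algebraMap (Algebra.adjoin A' {y}) F
        (algebraMap A' _ sa * ⟨aeval y pb, hmemC pb⟩)
        = algebraMap A F (algebraMap A' A sa * (algebraMap A' A sb * b)) := by
      rw [eb]; rfl
    rw [h1, h2]
    have hbF : algebraMap A F b ≠ 0 := fun h => hb0 (hinjAF (by rw [h, map_zero]))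
    have hsaF : algebraMap A F (algebraMap A' A sa) ≠ 0 :=
      fun h => hsa (hinjAF (by rw [h, map_zero]))
    have hsbF : algebraMap A F (algebraMap A' A sb) ≠ 0 :=
      fun h => hsb (hinjAF (by rw [h, map_zero]))
    simp only [map_mul]
    field_simp
  -- the prime `𝔮 = 𝔫 ∩ C₀` and the local ring `B = (C₀)_𝔮 ⊆ F`
  haveI := h𝔫
  let 𝔮 : Ideal (Algebra.adjoin A' {y}) := 𝔫.comap (algebraMap (Algebra.adjoin A' {y}) A)
  haveI h𝔮 : 𝔮.IsPrime := Ideal.comap_isPrime _ _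
  have hmem𝔮 : ∀ c : Algebra.adjoin A' {y}, c ∈ 𝔮 ↔ (c : A) ∈ 𝔫 := fun c => Iff.rfl
  let g₀ : Algebra.adjoin A' {y} := algebraMap A' _ v
  let x₀ : Algebra.adjoin A' {y} := ⟨y, hyC⟩ - algebraMap A' _ x
  have hg₀ : g₀ ∈ 𝔮 := (hmem𝔮 _).2 ((hover v).2 hv)
  have hx₀ : x₀ ∈ 𝔮 := (hmem𝔮 _).2 hyx
  have hgenC : ∀ c ∈ 𝔮, ∃ s a b : Algebra.adjoin A' {y}, s ∉ 𝔮 ∧ s * c = a * g₀ + b * x₀ := by
    intro c hc
    obtain ⟨s, a, b, hs, e⟩ := gen_adjoin 𝔫' h𝔫' 𝔫 hover u v x y G hGy hgen' hD hyx c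
      ((hmem𝔮 c).1 hc)
    refine ⟨algebraMap A' _ s, a, b, ?_, Subtype.ext ?_⟩
    · intro h
      exact hs ((hover s).1 ((hmem𝔮 _).1 h))
    · exact e
  let B := Localization.subalgebra.ofField F 𝔮.primeCompl (H21LR.primeCompl_le 𝔮)
  haveI hBloc : IsLocalization.AtPrime B 𝔮 :=
    Localization.subalgebra.isLocalization_ofField F 𝔮.primeCompl (H21LR.primeCompl_le 𝔮)
  haveI : IsFractionRing B F := inferInstance
  haveI : IsScalarTower (Algebra.adjoin A' {y}) B F := inferInstance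
  haveI : IsLocalRing B := IsLocalization.AtPrime.isLocalRing B 𝔮
  haveI : IsNoetherianRing B := IsLocalization.isNoetherianRing 𝔮.primeCompl B inferInstance
  haveI : IsDomain B := inferInstance
  have hinjCB : Function.Injective (algebraMap (Algebra.adjoin A' {y}) B) :=
    IsLocalization.injective B (H21LR.primeCompl_le 𝔮)
  have hm : maximalIdeal B = Ideal.span {algebraMap _ B g₀, algebraMap _ B x₀} :=
    H21LR.maximalIdeal_eq (F := F) B 𝔮 g₀ x₀ hg₀ hx₀ hgenC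
  -- dimension `≥ 2`
  haveI : Algebra.IsIntegral (Algebra.adjoin A' {y}) A :=
    Algebra.IsIntegral.tower_top (R := A') (S := Algebra.adjoin A' {y}) (T := A)
  let P₀ : Ideal (Algebra.adjoin A' {y}) := P.comap (algebraMap (Algebra.adjoin A' {y}) A)
  haveI hP₀ : P₀.IsPrime := Ideal.comap_isPrime _ _
  have hP₀0 : P₀ ≠ ⊥ := fun h => hP0 (Ideal.eq_bot_of_comap_eq_bot h)
  have hP₀le : P₀ ≤ 𝔮 := Ideal.comap_mono hPle
  have hP₀ne : P₀ ≠ 𝔮 := by
    intro h
    obtain ⟨z, hz𝔫, hzP⟩ := Set.exists_of_ssubset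
      (show (P : Set A) ⊂ (𝔫 : Set A) from (lt_of_le_of_ne hPle hPne : P < 𝔫))
    haveI := hP
    have hlt := Ideal.comap_lt_comap_of_integral_mem_sdiff (R := Algebra.adjoin A' {y})
      (I := P) (J := 𝔫) hPle (x := z) ⟨hz𝔫, hzP⟩ (Algebra.IsIntegral.isIntegral z)
    exact (ne_of_lt hlt) h
  have hd : Disjoint (𝔮.primeCompl : Set (Algebra.adjoin A' {y})) (P₀ : Set _) := by
    rw [Set.disjoint_left]
    intro z hz hzP
    exact hz (hP₀le hzP)
  have hunder := IsLocalization.under_map_of_isPrime_disjoint 𝔮.primeCompl B hP₀ hd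
  have hdim : ∃ Q : Ideal B, Q.IsPrime ∧ Q ≠ ⊥ ∧ Q ≠ maximalIdeal B := by
    refine ⟨P₀.map (algebraMap _ B),
      IsLocalization.isPrime_of_isPrime_disjoint 𝔮.primeCompl B P₀ hP₀ hd, ?_, ?_⟩
    · intro h0
      apply hP₀0
      rw [eq_bot_iff]
      intro z hz
      have : algebraMap _ B z ∈ P₀.map (algebraMap _ B) := Ideal.mem_map_of_mem _ hz
      rw [h0, Ideal.mem_bot] at this
      rw [Ideal.mem_bot]
      exact hinjCB (by rw [this, map_zero])
    · intro hQ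
      apply hP₀ne
      refine le_antisymm hP₀le ?_
      intro z hz
      have h1 : algebraMap _ B z ∈ maximalIdeal B :=
        (IsLocalization.AtPrime.to_map_mem_maximal_iff B 𝔮 z).2 hz
      rw [← hQ] at h1
      have h2 : z ∈ (P₀.map (algebraMap _ B)).under _ := h1
      rw [hunder] at h2
      exact h2
  have hp : Prime (algebraMap _ B g₀) := H26LU.prime_of_two_gen _ _ hm hdim
  haveI hufd : UniqueFactorizationMonoid B :=
    H5CA.h5ca_reg_ufd (algebraMap _ B g₀) (algebraMap _ B x₀) hp.ne_zero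
      ((Ideal.span_singleton_prime hp.ne_zero).2 hp) hm
  -- every element of `A` lies in `B`
  intro w hw
  have hwint : IsIntegral B (algebraMap A F w) := by
    have h1 : IsIntegral (Algebra.adjoin A' {y}) w := Algebra.IsIntegral.isIntegral w
    have h2 : IsIntegral (Algebra.adjoin A' {y}) (algebraMap A F w) :=
      h1.map (IsScalarTower.toAlgHom (Algebra.adjoin A' {y}) A F)
    exact h2.tower_top
  obtain ⟨b, hb⟩ := UniqueFactorizationMonoid.integer_of_integral hwint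
  obtain ⟨c₀, s₀, hs₀, e₀⟩ := (H21LR.mem_range_iff (F := F) B 𝔮 (algebraMap A F w)).1 ⟨b, hb⟩
  have e₀' : (s₀ : A) * w = (c₀ : A) := by
    apply hinjAF
    rw [map_mul]
    exact e₀
  have hc₀ : (c₀ : A) ∈ 𝔫 := by
    rw [← e₀']
    exact 𝔫.mul_mem_left _ hw
  obtain ⟨s₁, a, b', hs₁, e₁⟩ := gen_adjoin 𝔫' h𝔫' 𝔫 hover u v x y G hGy hgen' hD hyx c₀ hc₀
  refine ⟨algebraMap A' A s₁ * (s₀ : A), a, b', ?_, ?_⟩
  · intro h
    rcases h𝔫.mem_or_mem h with h | h
    · exact hs₁ ((hover s₁).1 h)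
    · exact hs₀ ((hmem𝔮 s₀).2 h)
  · rw [mul_assoc, e₀', e₁]

end core

end H20TG
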