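/-
helper24: item 86 (S36), slice (CU3), second component: uniformizers on `C₂` at the level
`M q q`, by `W_{q²}`-transport of helper9's `H9CU.unif1_sq` (first component).

`R = descVal A K₁` (unramified at `q`: `hunr`), `F = FK K₁ (M q q)`, `W = H12WQ.wq2KHom K₁ M q`,
`ϖ = q`, `P₂ = {y ∈ M₀ | InGm (W y)}` (the prime of the second Gauss valuation
`V₂ = V₁.comap W`).  At every closed dich point `𝔫 ⊇ P₂` of a chart `c ∈ {t, t⁻¹}`:
`∃ x, UnifAt P₂ 𝔫 x`.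

= `H26WT.unif2_of_unif1` with `(H_W2)` (`H24HW.h24hw_HW2`), TripleGauss (`H8TG.h8tg_tripleGauss`,
`H9CU.coord_of_TG`) and `H9CU.unif1_sq`.
-/
import Mathlib
import Fermat.Agent.S34.CompUnif2_helper26
import Fermat.Agent.S36.HW2_helper24
import Fermat.Agent.S36.CompUnifSq_helper9
import Fermat.Agent.S36.ResFieldTG_helper9
import Fermat.Agent.S36.TripleDefs_helper4
import Fermat.Agent.S36.LocWire_helper10

set_option autoImplicit false
set_option synthInstance.maxHeartbeats 400000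
set_option maxHeartbeats 1000000
set_option linter.unusedVariables false
set_option linter.unusedSectionVars false
set_option linter.style.haveILetI false
set_option linter.style.longLine false

noncomputable section

open Polynomial IntermediateField ModularCurve H7S18 H4S34 H26DI H28GV

namespace H24U2

section comp

variable {K : Type} [Field K] [Algebra ℚ K] (R : ValuationSubring K)
  [IsDiscreteValuationRing R] (L : ℕ) [NeZero L] [Algebra ↥R (FK K L)]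

/-- the first component: the ideal `{y ∈ M₀ | InGm y}` of a chart whose elements are
Gauss-integral -/
theorem exists_comp1 (c : FK K L)
    (hG : ∀ y : Chart ↥R c, H8PB.InG R (((y : FK K L)) : LaurentSeries K)) :
    ∃ P₁ : Ideal (Chart ↥R c),
      ∀ y : Chart ↥R c, y ∈ P₁ ↔ H8PB.InGm R (((y : FK K L)) : LaurentSeries K) := by
  let φ : Chart ↥R c →+* ↥(H10FC.gaussVal R L) :=
    { toFun := fun y => ⟨(y : FK K L), (H10FC.mem_gaussVal R L _).2 (hG y)⟩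
      map_one' := rfl
      map_mul' := fun _ _ => rfl
      map_zero' := rfl
      map_add' := fun _ _ => rfl }
  refine ⟨Ideal.comap φ (IsLocalRing.maximalIdeal ↥(H10FC.gaussVal R L)), fun y => ?_⟩
  rw [Ideal.mem_comap, ValuationSubring.valuation_lt_one_iff, ← H10FC.gaussVal_lt_one R L]
  rfl

end comp

/-- **(CU3), second component**: uniformizers on `C₂` at the closed dich points of the charts
`t`, `t⁻¹`, level `M q q`. -/
theorem unif2_sq (M : ℕ) [NeZero M] (q : ℕ) [NeZero q] (hq : q.Prime) (hqM : ¬ q ∣ M)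
    (hT : TameLevel q M)
    (A : ValuationSubring (AlgebraicClosure ℚ)) (hA : A.LiesOverPrime q)
    (K₁ : IntermediateField ℚ (AlgebraicClosure ℚ)) (hfin : FiniteDimensional ℚ K₁)
    (hζe : ∃ ζ : ↥K₁, IsPrimitiveRoot ζ (branchIndex (baseKind q) M))
    (hunr : Irreducible ((q : ℕ) : ↥(descVal A K₁)))
    (K₃ : IntermediateField ℚ (AlgebraicClosure ℚ)) (hfin₃ : FiniteDimensional ℚ K₃)
    (h13 : K₁ ≤ K₃) (ζ : (↥K₃)ˣ) (hζ : IsPrimitiveRoot ζ q)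
    [Algebra ↥(descVal A K₁) (FK K₁ (M * q * q))]
    [IsScalarTower ↥(descVal A K₁) K₁ (FK K₁ (M * q * q))]
    (t₀ : LaurentSeries ℚ) (ht₀ : IsBase (baseKind q) t₀)
    (t : FK K₁ (M * q * q)) (ht : (t : LaurentSeries K₁) = coeffEmb K₁ t₀)
    (c : FK K₁ (M * q * q))
    (P₂ : Ideal (Chart ↥(descVal A K₁) c))
    (hP₂ : ∀ y : Chart ↥(descVal A K₁) c, y ∈ P₂ ↔
      H8PB.InGm (descVal A K₁)
        ((H12WQ.wq2KHom K₁ M q hq hqM (y : FK K₁ (M * q * q)) : FK K₁ (M * q * q)) :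
          LaurentSeries K₁))
    (𝔫 : Ideal (Chart ↥(descVal A K₁) c))
    (h𝔫 : IsClosedPt ↥(descVal A K₁) ((q : ℕ) : ↥(descVal A K₁)) c 𝔫)
    (hd : IsDichPt t c 𝔫) (h2 : P₂ ≤ 𝔫) :
    ∃ x, UnifAt P₂ 𝔫 x := by
  haveI : Fact q.Prime := ⟨hq⟩
  obtain ⟨hdvr, -, -⟩ := H4DVR.dvrStatement q A hA K₁ hfin
  haveI := hdvr
  -- field basics at the level `M q q`
  have hiM := H28PL.baseKind_ok hT
  have hiL : baseKind q = 1 ∨ (baseKind q = 2 ∧ 2 ∣ M * q * q) ∨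
      (baseKind q = 3 ∧ 3 ∣ M * q * q) := by
    rcases hiM with h | h | h
    · exact Or.inl h
    · exact Or.inr (Or.inl ⟨h.1, Dvd.dvd.mul_right (Dvd.dvd.mul_right h.2 q) q⟩)
    · exact Or.inr (Or.inr ⟨h.1, Dvd.dvd.mul_right (Dvd.dvd.mul_right h.2 q) q⟩)
  obtain ⟨t₁, ht₁coe, ht₁tr, -, -⟩ := H9C6e.fieldBasics (M * q * q) (baseKind q) hiL t₀ ht₀ K₁
  have htt : t₁ = t := Subtype.ext (ht₁coe.trans ht.symm)
  rw [htt] at ht₁tr
  have htr : Transcendental K₁ t := ht₁tr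
  have ht0 : t ≠ 0 := H21S18.ne_zero_of_transcendental htr
  have hTG := fun x => H8TG.h8tg_tripleGauss M q hq hqM hT A hA K₁ hfin hunr K₃ hfin₃ h13 ζ hζ
    t₀ ht₀ t ht x
  have hwR : ∀ r : ↥(descVal A K₁),
      H12WQ.wq2KHom K₁ M q hq hqM (algebraMap ↥(descVal A K₁) (FK K₁ (M * q * q)) r) =
      algebraMap ↥(descVal A K₁) (FK K₁ (M * q * q)) r := by
    intro r
    rw [IsScalarTower.algebraMap_apply ↥(descVal A K₁) K₁ (FK K₁ (M * q * q))]
    exact H12WQ.wq2KHom_const K₁ M q hq hqM _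
  have hint : ∀ c : FK K₁ (M * q * q), (c = t ∨ c = t⁻¹) → ∀ y : Chart ↥(descVal A K₁) c,
      GInt ↥(descVal A K₁) ((q : ℕ) : ↥(descVal A K₁)) t (y : FK K₁ (M * q * q)) := by
    intro c hc y
    exact H9CU.gint_of_chart (descVal A K₁)
      (laurentBaseChange K₁ (modularFunctionFieldFull (M * q * q))) _ hunr t c hc htr y
  have hG : ∀ c : FK K₁ (M * q * q), (c = t ∨ c = t⁻¹) → ∀ y : Chart ↥(descVal A K₁) c,
      H8PB.InG (descVal A K₁) (((y : FK K₁ (M * q * q))) : LaurentSeries K₁) ∧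
      H8PB.InG (descVal A K₁)
        ((H12WQ.wq2KHom K₁ M q hq hqM (y : FK K₁ (M * q * q)) : FK K₁ (M * q * q)) :
          LaurentSeries K₁) := by
    intro c hc y
    have h := (hTG (y : FK K₁ (M * q * q))).1.mp (hint c hc y)
    exact ⟨h.1, h.2.1⟩
  refine H26WT.unif2_of_unif1 (R := ↥(descVal A K₁)) (E := FK K₁ (M * q * q))
    (H12WQ.wq2KHom K₁ M q hq hqM) (H12WQ.wq2KHom_invol K₁ M q hq hqM) hwR
    ((q : ℕ) : ↥(descVal A K₁)) hunr t ht0
    (H24HW.h24hw_HW2 M q hq hqM hT A hA K₁ hfin t₀ ht₀ t ht)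
    (fun x => H8PB.InG (descVal A K₁) ((x : FK K₁ (M * q * q)) : LaurentSeries K₁))
    (fun x => H8PB.InGm (descVal A K₁) ((x : FK K₁ (M * q * q)) : LaurentSeries K₁))
    ?_ ?_ hG ?_ ?_ P₂ hP₂ 𝔫 h𝔫 hd h2
  · intro x y hx hy
    have := H26WT.inGm_mul_inG (descVal A K₁) hx hy
    exact this
  · intro x y hx hy hxy
    exact H26WT.inGm_or_of_mul (descVal A K₁) hx hy hxy
  · intro c hc
    exact exists_comp1 (descVal A K₁) (M * q * q) c (fun y => (hG c hc y).1)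
  · intro c P₁ hP₁ 𝔫' h𝔫' hd' hle1
    have hc : c = t ∨ c = t⁻¹ := hd'.elim Or.inl (fun h => Or.inr h.1)
    exact H9CU.unif1_sq M q hq hqM hT A hA K₁ hfin hζe (M * q * q) ⟨q * q, by ring⟩
      ((q : ℕ) : ↥(descVal A K₁)) hunr t₀ ht₀ t ht c hc
      (fun x hx => H9CU.coord_of_TG M q hq hqM hT A hA K₁ hfin hunr K₃ hfin₃ h13 ζ hζ
        t₀ ht₀ t ht x hx)
      P₁ hP₁ 𝔫' h𝔫'.1 hle1

/-- `cV2.valuation x < 1 ↔ InGm (W x)` -/
theorem cV2_lt_one' (M : ℕ) [NeZero M] (q : ℕ) [NeZero q] (hq : q.Prime) (hqM : ¬ q ∣ M)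
    (K₁ : IntermediateField ℚ (AlgebraicClosure ℚ)) (R₁ : ValuationSubring ↥K₁)
    [IsDiscreteValuationRing R₁] (x : FK K₁ (M * q * q)) :
    (H4S36.cV2 K₁ R₁ M q hq hqM).valuation x < 1 ↔
      H8PB.InGm R₁ ((H12WQ.wq2KHom K₁ M q hq hqM x : FK K₁ (M * q * q)) : LaurentSeries K₁) := by
  unfold H4S36.cV2
  rw [H10FC.comap_val_lt_one, H10FC.gaussVal_lt_one]

/-- **(CU3), second component, in the form `hCU2` of `H26R2.hR2_of_triple`**: at a closed dich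
point `𝔫` through `V₂ = cV2`, there is `u ∈ 𝔫` such that every `y ∈ 𝔫` is `≡ (d/s) u` modulo
`𝔪(V₂)`, `s ∉ 𝔫`. -/
theorem hCU2_sq (M : ℕ) [NeZero M] (q : ℕ) [NeZero q] (hq : q.Prime) (hqM : ¬ q ∣ M)
    (hT : TameLevel q M)
    (A : ValuationSubring (AlgebraicClosure ℚ)) (hA : A.LiesOverPrime q)
    (K₁ : IntermediateField ℚ (AlgebraicClosure ℚ)) (hfin : FiniteDimensional ℚ K₁)
    [IsDiscreteValuationRing ↥(descVal A K₁)]
    (hζe : ∃ ζ : ↥K₁, IsPrimitiveRoot ζ (branchIndex (baseKind q) M))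
    (hunr : Irreducible ((q : ℕ) : ↥(descVal A K₁)))
    (K₃ : IntermediateField ℚ (AlgebraicClosure ℚ)) (hfin₃ : FiniteDimensional ℚ K₃)
    (h13 : K₁ ≤ K₃) (ζ : (↥K₃)ˣ) (hζ : IsPrimitiveRoot ζ q)
    [Algebra ↥(descVal A K₁) (FK K₁ (M * q * q))]
    [IsScalarTower ↥(descVal A K₁) K₁ (FK K₁ (M * q * q))]
    (t₀ : LaurentSeries ℚ) (ht₀ : IsBase (baseKind q) t₀)
    (t : FK K₁ (M * q * q)) (ht : (t : LaurentSeries K₁) = coeffEmb K₁ t₀)
    (c : FK K₁ (M * q * q))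
    (𝔫 : Ideal (Chart ↥(descVal A K₁) c))
    (h𝔫 : IsClosedPt ↥(descVal A K₁) ((q : ℕ) : ↥(descVal A K₁)) c 𝔫)
    (hd : IsDichPt t c 𝔫)
    (hthr : H10G3.Through ↥(descVal A K₁) c 𝔫 (H4S36.cV2 K₁ (descVal A K₁) M q hq hqM)) :
    ∃ u ∈ 𝔫, ∀ y ∈ 𝔫, ∃ s d : Chart ↥(descVal A K₁) c, s ∉ 𝔫 ∧
      (H4S36.cV2 K₁ (descVal A K₁) M q hq hqM).valuation
        ((s : FK K₁ (M * q * q)) * (y : FK K₁ (M * q * q)) - (d : FK K₁ (M * q * q)) * u) < 1 := by
  haveI : Fact q.Prime := ⟨hq⟩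
  have hc : c = t ∨ c = t⁻¹ := hd.elim Or.inl (fun h => Or.inr h.1)
  -- chart elements are in `V₂`
  have hiM := H28PL.baseKind_ok hT
  have hiL : baseKind q = 1 ∨ (baseKind q = 2 ∧ 2 ∣ M * q * q) ∨
      (baseKind q = 3 ∧ 3 ∣ M * q * q) := by
    rcases hiM with h | h | h
    · exact Or.inl h
    · exact Or.inr (Or.inl ⟨h.1, Dvd.dvd.mul_right (Dvd.dvd.mul_right h.2 q) q⟩)
    · exact Or.inr (Or.inr ⟨h.1, Dvd.dvd.mul_right (Dvd.dvd.mul_right h.2 q) q⟩)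
  obtain ⟨t₁, ht₁coe, ht₁tr, -, -⟩ := H9C6e.fieldBasics (M * q * q) (baseKind q) hiL t₀ ht₀ K₁
  have htt : t₁ = t := Subtype.ext (ht₁coe.trans ht.symm)
  rw [htt] at ht₁tr
  have hGw : ∀ y : Chart ↥(descVal A K₁) c,
      (y : FK K₁ (M * q * q)) ∈ H4S36.cV2 K₁ (descVal A K₁) M q hq hqM := by
    intro y
    have h := (H8TG.h8tg_tripleGauss M q hq hqM hT A hA K₁ hfin hunr K₃ hfin₃ h13 ζ hζ
      t₀ ht₀ t ht (y : FK K₁ (M * q * q))).1.mp
      (H9CU.gint_of_chart (descVal A K₁)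
        (laurentBaseChange K₁ (modularFunctionFieldFull (M * q * q))) _ hunr t c hc ht₁tr y)
    exact h.2.1
  -- the second component
  let φ : Chart ↥(descVal A K₁) c →+* ↥(H4S36.cV2 K₁ (descVal A K₁) M q hq hqM) :=
    { toFun := fun y => ⟨(y : FK K₁ (M * q * q)), hGw y⟩
      map_one' := rfl
      map_mul' := fun _ _ => rfl
      map_zero' := rfl
      map_add' := fun _ _ => rfl }
  set P₂ : Ideal (Chart ↥(descVal A K₁) c) :=
    Ideal.comap φ (IsLocalRing.maximalIdeal ↥(H4S36.cV2 K₁ (descVal A K₁) M q hq hqM)) with hP₂def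
  have hP₂v : ∀ y : Chart ↥(descVal A K₁) c, y ∈ P₂ ↔
      (H4S36.cV2 K₁ (descVal A K₁) M q hq hqM).valuation (y : FK K₁ (M * q * q)) < 1 := by
    intro y
    rw [hP₂def, Ideal.mem_comap, ValuationSubring.valuation_lt_one_iff]
    rfl
  have hP₂ : ∀ y : Chart ↥(descVal A K₁) c, y ∈ P₂ ↔
      H8PB.InGm (descVal A K₁)
        ((H12WQ.wq2KHom K₁ M q hq hqM (y : FK K₁ (M * q * q)) : FK K₁ (M * q * q)) :
          LaurentSeries K₁) := by
    intro y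
    rw [hP₂v, cV2_lt_one']
  have h2 : P₂ ≤ 𝔫 := by
    intro y hy
    by_contra hyn
    have h1 := hthr y hyn
    have h3 := (hP₂v y).1 hy
    rw [h1] at h3
    exact lt_irrefl _ h3
  obtain ⟨x, hx𝔫, -, hx⟩ := unif2_sq M q hq hqM hT A hA K₁ hfin hζe hunr K₃ hfin₃ h13 ζ hζ
    t₀ ht₀ t ht c P₂ hP₂ 𝔫 h𝔫 hd h2
  refine ⟨x, hx𝔫, fun y hy => ?_⟩
  obtain ⟨u, hu, d, hud⟩ := hx y hy
  refine ⟨u, d, hu, ?_⟩
  have := (hP₂v _).1 hud
  push_cast at this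
  exact this

end H24U2

end
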