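import Mathlib
import Fermat.Agent.S36.LocF4_helper12
import Fermat.Agent.S36.UnrField_helper29
import Fermat.Agent.S36.UnrInertia_helper29
import Fermat.Agent.S18.DefsD

/-!
# Item 86 (S36), plumbing for the final glue (helper29, for helper4): the field
`L = H29DU.unrPart A K₁`, `K₁` a finite normal extension of `ℚ` with enough roots of unity

* `H29UP.not_dvd_branchIndex` : `q ∤ e₀ = branchIndex (baseKind q) M` for `q` prime, `q ∤ M`;
* `H29UP.exists_root_unrPart` : `ζ_e ∈ L` if `q ∤ e`, `e ∣ m`, `ζ_m ∈ K₁`;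
* `H29UP.exists_root_branchIndex` : `ζ_{e₀} ∈ L` if `e₀ ∣ m`, `ζ_m ∈ K₁`;
* `H29UP.unrPart_package` : ALL the hypotheses on `L` used by the concrete leaves:
  finite, `q` a uniformiser of `A ∩ L`, fixed by inertia, `ζ_n ∈ L`, `ζ_{e₀} ∈ L`, and a
  Frobenius automorphism `γ` of `L` (shape `hγ hγ' hfrob` of `H12LF.pinsep_unr`).
-/

set_option autoImplicit false
set_option linter.style.longLine false
set_option linter.unusedSectionVars false
set_option linter.unusedVariables false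
set_option linter.style.haveILetI false
set_option synthInstance.maxHeartbeats 400000
set_option maxHeartbeats 1000000

noncomputable section

open ModularCurve H7S18

namespace H29UP

local notation "Qb" => AlgebraicClosure ℚ

/-- `q ∤ e₀` -/
theorem not_dvd_branchIndex {q M : ℕ} (hq : q.Prime) (hqM : ¬ q ∣ M) :
    ¬ q ∣ branchIndex (baseKind q) M := by
  unfold branchIndex baseKind
  intro h
  by_cases h2 : q = 2
  · subst h2
    simp only [if_true] at h
    norm_num at h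
    rcases (Nat.Prime.dvd_mul Nat.prime_two).1 h with h3 | h3
    · norm_num at h3
    · exact hqM h3
  by_cases h3 : q = 3
  · subst h3
    simp only [if_neg h2, if_true] at h
    norm_num at h
    rcases (Nat.Prime.dvd_mul Nat.prime_three).1 h with h4 | h4
    · norm_num at h4
    · exact hqM h4
  simp only [if_neg h2, if_neg h3, if_true] at h
  rcases (Nat.Prime.dvd_mul hq).1 h with h4 | h4
  · have h6 : q ∣ 2 * 3 := h4
    rcases (Nat.Prime.dvd_mul hq).1 h6 with h5 | h5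
    · exact h2 ((Nat.prime_dvd_prime_iff_eq hq Nat.prime_two).1 h5)
    · exact h3 ((Nat.prime_dvd_prime_iff_eq hq Nat.prime_three).1 h5)
  · exact hqM h4

section Roots

variable (A : ValuationSubring Qb) (K₁ : IntermediateField ℚ Qb)

/-- roots of unity of order prime to `q` in `K₁` lie in the unramified part -/
theorem exists_root_unrPart {q : ℕ} (hq : q.Prime) (hA : A.LiesOverPrime q)
    {e m : ℕ} (he : ¬ q ∣ e) (hem : e ∣ m) (hm : 0 < m)
    (hζ : ∃ ζ : K₁, IsPrimitiveRoot ζ m) :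
    ∃ ζ' : H29DU.unrPart A K₁, IsPrimitiveRoot ζ' e := by
  obtain ⟨ζ, hζ⟩ := hζ
  obtain ⟨d, rfl⟩ := hem
  have he0 : 0 < e := Nat.pos_of_ne_zero (fun h0 => he (h0 ▸ dvd_zero q))
  have hd0 : 0 < d := Nat.pos_of_ne_zero (fun h0 => by rw [h0, mul_zero] at hm; exact hm.ne' rfl)
  have hζe : IsPrimitiveRoot (ζ ^ d) e := hζ.pow hm (mul_comm e d)
  have hQ : IsPrimitiveRoot (((ζ ^ d : K₁) : Qb)) e :=
    hζe.map_of_injective (f := K₁.val) Subtype.val_injective
  have hmem : (((ζ ^ d : K₁) : Qb)) ∈ H29DU.unrPart A K₁ :=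
    H29DU.root_of_unity_mem_unrPart A K₁ hq hA he hQ.pow_eq_one (ζ ^ d).2
  refine ⟨⟨((ζ ^ d : K₁) : Qb), hmem⟩, ?_⟩
  exact IsPrimitiveRoot.of_map_of_injective (f := (H29DU.unrPart A K₁).val) (by exact hQ)
    Subtype.val_injective

/-- `ζ_{e₀} ∈ L` -/
theorem exists_root_branchIndex {q M : ℕ} (hq : q.Prime) (hqM : ¬ q ∣ M)
    (hA : A.LiesOverPrime q) {m : ℕ} (hem : branchIndex (baseKind q) M ∣ m) (hm : 0 < m)
    (hζ : ∃ ζ : K₁, IsPrimitiveRoot ζ m) :
    ∃ ζ' : H29DU.unrPart A K₁, IsPrimitiveRoot ζ' (branchIndex (baseKind q) M) :=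
  exists_root_unrPart A K₁ hq hA (not_dvd_branchIndex hq hqM) hem hm hζ

/-- **the package**: everything the concrete leaves need about `L = unrPart A K₁`. -/
theorem unrPart_package {q M : ℕ} (hq : q.Prime) (hqM : ¬ q ∣ M)
    (hA : A.LiesOverPrime q) [FiniteDimensional ℚ K₁] [Normal ℚ K₁]
    {n : ℕ} (hqn : ¬ q ∣ n) (hζn : ∃ ζ : K₁, IsPrimitiveRoot ζ n)
    {m : ℕ} (hem : branchIndex (baseKind q) M ∣ m) (hm : 0 < m)
    (hζm : ∃ ζ : K₁, IsPrimitiveRoot ζ m) :
    FiniteDimensional ℚ (H29DU.unrPart A K₁) ∧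
    Irreducible ((q : ℕ) : ↥(descVal A (H29DU.unrPart A K₁))) ∧
    (∀ τ ∈ A.inertiaSubgroupIn ℚ, ∀ x : H29DU.unrPart A K₁, τ (x : Qb) = x) ∧
    (∃ ζ : H29DU.unrPart A K₁, IsPrimitiveRoot ζ n) ∧
    (∃ ζ' : H29DU.unrPart A K₁, IsPrimitiveRoot ζ' (branchIndex (baseKind q) M)) ∧
    ∃ γ : ↥(H29DU.unrPart A K₁) ≃ₐ[ℚ] ↥(H29DU.unrPart A K₁),
      (∀ a : ↥(H29DU.unrPart A K₁), a ∈ descVal A (H29DU.unrPart A K₁) →
        γ a ∈ descVal A (H29DU.unrPart A K₁)) ∧
      (∀ a : ↥(H29DU.unrPart A K₁), a ∈ descVal A (H29DU.unrPart A K₁) →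
        γ.symm a ∈ descVal A (H29DU.unrPart A K₁)) ∧
      (∀ a : ↥(H29DU.unrPart A K₁), a ∈ descVal A (H29DU.unrPart A K₁) →
        γ a - a ^ q ∈ (descVal A (H29DU.unrPart A K₁)).nonunits) := by
  refine ⟨inferInstance, H29DU.irreducible_unrPart A K₁ q hq hA, H29DU.unrPart_fixed A K₁, ?_,
    exists_root_branchIndex A K₁ hq hqM hA hem hm hζm,
    H12LF.exists_frob_unrPart A q hq hA K₁⟩
  by_cases hn : n = 0
  · subst hn
    exact absurd (dvd_zero q) hqn
  obtain ⟨ζ, hζ⟩ := hζn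
  have hQ : IsPrimitiveRoot ((ζ : Qb)) n :=
    hζ.map_of_injective (f := K₁.val) Subtype.val_injective
  have hmem : (ζ : Qb) ∈ H29DU.unrPart A K₁ :=
    H29DU.root_of_unity_mem_unrPart A K₁ hq hA hqn hQ.pow_eq_one ζ.2
  exact ⟨⟨(ζ : Qb), hmem⟩, IsPrimitiveRoot.of_map_of_injective
    (f := (H29DU.unrPart A K₁).val) (by exact hQ) Subtype.val_injective⟩

end Roots

end H29UP

end
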