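/-
Item 86 (S36), slice **(TW-PSI)** (helper25), part 2: on the third valuation `V₃` of
`F_{K₁}(M)`, `q² ∥ M` (helper3), the unit `ε₃ = (j(𝐪^{q²}) - j(𝐪))^{q-1} / q` is congruent to
`- ψ`, where `ψ = (θ j)(𝐪^q) / (θ j)(𝐪)` is helper23's `ψ`:

* `iota3_eps3`      : `ι₃ ε₃ = gvEps E`,  `E + ψ = C (ζ - 1) · h'`  (series over `R₃`);
* `V3_eps3_add_psi` : `V₃.valuation (ε₃ + y) < 1` for every `y ∈ F_{K₁}(M)` whose `ι₃`-expansion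
                      is the series `ψ`;
* `V3_eps3_add_psi_of_level` : same for `y` of level `N₁ ∣ M`, `q² ∤ N₁`, with `𝐪`-expansion `ψ`.

So at a closed point `𝔫` on `C₃` only with `ψ ∈ B_𝔫ˣ` (helper23's (R3)): `ε₃ ∈ B_𝔫ˣ`,
`b^{q-1} = q · unit`, `P₃ B_𝔫 = (b)`.
-/
import Mathlib
import Fermat.Agent.S36.V3Unif_helper3
import Fermat.Agent.S36.TwPsi_helper25

set_option autoImplicit false
set_option linter.style.longLine false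
set_option linter.unusedVariables false
set_option linter.unusedSectionVars false
set_option linter.style.haveILetI false

noncomputable section

open ModularCurve RH24 H28S28 H7S18 HahnSeries H28GV H8PB H3TAU H3SIG H3V3

namespace H25TW

section Series

variable {K : Type} [Field K] (R : ValuationSubring K)

/-- a series all of whose coefficients are multiples of a non-unit `π` lies in the maximal ideal
of the Gauss ring -/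
theorem inGm_C_mul (π : ↥R) (hπ : π ∈ IsLocalRing.maximalIdeal ↥R) (h : LaurentSeries ↥R) :
    InGm R (gvEps R (HahnSeries.C π * h)) := by
  refine ⟨HahnSeries.C π * h, 1, ⟨0, ?_⟩, fun n => ?_, ?_⟩
  · rw [HahnSeries.coeff_one, if_pos rfl]
    exact isUnit_one
  · rw [HahnSeries.C_mul_eq_smul, HahnSeries.coeff_smul, smul_eq_mul]
    intro hu
    exact (IsLocalRing.mem_maximalIdeal _).1 (Ideal.mul_mem_right _ _ hπ) hu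
  · change gvEps R (HahnSeries.C π * h) * gvEps R 1 = gvEps R (HahnSeries.C π * h)
    rw [map_one, mul_one]

/-- `ζ - 1` lies in the maximal ideal when `q` does -/
theorem pi_mem_maximalIdeal (q : ℕ) (hq : q.Prime) (hqR : (q : K) ∈ R.nonunits)
    (ζ : (↥R)ˣ) (hsum : ∑ i ∈ Finset.range q, (ζ : ↥R) ^ i = 0) :
    (ζ : ↥R) - 1 ∈ IsLocalRing.maximalIdeal ↥R := by
  obtain ⟨c, hc⟩ := cyclo_pow q hq (ζ : ↥R) hsum
  have hqm : ((q : ℕ) : ↥R) ∈ IsLocalRing.maximalIdeal ↥R := by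
    have h1 : (((q : ℕ) : ↥R) : K) ∈ R.nonunits := by
      have : (((q : ℕ) : ↥R) : K) = (q : K) := by push_cast; rfl
      rw [this]
      exact hqR
    rwa [ValuationSubring.coe_mem_nonunits_iff] at h1
  have h1 : ((ζ : ↥R) - 1) ^ (q - 1) ∈ IsLocalRing.maximalIdeal ↥R := by
    rw [hc]
    exact Ideal.neg_mem_iff _ |>.2 (Ideal.mul_mem_right _ _ hqm)
  exact (IsLocalRing.maximalIdeal.isMaximal ↥R).isPrime.mem_of_pow_mem _ h1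

theorem gvEps_coeffMap_int (ψ : LaurentSeries ℤ) :
    gvEps R (coeffMap (Int.castRingHom ↥R) ψ) = coeffMap (Int.castRingHom K) ψ := by
  show coeffMap R.subtype (coeffMap (Int.castRingHom ↥R) ψ) = _
  rw [coeffMap_coeffMap]
  exact coeffMap_congr (RingHom.ext_int _ _) ψ

end Series

section V3

variable {K₁ K₃ : IntermediateField ℚ Kbar} (R₃ : ValuationSubring ↥K₃)
  [IsDiscreteValuationRing R₃]
variable (M : ℕ) [NeZero M] (q : ℕ)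

/-- `ι₃ ε₃ = gvEps E` with `E + ψ = C (ζ - 1) · h'`. -/
theorem iota3_eps3 [Fact q.Prime] (h13 : K₁ ≤ K₃) (hq : q.Prime) (hM2 : q ^ 2 ∣ M)
    (hM3 : ¬ q ^ 3 ∣ M) (ζ : (↥K₃)ˣ) (hζ : IsPrimitiveRoot ζ q)
    (ψ : LaurentSeries ℤ)
    (hψ : haveI : NeZero q := ⟨(Fact.out : q.Prime).ne_zero⟩
      qExpand ℤ q (H23PS.theta (jqModC ℤ)) = ψ * H23PS.theta (jqModC ℤ)) :
    ∃ E h' : LaurentSeries ↥R₃,
      iota3 M q h13 hq hM2 hM3 ζ hζ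
        ((J2 M q K₁ hM2 - J0 M K₁) ^ (q - 1) / (q : FK ↥K₁ M)) = gvEps R₃ E ∧
      E + coeffMap (Int.castRingHom ↥R₃) ψ =
        HahnSeries.C (((unitR R₃ ζ hq.pos hζ.pow_eq_one : (↥R₃)ˣ) : ↥R₃) - 1) * h' := by
  have hsum : ∑ i ∈ Finset.range q,
      ((unitR R₃ ζ hq.pos hζ.pow_eq_one : (↥R₃)ˣ) : ↥R₃) ^ i = 0 :=
    (isPrimitiveRoot_unitR R₃ q hq ζ hζ).geom_sum_eq_zero hq.one_lt
  obtain ⟨E, h', hE, hEψ⟩ := eps3_add_psi q (unitR R₃ ζ hq.pos hζ.pow_eq_one) hsum ψ hψ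
  refine ⟨E, h', ?_, hEψ⟩
  have hq0 : (q : ↥K₃) ≠ 0 := by
    have : ((q : ℕ) : ↥K₃) ≠ 0 := Nat.cast_ne_zero.2 hq.ne_zero
    exact this
  have hC : (HahnSeries.C (q : ↥K₃) : LaurentSeries ↥K₃) ≠ 0 := by
    intro h0
    have := congrArg (fun z : LaurentSeries ↥K₃ => z.coeff 0) h0
    simp only [HahnSeries.C_apply, HahnSeries.coeff_single_same, HahnSeries.coeff_zero] at this
    exact hq0 this
  have hrel : iota3 M q h13 hq hM2 hM3 ζ hζ ((J2 M q K₁ hM2 - J0 M K₁) ^ (q - 1)) =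
      HahnSeries.C (q : ↥K₃) * gvEps R₃ E := by
    rw [map_pow, iota3_b R₃ M q h13 hq hM2 hM3 ζ hζ, ← map_pow, hE, map_mul, gvEps_C]
    congr 2
  rw [map_div₀, hrel, iota3_natCast, mul_div_cancel_left₀ _ hC]

/-- **(TW-PSI)** `ε₃ + ψ ∈ 𝔪(V₃)`. -/
theorem V3_eps3_add_psi [Fact q.Prime] (h13 : K₁ ≤ K₃) (hq : q.Prime) (hM2 : q ^ 2 ∣ M)
    (hM3 : ¬ q ^ 3 ∣ M) (ζ : (↥K₃)ˣ) (hζ : IsPrimitiveRoot ζ q)
    (hqR : (q : ↥K₃) ∈ R₃.nonunits)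
    (ψ : LaurentSeries ℤ)
    (hψ : haveI : NeZero q := ⟨(Fact.out : q.Prime).ne_zero⟩
      qExpand ℤ q (H23PS.theta (jqModC ℤ)) = ψ * H23PS.theta (jqModC ℤ))
    (y : FK ↥K₁ M)
    (hy : iota3 M q h13 hq hM2 hM3 ζ hζ y = coeffMap (Int.castRingHom ↥K₃) ψ) :
    (V3 R₃ M q h13 hq hM2 hM3 ζ hζ).valuation
      ((J2 M q K₁ hM2 - J0 M K₁) ^ (q - 1) / (q : FK ↥K₁ M) + y) < 1 := by
  obtain ⟨E, h', hE, hEψ⟩ := iota3_eps3 R₃ M q h13 hq hM2 hM3 ζ hζ ψ hψ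
  have hsum : ∑ i ∈ Finset.range q,
      ((unitR R₃ ζ hq.pos hζ.pow_eq_one : (↥R₃)ˣ) : ↥R₃) ^ i = 0 :=
    (isPrimitiveRoot_unitR R₃ q hq ζ hζ).geom_sum_eq_zero hq.one_lt
  have hπ := pi_mem_maximalIdeal R₃ q hq hqR (unitR R₃ ζ hq.pos hζ.pow_eq_one) hsum
  rw [valuation_V3_lt_one, map_add, hE, hy, ← gvEps_coeffMap_int R₃ ψ, ← map_add, hEψ]
  exact inGm_C_mul R₃ _ hπ h'

/-- **(TW-PSI)**, level form: `y` of level `N₁ ∣ M`, `q² ∤ N₁`, with `𝐪`-expansion `ψ`. -/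
theorem V3_eps3_add_psi_of_level [Fact q.Prime] (h13 : K₁ ≤ K₃) (hq : q.Prime)
    (hM2 : q ^ 2 ∣ M) (hM3 : ¬ q ^ 3 ∣ M) (ζ : (↥K₃)ˣ) (hζ : IsPrimitiveRoot ζ q)
    (hqR : (q : ↥K₃) ∈ R₃.nonunits)
    (ψ : LaurentSeries ℤ)
    (hψ : haveI : NeZero q := ⟨(Fact.out : q.Prime).ne_zero⟩
      qExpand ℤ q (H23PS.theta (jqModC ℤ)) = ψ * H23PS.theta (jqModC ℤ))
    (N₁ : ℕ) [NeZero N₁] (hN₁ : N₁ ∣ M) (hqN₁ : ¬ q ^ 2 ∣ N₁) (y : FK ↥K₁ M)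
    (hyl : (y : LaurentSeries ↥K₁) ∈ laurentBaseChange ↥K₁ (modularFunctionFieldFull N₁))
    (hy : (y : LaurentSeries ↥K₁) = coeffMap (Int.castRingHom ↥K₁) ψ) :
    (V3 R₃ M q h13 hq hM2 hM3 ζ hζ).valuation
      ((J2 M q K₁ hM2 - J0 M K₁) ^ (q - 1) / (q : FK ↥K₁ M) + y) < 1 := by
  refine V3_eps3_add_psi R₃ M q h13 hq hM2 hM3 ζ hζ hqR ψ hψ y ?_
  rw [iota3_of_level M q h13 hq hM2 hM3 ζ hζ N₁ hN₁ hqN₁ y hyl, hy, coeffMap_coeffMap]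
  exact coeffMap_congr (RingHom.ext_int _ _) ψ

end V3

/-! ### Any base series `X ∈ ℤ((𝐪))` with `θ X` a unit (`j`, `t₂`, `t₃`, …) -/

section Gen

variable {K₁ K₃ : IntermediateField ℚ Kbar} (R₃ : ValuationSubring ↥K₃)
  [IsDiscreteValuationRing R₃]
variable (M : ℕ) [NeZero M] (q : ℕ)

/-- `ι₃ (x₂ - x₀) = gvEps (tw ζ X - X)` -/
theorem iota3_b_gen (h13 : K₁ ≤ K₃) (hq : q.Prime) (hM2 : q ^ 2 ∣ M) (hM3 : ¬ q ^ 3 ∣ M)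
    (ζ : (↥K₃)ˣ) (hζ : IsPrimitiveRoot ζ q) (X : LaurentSeries ℤ) (x0 x2 : FK ↥K₁ M)
    (hx0 : iota3 M q h13 hq hM2 hM3 ζ hζ x0 = coeffMap (Int.castRingHom ↥K₃) X)
    (hx2 : iota3 M q h13 hq hM2 hM3 ζ hζ x2 = tw ζ (coeffMap (Int.castRingHom ↥K₃) X)) :
    iota3 M q h13 hq hM2 hM3 ζ hζ (x2 - x0) =
      gvEps R₃ (tw (unitR R₃ ζ hq.pos hζ.pow_eq_one) (coeffMap (Int.castRingHom ↥R₃) X) -
        coeffMap (Int.castRingHom ↥R₃) X) := by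
  rw [map_sub, hx0, hx2, map_sub, ← tw_gvEps R₃ ζ hq.pos hζ.pow_eq_one, gvEps_coeffMap_int]

/-- `ι₃ ε = gvEps E` with `E + ψ = C (ζ - 1) · h'`, `ε = (x₂ - x₀)^{q-1} / q`. -/
theorem iota3_eps3_gen [Fact q.Prime] (h13 : K₁ ≤ K₃) (hq : q.Prime) (hM2 : q ^ 2 ∣ M)
    (hM3 : ¬ q ^ 3 ∣ M) (ζ : (↥K₃)ˣ) (hζ : IsPrimitiveRoot ζ q)
    (X ψ : LaurentSeries ℤ) (hu : IsUnit (H23PS.theta X))
    (hψ : haveI : NeZero q := ⟨(Fact.out : q.Prime).ne_zero⟩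
      qExpand ℤ q (H23PS.theta X) = ψ * H23PS.theta X)
    (x0 x2 : FK ↥K₁ M)
    (hx0 : iota3 M q h13 hq hM2 hM3 ζ hζ x0 = coeffMap (Int.castRingHom ↥K₃) X)
    (hx2 : iota3 M q h13 hq hM2 hM3 ζ hζ x2 = tw ζ (coeffMap (Int.castRingHom ↥K₃) X)) :
    ∃ E h' : LaurentSeries ↥R₃,
      iota3 M q h13 hq hM2 hM3 ζ hζ ((x2 - x0) ^ (q - 1) / (q : FK ↥K₁ M)) = gvEps R₃ E ∧
      E + coeffMap (Int.castRingHom ↥R₃) ψ =
        HahnSeries.C (((unitR R₃ ζ hq.pos hζ.pow_eq_one : (↥R₃)ˣ) : ↥R₃) - 1) * h' := by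
  have hsum : ∑ i ∈ Finset.range q,
      ((unitR R₃ ζ hq.pos hζ.pow_eq_one : (↥R₃)ˣ) : ↥R₃) ^ i = 0 :=
    (isPrimitiveRoot_unitR R₃ q hq ζ hζ).geom_sum_eq_zero hq.one_lt
  obtain ⟨E, h', hE, hEψ⟩ :=
    eps3_add_psi_gen q (unitR R₃ ζ hq.pos hζ.pow_eq_one) hsum X ψ hu hψ
  refine ⟨E, h', ?_, hEψ⟩
  have hq0 : (q : ↥K₃) ≠ 0 := by
    have : ((q : ℕ) : ↥K₃) ≠ 0 := Nat.cast_ne_zero.2 hq.ne_zero
    exact this
  have hC : (HahnSeries.C (q : ↥K₃) : LaurentSeries ↥K₃) ≠ 0 := by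
    intro h0
    have := congrArg (fun z : LaurentSeries ↥K₃ => z.coeff 0) h0
    simp only [HahnSeries.C_apply, HahnSeries.coeff_single_same, HahnSeries.coeff_zero] at this
    exact hq0 this
  have hrel : iota3 M q h13 hq hM2 hM3 ζ hζ ((x2 - x0) ^ (q - 1)) =
      HahnSeries.C (q : ↥K₃) * gvEps R₃ E := by
    rw [map_pow, iota3_b_gen R₃ M q h13 hq hM2 hM3 ζ hζ X x0 x2 hx0 hx2, ← map_pow, hE, map_mul,
      gvEps_C]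
    congr 2
  rw [map_div₀, hrel, iota3_natCast, mul_div_cancel_left₀ _ hC]

/-- **(TW-PSI)**, general base function: `ε + ψ ∈ 𝔪(V₃)`. -/
theorem V3_eps3_add_psi_gen [Fact q.Prime] (h13 : K₁ ≤ K₃) (hq : q.Prime) (hM2 : q ^ 2 ∣ M)
    (hM3 : ¬ q ^ 3 ∣ M) (ζ : (↥K₃)ˣ) (hζ : IsPrimitiveRoot ζ q)
    (hqR : (q : ↥K₃) ∈ R₃.nonunits)
    (X ψ : LaurentSeries ℤ) (hu : IsUnit (H23PS.theta X))
    (hψ : haveI : NeZero q := ⟨(Fact.out : q.Prime).ne_zero⟩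
      qExpand ℤ q (H23PS.theta X) = ψ * H23PS.theta X)
    (x0 x2 y : FK ↥K₁ M)
    (hx0 : iota3 M q h13 hq hM2 hM3 ζ hζ x0 = coeffMap (Int.castRingHom ↥K₃) X)
    (hx2 : iota3 M q h13 hq hM2 hM3 ζ hζ x2 = tw ζ (coeffMap (Int.castRingHom ↥K₃) X))
    (hy : iota3 M q h13 hq hM2 hM3 ζ hζ y = coeffMap (Int.castRingHom ↥K₃) ψ) :
    (V3 R₃ M q h13 hq hM2 hM3 ζ hζ).valuation
      ((x2 - x0) ^ (q - 1) / (q : FK ↥K₁ M) + y) < 1 := by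
  obtain ⟨E, h', hE, hEψ⟩ :=
    iota3_eps3_gen R₃ M q h13 hq hM2 hM3 ζ hζ X ψ hu hψ x0 x2 hx0 hx2
  have hsum : ∑ i ∈ Finset.range q,
      ((unitR R₃ ζ hq.pos hζ.pow_eq_one : (↥R₃)ˣ) : ↥R₃) ^ i = 0 :=
    (isPrimitiveRoot_unitR R₃ q hq ζ hζ).geom_sum_eq_zero hq.one_lt
  have hπ := pi_mem_maximalIdeal R₃ q hq hqR (unitR R₃ ζ hq.pos hζ.pow_eq_one) hsum
  rw [valuation_V3_lt_one, map_add, hE, hy, ← gvEps_coeffMap_int R₃ ψ, ← map_add, hEψ]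
  exact inGm_C_mul R₃ _ hπ h'

/-- general base function: `x₂ - x₀` lies in `𝔪(V₃)`. -/
theorem V3_unif_lt_gen (h13 : K₁ ≤ K₃) (hq : q.Prime) (hM2 : q ^ 2 ∣ M)
    (hM3 : ¬ q ^ 3 ∣ M) (ζ : (↥K₃)ˣ) (hζ : IsPrimitiveRoot ζ q)
    (hqR : (q : ↥K₃) ∈ R₃.nonunits)
    (X : LaurentSeries ℤ) (x0 x2 : FK ↥K₁ M)
    (hx0 : iota3 M q h13 hq hM2 hM3 ζ hζ x0 = coeffMap (Int.castRingHom ↥K₃) X)
    (hx2 : iota3 M q h13 hq hM2 hM3 ζ hζ x2 = tw ζ (coeffMap (Int.castRingHom ↥K₃) X)) :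
    (V3 R₃ M q h13 hq hM2 hM3 ζ hζ).valuation (x2 - x0) < 1 := by
  have hsum : ∑ i ∈ Finset.range q,
      ((unitR R₃ ζ hq.pos hζ.pow_eq_one : (↥R₃)ˣ) : ↥R₃) ^ i = 0 :=
    (isPrimitiveRoot_unitR R₃ q hq ζ hζ).geom_sum_eq_zero hq.one_lt
  have hπ := pi_mem_maximalIdeal R₃ q hq hqR (unitR R₃ ζ hq.pos hζ.pow_eq_one) hsum
  obtain ⟨g, hg⟩ := tw_sub_self (unitR R₃ ζ hq.pos hζ.pow_eq_one)
    (coeffMap (Int.castRingHom ↥R₃) X)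
  rw [valuation_V3_lt_one, iota3_b_gen R₃ M q h13 hq hM2 hM3 ζ hζ X x0 x2 hx0 hx2, hg]
  exact inGm_C_mul R₃ _ hπ _

/-- an element whose `ι₃`-expansion is a primitive integral series is a unit of `V₃` -/
theorem V3_valuation_eq_one_of_eps (h13 : K₁ ≤ K₃) (hq : q.Prime) (hM2 : q ^ 2 ∣ M)
    (hM3 : ¬ q ^ 3 ∣ M) (ζ : (↥K₃)ˣ) (hζ : IsPrimitiveRoot ζ q)
    (z : FK ↥K₁ M) (U : LaurentSeries ↥R₃) (hU : rhoR R₃ U ≠ 0)
    (hx : iota3 M q h13 hq hM2 hM3 ζ hζ z = gvEps R₃ U) :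
    (V3 R₃ M q h13 hq hM2 hM3 ζ hζ).valuation z = 1 := by
  have hone : rhoR R₃ (1 : LaurentSeries ↥R₃) ≠ 0 := by
    rw [map_one]
    exact one_ne_zero
  apply le_antisymm
  · rw [valuation_V3_le_one, hx]
    exact inG_eps R₃ U
  · have hinv : (V3 R₃ M q h13 hq hM2 hM3 ζ hζ).valuation z⁻¹ ≤ 1 := by
      rw [valuation_V3_le_one, map_inv₀, hx]
      have hrel' : (gvEps R₃ U)⁻¹ * gvEps R₃ U = HahnSeries.C (1 : ↥K₃) * gvEps R₃ 1 := by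
        rw [inv_mul_cancel₀ (gvEps_ne_zero hU), map_one, map_one, mul_one]
      exact (inG_iff_of_nf hone hU hrel').2 R₃.one_mem
    have hx0 : z ≠ 0 := by
      intro h0
      rw [h0, map_zero] at hx
      exact gvEps_ne_zero hU hx.symm
    have hmul : (V3 R₃ M q h13 hq hM2 hM3 ζ hζ).valuation z *
        (V3 R₃ M q h13 hq hM2 hM3 ζ hζ).valuation z⁻¹ = 1 := by
      rw [← map_mul, mul_inv_cancel₀ hx0, map_one]
    calc (1 : _) = _ := hmul.symm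
      _ ≤ (V3 R₃ M q h13 hq hM2 hM3 ζ hζ).valuation z * 1 := mul_le_mul_right hinv _
      _ = _ := mul_one _

/-- general base function: `ε = (x₂ - x₀)^{q-1} / q` is a unit of `V₃`. -/
theorem V3_unif_unit_gen [Fact q.Prime] (h13 : K₁ ≤ K₃) (hq : q.Prime) (hM2 : q ^ 2 ∣ M)
    (hM3 : ¬ q ^ 3 ∣ M) (ζ : (↥K₃)ˣ) (hζ : IsPrimitiveRoot ζ q)
    (hqR : (q : ↥K₃) ∈ R₃.nonunits)
    (X ψ : LaurentSeries ℤ) (hu : IsUnit (H23PS.theta X))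
    (hψ : haveI : NeZero q := ⟨(Fact.out : q.Prime).ne_zero⟩
      qExpand ℤ q (H23PS.theta X) = ψ * H23PS.theta X)
    (x0 x2 : FK ↥K₁ M)
    (hx0 : iota3 M q h13 hq hM2 hM3 ζ hζ x0 = coeffMap (Int.castRingHom ↥K₃) X)
    (hx2 : iota3 M q h13 hq hM2 hM3 ζ hζ x2 = tw ζ (coeffMap (Int.castRingHom ↥K₃) X)) :
    (V3 R₃ M q h13 hq hM2 hM3 ζ hζ).valuation
      ((x2 - x0) ^ (q - 1) / (q : FK ↥K₁ M)) = 1 := by
  haveI : NeZero q := ⟨(Fact.out : q.Prime).ne_zero⟩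
  obtain ⟨E, h', hE, hEψ⟩ :=
    iota3_eps3_gen R₃ M q h13 hq hM2 hM3 ζ hζ X ψ hu hψ x0 x2 hx0 hx2
  have hsum : ∑ i ∈ Finset.range q,
      ((unitR R₃ ζ hq.pos hζ.pow_eq_one : (↥R₃)ˣ) : ↥R₃) ^ i = 0 :=
    (isPrimitiveRoot_unitR R₃ q hq ζ hζ).geom_sum_eq_zero hq.one_lt
  have hπ := pi_mem_maximalIdeal R₃ q hq hqR (unitR R₃ ζ hq.pos hζ.pow_eq_one) hsum
  refine V3_valuation_eq_one_of_eps R₃ M q h13 hq hM2 hM3 ζ hζ _ E ?_ hE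
  -- `ψ` is a unit of `ℤ((𝐪))`
  have hψu : IsUnit ψ := by
    have h1 : IsUnit (qExpand ℤ q (H23PS.theta X)) := hu.map (qExpand ℤ q)
    rw [hψ] at h1
    exact isUnit_of_mul_isUnit_left h1
  have hψR : IsUnit (rhoR R₃ (coeffMap (Int.castRingHom ↥R₃) ψ)) :=
    (hψu.map (coeffMap (Int.castRingHom ↥R₃))).map (rhoR R₃)
  have h0 : rhoR R₃ (HahnSeries.C (((unitR R₃ ζ hq.pos hζ.pow_eq_one : (↥R₃)ˣ) : ↥R₃) - 1)) =
      0 := by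
    rw [h3b_rho_eq_zero_iff]
    intro n
    by_cases hn : n = 0
    · subst hn
      rw [HahnSeries.C_apply, HahnSeries.coeff_single_same]
      exact (IsLocalRing.mem_maximalIdeal _).1 hπ
    · rw [HahnSeries.C_apply, HahnSeries.coeff_single_of_ne hn]
      exact not_isUnit_zero
  have h2 : rhoR R₃ E = - rhoR R₃ (coeffMap (Int.castRingHom ↥R₃) ψ) := by
    have h3 := congrArg (rhoR R₃) hEψ
    rw [map_add, map_mul, h0, zero_mul] at h3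
    exact eq_neg_of_add_eq_zero_left h3
  rw [h2, neg_ne_zero]
  exact hψR.ne_zero

end Gen

end H25TW

end
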