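/-
helper10: item 86 (S36), leaf (WPT2) (the `W_{q²}`-image point), ABSTRACT and SEMI-GENERIC part.

`B` an integrally closed local domain with fraction field `F`; `J, J₁, J₂, T' ∈ F`
(`j`, `j(𝐪^q)`, `j(𝐪^{q²}) = W j`, `W t`) with `Φ_q(J, J₁) = 0`, `Φ_q(J₁, J₂) = 0`,
`J₂ T'^k = G(T')`, `G ∈ ℤ[X]` monic of degree `> k`.

* `H10WP.step_mem`, `step_cusp` : one step of the modular equation (`J ∈ B ⇒ J₁ ∈ B`,
  `J⁻¹ ∈ 𝔪_B ⇒ J₁⁻¹ ∈ 𝔪_B`);
* `H10WP.wp_abs_mem` : `J ∈ B ⇒ T' ∈ B`;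
* `H10WP.wp_abs` : `J ∈ B` or `J⁻¹ ∈ 𝔪_B` ⇒ `T' ∈ B` or `T'⁻¹ ∈ B`;
* `H10WP.wp_generic_mem`, `wp_generic` : the same in the chart language of S34
  (`InLoc R c 𝔫`).
-/
import Mathlib
import Fermat.Agent.S34.HWGen_helper24

set_option autoImplicit false
set_option linter.unusedSectionVars false
set_option linter.unusedVariables false
set_option linter.style.haveILetI false
set_option synthInstance.maxHeartbeats 400000

open Polynomial IntermediateField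

noncomputable section

namespace H10WP

open H27CS H4S34

section abs

variable {B : Type*} [CommRing B] [IsDomain B] [IsIntegrallyClosed B] [IsLocalRing B]
variable {F : Type*} [Field F] [Algebra B F] [IsFractionRing B F]
variable {p : ℕ} [NeZero p]

omit [IsLocalRing B] [NeZero p] in
/-- one step of the modular equation, non-cuspidal: `J ∈ B ⇒ J' ∈ B`. -/
theorem step_mem {Φ : Polynomial (Polynomial ℤ)} (hmon : Φ.Monic) {J J' : F}
    (h : ev2 Φ J J' = 0) (hJ : J ∈ (algebraMap B F).range) :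
    J' ∈ (algebraMap B F).range := by
  obtain ⟨b, rfl⟩ := hJ
  have hcomp : (algebraMap B F).comp (ev b) = ev (algebraMap B F b) :=
    RingHom.ext (fun c => map_ev _ b c)
  have hJ'int : IsIntegral B J' := by
    refine ⟨Φ.map (ev b), hmon.map _, ?_⟩
    rw [Polynomial.eval₂_map, hcomp]
    exact h
  obtain ⟨b', hb'⟩ := IsIntegrallyClosed.algebraMap_eq_of_integral hJ'int
  exact ⟨b', hb'⟩

/-- one step of the modular equation, cuspidal: `J⁻¹ ∈ 𝔪_B ⇒ J'⁻¹ ∈ 𝔪_B`. -/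
theorem step_cusp {Φ : Polynomial (Polynomial ℤ)} (hΦ : IsModPoly p Φ) (hmon : Φ.Monic)
    (hdeg : Φ.natDegree = p + 1) {J J' : F} (hJ' : J' ≠ 0) (h : ev2 Φ J J' = 0)
    (hJ : ∃ U ∈ IsLocalRing.maximalIdeal B, J * algebraMap B F U = 1) :
    ∃ U ∈ IsLocalRing.maximalIdeal B, J' * algebraMap B F U = 1 := by
  obtain ⟨U, hU, hJU⟩ := hJ
  obtain ⟨V, e, c, W, hV, -, -, -, hVm⟩ := exists_V_e hΦ hmon hdeg hJ' h hU hJU
  exact ⟨V, hVm, by rw [hV, mul_inv_cancel₀ hJ']⟩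

omit [IsLocalRing B] in
/-- `J' T'^k = G(T')` with `G` monic of degree `> k` and `J' ∈ B`: then `T' ∈ B`. -/
theorem rel_mem (G : Polynomial ℤ) (hG : G.Monic) (k : ℕ) (hk : k < G.natDegree)
    {J' T' : F} (hrel : ev T' G = J' * T' ^ k) (hJ' : J' ∈ (algebraMap B F).range) :
    T' ∈ (algebraMap B F).range := by
  obtain ⟨b', rfl⟩ := hJ'
  have hGm : (G.map (Int.castRingHom B)).Monic := hG.map _
  have hdeg' : (Polynomial.C b' * (Polynomial.X : Polynomial B) ^ k).degree <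
      (G.map (Int.castRingHom B)).degree := by
    rw [Polynomial.degree_eq_natDegree hGm.ne_zero, hG.natDegree_map]
    refine lt_of_le_of_lt (Polynomial.degree_C_mul_X_pow_le k _) ?_
    exact_mod_cast hk
  have hT'int : IsIntegral B T' := by
    refine ⟨G.map (Int.castRingHom B) - Polynomial.C b' * Polynomial.X ^ k,
      hGm.sub_of_left hdeg', ?_⟩
    rw [Polynomial.eval₂_sub, Polynomial.eval₂_map, Polynomial.eval₂_mul, Polynomial.eval₂_C,
      Polynomial.eval₂_pow, Polynomial.eval₂_X]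
    have hc : (algebraMap B F).comp (Int.castRingHom B) = Int.castRingHom F :=
      RingHom.ext_int _ _
    rw [hc]
    have : Polynomial.eval₂ (Int.castRingHom F) T' G = ev T' G := rfl
    rw [this, hrel, sub_self]
  obtain ⟨y, hy⟩ := IsIntegrallyClosed.algebraMap_eq_of_integral hT'int
  exact ⟨y, hy⟩

omit [IsLocalRing B] [NeZero p] in
/-- **non-cuspidal branch, two steps**: `J ∈ B ⇒ T' ∈ B`. -/
theorem wp_abs_mem {Φ : Polynomial (Polynomial ℤ)} (hmon : Φ.Monic) {J J₁ J₂ T' : F}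
    (h1 : ev2 Φ J J₁ = 0) (h2 : ev2 Φ J₁ J₂ = 0)
    (G : Polynomial ℤ) (hG : G.Monic) (k : ℕ) (hk : k < G.natDegree)
    (hrel : ev T' G = J₂ * T' ^ k) (hJ : J ∈ (algebraMap B F).range) :
    T' ∈ (algebraMap B F).range :=
  rel_mem G hG k hk hrel (step_mem hmon h2 (step_mem hmon h1 hJ))

/-- **(H_W) for `W_{q²}`, abstract form**: `J ∈ B` or `J⁻¹ ∈ 𝔪_B` ⇒ `T' ∈ B` or `T'⁻¹ ∈ B`. -/
theorem wp_abs {Φ : Polynomial (Polynomial ℤ)} (hΦ : IsModPoly p Φ) (hmon : Φ.Monic)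
    (hdeg : Φ.natDegree = p + 1) {J J₁ J₂ T' : F} (hJ₁ : J₁ ≠ 0) (hJ₂ : J₂ ≠ 0)
    (h1 : ev2 Φ J J₁ = 0) (h2 : ev2 Φ J₁ J₂ = 0)
    (hJ : J ∈ (algebraMap B F).range ∨
      ∃ U ∈ IsLocalRing.maximalIdeal B, J * algebraMap B F U = 1)
    (G : Polynomial ℤ) (hG : G.Monic) (k : ℕ) (hk : k < G.natDegree)
    (hrel : ev T' G = J₂ * T' ^ k) :
    T' ∈ (algebraMap B F).range ∨ T'⁻¹ ∈ (algebraMap B F).range :=
  H24HW.hw_abs hΦ hmon hdeg hJ₂ h2
    (hJ.imp (step_mem hmon h1) (step_cusp hΦ hmon hdeg hJ₁ h1)) G hG k hk hrel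

end abs

section gen

variable (R : Type) [CommRing R] [IsDomain R] [IsDiscreteValuationRing R]
  (K : Type) [Field K] [CharZero K] [Algebra R K] [IsFractionRing R K]
  {F : Type} [Field F] [Algebra K F] [Algebra R F] [IsScalarTower R K F]

/-- non-cuspidal branch in the chart language, for a model `B` of the local ring. -/
theorem wp_generic_mem_B (c : F) [FiniteDimensional K⟮c⟯ F] (𝔫 : Ideal (Chart R c))
    [𝔫.IsPrime]
    (B : Type) [CommRing B] [Algebra (Chart R c) B] [IsLocalization.AtPrime B 𝔫]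
    [Algebra B F] [IsScalarTower (Chart R c) B F]
    {Φ : Polynomial (Polynomial ℤ)} (hmon : Φ.Monic) (J J₁ J₂ T' : F)
    (h1 : ev2 Φ J J₁ = 0) (h2 : ev2 Φ J₁ J₂ = 0)
    (G : Polynomial ℤ) (hG : G.Monic) (k : ℕ) (hk : k < G.natDegree)
    (hrel' : ev T' G = J₂ * T' ^ k) (hJ : InLoc R c 𝔫 J) :
    InLoc R c 𝔫 T' := by
  haveI : IsDomain B := H22BR.loc_isDomain R c 𝔫 B
  haveI : IsLocalRing B := H22BR.loc_isLocalRing R c 𝔫 B
  haveI : IsIntegrallyClosed B := H22BR.loc_intClosed R K c 𝔫 B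
  haveI : IsFractionRing B F := H22BR.loc_isFractionRing R K c 𝔫 B
  exact (H22BR.inLoc_iff R c 𝔫 B _).2
    (wp_abs_mem (B := B) hmon h1 h2 G hG k hk hrel' ((H22BR.inLoc_iff R c 𝔫 B _).1 hJ))

/-- **non-cuspidal branch**: at a prime `𝔫` of the chart `c` with `J ∈ B_𝔫`: `T' ∈ B_𝔫`. -/
theorem wp_generic_mem (c : F) [FiniteDimensional K⟮c⟯ F] (𝔫 : Ideal (Chart R c))
    [𝔫.IsPrime]
    {Φ : Polynomial (Polynomial ℤ)} (hmon : Φ.Monic) (J J₁ J₂ T' : F)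
    (h1 : ev2 Φ J J₁ = 0) (h2 : ev2 Φ J₁ J₂ = 0)
    (G : Polynomial ℤ) (hG : G.Monic) (k : ℕ) (hk : k < G.natDegree)
    (hrel' : ev T' G = J₂ * T' ^ k) (hJ : InLoc R c 𝔫 J) :
    InLoc R c 𝔫 T' := by
  haveI := H22BR.bsub_atPrime R K c 𝔫
  haveI := H22BR.bsub_tower R K c 𝔫
  exact wp_generic_mem_B R K c 𝔫 (H22BR.Bsub R K c 𝔫) hmon J J₁ J₂ T' h1 h2 G hG k hk
    hrel' hJ

/-- **(H_W) for `W_{q²}`, semi-generic form**, for any model `B` of the local ring. -/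
theorem wp_generic_B (c : F) [FiniteDimensional K⟮c⟯ F] (𝔫 : Ideal (Chart R c)) [𝔫.IsPrime]
    (B : Type) [CommRing B] [Algebra (Chart R c) B] [IsLocalization.AtPrime B 𝔫]
    [Algebra B F] [IsScalarTower (Chart R c) B F]
    {p : ℕ} [NeZero p] {Φ : Polynomial (Polynomial ℤ)} (hΦ : IsModPoly p Φ) (hmon : Φ.Monic)
    (hdeg : Φ.natDegree = p + 1) (J J₁ J₂ T T' : F) (hJ₁ : J₁ ≠ 0) (hJ₂ : J₂ ≠ 0)
    (h1 : ev2 Φ J J₁ = 0) (h2 : ev2 Φ J₁ J₂ = 0)
    (G : Polynomial ℤ) (hG : G.Monic) (k : ℕ) (hk : k < G.natDegree)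
    (hrel : ev T G = J * T ^ k) (hrel' : ev T' G = J₂ * T' ^ k)
    (hu : k = 0 ∨ IsUnit (((G.coeff 0 : ℤ) : R)))
    (hT0 : T ≠ 0)
    (hc : c = T ∨ (c = T⁻¹ ∧ ∀ y : Chart R c, (y : F) = T⁻¹ → y ∈ 𝔫)) :
    InLoc R c 𝔫 T' ∨ InLoc R c 𝔫 T'⁻¹ := by
  haveI : IsDomain B := H22BR.loc_isDomain R c 𝔫 B
  haveI : IsLocalRing B := H22BR.loc_isLocalRing R c 𝔫 B
  haveI : IsIntegrallyClosed B := H22BR.loc_intClosed R K c 𝔫 B
  haveI : IsFractionRing B F := H22BR.loc_isFractionRing R K c 𝔫 B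
  have hval : ∀ y : Chart R c, algebraMap B F (algebraMap (Chart R c) B y) = (y : F) := fun y =>
    (IsScalarTower.algebraMap_apply (Chart R c) B F y).symm
  have hJ : J ∈ (algebraMap B F).range ∨
      ∃ U ∈ IsLocalRing.maximalIdeal B, J * algebraMap B F U = 1 := by
    rcases hc with hcT | ⟨hcT, hn⟩
    · -- chart `T`
      have hTB : T ∈ (algebraMap B F).range := by
        refine ⟨algebraMap (Chart R c) B ⟨c, H24HW.chart_self_mem R c⟩, ?_⟩
        rw [hval]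
        exact hcT
      refine H24HW.j_dich_of_mem G k hrel hTB ?_
      rcases hu with h | h
      · exact Or.inl h
      · right
        obtain ⟨r', hr'⟩ := h.exists_right_inv
        have h1 : (((G.coeff 0 : ℤ) : F)) * algebraMap R F r' = 1 := by
          have := congrArg (algebraMap R F) hr'
          rwa [map_mul, map_intCast, map_one] at this
        refine IsUnit.of_mul_eq_one
          (algebraMap (Chart R c) B ⟨algebraMap R F r', H24HW.chart_const_mem R c r'⟩) ?_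
        apply IsFractionRing.injective B F
        rw [map_mul, map_intCast, hval, map_one]
        exact h1
    · -- chart `T⁻¹` over `T = ∞`
      right
      have hU0 : (⟨c, H24HW.chart_self_mem R c⟩ : Chart R c) ∈ 𝔫 := hn _ hcT
      refine H24HW.j_dich_of_inv G hG k hk hrel
        (algebraMap (Chart R c) B ⟨c, H24HW.chart_self_mem R c⟩)
        ((IsLocalization.AtPrime.to_map_mem_maximal_iff B 𝔫 _).2 hU0) ?_
      rw [hval]
      show T * c = 1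
      rw [hcT, mul_inv_cancel₀ hT0]
  have hmain := wp_abs (B := B) hΦ hmon hdeg hJ₁ hJ₂ h1 h2 hJ G hG k hk hrel'
  rcases hmain with h | h
  · exact Or.inl ((H22BR.inLoc_iff R c 𝔫 B _).2 h)
  · exact Or.inr ((H22BR.inLoc_iff R c 𝔫 B _).2 h)

/-- **(H_W) for `W_{q²}`, semi-generic form.** -/
theorem wp_generic (c : F) [FiniteDimensional K⟮c⟯ F] (𝔫 : Ideal (Chart R c)) [𝔫.IsPrime]
    {p : ℕ} [NeZero p] {Φ : Polynomial (Polynomial ℤ)} (hΦ : IsModPoly p Φ) (hmon : Φ.Monic)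
    (hdeg : Φ.natDegree = p + 1) (J J₁ J₂ T T' : F) (hJ₁ : J₁ ≠ 0) (hJ₂ : J₂ ≠ 0)
    (h1 : ev2 Φ J J₁ = 0) (h2 : ev2 Φ J₁ J₂ = 0)
    (G : Polynomial ℤ) (hG : G.Monic) (k : ℕ) (hk : k < G.natDegree)
    (hrel : ev T G = J * T ^ k) (hrel' : ev T' G = J₂ * T' ^ k)
    (hu : k = 0 ∨ IsUnit (((G.coeff 0 : ℤ) : R)))
    (hT0 : T ≠ 0)
    (hc : c = T ∨ (c = T⁻¹ ∧ ∀ y : Chart R c, (y : F) = T⁻¹ → y ∈ 𝔫)) :
    InLoc R c 𝔫 T' ∨ InLoc R c 𝔫 T'⁻¹ := by
  haveI := H22BR.bsub_atPrime R K c 𝔫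
  haveI := H22BR.bsub_tower R K c 𝔫
  exact wp_generic_B R K c 𝔫 (H22BR.Bsub R K c 𝔫) hΦ hmon hdeg J J₁ J₂ T T' hJ₁ hJ₂ h1 h2
    G hG k hk hrel hrel' hu hT0 hc

end gen

end H10WP

end
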